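/-
S18 (U8): the "constants" half of the endgame.  Mathlib only.

* `exists_algebraMap_eq_of_aeval_eq`: `A0[j] ∩ A0[1/j] = A0` for `j` transcendental over `A0`.
* `isIntegral_of_isIntegralElem_aeval`, `isIntegral_of_isIntegral_adjoin`: an element of a field
  `E ⊇ A0[j]` (with `A0` an integrally closed domain and `j` transcendental over `A0`) that is
  integral over `A0[j]` and over `A0[1/j]` is integral over `A0`.
* `mem_range_algebraMap_of_isAlgebraic` / `_of_isIntegral`: an element of an extension `Ω` of an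
  algebraically closed field `L` that is algebraic over a subfield of `L` lies in `L`.
-/
import Mathlib

namespace Fermat.Agent.S18.IntConst

open Polynomial

/-- `A0[j] ∩ A0[1/j] = A0` when `j` is transcendental over `A0`. -/
theorem exists_algebraMap_eq_of_aeval_eq {A0 E : Type*} [CommRing A0] [Field E] [Algebra A0 E]
    (j : E) (hj : Transcendental A0 j) (P Q : A0[X]) (hPQ : aeval j P = aeval j⁻¹ Q) :
    ∃ c : A0, aeval j P = algebraMap A0 E c := by
  have : Nontrivial A0 := (algebraMap A0 E).domain_nontrivial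
  have hinj : Function.Injective (aeval j : A0[X] → E) := transcendental_iff_injective.mp hj
  have hj0 : j ≠ 0 := by
    rintro rfl
    have h0 : aeval (0 : E) (X : A0[X]) = aeval (0 : E) (0 : A0[X]) := by simp
    exact X_ne_zero (hinj h0)
  have h1 : aeval j (reflect Q.natDegree Q) * (j⁻¹) ^ Q.natDegree = aeval j⁻¹ Q := by
    let _ : Invertible (j⁻¹) := invertibleOfNonzero (inv_ne_zero hj0)
    have h := eval₂_reflect_mul_pow (algebraMap A0 E) (j⁻¹) Q.natDegree Q le_rfl
    rw [invOf_eq_inv, inv_inv] at h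
    simpa [aeval_def] using h
  have h2 : aeval j (P * X ^ Q.natDegree) = aeval j (reflect Q.natDegree Q) := by
    rw [map_mul, map_pow, aeval_X, hPQ, ← h1, mul_assoc, ← mul_pow, inv_mul_cancel₀ hj0, one_pow,
      mul_one]
  have h3 : P * X ^ Q.natDegree = reflect Q.natDegree Q := hinj h2
  have h4 : ∀ k, 1 ≤ k → P.coeff k = 0 := by
    intro k hk
    have h5 := congrArg (fun p => p.coeff (k + Q.natDegree)) h3
    simp only [coeff_mul_X_pow, coeff_reflect] at h5
    rw [h5, revAt_eq_self_of_lt (by omega)]
    exact coeff_eq_zero_of_natDegree_lt (by omega)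
  refine ⟨P.coeff 0, ?_⟩
  have h5 : P = C (P.coeff 0) := by
    ext k
    rcases k with _ | k
    · simp
    · rw [h4 (k + 1) (by omega), coeff_C_succ]
  rw [h5, aeval_C, coeff_C_zero]

/-- For an integrally closed domain `R`, an injective ring hom `φ : R →+* E` into a field and an
element `h` integral over `R` (through `φ`): the minimal polynomial of `h` over the subfield of
`E` generated by `φ(R)` has coefficients in `φ(R)`. -/
theorem exists_monic_map_eq_minpoly {R E : Type*} [CommRing R] [IsDomain R]
    [IsIntegrallyClosed R] [Field E] (φ : R →+* E) (hφ : Function.Injective φ) (h : E)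
    (hh : φ.IsIntegralElem h) :
    ∃ P : R[X], P.Monic ∧ P.map φ =
      (minpoly (Subfield.closure (Set.range φ)) h).map
        (Subfield.closure (Set.range φ)).subtype := by
  let algRE : Algebra R E := φ.toAlgebra
  let algRM : Algebra R (Subfield.closure (Set.range φ)) :=
    (φ.codRestrict (Subfield.closure (Set.range φ)).toSubring
      (fun r => Subfield.subset_closure ⟨r, rfl⟩)).toAlgebra
  have : IsScalarTower R (Subfield.closure (Set.range φ)) E :=
    IsScalarTower.of_algebraMap_eq (fun r => rfl)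
  have : FaithfulSMul R (Subfield.closure (Set.range φ)) :=
    (faithfulSMul_iff_algebraMap_injective R _).mpr
      (fun a b hab => hφ (congrArg Subtype.val hab))
  have : IsFractionRing R (Subfield.closure (Set.range φ)) :=
    IsFractionRing.of_field R _ (fun z => by
      obtain ⟨y, hy, w, hw, hyw⟩ := Subfield.mem_closure_iff.mp z.2
      have hcl : Subring.closure (Set.range φ) = φ.range := by
        rw [← RingHom.coe_range, Subring.closure_eq]
      rw [hcl] at hy hw
      obtain ⟨a, rfl⟩ := hy
      obtain ⟨b, rfl⟩ := hw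
      refine ⟨a, b, Subtype.ext ?_⟩
      rw [← hyw]
      rfl)
  have hint : IsIntegral R h := hh
  have key := minpoly.isIntegrallyClosed_eq_field_fractions' (Subfield.closure (Set.range φ)) hint
  refine ⟨minpoly R h, minpoly.monic hint, ?_⟩
  rw [key, Polynomial.map_map]
  rfl

theorem closure_range_aeval_le {A0 E : Type*} [CommRing A0] [Field E] [Algebra A0 E] (j j' : E)
    (hj' : j' ∈ Subfield.closure (Set.range (aeval j : A0[X] → E))) :
    Subfield.closure (Set.range (aeval j' : A0[X] → E)) ≤
      Subfield.closure (Set.range (aeval j : A0[X] → E)) := by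
  rw [Subfield.closure_le]
  rintro _ ⟨P, rfl⟩
  rw [aeval_eq_sum_range]
  refine Subfield.sum_mem _ (fun i _ => ?_)
  rw [Algebra.smul_def]
  refine mul_mem ?_ (pow_mem hj' i)
  exact Subfield.subset_closure ⟨C (P.coeff i), by simp⟩

/-- `A0[j]` and `A0[1/j]` generate the same subfield. -/
theorem closure_range_aeval_inv {A0 E : Type*} [CommRing A0] [Field E] [Algebra A0 E] (j : E) :
    Subfield.closure (Set.range (aeval j⁻¹ : A0[X] → E)) =
      Subfield.closure (Set.range (aeval j : A0[X] → E)) := by
  refine le_antisymm (closure_range_aeval_le j j⁻¹ ?_) (closure_range_aeval_le j⁻¹ j ?_)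
  · exact inv_mem (Subfield.subset_closure ⟨X, aeval_X j⟩)
  · have h : (j⁻¹)⁻¹ ∈ Subfield.closure (Set.range (aeval j⁻¹ : A0[X] → E)) :=
      inv_mem (Subfield.subset_closure ⟨X, aeval_X j⁻¹⟩)
    rwa [inv_inv] at h

theorem transcendental_inv {A0 E : Type*} [CommRing A0] [Field E] [Algebra A0 E]
    (j : E) (hj : Transcendental A0 j) : Transcendental A0 j⁻¹ := by
  have : Nontrivial A0 := (algebraMap A0 E).domain_nontrivial
  have hinj : Function.Injective (aeval j : A0[X] → E) := transcendental_iff_injective.mp hj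
  have hj0 : j ≠ 0 := by
    rintro rfl
    have h0 : aeval (0 : E) (X : A0[X]) = aeval (0 : E) (0 : A0[X]) := by simp
    exact X_ne_zero (hinj h0)
  rw [transcendental_iff_injective, injective_iff_map_eq_zero]
  intro Q hQ
  have h1 : aeval j (reflect Q.natDegree Q) * (j⁻¹) ^ Q.natDegree = aeval j⁻¹ Q := by
    let _ : Invertible (j⁻¹) := invertibleOfNonzero (inv_ne_zero hj0)
    have h := eval₂_reflect_mul_pow (algebraMap A0 E) (j⁻¹) Q.natDegree Q le_rfl
    rw [invOf_eq_inv, inv_inv] at h
    simpa [aeval_def] using h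
  rw [hQ] at h1
  have h2 : aeval j (reflect Q.natDegree Q) = 0 := by
    rcases mul_eq_zero.mp h1 with h | h
    · exact h
    · exact absurd h (pow_ne_zero _ (inv_ne_zero hj0))
  have h3 : reflect Q.natDegree Q = 0 := hinj (by rw [h2, map_zero])
  exact reflect_eq_zero_iff.mp h3

/-- **(U8), polynomial form.**  `A0` an integrally closed domain, `E` a field containing
`A0[j]` with `j` transcendental over `A0`.  If `h : E` is integral over `A0[j]` and over
`A0[1/j]` (both given as the polynomial ring `A0[X]` acting through `aeval`), then `h` is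
integral over `A0`. -/
theorem isIntegral_of_isIntegralElem_aeval {A0 E : Type*} [CommRing A0] [IsDomain A0]
    [IsIntegrallyClosed A0] [Field E] [Algebra A0 E] (j : E) (hj : Transcendental A0 j) (h : E)
    (h1 : (aeval j : A0[X] →ₐ[A0] E).toRingHom.IsIntegralElem h)
    (h2 : (aeval j⁻¹ : A0[X] →ₐ[A0] E).toRingHom.IsIntegralElem h) : IsIntegral A0 h := by
  have hinj1 : Function.Injective (aeval j : A0[X] →ₐ[A0] E).toRingHom :=
    transcendental_iff_injective.mp hj
  have hinj2 : Function.Injective (aeval j⁻¹ : A0[X] →ₐ[A0] E).toRingHom :=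
    transcendental_iff_injective.mp (transcendental_inv j hj)
  obtain ⟨P1, hP1m, hP1⟩ := exists_monic_map_eq_minpoly _ hinj1 h h1
  obtain ⟨P2, hP2m, hP2⟩ := exists_monic_map_eq_minpoly _ hinj2 h h2
  have hcl : Subfield.closure (Set.range ((aeval j⁻¹ : A0[X] →ₐ[A0] E).toRingHom)) =
      Subfield.closure (Set.range ((aeval j : A0[X] →ₐ[A0] E).toRingHom)) :=
    closure_range_aeval_inv j
  rw [hcl] at hP2
  have hmap : P1.map (aeval j : A0[X] →ₐ[A0] E).toRingHom =
      P2.map (aeval j⁻¹ : A0[X] →ₐ[A0] E).toRingHom := hP1.trans hP2.symm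
  have hl : P1.map (aeval j : A0[X] →ₐ[A0] E).toRingHom ∈ lifts (algebraMap A0 E) := by
    rw [lifts_iff_coeff_lifts]
    intro i
    have h3 := congrArg (fun p => p.coeff i) hmap
    simp only [coeff_map] at h3
    obtain ⟨c, hc⟩ := exists_algebraMap_eq_of_aeval_eq j hj (P1.coeff i) (P2.coeff i) h3
    exact ⟨c, by rw [coeff_map]; exact hc.symm⟩
  obtain ⟨q, hq, -, hqm⟩ := lifts_and_natDegree_eq_and_monic hl (hP1m.map _)
  refine ⟨q, hqm, ?_⟩
  rw [← eval_map, hq, hP1, eval_map]
  exact minpoly.aeval _ h

/-- Integrality over the subalgebra `A0[j]` is integrality over `A0[X]` acting through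
`aeval j`. -/
theorem isIntegralElem_aeval_of_isIntegral_adjoin {A0 E : Type*} [CommRing A0] [CommRing E]
    [Algebra A0 E] (j h : E) (h1 : IsIntegral (Algebra.adjoin A0 {j}) h) :
    (aeval j : A0[X] →ₐ[A0] E).toRingHom.IsIntegralElem h := by
  obtain ⟨p, hpm, hp⟩ := h1
  have hsurj : ∀ x : Algebra.adjoin A0 {j}, ∃ P : A0[X], aeval j P = (x : E) := by
    intro x
    have hx : (x : E) ∈ (aeval j : A0[X] →ₐ[A0] E).range := by
      rw [← Algebra.adjoin_singleton_eq_range_aeval]
      exact x.2
    exact hx
  choose g hg using hsurj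
  have hl : p.map (algebraMap (Algebra.adjoin A0 {j}) E) ∈
      lifts (aeval j : A0[X] →ₐ[A0] E).toRingHom := by
    rw [lifts_iff_coeff_lifts]
    intro i
    rw [coeff_map]
    exact ⟨g (p.coeff i), hg _⟩
  obtain ⟨q, hq, -, hqm⟩ := lifts_and_natDegree_eq_and_monic hl (hpm.map _)
  refine ⟨q, hqm, ?_⟩
  rw [← eval_map, hq, eval_map]
  exact hp

/-- **(U8), subalgebra form.**  `A0` an integrally closed domain, `E` a field, `j : E`
transcendental over `A0`.  If `h : E` is integral over `A0[j]` and over `A0[1/j]`, then `h` is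
integral over `A0`. -/
theorem isIntegral_of_isIntegral_adjoin {A0 E : Type*} [CommRing A0] [IsDomain A0]
    [IsIntegrallyClosed A0] [Field E] [Algebra A0 E] (j : E) (hj : Transcendental A0 j) (h : E)
    (h1 : IsIntegral (Algebra.adjoin A0 {j}) h) (h2 : IsIntegral (Algebra.adjoin A0 {j⁻¹}) h) :
    IsIntegral A0 h :=
  isIntegral_of_isIntegralElem_aeval j hj h (isIntegralElem_aeval_of_isIntegral_adjoin j h h1)
    (isIntegralElem_aeval_of_isIntegral_adjoin j⁻¹ h h2)

/-- An element of an extension of an algebraically closed field `L` that is integral over `L`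
lies in `L`. -/
theorem mem_range_algebraMap_of_isIntegral_self {L Ω : Type*} [Field L] [IsAlgClosed L]
    [Field Ω] [Algebra L Ω] (h : Ω) (hh : IsIntegral L h) : h ∈ Set.range (algebraMap L Ω) := by
  have h1 : (minpoly L h).degree = 1 :=
    IsAlgClosed.degree_eq_one_of_irreducible L (minpoly.irreducible hh)
  exact minpoly.mem_range_of_degree_eq_one L h h1

/-- **(U8), corollary.**  `L` algebraically closed, `K0 ⊆ L ⊆ Ω` fields: an element of `Ω`
algebraic over `K0` lies in `L`. -/
theorem mem_range_algebraMap_of_isAlgebraic {K0 L Ω : Type*} [Field K0] [Field L]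
    [IsAlgClosed L] [Field Ω] [Algebra K0 L] [Algebra L Ω] [Algebra K0 Ω] [IsScalarTower K0 L Ω]
    (h : Ω) (hh : IsAlgebraic K0 h) : h ∈ Set.range (algebraMap L Ω) :=
  mem_range_algebraMap_of_isIntegral_self h (hh.tower_top L).isIntegral

/-- The same for an element integral over a ring `A0` mapping to `L`. -/
theorem mem_range_algebraMap_of_isIntegral {A0 L Ω : Type*} [CommRing A0] [Field L]
    [IsAlgClosed L] [Field Ω] [Algebra A0 L] [Algebra L Ω] [Algebra A0 Ω] [IsScalarTower A0 L Ω]
    (h : Ω) (hh : IsIntegral A0 h) : h ∈ Set.range (algebraMap L Ω) :=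
  mem_range_algebraMap_of_isIntegral_self h hh.tower_top

/-- **(U8), ring-hom form**: the same for arbitrary ring homs `φ ψ : A0[X] →+* E` extending
`algebraMap A0 E` with `ψ X = (φ X)⁻¹` (e.g. `algebraMap A0[X] E` for two algebra structures). -/
theorem isIntegral_of_isIntegralElem {A0 E : Type*} [CommRing A0] [IsDomain A0]
    [IsIntegrallyClosed A0] [Field E] [Algebra A0 E] (φ ψ : A0[X] →+* E)
    (hφC : ∀ a, φ (C a) = algebraMap A0 E a) (hψC : ∀ a, ψ (C a) = algebraMap A0 E a)
    (hφX : Transcendental A0 (φ X)) (hψX : ψ X = (φ X)⁻¹) (h : E)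
    (h1 : φ.IsIntegralElem h) (h2 : ψ.IsIntegralElem h) : IsIntegral A0 h := by
  have e1 : φ = (aeval (φ X) : A0[X] →ₐ[A0] E).toRingHom := by
    refine Polynomial.ringHom_ext (fun a => ?_) ?_
    · rw [hφC]; simp
    · simp
  have e2 : ψ = (aeval (φ X)⁻¹ : A0[X] →ₐ[A0] E).toRingHom := by
    refine Polynomial.ringHom_ext (fun a => ?_) ?_
    · rw [hψC]; simp
    · rw [hψX]; simp
  rw [e1] at h1
  rw [e2] at h2
  exact isIntegral_of_isIntegralElem_aeval (φ X) hφX h h1 h2

end Fermat.Agent.S18.IntConst
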