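import Mathlib
import Fermat.Prelude.Def_ModularCurve_X0ModL

/-!
# S18: separability of the algebraic closure of `k(x)` inside `k((q))`

For a perfect field `k` and a Laurent series `x ∈ k((q))` with `q dx/dq ≠ 0`, every element of
`k((q))` which is algebraic over `k(x)` is separable over `k(x)` (`isSeparable_of_isAlgebraic`).
In particular the function field `modularFunctionFieldFullC k N` is separable over `k(j)` as soon
as it is algebraic over it.

The proof uses the derivation `θ = q d/dq` of `k((q))`.
-/

set_option autoImplicit false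

namespace Fermat.Agent.S18.SepQ

open HahnSeries Polynomial IntermediateField

section Theta

variable {k : Type*} [Field k]

/-- `θ = q d/dq` on Laurent series: multiplies the `n`-th coefficient by `n`. -/
noncomputable def thetaFun (f : LaurentSeries k) : LaurentSeries k :=
  ⟨fun n => (n : k) * f.coeff n, f.isPWO_support.mono (fun n hn => by
    simp only [Function.mem_support, ne_eq] at hn ⊢
    intro h
    apply hn
    rw [h, mul_zero])⟩

@[simp]
theorem thetaFun_coeff (f : LaurentSeries k) (n : ℤ) :
    (thetaFun f).coeff n = (n : k) * f.coeff n := rfl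

theorem support_thetaFun_subset (f : LaurentSeries k) : (thetaFun f).support ⊆ f.support := by
  intro n hn
  simp only [HahnSeries.mem_support, thetaFun_coeff, ne_eq] at hn ⊢
  intro h
  apply hn
  rw [h, mul_zero]

theorem thetaFun_add (f g : LaurentSeries k) : thetaFun (f + g) = thetaFun f + thetaFun g := by
  ext n
  simp [mul_add]

theorem thetaFun_smul (c : k) (f : LaurentSeries k) : thetaFun (c • f) = c • thetaFun f := by
  ext n
  simp [mul_left_comm]

theorem thetaFun_mul (f g : LaurentSeries k) :
    thetaFun (f * g) = f * thetaFun g + thetaFun f * g := by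
  ext n
  rw [thetaFun_coeff, HahnSeries.coeff_add, HahnSeries.coeff_mul,
    HahnSeries.coeff_mul_right' g.isPWO_support (support_thetaFun_subset g),
    HahnSeries.coeff_mul_left' f.isPWO_support (support_thetaFun_subset f),
    Finset.mul_sum, ← Finset.sum_add_distrib]
  refine Finset.sum_congr rfl fun ij hij => ?_
  have h := (Finset.mem_antidiagonal.mp hij).2.2
  rw [thetaFun_coeff, thetaFun_coeff, ← h]
  push_cast
  ring

theorem thetaFun_algebraMap (c : k) : thetaFun (algebraMap k (LaurentSeries k) c) = 0 := by
  ext n
  rw [thetaFun_coeff, ModularCurve.algebraMap_laurentSeries_eq_single]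
  by_cases hn : n = 0
  · subst hn
    simp
  · rw [HahnSeries.coeff_single_of_ne hn, mul_zero]
    rfl

/-- `θ = q d/dq` as a `k`-derivation of `k((q))`. -/
noncomputable def theta : Derivation k (LaurentSeries k) (LaurentSeries k) where
  toFun := thetaFun
  map_add' := thetaFun_add
  map_smul' c f := by
    rw [RingHom.id_apply, Algebra.smul_def, thetaFun_mul, thetaFun_algebraMap, zero_mul, add_zero,
      ModularCurve.algebraMap_laurentSeries_eq_single]
    exact HahnSeries.C_mul_eq_smul
  map_one_eq_zero' := by
    ext n
    change (n : k) * (1 : LaurentSeries k).coeff n = 0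
    by_cases hn : n = 0
    · subst hn
      simp
    · rw [HahnSeries.coeff_one, if_neg hn, mul_zero]
  leibniz' f g := by
    change thetaFun (f * g) = f • thetaFun g + g • thetaFun f
    rw [thetaFun_mul, smul_eq_mul, smul_eq_mul, mul_comm g]

@[simp]
theorem theta_coeff (f : LaurentSeries k) (n : ℤ) : (theta f).coeff n = (n : k) * f.coeff n := rfl

end Theta

section Sep

variable {k : Type*} [Field k]

theorem theta_aeval (x : LaurentSeries k) (a : k[X]) :
    theta (aeval x a) = aeval x (derivative a) * theta x := by
  rw [Derivation.map_aeval, smul_eq_mul]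

theorem aeval_mem (x : LaurentSeries k) (a : k[X]) : aeval x a ∈ k⟮x⟯ :=
  (IntermediateField.mem_adjoin_simple_iff k _).mpr ⟨a, 1, by simp⟩

theorem transcendental_of_theta_ne_zero [PerfectField k] {x : LaurentSeries k}
    (hx : theta x ≠ 0) : Transcendental k x := by
  intro halg
  have hint : IsIntegral k x := halg.isIntegral
  have hsep : (minpoly k x).Separable :=
    PerfectField.separable_of_irreducible (minpoly.irreducible hint)
  have h0 : aeval x (derivative (minpoly k x)) ≠ 0 :=
    hsep.aeval_derivative_ne_zero (minpoly.aeval k x)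
  have h1 : theta (aeval x (minpoly k x)) = 0 := by rw [minpoly.aeval, map_zero]
  rw [theta_aeval] at h1
  rcases mul_eq_zero.mp h1 with h | h
  · exact h0 h
  · exact hx h

/-- `θ` maps `k(x)` into `k(x) · θ x`. -/
theorem theta_mem {x c : LaurentSeries k} (hc : c ∈ k⟮x⟯) :
    ∃ d ∈ k⟮x⟯, theta c = d * theta x := by
  obtain ⟨r, s, rfl⟩ := (IntermediateField.mem_adjoin_simple_iff k c).mp hc
  refine ⟨(aeval x s)⁻¹ ^ 2 *
    (aeval x s * aeval x (derivative r) - aeval x r * aeval x (derivative s)), ?_, ?_⟩
  · exact mul_mem (pow_mem (inv_mem (aeval_mem x s)) 2)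
      (sub_mem (mul_mem (aeval_mem x s) (aeval_mem x _)) (mul_mem (aeval_mem x r) (aeval_mem x _)))
  · rw [Derivation.leibniz_div, theta_aeval, theta_aeval]
    simp only [smul_eq_mul]
    ring

/-- In characteristic `p`, a polynomial over a perfect field with zero derivative is a `p`-th
power. -/
theorem exists_pow_eq_of_derivative_eq_zero [PerfectField k] (p : ℕ) [Fact p.Prime] [CharP k p]
    {R : k[X]} (hR : derivative R = 0) : ∃ S : k[X], S ^ p = R := by
  have hexp : expand k p (contract p R) = R :=
    expand_contract p hR (Fact.out : p.Prime).ne_zero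
  refine ⟨(contract p R).map ((frobeniusEquiv k p).symm : k →+* k), ?_⟩
  rw [← polynomial_expand_eq k p, hexp]

/-- **Constants of `θ` in `k(x)`.** In characteristic `p`, over a perfect field, an element of
`k(x)` killed by `θ` is a `p`-th power in `k(x)`. -/
theorem exists_pow_eq_of_theta_eq_zero [PerfectField k] (p : ℕ) [Fact p.Prime] [CharP k p]
    {x c : LaurentSeries k} (hx : theta x ≠ 0) (hc : c ∈ k⟮x⟯) (hθ : theta c = 0) :
    ∃ e ∈ k⟮x⟯, e ^ p = c := by
  have hp := (Fact.out : p.Prime)
  obtain ⟨a, b, rfl⟩ := (IntermediateField.mem_adjoin_simple_iff k c).mp hc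
  by_cases hb : aeval x b = 0
  · refine ⟨0, zero_mem _, ?_⟩
    rw [hb, div_zero, zero_pow hp.ne_zero]
  · have htr := transcendental_of_theta_ne_zero hx
    have hb0 : b ≠ 0 := by
      rintro rfl
      simp at hb
    have h1 : aeval x (b * derivative a - a * derivative b) = 0 := by
      rw [Derivation.leibniz_div, theta_aeval, theta_aeval] at hθ
      simp only [smul_eq_mul] at hθ
      have h2 : (aeval x b)⁻¹ ^ 2 ≠ 0 := pow_ne_zero 2 (inv_ne_zero hb)
      have h3 := (mul_eq_zero.mp hθ).resolve_left h2
      have h4 : (aeval x b * aeval x (derivative a) - aeval x a * aeval x (derivative b)) *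
          theta x = 0 := by
        rw [← h3]
        ring
      have h5 := (mul_eq_zero.mp h4).resolve_right hx
      rw [map_sub, map_mul, map_mul]
      exact h5
    have h6 : b * derivative a - a * derivative b = 0 := by
      by_contra hne
      exact htr ⟨_, hne, h1⟩
    have hRd : derivative (a * b ^ (p - 1)) = 0 := by
      have hcast : ((p - 1 : ℕ) : k) = -1 := by
        rw [Nat.cast_sub hp.one_le, CharP.cast_eq_zero, Nat.cast_one, zero_sub]
      have hpow : b ^ (p - 1 - 1) * b = b ^ (p - 1) := by
        rw [← pow_succ]
        congr 1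
        have := hp.two_le
        omega
      have h7 : derivative (a * b ^ (p - 1)) * b =
          b ^ (p - 1) * (b * derivative a - a * derivative b) := by
        rw [derivative_mul, derivative_pow, hcast, map_neg, map_one]
        linear_combination (-(a * derivative b)) * hpow
      rw [h6, mul_zero] at h7
      exact (mul_eq_zero.mp h7).resolve_right hb0
    obtain ⟨S, hS⟩ := exists_pow_eq_of_derivative_eq_zero p hRd
    refine ⟨aeval x S / aeval x b, div_mem (aeval_mem x S) (aeval_mem x b), ?_⟩
    rw [div_pow, ← map_pow, hS, map_mul, map_pow]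
    have hpp : aeval x b ^ p = aeval x b ^ (p - 1) * aeval x b := by
      rw [← pow_succ]
      congr 1
      have := hp.one_le
      omega
    rw [hpp]
    field_simp

/-- **Separability.** Over a perfect field `k`, if `θ x ≠ 0` then every element of `k((q))`
algebraic over `k(x)` is separable over `k(x)`. -/
theorem isSeparable_of_isAlgebraic [PerfectField k] {x y : LaurentSeries k} (hx : theta x ≠ 0)
    (hy : IsAlgebraic k⟮x⟯ y) : IsSeparable k⟮x⟯ y := by
  obtain ⟨p, hchar⟩ := CharP.exists k
  have hint : IsIntegral k⟮x⟯ y := hy.isIntegral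
  have hirr := minpoly.irreducible hint
  rcases Nat.eq_zero_or_pos p with hp0 | hppos
  · subst hp0
    have h1 : CharZero k := CharP.charP_to_charZero k
    have h2 : CharZero k⟮x⟯ := charZero_of_injective_algebraMap (algebraMap k k⟮x⟯).injective
    exact hirr.separable
  · have hp : p.Prime := (CharP.char_is_prime_or_zero k p).resolve_right hppos.ne'
    have : Fact p.Prime := ⟨hp⟩
    have : CharP k⟮x⟯ p := charP_of_injective_algebraMap (algebraMap k k⟮x⟯).injective p
    have : CharP (LaurentSeries k) p :=
      charP_of_injective_algebraMap (algebraMap k (LaurentSeries k)).injective p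
    rcases separable_or p hirr with h | ⟨-, g, hg, hgP⟩
    · exact h
    · exfalso
      have hgz : aeval (y ^ p) g = 0 := by rw [← expand_aeval, hgP, minpoly.aeval]
      have hgmonic : g.Monic := by
        have := minpoly.monic hint
        rw [← hgP] at this
        exact (monic_expand_iff hp.pos).mp this
      have hgmin : g = minpoly k⟮x⟯ (y ^ p) := minpoly.eq_of_irreducible_of_monic hg hgz hgmonic
      have hθz : theta (y ^ p) = 0 := by
        rw [Derivation.leibniz_pow]
        have h0 : ((p : ℕ) : LaurentSeries k) = 0 := CharP.cast_eq_zero _ p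
        rw [← Nat.cast_smul_eq_nsmul (LaurentSeries k), h0, zero_smul]
      have hθzj : ∀ j : ℕ, theta ((y ^ p) ^ j) = 0 := fun j => by
        rw [Derivation.leibniz_pow, hθz, smul_zero, smul_zero]
      have hcoef : ∀ j, theta ((g.coeff j : k⟮x⟯) : LaurentSeries k) = 0 := by
        choose d hdmem hd using fun j => theta_mem (x := x) (g.coeff j).2
        have hsum : ∑ j ∈ Finset.range (g.natDegree + 1), d j * (y ^ p) ^ j = 0 := by
          have h0 : theta (aeval (y ^ p) g) = 0 := by rw [hgz, map_zero]
          rw [aeval_eq_sum_range, map_sum] at h0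
          have h1 : ∀ j ∈ Finset.range (g.natDegree + 1),
              theta (g.coeff j • (y ^ p) ^ j) = theta x * (d j * (y ^ p) ^ j) := by
            intro j _
            rw [Algebra.smul_def, Derivation.leibniz, hθzj, smul_zero, zero_add, smul_eq_mul]
            change (y ^ p) ^ j * theta ((g.coeff j : k⟮x⟯) : LaurentSeries k) = _
            rw [hd j]
            ring
          rw [Finset.sum_congr rfl h1, ← Finset.mul_sum] at h0
          exact (mul_eq_zero.mp h0).resolve_left hx
        have hdn : d g.natDegree = 0 := by
          have h3 := hd g.natDegree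
          rw [hgmonic.coeff_natDegree] at h3
          have h4 : theta (((1 : k⟮x⟯) : LaurentSeries k)) = 0 := by
            change theta (1 : LaurentSeries k) = 0
            exact Derivation.map_one_eq_zero _
          rw [h4] at h3
          exact (mul_eq_zero.mp h3.symm).resolve_right hx
        rw [Finset.sum_range_succ, hdn, zero_mul, add_zero] at hsum
        have hli := linearIndependent_pow (K := k⟮x⟯) (y ^ p)
        rw [← hgmin] at hli
        have hli' := Fintype.linearIndependent_iff.mp hli
          (fun i : Fin g.natDegree => (⟨d i, hdmem i⟩ : k⟮x⟯)) (by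
            rw [← Fin.sum_univ_eq_sum_range (fun j => d j * (y ^ p) ^ j) g.natDegree] at hsum
            rw [← hsum]
            refine Finset.sum_congr rfl fun i _ => ?_
            rw [Algebra.smul_def]
            rfl)
        intro j
        rcases lt_trichotomy j g.natDegree with hj | hj | hj
        · have h5 := hli' ⟨j, hj⟩
          have hdj : d j = 0 := congrArg Subtype.val h5
          rw [hd j, hdj, zero_mul]
        · subst hj
          rw [hd _, hdn, zero_mul]
        · rw [coeff_eq_zero_of_natDegree_lt hj]
          exact map_zero _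
      choose e hemem he using fun j =>
        exists_pow_eq_of_theta_eq_zero p hx (g.coeff j).2 (hcoef j)
      let g₁ : k⟮x⟯[X] :=
        ∑ j ∈ Finset.range (g.natDegree + 1), monomial j (⟨e j, hemem j⟩ : k⟮x⟯)
      have hg₁ : g₁.map (frobenius k⟮x⟯ p) = g := by
        rw [Polynomial.map_sum]
        conv_rhs => rw [g.as_sum_range]
        refine Finset.sum_congr rfl fun j _ => ?_
        rw [map_monomial]
        congr 1
        apply Subtype.ext
        exact he j
      have hP : minpoly k⟮x⟯ y = g₁ ^ p := by
        rw [← hgP, ← hg₁, ← map_expand, map_frobenius_expand]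
      rw [hP] at hirr
      exact not_irreducible_pow hp.ne_one hirr

end Sep

section Cor

open ModularCurve

variable {k : Type*} [Field k]

/-- Instance form: an intermediate field `F ⊇ k(x)` of `k((q))`, algebraic over `k(x)`, is
separable over `k(x)`. -/
theorem isSeparable_extendScalars [PerfectField k] {x : LaurentSeries k} (hx : theta x ≠ 0)
    (F : IntermediateField k (LaurentSeries k)) (h : k⟮x⟯ ≤ F)
    (halg : ∀ y ∈ F, IsAlgebraic k⟮x⟯ y) :
    Algebra.IsSeparable k⟮x⟯ (IntermediateField.extendScalars h) := by
  refine ⟨fun y => ?_⟩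
  have hy : IsSeparable k⟮x⟯ (y : LaurentSeries k) :=
    isSeparable_of_isAlgebraic hx (halg _ ((IntermediateField.mem_extendScalars h).mp y.2))
  rw [IsSeparable] at hy ⊢
  rwa [IntermediateField.minpoly_eq]

theorem theta_jqModC_ne_zero : theta (jqModC k) ≠ 0 := by
  intro h
  have h1 := congrArg (fun f : LaurentSeries k => f.coeff (-1)) h
  simp only [theta_coeff, coeff_jqModC_neg_one, HahnSeries.coeff_zero] at h1
  simp at h1

theorem transcendental_jqModC [PerfectField k] : Transcendental k (jqModC k) :=
  transcendental_of_theta_ne_zero theta_jqModC_ne_zero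

/-- Every Laurent series algebraic over `k(j)` is separable over `k(j)`. -/
theorem isSeparable_jqModC [PerfectField k] {y : LaurentSeries k}
    (hy : IsAlgebraic k⟮jqModC k⟯ y) : IsSeparable k⟮jqModC k⟯ y :=
  isSeparable_of_isAlgebraic theta_jqModC_ne_zero hy

theorem jqModC_le_full (N : ℕ) : k⟮jqModC k⟯ ≤ modularFunctionFieldFullC k N := by
  rw [IntermediateField.adjoin_simple_le_iff]
  exact jqModC_mem_full k N

/-- If the generators `j(q^d)`, `d ∣ N`, are algebraic over `k(j)`, then so is every element of
the function field `modularFunctionFieldFullC k N`. -/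
theorem isAlgebraic_of_mem_full (N : ℕ)
    (hgen : ∀ (d : ℕ) [NeZero d], d ∣ N → IsAlgebraic k⟮jqModC k⟯ (qExpand k d (jqModC k)))
    {y : LaurentSeries k} (hy : y ∈ modularFunctionFieldFullC k N) :
    IsAlgebraic k⟮jqModC k⟯ y := by
  induction hy using IntermediateField.adjoin_induction with
  | mem z hz =>
    obtain ⟨d, hd, hdN, rfl⟩ := hz
    exact hgen d hdN
  | algebraMap c =>
    exact isAlgebraic_algebraMap (algebraMap k k⟮jqModC k⟯ c)
  | add a b _ _ ha hb => exact ha.add hb
  | inv a _ ha => exact ha.inv
  | mul a b _ _ ha hb => exact ha.mul hb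

/-- **Separability of the function field in characteristic `ℓ`** (and in any characteristic, over
a perfect field): if the generators are algebraic over `k(j)`, the function field
`modularFunctionFieldFullC k N` is separable over `k(j)`. -/
theorem isSeparable_full [PerfectField k] (N : ℕ)
    (hgen : ∀ (d : ℕ) [NeZero d], d ∣ N → IsAlgebraic k⟮jqModC k⟯ (qExpand k d (jqModC k))) :
    Algebra.IsSeparable k⟮jqModC k⟯ (IntermediateField.extendScalars (jqModC_le_full (k := k) N)) :=
  isSeparable_extendScalars theta_jqModC_ne_zero _ _ fun _ hy => isAlgebraic_of_mem_full N hgen hy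

/-- Bridge from the integrality shape used in S28 (`IsIntegral` over `Algebra.adjoin k {x}`). -/
theorem isAlgebraic_of_isIntegral_adjoin {x y : LaurentSeries k}
    (h : IsIntegral (Algebra.adjoin k {x}) y) : IsAlgebraic k⟮x⟯ y := by
  obtain ⟨P, hP, hPy⟩ := h
  let φ : Algebra.adjoin k {x} →+* k⟮x⟯ :=
    (Subalgebra.inclusion (IntermediateField.algebra_adjoin_le_adjoin k {x})).toRingHom
  refine ⟨P.map φ, (hP.map φ).ne_zero, ?_⟩
  rw [aeval_def, eval₂_map]
  exact hPy

/-- `isSeparable_full` with the generators integral over `k[j]` (the shape proved in S28). -/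
theorem isSeparable_full_of_isIntegral [PerfectField k] (N : ℕ)
    (hgen : ∀ (d : ℕ) [NeZero d], d ∣ N →
      IsIntegral (Algebra.adjoin k {jqModC k}) (qExpand k d (jqModC k))) :
    Algebra.IsSeparable k⟮jqModC k⟯ (IntermediateField.extendScalars (jqModC_le_full (k := k) N)) :=
  isSeparable_full N fun d _ hd => isAlgebraic_of_isIntegral_adjoin (hgen d hd)

end Cor

end Fermat.Agent.S18.SepQ
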