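import Mathlib
import Fermat.Prelude.Def_AlgebraicCurve_DivisorClassGroup
import Fermat.Prelude.Def_ModularCurve_X0ModL
import Fermat.Agent.S24.FFBasic
import Fermat.Agent.S28.CruxLFinal
import Fermat.Agent.S18.SepQ
import Fermat.Agent.S18.IntConst

/-!
# S18: functions without poles on `X₀(N)` over an algebraically closed field are constant

This is the hypothesis `hconst` of `Step1.kummerWeak_of_strong` / `Step1.eq_zero_of_kummerStrong`.

* `isIntegral_of_forall_ord_nonneg` (abstract): `A` a Dedekind domain containing the constants,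
  `K = Frac A`, `F / K` finite separable; an element of `F` that is regular at every place of
  `F / k` is integral over `A`.
* `isIntegral_adjoin_of_forall_ord_nonneg` (chart form, inside `k((q))`): for a finitely generated
  subfield `Fk` of `k((q))`, algebraic over `k(t)` with `θ t ≠ 0`: an element of `Fk` regular at
  every place is integral over `k[t]`.
* `exists_algebraMap_eq_of_forall_ord_nonneg`, `hconst`: the constants of
  `modularFunctionFieldFullC k N`, `k` algebraically closed (two charts `t = j`, `t = 1/j`, then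
  `IntConst`).
-/

set_option autoImplicit false
set_option linter.style.haveILetI false

open AlgebraicCurve IsDedekindDomain ModularCurve IntermediateField
open scoped IntermediateField.algebraAdjoinAdjoin

namespace Fermat.Agent.S18.ConstK

/-- A function that is regular at every place is integral over every Dedekind domain `A`
containing the constants whose fraction field `K` has `F` as a finite separable extension. -/
theorem isIntegral_of_forall_ord_nonneg {k A K F : Type*} [Field k] [CommRing A]
    [IsDedekindDomain A] [Field K] [Field F] [Algebra k F] [Algebra A K] [IsFractionRing A K]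
    [Algebra K F] [Algebra A F] [IsScalarTower A K F] [Algebra k A] [IsScalarTower k A F]
    [FiniteDimensional K F] [Algebra.IsSeparable K F]
    (x : F) (h : ∀ Q : Place k F, 0 ≤ Q.ord x) : IsIntegral A x := by
  haveI : IsDedekindDomain (integralClosure A F) := integralClosure.isDedekindDomain A K F
  haveI : IsFractionRing (integralClosure A F) F :=
    integralClosure.isFractionRing_of_finite_extension K F
  rcases eq_or_ne x 0 with rfl | hx0
  · exact isIntegral_zero
  have hx : ∀ w : HeightOneSpectrum (integralClosure A F), w.valuation F x ≤ 1 := by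
    intro w
    have h1 := h (Place.ofHeightOneSpectrum (K := k) (F := F) w)
    rw [Fermat.Agent.S24.Place.ord_nonneg_iff_mem _ hx0] at h1
    exact (Valuation.mem_valuationSubring_iff _ _).mp h1
  obtain ⟨r, hr⟩ := HeightOneSpectrum.mem_integers_of_valuation_le_one F x hx
  rw [← hr]
  exact r.2

variable {k : Type*} [Field k]

/-- `k[t]` is a principal ideal ring. -/
theorem isPrincipalIdealRing_adjoin_singleton {E : Type*} [Field E] [Algebra k E] (t : E) :
    IsPrincipalIdealRing (Algebra.adjoin k {t}) := by
  let f : Polynomial k →ₐ[k] Algebra.adjoin k {t} :=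
    (Polynomial.aeval (R := k) t).codRestrict (Algebra.adjoin k {t})
      (fun _ => Polynomial.aeval_mem_adjoin_singleton k t)
  have hf : Function.Surjective (f : Polynomial k →+* Algebra.adjoin k {t}) := by
    rintro ⟨y, hy⟩
    have hy' := hy
    rw [Algebra.adjoin_singleton_eq_range_aeval] at hy'
    obtain ⟨p, hp⟩ := hy'
    exact ⟨p, Subtype.ext hp⟩
  exact IsPrincipalIdealRing.of_surjective (f : Polynomial k →+* Algebra.adjoin k {t}) hf

/-- Elements of a field generated over `k` by elements algebraic over `k(t)` are algebraic over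
`k(t)`. -/
theorem isAlgebraic_of_mem_adjoin {E : Type*} [Field E] [Algebra k E] {t : E} {S : Set E}
    (halg : ∀ y ∈ S, IsAlgebraic k⟮t⟯ y) {y : E} (hy : y ∈ IntermediateField.adjoin k S) :
    IsAlgebraic k⟮t⟯ y := by
  induction hy using IntermediateField.adjoin_induction with
  | mem z hz => exact halg z hz
  | algebraMap c => exact isAlgebraic_algebraMap (algebraMap k k⟮t⟯ c)
  | add a b _ _ ha hb => exact ha.add hb
  | inv a _ ha => exact ha.inv
  | mul a b _ _ ha hb => exact ha.mul hb

set_option maxHeartbeats 800000 in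
/-- **Chart form.**  `Fk ⊆ k((q))` a finitely generated field, algebraic over `k(t)`, `θ t ≠ 0`,
`k` perfect: an element of `Fk` that is regular at every place of `Fk / k` is integral over
`k[t]`. -/
theorem isIntegral_adjoin_of_forall_ord_nonneg [PerfectField k]
    (Fk : IntermediateField k (LaurentSeries k)) {t : LaurentSeries k} (ht : SepQ.theta t ≠ 0)
    (htF : t ∈ Fk) {S : Set (LaurentSeries k)} (hS : S.Finite)
    (hFk : Fk = IntermediateField.adjoin k S) (halg : ∀ y ∈ S, IsAlgebraic k⟮t⟯ y)
    (x : Fk) (h : ∀ Q : Place k Fk, 0 ≤ Q.ord x) :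
    IsIntegral (Algebra.adjoin k {t}) (x : LaurentSeries k) := by
  have hle : k⟮t⟯ ≤ Fk := IntermediateField.adjoin_simple_le_iff.mpr htF
  have halgF : ∀ y ∈ Fk, IsAlgebraic k⟮t⟯ y := fun y hy =>
    isAlgebraic_of_mem_adjoin halg (hFk ▸ hy)
  letI algKF : Algebra k⟮t⟯ Fk := (IntermediateField.inclusion hle).toRingHom.toAlgebra
  letI algAF : Algebra (Algebra.adjoin k {t}) Fk :=
    ((algebraMap k⟮t⟯ Fk).comp (algebraMap (Algebra.adjoin k {t}) k⟮t⟯)).toAlgebra
  haveI hT1 : IsScalarTower (Algebra.adjoin k {t}) k⟮t⟯ Fk :=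
    IsScalarTower.of_algebraMap_eq (fun _ => rfl)
  haveI hT2 : IsScalarTower k (Algebra.adjoin k {t}) Fk :=
    IsScalarTower.of_algebraMap_eq (fun _ => rfl)
  haveI : IsScalarTower k⟮t⟯ Fk (LaurentSeries k) :=
    IsScalarTower.of_algebraMap_eq (fun _ => rfl)
  haveI : IsScalarTower (Algebra.adjoin k {t}) Fk (LaurentSeries k) :=
    IsScalarTower.of_algebraMap_eq (fun _ => rfl)
  -- separability
  have hsep : Algebra.IsSeparable k⟮t⟯ Fk := ⟨fun y => by
    have h1 : IsSeparable k⟮t⟯ (y : LaurentSeries k) :=
      SepQ.isSeparable_of_isAlgebraic ht (halgF y y.2)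
    have h2 : minpoly k⟮t⟯ (algebraMap Fk (LaurentSeries k) y) = minpoly k⟮t⟯ y :=
      minpoly.algebraMap_eq (algebraMap Fk (LaurentSeries k)).injective y
    unfold IsSeparable at h1 ⊢
    rw [← h2]
    exact h1⟩
  -- finiteness
  haveI : Finite S := hS.to_subtype
  haveI : FiniteDimensional k⟮t⟯ (IntermediateField.adjoin k⟮t⟯ S) :=
    IntermediateField.finiteDimensional_adjoin (fun y hy => (halg y hy).isIntegral)
  have hsub : ∀ y ∈ Fk, y ∈ IntermediateField.adjoin k⟮t⟯ S := by
    intro y hy
    have h1 : IntermediateField.adjoin k S ≤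
        (IntermediateField.adjoin k⟮t⟯ S).restrictScalars k := by
      rw [IntermediateField.adjoin_le_iff]
      intro z hz
      rw [SetLike.mem_coe, IntermediateField.mem_restrictScalars]
      exact IntermediateField.subset_adjoin _ _ hz
    have h2 : y ∈ IntermediateField.adjoin k S := hFk ▸ hy
    exact (IntermediateField.mem_restrictScalars k).mp (h1 h2)
  let f : Fk →ₗ[k⟮t⟯] IntermediateField.adjoin k⟮t⟯ S :=
    { toFun := fun y => ⟨y, hsub y y.2⟩
      map_add' := fun _ _ => rfl
      map_smul' := fun c y => by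
        apply Subtype.ext
        have h1 : ((c • y : Fk) : LaurentSeries k) = (c : LaurentSeries k) * (y : LaurentSeries k) := by
          rw [Algebra.smul_def]
          rfl
        have h2 : ((c • (⟨y, hsub y y.2⟩ : IntermediateField.adjoin k⟮t⟯ S) :
            IntermediateField.adjoin k⟮t⟯ S) : LaurentSeries k) =
            (c : LaurentSeries k) * (y : LaurentSeries k) := by
          rw [Algebra.smul_def]
          rfl
        exact h1.trans h2.symm }
  have hfin : FiniteDimensional k⟮t⟯ Fk :=
    FiniteDimensional.of_injective f (fun a b hab => by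
      have h3 : ((f a : IntermediateField.adjoin k⟮t⟯ S) : LaurentSeries k) = (f b : _) :=
        congrArg Subtype.val hab
      exact Subtype.ext h3)
  haveI hpid := isPrincipalIdealRing_adjoin_singleton (k := k) t
  have hded : IsDedekindDomain (Algebra.adjoin k {t}) := inferInstance
  have h1 : IsIntegral (Algebra.adjoin k {t}) x :=
    @isIntegral_of_forall_ord_nonneg k (Algebra.adjoin k {t}) k⟮t⟯ Fk _ _ hded _ _ _ _ _ algKF
      algAF hT1 _ hT2 hfin hsep x h
  obtain ⟨P, hP, hPx⟩ := h1
  refine ⟨P, hP, ?_⟩
  have h5 := Polynomial.hom_eval₂ P (algebraMap (Algebra.adjoin k {t}) Fk)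
    (algebraMap Fk (LaurentSeries k)) x
  rw [hPx, map_zero] at h5
  have h6 : (algebraMap Fk (LaurentSeries k)).comp (algebraMap (Algebra.adjoin k {t}) Fk) =
      algebraMap (Algebra.adjoin k {t}) (LaurentSeries k) := RingHom.ext fun _ => rfl
  rw [h6] at h5
  exact h5.symm

section Modular

variable (k) in
/-- the generating set `{j(q^d) : d ∣ N}` is finite. -/
theorem finite_divisorExpansionsC (N : ℕ) [NeZero N] : (divisorExpansionsC k N).Finite := by
  refine ((Set.finite_Iic N).image (fun d => Fermat.Agent.S28.Defs.jd k d)).subset ?_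
  rintro x ⟨d, hd, hdN, rfl⟩
  exact ⟨d, Nat.le_of_dvd (Nat.pos_of_ne_zero (NeZero.ne N)) hdN,
    Fermat.Agent.S28.Defs.jd_of_neZero k d⟩

/-- `j(q^d)` is integral over `k[j]` (`k` algebraically closed, any characteristic). -/
theorem isIntegral_qExpand_jqModC [IsAlgClosed k] (d : ℕ) [NeZero d] :
    IsIntegral (Algebra.adjoin k {jqModC k}) (qExpand k d (jqModC k)) := by
  rw [← Fermat.Agent.S28.Defs.jd_of_neZero]
  refine Fermat.Agent.S28.JTower.isIntegral_jd (B := k) (A := k) d (NeZero.ne d)
    fun p hp hpd => ?_
  haveI : Fact p.Prime := ⟨hp⟩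
  haveI : NeZero p := ⟨hp.ne_zero⟩
  obtain ⟨Φ, T, Ψ, hΦ, -, -, h2, -⟩ := Fermat.Agent.S28.CruxL.modData p k
  rw [Fermat.Agent.S28.Defs.jd_of_neZero]
  exact Fermat.Agent.S28.CruxL.isIntegral_adjoin_of_ev k Φ hΦ h2

/-- `k(1/t) = k(t)`. -/
theorem adjoin_inv_eq {E : Type*} [Field E] [Algebra k E] (t : E) : k⟮t⁻¹⟯ = k⟮t⟯ := by
  apply le_antisymm
  · exact IntermediateField.adjoin_simple_le_iff.mpr
      (inv_mem (IntermediateField.mem_adjoin_simple_self k t))
  · refine IntermediateField.adjoin_simple_le_iff.mpr ?_
    have h := inv_mem (IntermediateField.mem_adjoin_simple_self k t⁻¹)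
    rwa [inv_inv] at h

/-- **Functions without poles are constant**: an element of the function field of `X₀(N)` over an
algebraically closed field `k` (any characteristic) that is regular at every place is a
constant. -/
theorem exists_algebraMap_eq_of_forall_ord_nonneg [IsAlgClosed k] (N : ℕ) [NeZero N]
    (x : modularFunctionFieldFullC k N)
    (h : ∀ Q : Place k (modularFunctionFieldFullC k N), 0 ≤ Q.ord x) :
    ∃ c : k, x = algebraMap k (modularFunctionFieldFullC k N) c := by
  have hS := finite_divisorExpansionsC k N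
  have hj : SepQ.theta (jqModC k) ≠ 0 := SepQ.theta_jqModC_ne_zero
  have hj0 : jqModC k ≠ 0 := fun h0 => hj (by rw [h0, map_zero])
  have hjinv : SepQ.theta (jqModC k)⁻¹ ≠ 0 := by
    rw [Derivation.leibniz_inv]
    exact smul_ne_zero (neg_ne_zero.mpr (pow_ne_zero 2 (inv_ne_zero hj0))) hj
  have halg1 : ∀ y ∈ divisorExpansionsC k N, IsAlgebraic k⟮jqModC k⟯ y := by
    rintro y ⟨d, hd, hdN, rfl⟩
    exact SepQ.isAlgebraic_of_isIntegral_adjoin (isIntegral_qExpand_jqModC d)
  have halg2 : ∀ y ∈ divisorExpansionsC k N, IsAlgebraic k⟮(jqModC k)⁻¹⟯ y := by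
    rw [adjoin_inv_eq]
    exact halg1
  have h1 := isIntegral_adjoin_of_forall_ord_nonneg (modularFunctionFieldFullC k N) hj
    (jqModC_mem_full k N) hS rfl halg1 x h
  have h2 := isIntegral_adjoin_of_forall_ord_nonneg (modularFunctionFieldFullC k N) hjinv
    (inv_mem (jqModC_mem_full k N)) hS rfl halg2 x h
  have h3 : IsIntegral k (x : LaurentSeries k) :=
    IntConst.isIntegral_of_isIntegral_adjoin (jqModC k) SepQ.transcendental_jqModC _ h1 h2
  obtain ⟨c, hc⟩ := IntConst.mem_range_algebraMap_of_isIntegral_self _ h3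
  exact ⟨c, Subtype.ext hc.symm⟩

/-- **`hconst`** of `Step1.kummerWeak_of_strong`: functions without zeros and poles on `X₀(N)`
over an algebraically closed field are constant. -/
theorem hconst [IsAlgClosed k] (N : ℕ) [NeZero N] :
    ∀ x : modularFunctionFieldFullC k N, x ≠ 0 →
      (∀ Q : Place k (modularFunctionFieldFullC k N), Q.ord x = 0) →
      ∃ c : k, x = algebraMap k (modularFunctionFieldFullC k N) c :=
  fun x _ h => exists_algebraMap_eq_of_forall_ord_nonneg N x fun Q => (h Q).ge

end Modular

end Fermat.Agent.S18.ConstK
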