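import Mathlib
import Fermat.Prelude.Def_FLTPrelim_Ramification

/-!
# S18 (bridge leaf U3): the discrete valuation ring `A₀ = A ∩ K₀`

For a valuation subring `A` of a field `Ω` (think `Ω = ℚ̄`) lying over a prime number `ℓ` and a
subfield `K₀` of `Ω` which is finite over `ℚ`, the ring `A₀ = A ∩ K₀` is a discrete valuation
ring with finite residue field of characteristic `ℓ`, and the residue field of `A₀` embeds in
the residue field of `A`.

* `isDiscreteValuationRing`, `finite_residueField`, `charP_residueField`, `exists_uniformizer`: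
  for a valuation subring `B` of a field `K` finite over `ℚ`, lying over `ℓ`.
* `down K A`: the valuation subring `A ∩ K` of `K`; `incl`, `resMap`: the inclusion
  `A ∩ K → A` and the induced embedding of residue fields.
-/

set_option autoImplicit false
set_option linter.style.haveILetI false

namespace Fermat.Agent.S18.A0

open scoped NumberField
open IsLocalRing

section Integers

variable {K : Type*} [Field K]

/-- Algebraic integers lie in every valuation subring. -/
theorem integer_mem (B : ValuationSubring K) (x : 𝓞 K) : (x : K) ∈ B := by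
  have hx : IsIntegral ℤ (x : K) := x.2
  have h2 : IsIntegral B.valuation.integer (x : K) := hx.tower_top
  have := (Valuation.integer.integers B.valuation).mem_of_integral h2
  exact (B.valuation_le_one_iff _).mp this

theorem val_integer_le (B : ValuationSubring K) (x : 𝓞 K) : B.valuation (x : K) ≤ 1 :=
  (B.valuation_le_one_iff _).mpr (integer_mem B x)

/-- The prime ideal of `𝓞 K` cut out by a valuation subring. -/
def primeOf (B : ValuationSubring K) : Ideal (𝓞 K) where
  carrier := {x | B.valuation (x : K) < 1}
  add_mem' := by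
    intro a b ha hb
    change B.valuation ((a + b : 𝓞 K) : K) < 1
    push_cast
    exact lt_of_le_of_lt (B.valuation.map_add _ _) (max_lt ha hb)
  zero_mem' := by
    change B.valuation ((0 : 𝓞 K) : K) < 1
    simp
  smul_mem' := by
    intro c x hx
    change B.valuation ((c * x : 𝓞 K) : K) < 1
    push_cast
    rw [map_mul]
    exact lt_of_le_of_lt (mul_le_mul' (val_integer_le B c) le_rfl) (by rwa [one_mul])

theorem mem_primeOf {B : ValuationSubring K} {x : 𝓞 K} :
    x ∈ primeOf B ↔ B.valuation (x : K) < 1 := Iff.rfl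

theorem not_mem_primeOf {B : ValuationSubring K} {x : 𝓞 K} :
    x ∉ primeOf B ↔ B.valuation (x : K) = 1 := by
  rw [mem_primeOf, not_lt]
  exact ⟨fun h => le_antisymm (val_integer_le B x) h, fun h => h.ge⟩

theorem primeOf_isPrime (B : ValuationSubring K) : (primeOf B).IsPrime := by
  refine ⟨?_, ?_⟩
  · intro h
    have : (1 : 𝓞 K) ∈ primeOf B := by rw [h]; trivial
    rw [mem_primeOf] at this
    simp at this
  · intro x y hxy
    by_contra hcon
    push Not at hcon
    rw [not_mem_primeOf, not_mem_primeOf] at hcon
    rw [mem_primeOf] at hxy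
    push_cast at hxy
    rw [map_mul, hcon.1, hcon.2, one_mul] at hxy
    exact lt_irrefl _ hxy

theorem natCast_mem_primeOf {B : ValuationSubring K} {q : ℕ} (hB : B.LiesOverPrime q) :
    (q : 𝓞 K) ∈ primeOf B := by
  rw [mem_primeOf]
  push_cast
  exact B.mem_nonunits_iff.mp hB

theorem primeOf_ne_bot [CharZero K] {B : ValuationSubring K} {q : ℕ} (hq : q.Prime)
    (hB : B.LiesOverPrime q) : primeOf B ≠ ⊥ := by
  intro h
  have h1 := natCast_mem_primeOf hB
  rw [h, Ideal.mem_bot] at h1
  have : (q : 𝓞 K) ≠ 0 := Nat.cast_ne_zero.mpr hq.ne_zero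
  exact this h1

/-- The canonical ring homomorphism `𝓞 K → B`. -/
def intHom (B : ValuationSubring K) : 𝓞 K →+* ↥B where
  toFun x := ⟨(x : K), integer_mem B x⟩
  map_one' := rfl
  map_mul' _ _ := rfl
  map_zero' := rfl
  map_add' _ _ := rfl

theorem coe_intHom (B : ValuationSubring K) (x : 𝓞 K) : ((intHom B x : ↥B) : K) = (x : K) := rfl

theorem intHom_injective (B : ValuationSubring K) : Function.Injective (intHom B) := by
  intro x y h
  apply NumberField.RingOfIntegers.ext
  exact congrArg (fun z : ↥B => (z : K)) h

end Integers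

section NF

variable {K : Type*} [Field K] [NumberField K]

theorem exists_frac {P : Ideal (𝓞 K)} [P.IsPrime] (hP : P ≠ ⊥) (a b : 𝓞 K) :
    ∃ c s : 𝓞 K, s ∉ P ∧ (a * c = b * s ∨ b * c = a * s) := by
  have : IsDiscreteValuationRing (Localization.AtPrime P) :=
    IsLocalization.AtPrime.isDiscreteValuationRing_of_dedekind_domain (𝓞 K) hP _
  obtain ⟨c, hc⟩ := ValuationRing.cond (algebraMap (𝓞 K) (Localization.AtPrime P) a)
    (algebraMap (𝓞 K) (Localization.AtPrime P) b)
  obtain ⟨c₀, s, rfl⟩ := IsLocalization.exists_mk'_eq P.primeCompl c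
  refine ⟨c₀, s, s.2, ?_⟩
  have hinj : Function.Injective (algebraMap (𝓞 K) (Localization.AtPrime P)) :=
    IsLocalization.injective _ P.primeCompl_le_nonZeroDivisors
  rcases hc with hc | hc
  · left
    apply hinj
    rw [map_mul, map_mul, ← hc, mul_assoc, IsLocalization.mk'_spec]
  · right
    apply hinj
    rw [map_mul, map_mul, ← hc, mul_assoc, IsLocalization.mk'_spec]

/-- Every element of a valuation subring `B` of a number field lying over a prime number is a
fraction of integers with denominator a unit of `B`. -/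
theorem exists_frac_of_mem {B : ValuationSubring K} {q : ℕ} (hq : q.Prime)
    (hB : B.LiesOverPrime q) {y : K} (hy : y ∈ B) :
    ∃ a s : 𝓞 K, s ∉ primeOf B ∧ y * (s : K) = (a : K) := by
  haveI := primeOf_isPrime B
  obtain ⟨a, b, hb, rfl⟩ := IsFractionRing.div_surjective (A := 𝓞 K) y
  have hb0 : (algebraMap (𝓞 K) K b) ≠ 0 := by
    intro h
    rw [map_eq_zero_iff _ (IsFractionRing.injective (𝓞 K) K)] at h
    exact (nonZeroDivisors.ne_zero hb) h
  obtain ⟨c, s, hs, h | h⟩ := exists_frac (primeOf_ne_bot hq hB) a b
  · have h' : (algebraMap (𝓞 K) K a) * (algebraMap (𝓞 K) K c) =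
        (algebraMap (𝓞 K) K b) * (algebraMap (𝓞 K) K s) := by
      rw [← map_mul, ← map_mul, h]
    have hyc : (algebraMap (𝓞 K) K a / algebraMap (𝓞 K) K b) * (algebraMap (𝓞 K) K c) =
        algebraMap (𝓞 K) K s := by
      field_simp
      linear_combination h'
    by_cases hc : c ∈ primeOf B
    · exfalso
      have h1 : B.valuation (algebraMap (𝓞 K) K s) < 1 := by
        rw [← hyc, map_mul]
        exact lt_of_le_of_lt (mul_le_mul' ((B.valuation_le_one_iff _).mpr hy) le_rfl)
          (by rw [one_mul]; exact hc)
      exact hs h1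
    · exact ⟨s, c, hc, hyc⟩
  · refine ⟨c, s, hs, ?_⟩
    have h' : (algebraMap (𝓞 K) K b) * (algebraMap (𝓞 K) K c) =
        (algebraMap (𝓞 K) K a) * (algebraMap (𝓞 K) K s) := by
      rw [← map_mul, ← map_mul, h]
    change (algebraMap (𝓞 K) K a / algebraMap (𝓞 K) K b) * (algebraMap (𝓞 K) K s) =
        algebraMap (𝓞 K) K c
    field_simp
    linear_combination -h'

/-- A valuation subring of a number field lying over a prime number is the localisation of the
ring of integers at the prime `primeOf B`. -/
theorem isLocalization_atPrime {B : ValuationSubring K} {q : ℕ} (hq : q.Prime)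
    (hB : B.LiesOverPrime q) :
    letI := (intHom B).toAlgebra
    haveI := primeOf_isPrime B
    IsLocalization.AtPrime ↥B (primeOf B) := by
  letI := (intHom B).toAlgebra
  haveI := primeOf_isPrime B
  refine (isLocalization_iff _ _).mpr ⟨?_, ?_, ?_⟩
  · rintro ⟨s, hs⟩
    have hs' : B.valuation (s : K) = 1 := not_mem_primeOf.mp hs
    exact (B.valuation_eq_one_iff (intHom B s)).mpr hs'
  · intro z
    obtain ⟨a, s, hs, has⟩ := exists_frac_of_mem hq hB z.2
    exact ⟨(a, ⟨s, hs⟩), Subtype.ext has⟩
  · intro x y hxy
    exact ⟨1, by rw [intHom_injective B hxy]⟩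

end NF

section Main

variable {K : Type*} [Field K] [Algebra ℚ K] [FiniteDimensional ℚ K]

/-- A field which is finite-dimensional over `ℚ` (for ANY `ℚ`-algebra instance) is a number
field. -/
theorem numberField_of_finiteDimensional (M : Type*) [Field M] [i : Algebra ℚ M]
    [FiniteDimensional ℚ M] : NumberField M := by
  have hc : CharZero M := charZero_of_injective_algebraMap (algebraMap ℚ M).injective
  obtain rfl : i = DivisionRing.toRatAlgebra := Subsingleton.elim _ _
  exact { to_charZero := hc, to_finiteDimensional := inferInstance }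

/-- **`A₀` is a discrete valuation ring.**  A valuation subring of a field finite over `ℚ` lying
over a prime number is a discrete valuation ring. -/
theorem isDiscreteValuationRing (B : ValuationSubring K) {ℓ : ℕ} (hℓ : ℓ.Prime)
    (hB : B.LiesOverPrime ℓ) : IsDiscreteValuationRing ↥B := by
  haveI : NumberField K := numberField_of_finiteDimensional K
  letI := (intHom B).toAlgebra
  haveI := primeOf_isPrime B
  haveI := isLocalization_atPrime hℓ hB
  exact IsLocalization.AtPrime.isDiscreteValuationRing_of_dedekind_domain (𝓞 K)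
    (primeOf_ne_bot hℓ hB) ↥B

/-- The residue field of `A₀` is finite. -/
theorem finite_residueField (B : ValuationSubring K) {ℓ : ℕ} (hℓ : ℓ.Prime)
    (hB : B.LiesOverPrime ℓ) : Finite (ResidueField ↥B) := by
  haveI : NumberField K := numberField_of_finiteDimensional K
  letI := (intHom B).toAlgebra
  haveI := primeOf_isPrime B
  haveI := isLocalization_atPrime hℓ hB
  haveI : (primeOf B).IsMaximal := Ideal.IsPrime.isMaximal inferInstance (primeOf_ne_bot hℓ hB)
  haveI : Finite (𝓞 K ⧸ primeOf B) := Ideal.finiteQuotientOfFreeOfNeBot _ (primeOf_ne_bot hℓ hB)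
  exact Finite.of_equiv _ (IsLocalization.AtPrime.equivQuotMaximalIdeal (primeOf B) ↥B).toEquiv

/-- `A₀` has a uniformizer `π`: an irreducible element generating the maximal ideal, dividing
`ℓ`, and such that every nonzero element of `A₀` divides a power of `π`. -/
theorem exists_uniformizer (B : ValuationSubring K) {ℓ : ℕ} (hℓ : ℓ.Prime)
    (hB : B.LiesOverPrime ℓ) :
    ∃ π : ↥B, Irreducible π ∧ π ≠ 0 ∧ maximalIdeal ↥B = Ideal.span {π} ∧ π ∣ (ℓ : ↥B) ∧
      ∀ c : ↥B, c ≠ 0 → ∃ n : ℕ, c ∣ π ^ n := by
  haveI := isDiscreteValuationRing B hℓ hB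
  obtain ⟨π, hπ⟩ := IsDiscreteValuationRing.exists_irreducible ↥B
  have hmax : maximalIdeal ↥B = Ideal.span {π} :=
    (IsDiscreteValuationRing.irreducible_iff_uniformizer π).mp hπ
  refine ⟨π, hπ, hπ.ne_zero, hmax, ?_, ?_⟩
  · have h1 : (ℓ : ↥B) ∈ maximalIdeal ↥B := by
      rw [← ValuationSubring.coe_mem_nonunits_iff]
      push_cast
      exact hB
    rw [hmax] at h1
    exact Ideal.mem_span_singleton.mp h1
  · intro c hc
    obtain ⟨n, hn⟩ := IsDiscreteValuationRing.associated_pow_irreducible hc hπ
    exact ⟨n, hn.dvd⟩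

end Main

section Char

variable {K : Type*} [Field K]

/-- The residue field of a valuation subring lying over a prime number `ℓ` has
characteristic `ℓ`. -/
theorem charP_residueField (B : ValuationSubring K) {ℓ : ℕ} (hℓ : ℓ.Prime)
    (hB : B.LiesOverPrime ℓ) : CharP (ResidueField ↥B) ℓ := by
  rw [CharP.charP_iff_prime_eq_zero hℓ]
  have h1 : (ℓ : ↥B) ∈ maximalIdeal ↥B := by
    rw [← ValuationSubring.coe_mem_nonunits_iff]
    push_cast
    exact hB
  have h2 : residue ↥B (ℓ : ↥B) = 0 := (residue_eq_zero_iff _).mpr h1
  rw [map_natCast] at h2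
  exact h2

end Char

section Down

variable (K : Type*) {Ω : Type*} [Field K] [Field Ω] [Algebra K Ω] (A : ValuationSubring Ω)

/-- The valuation subring `A ∩ K` of a subfield `K` of `Ω`. -/
def down : ValuationSubring K := A.comap (algebraMap K Ω)

variable {K}

theorem mem_down {x : K} : x ∈ down K A ↔ algebraMap K Ω x ∈ A := Iff.rfl

theorem mem_nonunits_down_iff {x : K} :
    x ∈ (down K A).nonunits ↔ algebraMap K Ω x ∈ A.nonunits := by
  rw [ValuationSubring.mem_nonunits_iff_or, ValuationSubring.mem_nonunits_iff_or, mem_down,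
    map_inv₀, map_eq_zero]

theorem liesOverPrime_down_iff {q : ℕ} : (down K A).LiesOverPrime q ↔ A.LiesOverPrime q := by
  unfold ValuationSubring.LiesOverPrime
  rw [mem_nonunits_down_iff, map_natCast]

variable (K)

/-- The inclusion `A ∩ K → A`. -/
def incl : ↥(down K A) →+* ↥A :=
  (algebraMap K Ω).restrict (down K A).toSubring A.toSubring (fun _ hx => hx)

variable {K}

theorem coe_incl (x : ↥(down K A)) : ((incl K A x : ↥A) : Ω) = algebraMap K Ω (x : K) := rfl

theorem incl_injective : Function.Injective (incl K A) := by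
  intro x y h
  apply Subtype.ext
  apply (algebraMap K Ω).injective
  rw [← coe_incl, ← coe_incl, h]

theorem incl_mem_maximalIdeal_iff (x : ↥(down K A)) :
    incl K A x ∈ maximalIdeal ↥A ↔ x ∈ maximalIdeal ↥(down K A) := by
  rw [← ValuationSubring.coe_mem_nonunits_iff, ← ValuationSubring.coe_mem_nonunits_iff,
    coe_incl, mem_nonunits_down_iff]

instance isLocalHom_incl : IsLocalHom (incl K A) := by
  constructor
  intro x hx
  by_contra hnu
  have h1 : x ∈ maximalIdeal ↥(down K A) := (mem_maximalIdeal x).mpr hnu
  have h2 := (incl_mem_maximalIdeal_iff A x).mpr h1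
  exact (mem_maximalIdeal _).mp h2 hx

variable (K)

/-- The embedding of the residue field of `A ∩ K` into the residue field of `A`. -/
noncomputable def resMap : ResidueField ↥(down K A) →+* ResidueField ↥A :=
  ResidueField.map (incl K A)

variable {K}

theorem resMap_residue (x : ↥(down K A)) :
    resMap K A (residue ↥(down K A) x) = residue ↥A (incl K A x) :=
  ResidueField.map_residue (incl K A) x

theorem resMap_injective : Function.Injective (resMap K A) :=
  (resMap K A).injective

end Down

end Fermat.Agent.S18.A0
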