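/-
S18 bridge leaf B0 (route K): fields of definition for the modular function field.

`FC K := modularFunctionFieldFullC K N = K(j(q^d) : d ∣ N) ⊆ K((q))` is defined for every field.

* `coeffMap_mem_fullC`: a field homomorphism `f : K → K'` maps `FC K` into `FC K'` coefficientwise.
* `bar_eq_fullC`: the frozen `modularFunctionFieldBar N` is `FC (AlgebraicClosure ℚ)`.
* `DefinedOver K0 x`, `exists_finite_subfield`, `exists_finite_subfield₂`: every element of
  `FC (AlgebraicClosure ℚ)` comes from `FC K0` for a number field `K0 ⊆ AlgebraicClosure ℚ`.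
* `exists_coeffMap_subtype_eq`: a Laurent series with all coefficients in a subring comes from a
  Laurent series over the subring.
* `linearIndependent_coeffMap`: coefficientwise linear disjointness: a family of Laurent series
  over `K` that is independent over `K[j]` stays independent over `K'[j]` after extending the
  coefficients to `K'`.
-/
import Mathlib
import Fermat.Prelude.Def_ModularCurve_X0ModL
import Fermat.Prelude.Def_ModularCurve_ArithmeticGalois
import Fermat.Agent.S28.CruxLBase

set_option autoImplicit false

noncomputable section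

open ModularCurve IntermediateField

namespace Fermat.Agent.S18.FieldDef

/-! ### Functoriality of `modularFunctionFieldFullC` -/

section Functorial

variable {K K' : Type*} [Field K] [Field K']

theorem coeffMap_algebraMap' (f : K →+* K') (c : K) :
    coeffMap f (algebraMap K (LaurentSeries K) c) = algebraMap K' (LaurentSeries K') (f c) := by
  rw [algebraMap_laurentSeries_eq_single, algebraMap_laurentSeries_eq_single, coeffMap_single]

theorem coeffMap_gen (f : K →+* K') (d : ℕ) [NeZero d] :
    coeffMap f (qExpand K d (jqModC K)) = qExpand K' d (jqModC K') := by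
  rw [coeffMap_qExpand, coeffMap_jqModC]

/-- `coeffMap f` maps `K(j(q^d))` into `K'(j(q^d))`. -/
theorem coeffMap_mem_fullC (f : K →+* K') (N : ℕ) {x : LaurentSeries K}
    (hx : x ∈ modularFunctionFieldFullC K N) :
    coeffMap f x ∈ modularFunctionFieldFullC K' N := by
  unfold modularFunctionFieldFullC at hx
  induction hx using IntermediateField.adjoin_induction with
  | mem x hx =>
    obtain ⟨d, hd, hdN, rfl⟩ := hx
    rw [coeffMap_gen]
    exact jqModCd_mem_full K' N hdN
  | algebraMap c =>
    rw [coeffMap_algebraMap']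
    exact (modularFunctionFieldFullC K' N).algebraMap_mem _
  | add x y _ _ hx hy => rw [map_add]; exact add_mem hx hy
  | inv x _ hx => rw [map_inv₀]; exact inv_mem hx
  | mul x y _ _ hx hy => rw [map_mul]; exact mul_mem hx hy

theorem coeffMap_injective (f : K →+* K') : Function.Injective (coeffMap f) := by
  intro x y h
  ext n
  have := congrArg (fun z => z.coeff n) h
  simp only [coeffMap_coeff] at this
  exact f.injective this

end Functorial

/-! ### The frozen function field over `ℚ̄` -/

section Bar

/-- The frozen `modularFunctionFieldBar N` is `ℚ̄(j(q^d) : d ∣ N)`. -/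
theorem bar_eq_fullC (N : ℕ) [NeZero N] :
    modularFunctionFieldBar N = modularFunctionFieldFullC (AlgebraicClosure ℚ) N := by
  apply le_antisymm
  · change IntermediateField.adjoin (AlgebraicClosure ℚ)
      (⇑(coeffEmb (AlgebraicClosure ℚ)) '' (modularFunctionFieldFull N : Set (LaurentSeries ℚ))) ≤ _
    rw [IntermediateField.adjoin_le_iff]
    rintro _ ⟨z, hz, rfl⟩
    have hz' : z ∈ modularFunctionFieldFullC ℚ N := hz
    exact coeffMap_mem_fullC (algebraMap ℚ (AlgebraicClosure ℚ)) N hz'
  · unfold modularFunctionFieldFullC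
    rw [IntermediateField.adjoin_le_iff]
    rintro _ ⟨d, hd, hdN, rfl⟩
    have h1 : qExpand (AlgebraicClosure ℚ) d (jqModC (AlgebraicClosure ℚ)) =
        coeffEmb (AlgebraicClosure ℚ) (qExpand ℚ d jq) := by
      change _ = coeffMap (algebraMap ℚ (AlgebraicClosure ℚ)) (qExpand ℚ d (jqModC ℚ))
      rw [coeffMap_gen]
    rw [h1]
    exact coeffEmb_mem_laurentBaseChange (AlgebraicClosure ℚ) (jqd_mem_full N hdN)

end Bar

/-! ### Fields of definition -/

section Defined

variable {Ω : Type*} [Field Ω] [Algebra ℚ Ω] (N : ℕ)

/-- `x ∈ Ω((q))` comes from the function field over the subfield `K0`. -/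
def DefinedOver (K0 : IntermediateField ℚ Ω) (x : LaurentSeries Ω) : Prop :=
  ∃ y ∈ modularFunctionFieldFullC K0 N, coeffMap (algebraMap K0 Ω) y = x

variable {N}

theorem DefinedOver.mem {K0 : IntermediateField ℚ Ω} {x : LaurentSeries Ω}
    (h : DefinedOver N K0 x) : x ∈ modularFunctionFieldFullC Ω N := by
  obtain ⟨y, hy, rfl⟩ := h
  exact coeffMap_mem_fullC _ N hy

theorem DefinedOver.mono {K0 K1 : IntermediateField ℚ Ω} (h01 : K0 ≤ K1) {x : LaurentSeries Ω}
    (h : DefinedOver N K0 x) : DefinedOver N K1 x := by
  obtain ⟨y, hy, rfl⟩ := h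
  refine ⟨coeffMap (IntermediateField.inclusion h01 : K0 →+* K1) y,
    coeffMap_mem_fullC _ N hy, ?_⟩
  rw [coeffMap_coeffMap]
  exact coeffMap_congr (RingHom.ext fun c => rfl) y

theorem DefinedOver.add {K0 : IntermediateField ℚ Ω} {x x' : LaurentSeries Ω}
    (h : DefinedOver N K0 x) (h' : DefinedOver N K0 x') : DefinedOver N K0 (x + x') := by
  obtain ⟨y, hy, rfl⟩ := h
  obtain ⟨y', hy', rfl⟩ := h'
  exact ⟨y + y', add_mem hy hy', map_add _ _ _⟩

theorem DefinedOver.mul {K0 : IntermediateField ℚ Ω} {x x' : LaurentSeries Ω}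
    (h : DefinedOver N K0 x) (h' : DefinedOver N K0 x') : DefinedOver N K0 (x * x') := by
  obtain ⟨y, hy, rfl⟩ := h
  obtain ⟨y', hy', rfl⟩ := h'
  exact ⟨y * y', mul_mem hy hy', map_mul _ _ _⟩

theorem DefinedOver.inv {K0 : IntermediateField ℚ Ω} {x : LaurentSeries Ω}
    (h : DefinedOver N K0 x) : DefinedOver N K0 x⁻¹ := by
  obtain ⟨y, hy, rfl⟩ := h
  exact ⟨y⁻¹, inv_mem hy, map_inv₀ _ _⟩

theorem DefinedOver.div {K0 : IntermediateField ℚ Ω} {x x' : LaurentSeries Ω}
    (h : DefinedOver N K0 x) (h' : DefinedOver N K0 x') : DefinedOver N K0 (x / x') := by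
  rw [div_eq_mul_inv]
  exact h.mul h'.inv

/-- Every element of `Ω(j(q^d))` is defined over a finite extension of `ℚ` inside `Ω`
(`Ω` algebraic over `ℚ`). -/
theorem exists_finite_subfield [Algebra.IsAlgebraic ℚ Ω] {x : LaurentSeries Ω}
    (hx : x ∈ modularFunctionFieldFullC Ω N) :
    ∃ K0 : IntermediateField ℚ Ω, FiniteDimensional ℚ K0 ∧ DefinedOver N K0 x := by
  unfold modularFunctionFieldFullC at hx
  induction hx using IntermediateField.adjoin_induction with
  | mem x hx =>
    obtain ⟨d, hd, hdN, rfl⟩ := hx
    refine ⟨⊥, inferInstance, qExpand _ d (jqModC _), jqModCd_mem_full _ N hdN, ?_⟩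
    rw [coeffMap_gen]
  | algebraMap c =>
    have hc : IsIntegral ℚ c := Algebra.IsIntegral.isIntegral c
    refine ⟨ℚ⟮c⟯, IntermediateField.adjoin.finiteDimensional hc,
      algebraMap _ _ (⟨c, IntermediateField.mem_adjoin_simple_self ℚ c⟩ : ℚ⟮c⟯),
      (modularFunctionFieldFullC _ N).algebraMap_mem _, ?_⟩
    rw [coeffMap_algebraMap']
    rfl
  | add x y _ _ hx hy =>
    obtain ⟨K1, hK1, h1⟩ := hx
    obtain ⟨K2, hK2, h2⟩ := hy
    exact ⟨K1 ⊔ K2, IntermediateField.finiteDimensional_sup K1 K2,
      (h1.mono le_sup_left).add (h2.mono le_sup_right)⟩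
  | inv x _ hx =>
    obtain ⟨K1, hK1, h1⟩ := hx
    exact ⟨K1, hK1, h1.inv⟩
  | mul x y _ _ hx hy =>
    obtain ⟨K1, hK1, h1⟩ := hx
    obtain ⟨K2, hK2, h2⟩ := hy
    exact ⟨K1 ⊔ K2, IntermediateField.finiteDimensional_sup K1 K2,
      (h1.mono le_sup_left).mul (h2.mono le_sup_right)⟩

/-- Two elements are defined over one common finite extension of `ℚ`, which can be taken to
contain any given finite extension. -/
theorem exists_finite_subfield₂ [Algebra.IsAlgebraic ℚ Ω] {x x' : LaurentSeries Ω}
    (hx : x ∈ modularFunctionFieldFullC Ω N) (hx' : x' ∈ modularFunctionFieldFullC Ω N)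
    (K : IntermediateField ℚ Ω) [FiniteDimensional ℚ K] :
    ∃ K0 : IntermediateField ℚ Ω, FiniteDimensional ℚ K0 ∧ K ≤ K0 ∧
      DefinedOver N K0 x ∧ DefinedOver N K0 x' := by
  obtain ⟨K1, hK1, h1⟩ := exists_finite_subfield hx
  obtain ⟨K2, hK2, h2⟩ := exists_finite_subfield hx'
  have : FiniteDimensional ℚ ↥(K1 ⊔ K2) := IntermediateField.finiteDimensional_sup K1 K2
  exact ⟨K ⊔ (K1 ⊔ K2), IntermediateField.finiteDimensional_sup K (K1 ⊔ K2), le_sup_left,
    h1.mono (le_sup_left.trans le_sup_right), h2.mono (le_sup_right.trans le_sup_right)⟩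

end Defined

/-! ### Series with coefficients in a subring -/

section Subring

variable {R : Type*} [CommRing R]

/-- A Laurent series all of whose coefficients lie in a subring comes from the subring. -/
theorem exists_coeffMap_subtype_eq (S : Subring R) (y : LaurentSeries R)
    (h : ∀ n, y.coeff n ∈ S) : ∃ u : LaurentSeries S, coeffMap S.subtype u = y := by
  have hsupp : (Function.support fun n : ℤ => (⟨y.coeff n, h n⟩ : S)) = y.support := by
    ext n
    simp only [Function.mem_support, ne_eq, HahnSeries.mem_support]
    exact not_congr (by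
      constructor
      · intro h0; exact congrArg Subtype.val h0
      · intro h0; exact Subtype.ext h0)
  refine ⟨⟨fun n => ⟨y.coeff n, h n⟩, by rw [hsupp]; exact y.isPWO_support⟩, ?_⟩
  ext n
  rfl

/-- If `coeffMap f y` has all its coefficients in a subring `S'` of the target, then `y` comes
from a series over the preimage subring. -/
theorem exists_coeffMap_comap_eq {R' : Type*} [CommRing R'] (f : R →+* R') (S' : Subring R')
    (y : LaurentSeries R) (h : ∀ n, (coeffMap f y).coeff n ∈ S') :
    ∃ u : LaurentSeries (S'.comap f), coeffMap (S'.comap f).subtype u = y :=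
  exists_coeffMap_subtype_eq (S'.comap f) y fun n => by
    have := h n
    rwa [coeffMap_coeff] at this

end Subring

/-! ### Coefficientwise linear disjointness -/

section LinDisj

open Polynomial

variable {K K' : Type*} [Field K] [Field K'] [Algebra K K']

/-- **Linear disjointness, coefficientwise.**  A finite family of Laurent series over `K` which
is linearly independent over `K[j]` remains linearly independent over `K'[j]` after extension of
the coefficient field. -/
theorem linearIndependent_coeffMap {σ : Type*} [Fintype σ] (x : σ → LaurentSeries K)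
    (j : LaurentSeries K)
    (h : ∀ c : σ → K[X], ∑ i, aeval j (c i) * x i = 0 → c = 0)
    (c : σ → K'[X])
    (hc : ∑ i, aeval (coeffMap (algebraMap K K') j) (c i) * coeffMap (algebraMap K K') (x i) = 0) :
    c = 0 := by
  classical
  set ι : LaurentSeries K →+* LaurentSeries K' := coeffMap (algebraMap K K') with hι
  let b := Module.Basis.ofVectorSpace K K'
  -- a common degree bound
  obtain ⟨D, hD⟩ : ∃ D : ℕ, ∀ i, (c i).natDegree < D :=
    ⟨(Finset.univ.sup fun i => (c i).natDegree) + 1, fun i =>
      Nat.lt_succ_of_le (Finset.le_sup (f := fun i => (c i).natDegree) (Finset.mem_univ i))⟩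
  -- the coordinate polynomials
  let d : Module.Basis.ofVectorSpaceIndex K K' → σ → K[X] := fun α i =>
    ∑ k ∈ Finset.range D, monomial k (b.coord α ((c i).coeff k))
  -- coefficient of a constant multiple
  have hsmul : ∀ (r : K') (w : LaurentSeries K') (n : ℤ),
      (algebraMap K' (LaurentSeries K') r * w).coeff n = r * w.coeff n := by
    intro r w n
    rw [algebraMap_laurentSeries_eq_single, HahnSeries.coeff_single_zero_mul]
  have hsmulK : ∀ (r : K) (w : LaurentSeries K) (n : ℤ),
      (algebraMap K (LaurentSeries K) r * w).coeff n = r * w.coeff n := by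
    intro r w n
    rw [algebraMap_laurentSeries_eq_single, HahnSeries.coeff_single_zero_mul]
  -- coefficient formula for the given relation
  have hcoeff : ∀ n : ℤ, ∑ i, ∑ k ∈ Finset.range D,
      (c i).coeff k * algebraMap K K' ((j ^ k * x i).coeff n) = 0 := by
    intro n
    have h1 := congrArg (fun z => z.coeff n) hc
    simp only [HahnSeries.coeff_zero] at h1
    rw [← h1, HahnSeries.coeff_sum]
    refine Finset.sum_congr rfl fun i _ => ?_
    rw [aeval_eq_sum_range' (hD i), Finset.sum_mul, HahnSeries.coeff_sum]
    refine Finset.sum_congr rfl fun k _ => ?_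
    rw [Algebra.smul_def, mul_assoc, hsmul, ← map_pow, ← map_mul, hι, coeffMap_coeff]
  -- the coordinate polynomials evaluated at `j`
  have hd : ∀ α i, aeval j (d α i) =
      ∑ k ∈ Finset.range D, algebraMap K (LaurentSeries K) (b.coord α ((c i).coeff k)) * j ^ k := by
    intro α i
    change aeval j (∑ k ∈ Finset.range D, monomial k (b.coord α ((c i).coeff k))) = _
    rw [map_sum]
    refine Finset.sum_congr rfl fun k _ => ?_
    rw [aeval_monomial]
  -- each coordinate series vanishes
  have hy : ∀ α, ∑ i, aeval j (d α i) * x i = 0 := by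
    intro α
    ext n
    have h2 := congrArg (b.coord α) (hcoeff n)
    rw [map_zero, map_sum] at h2
    rw [HahnSeries.coeff_zero, ← h2, HahnSeries.coeff_sum]
    refine Finset.sum_congr rfl fun i _ => ?_
    rw [hd, Finset.sum_mul, HahnSeries.coeff_sum, map_sum]
    refine Finset.sum_congr rfl fun k _ => ?_
    rw [mul_assoc, hsmulK]
    have h3 : (c i).coeff k * algebraMap K K' ((j ^ k * x i).coeff n) =
        ((j ^ k * x i).coeff n) • (c i).coeff k := by
      rw [Algebra.smul_def, mul_comm]
    rw [h3, map_smul, smul_eq_mul, mul_comm]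
  -- conclude
  funext i
  ext k
  rw [Pi.zero_apply, coeff_zero]
  by_cases hk : k < D
  · have h4 : ∀ α, d α i = 0 := fun α => congrFun (h (d α) (hy α)) i
    refine b.ext_elem fun α => ?_
    rw [map_zero, Finsupp.zero_apply]
    have h5 := congrArg (fun p : K[X] => p.coeff k) (h4 α)
    simp only [d, coeff_zero, finsetSum_coeff, coeff_monomial] at h5
    rw [Finset.sum_ite_eq' (Finset.range D) k, if_pos (Finset.mem_range.mpr hk)] at h5
    exact h5
  · exact coeff_eq_zero_of_natDegree_lt (lt_of_lt_of_le (hD i) (not_lt.mp hk))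

end LinDisj

/-! ### Degree over `K(j)` does not grow when the constants shrink -/

section Rank

open Polynomial

variable (K : Type*) [Field K] (N : ℕ)

/-- `j` as an element of the function field `K(j(q^d) : d ∣ N)`. -/
def jC : modularFunctionFieldFullC K N := ⟨jqModC K, jqModC_mem_full K N⟩

@[simp]
theorem coe_jC : ((jC K N : modularFunctionFieldFullC K N) : LaurentSeries K) = jqModC K := rfl

theorem transcendental_jC : Transcendental K (jC K N) := by
  intro halg
  exact Fermat.Agent.S28.CruxL.transcendental_jqModC K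
    (halg.algHom (modularFunctionFieldFullC K N).val)

variable {K N}
variable {K' : Type*} [Field K'] [Algebra K K']

theorem coe_aeval_jC (p : K[X]) :
    ((aeval (jC K N) p : modularFunctionFieldFullC K N) : LaurentSeries K) =
      aeval (jqModC K) p := by
  have := aeval_algHom_apply (modularFunctionFieldFullC K N).val (jC K N) p
  exact this.symm

/-- A family of the function field over `K` which is independent over `K(j)` stays independent
over `K'(j)` inside any intermediate field `F'` of `K'((q))` containing its image. -/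
theorem linearIndependent_map {σ : Type*} [Fintype σ]
    (F' : IntermediateField K' (LaurentSeries K')) (j' : F')
    (hj' : (j' : LaurentSeries K') = jqModC K')
    (x : σ → modularFunctionFieldFullC K N) (y : σ → F')
    (hy : ∀ i, (y i : LaurentSeries K') = coeffMap (algebraMap K K') (x i))
    (hx : LinearIndependent K⟮jC K N⟯ x) : LinearIndependent K'⟮j'⟯ y := by
  classical
  have htr' : Transcendental K' j' := by
    intro halg
    have := halg.algHom F'.val
    rw [IntermediateField.coe_val, hj'] at this
    exact Fermat.Agent.S28.CruxL.transcendental_jqModC K' this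
  -- independence over `K[X]`
  have h1 : ∀ c : σ → K[X], ∑ i, aeval (jqModC K) (c i) * (x i : LaurentSeries K) = 0 → c = 0 := by
    intro c hc
    have h2 : ∑ i, (⟨aeval (jC K N) (c i), by
        have : aeval (jC K N) (c i) ∈ Algebra.adjoin K {jC K N} := by
          rw [Algebra.adjoin_singleton_eq_range_aeval]
          exact ⟨c i, rfl⟩
        exact IntermediateField.algebra_adjoin_le_adjoin K _ this⟩ : K⟮jC K N⟯) • x i = 0 := by
      apply Subtype.ext
      rw [AddSubmonoidClass.coe_finsetSum, ZeroMemClass.coe_zero, ← hc]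
      refine Finset.sum_congr rfl fun i _ => ?_
      rw [← coe_aeval_jC]
      rfl
    have h3 := (Fintype.linearIndependent_iff.mp hx) _ h2
    funext i
    have h4 := congrArg (fun z : K⟮jC K N⟯ => (z : modularFunctionFieldFullC K N)) (h3 i)
    exact (transcendental_iff.mp (transcendental_jC K N)) (c i) h4
  have h5 := linearIndependent_coeffMap (K' := K') (fun i => (x i : LaurentSeries K)) (jqModC K) h1
  rw [coeffMap_jqModC] at h5
  -- independence over `K'(j')`
  rw [Fintype.linearIndependent_iff]
  intro g hg
  have hrep : ∀ i, ∃ r s : K'[X], s ≠ 0 ∧ ((g i : K'⟮j'⟯) : F') = aeval j' r / aeval j' s := by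
    intro i
    obtain ⟨r, s, hrs⟩ := IntermediateField.mem_adjoin_simple_iff K' ((g i : K'⟮j'⟯) : F') |>.mp (g i).2
    by_cases hs : s = 0
    · refine ⟨0, 1, one_ne_zero, ?_⟩
      rw [hrs, hs]
      simp
    · exact ⟨r, s, hs, hrs⟩
  choose r s hs hrs using hrep
  have hsne : ∀ i, aeval j' (s i) ≠ 0 := fun i h0 => hs i ((transcendental_iff.mp htr') (s i) h0)
  set c : σ → K'[X] := fun i => r i * ∏ l ∈ Finset.univ.erase i, s l with hcdef
  have hci : ∀ i, aeval j' (c i) = ((g i : K'⟮j'⟯) : F') * aeval j' (∏ l, s l) := by
    intro i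
    rw [hcdef, hrs i, ← Finset.mul_prod_erase Finset.univ s (Finset.mem_univ i)]
    simp only [map_mul]
    field_simp [hsne i]
  have h6 : ∑ i, aeval (jqModC K') (c i) * coeffMap (algebraMap K K') (x i : LaurentSeries K) = 0 := by
    have h7 : (∑ i, aeval j' (c i) * y i : F') = 0 := by
      have h8 : (∑ i, aeval j' (c i) * y i : F') = aeval j' (∏ l, s l) * ∑ i, g i • y i := by
        rw [Finset.mul_sum]
        refine Finset.sum_congr rfl fun i _ => ?_
        rw [hci i]
        have : (g i • y i : F') = ((g i : K'⟮j'⟯) : F') * y i := rfl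
        rw [this]
        ring
      rw [h8, hg, mul_zero]
    have h9 := congrArg (fun z : F' => (z : LaurentSeries K')) h7
    simp only [AddSubmonoidClass.coe_finsetSum, ZeroMemClass.coe_zero, MulMemClass.coe_mul] at h9
    rw [← h9]
    refine Finset.sum_congr rfl fun i _ => ?_
    rw [hy i]
    congr 1
    have := aeval_algHom_apply F'.val j' (c i)
    rw [IntermediateField.coe_val, hj'] at this
    exact this
  have h10 := h5 c h6
  intro i
  have h11 : c i = 0 := congrFun h10 i
  have h12 : r i = 0 := by
    rw [hcdef] at h11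
    rcases mul_eq_zero.mp h11 with h | h
    · exact h
    · exact absurd h (Finset.prod_ne_zero_iff.mpr fun l _ => hs l)
  apply Subtype.ext
  rw [hrs i, h12]
  simp

/-- The degree of the function field over `K(j)` is at most the degree over `K'(j)`. -/
theorem finrank_le_of (F' : IntermediateField K' (LaurentSeries K')) (j' : F')
    (hj' : (j' : LaurentSeries K') = jqModC K')
    (hF' : ∀ x ∈ modularFunctionFieldFullC K N, coeffMap (algebraMap K K') x ∈ F')
    [FiniteDimensional K'⟮j'⟯ F'] :
    FiniteDimensional K⟮jC K N⟯ (modularFunctionFieldFullC K N) ∧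
      Module.finrank K⟮jC K N⟯ (modularFunctionFieldFullC K N) ≤ Module.finrank K'⟮j'⟯ F' := by
  classical
  have hrank : Module.rank K⟮jC K N⟯ (modularFunctionFieldFullC K N) ≤
      (Module.finrank K'⟮j'⟯ F' : ℕ) := by
    refine rank_le fun t ht => ?_
    have hli := linearIndependent_map F' j' hj' (fun i : t => (i : modularFunctionFieldFullC K N))
      (fun i : t => (⟨coeffMap (algebraMap K K') ((i : modularFunctionFieldFullC K N) :
        LaurentSeries K), hF' _ (i : modularFunctionFieldFullC K N).2⟩ : F')) (fun i => rfl) ht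
    have := hli.fintype_card_le_finrank
    simpa using this
  have hnoeth : IsNoetherian K⟮jC K N⟯ (modularFunctionFieldFullC K N) :=
    IsNoetherian.iff_rank_lt_aleph0.mpr (lt_of_le_of_lt hrank (Cardinal.natCast_lt_aleph0))
  have hfin : FiniteDimensional K⟮jC K N⟯ (modularFunctionFieldFullC K N) :=
    Module.IsNoetherian.finite _ _
  exact ⟨hfin, Module.finrank_le_of_rank_le hrank⟩

end Rank

end Fermat.Agent.S18.FieldDef
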