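import Fermat.Agent.S24.NormFree
import Fermat.Agent.S24.Iota
import Fermat.Agent.S24.PointData
import Fermat.Agent.S24.CuspPlaces
import Fermat.Agent.S24.FFPrin
import Fermat.Agent.S24.PlacesAbs

/-!
# S18: the facts about the function field of `X₀(N)` over `ℚ̄` that S24 exports

Everything here is a re-statement, in the shape the S18 modules consume, of results proved for
S24 (imported read-only): `F_L := modularFunctionFieldBar N` is finite of degree `ψ(N)` over
`ℚ̄(j)`, its places have degree one, principal divisors have degree zero, the zero divisor of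
`j - a` and the pole divisor of `j` have degree `ψ(N)`, and the ramification of `j` is `1` at
generic points, `1` or `3` over `0`, `1` or `2` over `1728`, and a divisor of `N` at the cusps.
-/

set_option autoImplicit false

open AlgebraicCurve ModularCurve CongruenceSubgroup
open scoped MatrixGroups

namespace Fermat.Agent.S18.S24Export

local notation "Qb" => AlgebraicClosure ℚ

/-- the frozen function field of `X₀(N)` over `ℚ̄`. -/
noncomputable abbrev FL (N : ℕ) : IntermediateField Qb (LaurentSeries Qb) :=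
  ModularCurve.modularFunctionFieldBar N

/-- the function `j` on `X₀(N)`. -/
noncomputable abbrev jL (N : ℕ) : FL N := Fermat.Agent.S24.jBar N 1 (one_dvd N) Nat.one_pos

/-- the `q`-expansion of `jL` is the `q`-expansion of `j`. -/
theorem coe_jL (N : ℕ) :
    ((jL N : FL N) : LaurentSeries Qb) = ModularCurve.coeffEmb Qb ModularCurve.jq := by
  rw [jL, Fermat.Agent.S24.Iota.coe_jBar, qExpand_one_apply]

variable (N : ℕ)

theorem transcendental_jL : Transcendental Qb (jL N) :=
  Fermat.Agent.S24.transcendental_jBar N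

theorem jL_ne_zero : jL N ≠ 0 := fun h =>
  transcendental_jL N (h ▸ isAlgebraic_zero)

theorem jL_sub_ne_zero (a : Qb) : jL N - algebraMap Qb (FL N) a ≠ 0 := fun h =>
  transcendental_jL N ((sub_eq_zero.mp h) ▸ isAlgebraic_algebraMap a)

theorem adjoin_sub (a : Qb) :
    IntermediateField.adjoin Qb {jL N - algebraMap Qb (FL N) a}
      = IntermediateField.adjoin Qb {jL N} :=
  Fermat.Agent.S24.PointData.adjoin_sub_const a

theorem adjoin_inv :
    IntermediateField.adjoin Qb {(jL N)⁻¹} = IntermediateField.adjoin Qb {jL N} :=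
  Fermat.Agent.S24.CuspPlaces.adjoin_inv_eq _

theorem transcendental_jL_sub (a : Qb) :
    Transcendental Qb (jL N - algebraMap Qb (FL N) a) := fun h =>
  transcendental_jL N (by
    have := h.add (isAlgebraic_algebraMap (R := Qb) (A := FL N) a)
    simpa using this)

theorem transcendental_jL_inv : Transcendental Qb (jL N)⁻¹ := fun h =>
  transcendental_jL N (by simpa using h.inv)

variable [NeZero N]

instance finiteDimensional_adjoin :
    FiniteDimensional (IntermediateField.adjoin Qb {jL N}) (FL N) :=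
  Fermat.Agent.S24.finiteDimensional_adjoin_j N

/-- `[F_L : ℚ̄(j)] = ψ(N)`. -/
theorem finrank_adjoin :
    Module.finrank (IntermediateField.adjoin Qb {jL N}) (FL N) = ModularCurve.dedekindPsi N :=
  Fermat.Agent.S24.finrank_adjoin_j N

/-- every place of `F_L` has degree one. -/
theorem deg_eq_one (v : Place Qb (FL N)) : v.deg = 1 :=
  Fermat.Agent.S24.FFPrin.hdeg (IntermediateField.adjoin Qb {jL N}) (jL N) rfl v

/-- principal divisors have finite support and degree zero. -/
theorem exists_sum_ord_eq_zero (g : FL N) (hg : g ≠ 0) :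
    ∃ S : Finset (Place Qb (FL N)), (∀ v, v ∉ S → v.ord g = 0) ∧ ∑ v ∈ S, v.ord g = 0 :=
  Fermat.Agent.S24.FFPrin.sum_ord_eq_zero (IntermediateField.adjoin Qb {jL N}) (jL N) rfl g hg

/-- the residue of `j` at a place where it is regular. -/
theorem exists_residue (v : Place Qb (FL N)) (hv : 0 ≤ v.ord (jL N)) :
    ∃ a : Qb, 0 < v.ord (jL N - algebraMap Qb (FL N) a) :=
  Fermat.Agent.S24.FFPrin.hres (IntermediateField.adjoin Qb {jL N}) (jL N) rfl (jL N)
    (transcendental_jL N) v hv

/-- the zero divisor of `j - a` has degree `ψ(N)`. -/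
theorem exists_zeros (a : Qb) :
    ∃ Z : Finset (Place Qb (FL N)),
      (∀ v, v ∈ Z ↔ 0 < v.ord (jL N - algebraMap Qb (FL N) a)) ∧
      ∑ v ∈ Z, v.ord (jL N - algebraMap Qb (FL N) a) = (ModularCurve.dedekindPsi N : ℤ) := by
  have h := Fermat.Agent.S24.fundamental_identity (IntermediateField.adjoin Qb {jL N})
    (jL N - algebraMap Qb (FL N) a) (adjoin_sub N a) (transcendental_jL_sub N a)
  rw [finrank_adjoin] at h
  exact h

/-- the pole divisor of `j` has degree `ψ(N)`. -/
theorem exists_poles :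
    ∃ Z : Finset (Place Qb (FL N)),
      (∀ v, v ∈ Z ↔ v.ord (jL N) < 0) ∧
      ∑ v ∈ Z, v.ord (jL N) = -(ModularCurve.dedekindPsi N : ℤ) := by
  obtain ⟨Z, hZ, hsum⟩ := Fermat.Agent.S24.fundamental_identity
    (IntermediateField.adjoin Qb {jL N}) (jL N)⁻¹ (adjoin_inv N) (transcendental_jL_inv N)
  rw [finrank_adjoin] at hsum
  refine ⟨Z, fun v => ?_, ?_⟩
  · rw [hZ v, Place.ord_inv]; omega
  · rw [← hsum, ← Finset.sum_neg_distrib]
    exact Finset.sum_congr rfl fun v _ => by rw [Place.ord_inv, neg_neg]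

/-- `j` is unramified over every value `a ≠ 0, 1728`. -/
theorem ord_eq_one_of_generic (a : Qb) (ha0 : a ≠ 0) (ha1 : a ≠ 1728) (v : Place Qb (FL N))
    (hv : 0 < v.ord (jL N - algebraMap Qb (FL N) a)) :
    v.ord (jL N - algebraMap Qb (FL N) a) = 1 :=
  Fermat.Agent.S24.ord_eq_one_of_generic N a ha0 ha1 v hv

/-- over `j = 0` the ramification index is `1` or `3`. -/
theorem ord_zero_cases (v : Place Qb (FL N)) (hv : 0 < v.ord (jL N)) :
    v.ord (jL N) = 1 ∨ v.ord (jL N) = 3 := by
  obtain ⟨P, -, hall, hord⟩ := Fermat.Agent.S24.exists_places_0 N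
  have hv' : 0 < v.ord (jL N - algebraMap Qb (FL N) 0) := by simpa using hv
  obtain ⟨q, rfl⟩ := hall v hv'
  have h := hord q
  rw [map_zero, sub_zero] at h
  have hd := Fermat.Agent.S24.Orbits.minimalPeriod_ST_dvd N q
  rcases (Nat.dvd_prime Nat.prime_three).mp hd with h1 | h3
  · left; rw [h, h1]; rfl
  · right; rw [h, h3]; rfl

/-- over `j = 1728` the ramification index is `1` or `2`. -/
theorem ord_1728_cases (v : Place Qb (FL N))
    (hv : 0 < v.ord (jL N - algebraMap Qb (FL N) 1728)) :
    v.ord (jL N - algebraMap Qb (FL N) 1728) = 1 ∨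
      v.ord (jL N - algebraMap Qb (FL N) 1728) = 2 := by
  obtain ⟨P, -, hall, hord⟩ := Fermat.Agent.S24.exists_places_1728 N
  obtain ⟨q, rfl⟩ := hall v hv
  have h := hord q
  have hd := Fermat.Agent.S24.Orbits.minimalPeriod_S_dvd N q
  rcases (Nat.dvd_prime Nat.prime_two).mp hd with h1 | h2
  · left; rw [h, h1]; rfl
  · right; rw [h, h2]; rfl

/-- at a pole of `j` (a cusp) the ramification index (the width) divides `N`. -/
theorem cusp_width_dvd (v : Place Qb (FL N)) (hv : v.ord (jL N) < 0) :
    ∃ w : ℕ, w ∣ N ∧ 0 < w ∧ v.ord (jL N) = -(w : ℤ) := by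
  classical
  have inst : Fintype (SL(2, ℤ) ⧸ Gamma0 N) := Subgroup.fintypeQuotientOfFiniteIndex
  obtain ⟨P, -, hall, hord⟩ := Fermat.Agent.S24.exists_cusp_places N
  have hv' : 0 < v.ord (jL N)⁻¹ := by rw [Place.ord_inv]; omega
  obtain ⟨q, rfl⟩ := hall v hv'
  have h : -(P q).ord (jL N) = (Function.minimalPeriod
      (MulAction.toPerm (ModularGroup.T : SL(2, ℤ)) : Equiv.Perm (SL(2, ℤ) ⧸ Gamma0 N)) q : ℤ) := by
    rw [← Place.ord_inv]; exact hord q
  have hd := Fermat.Agent.S24.Orbits.minimalPeriod_T_dvd N q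
  refine ⟨_, hd, Nat.pos_of_dvd_of_pos hd (Nat.pos_of_ne_zero (NeZero.ne N)), ?_⟩
  rw [← h, neg_neg]

end Fermat.Agent.S18.S24Export
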