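import Mathlib
import Fermat.Prelude.Def_ModularCurve_ReductionModL
import Fermat.Agent.S18.S24Export

/-!
# S18, Step 1: formal reduction to a Kummer statement

`z ∈ J₀(N)(ℚ̄)` with `m • z = 0`, `ℓ ∤ m`, and trivial reduction modulo a place above `ℓ`.
We unfold the definitions of the prelude (`ReductionInputsModL`, `reductionModL`, `Pic0`) and
reduce `z = 0` to a statement about functions in which neither the place reduction map nor the
Jacobian occur:

* `IsInt A N y` : the Laurent series `y` over the valuation ring `A` is a function on `X₀(N)`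
  over `ℚ̄` whose reduction is a function on `X₀(N)` over the residue field; `h.toL`, `h.tok`.
* `KummerWeak A N p` : if `u₁, u₂` are integral with nonzero reductions having the same divisor,
  and the divisor of `u₁/u₂` is divisible by `p`, then `u₁/u₂` is a `p`-th power.
* `KummerStrong A N p` : the same for equal nonzero reductions.
* `eq_zero_of_kummer`, `result_of_kummer` : the conclusion of S18 from `KummerWeak` for all
  primes `p ≠ ℓ`.
* `kummerWeak_of_strong`, `eq_zero_of_kummerStrong` : the same from `KummerStrong`, if the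
  functions without zeros and poles over the residue field are constant.
-/

set_option autoImplicit false
set_option synthInstance.maxHeartbeats 400000
set_option linter.style.haveILetI false

noncomputable section

open HahnSeries AlgebraicCurve ModularCurve

namespace Fermat.Agent.S18.Step1

local notation "Qb" => AlgebraicClosure ℚ

theorem mapDomain_sub' {α β : Type*} (f : α → β) (a b : α →₀ ℤ) :
    Finsupp.mapDomain f (a - b) = Finsupp.mapDomain f a - Finsupp.mapDomain f b :=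
  map_sub (Finsupp.mapDomain.addMonoidHom f) a b

theorem mapDomain_nsmul' {α β : Type*} (f : α → β) (n : ℕ) (a : α →₀ ℤ) :
    Finsupp.mapDomain f (n • a) = n • Finsupp.mapDomain f a :=
  map_nsmul (Finsupp.mapDomain.addMonoidHom f) n a

section Int

variable (A : ValuationSubring Qb) (N : ℕ)

/-- A Laurent series over `A` is *integral* (for level `N`) if it is a function on `X₀(N)` over
`ℚ̄` whose reduction is a function on `X₀(N)` over the residue field. -/
structure IsInt (y : LaurentSeries A) : Prop where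
  memL : coeffMap A.subtype y ∈ modularFunctionFieldBar N
  memk : coeffMap (IsLocalRing.residue A) y ∈
    modularFunctionFieldFullC (IsLocalRing.ResidueField A) N

variable {A N}

theorem IsInt.mul {y₁ y₂ : LaurentSeries A} (h₁ : IsInt A N y₁) (h₂ : IsInt A N y₂) :
    IsInt A N (y₁ * y₂) :=
  ⟨by rw [map_mul]; exact mul_mem h₁.memL h₂.memL, by rw [map_mul]; exact mul_mem h₁.memk h₂.memk⟩

theorem IsInt.add {y₁ y₂ : LaurentSeries A} (h₁ : IsInt A N y₁) (h₂ : IsInt A N y₂) :
    IsInt A N (y₁ + y₂) :=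
  ⟨by rw [map_add]; exact add_mem h₁.memL h₂.memL, by rw [map_add]; exact add_mem h₁.memk h₂.memk⟩

theorem IsInt.one : IsInt A N (1 : LaurentSeries A) :=
  ⟨by rw [map_one]; exact one_mem _, by rw [map_one]; exact one_mem _⟩

theorem IsInt.pow {y : LaurentSeries A} (h : IsInt A N y) (n : ℕ) : IsInt A N (y ^ n) :=
  ⟨by rw [map_pow]; exact pow_mem h.memL n, by rw [map_pow]; exact pow_mem h.memk n⟩

/-- constants are integral -/
theorem IsInt.const (a : A) : IsInt A N (HahnSeries.single 0 a) := by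
  constructor
  · rw [coeffMap_single, ← algebraMap_laurentSeries_eq_single]
    exact (modularFunctionFieldBar N).algebraMap_mem _
  · rw [coeffMap_single, ← algebraMap_laurentSeries_eq_single]
    exact (modularFunctionFieldFullC (IsLocalRing.ResidueField A) N).algebraMap_mem _

/-- the functions `j(q^d)`, `d ∣ N`, are integral -/
theorem IsInt.jd {d : ℕ} [NeZero d] (hd : d ∣ N) : IsInt A N (qExpand A d (jqModC A)) := by
  constructor
  · rw [coeffMap_qExpand, coeffMap_jqModC]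
    have h1 : qExpand ℚ d (jqModC ℚ) ∈ modularFunctionFieldFull N := by
      rw [← modularFunctionFieldFullC_rat]
      exact jqModCd_mem_full ℚ N hd
    have h2 := coeffEmb_mem_laurentBaseChange Qb h1
    have h3 : coeffEmb Qb (qExpand ℚ d (jqModC ℚ)) = qExpand Qb d (jqModC Qb) := by
      rw [coeffEmb, coeffMap_qExpand, coeffMap_jqModC]
    rw [h3] at h2
    exact h2
  · rw [coeffMap_qExpand, coeffMap_jqModC]
    exact jqModCd_mem_full _ N hd

theorem IsInt.zero : IsInt A N (0 : LaurentSeries A) :=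
  ⟨by rw [map_zero]; exact zero_mem _, by rw [map_zero]; exact zero_mem _⟩

/-- the function on `X₀(N)` over `ℚ̄` defined by an integral series -/
def IsInt.toL {y : LaurentSeries A} (h : IsInt A N y) : modularFunctionFieldBar N :=
  ⟨coeffMap A.subtype y, h.memL⟩

/-- the reduction of an integral series, as a function on `X₀(N)` over the residue field -/
def IsInt.tok {y : LaurentSeries A} (h : IsInt A N y) :
    modularFunctionFieldFullC (IsLocalRing.ResidueField A) N :=
  ⟨coeffMap (IsLocalRing.residue A) y, h.memk⟩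

theorem IsInt.toL_mul {y₁ y₂ : LaurentSeries A} (h₁ : IsInt A N y₁) (h₂ : IsInt A N y₂) :
    (h₁.mul h₂).toL = h₁.toL * h₂.toL := Subtype.ext (map_mul _ _ _)

theorem IsInt.tok_mul {y₁ y₂ : LaurentSeries A} (h₁ : IsInt A N y₁) (h₂ : IsInt A N y₂) :
    (h₁.mul h₂).tok = h₁.tok * h₂.tok := Subtype.ext (map_mul _ _ _)

theorem IsInt.toL_one : (IsInt.one : IsInt A N 1).toL = 1 := Subtype.ext (map_one _)

theorem IsInt.tok_one : (IsInt.one : IsInt A N 1).tok = 1 := Subtype.ext (map_one _)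

theorem IsInt.toL_pow {y : LaurentSeries A} (h : IsInt A N y) (n : ℕ) :
    (h.pow n).toL = h.toL ^ n := Subtype.ext (map_pow _ _ _)

theorem IsInt.tok_pow {y : LaurentSeries A} (h : IsInt A N y) (n : ℕ) :
    (h.pow n).tok = h.tok ^ n := Subtype.ext (map_pow _ _ _)

theorem IsInt.tok_ne_zero_iff {y : LaurentSeries A} (h : IsInt A N y) :
    h.tok ≠ 0 ↔ coeffMap (IsLocalRing.residue A) y ≠ 0 := by
  rw [ne_eq, ne_eq, ← Subtype.coe_inj]; rfl

/-- an integral series with nonzero reduction is nonzero -/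
theorem IsInt.toL_ne_zero {y : LaurentSeries A} (h : IsInt A N y) (hk : h.tok ≠ 0) :
    h.toL ≠ 0 := by
  intro h0
  apply hk
  have h1 : coeffMap A.subtype y = 0 := congrArg Subtype.val h0
  have h2 : y = 0 := by
    ext n
    have h3 := congrArg (fun z => z.coeff n) h1
    simpa using h3
  apply Subtype.ext
  show coeffMap (IsLocalRing.residue A) y = 0
  rw [h2, map_zero]

/-- every element of the function field over the residue field is a quotient of reductions of
integral series. -/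
theorem exists_isInt_quot (x : LaurentSeries (IsLocalRing.ResidueField A))
    (hx : x ∈ modularFunctionFieldFullC (IsLocalRing.ResidueField A) N) :
    ∃ y₁ y₂ : LaurentSeries A, IsInt A N y₁ ∧ IsInt A N y₂ ∧
      coeffMap (IsLocalRing.residue A) y₂ ≠ 0 ∧
      x * coeffMap (IsLocalRing.residue A) y₂ = coeffMap (IsLocalRing.residue A) y₁ := by
  unfold modularFunctionFieldFullC at hx
  induction hx using IntermediateField.adjoin_induction with
  | mem x hx =>
    obtain ⟨d, hd0, hd, rfl⟩ := hx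
    haveI := hd0
    exact ⟨qExpand A d (jqModC A), 1, IsInt.jd hd, IsInt.one, by rw [map_one]; exact one_ne_zero,
      by rw [map_one, mul_one, coeffMap_qExpand, coeffMap_jqModC]⟩
  | algebraMap c =>
    obtain ⟨a, rfl⟩ := IsLocalRing.residue_surjective c
    exact ⟨HahnSeries.single 0 a, 1, IsInt.const a, IsInt.one, by rw [map_one]; exact one_ne_zero,
      by rw [map_one, mul_one, coeffMap_single, algebraMap_laurentSeries_eq_single]⟩
  | add x y hx hy ihx ihy =>
    obtain ⟨a₁, a₂, ha₁, ha₂, ha0, hxa⟩ := ihx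
    obtain ⟨b₁, b₂, hb₁, hb₂, hb0, hyb⟩ := ihy
    refine ⟨a₁ * b₂ + b₁ * a₂, a₂ * b₂, (ha₁.mul hb₂).add (hb₁.mul ha₂), ha₂.mul hb₂, ?_, ?_⟩
    · rw [map_mul]; exact mul_ne_zero ha0 hb0
    · rw [map_mul, map_add, map_mul, map_mul, ← hxa, ← hyb]; ring
  | inv x hx ih =>
    obtain ⟨a₁, a₂, ha₁, ha₂, ha0, hxa⟩ := ih
    by_cases hx0 : x = 0
    · subst hx0
      exact ⟨0, 1, IsInt.zero, IsInt.one, by rw [map_one]; exact one_ne_zero,
        by rw [inv_zero, zero_mul, map_zero]⟩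
    · have ha10 : coeffMap (IsLocalRing.residue A) a₁ ≠ 0 := by
        rw [← hxa]; exact mul_ne_zero hx0 ha0
      refine ⟨a₂, a₁, ha₂, ha₁, ha10, ?_⟩
      rw [← hxa]; field_simp
  | mul x y hx hy ihx ihy =>
    obtain ⟨a₁, a₂, ha₁, ha₂, ha0, hxa⟩ := ihx
    obtain ⟨b₁, b₂, hb₁, hb₂, hb0, hyb⟩ := ihy
    refine ⟨a₁ * b₁, a₂ * b₂, ha₁.mul hb₁, ha₂.mul hb₂, ?_, ?_⟩
    · rw [map_mul]; exact mul_ne_zero ha0 hb0
    · rw [map_mul, map_mul, ← hxa, ← hyb]; ring

/-- every element of the closure of the integral principal divisors is the divisor of a quotient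
of two integral series with nonzero reductions. -/
theorem exists_quot_of_mem_closure {E : Divisor Qb (modularFunctionFieldBar N)}
    (hE : E ∈ AddSubgroup.closure (integralPrincipalDivisors A (IsLocalRing.residue A) N)) :
    ∃ (Y₁ Y₂ : LaurentSeries A) (h₁ : IsInt A N Y₁) (h₂ : IsInt A N Y₂),
      h₁.tok ≠ 0 ∧ h₂.tok ≠ 0 ∧
      ∀ P : Place Qb (modularFunctionFieldBar N), E P = P.ord h₁.toL - P.ord h₂.toL := by
  induction hE using AddSubgroup.closure_induction with
  | mem E hE =>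
    obtain ⟨y, hy, hyk, hne, hEy⟩ := hE
    have hi : IsInt A N y := ⟨hy, hyk⟩
    refine ⟨y, 1, hi, IsInt.one, hi.tok_ne_zero_iff.mpr hne, ?_, fun P => ?_⟩
    · rw [IsInt.tok_one]; exact one_ne_zero
    · rw [IsInt.toL_one, Place.ord_one, sub_zero, hEy P]; rfl
  | zero =>
    refine ⟨1, 1, IsInt.one, IsInt.one, ?_, ?_, fun P => ?_⟩
    · rw [IsInt.tok_one]; exact one_ne_zero
    · rw [IsInt.tok_one]; exact one_ne_zero
    · rw [sub_self]; rfl
  | add E E' _ _ ih ih' =>
    obtain ⟨Y₁, Y₂, h₁, h₂, hk₁, hk₂, hE⟩ := ih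
    obtain ⟨Y₁', Y₂', h₁', h₂', hk₁', hk₂', hE'⟩ := ih'
    refine ⟨Y₁ * Y₁', Y₂ * Y₂', h₁.mul h₁', h₂.mul h₂', ?_, ?_, fun P => ?_⟩
    · rw [IsInt.tok_mul h₁ h₁']; exact mul_ne_zero hk₁ hk₁'
    · rw [IsInt.tok_mul h₂ h₂']; exact mul_ne_zero hk₂ hk₂'
    · rw [Finsupp.add_apply, hE P, hE' P, IsInt.toL_mul h₁ h₁', IsInt.toL_mul h₂ h₂',
        P.ord_mul (h₁.toL_ne_zero hk₁) (h₁'.toL_ne_zero hk₁'),
        P.ord_mul (h₂.toL_ne_zero hk₂) (h₂'.toL_ne_zero hk₂')]
      ring
  | neg E _ ih =>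
    obtain ⟨Y₁, Y₂, h₁, h₂, hk₁, hk₂, hE⟩ := ih
    refine ⟨Y₂, Y₁, h₂, h₁, hk₂, hk₁, fun P => ?_⟩
    rw [Finsupp.neg_apply, hE P]; ring

end Int

section Main

variable {A : ValuationSubring Qb} {N : ℕ} [NeZero N]

/-- the divisor of a nonzero function on `X₀(N)` over `ℚ̄` -/
theorem exists_divisor (f : modularFunctionFieldBar N) (hf : f ≠ 0) :
    ∃ D : Divisor Qb (modularFunctionFieldBar N), ∀ P, D P = P.ord f := by
  obtain ⟨S, hS, -⟩ := Fermat.Agent.S18.S24Export.exists_sum_ord_eq_zero N f hf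
  refine ⟨Finsupp.onFinset S (fun v => v.ord f) (fun v hv => ?_), fun P => rfl⟩
  by_contra h
  exact hv (hS v h)

variable (A N) in
/-- **The Kummer statement** (weak form): a quotient `u₁/u₂` of integral series whose reductions
have the same divisor and whose divisor is divisible by `p` is a `p`-th power. -/
def KummerWeak (p : ℕ) : Prop :=
  ∀ (u₁ u₂ : LaurentSeries A) (h₁ : IsInt A N u₁) (h₂ : IsInt A N u₂), h₁.tok ≠ 0 → h₂.tok ≠ 0 →
    (∀ Q : Place (IsLocalRing.ResidueField A)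
        (modularFunctionFieldFullC (IsLocalRing.ResidueField A) N), Q.ord h₁.tok = Q.ord h₂.tok) →
    (∀ P : Place Qb (modularFunctionFieldBar N), (p : ℤ) ∣ P.ord (h₁.toL / h₂.toL)) →
    ∃ t : modularFunctionFieldBar N, t ^ p = h₁.toL / h₂.toL

omit [NeZero N] in
/-- modifying a divisor whose reduction is principal by a principal divisor, so that its
reduction becomes zero. -/
theorem exists_modification
    {r : Place Qb (modularFunctionFieldBar N) →
      Place (IsLocalRing.ResidueField A) (modularFunctionFieldFullC (IsLocalRing.ResidueField A) N)}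
    (hr : IsPlaceReductionModL A N r) (D₀ E₁ E₂ : Divisor Qb (modularFunctionFieldBar N))
    (g : modularFunctionFieldFullC (IsLocalRing.ResidueField A) N) (hg0 : g ≠ 0)
    (hg : ∀ Q, Finsupp.mapDomain r D₀ Q = Q.ord g)
    {G₁ G₂ : LaurentSeries A} (hG₁ : IsInt A N G₁) (hG₂ : IsInt A N G₂) (hk₂ : hG₂.tok ≠ 0)
    (hgG : g * hG₂.tok = hG₁.tok)
    (hE₁ : ∀ P, E₁ P = P.ord hG₁.toL) (hE₂ : ∀ P, E₂ P = P.ord hG₂.toL) :
    Finsupp.mapDomain r (D₀ - E₁ + E₂) = 0 := by
  have hk₁ : hG₁.tok ≠ 0 := by rw [← hgG]; exact mul_ne_zero hg0 hk₂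
  have hrE₁ : ∀ Q, Finsupp.mapDomain r E₁ Q = Q.ord hG₁.tok :=
    hr.2 G₁ hG₁.memL hG₁.memk (hG₁.tok_ne_zero_iff.mp hk₁) E₁ hE₁
  have hrE₂ : ∀ Q, Finsupp.mapDomain r E₂ Q = Q.ord hG₂.tok :=
    hr.2 G₂ hG₂.memL hG₂.memk (hG₂.tok_ne_zero_iff.mp hk₂) E₂ hE₂
  ext Q
  rw [Finsupp.mapDomain_add, mapDomain_sub', Finsupp.add_apply, Finsupp.sub_apply, hg Q, hrE₁ Q,
    hrE₂ Q, ← hgG, Q.ord_mul hg0 hk₂, Finsupp.zero_apply]
  ring

omit [NeZero N] in
/-- if the reduction of `p • D'` vanishes and `p • D'` is the divisor of `U₁/U₂`, then the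
reductions of `U₁` and `U₂` have the same divisor. -/
theorem ord_tok_eq
    {r : Place Qb (modularFunctionFieldBar N) →
      Place (IsLocalRing.ResidueField A) (modularFunctionFieldFullC (IsLocalRing.ResidueField A) N)}
    (hr : IsPlaceReductionModL A N r) (D' F₁ F₂ : Divisor Qb (modularFunctionFieldBar N))
    (hD' : Finsupp.mapDomain r D' = 0) (p : ℕ)
    {U₁ U₂ : LaurentSeries A} (hU₁ : IsInt A N U₁) (hU₂ : IsInt A N U₂)
    (hUk₁ : hU₁.tok ≠ 0) (hUk₂ : hU₂.tok ≠ 0)
    (hF₁ : ∀ P, F₁ P = P.ord hU₁.toL) (hF₂ : ∀ P, F₂ P = P.ord hU₂.toL)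
    (hF : F₁ - F₂ = p • D')
    (Q : Place (IsLocalRing.ResidueField A)
      (modularFunctionFieldFullC (IsLocalRing.ResidueField A) N)) :
    Q.ord hU₁.tok = Q.ord hU₂.tok := by
  have hrF₁ : ∀ Q, Finsupp.mapDomain r F₁ Q = Q.ord hU₁.tok :=
    hr.2 U₁ hU₁.memL hU₁.memk (hU₁.tok_ne_zero_iff.mp hUk₁) F₁ hF₁
  have hrF₂ : ∀ Q, Finsupp.mapDomain r F₂ Q = Q.ord hU₂.tok :=
    hr.2 U₂ hU₂.memL hU₂.memk (hU₂.tok_ne_zero_iff.mp hUk₂) F₂ hF₂
  have h3 : Finsupp.mapDomain r F₁ - Finsupp.mapDomain r F₂ = 0 := by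
    rw [← mapDomain_sub', hF, mapDomain_nsmul', hD', smul_zero]
  rw [sub_eq_zero] at h3
  rw [← hrF₁, ← hrF₂, h3]

/-- **Step 1, divisor form.** -/
theorem principal_of_kummer
    {r : Place Qb (modularFunctionFieldBar N) →
      Place (IsLocalRing.ResidueField A) (modularFunctionFieldFullC (IsLocalRing.ResidueField A) N)}
    (hr : IsPlaceReductionModL A N r)
    (hgen : PrincipalGeneratedByIntegral A (IsLocalRing.residue A) N)
    {p : ℕ} (hp : p.Prime) (hkum : KummerWeak A N p)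
    (D₀ : Divisor Qb (modularFunctionFieldBar N))
    (hpD : p • D₀ ∈ Divisor.principal (K := Qb) (F := modularFunctionFieldBar N))
    (hrD : Finsupp.mapDomain r D₀ ∈ Divisor.principal (K := IsLocalRing.ResidueField A)
        (F := modularFunctionFieldFullC (IsLocalRing.ResidueField A) N)) :
    D₀ ∈ Divisor.principal (K := Qb) (F := modularFunctionFieldBar N) := by
  obtain ⟨g, hg0, hg⟩ := hrD
  -- lift `g`
  obtain ⟨G₁, G₂, hG₁, hG₂, hG₂0, hgG⟩ := exists_isInt_quot (A := A) (N := N) g g.2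
  have hgG' : g * hG₂.tok = hG₁.tok := Subtype.ext hgG
  have hk₂ : hG₂.tok ≠ 0 := hG₂.tok_ne_zero_iff.mpr hG₂0
  have hk₁ : hG₁.tok ≠ 0 := by rw [← hgG']; exact mul_ne_zero hg0 hk₂
  obtain ⟨E₁, hE₁⟩ := exists_divisor hG₁.toL (hG₁.toL_ne_zero hk₁)
  obtain ⟨E₂, hE₂⟩ := exists_divisor hG₂.toL (hG₂.toL_ne_zero hk₂)
  have hrD' := exists_modification hr D₀ E₁ E₂ g hg0 hg hG₁ hG₂ hk₂ hgG' hE₁ hE₂
  -- `p • D₀` as a quotient of integral series
  obtain ⟨Y₁, Y₂, hY₁, hY₂, hYk₁, hYk₂, hY⟩ := exists_quot_of_mem_closure (hgen hpD)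
  have hU₁ : IsInt A N (Y₁ * G₂ ^ p) := hY₁.mul (hG₂.pow p)
  have hU₂ : IsInt A N (Y₂ * G₁ ^ p) := hY₂.mul (hG₁.pow p)
  have hUk₁ : hU₁.tok ≠ 0 := by
    rw [IsInt.tok_mul hY₁ (hG₂.pow p), IsInt.tok_pow hG₂ p]
    exact mul_ne_zero hYk₁ (pow_ne_zero _ hk₂)
  have hUk₂ : hU₂.tok ≠ 0 := by
    rw [IsInt.tok_mul hY₂ (hG₁.pow p), IsInt.tok_pow hG₁ p]
    exact mul_ne_zero hYk₂ (pow_ne_zero _ hk₁)
  have hUL₁ : hU₁.toL ≠ 0 := hU₁.toL_ne_zero hUk₁
  have hUL₂ : hU₂.toL ≠ 0 := hU₂.toL_ne_zero hUk₂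
  have hord : ∀ P : Place Qb (modularFunctionFieldBar N),
      P.ord (hU₁.toL / hU₂.toL) = p * (D₀ - E₁ + E₂) P := by
    intro P
    have h1 := hY P
    rw [Finsupp.smul_apply, nsmul_eq_mul] at h1
    rw [div_eq_mul_inv, P.ord_mul hUL₁ (inv_ne_zero hUL₂), P.ord_inv,
      IsInt.toL_mul hY₁ (hG₂.pow p), IsInt.toL_mul hY₂ (hG₁.pow p), IsInt.toL_pow hG₂ p,
      IsInt.toL_pow hG₁ p,
      P.ord_mul (hY₁.toL_ne_zero hYk₁) (pow_ne_zero _ (hG₂.toL_ne_zero hk₂)),
      P.ord_mul (hY₂.toL_ne_zero hYk₂) (pow_ne_zero _ (hG₁.toL_ne_zero hk₁)),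
      ← zpow_natCast, ← zpow_natCast, P.ord_zpow, P.ord_zpow, Finsupp.add_apply,
      Finsupp.sub_apply, hE₁ P, hE₂ P]
    linear_combination (-1 : ℤ) * h1
  -- the reductions of `U₁`, `U₂` have the same divisor
  obtain ⟨F₁, hF₁⟩ := exists_divisor hU₁.toL hUL₁
  obtain ⟨F₂, hF₂⟩ := exists_divisor hU₂.toL hUL₂
  have hF : F₁ - F₂ = p • (D₀ - E₁ + E₂) := by
    ext P
    rw [Finsupp.sub_apply, hF₁, hF₂, Finsupp.smul_apply, nsmul_eq_mul, ← hord P, div_eq_mul_inv,
      P.ord_mul hUL₁ (inv_ne_zero hUL₂), P.ord_inv]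
    ring
  have hQ := ord_tok_eq hr (D₀ - E₁ + E₂) F₁ F₂ hrD' p hU₁ hU₂ hUk₁ hUk₂ hF₁ hF₂ hF
  -- apply the Kummer statement
  obtain ⟨t, ht⟩ := hkum (Y₁ * G₂ ^ p) (Y₂ * G₁ ^ p) hU₁ hU₂ hUk₁ hUk₂ hQ
    (fun P => ⟨(D₀ - E₁ + E₂) P, hord P⟩)
  have ht0 : t ≠ 0 := by
    intro h0
    rw [h0, zero_pow hp.ne_zero] at ht
    exact (div_ne_zero hUL₁ hUL₂) ht.symm
  have hD't : ∀ P : Place Qb (modularFunctionFieldBar N), (D₀ - E₁ + E₂) P = P.ord t := by
    intro P
    have h1 := hord P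
    rw [← ht, ← zpow_natCast, P.ord_zpow] at h1
    exact (mul_left_cancel₀ (Nat.cast_ne_zero.mpr hp.ne_zero) h1).symm
  -- `D₀` is principal
  have h1 : (D₀ - E₁ + E₂) ∈ Divisor.principal (K := Qb) (F := modularFunctionFieldBar N) :=
    ⟨t, ht0, hD't⟩
  have h2 : E₁ ∈ Divisor.principal (K := Qb) (F := modularFunctionFieldBar N) :=
    ⟨hG₁.toL, hG₁.toL_ne_zero hk₁, hE₁⟩
  have h3 : E₂ ∈ Divisor.principal (K := Qb) (F := modularFunctionFieldBar N) :=
    ⟨hG₂.toL, hG₂.toL_ne_zero hk₂, hE₂⟩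
  have h4 : D₀ = (D₀ - E₁ + E₂) + E₁ - E₂ := by abel
  rw [h4]
  exact sub_mem (add_mem h1 h2) h3

/-- **Step 1, prime case.** -/
theorem eq_zero_of_prime (h : ReductionInputsModL A N) {p : ℕ} (hp : p.Prime)
    (hkum : KummerWeak A N p) (z : JZero N) (hpz : p • z = 0)
    (hz : reductionModL A N z = 0) : z = 0 := by
  obtain ⟨D, rfl⟩ := Pic0.mk_surjective z
  have hr : IsPlaceReductionModL A N (placeReductionModL h) :=
    isPlaceReductionModL_placeReductionModL h
  have hgen : PrincipalGeneratedByIntegral A (IsLocalRing.residue A) N := h.choose_spec.2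
  -- `p • D` is principal
  have hpD : (p • (D : Divisor Qb (modularFunctionFieldBar N))) ∈
      Divisor.principal (K := Qb) (F := modularFunctionFieldBar N) := by
    have h1 : Pic0.mk (p • D) = 0 := by rw [← hpz]; rfl
    have h2 := (QuotientAddGroup.eq_zero_iff _).mp h1
    rw [AddSubgroup.mem_addSubgroupOf] at h2
    exact h2
  -- the reduction of `D` is principal
  rw [reductionModL_mk h D] at hz
  have hrD : Finsupp.mapDomain (placeReductionModL h)
      (D : Divisor Qb (modularFunctionFieldBar N)) ∈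
      Divisor.principal (K := IsLocalRing.ResidueField A)
        (F := modularFunctionFieldFullC (IsLocalRing.ResidueField A) N) := by
    have h2 := (QuotientAddGroup.eq_zero_iff _).mp hz
    rw [AddSubgroup.mem_addSubgroupOf] at h2
    exact h2
  have hDprin := principal_of_kummer hr hgen hp hkum _ hpD hrD
  refine (QuotientAddGroup.eq_zero_iff _).mpr ?_
  rw [AddSubgroup.mem_addSubgroupOf]
  exact hDprin

/-- **Step 1.** Under the (weak) Kummer statement for all primes `p ≠ ℓ`, a point of `J₀(N)`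
killed by some `m` prime to `ℓ` and with trivial reduction is trivial. -/
theorem eq_zero_of_kummer (h : ReductionInputsModL A N) {ℓ : ℕ}
    (hkum : ∀ p : ℕ, p.Prime → p ≠ ℓ → KummerWeak A N p)
    (m : ℕ) (hm : ¬ ℓ ∣ m) (z : JZero N) (hmz : m • z = 0)
    (hz : reductionModL A N z = 0) : z = 0 := by
  induction m using Nat.strong_induction_on generalizing z with
  | _ m ih =>
    rcases Nat.eq_zero_or_pos m with rfl | hpos
    · exact absurd (dvd_zero ℓ) hm
    obtain rfl | h1 : m = 1 ∨ 1 < m := by omega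
    · rw [one_smul] at hmz
      exact hmz
    · obtain ⟨p, hp, hpm⟩ := Nat.exists_prime_and_dvd (by omega : m ≠ 1)
      obtain ⟨m', rfl⟩ := hpm
      have hpl : p ≠ ℓ := fun h => hm (h ▸ dvd_mul_right p m')
      have hm' : ¬ ℓ ∣ m' := fun h => hm (dvd_mul_of_dvd_right h p)
      have hm'0 : 0 < m' := Nat.pos_of_ne_zero (by rintro rfl; simp at hpos)
      have hz' : m' • z = 0 := by
        apply eq_zero_of_prime h hp (hkum p hp hpl) (m' • z)
        · rw [← mul_smul]; exact hmz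
        · rw [map_nsmul, hz, smul_zero]
      have hlt : m' < p * m' := by nlinarith [hp.two_le]
      exact ih m' hlt hm' z hz' hz

/-- **Step 1, unfolded form**: `S18.result` follows from the Kummer statement `hkum`, in which
neither the place reduction map nor the Jacobian occur. -/
theorem result_of_kummer (N : ℕ) [NeZero N] {ℓ : ℕ} (A : ValuationSubring Qb)
    (hkum : ∀ p : ℕ, p.Prime → p ≠ ℓ → ∀ (u₁ u₂ : LaurentSeries A)
      (h₁ : coeffMap A.subtype u₁ ∈ modularFunctionFieldBar N)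
      (h₂ : coeffMap A.subtype u₂ ∈ modularFunctionFieldBar N)
      (hk₁ : coeffMap (IsLocalRing.residue A) u₁ ∈
        modularFunctionFieldFullC (IsLocalRing.ResidueField A) N)
      (hk₂ : coeffMap (IsLocalRing.residue A) u₂ ∈
        modularFunctionFieldFullC (IsLocalRing.ResidueField A) N),
      coeffMap (IsLocalRing.residue A) u₁ ≠ 0 → coeffMap (IsLocalRing.residue A) u₂ ≠ 0 →
      (∀ Q : Place (IsLocalRing.ResidueField A)
          (modularFunctionFieldFullC (IsLocalRing.ResidueField A) N),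
        Q.ord (⟨_, hk₁⟩ : modularFunctionFieldFullC (IsLocalRing.ResidueField A) N) =
          Q.ord (⟨_, hk₂⟩ : modularFunctionFieldFullC (IsLocalRing.ResidueField A) N)) →
      (∀ P : Place Qb (modularFunctionFieldBar N),
        (p : ℤ) ∣ P.ord ((⟨_, h₁⟩ : modularFunctionFieldBar N) / ⟨_, h₂⟩)) →
      ∃ t : modularFunctionFieldBar N, t ^ p = (⟨_, h₁⟩ : modularFunctionFieldBar N) / ⟨_, h₂⟩)
    (h : ReductionInputsModL A N) (m : ℕ) (hm : ¬ ℓ ∣ m) (z : JZero N)
    (hmz : m • z = 0) (hz : reductionModL A N z = 0) : z = 0 :=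
  eq_zero_of_kummer h (fun p hp hpl u₁ u₂ h₁ h₂ hk₁ hk₂ hQ hP =>
    hkum p hp hpl u₁ u₂ h₁.memL h₂.memL h₁.memk h₂.memk (h₁.tok_ne_zero_iff.mp hk₁)
      (h₂.tok_ne_zero_iff.mp hk₂) hQ hP) m hm z hmz hz

/-! ### The strong form of the Kummer statement -/

variable (A N) in
/-- **The Kummer statement** (strong form): a quotient `u₁/u₂` of integral series with equal
nonzero reductions whose divisor is divisible by `p` is a `p`-th power. -/
def KummerStrong (p : ℕ) : Prop :=
  ∀ (u₁ u₂ : LaurentSeries A) (h₁ : IsInt A N u₁) (h₂ : IsInt A N u₂), h₁.tok ≠ 0 →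
    h₁.tok = h₂.tok →
    (∀ P : Place Qb (modularFunctionFieldBar N), (p : ℤ) ∣ P.ord (h₁.toL / h₂.toL)) →
    ∃ t : modularFunctionFieldBar N, t ^ p = h₁.toL / h₂.toL

omit [NeZero N] in
theorem IsInt.tok_const (a : A) :
    (IsInt.const (N := N) a).tok =
      algebraMap (IsLocalRing.ResidueField A)
        (modularFunctionFieldFullC (IsLocalRing.ResidueField A) N) (IsLocalRing.residue A a) := by
  apply Subtype.ext
  show coeffMap (IsLocalRing.residue A) (HahnSeries.single 0 a) = _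
  rw [coeffMap_single]
  exact (algebraMap_laurentSeries_eq_single _ _).symm

omit [NeZero N] in
theorem IsInt.toL_const (a : A) :
    (IsInt.const (N := N) a).toL = algebraMap Qb (modularFunctionFieldBar N) (a : Qb) := by
  apply Subtype.ext
  show coeffMap A.subtype (HahnSeries.single 0 a) = _
  rw [coeffMap_single]
  exact (algebraMap_laurentSeries_eq_single _ _).symm

omit [NeZero N] in
/-- If the functions without zeros and poles on `X₀(N)` over the residue field are constant,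
the strong Kummer statement implies the weak one. -/
theorem kummerWeak_of_strong {p : ℕ} (hp : p.Prime)
    (hconst : ∀ x : modularFunctionFieldFullC (IsLocalRing.ResidueField A) N, x ≠ 0 →
      (∀ Q : Place (IsLocalRing.ResidueField A)
        (modularFunctionFieldFullC (IsLocalRing.ResidueField A) N), Q.ord x = 0) →
      ∃ c : IsLocalRing.ResidueField A,
        x = algebraMap (IsLocalRing.ResidueField A)
          (modularFunctionFieldFullC (IsLocalRing.ResidueField A) N) c)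
    (hs : KummerStrong A N p) : KummerWeak A N p := by
  intro u₁ u₂ h₁ h₂ hk₁ hk₂ hQ hP
  -- the quotient of the reductions is a constant
  have hx0 : h₁.tok / h₂.tok ≠ 0 := div_ne_zero hk₁ hk₂
  obtain ⟨c, hc⟩ := hconst (h₁.tok / h₂.tok) hx0 (fun Q => by
    rw [div_eq_mul_inv, Q.ord_mul hk₁ (inv_ne_zero hk₂), Q.ord_inv, hQ Q, add_neg_cancel])
  obtain ⟨a, rfl⟩ := IsLocalRing.residue_surjective c
  have ha0 : (a : Qb) ≠ 0 := by
    intro h0
    have h1 : a = 0 := Subtype.ext h0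
    rw [h1, map_zero, map_zero] at hc
    exact hx0 hc
  -- replace `u₂` by `a * u₂`
  have h₂' : IsInt A N (HahnSeries.single 0 a * u₂) := (IsInt.const a).mul h₂
  have htok : h₁.tok = h₂'.tok := by
    rw [IsInt.tok_mul (IsInt.const a) h₂, IsInt.tok_const, ← hc, div_mul_cancel₀ _ hk₂]
  have hL₁ : h₁.toL ≠ 0 := h₁.toL_ne_zero hk₁
  have hL₂ : h₂.toL ≠ 0 := h₂.toL_ne_zero hk₂
  have hcL : algebraMap Qb (modularFunctionFieldBar N) (a : Qb) ≠ 0 := by
    simpa using ha0
  have htoL : h₁.toL / h₂'.toL =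
      (algebraMap Qb (modularFunctionFieldBar N) (a : Qb))⁻¹ * (h₁.toL / h₂.toL) := by
    rw [IsInt.toL_mul (IsInt.const a) h₂, IsInt.toL_const]
    field_simp
  obtain ⟨t, ht⟩ := hs u₁ (HahnSeries.single 0 a * u₂) h₁ h₂' hk₁ htok (fun P => by
    rw [htoL, P.ord_mul (inv_ne_zero hcL) (div_ne_zero hL₁ hL₂), P.ord_inv,
      Fermat.Agent.S24.Place.ord_algebraMap, neg_zero, zero_add]
    exact hP P)
  -- a `p`-th root of the constant
  obtain ⟨b, hb⟩ := IsAlgClosed.exists_pow_nat_eq (a : Qb) hp.pos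
  refine ⟨algebraMap Qb (modularFunctionFieldBar N) b * t, ?_⟩
  rw [mul_pow, ht, htoL, ← map_pow, hb, ← mul_assoc, mul_inv_cancel₀ hcL, one_mul]

/-- **Step 1, strong form.** -/
theorem eq_zero_of_kummerStrong (h : ReductionInputsModL A N) {ℓ : ℕ}
    (hconst : ∀ x : modularFunctionFieldFullC (IsLocalRing.ResidueField A) N, x ≠ 0 →
      (∀ Q : Place (IsLocalRing.ResidueField A)
        (modularFunctionFieldFullC (IsLocalRing.ResidueField A) N), Q.ord x = 0) →
      ∃ c : IsLocalRing.ResidueField A,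
        x = algebraMap (IsLocalRing.ResidueField A)
          (modularFunctionFieldFullC (IsLocalRing.ResidueField A) N) c)
    (hkum : ∀ p : ℕ, p.Prime → p ≠ ℓ → KummerStrong A N p)
    (m : ℕ) (hm : ¬ ℓ ∣ m) (z : JZero N) (hmz : m • z = 0)
    (hz : reductionModL A N z = 0) : z = 0 :=
  eq_zero_of_kummer h (fun p hp hpl => kummerWeak_of_strong hp hconst (hkum p hp hpl)) m hm z
    hmz hz

end Main

end Fermat.Agent.S18.Step1
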