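/-
S18 (route K), top-level wiring, step "descent to a number field".

`Step1.KummerStrong A N p` is a statement about Laurent series over the valuation ring `A` of
`ℚ̄`.  Every element of the function field over `ℚ̄` is defined over a number field
`K0 ⊆ ℚ̄`, and a series over `A` whose coefficients lie in `K0` is a series over the discrete
valuation ring `A ∩ K0`.  So `KummerStrong` follows from the same statement over all number
fields (`KummerK0`), which is what the arithmetic part of the proof establishes.

* `KummerK0 A N p K` : the Kummer statement for series over `A ∩ K0`, for every finite extension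
  `K0 ⊇ K` of `ℚ` inside `ℚ̄`.
* `kummerStrong_of_K0` : `KummerK0 A N p K → Step1.KummerStrong A N p` (for `K` finite over `ℚ`).
* `KummerK0'` / `kummerK0_of_K0'` : the same with elements of the function field over `K0` whose
  coefficients lie in `A ∩ K0`, congruent modulo the maximal ideal, instead of series over the
  subring.
-/
import Mathlib
import Fermat.Prelude.Def_ModularCurve_ReductionModL
import Fermat.Agent.S18.Step1
import Fermat.Agent.S18.FieldDef
import Fermat.Agent.S18.A0

set_option autoImplicit false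
set_option synthInstance.maxHeartbeats 400000
set_option linter.style.haveILetI false

noncomputable section

open HahnSeries AlgebraicCurve ModularCurve

namespace Fermat.Agent.S18.Descent

local notation "Qb" => AlgebraicClosure ℚ

section Aux

variable {R S : Type*} [CommRing R] [CommRing S]

theorem coeffMap_injective_of_injective (f : R →+* S) (hf : Function.Injective f) :
    Function.Injective (coeffMap f) := by
  intro x y h
  ext n
  have := congrArg (fun z => z.coeff n) h
  simp only [coeffMap_coeff] at this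
  exact hf this

theorem coeffMap_eq_zero_iff_of_injective (f : R →+* S) (hf : Function.Injective f)
    (x : LaurentSeries R) : coeffMap f x = 0 ↔ x = 0 := by
  constructor
  · intro h
    exact coeffMap_injective_of_injective f hf (by rw [h, map_zero])
  · rintro rfl
    exact map_zero _

/-- A Laurent series over a field all of whose coefficients lie in a valuation subring comes
from a Laurent series over the valuation subring. -/
theorem exists_coeffMap_valSubtype_eq {K : Type*} [Field K] (B : ValuationSubring K)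
    (y : LaurentSeries K) (h : ∀ n, y.coeff n ∈ B) :
    ∃ u : LaurentSeries B, coeffMap B.subtype u = y := by
  have hsupp : (Function.support fun n : ℤ => (⟨y.coeff n, h n⟩ : B)) = y.support := by
    ext n
    simp only [Function.mem_support, ne_eq, HahnSeries.mem_support]
    exact not_congr (by
      constructor
      · intro h0; exact congrArg Subtype.val h0
      · intro h0; exact Subtype.ext h0)
  refine ⟨⟨fun n => ⟨y.coeff n, h n⟩, by rw [hsupp]; exact y.isPWO_support⟩, ?_⟩
  ext n
  rfl

end Aux

section Main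

variable (A : ValuationSubring Qb) (N : ℕ) [NeZero N]

/-- **The Kummer statement over number fields.**  For every finite extension `K0 ⊇ K` of `ℚ`
inside `ℚ̄`, with `A0 = A ∩ K0`: if `v₁, v₂` are Laurent series over `A0` which are elements of
the function field `K0(j(q^d) : d ∣ N)`, have the same nonzero reduction modulo the maximal
ideal of `A0`, and the divisor of `v₁ / v₂` on `X₀(N)` over `ℚ̄` is divisible by `p`, then
`v₁ / v₂` is a `p`-th power in the function field over `ℚ̄`. -/
def KummerK0 (p : ℕ) (K : IntermediateField ℚ Qb) : Prop :=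
  ∀ (K0 : IntermediateField ℚ Qb) [FiniteDimensional ℚ K0], K ≤ K0 →
    ∀ v₁ v₂ : LaurentSeries (A0.down K0 A),
      coeffMap (A0.down K0 A).subtype v₁ ∈ modularFunctionFieldFullC K0 N →
      coeffMap (A0.down K0 A).subtype v₂ ∈ modularFunctionFieldFullC K0 N →
      coeffMap (IsLocalRing.residue (A0.down K0 A)) v₁ ≠ 0 →
      coeffMap (IsLocalRing.residue (A0.down K0 A)) v₁ =
        coeffMap (IsLocalRing.residue (A0.down K0 A)) v₂ →
      ∀ x₁ x₂ : modularFunctionFieldBar N,
        (x₁ : LaurentSeries Qb) =
          coeffMap (algebraMap K0 Qb) (coeffMap (A0.down K0 A).subtype v₁) →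
        (x₂ : LaurentSeries Qb) =
          coeffMap (algebraMap K0 Qb) (coeffMap (A0.down K0 A).subtype v₂) →
        (∀ P : Place Qb (modularFunctionFieldBar N), (p : ℤ) ∣ P.ord (x₁ / x₂)) →
        ∃ t : modularFunctionFieldBar N, t ^ p = x₁ / x₂

/-- The same statement for elements `y₁, y₂` of the function field over `K0` with coefficients
in `A0 = A ∩ K0`, `y₁` not divisible by the maximal ideal and `y₁ ≡ y₂` modulo the maximal
ideal (coefficientwise). -/
def KummerK0' (p : ℕ) (K : IntermediateField ℚ Qb) : Prop :=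
  ∀ (K0 : IntermediateField ℚ Qb) [FiniteDimensional ℚ K0], K ≤ K0 →
    ∀ y₁ y₂ : modularFunctionFieldFullC K0 N,
      (∀ n, (y₁ : LaurentSeries K0).coeff n ∈ A0.down K0 A) →
      (∀ n, (y₂ : LaurentSeries K0).coeff n ∈ A0.down K0 A) →
      (∃ n, (y₁ : LaurentSeries K0).coeff n ∉ (A0.down K0 A).nonunits) →
      (∀ n, (y₁ : LaurentSeries K0).coeff n - (y₂ : LaurentSeries K0).coeff n ∈
        (A0.down K0 A).nonunits) →
      ∀ x₁ x₂ : modularFunctionFieldBar N,
        (x₁ : LaurentSeries Qb) = coeffMap (algebraMap K0 Qb) (y₁ : LaurentSeries K0) →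
        (x₂ : LaurentSeries Qb) = coeffMap (algebraMap K0 Qb) (y₂ : LaurentSeries K0) →
        (∀ P : Place Qb (modularFunctionFieldBar N), (p : ℤ) ∣ P.ord (x₁ / x₂)) →
        ∃ t : modularFunctionFieldBar N, t ^ p = x₁ / x₂

variable {A N}

theorem residue_eq_zero_iff_mem_nonunits {K : Type*} [Field K] (B : ValuationSubring K)
    (x : B) : IsLocalRing.residue B x = 0 ↔ (x : K) ∈ B.nonunits := by
  rw [IsLocalRing.residue_eq_zero_iff, ValuationSubring.coe_mem_nonunits_iff]

omit [NeZero N] in
theorem kummerK0_of_K0' {p : ℕ} {K : IntermediateField ℚ Qb} (hK : KummerK0' A N p K) :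
    KummerK0 A N p K := by
  intro K0 _ hKK0 v₁ v₂ hv₁ hv₂ hne heq x₁ x₂ hx₁ hx₂ hord
  refine hK K0 hKK0 ⟨_, hv₁⟩ ⟨_, hv₂⟩ ?_ ?_ ?_ ?_ x₁ x₂ hx₁ hx₂ hord
  · intro n
    change (coeffMap (A0.down K0 A).subtype v₁).coeff n ∈ A0.down K0 A
    rw [coeffMap_coeff]
    exact (v₁.coeff n).2
  · intro n
    change (coeffMap (A0.down K0 A).subtype v₂).coeff n ∈ A0.down K0 A
    rw [coeffMap_coeff]
    exact (v₂.coeff n).2
  · by_contra hcon
    have hcon : ∀ n, (coeffMap (A0.down K0 A).subtype v₁).coeff n ∈ (A0.down K0 A).nonunits :=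
      fun n => by
        by_contra hn
        exact hcon ⟨n, hn⟩
    apply hne
    ext n
    rw [coeffMap_coeff, HahnSeries.coeff_zero, residue_eq_zero_iff_mem_nonunits]
    have := hcon n
    rwa [coeffMap_coeff] at this
  · intro n
    change (coeffMap (A0.down K0 A).subtype v₁).coeff n -
      (coeffMap (A0.down K0 A).subtype v₂).coeff n ∈ _
    rw [coeffMap_coeff, coeffMap_coeff]
    have h1 := congrArg (fun z => z.coeff n) heq
    simp only [coeffMap_coeff] at h1
    have h2 : IsLocalRing.residue (A0.down K0 A) (v₁.coeff n - v₂.coeff n) = 0 := by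
      rw [map_sub, h1, sub_self]
    exact (residue_eq_zero_iff_mem_nonunits _ _).mp h2

/-- **Descent to a number field.** -/
theorem kummerStrong_of_K0 {p : ℕ} (K : IntermediateField ℚ Qb) [FiniteDimensional ℚ K]
    (hK : KummerK0 A N p K) : Step1.KummerStrong A N p := by
  intro u₁ u₂ h₁ h₂ hne heq hord
  have hx₁ : coeffMap A.subtype u₁ ∈ modularFunctionFieldFullC Qb N := by
    rw [← FieldDef.bar_eq_fullC]; exact h₁.memL
  have hx₂ : coeffMap A.subtype u₂ ∈ modularFunctionFieldFullC Qb N := by
    rw [← FieldDef.bar_eq_fullC]; exact h₂.memL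
  haveI : Algebra.IsAlgebraic ℚ Qb := AlgebraicClosure.isAlgebraic ℚ
  obtain ⟨K0, hfin, hKK0, ⟨y₁, hy₁, hy₁x⟩, ⟨y₂, hy₂, hy₂x⟩⟩ :=
    FieldDef.exists_finite_subfield₂ hx₁ hx₂ K
  -- the coefficients of `y_i` lie in `A ∩ K0`
  have hc₁ : ∀ n, y₁.coeff n ∈ A0.down K0 A := by
    intro n
    have h1 := congrArg (fun z => z.coeff n) hy₁x
    simp only [coeffMap_coeff] at h1
    rw [A0.mem_down, h1]
    exact (u₁.coeff n).2
  have hc₂ : ∀ n, y₂.coeff n ∈ A0.down K0 A := by
    intro n
    have h1 := congrArg (fun z => z.coeff n) hy₂x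
    simp only [coeffMap_coeff] at h1
    rw [A0.mem_down, h1]
    exact (u₂.coeff n).2
  obtain ⟨v₁, hv₁⟩ := exists_coeffMap_valSubtype_eq (A0.down K0 A) y₁ hc₁
  obtain ⟨v₂, hv₂⟩ := exists_coeffMap_valSubtype_eq (A0.down K0 A) y₂ hc₂
  -- `u_i` is the image of `v_i`
  have hcomp : A.subtype.comp (A0.incl K0 A) =
      (algebraMap K0 Qb).comp (A0.down K0 A).subtype := RingHom.ext fun _ => rfl
  have hu₁ : coeffMap (A0.incl K0 A) v₁ = u₁ := by
    apply coeffMap_injective_of_injective A.subtype Subtype.val_injective
    rw [coeffMap_coeffMap, coeffMap_congr hcomp, ← coeffMap_coeffMap, hv₁, hy₁x]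
  have hu₂ : coeffMap (A0.incl K0 A) v₂ = u₂ := by
    apply coeffMap_injective_of_injective A.subtype Subtype.val_injective
    rw [coeffMap_coeffMap, coeffMap_congr hcomp, ← coeffMap_coeffMap, hv₂, hy₂x]
  -- reductions
  have hres : (IsLocalRing.residue A).comp (A0.incl K0 A) =
      (A0.resMap K0 A).comp (IsLocalRing.residue (A0.down K0 A)) :=
    RingHom.ext fun x => (A0.resMap_residue A x).symm
  have hr : ∀ v : LaurentSeries (A0.down K0 A),
      coeffMap (IsLocalRing.residue A) (coeffMap (A0.incl K0 A) v) =
        coeffMap (A0.resMap K0 A) (coeffMap (IsLocalRing.residue (A0.down K0 A)) v) := by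
    intro v
    rw [coeffMap_coeffMap, coeffMap_coeffMap, coeffMap_congr hres]
  have hne' : coeffMap (IsLocalRing.residue (A0.down K0 A)) v₁ ≠ 0 := by
    intro h0
    apply hne
    apply Subtype.ext
    change coeffMap (IsLocalRing.residue A) u₁ = 0
    rw [← hu₁, hr, h0, map_zero]
  have heq' : coeffMap (IsLocalRing.residue (A0.down K0 A)) v₁ =
      coeffMap (IsLocalRing.residue (A0.down K0 A)) v₂ := by
    apply coeffMap_injective_of_injective (A0.resMap K0 A) (A0.resMap_injective A)
    rw [← hr, ← hr, hu₁, hu₂]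
    exact congrArg Subtype.val heq
  exact hK K0 hKK0 v₁ v₂ (by rw [hv₁]; exact hy₁) (by rw [hv₂]; exact hy₂) hne' heq'
    h₁.toL h₂.toL (by rw [hv₁, hy₁x]; rfl) (by rw [hv₂, hy₂x]; rfl) hord

/-- Descent from the coefficientwise form. -/
theorem kummerStrong_of_K0' {p : ℕ} (K : IntermediateField ℚ Qb) [FiniteDimensional ℚ K]
    (hK : KummerK0' A N p K) : Step1.KummerStrong A N p :=
  kummerStrong_of_K0 K (kummerK0_of_K0' hK)

end Main

end Fermat.Agent.S18.Descent
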