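import Mathlib
import Fermat.Prelude.Def_FLTPrelim_Ramification

/-!
# S18 (U2): the residue field of a valuation subring of an algebraically closed field

For `A : ValuationSubring L` with `L` algebraically closed (in particular
`L = AlgebraicClosure ℚ`):

* `exists_root_of_monic` : a monic polynomial over `A` of nonzero degree has a root in `A`;
* `isAlgClosed` : the residue field of `A` is algebraically closed;
* `perfectField` : hence perfect;
* `charP` : if `A.LiesOverPrime ℓ` (`ℓ` prime) the residue field has characteristic `ℓ`.

All statements are instance-free theorems (no global instances are declared).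
-/

namespace Fermat.Agent.S18.ResField

open Polynomial

section General

variable {L : Type*} [Field L]

/-- A monic polynomial of nonzero degree over a valuation subring of an algebraically closed
field has a root in the valuation subring. -/
theorem exists_root_of_monic [IsAlgClosed L] (A : ValuationSubring L) (P : (↥A)[X])
    (hP : P.Monic) (hdeg : P.degree ≠ 0) : ∃ y : A, P.eval y = 0 := by
  have hmap : (P.map (algebraMap A L)).degree ≠ 0 := by rwa [hP.degree_map]
  obtain ⟨x, hx⟩ := IsAlgClosed.exists_root (P.map (algebraMap A L)) hmap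
  have hint : IsIntegral A x := ⟨P, hP, by rw [eval₂_eq_eval_map]; exact hx⟩
  obtain ⟨y, rfl⟩ := IsIntegrallyClosed.algebraMap_eq_of_integral hint
  refine ⟨y, ?_⟩
  have h0 : algebraMap A L (P.eval y) = 0 := by
    rw [← eval_map_apply]; exact hx
  exact (FaithfulSMul.algebraMap_injective A L) (by rw [h0, map_zero])

/-- Every monic polynomial over the residue field lifts to a monic polynomial of the same
degree over the valuation subring. -/
theorem exists_monic_lift (A : ValuationSubring L) (p : (IsLocalRing.ResidueField A)[X])
    (hp : p.Monic) :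
    ∃ P : (↥A)[X], P.map (IsLocalRing.residue A) = p ∧ P.degree = p.degree ∧ P.Monic := by
  have hlift : p ∈ lifts (IsLocalRing.residue A) := by
    rw [mem_lifts]
    exact map_surjective _ IsLocalRing.residue_surjective p
  exact lifts_and_degree_eq_and_monic hlift hp

/-- The residue field of a valuation subring of an algebraically closed field is algebraically
closed. -/
theorem isAlgClosed_of_isAlgClosed [IsAlgClosed L] (A : ValuationSubring L) :
    IsAlgClosed (IsLocalRing.ResidueField A) := by
  refine IsAlgClosed.of_exists_root _ fun p hp hirr => ?_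
  obtain ⟨P, hPmap, hPdeg, hPmonic⟩ := exists_monic_lift A p hp
  have hdeg : P.degree ≠ 0 := by
    rw [hPdeg]; exact (degree_pos_of_irreducible hirr).ne'
  obtain ⟨y, hy⟩ := exists_root_of_monic A P hPmonic hdeg
  refine ⟨IsLocalRing.residue A y, ?_⟩
  rw [← hPmap, eval_map_apply, hy, map_zero]

/-- The residue field of a valuation subring of an algebraically closed field is perfect. -/
theorem perfectField_of_isAlgClosed [IsAlgClosed L] (A : ValuationSubring L) :
    PerfectField (IsLocalRing.ResidueField A) := by
  have := isAlgClosed_of_isAlgClosed A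
  infer_instance

/-- The residue field of a valuation subring of an algebraically closed field is infinite. -/
theorem infinite_of_isAlgClosed [IsAlgClosed L] (A : ValuationSubring L) :
    Infinite (IsLocalRing.ResidueField A) := by
  have := isAlgClosed_of_isAlgClosed A
  infer_instance

/-- If `A` lies over `ℓ`, then `ℓ` lies in the maximal ideal of `A`. -/
theorem natCast_mem_maximalIdeal (A : ValuationSubring L) {ℓ : ℕ} (hA : A.LiesOverPrime ℓ) :
    ((ℓ : ℕ) : A) ∈ IsLocalRing.maximalIdeal A := by
  obtain ⟨ha, hmem⟩ := (ValuationSubring.mem_nonunits_iff_exists_mem_maximalIdeal).mp hA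
  exact hmem

/-- If `A` lies over `ℓ`, then `ℓ = 0` in the residue field. -/
theorem natCast_eq_zero (A : ValuationSubring L) {ℓ : ℕ} (hA : A.LiesOverPrime ℓ) :
    ((ℓ : ℕ) : IsLocalRing.ResidueField A) = 0 := by
  have h := (IsLocalRing.residue_eq_zero_iff _).mpr (natCast_mem_maximalIdeal A hA)
  simpa using h

/-- If `A` lies over the prime `ℓ`, its residue field has characteristic `ℓ`. -/
theorem charP_of_liesOverPrime (A : ValuationSubring L) {ℓ : ℕ} (hℓ : ℓ.Prime)
    (hA : A.LiesOverPrime ℓ) : CharP (IsLocalRing.ResidueField A) ℓ :=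
  (CharP.charP_iff_prime_eq_zero hℓ).mpr (natCast_eq_zero A hA)

/-- If `A` lies over the prime `ℓ`, its residue field has exponential characteristic `ℓ`. -/
theorem expChar_of_liesOverPrime (A : ValuationSubring L) {ℓ : ℕ} (hℓ : ℓ.Prime)
    (hA : A.LiesOverPrime ℓ) : ExpChar (IsLocalRing.ResidueField A) ℓ := by
  have := charP_of_liesOverPrime A hℓ hA
  have : Fact ℓ.Prime := ⟨hℓ⟩
  infer_instance

/-- If `A` lies over the prime `ℓ`, an integer `n` prime to `ℓ` is nonzero in the residue field. -/
theorem natCast_ne_zero (A : ValuationSubring L) {ℓ : ℕ} (hℓ : ℓ.Prime)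
    (hA : A.LiesOverPrime ℓ) {n : ℕ} (hn : ¬ ℓ ∣ n) :
    ((n : ℕ) : IsLocalRing.ResidueField A) ≠ 0 := by
  have := charP_of_liesOverPrime A hℓ hA
  rwa [Ne, CharP.cast_eq_zero_iff (IsLocalRing.ResidueField A) ℓ]

/-- An integer prime to `ℓ` is a unit of a valuation subring lying over `ℓ`. -/
theorem isUnit_natCast (A : ValuationSubring L) {ℓ : ℕ} (hℓ : ℓ.Prime)
    (hA : A.LiesOverPrime ℓ) {n : ℕ} (hn : ¬ ℓ ∣ n) : IsUnit ((n : ℕ) : A) := by
  by_contra hu
  have hmem : ((n : ℕ) : A) ∈ IsLocalRing.maximalIdeal A := (IsLocalRing.mem_maximalIdeal _).mpr hu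
  have h := (IsLocalRing.residue_eq_zero_iff _).mpr hmem
  exact natCast_ne_zero A hℓ hA hn (by simpa using h)

end General

section Qbar

/-- **(U2)** The residue field of a valuation subring of `ℚ̄` is algebraically closed. -/
theorem isAlgClosed (A : ValuationSubring (AlgebraicClosure ℚ)) :
    IsAlgClosed (IsLocalRing.ResidueField A) :=
  isAlgClosed_of_isAlgClosed A

/-- **(U2)** The residue field of a valuation subring of `ℚ̄` is perfect. -/
theorem perfectField (A : ValuationSubring (AlgebraicClosure ℚ)) :
    PerfectField (IsLocalRing.ResidueField A) :=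
  perfectField_of_isAlgClosed A

/-- **(U2)** The residue field of a valuation subring of `ℚ̄` lying over `ℓ` has
characteristic `ℓ`. -/
theorem charP (A : ValuationSubring (AlgebraicClosure ℚ)) {ℓ : ℕ} [Fact ℓ.Prime]
    (hA : A.LiesOverPrime ℓ) : CharP (IsLocalRing.ResidueField A) ℓ :=
  charP_of_liesOverPrime A Fact.out hA

/-- **(U2)** The residue field of a valuation subring of `ℚ̄` lying over `ℓ` has exponential
characteristic `ℓ`. -/
theorem expChar (A : ValuationSubring (AlgebraicClosure ℚ)) {ℓ : ℕ} [Fact ℓ.Prime]
    (hA : A.LiesOverPrime ℓ) : ExpChar (IsLocalRing.ResidueField A) ℓ :=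
  expChar_of_liesOverPrime A Fact.out hA

end Qbar

end Fermat.Agent.S18.ResField
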