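/-
S18 (route K), top-level wiring: the statement of S18 from the number-field Kummer statement.

`result_of_K0` : if for every prime `p ≠ ℓ` the Kummer statement `Descent.KummerK0 A N p K` holds
for some finite extension `K` of `ℚ` inside `ℚ̄`, then a point of `J₀(N)` killed by some `m`
prime to `ℓ` whose reduction is zero is zero.

Ingredients: `Step1.eq_zero_of_kummerStrong` (formal reduction to the Kummer statement over the
valuation ring), `ConstK.hconst` (functions without zeros and poles over the residue field are
constant), `ResField.isAlgClosed` (the residue field is algebraically closed) and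
`Descent.kummerStrong_of_K0` (descent to a number field).
-/
import Mathlib
import Fermat.Prelude.Def_ModularCurve_ReductionModL
import Fermat.Agent.S18.Step1
import Fermat.Agent.S18.Descent
import Fermat.Agent.S18.ConstK
import Fermat.Agent.S18.ResField

set_option autoImplicit false

open ModularCurve AlgebraicCurve

namespace Fermat.Agent.S18.Top

local notation "Qb" => AlgebraicClosure ℚ

/-- **S18 modulo the number-field Kummer statement.** -/
theorem result_of_K0 (N : ℕ) [NeZero N] {ℓ : ℕ} (A : ValuationSubring (AlgebraicClosure ℚ))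
    (hK0 : ∀ p : ℕ, p.Prime → p ≠ ℓ →
      ∃ (K : IntermediateField ℚ Qb) (_ : FiniteDimensional ℚ K), Descent.KummerK0 A N p K)
    (h : ModularCurve.ReductionInputsModL A N) (m : ℕ) (hm : ¬ ℓ ∣ m) (z : ModularCurve.JZero N)
    (hmz : m • z = 0) (hz : ModularCurve.reductionModL A N z = 0) :
    z = 0 :=
  haveI := ResField.isAlgClosed A
  Step1.eq_zero_of_kummerStrong h (ConstK.hconst N)
    (fun p hp hpl => by
      obtain ⟨K, hK, hKum⟩ := hK0 p hp hpl
      exact Descent.kummerStrong_of_K0 K hKum)
    m hm z hmz hz

/-- The same with one base field `K = ⊥` for all `p`. -/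
theorem result_of_K0_bot (N : ℕ) [NeZero N] {ℓ : ℕ} (A : ValuationSubring (AlgebraicClosure ℚ))
    (hK0 : ∀ p : ℕ, p.Prime → p ≠ ℓ → Descent.KummerK0 A N p ⊥)
    (h : ModularCurve.ReductionInputsModL A N) (m : ℕ) (hm : ¬ ℓ ∣ m) (z : ModularCurve.JZero N)
    (hmz : m • z = 0) (hz : ModularCurve.reductionModL A N z = 0) :
    z = 0 :=
  result_of_K0 N A (fun p hp hpl => ⟨⊥, inferInstance, hK0 p hp hpl⟩) h m hm z hmz hz

end Fermat.Agent.S18.Top
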