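import Mathlib

/-!
# S18 (route K, bridge): constants of the Kummer field

The contract item `hconst` of the abstract core theorem (`KummerCore.false_of_kummer`):
in the Kummer field `E = F(θ)`, `θ ^ p = Y`, every element integral over `A0` is a constant
of `A0`.

Setting: `K0 = Frac A0`, `F` a field over `K0` (the function field `F_K0`), `FL` a field
containing `F` and an algebraically closed field `L ⊇ K0` (the function field `F_L` over
`L = ℚ̄`), with `F ∩ L = K0` inside `FL` (`hFL`).  If `Y ∈ F` is not a `p`-th power in `FL`,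
then `X ^ p - Y` is irreducible over `FL` and over `F`, and the only elements of `E = F(θ)`
algebraic over `K0` are the elements of `K0`.

* `irreducible_X_pow_sub_C`, `finrank_adjoinRoot`, `root_pow`: feeders for the choice
  `E := AdjoinRoot (X ^ p - C Y)`.
* `exists_algebraMap_eq_of_isIntegral`: the statement `hconst`.
-/

set_option autoImplicit false

open Polynomial IntermediateField

namespace Fermat.Agent.S18.KummerConst

section Irred

variable {F : Type*} [Field F]

/-- If `Y` is not a `p`-th power in a bigger field `FL`, then `X ^ p - C Y` is irreducible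
over `F`. -/
theorem irreducible_X_pow_sub_C {FL : Type*} [Field FL] [Algebra F FL] {p : ℕ} (hp : p.Prime)
    (Y : F) (hY : ∀ t : FL, t ^ p ≠ algebraMap F FL Y) : Irreducible (X ^ p - C Y : F[X]) :=
  X_pow_sub_C_irreducible_of_prime hp
    (fun b hb => hY (algebraMap F FL b) (by rw [← map_pow, hb]))

/-- The degree of the Kummer algebra `F[X] / (X ^ p - Y)`. -/
theorem finrank_adjoinRoot {p : ℕ} (hp : p ≠ 0) (Y : F) :
    Module.finrank F (AdjoinRoot (X ^ p - C Y : F[X])) = p := by
  have hne : (X ^ p - C Y : F[X]) ≠ 0 := (monic_X_pow_sub_C Y hp).ne_zero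
  rw [(AdjoinRoot.powerBasis hne).finrank, AdjoinRoot.powerBasis_dim, natDegree_X_pow_sub_C]

/-- The root of `X ^ p - C Y` in the Kummer algebra is a `p`-th root of `Y`. -/
theorem root_pow (p : ℕ) (Y : F) :
    AdjoinRoot.root (X ^ p - C Y : F[X]) ^ p =
      algebraMap F (AdjoinRoot (X ^ p - C Y : F[X])) Y := by
  have h := AdjoinRoot.eval₂_root (X ^ p - C Y : F[X])
  rw [eval₂_sub, eval₂_pow, eval₂_X, eval₂_C, sub_eq_zero] at h
  rw [h]
  rfl

end Irred

section Const

variable {A0 K0 L F FL E : Type*} [CommRing A0] [IsDomain A0] [IsIntegrallyClosed A0]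
  [Field K0] [Algebra A0 K0] [IsFractionRing A0 K0] [Field L] [IsAlgClosed L] [Algebra K0 L]
  [Field F] [Algebra K0 F] [Algebra A0 F] [IsScalarTower A0 K0 F]
  [Field FL] [Algebra L FL] [Algebra F FL] [Algebra K0 FL] [IsScalarTower K0 L FL]
  [IsScalarTower K0 F FL]
  [Field E] [Algebra F E] [Algebra A0 E] [IsScalarTower A0 F E]

omit [IsDomain A0] [IsIntegrallyClosed A0] [IsFractionRing A0 K0] [IsAlgClosed L] in
/-- Elements of `E = F(θ)` are polynomials of degree `< p` in `θ`. -/
theorem exists_aeval_eq (p : ℕ) (hp : p.Prime) (Y : F)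
    (hirr : Irreducible (X ^ p - C Y : F[X]))
    (θ : E) (hθ : θ ^ p = algebraMap F E Y) (hdeg : Module.finrank F E = p) (h : E) :
    ∃ r : F[X], r.degree < (p : WithBot ℕ) ∧ aeval θ r = h := by
  have : FiniteDimensional F E :=
    Module.finite_of_finrank_pos (by rw [hdeg]; exact hp.pos)
  have hmon : (X ^ p - C Y : F[X]).Monic := monic_X_pow_sub_C Y hp.ne_zero
  have hroot : aeval θ (X ^ p - C Y : F[X]) = 0 := by
    rw [map_sub, map_pow, aeval_X, aeval_C, hθ, sub_self]
  have hmin : X ^ p - C Y = minpoly F θ := minpoly.eq_of_irreducible_of_monic hirr hroot hmon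
  have hint : IsIntegral F θ := ⟨_, hmon, hroot⟩
  have htop : F⟮θ⟯ = ⊤ := by
    apply IntermediateField.eq_of_le_of_finrank_eq le_top
    rw [IntermediateField.adjoin.finrank hint, ← hmin, natDegree_X_pow_sub_C,
      IntermediateField.finrank_top', hdeg]
  have hmem : h ∈ F⟮θ⟯.toSubalgebra := by
    rw [htop]
    exact Algebra.mem_top
  rw [IntermediateField.adjoin_simple_toSubalgebra_of_isAlgebraic hint.isAlgebraic,
    Algebra.adjoin_singleton_eq_range_aeval] at hmem
  obtain ⟨q, hq⟩ := hmem
  refine ⟨q %ₘ (X ^ p - C Y), ?_, ?_⟩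
  · have := degree_modByMonic_lt q hmon
    rwa [degree_X_pow_sub_C hp.pos] at this
  · rw [aeval_modByMonic_eq_self_of_root hroot]
    exact hq

omit [IsDomain A0] in
/-- **Constants of the Kummer field** (`hconst` of the abstract core theorem): if `F ∩ L = K0`
inside `FL` and `Y ∈ F` is not a `p`-th power in `FL`, then every element of
`E = F(θ)`, `θ ^ p = Y`, `[E : F] = p`, which is integral over `A0` lies in `A0`. -/
theorem exists_algebraMap_eq_of_isIntegral
    (hFL : ∀ x : F, (∃ c : L, algebraMap F FL x = algebraMap L FL c) →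
      ∃ a : K0, x = algebraMap K0 F a)
    (p : ℕ) (hp : p.Prime) (Y : F) (hY : ∀ t : FL, t ^ p ≠ algebraMap F FL Y)
    (θ : E) (hθ : θ ^ p = algebraMap F E Y) (hdeg : Module.finrank F E = p)
    (h : E) (hh : IsIntegral A0 h) : ∃ a : A0, h = algebraMap A0 E a := by
  classical
  have : FiniteDimensional F E :=
    Module.finite_of_finrank_pos (by rw [hdeg]; exact hp.pos)
  have hirrF : Irreducible (X ^ p - C Y : F[X]) := irreducible_X_pow_sub_C (FL := FL) hp Y hY
  obtain ⟨r, hrdeg, hr⟩ := exists_aeval_eq p hp Y hirrF θ hθ hdeg h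
  -- an algebraic closure of `FL` and an embedding of `E`
  let Ω := AlgebraicClosure FL
  let φ : E →ₐ[F] Ω := IsAlgClosed.lift
  set θ' : Ω := φ θ with hθ'
  have hθ'pow : θ' ^ p = algebraMap FL Ω (algebraMap F FL Y) := by
    rw [hθ', ← map_pow, hθ, AlgHom.commutes, ← IsScalarTower.algebraMap_apply]
  -- the minimal polynomial of `θ'` over `FL`
  have hirrL : Irreducible (X ^ p - C (algebraMap F FL Y) : FL[X]) :=
    X_pow_sub_C_irreducible_of_prime hp hY
  have hmonL : (X ^ p - C (algebraMap F FL Y) : FL[X]).Monic :=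
    monic_X_pow_sub_C _ hp.ne_zero
  have hrootL : aeval θ' (X ^ p - C (algebraMap F FL Y) : FL[X]) = 0 := by
    rw [map_sub, map_pow, aeval_X, aeval_C, hθ'pow, sub_self]
  have hminL : X ^ p - C (algebraMap F FL Y) = minpoly FL θ' :=
    minpoly.eq_of_irreducible_of_monic hirrL hrootL hmonL
  -- `φ h` is integral over `L`, hence lies in `L`
  let g : A0 →+* L := (algebraMap K0 L).comp (algebraMap A0 K0)
  have hcomp : ∀ a : A0, algebraMap L Ω (g a) = φ (algebraMap A0 E a) := by
    intro a
    rw [IsScalarTower.algebraMap_apply A0 F E, AlgHom.commutes,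
      IsScalarTower.algebraMap_apply F FL Ω, IsScalarTower.algebraMap_apply A0 K0 F,
      ← IsScalarTower.algebraMap_apply K0 F FL, IsScalarTower.algebraMap_apply K0 L FL,
      ← IsScalarTower.algebraMap_apply L FL Ω]
    rfl
  have hintL : IsIntegral L (φ h) := by
    obtain ⟨P, hPmon, hP⟩ := hh
    refine ⟨P.map g, hPmon.map g, ?_⟩
    rw [eval₂_map]
    have h1 : (algebraMap L Ω).comp g = (φ : E →+* Ω).comp (algebraMap A0 E) :=
      RingHom.ext hcomp
    rw [h1]
    change eval₂ ((φ : E →+* Ω).comp (algebraMap A0 E)) ((φ : E →+* Ω) h) P = 0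
    rw [← hom_eval₂, hP, map_zero]
  obtain ⟨c, hc⟩ : ∃ c : L, algebraMap L Ω c = φ h := by
    have hd : (minpoly L (φ h)).degree = 1 :=
      IsAlgClosed.degree_eq_one_of_irreducible L (minpoly.irreducible hintL)
    exact minpoly.mem_range_of_degree_eq_one L (φ h) hd
  -- `r` becomes the constant `c` over `FL`
  have hkey : r.map (algebraMap F FL) - C (algebraMap L FL c) = 0 := by
    by_contra hne
    have hzero : aeval θ' (r.map (algebraMap F FL) - C (algebraMap L FL c)) = 0 := by
      rw [map_sub, aeval_map_algebraMap, aeval_C, aeval_algHom_apply, hr,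
        ← IsScalarTower.algebraMap_apply, hc, sub_self]
    have hle := minpoly.degree_le_of_ne_zero FL θ' hne hzero
    rw [← hminL, degree_X_pow_sub_C hp.pos] at hle
    have hlt : (r.map (algebraMap F FL) - C (algebraMap L FL c)).degree < (p : WithBot ℕ) := by
      refine lt_of_le_of_lt (degree_sub_le _ _) (max_lt ?_ ?_)
      · rw [degree_map]
        exact hrdeg
      · exact lt_of_le_of_lt degree_C_le (by exact_mod_cast hp.pos)
    exact absurd hle (not_le.mpr hlt)
  rw [sub_eq_zero] at hkey
  -- hence `r` is a constant of `F ∩ L = K0`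
  have hr0 : r = C (r.coeff 0) := by
    apply eq_C_of_natDegree_eq_zero
    have := congrArg natDegree hkey
    rwa [natDegree_map, natDegree_C] at this
  have hr0L : algebraMap F FL (r.coeff 0) = algebraMap L FL c := by
    have := congrArg (fun P : FL[X] => P.coeff 0) hkey
    simpa [coeff_map] using this
  obtain ⟨a, ha⟩ := hFL (r.coeff 0) ⟨c, hr0L⟩
  have hh' : h = algebraMap F E (algebraMap K0 F a) := by
    rw [← hr, hr0, aeval_C, ha]
  -- `a` is integral over `A0`, hence in `A0`
  let ψ : K0 →+* E := (algebraMap F E).comp (algebraMap K0 F)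
  have hψ : ∀ b : A0, ψ (algebraMap A0 K0 b) = algebraMap A0 E b := by
    intro b
    change algebraMap F E (algebraMap K0 F (algebraMap A0 K0 b)) = _
    rw [← IsScalarTower.algebraMap_apply A0 K0 F, ← IsScalarTower.algebraMap_apply A0 F E]
  have haint : IsIntegral A0 a := by
    obtain ⟨P, hPmon, hP⟩ := hh
    refine ⟨P, hPmon, ψ.injective ?_⟩
    rw [map_zero, hom_eval₂]
    have h1 : ψ.comp (algebraMap A0 K0) = algebraMap A0 E := RingHom.ext hψ
    rw [h1]
    change eval₂ (algebraMap A0 E) (algebraMap F E (algebraMap K0 F a)) P = 0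
    rw [← hh']
    exact hP
  obtain ⟨a0, ha0⟩ := IsIntegrallyClosed.isIntegral_iff.mp haint
  refine ⟨a0, ?_⟩
  rw [hh', ← ha0]
  exact hψ a0

end Const

end Fermat.Agent.S18.KummerConst
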