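import Mathlib
import Fermat.Prelude.Def_ModularCurve_X0ModL
import Fermat.Agent.S18.KummerConst

/-!
# S18 (route K, bridge): constants of the function field `K(j(q^d))`, and the ring-hom form of
`KummerConst`

* `eq_algebraMap_of_coeffMap_eq`: a Laurent series over `K` whose coefficientwise image over
  `K'` is a constant is itself a constant.
* `exists_algebraMap_eq_fullC`: the statement `F_K ∩ K' = K` (`hFL` of `KummerConst`) for
  `F_K = modularFunctionFieldFullC K N`, in raw form.
* `hFL_of_coe`, `hι_of_coe`: the same as the hypotheses `hFL`, `hι` for any ring homomorphism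
  `ι : F_{K0} →+* FL` (`FL` an intermediate field of `L((q))`) which is the coefficient
  extension on underlying Laurent series.
* `exists_algebraMap_eq_of_isIntegral_hom`: `KummerConst.exists_algebraMap_eq_of_isIntegral`
  with the coefficient extension given as a ring homomorphism `ι : F →+* FL` instead of an
  `Algebra` instance.
-/

set_option autoImplicit false

open HahnSeries ModularCurve

namespace Fermat.Agent.S18.ConstBase

section Series

variable {K K' : Type*} [Field K] [Field K']

/-- A Laurent series over `K` whose coefficientwise image over `K'` is a constant is a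
constant. -/
theorem eq_algebraMap_of_coeffMap_eq (f : K →+* K') (x : LaurentSeries K) (c : K')
    (h : coeffMap f x = algebraMap K' (LaurentSeries K') c) :
    x = algebraMap K (LaurentSeries K) (x.coeff 0) ∧ f (x.coeff 0) = c := by
  rw [algebraMap_laurentSeries_eq_single] at h
  have hcoeff : ∀ n : ℤ, f (x.coeff n) = (HahnSeries.single (0 : ℤ) c).coeff n := fun n => by
    rw [← h, coeffMap_coeff]
  constructor
  · rw [algebraMap_laurentSeries_eq_single]
    ext n
    by_cases h0 : n = 0
    · subst h0
      rw [HahnSeries.coeff_single_same]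
    · rw [HahnSeries.coeff_single_of_ne h0]
      have := hcoeff n
      rw [HahnSeries.coeff_single_of_ne h0] at this
      exact (map_eq_zero f).mp this
  · have := hcoeff 0
    rwa [HahnSeries.coeff_single_same] at this

/-- **`F_K ∩ K' = K`**: an element of `K(j(q^d) : d ∣ N)` which becomes a constant of `K'`
after extending the coefficients along `f : K →+* K'` is a constant of `K`. -/
theorem exists_algebraMap_eq_fullC (f : K →+* K') (N : ℕ)
    (x : modularFunctionFieldFullC K N) (c : K')
    (h : coeffMap f (x : LaurentSeries K) = algebraMap K' (LaurentSeries K') c) :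
    ∃ a : K, x = algebraMap K (modularFunctionFieldFullC K N) a ∧ f a = c := by
  obtain ⟨h1, h2⟩ := eq_algebraMap_of_coeffMap_eq f (x : LaurentSeries K) c h
  exact ⟨(x : LaurentSeries K).coeff 0, Subtype.ext h1, h2⟩

/-- **`hFL`** for the function field `F_{K0} = K0(j(q^d) : d ∣ N)` and any intermediate field
`FL` of `L((q))` (e.g. `modularFunctionFieldBar N` or `modularFunctionFieldFullC L N`), for any
ring homomorphism `ι` which is the coefficient extension on underlying Laurent series. -/
theorem hFL_of_coe {K0 L : Type*} [Field K0] [Field L] [Algebra K0 L] (N : ℕ)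
    {FL : IntermediateField L (LaurentSeries L)}
    (ι : modularFunctionFieldFullC K0 N →+* FL)
    (hcoe : ∀ x : modularFunctionFieldFullC K0 N,
      ((ι x : FL) : LaurentSeries L) = coeffMap (algebraMap K0 L) (x : LaurentSeries K0)) :
    ∀ x : modularFunctionFieldFullC K0 N, (∃ c : L, ι x = algebraMap L FL c) →
      ∃ a : K0, x = algebraMap K0 (modularFunctionFieldFullC K0 N) a := by
  rintro x ⟨c, hc⟩
  have h : coeffMap (algebraMap K0 L) (x : LaurentSeries K0) =
      algebraMap L (LaurentSeries L) c := by
    rw [← hcoe, hc]
    rfl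
  obtain ⟨a, ha, -⟩ := exists_algebraMap_eq_fullC (algebraMap K0 L) N x c h
  exact ⟨a, ha⟩

/-- Compatibility of such an `ι` with the constants (`hι` of
`exists_algebraMap_eq_of_isIntegral_hom`, `KummerGeo`, `CoverField`). -/
theorem hι_of_coe {K0 L : Type*} [Field K0] [Field L] [Algebra K0 L] (N : ℕ)
    {FL : IntermediateField L (LaurentSeries L)}
    (ι : modularFunctionFieldFullC K0 N →+* FL)
    (hcoe : ∀ x : modularFunctionFieldFullC K0 N,
      ((ι x : FL) : LaurentSeries L) = coeffMap (algebraMap K0 L) (x : LaurentSeries K0)) :
    ∀ c : K0, ι (algebraMap K0 (modularFunctionFieldFullC K0 N) c) =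
      algebraMap L FL (algebraMap K0 L c) := by
  intro c
  apply Subtype.ext
  rw [hcoe]
  change coeffMap (algebraMap K0 L) (algebraMap K0 (LaurentSeries K0) c) =
    algebraMap L (LaurentSeries L) (algebraMap K0 L c)
  rw [algebraMap_laurentSeries_eq_single, algebraMap_laurentSeries_eq_single, coeffMap_single]

end Series

section Hom

variable {A0 K0 L F FL E : Type*} [CommRing A0] [IsIntegrallyClosed A0]
  [Field K0] [Algebra A0 K0] [IsFractionRing A0 K0] [Field L] [IsAlgClosed L] [Algebra K0 L]
  [Field F] [Algebra K0 F] [Algebra A0 F] [IsScalarTower A0 K0 F]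
  [Field FL] [Algebra L FL]
  [Field E] [Algebra F E] [Algebra A0 E] [IsScalarTower A0 F E]

/-- **Constants of the Kummer field, ring-hom form**: `KummerConst` with the coefficient
extension `F → FL` given as a ring homomorphism `ι` compatible with the constants. -/
theorem exists_algebraMap_eq_of_isIntegral_hom (ι : F →+* FL)
    (hι : ∀ c : K0, ι (algebraMap K0 F c) = algebraMap L FL (algebraMap K0 L c))
    (hFL : ∀ x : F, (∃ c : L, ι x = algebraMap L FL c) → ∃ a : K0, x = algebraMap K0 F a)
    (p : ℕ) (hp : p.Prime) (Y : F) (hY : ∀ t : FL, t ^ p ≠ ι Y)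
    (θ : E) (hθ : θ ^ p = algebraMap F E Y) (hdeg : Module.finrank F E = p)
    (h : E) (hh : IsIntegral A0 h) : ∃ a : A0, h = algebraMap A0 E a := by
  let _ : Algebra F FL := ι.toAlgebra
  let _ : Algebra K0 FL := ((algebraMap L FL).comp (algebraMap K0 L)).toAlgebra
  have : IsScalarTower K0 L FL := IsScalarTower.of_algebraMap_eq (fun _ => rfl)
  have : IsScalarTower K0 F FL := IsScalarTower.of_algebraMap_eq (fun c => (hι c).symm)
  exact KummerConst.exists_algebraMap_eq_of_isIntegral hFL p hp Y hY θ hθ hdeg h hh

end Hom

end Fermat.Agent.S18.ConstBase
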