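import Mathlib

/-!
# S18, route K, the `ℓ = 2, 3` block: field scaffolding of the cover `F# = F[X]/(m)`

For `ℓ ∈ {2, 3}` the core theorem is applied to the base line `K0(h)`, where `h` is a root of a
cover polynomial `G ∈ F[X]` (`F` the function field), `G = (X + 256)³ - j X²` resp.
`(X + 27)(X + 3)³ - j X`.  This file contains the field theory which is independent of the
carriers:

* `exists_irreducible_factor` (C1), `exists_pow_eq_of_coprime` (C2, norm down), `exists_cover`:
  some monic irreducible factor `m` of `G` has degree prime to `p`, and an element of `F` which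
  is not a `p`-th power in `F` is not a `p`-th power in `F[X]/(m)`;
* `exists_descent`, `coverHom`, `coverHom_mk`, `exists_mk_eq` (C3): descent of `m` to a subfield
  containing its coefficients, and the induced homomorphism of the simple extensions;
* `exists_algebraMap_eq_of_coverHom` (C4): the constants of the cover;
* `algebraMap_mem_adjoin_simple`, `transcendental_of_mem_adjoin_simple`,
  `finiteDimensional_adjoin_simple` (C5a-c): the base line `K0(h) ⊇ K0(j)`;
* `exists_mul_eq`, `transcendental_gen` (C5e-f): `K0(h) = Frac A0[h]` and transcendence of the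
  generator, in the shape of the hypotheses `hgen`, `ht` of the core theorem.
-/

set_option autoImplicit false
set_option linter.style.haveILetI false

open Polynomial IntermediateField

namespace Fermat.Agent.S18.CoverField

section Factor

variable {F : Type*} [Field F]

/-- **(C1)** A nonzero polynomial whose degree is prime to `p` has a monic irreducible factor of
degree prime to `p`. -/
theorem exists_irreducible_factor (G : F[X]) (hG : G ≠ 0) (p : ℕ) (hp : ¬ p ∣ G.natDegree) :
    ∃ m : F[X], m.Monic ∧ Irreducible m ∧ m ∣ G ∧ ¬ p ∣ m.natDegree := by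
  classical
  by_contra hcon
  push Not at hcon
  apply hp
  have hassoc : Associated (UniqueFactorizationMonoid.normalizedFactors G).prod G :=
    UniqueFactorizationMonoid.prod_normalizedFactors hG
  have h0 : (0 : F[X]) ∉ UniqueFactorizationMonoid.normalizedFactors G :=
    UniqueFactorizationMonoid.zero_notMem_normalizedFactors G
  rw [← natDegree_eq_of_degree_eq (degree_eq_degree_of_associated hassoc),
    natDegree_multiset_prod _ h0]
  refine Multiset.dvd_sum fun a ha => ?_
  obtain ⟨m, hm, rfl⟩ := Multiset.mem_map.mp ha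
  have hirr : Irreducible m := UniqueFactorizationMonoid.irreducible_of_normalized_factor m hm
  have hnorm : normalize m = m := UniqueFactorizationMonoid.normalize_normalized_factor m hm
  have hmon : m.Monic := by
    rw [← hnorm]
    exact Polynomial.monic_normalize hirr.ne_zero
  exact hcon m hmon hirr (UniqueFactorizationMonoid.dvd_of_mem_normalizedFactors hm)

end Factor

section Norm

variable {F F' : Type*} [Field F] [Field F'] [Algebra F F'] [FiniteDimensional F F']

/-- **(C2) Norm down.** If `[F' : F]` is prime to `p`, an element of `F` which is a `p`-th power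
in `F'` is a `p`-th power in `F`. -/
theorem exists_pow_eq_of_coprime (p : ℕ) (hcop : (Module.finrank F F').Coprime p) (Y : F)
    (h : ∃ z : F', z ^ p = algebraMap F F' Y) : ∃ b : F, b ^ p = Y := by
  obtain ⟨z, hz⟩ := h
  by_cases hY : Y = 0
  · subst hY
    by_cases hp0 : p = 0
    · subst hp0
      rw [pow_zero, map_zero] at hz
      exact absurd hz one_ne_zero
    · exact ⟨0, zero_pow hp0⟩
  have hN : Y ^ Module.finrank F F' = Algebra.norm F z ^ p := by
    rw [← Algebra.norm_algebraMap (S := F'), ← hz, map_pow]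
  set d := Module.finrank F F' with hd
  have hbez : (d : ℤ) * Nat.gcdA d p + (p : ℤ) * Nat.gcdB d p = 1 := by
    have := Nat.gcd_eq_gcd_ab d p
    rw [hcop.gcd_eq_one] at this
    exact_mod_cast this.symm
  refine ⟨Algebra.norm F z ^ (Nat.gcdA d p) * Y ^ (Nat.gcdB d p), ?_⟩
  have h1 : (Algebra.norm F z ^ (Nat.gcdA d p)) ^ p = (Algebra.norm F z ^ p) ^ (Nat.gcdA d p) := by
    rw [← zpow_natCast, ← zpow_natCast, ← zpow_mul, ← zpow_mul, mul_comm]
  have h2 : (Y ^ (Nat.gcdB d p)) ^ p = Y ^ ((p : ℤ) * Nat.gcdB d p) := by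
    rw [← zpow_natCast, ← zpow_mul, mul_comm]
  have h3 : (Y ^ d) ^ (Nat.gcdA d p) = Y ^ ((d : ℤ) * Nat.gcdA d p) := by
    rw [← zpow_natCast, ← zpow_mul]
  rw [mul_pow, h1, h2, ← hN, h3, ← zpow_add₀ hY, hbez, zpow_one]

end Norm

section AdjoinRoot

variable {F : Type*} [Field F]

/-- The root of an irreducible factor `m` of `G` is a root of `G`. -/
theorem aeval_root_eq_zero_of_dvd (m G : F[X]) (hdvd : m ∣ G) :
    aeval (AdjoinRoot.root m) G = 0 := by
  rw [AdjoinRoot.aeval_eq, AdjoinRoot.mk_eq_zero]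
  exact hdvd

theorem finrank_adjoinRoot (m : F[X]) (hm : m ≠ 0) :
    Module.finrank F (AdjoinRoot m) = m.natDegree := by
  rw [(AdjoinRoot.powerBasis hm).finrank, AdjoinRoot.powerBasis_dim]

theorem adjoin_root_eq_top (m : F[X]) [Fact (Irreducible m)] :
    IntermediateField.adjoin F {AdjoinRoot.root m} = ⊤ :=
  IntermediateField.adjoin_eq_top_of_algebra F _ AdjoinRoot.adjoinRoot_eq_top

/-- **The cover field.** If `Y` is not a `p`-th power in `F` and `deg G` is prime to the prime
`p`, some monic irreducible factor `m` of `G` has the property that `Y` is still not a `p`-th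
power in `F[X]/(m)`. -/
theorem exists_cover (G : F[X]) (hG : G ≠ 0) (p : ℕ) (hp : p.Prime) (hpG : ¬ p ∣ G.natDegree)
    (Y : F) (hY : ∀ b : F, b ^ p ≠ Y) :
    ∃ m : F[X], m.Monic ∧ Irreducible m ∧ m ∣ G ∧
      ∀ z : AdjoinRoot m, z ^ p ≠ algebraMap F (AdjoinRoot m) Y := by
  obtain ⟨m, hmon, hirr, hdvd, hpm⟩ := exists_irreducible_factor G hG p hpG
  refine ⟨m, hmon, hirr, hdvd, fun z hz => ?_⟩
  haveI : Fact (Irreducible m) := ⟨hirr⟩
  haveI : FiniteDimensional F (AdjoinRoot m) := (AdjoinRoot.powerBasis hirr.ne_zero).finite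
  have hcop : (Module.finrank F (AdjoinRoot m)).Coprime p := by
    rw [finrank_adjoinRoot m hirr.ne_zero]
    exact ((Nat.Prime.coprime_iff_not_dvd hp).mpr hpm).symm
  obtain ⟨b, hb⟩ := exists_pow_eq_of_coprime p hcop Y ⟨z, hz⟩
  exact hY b hb

end AdjoinRoot

section Descent

variable {F0 F : Type*} [Field F0] [Field F] (ι : F0 →+* F)

/-- **(C3)** A monic irreducible polynomial whose coefficients lie in the image of a subfield
descends to a monic irreducible polynomial over that subfield. -/
theorem exists_descent (m : F[X]) (hm : m.Monic) (hirr : Irreducible m)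
    (hcoef : ∀ i, m.coeff i ∈ Set.range ι) :
    ∃ m0 : F0[X], m0.Monic ∧ Irreducible m0 ∧ m0.map ι = m := by
  obtain ⟨m0, hm0⟩ := (mem_lifts m).mp ((lifts_iff_coeff_lifts m).mpr hcoef)
  have hmon : m0.Monic := monic_of_injective ι.injective (hm0 ▸ hm)
  exact ⟨m0, hmon, hmon.irreducible_of_irreducible_map ι m0 (hm0 ▸ hirr), hm0⟩

variable (m0 : F0[X])

/-- The homomorphism `F0[X]/(m0) → F[X]/(ι m0)` induced by `ι`. -/
noncomputable def coverHom : AdjoinRoot m0 →+* AdjoinRoot (m0.map ι) :=
  AdjoinRoot.map ι m0 (m0.map ι) dvd_rfl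

@[simp]
theorem coverHom_of (x : F0) :
    coverHom ι m0 (AdjoinRoot.of m0 x) = AdjoinRoot.of (m0.map ι) (ι x) :=
  AdjoinRoot.map_of ι m0 (m0.map ι) dvd_rfl x

@[simp]
theorem coverHom_root :
    coverHom ι m0 (AdjoinRoot.root m0) = AdjoinRoot.root (m0.map ι) :=
  AdjoinRoot.map_root ι m0 (m0.map ι) dvd_rfl

theorem coverHom_mk (r : F0[X]) :
    coverHom ι m0 (AdjoinRoot.mk m0 r) = AdjoinRoot.mk (m0.map ι) (r.map ι) := by
  have h : (coverHom ι m0).comp (AdjoinRoot.mk m0) =
      (AdjoinRoot.mk (m0.map ι)).comp (mapRingHom ι) := by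
    apply Polynomial.ringHom_ext
    · intro a
      rw [RingHom.comp_apply, RingHom.comp_apply, coe_mapRingHom, Polynomial.map_C]
      exact coverHom_of ι m0 a
    · rw [RingHom.comp_apply, RingHom.comp_apply, coe_mapRingHom, Polynomial.map_X]
      exact coverHom_root ι m0
  exact RingHom.congr_fun h r

/-- Every element of `F0[X]/(m0)` is the class of a polynomial of degree `< deg m0`. -/
theorem exists_mk_eq (hm0 : m0.Monic) (x : AdjoinRoot m0) :
    ∃ r : F0[X], r.degree < m0.degree ∧ AdjoinRoot.mk m0 r = x := by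
  obtain ⟨r, rfl⟩ := AdjoinRoot.mk_surjective x
  refine ⟨r %ₘ m0, degree_modByMonic_lt r hm0, ?_⟩
  rw [AdjoinRoot.mk_eq_mk]
  refine ⟨-(r /ₘ m0), ?_⟩
  have := modByMonic_add_div r m0
  linear_combination this

end Descent

section Const

variable {K0 L F0 F : Type*} [Field K0] [Field L] [Field F0] [Algebra K0 F0]
  [Field F] [Algebra L F] (ι : F0 →+* F)

/-- **(C4) Constants of the cover.** If the constants of `F` which come from `F0` come from `K0`,
the same holds for the simple extensions `F0[X]/(m0) → F[X]/(ι m0)`, `m0` monic of positive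
degree. -/
theorem exists_algebraMap_eq_of_coverHom
    (hFL : ∀ x : F0, (∃ c : L, ι x = algebraMap L F c) → ∃ a : K0, x = algebraMap K0 F0 a)
    (m0 : F0[X]) (hm0 : m0.Monic) (hdeg : 0 < m0.natDegree) (x : AdjoinRoot m0)
    (hx : ∃ c : L, coverHom ι m0 x = algebraMap L (AdjoinRoot (m0.map ι)) c) :
    ∃ a : K0, x = algebraMap K0 (AdjoinRoot m0) a := by
  obtain ⟨c, hc⟩ := hx
  obtain ⟨r, hr, rfl⟩ := exists_mk_eq m0 hm0 x
  have hmon : (m0.map ι).Monic := hm0.map ι
  rw [coverHom_mk, AdjoinRoot.algebraMap_eq', RingHom.comp_apply, ← AdjoinRoot.mk_C,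
    AdjoinRoot.mk_eq_mk] at hc
  have hdegm : (m0.map ι).degree = m0.degree := degree_map m0 ι
  have hdeg' : (0 : WithBot ℕ) < m0.degree := by
    rw [degree_eq_natDegree hm0.ne_zero]
    exact_mod_cast hdeg
  have hlt : (r.map ι - C (algebraMap L F c)).degree < (m0.map ι).degree := by
    rw [hdegm]
    refine (degree_sub_le _ _).trans_lt (max_lt ?_ ?_)
    · exact (degree_map_le).trans_lt hr
    · exact degree_C_le.trans_lt hdeg'
  have hzero : r.map ι - C (algebraMap L F c) = 0 :=
    eq_zero_of_dvd_of_degree_lt hc hlt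
  have hrC : r.map ι = C (algebraMap L F c) := sub_eq_zero.mp hzero
  have hcoeff : ∀ n, ι (r.coeff n) = (C (algebraMap L F c)).coeff n := fun n => by
    rw [← hrC, coeff_map]
  have hr0 : r = C (r.coeff 0) := by
    ext n
    rcases n with _ | n
    · simp
    · have h1 := hcoeff (n + 1)
      rw [coeff_C_succ] at h1
      rw [coeff_C_succ]
      exact (map_eq_zero ι).mp h1
  obtain ⟨a, ha⟩ := hFL (r.coeff 0) ⟨c, by rw [hcoeff 0, coeff_C_zero]⟩
  refine ⟨a, ?_⟩
  rw [hr0, ha, AdjoinRoot.algebraMap_eq', RingHom.comp_apply]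
  rfl

end Const

section BaseLine

variable {K0 F F' : Type*} [Field K0] [Field F] [Field F'] [Algebra K0 F] [Algebra F F']
  [Algebra K0 F'] [IsScalarTower K0 F F']

omit [Field F] [Algebra K0 F] [Algebra F F'] [IsScalarTower K0 F F'] in
theorem aeval_mem_adjoin_simple (h : F') (r : K0[X]) : aeval h r ∈ K0⟮h⟯ :=
  IntermediateField.algebra_adjoin_le_adjoin K0 _ (Polynomial.aeval_mem_adjoin_singleton K0 h)

omit [Field F] [Algebra K0 F] [Algebra F F'] [IsScalarTower K0 F F'] in
/-- If `num, den` are coprime and `num(h) = c * den(h)`, then `den(h) ≠ 0`. -/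
theorem aeval_den_ne_zero (h : F') (num den : K0[X]) (hcop : IsCoprime num den) (c : F')
    (hrel : c * aeval h den = aeval h num) : aeval h den ≠ 0 := by
  intro h0
  obtain ⟨a, b, hab⟩ := hcop
  have h1 := congrArg (aeval h) hab
  rw [map_add, map_mul, map_mul, ← hrel, h0, mul_zero, mul_zero, mul_zero, add_zero, map_one] at h1
  exact zero_ne_one h1

omit [Algebra K0 F] [IsScalarTower K0 F F'] in
/-- **(C5a)** `j ∈ K0(h)` when `j · den(h) = num(h)`. -/
theorem algebraMap_mem_adjoin_simple (j : F) (h : F') (num den : K0[X])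
    (hrel : algebraMap F F' j * aeval h den = aeval h num) (hden : aeval h den ≠ 0) :
    algebraMap F F' j ∈ K0⟮h⟯ := by
  have h1 : algebraMap F F' j = aeval h num / aeval h den := (eq_div_iff hden).mpr hrel
  rw [h1]
  exact div_mem (aeval_mem_adjoin_simple h num) (aeval_mem_adjoin_simple h den)

/-- **(C5b)** `h` is transcendental over `K0` when `j` is and `j ∈ K0(h)`. -/
theorem transcendental_of_mem_adjoin_simple (j : F) (hj : Transcendental K0 j) (h : F')
    (hmem : algebraMap F F' j ∈ K0⟮h⟯) : Transcendental K0 h := by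
  intro halg
  apply hj
  have : Algebra.IsAlgebraic K0 K0⟮h⟯ :=
    IntermediateField.isAlgebraic_adjoin_simple halg.isIntegral
  have h1 : IsAlgebraic K0 (⟨algebraMap F F' j, hmem⟩ : K0⟮h⟯) := Algebra.IsAlgebraic.isAlgebraic _
  have h2 : IsAlgebraic K0 (algebraMap F F' j) := (IntermediateField.isAlgebraic_iff).mp h1
  exact (isAlgebraic_algebraMap_iff (algebraMap F F').injective).mp h2

/-- **(C5c)** `F'` is finite over `K0(h)` when `F` is finite over `K0(j)`, `F'` is finite over
`F` and `j ∈ K0(h)`. -/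
theorem finiteDimensional_adjoin_simple (j : F) [FiniteDimensional K0⟮j⟯ F]
    [FiniteDimensional F F'] (h : F') (hmem : algebraMap F F' j ∈ K0⟮h⟯) :
    FiniteDimensional K0⟮h⟯ F' := by
  have hle : K0⟮j⟯ ≤ (K0⟮h⟯).comap (IsScalarTower.toAlgHom K0 F F') :=
    IntermediateField.adjoin_simple_le_iff.mpr hmem
  let σ : K0⟮j⟯ →+* K0⟮h⟯ :=
    ((algebraMap F F').comp (algebraMap K0⟮j⟯ F)).codRestrict K0⟮h⟯ (fun x => hle x.2)
  let _ : Algebra K0⟮j⟯ K0⟮h⟯ := σ.toAlgebra
  haveI : IsScalarTower K0⟮j⟯ K0⟮h⟯ F' := IsScalarTower.of_algebraMap_eq (fun x => by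
    rw [IsScalarTower.algebraMap_apply K0⟮j⟯ F F']
    rfl)
  haveI : Module.Finite K0⟮j⟯ F' := Module.Finite.trans F F'
  exact Module.Finite.of_restrictScalars_finite K0⟮j⟯ K0⟮h⟯ F'

end BaseLine

section Chart

variable {A0 K0 F' : Type*} [CommRing A0] [IsDomain A0] [Field K0] [Algebra A0 K0]
  [IsFractionRing A0 K0] [Field F'] [Algebra K0 F'] [Algebra A0 F'] [IsScalarTower A0 K0 F']

omit [IsDomain A0] [IsFractionRing A0 K0] in
theorem isScalarTower_adjoin_simple (h : F') : IsScalarTower A0 K0⟮h⟯ F' :=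
  IsScalarTower.of_algebraMap_eq (fun _ => rfl)

omit [IsDomain A0] [IsFractionRing A0 K0] in
theorem coe_aeval_gen (h : F') (r : A0[X]) :
    ((aeval (AdjoinSimple.gen K0 h) r : K0⟮h⟯) : F') = aeval h (r.map (algebraMap A0 K0)) := by
  haveI := isScalarTower_adjoin_simple (A0 := A0) (K0 := K0) h
  rw [aeval_map_algebraMap]
  have := aeval_algebraMap_apply F' (AdjoinSimple.gen K0 h) r
  rw [← AdjoinSimple.algebraMap_gen K0 h]
  exact this.symm

/-- **(C5e)** `K0(h)` is the fraction field of `A0[h]`, elementwise (the hypothesis `hgen` of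
the core theorem for the base line `M = K0(h)`, `t = h`). -/
theorem exists_mul_eq (h : F') (m : K0⟮h⟯) :
    ∃ a b : Algebra.adjoin A0 {AdjoinSimple.gen K0 h}, b ≠ 0 ∧
      m * (b : K0⟮h⟯) = (a : K0⟮h⟯) := by
  obtain ⟨r, s, hrs⟩ := (mem_adjoin_simple_iff K0 (m : F')).mp m.2
  by_cases hs : aeval h s = 0
  · refine ⟨0, 1, one_ne_zero, ?_⟩
    have hm : m = 0 := by
      apply Subtype.ext
      rw [hrs, hs, div_zero]
      rfl
    rw [hm, zero_mul]
    rfl
  obtain ⟨dr, hdrM, hdr⟩ := IsLocalization.integerNormalization_spec (nonZeroDivisors A0) r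
  obtain ⟨ds, hdsM, hds⟩ := IsLocalization.integerNormalization_spec (nonZeroDivisors A0) s
  set r' := IsLocalization.integerNormalization (nonZeroDivisors A0) r with hr'
  set s' := IsLocalization.integerNormalization (nonZeroDivisors A0) s with hs'
  have hdr0 : algebraMap A0 K0 dr ≠ 0 :=
    IsFractionRing.to_map_ne_zero_of_mem_nonZeroDivisors hdrM
  have hds0 : algebraMap A0 K0 ds ≠ 0 :=
    IsFractionRing.to_map_ne_zero_of_mem_nonZeroDivisors hdsM
  have her : ((aeval (AdjoinSimple.gen K0 h) r' : K0⟮h⟯) : F') =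
      algebraMap K0 F' (algebraMap A0 K0 dr) * aeval h r := by
    rw [coe_aeval_gen, hdr, ← algebraMap_smul K0 dr r, smul_eq_C_mul, map_mul, aeval_C]
  have hes : ((aeval (AdjoinSimple.gen K0 h) s' : K0⟮h⟯) : F') =
      algebraMap K0 F' (algebraMap A0 K0 ds) * aeval h s := by
    rw [coe_aeval_gen, hds, ← algebraMap_smul K0 ds s, smul_eq_C_mul, map_mul, aeval_C]
  have hmemr : aeval (AdjoinSimple.gen K0 h) r' ∈ Algebra.adjoin A0 {AdjoinSimple.gen K0 h} :=
    aeval_mem_adjoin_singleton A0 _
  have hmems : aeval (AdjoinSimple.gen K0 h) s' ∈ Algebra.adjoin A0 {AdjoinSimple.gen K0 h} :=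
    aeval_mem_adjoin_singleton A0 _
  have hsm : ∀ (d : A0) (x : K0⟮h⟯), ((d • x : K0⟮h⟯) : F') =
      algebraMap K0 F' (algebraMap A0 K0 d) * (x : F') := fun d x => by
    rw [Algebra.smul_def, IntermediateField.coe_mul, IsScalarTower.algebraMap_apply A0 K0 K0⟮h⟯]
    rfl
  refine ⟨ds • ⟨_, hmemr⟩, dr • ⟨_, hmems⟩, ?_, ?_⟩
  · intro h0
    have h1 := congrArg (fun x : Algebra.adjoin A0 {AdjoinSimple.gen K0 h} => ((x : K0⟮h⟯) : F')) h0
    simp only [Subalgebra.coe_smul, Subalgebra.coe_zero] at h1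
    rw [hsm, hes] at h1
    rcases mul_eq_zero.mp h1 with h3 | h3
    · exact hdr0 ((map_eq_zero _).mp h3)
    · rcases mul_eq_zero.mp h3 with h4 | h4
      · exact hds0 ((map_eq_zero _).mp h4)
      · exact hs h4
  · apply Subtype.ext
    simp only [Subalgebra.coe_smul]
    rw [IntermediateField.coe_mul, hsm, hsm, hes, her, hrs]
    field_simp

omit [IsDomain A0] in
/-- **(C5f)** the generator of `K0(h)` is transcendental over `A0` when `h` is transcendental
over `K0`. -/
theorem transcendental_gen (h : F') (hh : Transcendental K0 h) :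
    Transcendental A0 (AdjoinSimple.gen K0 h) := by
  rintro ⟨P, hP0, hP⟩
  apply hh
  refine ⟨P.map (algebraMap A0 K0),
    (Polynomial.map_ne_zero_iff (IsFractionRing.injective A0 K0)).mpr hP0, ?_⟩
  rw [← coe_aeval_gen, hP]
  rfl

end Chart

end Fermat.Agent.S18.CoverField
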