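import Mathlib
import Fermat.Agent.S18.ConstBase
import Fermat.Agent.S18.CoverField

/-!
# S18 (route K, bridge): `hconst` for the Kummer field over a cover `F# = F0[X]/(m0)`

For `ℓ = 2, 3` the abstract core theorem is applied to `F# = F0[X]/(m0)` (the function field of
the cover, `m0` an irreducible factor of the cover polynomial) and `E = F#(θ)`, `θ ^ p = Y`.
This file provides the hypothesis `hconst` in that situation, from the base statement
`F0 ∩ L = K0` (`hFL`), via `CoverField.exists_algebraMap_eq_of_coverHom` and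
`ConstBase.exists_algebraMap_eq_of_isIntegral_hom`.
-/

set_option autoImplicit false

open Polynomial

namespace Fermat.Agent.S18.ConstCover

open Fermat.Agent.S18.CoverField

variable {A0 K0 L F0 FL : Type*} [CommRing A0] [IsIntegrallyClosed A0]
  [Field K0] [Algebra A0 K0] [IsFractionRing A0 K0] [Field L] [IsAlgClosed L] [Algebra K0 L]
  [Field F0] [Algebra K0 F0] [Algebra A0 F0] [IsScalarTower A0 K0 F0]
  [Field FL] [Algebra L FL]

omit [IsAlgClosed L] in
/-- Compatibility of the cover homomorphism with the constants. -/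
theorem coverHom_algebraMap (ι : F0 →+* FL)
    (hι : ∀ c : K0, ι (algebraMap K0 F0 c) = algebraMap L FL (algebraMap K0 L c))
    (m0 : F0[X]) (c : K0) :
    coverHom ι m0 (algebraMap K0 (AdjoinRoot m0) c) =
      algebraMap L (AdjoinRoot (m0.map ι)) (algebraMap K0 L c) := by
  rw [AdjoinRoot.algebraMap_eq', RingHom.comp_apply, coverHom_of, hι, AdjoinRoot.algebraMap_eq',
    RingHom.comp_apply]

omit [IsAlgClosed L] [Algebra K0 L] in
/-- **`hFL` for the cover**: the constants of `F# = F0[X]/(m0)` inside `FL[X]/(ι m0)` are the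
constants of `K0`. -/
theorem hFL_cover (ι : F0 →+* FL)
    (hFL : ∀ x : F0, (∃ c : L, ι x = algebraMap L FL c) → ∃ a : K0, x = algebraMap K0 F0 a)
    (m0 : F0[X]) (hm0 : m0.Monic) (hdeg : 0 < m0.natDegree) :
    ∀ x : AdjoinRoot m0,
      (∃ c : L, coverHom ι m0 x = algebraMap L (AdjoinRoot (m0.map ι)) c) →
        ∃ a : K0, x = algebraMap K0 (AdjoinRoot m0) a :=
  fun x hx => exists_algebraMap_eq_of_coverHom ι hFL m0 hm0 hdeg x hx

/-- **`hconst` for the Kummer field over a cover**: `F# = F0[X]/(m0)` with `m0` and its image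
`ι m0` irreducible, `E = F#(θ)`, `θ ^ p = Y`, `[E : F#] = p`, `Y` not a `p`-th power in
`FL[X]/(ι m0)`. Every element of `E` integral over `A0` is a constant of `A0`. -/
theorem hconst_cover (ι : F0 →+* FL)
    (hι : ∀ c : K0, ι (algebraMap K0 F0 c) = algebraMap L FL (algebraMap K0 L c))
    (hFL : ∀ x : F0, (∃ c : L, ι x = algebraMap L FL c) → ∃ a : K0, x = algebraMap K0 F0 a)
    (m0 : F0[X]) (hm0 : m0.Monic) [Fact (Irreducible m0)] [Fact (Irreducible (m0.map ι))]
    (p : ℕ) (hp : p.Prime) (Y : AdjoinRoot m0)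
    (hY : ∀ z : AdjoinRoot (m0.map ι), z ^ p ≠ coverHom ι m0 Y)
    {E : Type*} [Field E] [Algebra (AdjoinRoot m0) E] [Algebra A0 E]
    [IsScalarTower A0 (AdjoinRoot m0) E]
    (θ : E) (hθ : θ ^ p = algebraMap (AdjoinRoot m0) E Y)
    (hdeg : Module.finrank (AdjoinRoot m0) E = p) :
    ∀ h : E, IsIntegral A0 h → ∃ a : A0, h = algebraMap A0 E a := by
  have hirr : Irreducible m0 := Fact.out
  have hpos : 0 < m0.natDegree := Irreducible.natDegree_pos hirr
  intro h hh
  exact ConstBase.exists_algebraMap_eq_of_isIntegral_hom (coverHom ι m0)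
    (coverHom_algebraMap ι hι m0) (hFL_cover ι hFL m0 hm0 hpos) p hp Y hY θ hθ hdeg h hh

end Fermat.Agent.S18.ConstCover
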