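import Mathlib

/-
S18, route K, bridge (H3): *unramifiedness in valuation form*.

`O = W ∩ F` a discrete valuation ring of a field `F` with uniformizer `ϖ`, `W` a valuation
subring of an extension `Ω = F(θ)`, where `θ` is a root of a monic `f ∈ O[X]` whose derivative
at `θ` is a unit of `W` (a simple root modulo the maximal ideal).  Then the value group of `W`
is generated by the value of `ϖ`:  `W` is a discrete valuation ring with uniformizer `ϖ`.
No irreducibility of `f`, no discriminant, no Dedekind domains.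

Kummer case: `θ ^ p = y` with `p` a unit of `O` and `ord y` divisible by `p`.

Mathlib only.
-/

namespace Fermat.Agent.S18.KummerUnram

open Polynomial IsLocalRing

section Pre

variable {D Ω : Type*} [CommRing D] [Field Ω] [Algebra D Ω]

/-- values of integral polynomials at an integral element lie in the valuation ring. -/
theorem aeval_mem (W : ValuationSubring Ω) (hDW : ∀ x : D, algebraMap D Ω x ∈ W)
    (θ : Ω) (hθW : θ ∈ W) (q : D[X]) : aeval θ q ∈ W := by
  rw [aeval_eq_sum_range]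
  refine Subring.sum_mem W.toSubring fun i _ => ?_
  rw [Algebra.smul_def]
  exact W.mul_mem _ _ (hDW _) (W.pow_mem hθW i)

/-- an element of `Ω` integral over `D` lies in `W`. -/
theorem mem_of_isIntegral (W : ValuationSubring Ω) (hDW : ∀ x : D, algebraMap D Ω x ∈ W)
    (x : Ω) (hx : IsIntegral D x) : x ∈ W := by
  obtain ⟨p, hp, hpx⟩ := hx
  let φ : D →+* W := (algebraMap D Ω).codRestrict W.toSubring hDW
  have h1 : IsIntegral W x := by
    refine ⟨p.map φ, hp.map φ, ?_⟩
    rw [eval₂_map]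
    exact hpx
  obtain ⟨y, rfl⟩ := IsIntegrallyClosed.isIntegral_iff.mp h1
  exact y.2

end Pre

section Core

variable {D Ω : Type*} [CommRing D] [IsDomain D] [IsDiscreteValuationRing D] [Field Ω]
  [Algebra D Ω]

theorem ker_map_residue (ϖ : D) (hϖ : Irreducible ϖ) (r : D[X])
    (hr : r.map (residue D) = 0) : ∃ d : D[X], r = C ϖ * d := by
  have h1 : r ∈ RingHom.ker (mapRingHom (residue D)) := by
    rw [RingHom.mem_ker, coe_mapRingHom, hr]
  rw [Polynomial.ker_mapRingHom, ker_residue, hϖ.maximalIdeal_eq, Ideal.map_span,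
    Set.image_singleton, Ideal.mem_span_singleton'] at h1
  obtain ⟨a, ha⟩ := h1
  exact ⟨a, by rw [← ha, mul_comm]⟩

/-- **Local generation.** -/
theorem exists_cofactor (W : ValuationSubring Ω) (hDW : ∀ x : D, algebraMap D Ω x ∈ W)
    (hloc : ∀ x : D, x ∈ maximalIdeal D → W.valuation (algebraMap D Ω x) < 1)
    (ϖ : D) (hϖ : Irreducible ϖ) (f : D[X]) (hf : f.Monic) (θ : Ω) (hθ : aeval θ f = 0)
    (hder : W.valuation (aeval θ (derivative f)) = 1) :
    ∃ h : D[X], W.valuation (aeval θ h) = 1 ∧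
      ∀ q : D[X], W.valuation (aeval θ q) < 1 →
        ∃ d : D[X], aeval θ q * aeval θ h = algebraMap D Ω ϖ * aeval θ d := by
  have hθW : θ ∈ W := mem_of_isIntegral W hDW θ ⟨f, hf, hθ⟩
  have hW : ∀ q : D[X], aeval θ q ∈ W := aeval_mem W hDW θ hθW
  have hle : ∀ q : D[X], W.valuation (aeval θ q) ≤ 1 := fun q =>
    (W.valuation_le_one_iff _).mpr (hW q)
  let 𝔮 : Ideal D[X] :=
    { carrier := {q | W.valuation (aeval θ q) < 1}
      add_mem' := fun {a b} ha hb => by
        simp only [Set.mem_ofPred_eq, map_add] at *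
        exact lt_of_le_of_lt (W.valuation.map_add _ _) (max_lt ha hb)
      zero_mem' := by simp
      smul_mem' := fun c q hq => by
        simp only [Set.mem_ofPred_eq, smul_eq_mul, map_mul] at *
        calc W.valuation (aeval θ c) * W.valuation (aeval θ q)
            ≤ 1 * W.valuation (aeval θ q) := mul_le_mul_left (hle c) _
          _ < 1 := by simpa using hq }
  have hmem : ∀ q : D[X], q ∈ 𝔮 ↔ W.valuation (aeval θ q) < 1 := fun q => Iff.rfl
  set κ := ResidueField D
  let π' : D[X] →+* κ[X] := mapRingHom (residue D)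
  have hπ' : Function.Surjective π' := map_surjective _ residue_surjective
  have hϖ𝔮 : C ϖ ∈ 𝔮 := by
    rw [hmem, aeval_C]
    exact hloc ϖ (by rw [hϖ.maximalIdeal_eq]; exact Ideal.mem_span_singleton_self ϖ)
  obtain ⟨g, hg⟩ := (IsPrincipalIdealRing.principal (𝔮.map π')).principal
  have hback : ∀ q : D[X], π' q ∈ 𝔮.map π' → q ∈ 𝔮 := by
    intro q hq
    rw [Ideal.mem_map_iff_of_surjective π' hπ'] at hq
    obtain ⟨q', hq', hqq'⟩ := hq
    obtain ⟨d, hd⟩ := ker_map_residue ϖ hϖ (q - q') (by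
      have : π' (q - q') = 0 := by rw [map_sub, hqq', sub_self]
      simpa [π'] using this)
    have : q = q' + C ϖ * d := by rw [← hd]; ring
    rw [this]
    exact 𝔮.add_mem hq' (𝔮.mul_mem_right _ hϖ𝔮)
  have hdvd : ∀ q : D[X], q ∈ 𝔮 → ∃ c : D[X], π' q = π' c * g := by
    intro q hq
    have h1 : π' q ∈ 𝔮.map π' := Ideal.mem_map_of_mem π' hq
    rw [hg] at h1
    obtain ⟨a, ha⟩ := Ideal.mem_span_singleton'.mp h1
    obtain ⟨c, rfl⟩ := hπ' a
    exact ⟨c, ha.symm⟩
  have hf𝔮 : f ∈ 𝔮 := by rw [hmem, hθ]; simp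
  obtain ⟨h, hh⟩ := hdvd f hf𝔮
  have hh1 : W.valuation (aeval θ h) = 1 := by
    rcases lt_or_eq_of_le (hle h) with hlt | heq
    · exfalso
      obtain ⟨e, he⟩ := hdvd h hlt
      have h2 : π' (derivative f) ∈ 𝔮.map π' := by
        have h3 : π' (derivative f) = derivative (π' f) := by
          simp [π', derivative_map]
        rw [h3, hh, he, hg]
        refine Ideal.mem_span_singleton'.mpr ⟨derivative (π' e) * g + π' e * derivative g
          + π' e * derivative g, ?_⟩
        simp only [derivative_mul]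
        ring
      have h4 := hback _ h2
      rw [hmem, hder] at h4
      exact lt_irrefl _ h4
    · exact heq
  refine ⟨h, hh1, fun q hq => ?_⟩
  obtain ⟨c, hc⟩ := hdvd q hq
  obtain ⟨d, hd⟩ := ker_map_residue ϖ hϖ (q * h - f * c) (by
    have : π' (q * h - f * c) = 0 := by
      rw [map_sub, map_mul, map_mul, hc, hh]; ring
    simpa [π'] using this)
  refine ⟨d, ?_⟩
  have h5 := congrArg (aeval θ) hd
  simp only [map_sub, map_mul, hθ, zero_mul, sub_zero, aeval_C] at h5
  exact h5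

/-- **Termination.** Every nonzero element of `D[θ]` has valuation a power of that of the
uniformizer. -/
theorem valuation_aeval_eq_pow (W : ValuationSubring Ω) (hDW : ∀ x : D, algebraMap D Ω x ∈ W)
    (hloc : ∀ x : D, x ∈ maximalIdeal D → W.valuation (algebraMap D Ω x) < 1)
    (ϖ : D) (hϖ : Irreducible ϖ) (hϖ0 : algebraMap D Ω ϖ ≠ 0)
    (f : D[X]) (hf : f.Monic) (θ : Ω) (hθ : aeval θ f = 0)
    (hder : W.valuation (aeval θ (derivative f)) = 1)
    (b : D[X]) (hb : aeval θ b ≠ 0) :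
    ∃ n : ℕ, W.valuation (aeval θ b) = W.valuation (algebraMap D Ω ϖ) ^ n := by
  obtain ⟨h, hh1, hh⟩ := exists_cofactor W hDW hloc ϖ hϖ f hf θ hθ hder
  have hθW : θ ∈ W := mem_of_isIntegral W hDW θ ⟨f, hf, hθ⟩
  have hW : ∀ q : D[X], aeval θ q ∈ W := aeval_mem W hDW θ hθW
  have hle : ∀ q : D[X], W.valuation (aeval θ q) ≤ 1 := fun q =>
    (W.valuation_le_one_iff _).mpr (hW q)
  set s := aeval θ h with hs
  set ϖ' := algebraMap D Ω ϖ with hϖ'
  set x := s / ϖ' with hx
  have hvϖ : W.valuation ϖ' < 1 :=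
    hloc ϖ (by rw [hϖ.maximalIdeal_eq]; exact Ideal.mem_span_singleton_self ϖ)
  have hvϖ0 : W.valuation ϖ' ≠ 0 := (Valuation.ne_zero_iff _).mpr hϖ0
  have hvx : W.valuation x = (W.valuation ϖ')⁻¹ := by rw [hx, map_div₀, hh1, one_div]
  by_contra hcon
  push Not at hcon
  have hchain : ∀ n : ℕ, ∃ q : D[X], aeval θ q = aeval θ b * x ^ n := by
    intro n
    induction n with
    | zero => exact ⟨b, by simp⟩
    | succ n ih =>
      obtain ⟨q, hq⟩ := ih
      have hvq : W.valuation (aeval θ q) < 1 := by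
        rcases lt_or_eq_of_le (hle q) with hlt | heq
        · exact hlt
        · exfalso
          apply hcon n
          rw [hq, map_mul, map_pow, hvx, inv_pow, mul_inv_eq_one₀ (pow_ne_zero n hvϖ0)] at heq
          exact heq
      obtain ⟨d, hd⟩ := hh q hvq
      refine ⟨d, ?_⟩
      have h1 : aeval θ d = aeval θ q * s / ϖ' := by
        rw [hd, mul_div_cancel_left₀ _ hϖ0]
      rw [h1, hq, hx]
      ring
  let M : Submodule D Ω := Submodule.span D (Set.range fun n : ℕ => aeval θ b * x ^ n)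
  have hMle : M ≤ Subalgebra.toSubmodule (Algebra.adjoin D {θ}) := by
    refine Submodule.span_le.mpr ?_
    rintro _ ⟨n, rfl⟩
    obtain ⟨q, hq⟩ := hchain n
    change aeval θ b * x ^ n ∈ Algebra.adjoin D {θ}
    rw [← hq]
    exact aeval_mem_adjoin_singleton D θ
  have hMfg : M.FG := Submodule.FG.of_le (IsIntegral.fg_adjoin_singleton ⟨f, hf, hθ⟩) hMle
  have hMne : M ≠ ⊥ := by
    intro hM
    have h0 : aeval θ b * x ^ 0 ∈ M := Submodule.subset_span ⟨0, rfl⟩
    rw [hM, Submodule.mem_bot, pow_zero, mul_one] at h0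
    exact hb h0
  have hxM : ∀ m ∈ M, x • m ∈ M := by
    intro m hm
    induction hm using Submodule.span_induction with
    | mem y hy =>
      obtain ⟨n, rfl⟩ := hy
      refine Submodule.subset_span ⟨n + 1, ?_⟩
      simp only [smul_eq_mul, pow_succ]
      ring
    | zero => simp
    | add y z _ _ hy hz => rw [smul_add]; exact M.add_mem hy hz
    | smul r y _ hy => rw [smul_comm]; exact M.smul_mem r hy
  have hint : IsIntegral D x := isIntegral_of_smul_mem_submodule M hMne hMfg x hxM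
  have hxW : x ∈ W := mem_of_isIntegral W hDW x hint
  have h2 : W.valuation x ≤ 1 := (W.valuation_le_one_iff _).mpr hxW
  rw [hvx, inv_le_one₀ (zero_lt_iff.mpr hvϖ0)] at h2
  exact absurd hvϖ (not_lt.mpr h2)

end Core

section Field

variable {F Ω : Type*} [Field F] [Field Ω] [Algebra F Ω]

/-- a unit of `O = W ∩ F` has valuation one. -/
theorem valuation_unit_of_comap (W : ValuationSubring Ω) (O : ValuationSubring F)
    (hO : W.comap (algebraMap F Ω) = O) (u : Oˣ) :
    W.valuation (algebraMap F Ω ((u : O) : F)) = 1 := by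
  have hmemO : ∀ x : F, algebraMap F Ω x ∈ W ↔ x ∈ O := fun x => by
    rw [← hO, ValuationSubring.mem_comap]
  have h1 : W.valuation (algebraMap F Ω ((u : O) : F)) ≤ 1 :=
    (W.valuation_le_one_iff _).mpr ((hmemO _).mpr (u : O).2)
  have h2 : W.valuation (algebraMap F Ω (((u⁻¹ : Oˣ) : O) : F)) ≤ 1 :=
    (W.valuation_le_one_iff _).mpr ((hmemO _).mpr ((u⁻¹ : Oˣ) : O).2)
  have h3 : W.valuation (algebraMap F Ω ((u : O) : F)) *
      W.valuation (algebraMap F Ω (((u⁻¹ : Oˣ) : O) : F)) = 1 := by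
    rw [← map_mul, ← map_mul]
    have : ((u : O) : F) * (((u⁻¹ : Oˣ) : O) : F) = 1 := by
      exact congrArg (Subtype.val) (u.mul_inv)
    rw [this, map_one, map_one]
  refine le_antisymm h1 ?_
  calc (1 : W.ValueGroup) = W.valuation (algebraMap F Ω ((u : O) : F)) *
        W.valuation (algebraMap F Ω (((u⁻¹ : Oˣ) : O) : F)) := h3.symm
    _ ≤ W.valuation (algebraMap F Ω ((u : O) : F)) * 1 := mul_le_mul_right h2 _
    _ = _ := mul_one _

/-- a non-unit of `O = W ∩ F` has valuation `< 1`. -/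
theorem valuation_lt_one_of_comap (W : ValuationSubring Ω) (O : ValuationSubring F)
    (hO : W.comap (algebraMap F Ω) = O) (x : O) (hx : x ∈ maximalIdeal O) :
    W.valuation (algebraMap F Ω (x : F)) < 1 := by
  have hmemO : ∀ x : F, algebraMap F Ω x ∈ W ↔ x ∈ O := fun x => by
    rw [← hO, ValuationSubring.mem_comap]
  rcases lt_or_eq_of_le ((W.valuation_le_one_iff _).mpr ((hmemO _).mpr x.2)) with hlt | heq
  · exact hlt
  · exfalso
    have hx0 : (x : F) ≠ 0 := by
      intro h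
      rw [h, map_zero, map_zero] at heq
      exact zero_ne_one heq
    have h1 : (algebraMap F Ω (x : F))⁻¹ ∈ W := by
      rw [← W.valuation_le_one_iff, map_inv₀, heq, inv_one]
    rw [← map_inv₀, hmemO] at h1
    rw [mem_maximalIdeal, mem_nonunits_iff] at hx
    exact hx (IsUnit.of_mul_eq_one (⟨(x : F)⁻¹, h1⟩ : O) (Subtype.ext (by simp [hx0])))

/-- **(G), valuation form.** `O = W ∩ F` a discrete valuation ring with uniformizer `ϖ`, `θ` a
root of a monic `f ∈ O[X]` with `f'(θ)` a unit of `W`, `Ω = F(θ)`: then the value group of `W`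
is generated by the value of `ϖ`. -/
theorem valuation_eq_zpow (W : ValuationSubring Ω) (O : ValuationSubring F)
    [IsDiscreteValuationRing O] (hO : W.comap (algebraMap F Ω) = O) (ϖ : O) (hϖ : Irreducible ϖ)
    (f : F[X]) (hf : f.Monic) (hfO : ∀ i, f.coeff i ∈ O) (θ : Ω) (hθ : aeval θ f = 0)
    (hder : W.valuation (aeval θ (derivative f)) = 1)
    (hgen : IntermediateField.adjoin F {θ} = ⊤) :
    ∀ z : Ω, z ≠ 0 → ∃ n : ℤ, W.valuation z = W.valuation (algebraMap F Ω ϖ) ^ n := by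
  intro z hz
  let _ : Algebra O Ω := ((algebraMap F Ω).comp O.subtype).toAlgebra
  have : IsScalarTower O F Ω := IsScalarTower.of_algebraMap_eq fun _ => rfl
  have hmemO : ∀ x : F, algebraMap F Ω x ∈ W ↔ x ∈ O := fun x => by
    rw [← hO, ValuationSubring.mem_comap]
  have hDW : ∀ x : O, algebraMap O Ω x ∈ W := fun x => (hmemO x).mpr x.2
  have hloc : ∀ x : O, x ∈ maximalIdeal O → W.valuation (algebraMap O Ω x) < 1 :=
    fun x hx => valuation_lt_one_of_comap W O hO x hx
  have hϖ0 : algebraMap O Ω ϖ ≠ 0 := by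
    change algebraMap F Ω (ϖ : F) ≠ 0
    rw [Ne, map_eq_zero]
    exact fun h => hϖ.ne_zero (Subtype.ext h)
  have hlift : f ∈ Polynomial.lifts (algebraMap O F) := by
    rw [lifts_iff_coeff_lifts]
    exact fun n => ⟨⟨f.coeff n, hfO n⟩, rfl⟩
  obtain ⟨fO, hfO1, -, hfOm⟩ := lifts_and_degree_eq_and_monic hlift hf
  have hθ' : aeval θ fO = 0 := by
    rw [← aeval_map_algebraMap F, hfO1]; exact hθ
  have hder' : W.valuation (aeval θ (derivative fO)) = 1 := by
    rw [← aeval_map_algebraMap F, ← derivative_map, hfO1]; exact hder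
  have halg : IsAlgebraic F θ := ⟨f, hf.ne_zero, hθ⟩
  have hz' : z ∈ Algebra.adjoin F {θ} := by
    have h1 := IntermediateField.adjoin_simple_toSubalgebra_of_isAlgebraic halg
    rw [hgen] at h1
    rw [← h1]
    trivial
  rw [Algebra.adjoin_singleton_eq_range_aeval] at hz'
  obtain ⟨Q, hQ⟩ := hz'
  have hQ' : aeval θ Q = z := hQ
  subst hQ'
  obtain ⟨c, hc, hcQ⟩ := IsLocalization.integerNormalization_spec (nonZeroDivisors O) Q
  set q := IsLocalization.integerNormalization (nonZeroDivisors O) Q with hq_def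
  have hc0 : c ≠ 0 := nonZeroDivisors.ne_zero hc
  have hq : aeval θ q = algebraMap F Ω (c : F) * aeval θ Q := by
    rw [← aeval_map_algebraMap F, hcQ, ← algebraMap_smul F c Q, map_smul, Algebra.smul_def]
    rfl
  have hcΩ : algebraMap F Ω (c : F) ≠ 0 := by
    rw [Ne, map_eq_zero]
    exact fun h => hc0 (Subtype.ext h)
  have hq0 : aeval θ q ≠ 0 := by rw [hq]; exact mul_ne_zero hcΩ hz
  obtain ⟨n, hn⟩ := valuation_aeval_eq_pow W hDW hloc ϖ hϖ hϖ0 fO hfOm θ hθ' hder' q hq0
  obtain ⟨m, u, hu⟩ := IsDiscreteValuationRing.eq_unit_mul_pow_irreducible hc0 hϖ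
  have hvc : W.valuation (algebraMap F Ω (c : F)) = W.valuation (algebraMap F Ω (ϖ : F)) ^ m := by
    have h1 : (c : F) = ((u : O) : F) * (ϖ : F) ^ m := by rw [hu]; rfl
    rw [h1, map_mul, map_mul, map_pow, map_pow, valuation_unit_of_comap W O hO u, one_mul]
  have hv0 : W.valuation (algebraMap F Ω (ϖ : F)) ≠ 0 := (Valuation.ne_zero_iff _).mpr hϖ0
  refine ⟨(n : ℤ) - m, ?_⟩
  rw [zpow_sub₀ hv0, zpow_natCast, zpow_natCast, ← hvc]
  rw [eq_div_iff ((Valuation.ne_zero_iff _).mpr hcΩ), mul_comm, ← map_mul, ← hq]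
  exact hn

end Field

section Shapes

variable {Ω : Type*} [Field Ω]

/-- If all values are integral powers of the value of `t` and `v t < 1`, then `t` generates the
maximal ideal of `W`. -/
theorem exists_eq_mul_of_zpow (W : ValuationSubring Ω) (t : Ω) (ht : W.valuation t < 1)
    (ht0 : t ≠ 0) (h : ∀ z : Ω, z ≠ 0 → ∃ n : ℤ, W.valuation z = W.valuation t ^ n) :
    ∀ z ∈ W, z⁻¹ ∉ W → ∃ z' ∈ W, z = t * z' := by
  intro z hz hz'
  have hz0 : z ≠ 0 := by
    rintro rfl
    exact hz' (by rw [inv_zero]; exact W.zero_mem)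
  obtain ⟨n, hn⟩ := h z hz0
  have hv0 : 0 < W.valuation t := zero_lt_iff.mpr ((Valuation.ne_zero_iff _).mpr ht0)
  have hzlt : W.valuation z < 1 := by
    rcases lt_or_eq_of_le ((W.valuation_le_one_iff z).mpr hz) with h1 | h1
    · exact h1
    · exfalso
      apply hz'
      rw [← W.valuation_le_one_iff, map_inv₀, h1, inv_one]
  have hn1 : 1 ≤ n := by
    by_contra hcon
    have h2 := one_le_zpow_of_nonpos₀ hv0 ht.le (show n ≤ 0 by omega)
    rw [← hn] at h2
    exact absurd hzlt (not_lt.mpr h2)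
  refine ⟨z / t, ?_, by field_simp⟩
  rw [← W.valuation_le_one_iff, map_div₀, hn, div_eq_mul_inv, ← zpow_sub_one₀ hv0.ne']
  exact zpow_le_one₀ hv0 ht.le (by omega)

/-- If all values are integral powers of the value of `t` and `v t < 1`, then `W` is a discrete
valuation ring. -/
theorem isDiscreteValuationRing_of_zpow (W : ValuationSubring Ω) (t : Ω)
    (ht : W.valuation t < 1) (ht0 : t ≠ 0)
    (h : ∀ z : Ω, z ≠ 0 → ∃ n : ℤ, W.valuation z = W.valuation t ^ n) :
    IsDiscreteValuationRing W := by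
  have htW : t ∈ W := (W.valuation_le_one_iff t).mp ht.le
  have hv0 : 0 < W.valuation t := zero_lt_iff.mpr ((Valuation.ne_zero_iff _).mpr ht0)
  have hgenr := exists_eq_mul_of_zpow W t ht ht0 h
  have hnu : ∀ a : W, ¬ IsUnit a → ∃ a' : W, a = ⟨t, htW⟩ * a' := by
    intro a ha
    by_cases ha0 : a = 0
    · exact ⟨0, by rw [ha0, mul_zero]⟩
    have ha0' : (a : Ω) ≠ 0 := fun h0 => ha0 (Subtype.ext h0)
    have ha1 : (a : Ω)⁻¹ ∉ W := fun hinv =>
      ha (IsUnit.of_mul_eq_one (⟨(a : Ω)⁻¹, hinv⟩ : W) (Subtype.ext (by simp [ha0'])))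
    obtain ⟨z', hz', hz⟩ := hgenr a a.2 ha1
    exact ⟨⟨z', hz'⟩, Subtype.ext hz⟩
  have htnu : ¬ IsUnit (⟨t, htW⟩ : W) := by
    rw [W.valuation_eq_one_iff]
    exact ht.ne
  refine IsDiscreteValuationRing.ofHasUnitMulPowIrreducibleFactorization
    ⟨⟨t, htW⟩, ?_, ?_⟩
  · rw [irreducible_iff]
    refine ⟨htnu, fun a b hab => ?_⟩
    by_contra hcon
    push Not at hcon
    obtain ⟨a', ha'⟩ := hnu a hcon.1
    obtain ⟨b', hb'⟩ := hnu b hcon.2
    apply htnu
    have h1 : (⟨t, htW⟩ : W) * 1 = ⟨t, htW⟩ * (a' * ⟨t, htW⟩ * b') := by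
      rw [mul_one]
      conv_lhs => rw [hab, ha', hb']
      ring
    have ht0' : (⟨t, htW⟩ : W) ≠ 0 := fun h0 => ht0 (congrArg Subtype.val h0)
    have h2 := mul_left_cancel₀ ht0' h1
    exact IsUnit.of_mul_eq_one (a' * b') (by rw [h2]; ring)
  · intro x hx
    have hx0 : (x : Ω) ≠ 0 := fun h0 => hx (Subtype.ext h0)
    obtain ⟨n, hn⟩ := h x hx0
    have hxle : W.valuation (x : Ω) ≤ 1 := (W.valuation_le_one_iff _).mpr x.2
    have hn0 : 0 ≤ n := by
      by_contra hcon
      have h2 := one_lt_zpow_of_neg₀ hv0 ht (show n < 0 by omega)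
      rw [← hn] at h2
      exact absurd hxle (not_le.mpr h2)
    obtain ⟨k, rfl⟩ := Int.eq_ofNat_of_zero_le hn0
    rw [zpow_natCast] at hn
    have hu1 : W.valuation ((x : Ω) / t ^ k) = 1 := by
      rw [map_div₀, map_pow, hn, div_self (pow_ne_zero k hv0.ne')]
    have huW : (x : Ω) / t ^ k ∈ W := (W.valuation_le_one_iff _).mp hu1.le
    have huu : IsUnit (⟨(x : Ω) / t ^ k, huW⟩ : W) := (W.valuation_eq_one_iff _).mpr hu1
    refine ⟨k, huu.unit, Subtype.ext ?_⟩
    simp only [IsUnit.unit_spec, MulMemClass.coe_mul, SubmonoidClass.coe_pow]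
    field_simp

end Shapes

section Kummer

variable {F Ω : Type*} [Field F] [Field Ω] [Algebra F Ω]

/-- the uniformizer of `O = W ∩ F` has value `< 1` and is nonzero in `Ω`. -/
theorem valuation_uniformizer_lt_one (W : ValuationSubring Ω) (O : ValuationSubring F)
    (hO : W.comap (algebraMap F Ω) = O) (ϖ : O) (hϖ : Irreducible ϖ) :
    W.valuation (algebraMap F Ω ϖ) < 1 ∧ algebraMap F Ω (ϖ : F) ≠ 0 := by
  refine ⟨valuation_lt_one_of_comap W O hO ϖ ?_, ?_⟩
  · rw [mem_maximalIdeal, mem_nonunits_iff]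
    exact hϖ.not_isUnit
  · rw [Ne, map_eq_zero]
    exact fun h => hϖ.ne_zero (Subtype.ext h)

/-- an element of `F` which is a unit of `O = W ∩ F` has value one. -/
theorem valuation_eq_one_of_mem (W : ValuationSubring Ω) (O : ValuationSubring F)
    (hO : W.comap (algebraMap F Ω) = O) (x : F) (hx0 : x ≠ 0) (hx : x ∈ O) (hx' : x⁻¹ ∈ O) :
    W.valuation (algebraMap F Ω x) = 1 := by
  have hu : IsUnit (⟨x, hx⟩ : O) :=
    IsUnit.of_mul_eq_one (⟨x⁻¹, hx'⟩ : O) (Subtype.ext (by simp [hx0]))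
  exact valuation_unit_of_comap W O hO hu.unit

/-- **(G), generator form**: `ϖ` generates the maximal ideal of `W`. -/
theorem exists_eq_mul (W : ValuationSubring Ω) (O : ValuationSubring F)
    [IsDiscreteValuationRing O] (hO : W.comap (algebraMap F Ω) = O) (ϖ : O) (hϖ : Irreducible ϖ)
    (f : F[X]) (hf : f.Monic) (hfO : ∀ i, f.coeff i ∈ O) (θ : Ω) (hθ : aeval θ f = 0)
    (hder : W.valuation (aeval θ (derivative f)) = 1)
    (hgen : IntermediateField.adjoin F {θ} = ⊤) :
    ∀ z ∈ W, z⁻¹ ∉ W → ∃ z' ∈ W, z = algebraMap F Ω ϖ * z' :=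
  exists_eq_mul_of_zpow W _ (valuation_uniformizer_lt_one W O hO ϖ hϖ).1
    (valuation_uniformizer_lt_one W O hO ϖ hϖ).2
    (valuation_eq_zpow W O hO ϖ hϖ f hf hfO θ hθ hder hgen)

/-- **(G), DVR form**. -/
theorem isDiscreteValuationRing (W : ValuationSubring Ω) (O : ValuationSubring F)
    [IsDiscreteValuationRing O] (hO : W.comap (algebraMap F Ω) = O) (ϖ : O) (hϖ : Irreducible ϖ)
    (f : F[X]) (hf : f.Monic) (hfO : ∀ i, f.coeff i ∈ O) (θ : Ω) (hθ : aeval θ f = 0)
    (hder : W.valuation (aeval θ (derivative f)) = 1)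
    (hgen : IntermediateField.adjoin F {θ} = ⊤) :
    IsDiscreteValuationRing W :=
  isDiscreteValuationRing_of_zpow W _ (valuation_uniformizer_lt_one W O hO ϖ hϖ).1
    (valuation_uniformizer_lt_one W O hO ϖ hϖ).2
    (valuation_eq_zpow W O hO ϖ hϖ f hf hfO θ hθ hder hgen)

/-- **(K) Kummer, valuation form.** `O = W ∩ F` a DVR with uniformizer `ϖ`, `p` a unit of `O`,
`y ∈ F` of order `p * m` (i.e. `y * ϖ ^ (-(p*m))` is a unit of `O`), `θ ^ p = y`, `Ω = F(θ)`:
the value group of `W` is generated by the value of `ϖ` (the Kummer extension is unramified at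
`W`). -/
theorem kummer_valuation_eq_zpow (W : ValuationSubring Ω) (O : ValuationSubring F)
    [IsDiscreteValuationRing O] (hO : W.comap (algebraMap F Ω) = O) (ϖ : O) (hϖ : Irreducible ϖ)
    (p : ℕ) (hp : (p : F) ≠ 0) (hpO : (p : F)⁻¹ ∈ O) (y : F) (hy0 : y ≠ 0) (m : ℤ)
    (hy : y * (ϖ : F) ^ (-((p : ℤ) * m)) ∈ O)
    (hy' : (y * (ϖ : F) ^ (-((p : ℤ) * m)))⁻¹ ∈ O)
    (θ : Ω) (hθ : θ ^ p = algebraMap F Ω y) (hgen : IntermediateField.adjoin F {θ} = ⊤) :
    ∀ z : Ω, z ≠ 0 → ∃ n : ℤ, W.valuation z = W.valuation (algebraMap F Ω ϖ) ^ n := by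
  have hϖF : (ϖ : F) ≠ 0 := fun h => hϖ.ne_zero (Subtype.ext h)
  have hϖΩ : algebraMap F Ω (ϖ : F) ≠ 0 := (valuation_uniformizer_lt_one W O hO ϖ hϖ).2
  set u : F := y * (ϖ : F) ^ (-((p : ℤ) * m)) with hu
  have hu0 : u ≠ 0 := mul_ne_zero hy0 (zpow_ne_zero _ hϖF)
  set θ' : Ω := θ * (algebraMap F Ω ϖ) ^ (-m) with hθ'
  have hp0 : p ≠ 0 := by
    rintro rfl
    simp at hp
  have hθ'p : θ' ^ p = algebraMap F Ω u := by
    rw [hθ', mul_pow, hθ, hu, map_mul, map_zpow₀]
    congr 1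
    rw [← zpow_natCast, ← zpow_mul]
    congr 1
    ring
  have hf : (X ^ p - C u : F[X]).Monic := monic_X_pow_sub_C u hp0
  have hfO : ∀ i, (X ^ p - C u : F[X]).coeff i ∈ O := by
    intro i
    rw [coeff_sub, coeff_X_pow, coeff_C]
    refine O.sub_mem ?_ ?_
    · split_ifs
      · exact O.one_mem
      · exact O.zero_mem
    · split_ifs
      · exact hy
      · exact O.zero_mem
  have hroot : aeval θ' (X ^ p - C u : F[X]) = 0 := by
    simp [hθ'p]
  have hvu : W.valuation (algebraMap F Ω u) = 1 :=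
    valuation_eq_one_of_mem W O hO u hu0 hy hy'
  have hvθ' : W.valuation θ' = 1 := by
    have h1 : W.valuation θ' ^ p = 1 := by rw [← map_pow, hθ'p, hvu]
    exact (pow_eq_one_iff_of_nonneg zero_le hp0).mp h1
  have hvp : W.valuation (p : Ω) = 1 := by
    have h1 := valuation_eq_one_of_mem W O hO (p : F) hp (natCast_mem O p) hpO
    rwa [map_natCast] at h1
  have hder : W.valuation (aeval θ' (derivative (X ^ p - C u : F[X]))) = 1 := by
    simp only [derivative_sub, derivative_X_pow, derivative_C, sub_zero, map_mul,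
      map_natCast, map_pow, aeval_X, hvp, hvθ', one_pow, mul_one]
  have hgen' : IntermediateField.adjoin F {θ'} = ⊤ := by
    rw [eq_top_iff, ← hgen, IntermediateField.adjoin_simple_le_iff]
    have h1 : θ = θ' * (algebraMap F Ω ϖ) ^ m := by
      rw [hθ', mul_assoc, ← zpow_add₀ hϖΩ, neg_add_cancel, zpow_zero, mul_one]
    rw [h1]
    exact mul_mem (IntermediateField.mem_adjoin_simple_self F θ')
      (zpow_mem (IntermediateField.algebraMap_mem _ _) m)
  exact valuation_eq_zpow W O hO ϖ hϖ _ hf hfO θ' hroot hder hgen'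

/-- **(K) Kummer, generator form**. -/
theorem kummer_exists_eq_mul (W : ValuationSubring Ω) (O : ValuationSubring F)
    [IsDiscreteValuationRing O] (hO : W.comap (algebraMap F Ω) = O) (ϖ : O) (hϖ : Irreducible ϖ)
    (p : ℕ) (hp : (p : F) ≠ 0) (hpO : (p : F)⁻¹ ∈ O) (y : F) (hy0 : y ≠ 0) (m : ℤ)
    (hy : y * (ϖ : F) ^ (-((p : ℤ) * m)) ∈ O)
    (hy' : (y * (ϖ : F) ^ (-((p : ℤ) * m)))⁻¹ ∈ O)
    (θ : Ω) (hθ : θ ^ p = algebraMap F Ω y) (hgen : IntermediateField.adjoin F {θ} = ⊤) :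
    ∀ z ∈ W, z⁻¹ ∉ W → ∃ z' ∈ W, z = algebraMap F Ω ϖ * z' :=
  exists_eq_mul_of_zpow W _ (valuation_uniformizer_lt_one W O hO ϖ hϖ).1
    (valuation_uniformizer_lt_one W O hO ϖ hϖ).2
    (kummer_valuation_eq_zpow W O hO ϖ hϖ p hp hpO y hy0 m hy hy' θ hθ hgen)

/-- **(K) Kummer, DVR form**. -/
theorem kummer_isDiscreteValuationRing (W : ValuationSubring Ω) (O : ValuationSubring F)
    [IsDiscreteValuationRing O] (hO : W.comap (algebraMap F Ω) = O) (ϖ : O) (hϖ : Irreducible ϖ)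
    (p : ℕ) (hp : (p : F) ≠ 0) (hpO : (p : F)⁻¹ ∈ O) (y : F) (hy0 : y ≠ 0) (m : ℤ)
    (hy : y * (ϖ : F) ^ (-((p : ℤ) * m)) ∈ O)
    (hy' : (y * (ϖ : F) ^ (-((p : ℤ) * m)))⁻¹ ∈ O)
    (θ : Ω) (hθ : θ ^ p = algebraMap F Ω y) (hgen : IntermediateField.adjoin F {θ} = ⊤) :
    IsDiscreteValuationRing W :=
  isDiscreteValuationRing_of_zpow W _ (valuation_uniformizer_lt_one W O hO ϖ hϖ).1
    (valuation_uniformizer_lt_one W O hO ϖ hϖ).2
    (kummer_valuation_eq_zpow W O hO ϖ hϖ p hp hpO y hy0 m hy hy' θ hθ hgen)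

end Kummer

end Fermat.Agent.S18.KummerUnram
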