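/-
S18, route K, bridge (H3): the Kummer extension `F(θ)`, `θ ^ p = Y`, of a function field is
unramified at every place `P` of `F` at which `p ∣ ord_P Y` -- in valuation form, stated with
the prelude's `AlgebraicCurve.Place`.  (`KummerUnram` specialised to `O := P.toValuationSubring`.)
-/
import Fermat.Prelude.Def_AlgebraicCurve_DivisorClassGroup
import Fermat.Agent.S18.KummerUnram

namespace Fermat.Agent.S18.KummerPlace

open AlgebraicCurve Polynomial

variable {K F Ω : Type*} [Field K] [Field F] [Algebra K F] [Field Ω] [Algebra F Ω]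

/-- membership in the valuation ring of a place in terms of `ord`. -/
theorem mem_of_ord_nonneg (P : Place K F) (x : F) (hx : 0 ≤ P.ord x) :
    x ∈ P.toValuationSubring := by
  rcases eq_or_ne x 0 with rfl | hx0
  · exact P.toValuationSubring.zero_mem
  obtain ⟨π, hπ⟩ := IsDiscreteValuationRing.exists_irreducible P.toValuationSubring
  obtain ⟨u, hu⟩ := P.exists_unit_mul_zpow hx0 hπ
  rw [hu]
  obtain ⟨k, hk⟩ := Int.eq_ofNat_of_zero_le hx
  rw [hk, zpow_natCast]
  exact P.toValuationSubring.mul_mem _ _ (u : P.toValuationSubring).2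
    (P.toValuationSubring.pow_mem π.2 k)

/-- an element of order zero is a unit of the valuation ring of the place. -/
theorem inv_mem_of_ord_eq_zero (P : Place K F) (x : F) (hx : P.ord x = 0) :
    x ∈ P.toValuationSubring ∧ x⁻¹ ∈ P.toValuationSubring :=
  ⟨mem_of_ord_nonneg P x hx.ge, mem_of_ord_nonneg P x⁻¹ (by rw [Place.ord_inv, hx, neg_zero])⟩

/-- an element of order one is a uniformizer. -/
theorem exists_irreducible_of_ord_eq_one (P : Place K F) (t : F) (ht : P.ord t = 1) :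
    ∃ ϖ : P.toValuationSubring, Irreducible ϖ ∧ (ϖ : F) = t := by
  have ht0 : t ≠ 0 := by
    rintro rfl
    simp at ht
  obtain ⟨π, hπ⟩ := IsDiscreteValuationRing.exists_irreducible P.toValuationSubring
  obtain ⟨u, hu⟩ := P.exists_unit_mul_zpow ht0 hπ
  rw [ht, zpow_one] at hu
  refine ⟨(u : P.toValuationSubring) * π, ?_, hu.symm⟩
  exact (irreducible_units_mul u).mpr hπ

/-- **(P), general form**: `KummerUnram.valuation_eq_zpow` at a place. -/
theorem valuation_eq_zpow (P : Place K F) (W : ValuationSubring Ω)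
    (hW : W.comap (algebraMap F Ω) = P.toValuationSubring) (t : F) (ht : P.ord t = 1)
    (f : F[X]) (hf : f.Monic) (hfO : ∀ i, 0 ≤ P.ord (f.coeff i)) (θ : Ω) (hθ : aeval θ f = 0)
    (hder : W.valuation (aeval θ (derivative f)) = 1)
    (hgen : IntermediateField.adjoin F {θ} = ⊤) :
    ∀ z : Ω, z ≠ 0 → ∃ n : ℤ, W.valuation z = W.valuation (algebraMap F Ω t) ^ n := by
  obtain ⟨ϖ, hϖ, rfl⟩ := exists_irreducible_of_ord_eq_one P t ht
  exact KummerUnram.valuation_eq_zpow W P.toValuationSubring hW ϖ hϖ f hf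
    (fun i => mem_of_ord_nonneg P _ (hfO i)) θ hθ hder hgen

/-- **(P), Kummer form.** `P` a place of `F/K`, `p ≠ 0` in `K`, `p ∣ ord_P Y`, `θ ^ p = Y`,
`Ω = F(θ)`, `W` a valuation subring of `Ω` with `W ∩ F = O_P`, `t` a uniformizer at `P`:
the value group of `W` is generated by the value of `t`. -/
theorem kummer_valuation_eq_zpow (P : Place K F) (W : ValuationSubring Ω)
    (hW : W.comap (algebraMap F Ω) = P.toValuationSubring) (t : F) (ht : P.ord t = 1)
    (p : ℕ) (hp : (p : K) ≠ 0) (Y : F) (hY0 : Y ≠ 0) (hY : (p : ℤ) ∣ P.ord Y)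
    (θ : Ω) (hθ : θ ^ p = algebraMap F Ω Y) (hgen : IntermediateField.adjoin F {θ} = ⊤) :
    ∀ z : Ω, z ≠ 0 → ∃ n : ℤ, W.valuation z = W.valuation (algebraMap F Ω t) ^ n := by
  obtain ⟨ϖ, hϖ, rfl⟩ := exists_irreducible_of_ord_eq_one P t ht
  obtain ⟨m, hm⟩ := hY
  have hpF : (p : F) ≠ 0 := by
    have h1 : algebraMap K F (p : K) = (p : F) := map_natCast _ _
    rw [← h1, Ne, map_eq_zero]
    exact hp
  have hpO : (p : F)⁻¹ ∈ P.toValuationSubring := by
    have h1 : algebraMap K F ((p : K)⁻¹) = (p : F)⁻¹ := by rw [map_inv₀, map_natCast]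
    rw [← h1]
    exact P.algebraMap_mem' _
  have hϖF : (ϖ : F) ≠ 0 := fun h => hϖ.ne_zero (Subtype.ext h)
  have hord : P.ord (Y * (ϖ : F) ^ (-((p : ℤ) * m))) = 0 := by
    rw [P.ord_mul hY0 (zpow_ne_zero _ hϖF), P.ord_zpow, ht, hm]
    ring
  obtain ⟨h1, h2⟩ := inv_mem_of_ord_eq_zero P _ hord
  exact KummerUnram.kummer_valuation_eq_zpow W P.toValuationSubring hW ϖ hϖ p hpF hpO Y hY0 m
    h1 h2 θ hθ hgen

/-- **(P), Kummer, generator form**: a uniformizer `t` at `P` generates the maximal ideal of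
`W`. -/
theorem kummer_exists_eq_mul (P : Place K F) (W : ValuationSubring Ω)
    (hW : W.comap (algebraMap F Ω) = P.toValuationSubring) (t : F) (ht : P.ord t = 1)
    (p : ℕ) (hp : (p : K) ≠ 0) (Y : F) (hY0 : Y ≠ 0) (hY : (p : ℤ) ∣ P.ord Y)
    (θ : Ω) (hθ : θ ^ p = algebraMap F Ω Y) (hgen : IntermediateField.adjoin F {θ} = ⊤) :
    ∀ z ∈ W, z⁻¹ ∉ W → ∃ z' ∈ W, z = algebraMap F Ω t * z' := by
  obtain ⟨ϖ, hϖ, hϖt⟩ := exists_irreducible_of_ord_eq_one P t ht
  have h := KummerUnram.valuation_uniformizer_lt_one W P.toValuationSubring hW ϖ hϖ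
  rw [hϖt] at h
  exact KummerUnram.exists_eq_mul_of_zpow W _ h.1 h.2
    (kummer_valuation_eq_zpow P W hW t ht p hp Y hY0 hY θ hθ hgen)

/-- **(P), Kummer, DVR form**. -/
theorem kummer_isDiscreteValuationRing (P : Place K F) (W : ValuationSubring Ω)
    (hW : W.comap (algebraMap F Ω) = P.toValuationSubring) (t : F) (ht : P.ord t = 1)
    (p : ℕ) (hp : (p : K) ≠ 0) (Y : F) (hY0 : Y ≠ 0) (hY : (p : ℤ) ∣ P.ord Y)
    (θ : Ω) (hθ : θ ^ p = algebraMap F Ω Y) (hgen : IntermediateField.adjoin F {θ} = ⊤) :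
    IsDiscreteValuationRing W := by
  obtain ⟨ϖ, hϖ, hϖt⟩ := exists_irreducible_of_ord_eq_one P t ht
  have h := KummerUnram.valuation_uniformizer_lt_one W P.toValuationSubring hW ϖ hϖ
  rw [hϖt] at h
  exact KummerUnram.isDiscreteValuationRing_of_zpow W _ h.1 h.2
    (kummer_valuation_eq_zpow P W hW t ht p hp Y hY0 hY θ hθ hgen)

end Fermat.Agent.S18.KummerPlace
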