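/-
S18, route K, bridge (H3): the Kummer extension `E = F(θ)`, `θ ^ p = Y`, is unramified at every
place `P'` of `E` above a place `u` of `F` with `p ∣ ord_u Y` -- in the `ord` form consumed by
`ValExt` (`hE : ∀ P' : Place L E, ∃ ϖ : F, P'.ord (algebraMap F E ϖ) = 1`).
-/
import Fermat.Agent.S18.KummerPlace

namespace Fermat.Agent.S18.KummerOrd

open AlgebraicCurve Polynomial

variable {K F E : Type*} [Field K] [Field F] [Algebra K F] [Field E] [Algebra F E] [Algebra K E]

/-- A place has a uniformizer. -/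
theorem exists_ord_eq_one (u : Place K F) : ∃ t : F, u.ord t = 1 := by
  obtain ⟨π, hπ⟩ := IsDiscreteValuationRing.exists_irreducible u.toValuationSubring
  exact ⟨π, u.ord_coe_irreducible hπ⟩

/-- If `t` generates the maximal ideal of the valuation ring of a place, it has order one. -/
theorem ord_eq_one_of_generates (P' : Place K E) (x : E)
    (hx : x ∈ P'.toValuationSubring) (hx' : x⁻¹ ∉ P'.toValuationSubring)
    (hgen : ∀ z ∈ P'.toValuationSubring, z⁻¹ ∉ P'.toValuationSubring →
      ∃ z' ∈ P'.toValuationSubring, z = x * z') : P'.ord x = 1 := by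
  obtain ⟨π, hπ⟩ := IsDiscreteValuationRing.exists_irreducible P'.toValuationSubring
  have hπ0 : (π : E) ≠ 0 := fun h => hπ.ne_zero (Subtype.ext h)
  have hπinv : (π : E)⁻¹ ∉ P'.toValuationSubring := fun hinv =>
    hπ.not_isUnit (IsUnit.of_mul_eq_one (⟨(π : E)⁻¹, hinv⟩ : P'.toValuationSubring)
      (Subtype.ext (by simp [hπ0])))
  obtain ⟨z', hz', hz⟩ := hgen π π.2 hπinv
  have hx0 : x ≠ 0 := by
    rintro rfl
    exact hπ0 (by rw [hz, zero_mul])
  -- `x` is a non-unit, hence a multiple of `π`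
  have hxnu : ¬ IsUnit (⟨x, hx⟩ : P'.toValuationSubring) := by
    intro hu
    obtain ⟨y, hy⟩ := hu.exists_right_inv
    apply hx'
    have h1 : x * (y : E) = 1 := congrArg Subtype.val hy
    have h2 : x⁻¹ = (y : E) := by
      rw [inv_eq_iff_eq_inv]
      exact eq_inv_of_mul_eq_one_left h1
    rw [h2]
    exact y.2
  have hxm : (⟨x, hx⟩ : P'.toValuationSubring) ∈
      IsLocalRing.maximalIdeal P'.toValuationSubring := by
    rwa [IsLocalRing.mem_maximalIdeal, mem_nonunits_iff]
  rw [hπ.maximalIdeal_eq, Ideal.mem_span_singleton'] at hxm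
  obtain ⟨w, hw⟩ := hxm
  -- `π = x * z' = w * π * z'`, so `w * z' = 1`
  have hw' : x = (w : E) * (π : E) := (congrArg Subtype.val hw).symm
  have h1 : (w : E) * z' = 1 := by
    have h2 : (π : E) * ((w : E) * z') = (π : E) * 1 := by
      rw [mul_one]
      conv_rhs => rw [hz, hw']
      ring
    exact mul_left_cancel₀ hπ0 h2
  have hwu : IsUnit w :=
    IsUnit.of_mul_eq_one (⟨z', hz'⟩ : P'.toValuationSubring) (Subtype.ext h1)
  have hirr : Irreducible (⟨x, hx⟩ : P'.toValuationSubring) := by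
    rw [← hw]
    exact (irreducible_units_mul hwu.unit).mpr hπ
  exact P'.ord_coe_irreducible hirr

/-- **`hE` of `ValExt`, at one place.** `P'` a place of `E = F(θ)`, `θ ^ p = Y`, whose
restriction to `F` is the place `u`, with `p ∣ ord_u Y` and `p ≠ 0` in `K`: a uniformizer of `u`
is a uniformizer of `P'`. -/
theorem kummer_ord_eq_one (P' : Place K E) (u : Place K F)
    (hu : P'.toValuationSubring.comap (algebraMap F E) = u.toValuationSubring)
    (t : F) (ht : u.ord t = 1)
    (p : ℕ) (hp : (p : K) ≠ 0) (Y : F) (hY0 : Y ≠ 0) (hY : (p : ℤ) ∣ u.ord Y)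
    (θ : E) (hθ : θ ^ p = algebraMap F E Y) (hgen : IntermediateField.adjoin F {θ} = ⊤) :
    P'.ord (algebraMap F E t) = 1 := by
  obtain ⟨ϖ, hϖ, hϖt⟩ := KummerPlace.exists_irreducible_of_ord_eq_one u t ht
  have h := KummerUnram.valuation_uniformizer_lt_one P'.toValuationSubring u.toValuationSubring
    hu ϖ hϖ
  rw [hϖt] at h
  have hmem : algebraMap F E t ∈ P'.toValuationSubring :=
    (P'.toValuationSubring.valuation_le_one_iff _).mp h.1.le
  have hinv : (algebraMap F E t)⁻¹ ∉ P'.toValuationSubring := by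
    intro hinv
    have h1 := (P'.toValuationSubring.valuation_le_one_iff _).mpr hinv
    rw [map_inv₀, inv_le_one₀ (zero_lt_iff.mpr ((Valuation.ne_zero_iff _).mpr h.2))] at h1
    exact absurd h.1 (not_lt.mpr h1)
  exact ord_eq_one_of_generates P' _ hmem hinv
    (KummerPlace.kummer_exists_eq_mul u P'.toValuationSubring hu t ht p hp Y hY0 hY θ hθ hgen)

/-- **`hE` of `ValExt`.** If every place of `E` restricts to a place of `F` (`ValExt` (V3)) and
`p ∣ ord_u Y` at every place `u` of `F`, then `E = F(θ)`, `θ ^ p = Y`, is unramified over `F` at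
every place. -/
theorem kummer_exists_ord_eq_one
    (hres : ∀ P' : Place K E, ∃ u : Place K F,
      u.toValuationSubring = P'.toValuationSubring.comap (algebraMap F E))
    (p : ℕ) (hp : (p : K) ≠ 0) (Y : F) (hY0 : Y ≠ 0) (hY : ∀ u : Place K F, (p : ℤ) ∣ u.ord Y)
    (θ : E) (hθ : θ ^ p = algebraMap F E Y) (hgen : IntermediateField.adjoin F {θ} = ⊤) :
    ∀ P' : Place K E, ∃ ϖ : F, P'.ord (algebraMap F E ϖ) = 1 := by
  intro P'
  obtain ⟨u, hu⟩ := hres P'
  obtain ⟨t, ht⟩ := exists_ord_eq_one u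
  exact ⟨t, kummer_ord_eq_one P' u hu.symm t ht p hp Y hY0 (hY u) θ hθ hgen⟩

end Fermat.Agent.S18.KummerOrd
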