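import Mathlib
import Fermat.Prelude.Def_AlgebraicCurve_DivisorClassGroup
import Fermat.Agent.S24.FFBasic
import Fermat.Agent.S24.PlacesAbs

/-!
# S18 (bridge B3): extension and restriction of valuation rings, discreteness, and the
valuation form of "unramified over the base line"

* `exists_comap_eq`: a valuation subring extends along any field homomorphism.
* `exists_place_eq`: a nontrivial valuation subring of a function field in one variable
  (characteristic zero) which contains the constants is a `Place`.
* `exists_place_of_comap`: a valuation subring of a finite extension lying over a `Place`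
  is a `Place`.
* `exists_place_comap`: restriction of a `Place` to a subfield, with its ramification index.
* `div_mem_of_unramified`: a valuation subring `W` of a field `E0` over `K0`, centred on a
  separable polynomial `g` in the chart coordinate, has `g` as a uniformizer, as soon as the
  geometric function field is unramified over the roots of `g` and the geometric top field is
  unramified over it.
-/

set_option autoImplicit false

namespace Fermat.Agent.S18.ValExt

open AlgebraicCurve IsDedekindDomain Fermat.Agent.S24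

section Ext

variable {F E : Type*} [Field F] [Field E]

/-- (V1) A valuation subring extends along any homomorphism of fields. -/
theorem exists_comap_eq (φ : F →+* E) (W : ValuationSubring F) :
    ∃ W' : ValuationSubring E, W'.comap φ = W := by
  obtain ⟨A, h, hloc⟩ := IsLocalRing.exists_factor_valuationRing (φ.comp W.subtype)
  refine ⟨A, ?_⟩
  ext x
  rw [ValuationSubring.mem_comap]
  constructor
  · intro hx
    by_contra hxW
    have hx0 : x ≠ 0 := fun h0 => hxW (h0 ▸ zero_mem _)
    have hinv : x⁻¹ ∈ W := (W.mem_or_inv_mem x).resolve_left hxW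
    have hunit : IsUnit ((φ.comp W.subtype).codRestrict A.toSubring h ⟨x⁻¹, hinv⟩) := by
      refine isUnit_iff_exists_inv.mpr ⟨⟨φ x, hx⟩, ?_⟩
      apply Subtype.ext
      show φ x⁻¹ * φ x = 1
      rw [← map_mul, inv_mul_cancel₀ hx0, map_one]
    have hu : IsUnit (⟨x⁻¹, hinv⟩ : W) := hloc.map_nonunit _ hunit
    obtain ⟨b, hb⟩ := isUnit_iff_exists_inv.mp hu
    have hb' : x⁻¹ * (b : F) = 1 := congrArg Subtype.val hb
    have hbx : (b : F) = x := by
      have := congrArg (fun z => x * z) hb'
      simpa [← mul_assoc, mul_inv_cancel₀ hx0] using this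
    exact hxW (hbx ▸ b.2)
  · intro hx
    exact h ⟨x, hx⟩

/-- Valuation subrings are integrally closed: an element integral over a ring mapping into the
valuation subring lies in it. -/
theorem mem_of_isIntegralElem (V : ValuationSubring E) {R : Type*} [CommRing R] (ψ : R →+* E)
    (hψ : ∀ r, ψ r ∈ V) {y : E} (hy : ψ.IsIntegralElem y) : y ∈ V := by
  obtain ⟨p, hp, hpy⟩ := hy
  let ψ' : R →+* V := ψ.codRestrict V.toSubring hψ
  have hint : IsIntegral V y := by
    refine ⟨p.map ψ', hp.map ψ', ?_⟩
    rw [Polynomial.eval₂_map]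
    exact hpy
  obtain ⟨z, rfl⟩ := (IsIntegrallyClosed.isIntegral_iff (R := V)).mp hint
  exact z.2

/-- The restriction of a nontrivial valuation subring to a subfield over which the big field is
algebraic is nontrivial. -/
theorem comap_ne_top [Algebra F E] [Algebra.IsAlgebraic F E] (V' : ValuationSubring E)
    (hV' : V' ≠ ⊤) : V'.comap (algebraMap F E) ≠ ⊤ := by
  intro htop
  apply hV'
  refine SetLike.ext fun y => ⟨fun _ => ValuationSubring.mem_top y, fun _ => ?_⟩
  have hy : IsIntegral F y := Algebra.IsIntegral.isIntegral y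
  refine mem_of_isIntegralElem V' (algebraMap F E) (fun r => ?_) hy
  have hr : r ∈ V'.comap (algebraMap F E) := htop ▸ ValuationSubring.mem_top r
  exact hr

end Ext

section Dedekind

variable {K F : Type*} [Field K] [Field F] [Algebra K F]
variable {R : Type*} [CommRing R] [IsDedekindDomain R] [Algebra R F] [IsFractionRing R F]

/-- A nontrivial valuation subring containing a Dedekind domain with the same fraction field is
the valuation subring of one of its primes. -/
theorem exists_heightOneSpectrum_eq (V : ValuationSubring F) (hV : V ≠ ⊤)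
    (hR : ∀ b : R, algebraMap R F b ∈ V) :
    ∃ w : HeightOneSpectrum R, (w.valuation F).valuationSubring = V := by
  classical
  let φ : R →+* V := (algebraMap R F).codRestrict V.toSubring hR
  let P : Ideal R := (IsLocalRing.maximalIdeal V).comap φ
  have hPprime : P.IsPrime := Ideal.comap_isPrime φ _
  have hunit : ∀ b : R, b ∉ P → (algebraMap R F b)⁻¹ ∈ V := by
    intro b hb
    have h1 : IsUnit (φ b) := by
      by_contra hnu
      exact hb ((IsLocalRing.mem_maximalIdeal _).mpr hnu)
    obtain ⟨c, hc⟩ := isUnit_iff_exists_inv.mp h1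
    have hc' : algebraMap R F b * (c : F) = 1 := congrArg Subtype.val hc
    have h2 : (c : F) = (algebraMap R F b)⁻¹ := eq_inv_of_mul_eq_one_right hc'
    rw [← h2]
    exact c.2
  have hPbot : P ≠ ⊥ := by
    intro hbot
    apply hV
    refine SetLike.ext fun y => ⟨fun _ => ValuationSubring.mem_top y, fun _ => ?_⟩
    obtain ⟨a, s, hs, rfl⟩ := IsFractionRing.div_surjective (A := R) y
    have hs0 : s ≠ 0 := nonZeroDivisors.ne_zero hs
    have hsP : s ∉ P := by
      rw [hbot]
      simpa using hs0
    rw [div_eq_mul_inv]
    exact mul_mem (hR a) (hunit s hsP)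
  refine ⟨⟨P, hPprime, hPbot⟩, ?_⟩
  rw [← HeightOneSpectrum.valuationSubringAtPrime_eq_valuationSubring]
  refine ValuationSubring.eq_of_le_of_ne_top _ ?_ hV
  rintro f ⟨a, s, hs, rfl⟩
  exact mul_mem (hR a) (hunit s hs)

/-- A nontrivial valuation subring containing the constants and a Dedekind domain with the same
fraction field is a `Place`. -/
theorem exists_place_of_dedekind (V : ValuationSubring F) (hV : V ≠ ⊤)
    (hK : ∀ c : K, algebraMap K F c ∈ V) (hR : ∀ b : R, algebraMap R F b ∈ V) :
    ∃ v : Place K F, v.toValuationSubring = V := by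
  obtain ⟨w, hw⟩ := exists_heightOneSpectrum_eq V hV hR
  exact ⟨⟨V, hK, hV, hw ▸ Place.isPrincipalIdealRing_valuationSubring w⟩, rfl⟩

end Dedekind

section FunctionField

variable {K F : Type*} [Field K] [Field F] [Algebra K F]

open scoped IntermediateField

theorem adjoin_inv_eq (x : F) : K⟮x⁻¹⟯ = K⟮x⟯ := by
  apply le_antisymm
  · rw [IntermediateField.adjoin_simple_le_iff]
    exact inv_mem (IntermediateField.mem_adjoin_simple_self K x)
  · rw [IntermediateField.adjoin_simple_le_iff]
    have h := inv_mem (IntermediateField.mem_adjoin_simple_self K x⁻¹)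
    rwa [inv_inv] at h

theorem finiteDimensional_of_eq {S T : IntermediateField K F} (h : S = T)
    [FiniteDimensional S F] : FiniteDimensional T F := by
  subst h
  infer_instance

/-- (V2) **Discreteness.**  In a function field in one variable over a field `K` of
characteristic zero, every nontrivial valuation subring containing `K` is a `Place`. -/
theorem exists_place_eq [CharZero K] (x : F) (hx : Transcendental K x)
    [FiniteDimensional K⟮x⟯ F] (V : ValuationSubring F)
    (hK : ∀ c : K, algebraMap K F c ∈ V) (hV : V ≠ ⊤) :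
    ∃ v : Place K F, v.toValuationSubring = V := by
  wlog hxV : x ∈ V generalizing x with H
  · have hxinv : x⁻¹ ∈ V := (V.mem_or_inv_mem x).resolve_left hxV
    have hx' : Transcendental K x⁻¹ := fun h => hx (by simpa using h.inv)
    have hfd : FiniteDimensional K⟮x⁻¹⟯ F :=
      finiteDimensional_of_eq (adjoin_inv_eq (K := K) x).symm
    exact H x⁻¹ hx' hxinv
  have hD := PlacesAbsAux.isDedekindDomain_integralClosure x hx
  have hFr := PlacesAbsAux.isFractionRing_integralClosure (K := K) x
  refine exists_place_of_dedekind (R := integralClosure (Algebra.adjoin K {x}) F) V hV hK ?_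
  intro b
  let Ov : Subalgebra K F := { V.toSubring with algebraMap_mem' := hK }
  have hle : Algebra.adjoin K {x} ≤ Ov := Algebra.adjoin_le (by
    intro y hy
    rw [Set.mem_singleton_iff] at hy
    subst hy
    exact hxV)
  exact mem_of_isIntegralElem V (algebraMap (Algebra.adjoin K {x}) F) (fun r => hle r.2) b.2

variable {E : Type*} [Field E] [Algebra F E] [Algebra K E] [IsScalarTower K F E]

/-- (V2') **Going up.**  A valuation subring of a finite extension whose restriction is a `Place`
is a `Place`. -/
theorem exists_place_of_comap [CharZero F] [FiniteDimensional F E] (u : Place K F)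
    (V' : ValuationSubring E) (h : V'.comap (algebraMap F E) = u.toValuationSubring) :
    ∃ v' : Place K E, v'.toValuationSubring = V' := by
  let alg : Algebra u.toValuationSubring E :=
    ((algebraMap F E).comp u.toValuationSubring.subtype).toAlgebra
  have hst : IsScalarTower u.toValuationSubring F E :=
    IsScalarTower.of_algebraMap_eq (fun _ => rfl)
  have hD : IsDedekindDomain (integralClosure u.toValuationSubring E) :=
    integralClosure.isDedekindDomain u.toValuationSubring F E
  have hFr : IsFractionRing (integralClosure u.toValuationSubring E) E :=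
    integralClosure.isFractionRing_of_finite_extension F E
  have hV' : V' ≠ ⊤ := by
    intro htop
    apply u.ne_top'
    rw [← h, htop]
    rfl
  refine exists_place_of_dedekind (R := integralClosure u.toValuationSubring E) V' hV' ?_ ?_
  · intro c
    rw [IsScalarTower.algebraMap_apply K F E]
    have hc : algebraMap K F c ∈ V'.comap (algebraMap F E) := by
      rw [h]; exact u.algebraMap_mem' c
    exact hc
  · intro b
    refine mem_of_isIntegralElem V' (algebraMap u.toValuationSubring E) (fun r => ?_) b.2
    have hr : (r : F) ∈ V'.comap (algebraMap F E) := by rw [h]; exact r.2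
    exact hr

/-- (V3) **Restriction.**  The restriction of a `Place` to a subfield on which it is nontrivial
is a `Place`, and the order function is multiplied by the ramification index. -/
theorem exists_place_comap_of_ne_top (v' : Place K E)
    (hne : v'.toValuationSubring.comap (algebraMap F E) ≠ ⊤) :
    ∃ (u : Place K F) (e : ℕ), 0 < e ∧
      u.toValuationSubring = v'.toValuationSubring.comap (algebraMap F E) ∧
      ∀ f : F, v'.ord (algebraMap F E f) = e * u.ord f := by
  let w : Valuation F (WithZero (Multiplicative ℤ)) := v'.adicValuation.comap (algebraMap F E)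
  have hK : ∀ c : K, c ≠ 0 → w (algebraMap K F c) = 1 := by
    intro c hc
    show v'.adicValuation (algebraMap F E (algebraMap K F c)) = 1
    rw [← IsScalarTower.algebraMap_apply]
    exact PlacesAbsAux.adicValuation_algebraMap v' c hc
  have hws : w.valuationSubring = v'.toValuationSubring.comap (algebraMap F E) := by
    ext f
    rw [Valuation.mem_valuationSubring_iff, ValuationSubring.mem_comap]
    exact PlacesAbsAux.adicValuation_le_one_iff v' _
  have hnt : ∃ f : F, f ≠ 0 ∧ w f < 1 := by
    by_contra hcon
    apply hne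
    rw [← hws]
    refine SetLike.ext fun y => ⟨fun _ => ValuationSubring.mem_top y, fun _ => ?_⟩
    rw [Valuation.mem_valuationSubring_iff]
    rcases eq_or_ne y 0 with rfl | hy
    · rw [map_zero]; exact zero_le_one
    · have h1 : ¬ w y⁻¹ < 1 := fun hlt => hcon ⟨y⁻¹, inv_ne_zero hy, hlt⟩
      rw [map_inv₀, not_lt] at h1
      have hwy : w y ≠ 0 := (Valuation.ne_zero_iff w).mpr hy
      exact (one_le_inv₀ (zero_lt_iff.mpr hwy)).mp h1
  obtain ⟨o, ho, -, hord⟩ := PlacesAbsAux.exists_vord_eq_mul_ord w hK hnt
  refine ⟨PlacesAbsAux.placeOf w hK hnt, o, ho, hws, fun f => ?_⟩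
  rcases eq_or_ne f 0 with rfl | hf
  · rw [map_zero, Place.ord_zero, Place.ord_zero, mul_zero]
  · exact hord f hf

/-- (V3) for an algebraic extension: the restriction is always nontrivial. -/
theorem exists_place_comap [Algebra.IsAlgebraic F E] (v' : Place K E) :
    ∃ (u : Place K F) (e : ℕ), 0 < e ∧
      u.toValuationSubring = v'.toValuationSubring.comap (algebraMap F E) ∧
      ∀ f : F, v'.ord (algebraMap F E f) = e * u.ord f :=
  exists_place_comap_of_ne_top v' (comap_ne_top _ v'.ne_top')

end FunctionField

section Ord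

variable {K F : Type*} [Field K] [Field F] [Algebra K F]

theorem ord_pos_of_mem (v : Place K F) {f : F} (hf : f ∈ v.toValuationSubring)
    (hf' : f⁻¹ ∉ v.toValuationSubring) : 0 < v.ord f := by
  have hf0 : f ≠ 0 := by
    rintro rfl
    exact hf' (by rw [inv_zero]; exact zero_mem _)
  by_contra hcon
  apply hf'
  rw [← Fermat.Agent.S24.Place.ord_nonneg_iff_mem v (inv_ne_zero hf0), v.ord_inv]
  omega

/-- every place has a uniformizer -/
theorem exists_ord_eq_one (v : Place K F) : ∃ ϖ : F, v.ord ϖ = 1 := by
  obtain ⟨π, hπ⟩ := IsDiscreteValuationRing.exists_irreducible v.toValuationSubring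
  exact ⟨π, v.ord_coe_irreducible hπ⟩

theorem ord_neg (v : Place K F) (f : F) : v.ord (-f) = v.ord f := by
  rcases eq_or_ne f 0 with rfl | hf
  · rw [neg_zero]
  have h1 : (-f) = algebraMap K F (-1) * f := by simp
  have hm1 : algebraMap K F (-1) ≠ 0 := by simp
  rw [h1, v.ord_mul hm1 hf, Fermat.Agent.S24.Place.ord_algebraMap, zero_add]

theorem ord_finset_prod (v : Place K F) {ι : Type*} (S : Finset ι) (f : ι → F)
    (hf : ∀ i ∈ S, f i ≠ 0) : v.ord (∏ i ∈ S, f i) = ∑ i ∈ S, v.ord (f i) := by
  classical
  induction S using Finset.induction_on with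
  | empty => simp [Place.ord_one]
  | insert a S ha ih =>
    rw [Finset.prod_insert ha, Finset.sum_insert ha,
      v.ord_mul (hf a (Finset.mem_insert_self a S))
        (Finset.prod_ne_zero_iff.mpr fun i hi => hf i (Finset.mem_insert_of_mem hi)),
      ih fun i hi => hf i (Finset.mem_insert_of_mem hi)]

/-- A separable polynomial in a function `s` regular at a place, positive there, has order one
as soon as `s - b` has order at most one for the roots `b`. -/
theorem ord_aeval_eq_one [IsAlgClosed K] (P : Place K F) (G : Polynomial K) (hG : G.Separable)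
    (s : F) (hs : s ∈ P.toValuationSubring) (hpos : 0 < P.ord (Polynomial.aeval s G))
    (hroot : ∀ b : K, G.IsRoot b → 0 < P.ord (s - algebraMap K F b) →
      P.ord (s - algebraMap K F b) = 1) :
    P.ord (Polynomial.aeval s G) = 1 := by
  classical
  have hG0 : G ≠ 0 := hG.ne_zero
  have hnd : G.roots.Nodup := Polynomial.nodup_roots hG
  have hfac : Polynomial.aeval s G = algebraMap K F G.leadingCoeff *
      ∏ b ∈ G.roots.toFinset, (s - algebraMap K F b) := by
    conv_lhs => rw [(IsAlgClosed.splits G).eq_prod_roots]
    rw [map_mul, Polynomial.aeval_C, map_multiset_prod, Multiset.map_map,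
      Finset.prod_eq_multiset_prod, Multiset.toFinset_val, hnd.dedup]
    congr 2
    refine Multiset.map_congr rfl fun b _ => ?_
    simp
  have hne : Polynomial.aeval s G ≠ 0 := by
    intro h0
    rw [h0, Place.ord_zero] at hpos
    exact lt_irrefl _ hpos
  have hlc : algebraMap K F G.leadingCoeff ≠ 0 := by
    simpa using hG0
  have hprod : ∏ b ∈ G.roots.toFinset, (s - algebraMap K F b) ≠ 0 := by
    intro h0
    rw [hfac, h0, mul_zero] at hne
    exact hne rfl
  have hfact : ∀ b ∈ G.roots.toFinset, s - algebraMap K F b ≠ 0 :=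
    fun b hb => (Finset.prod_ne_zero_iff.mp hprod) b hb
  have hsum : P.ord (Polynomial.aeval s G) = ∑ b ∈ G.roots.toFinset,
      P.ord (s - algebraMap K F b) := by
    rw [hfac, P.ord_mul hlc hprod, Fermat.Agent.S24.Place.ord_algebraMap, zero_add,
      ord_finset_prod P _ _ hfact]
  have hnonneg : ∀ b ∈ G.roots.toFinset, 0 ≤ P.ord (s - algebraMap K F b) := by
    intro b hb
    rw [Fermat.Agent.S24.Place.ord_nonneg_iff_mem P (hfact b hb)]
    exact sub_mem hs (P.algebraMap_mem' b)
  -- some root has positive order
  obtain ⟨b0, hb0, hb0pos⟩ : ∃ b0 ∈ G.roots.toFinset, 0 < P.ord (s - algebraMap K F b0) := by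
    by_contra hcon
    have hle : ∑ b ∈ G.roots.toFinset, P.ord (s - algebraMap K F b) ≤ 0 :=
      Finset.sum_nonpos fun b hb => not_lt.mp fun hlt => hcon ⟨b, hb, hlt⟩
    rw [hsum] at hpos
    omega
  have hb0root : G.IsRoot b0 := Polynomial.isRoot_of_mem_roots (Multiset.mem_toFinset.mp hb0)
  have hother : ∀ b ∈ G.roots.toFinset, b ≠ b0 → P.ord (s - algebraMap K F b) = 0 := by
    intro b hb hbb0
    by_contra hcon
    have hbpos : 0 < P.ord (s - algebraMap K F b) :=
      lt_of_le_of_ne (hnonneg b hb) (Ne.symm hcon)
    have hdiff : (s - algebraMap K F b0) + -(s - algebraMap K F b) = algebraMap K F (b - b0) := by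
      rw [map_sub]; ring
    have hc0 : algebraMap K F (b - b0) ≠ 0 := by
      simpa [sub_eq_zero] using hbb0
    have hmin := Fermat.Agent.S24.Place.min_le_ord_add P (hfact b0 hb0)
      (neg_ne_zero.mpr (hfact b hb)) (by rw [hdiff]; exact hc0)
    rw [hdiff, Fermat.Agent.S24.Place.ord_algebraMap, ord_neg] at hmin
    have := le_min hb0pos.le hbpos.le
    rcases min_choice (P.ord (s - algebraMap K F b0)) (P.ord (s - algebraMap K F b)) with h | h
    · rw [h] at hmin; omega
    · rw [h] at hmin; omega
  rw [hsum, Finset.sum_eq_single b0 (fun b hb hbb0 => hother b hb hbb0)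
    (fun h => absurd hb0 h)]
  exact hroot b0 hb0root hb0pos

end Ord

section Unramified

open scoped IntermediateField

variable {K0 L E0 F E : Type*} [Field K0] [Field L] [IsAlgClosed L] [CharZero L]
  [Field E0] [Field F] [Field E]
  [Algebra K0 L] [Algebra.IsAlgebraic K0 L] [Algebra K0 E0]
  [Algebra L F] [Algebra F E] [Algebra L E] [IsScalarTower L F E] [FiniteDimensional F E]

omit [IsAlgClosed L] in
/-- The two geometric places attached to a valuation subring `W` of `E0` containing `K0`:
an extension `P'` to `E` (a place of `E / L`) and its restriction `P` to `F`, with `E / F`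
unramified at `P'`. -/
theorem exists_places_of_valuationSubring
    (φ : E0 →+* E) (hφ : ∀ c : K0, φ (algebraMap K0 E0 c) = algebraMap L E (algebraMap K0 L c))
    (x : F) (hx : Transcendental L x) [FiniteDimensional L⟮x⟯ F]
    (W : ValuationSubring E0) (hW : W ≠ ⊤) (hK0 : ∀ c : K0, algebraMap K0 E0 c ∈ W)
    (hE : ∀ P' : Place L E, ∃ ϖ : F, P'.ord (algebraMap F E ϖ) = 1) :
    ∃ (P' : Place L E) (P : Place L F), P'.toValuationSubring.comap φ = W ∧
      P.toValuationSubring = P'.toValuationSubring.comap (algebraMap F E) ∧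
      ∀ f : F, P'.ord (algebraMap F E f) = P.ord f := by
  obtain ⟨W', hW'⟩ := exists_comap_eq φ W
  -- the constants `L` lie in `W'`
  have hLW' : ∀ c : L, algebraMap L E c ∈ W' := by
    intro c
    have hc : IsIntegral K0 c := Algebra.IsIntegral.isIntegral c
    obtain ⟨p, hp, hpc⟩ := hc
    refine mem_of_isIntegralElem W' ((algebraMap L E).comp (algebraMap K0 L)) (fun r => ?_)
      ⟨p, hp, ?_⟩
    · rw [RingHom.comp_apply, ← hφ r]
      have hr : algebraMap K0 E0 r ∈ W'.comap φ := by rw [hW']; exact hK0 r
      exact hr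
    · rw [← Polynomial.hom_eval₂, hpc, map_zero]
  have hW'top : W' ≠ ⊤ := by
    intro htop
    apply hW
    rw [← hW', htop]
    rfl
  have hFchar : CharZero F := charZero_of_injective_algebraMap (algebraMap L F).injective
  -- the restriction to `F` is a place
  have hVF : W'.comap (algebraMap F E) ≠ ⊤ := comap_ne_top W' hW'top
  obtain ⟨P, hP⟩ := exists_place_eq (K := L) x hx (W'.comap (algebraMap F E))
    (fun c => by
      rw [ValuationSubring.mem_comap, ← IsScalarTower.algebraMap_apply]
      exact hLW' c) hVF
  -- hence `W'` is a place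
  obtain ⟨P', hP'⟩ := exists_place_of_comap P W' hP.symm
  obtain ⟨u, e, he, hu, hord⟩ := exists_place_comap (F := F) P'
  have huP : u = P := Place.ext (by rw [hu, hP, hP'])
  subst huP
  obtain ⟨ϖ, hϖ⟩ := hE P'
  have he1 : (e : ℤ) = 1 := by
    have h1 := hord ϖ
    rw [hϖ] at h1
    exact Int.eq_one_of_mul_eq_one_right (Int.natCast_nonneg e) h1.symm
  refine ⟨P', u, by rw [hP', hW'], hu, fun f => ?_⟩
  rw [hord f, he1, one_mul]

/-- (V4) **Unramifiedness in valuation form.**  Let `W` be a valuation subring of `E0`
containing `K0` and the chart coordinate `s0`, and let `g` be a separable polynomial over `K0`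
with `g(s0)` in the maximal ideal of `W`.  If the geometric function field `F` is unramified over
the roots of `g` (`hF`) and `E / F` is unramified at every place (`hE`), then `g(s0)` is a
uniformizer of `W`: every nonunit of `W` is divisible by it. -/
theorem div_mem_of_unramified
    (φ : E0 →+* E) (hφ : ∀ c : K0, φ (algebraMap K0 E0 c) = algebraMap L E (algebraMap K0 L c))
    (x : F) (hx : Transcendental L x) [FiniteDimensional L⟮x⟯ F]
    (W : ValuationSubring E0) (hK0 : ∀ c : K0, algebraMap K0 E0 c ∈ W)
    (s0 : E0) (s : F) (hs : φ s0 = algebraMap F E s) (hsW : s0 ∈ W)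
    (g : Polynomial K0) (hg : g.Separable) (hgW : Polynomial.aeval s0 g ∈ W)
    (hgW' : (Polynomial.aeval s0 g)⁻¹ ∉ W)
    (hF : ∀ (P : Place L F) (b : L), Polynomial.aeval b g = 0 →
      0 < P.ord (s - algebraMap L F b) → P.ord (s - algebraMap L F b) = 1)
    (hE : ∀ P' : Place L E, ∃ ϖ : F, P'.ord (algebraMap F E ϖ) = 1) :
    ∀ y ∈ W, y⁻¹ ∉ W → y / Polynomial.aeval s0 g ∈ W := by
  have hW : W ≠ ⊤ := fun htop => hgW' (htop ▸ ValuationSubring.mem_top _)
  obtain ⟨P', P, hP'W, hPP', hord⟩ :=
    exists_places_of_valuationSubring φ hφ x hx W hW hK0 hE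
  have memW : ∀ z : E0, z ∈ W ↔ φ z ∈ P'.toValuationSubring := by
    intro z
    rw [← hP'W, ValuationSubring.mem_comap]
  have memP : ∀ f : F, f ∈ P.toValuationSubring ↔ algebraMap F E f ∈ P'.toValuationSubring := by
    intro f
    rw [hPP', ValuationSubring.mem_comap]
  -- the polynomial `g` over `L`, evaluated at `s`
  set G : Polynomial L := g.map (algebraMap K0 L) with hGdef
  have hGsep : G.Separable := hg.map
  have hcomp : φ.comp (algebraMap K0 E0) =
      (algebraMap F E).comp ((algebraMap L F).comp (algebraMap K0 L)) := by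
    ext c
    simp only [RingHom.comp_apply]
    rw [hφ c, ← IsScalarTower.algebraMap_apply L F E]
  have hgs : φ (Polynomial.aeval s0 g) = algebraMap F E (Polynomial.aeval s G) := by
    rw [Polynomial.aeval_def, Polynomial.aeval_def, Polynomial.hom_eval₂, hGdef,
      Polynomial.eval₂_map, Polynomial.hom_eval₂, hcomp, hs]
  -- positivity at `P`
  have hsP : s ∈ P.toValuationSubring := by
    rw [memP, ← hs, ← memW]
    exact hsW
  have hGsP : Polynomial.aeval s G ∈ P.toValuationSubring := by
    rw [memP, ← hgs, ← memW]
    exact hgW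
  have hGsP' : (Polynomial.aeval s G)⁻¹ ∉ P.toValuationSubring := by
    rw [memP, map_inv₀, ← hgs, ← map_inv₀, ← memW]
    exact hgW'
  have hpos : 0 < P.ord (Polynomial.aeval s G) := ord_pos_of_mem P hGsP hGsP'
  have hone : P.ord (Polynomial.aeval s G) = 1 := by
    refine ord_aeval_eq_one P G hGsep s hsP hpos fun b hb hb' => hF P b ?_ hb'
    rw [Polynomial.aeval_def, Polynomial.eval₂_eq_eval_map]
    exact hb
  have hone' : P'.ord (φ (Polynomial.aeval s0 g)) = 1 := by
    rw [hgs, hord, hone]
  -- the conclusion
  intro y hy hy'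
  have hy0 : y ≠ 0 := by
    rintro rfl
    exact hy' (by rw [inv_zero]; exact zero_mem _)
  have hg0 : Polynomial.aeval s0 g ≠ 0 := by
    intro h0
    exact hgW' (by rw [h0, inv_zero]; exact zero_mem _)
  have hypos : 0 < P'.ord (φ y) := by
    refine ord_pos_of_mem P' ((memW y).mp hy) ?_
    rw [← map_inv₀, ← memW]
    exact hy'
  rw [memW, map_div₀, div_eq_mul_inv,
    ← Fermat.Agent.S24.Place.ord_nonneg_iff_mem P'
      (mul_ne_zero ((map_ne_zero φ).mpr hy0) (inv_ne_zero ((map_ne_zero φ).mpr hg0))),
    P'.ord_mul ((map_ne_zero φ).mpr hy0) (inv_ne_zero ((map_ne_zero φ).mpr hg0)),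
    P'.ord_inv, hone']
  omega

/-- (V4), ideal form: the maximal ideal of `W` is generated by `g(s0)`. -/
theorem maximalIdeal_eq_span_of_unramified
    (φ : E0 →+* E) (hφ : ∀ c : K0, φ (algebraMap K0 E0 c) = algebraMap L E (algebraMap K0 L c))
    (x : F) (hx : Transcendental L x) [FiniteDimensional L⟮x⟯ F]
    (W : ValuationSubring E0) (hK0 : ∀ c : K0, algebraMap K0 E0 c ∈ W)
    (s0 : E0) (s : F) (hs : φ s0 = algebraMap F E s) (hsW : s0 ∈ W)
    (g : Polynomial K0) (hg : g.Separable) (hgW : Polynomial.aeval s0 g ∈ W)
    (hgW' : (Polynomial.aeval s0 g)⁻¹ ∉ W)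
    (hF : ∀ (P : Place L F) (b : L), Polynomial.aeval b g = 0 →
      0 < P.ord (s - algebraMap L F b) → P.ord (s - algebraMap L F b) = 1)
    (hE : ∀ P' : Place L E, ∃ ϖ : F, P'.ord (algebraMap F E ϖ) = 1) :
    IsLocalRing.maximalIdeal W = Ideal.span {(⟨Polynomial.aeval s0 g, hgW⟩ : W)} := by
  have key := div_mem_of_unramified φ hφ x hx W hK0 s0 s hs hsW g hg hgW hgW' hF hE
  have hg0 : Polynomial.aeval s0 g ≠ 0 := by
    intro h0
    exact hgW' (by rw [h0, inv_zero]; exact zero_mem _)
  have hgnu : (⟨Polynomial.aeval s0 g, hgW⟩ : W) ∈ IsLocalRing.maximalIdeal W := by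
    rw [IsLocalRing.mem_maximalIdeal, mem_nonunits_iff]
    intro hu
    obtain ⟨b, hb⟩ := isUnit_iff_exists_inv.mp hu
    have hb' : Polynomial.aeval s0 g * (b : E0) = 1 := congrArg Subtype.val hb
    exact hgW' ((eq_inv_of_mul_eq_one_right hb') ▸ b.2)
  apply le_antisymm
  · intro y hy
    rw [IsLocalRing.mem_maximalIdeal, mem_nonunits_iff] at hy
    rcases eq_or_ne y 0 with rfl | hy0
    · exact zero_mem _
    have hy0' : (y : E0) ≠ 0 := fun h => hy0 (Subtype.ext h)
    have hyinv : (y : E0)⁻¹ ∉ W := by
      intro hmem
      apply hy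
      refine isUnit_iff_exists_inv.mpr ⟨⟨_, hmem⟩, Subtype.ext ?_⟩
      show (y : E0) * (y : E0)⁻¹ = 1
      exact mul_inv_cancel₀ hy0'
    have hdiv := key y y.2 hyinv
    rw [Ideal.mem_span_singleton']
    refine ⟨⟨_, hdiv⟩, Subtype.ext ?_⟩
    show (y : E0) / Polynomial.aeval s0 g * Polynomial.aeval s0 g = y
    exact div_mul_cancel₀ _ hg0
  · rw [Ideal.span_le, Set.singleton_subset_iff]
    exact hgnu

end Unramified

end Fermat.Agent.S18.ValExt
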