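import Mathlib
import Fermat.Prelude.Def_AlgebraicCurve_DivisorClassGroup
import Fermat.Agent.S18.ValExt
import Fermat.Agent.S18.KummerOrd

/-!
# S18 (bridge, (H3)): the geometric Kummer field

For a coefficient extension `ι : F0 →+* F'` of function fields (`F0` over `K0`, `F'` over the
algebraically closed field `L`) and `Y : F0` whose image is not a `p`-th power in `F'`:

* `E0 := AdjoinRoot (X ^ p - C Y)` and `E' := AdjoinRoot (X ^ p - C (ι Y))` are fields,
* `phi : E0 →+* E'` is the comparison map (`phi_algebraMap`, `phi_root`, `phi_algebraMap_base`),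
* `E' / F'` is finite of degree `p`, generated by the root,
* `E' / F'` is unramified at every place as soon as `p ∣ ord_u (ι Y)` for all places `u` of `F'`
  (`exists_ord_eq_one`, the hypothesis `hE` of `ValExt.div_mem_of_unramified`),
* `div_mem_of_unramified`: the valuation form of (H3) for `E0`.
-/

set_option autoImplicit false

namespace Fermat.Agent.S18.KummerGeo

open Polynomial AlgebraicCurve
open scoped IntermediateField

/-- the Kummer polynomial `X ^ p - y`. -/
noncomputable abbrev kpoly {F : Type*} [Field F] (p : ℕ) (y : F) : F[X] := X ^ p - C y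

section One

variable {F : Type*} [Field F] (p : ℕ) (y : F)

theorem kpoly_ne_zero (hp : 0 < p) : kpoly p y ≠ 0 := X_pow_sub_C_ne_zero hp y

theorem natDegree_kpoly : (kpoly p y).natDegree = p := natDegree_X_pow_sub_C

theorem irreducible_kpoly {p : ℕ} (hp : p.Prime) {y : F} (hy : ∀ z : F, z ^ p ≠ y) :
    Irreducible (kpoly p y) :=
  X_pow_sub_C_irreducible_of_prime hp hy

theorem root_pow :
    AdjoinRoot.root (kpoly p y) ^ p = algebraMap F (AdjoinRoot (kpoly p y)) y := by
  have h := AdjoinRoot.eval₂_root (kpoly p y)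
  rw [eval₂_sub, eval₂_pow, eval₂_X, eval₂_C, sub_eq_zero] at h
  rw [h, AdjoinRoot.algebraMap_eq]

theorem finrank_eq (hp : 0 < p) : Module.finrank F (AdjoinRoot (kpoly p y)) = p := by
  rw [(AdjoinRoot.powerBasis (kpoly_ne_zero p y hp)).finrank, AdjoinRoot.powerBasis_dim,
    natDegree_kpoly]

theorem finiteDimensional (hp : 0 < p) : FiniteDimensional F (AdjoinRoot (kpoly p y)) :=
  (AdjoinRoot.powerBasis (kpoly_ne_zero p y hp)).finite

theorem algebra_adjoin_root_eq_top :
    Algebra.adjoin F {AdjoinRoot.root (kpoly p y)} = ⊤ :=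
  AdjoinRoot.adjoinRoot_eq_top

theorem adjoin_root_eq_top [Fact (Irreducible (kpoly p y))] :
    F⟮AdjoinRoot.root (kpoly p y)⟯ = ⊤ :=
  IntermediateField.adjoin_eq_top_of_algebra F _ (algebra_adjoin_root_eq_top p y)

/-- **Kummer extensions are unramified** where `p ∣ ord Y` (the hypothesis `hE` of
`ValExt.div_mem_of_unramified`, for `E' = AdjoinRoot (X ^ p - C y)`). -/
theorem exists_ord_eq_one {L : Type*} [Field L] [CharZero L] [Algebra L F] {p : ℕ}
    (hp : p.Prime) {y : F} [Fact (Irreducible (kpoly p y))] (hy0 : y ≠ 0)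
    (hord : ∀ u : Place L F, (p : ℤ) ∣ u.ord y) :
    ∀ P' : Place L (AdjoinRoot (kpoly p y)),
      ∃ ϖ : F, P'.ord (algebraMap F (AdjoinRoot (kpoly p y)) ϖ) = 1 := by
  have hfd := finiteDimensional p y hp.pos
  exact KummerOrd.kummer_exists_ord_eq_one
    (fun P' => by
      obtain ⟨u, _, _, hu, _⟩ := ValExt.exists_place_comap (F := F) P'
      exact ⟨u, hu⟩)
    p (Nat.cast_ne_zero.mpr hp.ne_zero) y hy0 hord (AdjoinRoot.root _) (root_pow p y)
    (adjoin_root_eq_top p y)

end One

section Two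

variable {F0 F' : Type*} [Field F0] [Field F'] (ι : F0 →+* F') (p : ℕ) (Y : F0)

theorem kpoly_map : (kpoly p Y).map ι = kpoly p (ι Y) := by
  simp [kpoly]

/-- if `ι Y` is not a `p`-th power then neither is `Y`. -/
theorem irreducible_kpoly_of_map {p : ℕ} (hp : p.Prime) {Y : F0}
    (hY : ∀ z : F', z ^ p ≠ ι Y) : Irreducible (kpoly p Y) :=
  irreducible_kpoly hp fun b hb => hY (ι b) (by rw [← map_pow, hb])

/-- the comparison map between the Kummer algebras. -/
noncomputable def phi : AdjoinRoot (kpoly p Y) →+* AdjoinRoot (kpoly p (ι Y)) :=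
  AdjoinRoot.lift ((AdjoinRoot.of (kpoly p (ι Y))).comp ι) (AdjoinRoot.root (kpoly p (ι Y))) (by
    rw [← Polynomial.eval₂_map, kpoly_map]
    exact AdjoinRoot.eval₂_root _)

@[simp]
theorem phi_of (x : F0) :
    phi ι p Y (AdjoinRoot.of (kpoly p Y) x) = AdjoinRoot.of (kpoly p (ι Y)) (ι x) := by
  rw [phi, AdjoinRoot.lift_of]
  rfl

@[simp]
theorem phi_root : phi ι p Y (AdjoinRoot.root (kpoly p Y)) = AdjoinRoot.root (kpoly p (ι Y)) := by
  rw [phi, AdjoinRoot.lift_root]

theorem phi_algebraMap (x : F0) :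
    phi ι p Y (algebraMap F0 (AdjoinRoot (kpoly p Y)) x)
      = algebraMap F' (AdjoinRoot (kpoly p (ι Y))) (ι x) := by
  rw [AdjoinRoot.algebraMap_eq, AdjoinRoot.algebraMap_eq, phi_of]

variable {K0 L : Type*} [Field K0] [Field L] [Algebra K0 L] [Algebra K0 F0] [Algebra L F']

/-- compatibility of `phi` with the constants. -/
theorem phi_algebraMap_base
    (hι : ∀ c : K0, ι (algebraMap K0 F0 c) = algebraMap L F' (algebraMap K0 L c)) (c : K0) :
    phi ι p Y (algebraMap K0 (AdjoinRoot (kpoly p Y)) c)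
      = algebraMap L (AdjoinRoot (kpoly p (ι Y))) (algebraMap K0 L c) := by
  rw [IsScalarTower.algebraMap_apply K0 F0 (AdjoinRoot (kpoly p Y)), phi_algebraMap, hι,
    ← IsScalarTower.algebraMap_apply]

/-- **(H3) in valuation form for the Kummer field** `E0 = F0(Y^(1/p))`: for a valuation subring
`W` of `E0` containing `K0` and the chart coordinate `s0 ∈ F0`, centred on a separable `g(s0)`:
`g(s0)` is a uniformizer of `W`, as soon as `F'` is unramified over the roots of `g` and
`p ∣ ord_u (ι Y)` at all places `u` of `F'`. -/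
theorem div_mem_of_unramified [IsAlgClosed L] [CharZero L] [Algebra.IsAlgebraic K0 L]
    (hι : ∀ c : K0, ι (algebraMap K0 F0 c) = algebraMap L F' (algebraMap K0 L c))
    {p : ℕ} (hp : p.Prime) {Y : F0} (hY0 : Y ≠ 0)
    [Fact (Irreducible (kpoly p Y))] [Fact (Irreducible (kpoly p (ι Y)))]
    (hord : ∀ u : Place L F', (p : ℤ) ∣ u.ord (ι Y))
    (x : F') (hx : Transcendental L x) [FiniteDimensional L⟮x⟯ F']
    (W : ValuationSubring (AdjoinRoot (kpoly p Y)))
    (hK0 : ∀ c : K0, algebraMap K0 (AdjoinRoot (kpoly p Y)) c ∈ W)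
    (s0 : F0) (hsW : algebraMap F0 (AdjoinRoot (kpoly p Y)) s0 ∈ W)
    (g : Polynomial K0) (hg : g.Separable)
    (hgW : Polynomial.aeval (algebraMap F0 (AdjoinRoot (kpoly p Y)) s0) g ∈ W)
    (hgW' : (Polynomial.aeval (algebraMap F0 (AdjoinRoot (kpoly p Y)) s0) g)⁻¹ ∉ W)
    (hF : ∀ (P : Place L F') (b : L), Polynomial.aeval b g = 0 →
      0 < P.ord (ι s0 - algebraMap L F' b) → P.ord (ι s0 - algebraMap L F' b) = 1) :
    ∀ y ∈ W, y⁻¹ ∉ W →
      y / Polynomial.aeval (algebraMap F0 (AdjoinRoot (kpoly p Y)) s0) g ∈ W := by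
  have hfd := finiteDimensional p (ι Y) hp.pos
  exact ValExt.div_mem_of_unramified (phi ι p Y) (phi_algebraMap_base ι p Y hι) x hx W hK0
    (algebraMap F0 (AdjoinRoot (kpoly p Y)) s0) (ι s0) (phi_algebraMap ι p Y s0) hsW g hg hgW hgW'
    hF (exists_ord_eq_one hp ((map_ne_zero ι).mpr hY0) hord)

end Two

end Fermat.Agent.S18.KummerGeo
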