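import Mathlib

/-!
# S18, route K: definitions for the abstract Kummer core

`A0` is the base discrete valuation ring (uniformizer `π`), `M` the function field `K0(t)` of the
base line, `t : M` the coordinate, and `E` a finite extension of `M`.  The chart ring is
`Algebra.adjoin A0 {t} ⊆ M` (use `t⁻¹` for the chart at infinity).
-/

set_option autoImplicit false

namespace Fermat.Agent.S18.CoreDefs

variable (A0 : Type*) [CommRing A0] (M : Type*) [Field M] [Algebra A0 M]
  (E : Type*) [Field E] [Algebra M E] [Algebra A0 E] [IsScalarTower A0 M E]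

/-- The chart ring `A0[t]` inside `M`. -/
abbrev chart (t : M) : Subalgebra A0 M := Algebra.adjoin A0 {t}

/-- The coordinate `t` as an element of the chart ring. -/
def coord (t : M) : chart A0 M t := ⟨t, Algebra.subset_adjoin rfl⟩

/-- The uniformizer `π` as an element of the chart ring. -/
def unif (t : M) (π : A0) : chart A0 M t := algebraMap A0 (chart A0 M t) π

/-- `x ∈ O''` (the integral closure of the Gauss ring `A0[t]_(π)` in `E`), elementwise. -/
def InGauss (t : M) (π : A0) (x : E) : Prop :=
  ∃ s : chart A0 M t, ¬ unif A0 M t π ∣ s ∧ IsIntegral (chart A0 M t) (s • x)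

/-- `x ∈ π O''`, elementwise. -/
def InPiGauss (t : M) (π : A0) (x : E) : Prop :=
  ∃ s : chart A0 M t, ¬ unif A0 M t π ∣ s ∧ ∃ c : E, IsIntegral (chart A0 M t) c ∧ s • x = π • c

/-- (H2) for the chart `A0[t]`: the trace form of the integral closure of `A0[t]` in `E` is
nondegenerate modulo `π` (generic étaleness of the special fibre). -/
def H2Hyp (t : M) (π : A0) : Prop :=
  ∀ x : E, IsIntegral (chart A0 M t) x →
    (∀ o : E, IsIntegral (chart A0 M t) o →
      ∃ a : chart A0 M t, Algebra.trace M E (x * o) = algebraMap (chart A0 M t) M (unif A0 M t π * a)) →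
    ∃ c : E, IsIntegral (chart A0 M t) c ∧ x = π • c

/-- Reducedness of the fibre of the integral closure of `A0[t]` in `E` at the prime `𝔭`. -/
def ReducedAt (t : M) (𝔭 : Ideal (chart A0 M t)) : Prop :=
  ∀ x : E, IsIntegral (chart A0 M t) x → ∀ n : ℕ,
    x ^ n ∈ 𝔭 • Subalgebra.toSubmodule (integralClosure (chart A0 M t) E) →
    ∃ s : chart A0 M t, s ∉ 𝔭 ∧ s • x ∈ 𝔭 • Subalgebra.toSubmodule (integralClosure (chart A0 M t) E)

/-- (H3) for the chart `A0[t]` with critical values `Crit`: the characteristic-zero fibre of the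
integral closure is reduced at every prime not containing `π` and different from the `(t - c)`,
`c ∈ Crit`; and distinct critical values stay distinct modulo `π` (non-collision). -/
def H3Hyp (t : M) (π : A0) (Crit : Finset A0) : Prop :=
  (∀ c ∈ Crit, ∀ c' ∈ Crit, c ≠ c' → IsUnit (c - c')) ∧
  ∀ 𝔭 : Ideal (chart A0 M t), 𝔭.IsPrime → 𝔭 ≠ ⊥ → unif A0 M t π ∉ 𝔭 →
    (∀ c ∈ Crit, coord A0 M t - algebraMap A0 (chart A0 M t) c ∉ 𝔭) → ReducedAt A0 M E t 𝔭

end Fermat.Agent.S18.CoreDefs
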