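/-
S18 bridge leaf B0 (route K), part 2: the degree bound over a subfield of `ℚ̄`.

For every field `K` with an embedding into `ℚ̄ = AlgebraicClosure ℚ`, the function field
`K(j(q^d) : d ∣ N)` is finite over `K(j)` of degree at most `ψ(N)` (coefficientwise linear
disjointness, `FieldDef.finrank_le_of`, and S24's `[F_ℚ̄ : ℚ̄(j)] = ψ(N)`).
-/
import Fermat.Agent.S18.FieldDef
import Fermat.Agent.S18.S24Export

set_option autoImplicit false

open ModularCurve IntermediateField

namespace Fermat.Agent.S18.FieldDefQ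

local notation "Qb" => AlgebraicClosure ℚ

/-- the frozen function field over `ℚ̄` is `ℚ̄(j(q^d) : d ∣ N)`. -/
theorem FL_eq (N : ℕ) [NeZero N] : S24Export.FL N = modularFunctionFieldFullC Qb N :=
  FieldDef.bar_eq_fullC N

theorem coe_jL_eq (N : ℕ) : ((S24Export.jL N : S24Export.FL N) : LaurentSeries Qb) = jqModC Qb := by
  rw [S24Export.coe_jL]
  exact coeffMap_jqModC (algebraMap ℚ Qb)

/-- `[K(j(q^d)) : K(j)] ≤ ψ(N)` for every field `K` embedded in `ℚ̄`. -/
theorem finrank_le_psi (K : Type*) [Field K] [Algebra K Qb] (N : ℕ) [NeZero N] :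
    FiniteDimensional K⟮FieldDef.jC K N⟯ (modularFunctionFieldFullC K N) ∧
      Module.finrank K⟮FieldDef.jC K N⟯ (modularFunctionFieldFullC K N) ≤ dedekindPsi N := by
  have h := FieldDef.finrank_le_of (K := K) (N := N) (S24Export.FL N) (S24Export.jL N)
    (coe_jL_eq N) (fun x hx => by
      rw [FL_eq]
      exact FieldDef.coeffMap_mem_fullC _ N hx)
  rw [S24Export.finrank_adjoin] at h
  exact h

end Fermat.Agent.S18.FieldDefQ
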