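import Mathlib
import Fermat.Agent.S18.CoreDefs
import Fermat.Agent.S18.FieldDefQ
import Fermat.Agent.S18.A0
import Fermat.Agent.S18.ResField

/-!
# S18, route K, bridge: the concrete carriers

Instance synthesis on the raw subtypes `↥(modularFunctionFieldFullC K N)` and
`↥K⟮j⟯` of `LaurentSeries K` is extremely slow (seconds per instance; some towers are not found
at all).  This file *seals* the carriers of the bridge behind plain definitions with explicitly
declared instances:

* `FK K N`      : the function field `K(j(q^d) : d ∣ N)` of `X₀(N)` over `K`, a field and a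
                  `K`-algebra; `FK.val` its inclusion into `K((q))`; `jF K N` the function `j`;
* `Line K t`    : the subfield `K(t)` of a `K`-algebra field `F`, as a field with `K`-algebra
                  structure, over which `F` is an algebra; `Line.gen K t` its generator;
* `ιL K N`      : the coefficient extension `FK K N →+* F_L = ℚ̄(j(q^d))` for a field `K`
                  embedded in `ℚ̄`.

Scalars in a valuation subring `V` of `K` act through Mathlib's subobject instances
(`Algebra.ofSubsemiring`, `Submonoid.instIsScalarTowerSubtypeMem`), which are found instantly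
on the sealed carriers.
-/

set_option autoImplicit false

noncomputable section

open ModularCurve IntermediateField Polynomial

namespace Fermat.Agent.S18.Setup

local notation "Qb" => AlgebraicClosure ℚ

/-! ### The function field over `K` -/

section FK

variable (K : Type*) [Field K] (N : ℕ)

/-- The function field `K(j(q^d) : d ∣ N)` of `X₀(N)` over `K`, sealed. -/
def FK : Type _ := ↥(modularFunctionFieldFullC K N)

instance instFieldFK : Field (FK K N) :=
  inferInstanceAs (Field ↥(modularFunctionFieldFullC K N))

instance instAlgebraFK : Algebra K (FK K N) :=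
  inferInstanceAs (Algebra K ↥(modularFunctionFieldFullC K N))

/-- the inclusion of the function field into `K((q))`. -/
def FK.val : FK K N →ₐ[K] LaurentSeries K := (modularFunctionFieldFullC K N).val

variable {K N}

theorem FK.val_injective : Function.Injective (FK.val K N) := Subtype.val_injective

theorem FK.val_mem (x : FK K N) : FK.val K N x ∈ modularFunctionFieldFullC K N := x.2

/-- an element of the function field from a series in it. -/
def FK.mk (x : LaurentSeries K) (hx : x ∈ modularFunctionFieldFullC K N) : FK K N := ⟨x, hx⟩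

@[simp]
theorem FK.val_mk (x : LaurentSeries K) (hx : x ∈ modularFunctionFieldFullC K N) :
    FK.val K N (FK.mk x hx) = x := rfl

theorem FK.mk_val (x : FK K N) : FK.mk (FK.val K N x) (FK.val_mem x) = x := rfl

theorem FK.ext {x y : FK K N} (h : FK.val K N x = FK.val K N y) : x = y := FK.val_injective h

theorem FK.val_algebraMap (c : K) :
    FK.val K N (algebraMap K (FK K N) c) = algebraMap K (LaurentSeries K) c := rfl

variable (K N)

/-- the sealed function field is the raw one. -/
def FK.equiv : FK K N ≃ₐ[K] ↥(modularFunctionFieldFullC K N) := AlgEquiv.refl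

/-- The function `j`. -/
def jF : FK K N := FieldDef.jC K N

@[simp]
theorem val_jF : FK.val K N (jF K N) = jqModC K := rfl

theorem transcendental_jF : Transcendental K (jF K N) := FieldDef.transcendental_jC K N

instance instCharZeroFK [CharZero K] : CharZero (FK K N) :=
  charZero_of_injective_algebraMap (algebraMap K (FK K N)).injective

end FK

/-! ### The line `K(t)` inside a field `F` -/

section Line

variable (K : Type*) [Field K] {F : Type*} [Field F] [Algebra K F] (t : F)

/-- The subfield `K(t)` of `F`, sealed. -/
def Line : Type _ := ↥(K⟮t⟯)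

instance instFieldLine : Field (Line K t) := inferInstanceAs (Field ↥K⟮t⟯)

instance instAlgebraLine : Algebra K (Line K t) := inferInstanceAs (Algebra K ↥K⟮t⟯)

instance instAlgebraLineTop : Algebra (Line K t) F := inferInstanceAs (Algebra ↥K⟮t⟯ F)

instance instIsScalarTowerLine : IsScalarTower K (Line K t) F :=
  inferInstanceAs (IsScalarTower K ↥K⟮t⟯ F)

/-- the sealed line is the raw simple extension. -/
def Line.equiv : Line K t ≃ₐ[K] ↥K⟮t⟯ := AlgEquiv.refl

/-- The coordinate of the line. -/
def Line.gen : Line K t := AdjoinSimple.gen K t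

@[simp]
theorem algebraMap_gen : algebraMap (Line K t) F (Line.gen K t) = t := rfl

theorem algebraMap_line_injective : Function.Injective (algebraMap (Line K t) F) :=
  (algebraMap (Line K t) F).injective

theorem algebraMap_line_mem (m : Line K t) : algebraMap (Line K t) F m ∈ K⟮t⟯ := m.2

theorem mem_range_algebraMap_line_iff (x : F) :
    x ∈ (algebraMap (Line K t) F).range ↔ x ∈ K⟮t⟯ :=
  ⟨fun ⟨m, hm⟩ => hm ▸ m.2, fun hx => ⟨⟨x, hx⟩, rfl⟩⟩

/-- an element of the line from an element of `K(t)`. -/
def Line.mk (x : F) (hx : x ∈ K⟮t⟯) : Line K t := ⟨x, hx⟩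

@[simp]
theorem algebraMap_line_mk (x : F) (hx : x ∈ K⟮t⟯) :
    algebraMap (Line K t) F (Line.mk K t x hx) = x := rfl

/-- The line is generated by its coordinate. -/
theorem Line.adjoin_gen :
    IntermediateField.adjoin K {Line.gen K t} = (⊤ : IntermediateField K (Line K t)) := by
  rw [eq_top_iff]
  intro x _
  have h1 : K⟮t⟯ ≤
      (IntermediateField.adjoin K {(AdjoinSimple.gen K t : ↥K⟮t⟯)}).map K⟮t⟯.val := by
    rw [IntermediateField.adjoin_simple_le_iff]
    exact ⟨AdjoinSimple.gen K t, IntermediateField.mem_adjoin_simple_self K _, rfl⟩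
  obtain ⟨y, hy, hyx⟩ := h1 (show (x : ↥K⟮t⟯).1 ∈ K⟮t⟯ from x.2)
  have hxy : y = x := Subtype.ext hyx
  exact hxy ▸ hy

theorem Line.transcendental_gen (ht : Transcendental K t) : Transcendental K (Line.gen K t) := by
  intro halg
  exact ht (by simpa using halg.algebraMap (A := F))

instance instCharZeroLine [CharZero K] : CharZero (Line K t) :=
  charZero_of_injective_algebraMap (algebraMap K (Line K t)).injective

end Line

/-! ### Scalars in a valuation subring -/

section Val

variable {K : Type*} [Field K] {F : Type*} [Field F] [Algebra K F] (t : F)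
  (V : ValuationSubring K)

theorem Line.transcendental_gen_val (ht : Transcendental K t) :
    Transcendental ↥V (Line.gen K t) :=
  (Line.transcendental_gen K t ht).restrictScalars
    (FaithfulSMul.algebraMap_injective ↥V K)

theorem algebraMap_val_line (a : ↥V) :
    algebraMap ↥V (Line K t) a = algebraMap K (Line K t) (a : K) := rfl

theorem algebraMap_val_top (a : ↥V) : algebraMap ↥V F a = algebraMap K F (a : K) := rfl

end Val

/-! ### Coefficient extension to `ℚ̄` and the `j`-line -/

section Bar

variable (K : Type*) [Field K] [Algebra K Qb] (N : ℕ) [NeZero N]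

/-- The coefficient extension `F_K → F_L` of function fields. -/
def ιL : FK K N →+* ↥(S24Export.FL N) :=
  ((coeffMap (algebraMap K Qb)).comp (FK.val K N).toRingHom).codRestrict (S24Export.FL N)
    (fun x => by
      rw [FieldDefQ.FL_eq]
      exact FieldDef.coeffMap_mem_fullC _ N (FK.val_mem x))

theorem coe_ιL (x : FK K N) :
    ((ιL K N x : ↥(S24Export.FL N)) : LaurentSeries Qb) =
      coeffMap (algebraMap K Qb) (FK.val K N x) := rfl

theorem ιL_injective : Function.Injective (ιL K N) := (ιL K N).injective

theorem ιL_algebraMap (c : K) :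
    ιL K N (algebraMap K (FK K N) c) =
      algebraMap Qb ↥(S24Export.FL N) (algebraMap K Qb c) := by
  apply Subtype.ext
  rw [coe_ιL, FK.val_algebraMap, FieldDef.coeffMap_algebraMap']
  rfl

theorem ιL_jF : ιL K N (jF K N) = S24Export.jL N := by
  apply Subtype.ext
  rw [coe_ιL, val_jF, FieldDefQ.coe_jL_eq]
  exact coeffMap_jqModC (algebraMap K Qb)

/-- The function field of `X₀(N)` over `K` is finite over `K(j)`. -/
instance instFiniteDimensionalLineFK : FiniteDimensional (Line K (jF K N)) (FK K N) :=
  (FieldDefQ.finrank_le_psi K N).1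

theorem finrank_line_le : Module.finrank (Line K (jF K N)) (FK K N) ≤ dedekindPsi N :=
  (FieldDefQ.finrank_le_psi K N).2

end Bar

/-! ### The discrete valuation ring `A₀` -/

section DVR

variable (K : Type*) [Field K] [Algebra K Qb] [Algebra ℚ K] [FiniteDimensional ℚ K]
  (A : ValuationSubring Qb)

/-- **The base ring.** For a field `K` finite over `ℚ` and embedded in `ℚ̄`, and a valuation
subring `A` of `ℚ̄` over the prime `ℓ`: `A₀ = A ∩ K` is a discrete valuation ring, with a
uniformizer `π`; every nonzero element divides a power of `π`, and the integers prime to `ℓ` are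
units. -/
theorem exists_unif {ℓ : ℕ} (hℓ : ℓ.Prime) (hA : A.LiesOverPrime ℓ) :
    IsDiscreteValuationRing ↥(A0.down K A) ∧
    ∃ π : ↥(A0.down K A), Irreducible π ∧ π ≠ 0 ∧
      IsLocalRing.maximalIdeal ↥(A0.down K A) = Ideal.span {π} ∧
      (∀ c : ↥(A0.down K A), c ≠ 0 → ∃ n : ℕ, c ∣ π ^ n) ∧
      (∀ n : ℕ, n ≠ 0 → ∃ a : ℕ, ((n : ℕ) : ↥(A0.down K A)) ∣ π ^ a) ∧
      (∀ n : ℕ, ¬ ℓ ∣ n → IsUnit ((n : ℕ) : ↥(A0.down K A))) := by
  have hB : (A0.down K A).LiesOverPrime ℓ := (A0.liesOverPrime_down_iff A).mpr hA
  refine ⟨A0.isDiscreteValuationRing _ hℓ hB, ?_⟩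
  obtain ⟨π, hirr, hπ0, hmax, -, harch⟩ := A0.exists_uniformizer _ hℓ hB
  refine ⟨π, hirr, hπ0, hmax, harch, fun n hn => harch _ ?_,
    fun n hn => ResField.isUnit_natCast _ hℓ hB hn⟩
  have hc : CharZero K := charZero_of_injective_algebraMap (algebraMap ℚ K).injective
  intro h0
  have h1 : ((n : ℕ) : K) = 0 := by
    have := congrArg (Subtype.val : ↥(A0.down K A) → K) h0
    simpa using this
  exact hn (by exact_mod_cast h1)

end DVR

end Fermat.Agent.S18.Setup
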