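import Mathlib
import Fermat.Agent.S18.Setup
import Fermat.Agent.S18.ConstBase
import Fermat.Agent.S18.ConstCover
import Fermat.Agent.S18.KummerGeo

/-!
# S18 (route K, bridge): the hypothesis `hconst` on the sealed carriers of `Setup`

The hypothesis `hconst` of the core theorem (`KummerCore.false_of_kummer` for `ℓ ≥ 5`,
`CoverCore.false_of_kummer_cover3/2` for `ℓ = 2, 3`), instantiated on the concrete carriers of
`Setup.lean`:

* `A₀ = ↥(A0.down K A)` (the valuation subring `A ∩ K` of a field `K` embedded in `ℚ̄`), acting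
  through Mathlib's subobject instances;
* `F = FK K N` (the function field `K(j(q^d) : d ∣ N)`), `ι = ιL K N : F → F_L`;
* `E = F[X]/(X^p - Y)` for `ℓ ≥ 5`; `E = F#[X]/(X^p - Y)` with `F# = F[X]/(m0)` for `ℓ = 2, 3`.

Main statements: `hFL_ιL` (`F_K ∩ ℚ̄ = K`), `hconst_sealed` (`ℓ ≥ 5`), `hconst_cover_sealed`
(`ℓ = 2, 3`); with general Kummer generators `hconst_sealed'`, `hconst_cover_sealed'`.
-/

set_option autoImplicit false

open Polynomial ModularCurve

namespace Fermat.Agent.S18.ConstInst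

open Fermat.Agent.S18.Setup

local notation "Qb" => AlgebraicClosure ℚ

section Base

variable (K : Type*) [Field K] [Algebra K Qb] (N : ℕ) [NeZero N]

/-- **`F_K ∩ ℚ̄ = K`** on the sealed carriers: an element of `FK K N` which becomes a constant
of `ℚ̄` in `F_L` is a constant of `K`. -/
theorem hFL_ιL : ∀ x : FK K N,
    (∃ c : Qb, ιL K N x = algebraMap Qb ↥(S24Export.FL N) c) →
      ∃ a : K, x = algebraMap K (FK K N) a := by
  rintro x ⟨c, hc⟩
  have h : coeffMap (algebraMap K Qb) (FK.val K N x) =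
      algebraMap Qb (LaurentSeries Qb) c := by
    rw [← coe_ιL, hc]
    rfl
  obtain ⟨h1, -⟩ := ConstBase.eq_algebraMap_of_coeffMap_eq (algebraMap K Qb) (FK.val K N x) c h
  exact ⟨(FK.val K N x).coeff 0, FK.ext (by rw [FK.val_algebraMap]; exact h1)⟩

end Base

section Const

variable (K : Type*) [Field K] [Algebra K Qb] (N : ℕ) [NeZero N] (A : ValuationSubring Qb)

/-- **`hconst` for `ℓ ≥ 5`, general Kummer generator**: `E` any field over `F = FK K N` with
`E = F(θ)`, `θ ^ p = Y`, `[E : F] = p`, `Y` not a `p`-th power in `F_L`. Every element of `E`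
integral over `A₀ = A ∩ K` is a constant of `A₀`. -/
theorem hconst_sealed' (p : ℕ) (hp : p.Prime) (Y : FK K N)
    (hY : ∀ t : ↥(S24Export.FL N), t ^ p ≠ ιL K N Y)
    {E : Type*} [Field E] [Algebra (FK K N) E] [Algebra ↥(A0.down K A) E]
    [IsScalarTower ↥(A0.down K A) (FK K N) E]
    (θ : E) (hθ : θ ^ p = algebraMap (FK K N) E Y) (hdeg : Module.finrank (FK K N) E = p) :
    ∀ x : E, IsIntegral ↥(A0.down K A) x →
      ∃ c : ↥(A0.down K A), x = algebraMap ↥(A0.down K A) E c :=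
  fun x hx => ConstBase.exists_algebraMap_eq_of_isIntegral_hom (K0 := K) (L := Qb) (ιL K N)
    (ιL_algebraMap K N) (hFL_ιL K N) p hp Y hY θ hθ hdeg x hx

/-- **`hconst` for `ℓ ≥ 5`** on `E = F[X]/(X^p - Y)`, `F = FK K N`. -/
theorem hconst_sealed (p : ℕ) (hp : p.Prime) (Y : FK K N)
    [Fact (Irreducible (KummerGeo.kpoly p Y))]
    (hY : ∀ t : ↥(S24Export.FL N), t ^ p ≠ ιL K N Y) :
    ∀ x : AdjoinRoot (KummerGeo.kpoly p Y), IsIntegral ↥(A0.down K A) x →
      ∃ c : ↥(A0.down K A), x = algebraMap ↥(A0.down K A) (AdjoinRoot (KummerGeo.kpoly p Y)) c :=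
  hconst_sealed' K N A p hp Y hY (AdjoinRoot.root _) (KummerGeo.root_pow p Y)
    (KummerGeo.finrank_eq p Y hp.pos)

/-- **`hconst` for `ℓ = 2, 3`, general Kummer generator**: `F# = F[X]/(m0)` (`F = FK K N`, `m0`
and its image over `F_L` irreducible), `E` any field over `F#` with `E = F#(θ)`, `θ ^ p = Y`,
`[E : F#] = p`, `Y` not a `p`-th power in `F_L[X]/(m0)`. -/
theorem hconst_cover_sealed' (m0 : (FK K N)[X]) (hm0 : m0.Monic) [Fact (Irreducible m0)]
    [Fact (Irreducible (m0.map (ιL K N)))] (p : ℕ) (hp : p.Prime) (Y : AdjoinRoot m0)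
    (hY : ∀ z : AdjoinRoot (m0.map (ιL K N)), z ^ p ≠ CoverField.coverHom (ιL K N) m0 Y)
    {E : Type*} [Field E] [Algebra (AdjoinRoot m0) E] [Algebra ↥(A0.down K A) E]
    [IsScalarTower ↥(A0.down K A) (AdjoinRoot m0) E]
    (θ : E) (hθ : θ ^ p = algebraMap (AdjoinRoot m0) E Y)
    (hdeg : Module.finrank (AdjoinRoot m0) E = p) :
    ∀ x : E, IsIntegral ↥(A0.down K A) x →
      ∃ c : ↥(A0.down K A), x = algebraMap ↥(A0.down K A) E c :=
  ConstCover.hconst_cover (K0 := K) (L := Qb) (ιL K N) (ιL_algebraMap K N) (hFL_ιL K N) m0 hm0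
    p hp Y hY θ hθ hdeg

/-- **`hconst` for `ℓ = 2, 3`** on `E = F#[X]/(X^p - Y)`, `F# = F[X]/(m0)`, `F = FK K N`. -/
theorem hconst_cover_sealed (m0 : (FK K N)[X]) (hm0 : m0.Monic) [Fact (Irreducible m0)]
    [Fact (Irreducible (m0.map (ιL K N)))] (p : ℕ) (hp : p.Prime) (Y : AdjoinRoot m0)
    [Fact (Irreducible (KummerGeo.kpoly p Y))]
    (hY : ∀ z : AdjoinRoot (m0.map (ιL K N)), z ^ p ≠ CoverField.coverHom (ιL K N) m0 Y) :
    ∀ x : AdjoinRoot (KummerGeo.kpoly p Y), IsIntegral ↥(A0.down K A) x →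
      ∃ c : ↥(A0.down K A), x = algebraMap ↥(A0.down K A) (AdjoinRoot (KummerGeo.kpoly p Y)) c :=
  hconst_cover_sealed' K N A m0 hm0 p hp Y hY (AdjoinRoot.root _) (KummerGeo.root_pow p Y)
    (KummerGeo.finrank_eq p Y hp.pos)

end Const

end Fermat.Agent.S18.ConstInst
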