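import Mathlib
import Fermat.Agent.S18.CoreDefs

/-!
# S18, route K, core file L3: the chart ring `A0[t] ⊆ M`

`A0` a discrete valuation ring with uniformizer `π`, `t : M` transcendental over `A0`.  The chart
ring `chart A0 M t = Algebra.adjoin A0 {t}` is identified with the polynomial ring `A0[X]`
(`chartEquiv`); it is Noetherian, integrally closed, a UFD, `π` is a prime element of it, every
maximal ideal containing `π` is `(π, τ)` with `τ` prime, and every nonzero prime ideal not
containing `π` is principal.  `hloc_of_H3` turns the hypothesis `H3Hyp` of `CoreDefs` into the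
local hypothesis of the globalisation step.
-/

set_option autoImplicit false

namespace Fermat.Agent.S18.AdjoinChart

open Polynomial Fermat.Agent.S18.CoreDefs

/-! ### Polynomial ring over a discrete valuation ring -/

section Poly

variable {A0 : Type*} [CommRing A0] [IsDomain A0] [IsDiscreteValuationRing A0]

omit [IsDomain A0] [IsDiscreteValuationRing A0] in
/-- The kernel of reduction modulo `π` on `A0[X]` is generated by `C π`. -/
theorem C_dvd_of_map_eq_zero (π : A0) (g : A0[X])
    (hg : g.map (Ideal.Quotient.mk (Ideal.span {π})) = 0) : C π ∣ g := by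
  rw [C_dvd_iff_dvd_coeff]
  intro i
  have h1 : (Ideal.Quotient.mk (Ideal.span {π})) (g.coeff i) = 0 := by
    have := congrArg (fun p => p.coeff i) hg
    simpa [coeff_map] using this
  rwa [Ideal.Quotient.eq_zero_iff_mem, Ideal.mem_span_singleton] at h1

omit [IsDiscreteValuationRing A0] in
/-- A monic polynomial of positive degree neither divides nor is divisible by `C π`. -/
theorem not_dvd_of_monic (π : A0) (hπ : Irreducible π) (f : A0[X]) (hf : f.Monic)
    (hdeg : f.natDegree ≠ 0) : ¬ f ∣ C π ∧ ¬ C π ∣ f := by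
  constructor
  · intro h
    have h1 := natDegree_le_of_dvd h (C_ne_zero.mpr hπ.ne_zero)
    rw [natDegree_C] at h1
    omega
  · intro h
    rw [C_dvd_iff_dvd_coeff] at h
    have h1 := h f.natDegree
    rw [coeff_natDegree, hf.leadingCoeff] at h1
    exact hπ.not_isUnit (isUnit_of_dvd_one h1)

/-- Every maximal ideal of `A0[X]` containing `π` is `(π, f)` with `f` monic and irreducible
modulo `π`. -/
theorem exists_monic_of_isMaximal (π : A0) (hπ : Irreducible π) (𝔫 : Ideal A0[X])
    (h𝔫 : 𝔫.IsMaximal) (hmem : C π ∈ 𝔫) :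
    ∃ f : A0[X], f.Monic ∧ Irreducible (f.map (Ideal.Quotient.mk (Ideal.span {π}))) ∧
      𝔫 = Ideal.span {C π, f} := by
  classical
  have hImax : (Ideal.span {π} : Ideal A0).IsMaximal :=
    PrincipalIdealRing.isMaximal_of_irreducible hπ
  let _ : Field (A0 ⧸ (Ideal.span {π} : Ideal A0)) := Ideal.Quotient.field _
  set q : A0 →+* A0 ⧸ (Ideal.span {π} : Ideal A0) := Ideal.Quotient.mk _ with hq
  have hqs : Function.Surjective q := Ideal.Quotient.mk_surjective
  set φ : A0[X] →+* (A0 ⧸ (Ideal.span {π} : Ideal A0))[X] := mapRingHom q with hφ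
  have hφs : Function.Surjective φ := map_surjective q hqs
  have hφapp : ∀ g : A0[X], φ g = g.map q := fun g => rfl
  have hkerle : Ideal.comap φ ⊥ ≤ 𝔫 := by
    intro g hg
    rw [Ideal.mem_comap, Ideal.mem_bot, hφapp] at hg
    obtain ⟨c, rfl⟩ := C_dvd_of_map_eq_zero π g hg
    exact 𝔫.mul_mem_right _ hmem
  have hcomap : Ideal.comap φ (Ideal.map φ 𝔫) = 𝔫 := by
    rw [Ideal.comap_map_of_surjective φ hφs]
    exact sup_eq_left.mpr hkerle
  have hmap : (Ideal.map φ 𝔫).IsMaximal := by
    rcases Ideal.map_eq_top_or_isMaximal_of_surjective φ hφs h𝔫 with h | h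
    · exfalso
      rw [h, Ideal.comap_top] at hcomap
      exact h𝔫.ne_top hcomap.symm
    · exact h
  obtain ⟨g, hg⟩ := (IsPrincipalIdealRing.principal (Ideal.map φ 𝔫)).principal
  have hg' : Ideal.map φ 𝔫 = Ideal.span {g} := hg
  have hg0 : g ≠ 0 := by
    rintro rfl
    have hbot : Ideal.map φ 𝔫 = ⊥ := by rw [hg']; simp
    rw [hbot] at hmap
    have hX : (X : (A0 ⧸ (Ideal.span {π} : Ideal A0))[X]) ∉ (⊥ : Ideal _) := by
      rw [Ideal.mem_bot]; exact X_ne_zero
    obtain ⟨y, i, hi, hyi⟩ := hmap.exists_inv hX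
    rw [Ideal.mem_bot] at hi
    rw [hi, add_zero] at hyi
    exact not_isUnit_X (IsUnit.of_mul_eq_one y (by rw [mul_comm]; exact hyi))
  have hgprime : Prime g := by
    rw [← Ideal.span_singleton_prime hg0, ← hg']
    exact hmap.isPrime
  have hlc : g.leadingCoeff⁻¹ ≠ 0 := inv_ne_zero (leadingCoeff_ne_zero.mpr hg0)
  have hassoc : Associated g (g * C g.leadingCoeff⁻¹) :=
    associated_mul_unit_right g _ (isUnit_C.mpr (IsUnit.mk0 _ hlc))
  have hmonic : (g * C g.leadingCoeff⁻¹).Monic := monic_mul_leadingCoeff_inv hg0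
  have hirr : Irreducible (g * C g.leadingCoeff⁻¹) := hassoc.irreducible hgprime.irreducible
  have hspan : Ideal.map φ 𝔫 = Ideal.span {g * C g.leadingCoeff⁻¹} := by
    rw [hg']; exact Ideal.span_singleton_eq_span_singleton.mpr hassoc
  have hlift : (g * C g.leadingCoeff⁻¹) ∈ lifts q :=
    (mem_lifts _).mpr (map_surjective q hqs _)
  obtain ⟨f, hfmap, -, hfmonic⟩ := lifts_and_natDegree_eq_and_monic hlift hmonic
  refine ⟨f, hfmonic, by rw [hfmap]; exact hirr, ?_⟩
  apply le_antisymm
  · intro x hx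
    have h1 : φ x ∈ Ideal.map φ 𝔫 := Ideal.mem_map_of_mem φ hx
    rw [hspan, Ideal.mem_span_singleton] at h1
    obtain ⟨r', hr'⟩ := h1
    obtain ⟨r, rfl⟩ := hφs r'
    have h2 : (x - f * r).map q = 0 := by
      rw [Polynomial.map_sub, Polynomial.map_mul, hfmap]
      rw [hφapp, hφapp] at hr'
      rw [hr', sub_self]
    obtain ⟨c, hc⟩ := C_dvd_of_map_eq_zero π _ h2
    rw [Ideal.mem_span_pair]
    exact ⟨c, r, by linear_combination -hc⟩
  · rw [Ideal.span_le]
    intro x hx
    rcases hx with rfl | rfl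
    · exact hmem
    · have h1 : φ x ∈ Ideal.map φ 𝔫 := by
        rw [hspan, hφapp, hfmap]
        exact Ideal.mem_span_singleton_self _
      have h2 : x ∈ Ideal.comap φ (Ideal.map φ 𝔫) := h1
      rwa [hcomap] at h2

/-- A monic polynomial whose reduction modulo `π` is irreducible is a prime element of positive
degree. -/
theorem prime_of_monic_of_irreducible_map (π : A0) (hπ : Irreducible π) (f : A0[X])
    (hf : f.Monic) (hirr : Irreducible (f.map (Ideal.Quotient.mk (Ideal.span {π})))) :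
    Prime f ∧ f.natDegree ≠ 0 := by
  have hImax : (Ideal.span {π} : Ideal A0).IsMaximal :=
    PrincipalIdealRing.isMaximal_of_irreducible hπ
  let _ : Field (A0 ⧸ (Ideal.span {π} : Ideal A0)) := Ideal.Quotient.field _
  refine ⟨UniqueFactorizationMonoid.irreducible_iff_prime.mp
    (Monic.irreducible_of_irreducible_map _ f hf hirr), ?_⟩
  intro h0
  have h1 : f = 1 := by
    have := eq_C_of_natDegree_eq_zero h0
    have hc : f.coeff 0 = 1 := by
      have h2 := hf.leadingCoeff
      rwa [leadingCoeff, h0] at h2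
    rw [this, hc, C_1]
  rw [h1, Polynomial.map_one] at hirr
  exact not_irreducible_one hirr

/-- `(π, X - c)` is a maximal ideal of `A0[X]`. -/
theorem isMaximal_span_X_sub_C (π : A0) (hπ : Irreducible π) (c : A0) :
    (Ideal.span {C π, X - C c} : Ideal A0[X]).IsMaximal := by
  have hImax : (Ideal.span {π} : Ideal A0).IsMaximal :=
    PrincipalIdealRing.isMaximal_of_irreducible hπ
  let _ : Field (A0 ⧸ (Ideal.span {π} : Ideal A0)) := Ideal.Quotient.field _
  set ev : A0[X] →+* A0 ⧸ (Ideal.span {π} : Ideal A0) :=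
    (Ideal.Quotient.mk _).comp (evalRingHom c) with hev
  have hevs : Function.Surjective ev := by
    intro y
    obtain ⟨a, rfl⟩ := Ideal.Quotient.mk_surjective y
    exact ⟨C a, by simp [hev]⟩
  have hker : RingHom.ker ev = Ideal.span {C π, X - C c} := by
    apply le_antisymm
    · intro p hp
      rw [RingHom.mem_ker, hev, RingHom.comp_apply, Ideal.Quotient.eq_zero_iff_mem,
        Ideal.mem_span_singleton] at hp
      obtain ⟨a, ha⟩ := hp
      obtain ⟨r, hr⟩ := X_sub_C_dvd_sub_C_eval (a := c) (p := p)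
      rw [Ideal.mem_span_pair]
      refine ⟨C a, r, ?_⟩
      have h1 : eval c p = π * a := ha
      have h2 : p = (X - C c) * r + C (eval c p) := by rw [← hr]; ring
      rw [h2, h1, C_mul]; ring
    · rw [Ideal.span_le]
      intro x hx
      rcases hx with rfl | rfl
      · show ev (C π) = 0
        simp [hev]
      · show ev (X - C c) = 0
        simp [hev]
  rw [← hker]
  exact RingHom.ker_isMaximal_of_surjective ev hevs

/-- A nonzero prime ideal of `A0[X]` not containing `π` is principal, generated by a prime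
element. -/
theorem exists_prime_eq_span (π : A0) (hπ : Irreducible π) (𝔭 : Ideal A0[X]) (h𝔭 : 𝔭.IsPrime)
    (hne : 𝔭 ≠ ⊥) (hmem : C π ∉ 𝔭) : ∃ g : A0[X], Prime g ∧ 𝔭 = Ideal.span {g} := by
  classical
  obtain ⟨g, hg𝔭, hgprime⟩ := h𝔭.exists_mem_prime_of_ne_bot hne
  refine ⟨g, hgprime, le_antisymm ?_ ((Ideal.span_singleton_le_iff_mem 𝔭).mpr hg𝔭)⟩
  -- constants of `𝔭` vanish
  have hconst : ∀ a : A0, C a ∈ 𝔭 → a = 0 := by
    intro a ha
    by_contra ha0
    obtain ⟨n, hn⟩ := IsDiscreteValuationRing.associated_pow_irreducible ha0 hπ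
    obtain ⟨u, hu⟩ := hn.symm
    have h1 : C π ^ n ∈ 𝔭 := by
      have : C π ^ n = C a * C (↑u⁻¹ : A0) := by
        rw [← C_pow, ← C_mul, ← hu, mul_assoc, Units.mul_inv, mul_one]
      rw [this]
      exact 𝔭.mul_mem_right _ ha
    exact hmem (h𝔭.mem_of_pow_mem n h1)
  -- `g` has positive degree, hence is primitive
  have hgdeg : g.natDegree ≠ 0 := by
    intro h0
    have h1 := eq_C_of_natDegree_eq_zero h0
    have h2 : g.coeff 0 = 0 := hconst _ (h1 ▸ hg𝔭)
    rw [h2, C_0] at h1
    exact hgprime.ne_zero h1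
  have hgprim : g.IsPrimitive := hgprime.irreducible.isPrimitive hgdeg
  have hgirr : Irreducible (g.map (algebraMap A0 (FractionRing A0))) :=
    (hgprim.irreducible_iff_irreducible_map_fraction_map).mp hgprime.irreducible
  intro x hx
  rw [Ideal.mem_span_singleton]
  apply hgprim.dvd_of_fraction_map_dvd_fraction_map (K := FractionRing A0)
  by_contra hndvd
  obtain ⟨u, v, huv⟩ := (hgirr.coprime_iff_not_dvd).mpr hndvd
  obtain ⟨b₁, hb₁, hU⟩ := IsLocalization.integerNormalization_spec (nonZeroDivisors A0) u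
  obtain ⟨b₂, hb₂, hV⟩ := IsLocalization.integerNormalization_spec (nonZeroDivisors A0) v
  set U := IsLocalization.integerNormalization (nonZeroDivisors A0) u
  set V := IsLocalization.integerNormalization (nonZeroDivisors A0) v
  have hinj : Function.Injective (Polynomial.map (algebraMap A0 (FractionRing A0))) :=
    map_injective _ (IsFractionRing.injective A0 (FractionRing A0))
  have hU' : U.map (algebraMap A0 (FractionRing A0)) =
      C (algebraMap A0 (FractionRing A0) b₁) * u := by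
    rw [hU, Algebra.smul_def, Polynomial.algebraMap_apply]
  have hV' : V.map (algebraMap A0 (FractionRing A0)) =
      C (algebraMap A0 (FractionRing A0) b₂) * v := by
    rw [hV, Algebra.smul_def, Polynomial.algebraMap_apply]
  have hkey : C b₂ * U * g + C b₁ * V * x = C (b₁ * b₂) := by
    apply hinj
    simp only [Polynomial.map_add, Polynomial.map_mul, Polynomial.map_C, hU', hV', map_mul]
    linear_combination (C (algebraMap A0 (FractionRing A0) b₁) *
      C (algebraMap A0 (FractionRing A0) b₂)) * huv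
  have hmem' : C (b₁ * b₂) ∈ 𝔭 := by
    rw [← hkey]
    exact 𝔭.add_mem (𝔭.mul_mem_left _ hg𝔭) (𝔭.mul_mem_left _ hx)
  have := hconst _ hmem'
  exact mul_ne_zero (nonZeroDivisors.ne_zero hb₁) (nonZeroDivisors.ne_zero hb₂) this

end Poly

/-! ### The chart ring -/

section Chart

variable {A0 : Type*} [CommRing A0] (M : Type*) [Field M] [Algebra A0 M]

/-- The chart ring `A0[t]` is the polynomial ring (`X ↦ t`). -/
noncomputable def chartEquiv (t : M) (ht : Transcendental A0 t) : A0[X] ≃ₐ[A0] chart A0 M t :=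
  (AlgEquiv.ofInjective (aeval t) (transcendental_iff_injective.mp ht)).trans
    (Subalgebra.equivOfEq _ _ (Algebra.adjoin_singleton_eq_range_aeval A0 t).symm)

theorem coe_chartEquiv (t : M) (ht : Transcendental A0 t) (p : A0[X]) :
    ((chartEquiv M t ht p : chart A0 M t) : M) = aeval t p := rfl

theorem chartEquiv_X (t : M) (ht : Transcendental A0 t) :
    chartEquiv M t ht X = coord A0 M t := by
  apply Subtype.ext
  rw [coe_chartEquiv, aeval_X]
  rfl

theorem chartEquiv_C (t : M) (ht : Transcendental A0 t) (a : A0) :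
    chartEquiv M t ht (C a) = algebraMap A0 (chart A0 M t) a := by
  apply Subtype.ext
  rw [coe_chartEquiv, aeval_C]
  rfl

theorem chartEquiv_C_unif (t : M) (ht : Transcendental A0 t) (π : A0) :
    chartEquiv M t ht (C π) = unif A0 M t π :=
  chartEquiv_C M t ht π

theorem chartEquiv_X_sub_C (t : M) (ht : Transcendental A0 t) (c : A0) :
    chartEquiv M t ht (X - C c) = coord A0 M t - algebraMap A0 (chart A0 M t) c := by
  rw [map_sub, chartEquiv_X, chartEquiv_C]

/-- `M` is the fraction field of the chart ring as soon as every element of `M` is a quotient of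
chart elements. -/
theorem isFractionRing (t : M)
    (hgen : ∀ m : M, ∃ a b : chart A0 M t, b ≠ 0 ∧ m * (b : M) = (a : M)) :
    IsFractionRing (chart A0 M t) M := by
  have : FaithfulSMul (chart A0 M t) M :=
    (faithfulSMul_iff_algebraMap_injective _ _).mpr Subtype.val_injective
  refine IsFractionRing.of_field (chart A0 M t) M fun z => ?_
  obtain ⟨a, b, hb, hab⟩ := hgen z
  refine ⟨a, b, ?_⟩
  have hb' : (b : M) ≠ 0 := fun h => hb (Subtype.ext h)
  exact eq_div_of_mul_eq hb' hab

/-- Transport of the residue-characteristic hypothesis to the chart ring. -/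
theorem hchar_chart (t : M) (π : A0) (hchar : ∀ n : ℕ, n ≠ 0 → ∃ a : ℕ, (n : A0) ∣ π ^ a) :
    ∀ n : ℕ, n ≠ 0 → ∃ a : ℕ, ((n : ℕ) : chart A0 M t) ∣ unif A0 M t π ^ a := by
  intro n hn
  obtain ⟨a, ha⟩ := hchar n hn
  refine ⟨a, ?_⟩
  have h1 := map_dvd (algebraMap A0 (chart A0 M t)) ha
  rwa [map_natCast, map_pow] at h1

variable [IsDomain A0] [IsDiscreteValuationRing A0]

theorem isNoetherianRing (t : M) (ht : Transcendental A0 t) : IsNoetherianRing (chart A0 M t) :=
  isNoetherianRing_of_ringEquiv A0[X] (chartEquiv M t ht).toRingEquiv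

theorem isIntegrallyClosed (t : M) (ht : Transcendental A0 t) :
    IsIntegrallyClosed (chart A0 M t) :=
  IsIntegrallyClosed.of_equiv (chartEquiv M t ht).toRingEquiv

theorem uniqueFactorizationMonoid (t : M) (ht : Transcendental A0 t) :
    UniqueFactorizationMonoid (chart A0 M t) :=
  MulEquiv.uniqueFactorizationMonoid (chartEquiv M t ht).toMulEquiv inferInstance

/-- `π` is a prime element of the chart ring. -/
theorem prime_unif (t : M) (ht : Transcendental A0 t) (π : A0) (hπ : Irreducible π) :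
    Prime (unif A0 M t π) := by
  rw [← chartEquiv_C_unif M t ht π]
  exact (MulEquiv.prime_iff (chartEquiv M t ht)).mpr (prime_C_iff.mpr hπ.prime)

/-- Every nonzero prime ideal of the chart ring not containing `π` is principal, generated by a
prime element. -/
theorem exists_prime_eq_span_of_unif_notMem (t : M) (ht : Transcendental A0 t) (π : A0)
    (hπ : Irreducible π) (𝔭 : Ideal (chart A0 M t)) (h𝔭 : 𝔭.IsPrime) (hne : 𝔭 ≠ ⊥)
    (hπ𝔭 : unif A0 M t π ∉ 𝔭) : ∃ g : chart A0 M t, Prime g ∧ 𝔭 = Ideal.span {g} := by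
  set e : A0[X] ≃+* chart A0 M t := (chartEquiv M t ht).toRingEquiv with he
  have hmc : Ideal.map e (Ideal.comap e 𝔭) = 𝔭 := Ideal.map_comap_of_surjective e e.surjective 𝔭
  have h𝔭' : (Ideal.comap e 𝔭).IsPrime := Ideal.comap_isPrime e 𝔭
  have hne' : Ideal.comap e 𝔭 ≠ ⊥ := by
    intro h
    rw [h, Ideal.map_bot] at hmc
    exact hne hmc.symm
  have hmem' : C π ∉ Ideal.comap e 𝔭 := by
    rw [Ideal.mem_comap]
    intro h
    exact hπ𝔭 (by rw [← chartEquiv_C_unif M t ht π]; exact h)
  obtain ⟨g, hg, hspan⟩ := exists_prime_eq_span π hπ _ h𝔭' hne' hmem'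
  refine ⟨e g, (MulEquiv.prime_iff e).mpr hg, ?_⟩
  rw [← hmc, hspan, Ideal.map_span, Set.image_singleton]

omit [IsDomain A0] [IsDiscreteValuationRing A0] in
/-- Transport of a generating pair of a maximal ideal from `A0[X]` to the chart ring. -/
theorem transport_pair (t : M) (ht : Transcendental A0 t) (π : A0)
    (𝔫 : Ideal (chart A0 M t)) (τ' : A0[X])
    (h1 : Ideal.comap (chartEquiv M t ht).toRingEquiv 𝔫 = Ideal.span {C π, τ'}) (h2 : Prime τ')
    (h3 : ¬ τ' ∣ C π) (h4 : ¬ C π ∣ τ') :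
    𝔫 = Ideal.span {unif A0 M t π, chartEquiv M t ht τ'} ∧ Prime (chartEquiv M t ht τ') ∧
      ¬ chartEquiv M t ht τ' ∣ unif A0 M t π ∧ ¬ unif A0 M t π ∣ chartEquiv M t ht τ' := by
  classical
  set e : A0[X] ≃+* chart A0 M t := (chartEquiv M t ht).toRingEquiv with he
  have heC : e (C π) = unif A0 M t π := chartEquiv_C_unif M t ht π
  have hmc : Ideal.map e (Ideal.comap e 𝔫) = 𝔫 := Ideal.map_comap_of_surjective e e.surjective 𝔫
  have hee : ∀ x, chartEquiv M t ht x = e x := fun x => rfl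
  rw [hee]
  refine ⟨?_, (MulEquiv.prime_iff e).mpr h2, ?_, ?_⟩
  · rw [← hmc, h1, Ideal.map_span, Set.image_pair, heC]
  · rw [← heC]
    intro h
    exact h3 ((map_dvd_iff e).mp h)
  · rw [← heC]
    intro h
    exact h4 ((map_dvd_iff e).mp h)

/-- If `t - c` lies in the maximal ideal `𝔫 ∋ π` of the chart ring, then `𝔫 = (π, t - c)` and
`t - c` is a prime element. -/
theorem eq_span_of_sub_mem (t : M) (ht : Transcendental A0 t) (π : A0) (hπ : Irreducible π)
    (𝔫 : Ideal (chart A0 M t)) (h𝔫 : 𝔫.IsMaximal) (hmem : unif A0 M t π ∈ 𝔫) (c : A0)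
    (hc : coord A0 M t - algebraMap A0 (chart A0 M t) c ∈ 𝔫) :
    𝔫 = Ideal.span {unif A0 M t π, coord A0 M t - algebraMap A0 (chart A0 M t) c} ∧
      Prime (coord A0 M t - algebraMap A0 (chart A0 M t) c) ∧
      ¬ (coord A0 M t - algebraMap A0 (chart A0 M t) c) ∣ unif A0 M t π ∧
      ¬ unif A0 M t π ∣ (coord A0 M t - algebraMap A0 (chart A0 M t) c) := by
  classical
  set e : A0[X] ≃+* chart A0 M t := (chartEquiv M t ht).toRingEquiv with he
  have heC : e (C π) = unif A0 M t π := chartEquiv_C_unif M t ht π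
  have heX : e (X - C c) = coord A0 M t - algebraMap A0 (chart A0 M t) c :=
    chartEquiv_X_sub_C M t ht c
  have := h𝔫
  have h𝔫' : (Ideal.comap e 𝔫).IsMaximal := Ideal.comap_isMaximal_of_surjective e e.surjective
  have hle : Ideal.span {C π, X - C c} ≤ Ideal.comap e 𝔫 := by
    rw [Ideal.span_le]
    intro x hx
    rcases hx with rfl | rfl
    · show e (C π) ∈ 𝔫
      rw [heC]; exact hmem
    · show e (X - C c) ∈ 𝔫
      rw [heX]; exact hc
  have heq : Ideal.comap e 𝔫 = Ideal.span {C π, X - C c} :=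
    ((isMaximal_span_X_sub_C π hπ c).eq_of_le h𝔫'.ne_top hle).symm
  have hdeg : (X - C c : A0[X]).natDegree ≠ 0 := by
    rw [natDegree_X_sub_C]; exact one_ne_zero
  obtain ⟨h3, h4⟩ := not_dvd_of_monic π hπ (X - C c) (monic_X_sub_C c) hdeg
  have := transport_pair M t ht π 𝔫 (X - C c) heq (prime_X_sub_C c) h3 h4
  rwa [chartEquiv_X_sub_C] at this

/-- Every maximal ideal of the chart ring containing `π` is `(π, τ)` with `τ` a prime
element. -/
theorem exists_prime_of_isMaximal (t : M) (ht : Transcendental A0 t) (π : A0)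
    (hπ : Irreducible π) (𝔫 : Ideal (chart A0 M t)) (h𝔫 : 𝔫.IsMaximal)
    (hmem : unif A0 M t π ∈ 𝔫) :
    ∃ τ : chart A0 M t, 𝔫 = Ideal.span {unif A0 M t π, τ} ∧ Prime τ ∧ ¬ τ ∣ unif A0 M t π ∧
      ¬ unif A0 M t π ∣ τ := by
  classical
  set e : A0[X] ≃+* chart A0 M t := (chartEquiv M t ht).toRingEquiv with he
  have heC : e (C π) = unif A0 M t π := chartEquiv_C_unif M t ht π
  have := h𝔫
  have h𝔫' : (Ideal.comap e 𝔫).IsMaximal := Ideal.comap_isMaximal_of_surjective e e.surjective
  have hmem' : C π ∈ Ideal.comap e 𝔫 := by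
    show e (C π) ∈ 𝔫
    rw [heC]; exact hmem
  obtain ⟨f, hfm, hfirr, hfspan⟩ := exists_monic_of_isMaximal π hπ _ h𝔫' hmem'
  obtain ⟨hfprime, hfdeg⟩ := prime_of_monic_of_irreducible_map π hπ f hfm hfirr
  obtain ⟨h3, h4⟩ := not_dvd_of_monic π hπ f hfm hfdeg
  exact ⟨chartEquiv M t ht f, transport_pair M t ht π 𝔫 f hfspan hfprime h3 h4⟩

/-- **L3.** The local hypothesis of the globalisation step from `H3Hyp`: every maximal ideal
`𝔫 ∋ π` of the chart ring is `(π, τ)` with `τ` prime, and the fibre of the integral closure is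
reduced at every nonzero prime `𝔭 ⊆ 𝔫` other than `(π)`, `(τ)`. -/
theorem hloc_of_H3 (E : Type*) [Field E] [Algebra M E] [Algebra A0 E] [IsScalarTower A0 M E]
    (t : M) (ht : Transcendental A0 t) (π : A0) (hπ : Irreducible π) (Crit : Finset A0)
    (h3 : H3Hyp A0 M E t π Crit) :
    ∀ 𝔫 : Ideal (chart A0 M t), 𝔫.IsMaximal → unif A0 M t π ∈ 𝔫 →
      ∃ τ : chart A0 M t, 𝔫 = Ideal.span {unif A0 M t π, τ} ∧ Prime τ ∧ ¬ τ ∣ unif A0 M t π ∧
        ¬ unif A0 M t π ∣ τ ∧
        ∀ 𝔭 : Ideal (chart A0 M t), 𝔭.IsPrime → 𝔭 ≠ ⊥ → 𝔭 ≤ 𝔫 → unif A0 M t π ∉ 𝔭 → τ ∉ 𝔭 →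
          ReducedAt A0 M E t 𝔭 := by
  classical
  intro 𝔫 h𝔫 hmem
  obtain ⟨hcoll, hred⟩ := h3
  by_cases hc : ∃ c ∈ Crit, coord A0 M t - algebraMap A0 (chart A0 M t) c ∈ 𝔫
  · obtain ⟨c, hcC, hcmem⟩ := hc
    obtain ⟨h1, h2, h3', h4⟩ := eq_span_of_sub_mem M t ht π hπ 𝔫 h𝔫 hmem c hcmem
    refine ⟨_, h1, h2, h3', h4, ?_⟩
    intro 𝔭 h𝔭 hne hle hπ𝔭 hτ𝔭
    refine hred 𝔭 h𝔭 hne hπ𝔭 ?_
    intro c' hc'C hc'mem
    by_cases hcc : c' = c
    · rw [hcc] at hc'mem
      exact hτ𝔭 hc'mem
    · have hu : IsUnit (c' - c) := hcoll c' hc'C c hcC hcc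
      have h5 : algebraMap A0 (chart A0 M t) (c' - c) ∈ 𝔫 := by
        have h6 := 𝔫.sub_mem hcmem (hle hc'mem)
        have h7 : (coord A0 M t - algebraMap A0 (chart A0 M t) c) -
            (coord A0 M t - algebraMap A0 (chart A0 M t) c') =
            algebraMap A0 (chart A0 M t) (c' - c) := by
          rw [map_sub]; ring
        rwa [h7] at h6
      exact h𝔫.ne_top (Ideal.eq_top_of_isUnit_mem _ h5 (hu.map _))
  · obtain ⟨τ, h1, h2, h3', h4⟩ := exists_prime_of_isMaximal M t ht π hπ 𝔫 h𝔫 hmem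
    refine ⟨τ, h1, h2, h3', h4, ?_⟩
    intro 𝔭 h𝔭 hne hle hπ𝔭 _
    refine hred 𝔭 h𝔭 hne hπ𝔭 ?_
    intro c' hc'C hc'mem
    exact hc ⟨c', hc'C, hle hc'mem⟩

end Chart

end Fermat.Agent.S18.AdjoinChart
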