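import Mathlib

/-!
# S18: the minimal-polynomial trick

`R` an integrally closed domain with fraction field `M`, `E / M` a field extension, `π ∈ R` a prime
element and `r ∈ R` not divisible by `π`.  If `π y` and `r y` are both integral over `R`, then so
is `y`.  (So `C / π C` is torsion-free over `R / π` for the integral closure `C` of `R`.)
-/

set_option autoImplicit false

open Polynomial

namespace Fermat.Agent.S18.IntTrick

variable {R : Type*} [CommRing R] [IsDomain R] [IsIntegrallyClosed R]
  {M : Type*} [Field M] [Algebra R M] [IsFractionRing R M]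
  {E : Type*} [Field E] [Algebra M E] [Algebra R E] [IsScalarTower R M E]

/-- coefficients of the minimal polynomial over `M` of `y`, scaled, are in `R` when `c y` is
integral over `R`. -/
theorem exists_coeff_mul_pow {c : R} (hc : c ≠ 0) {y : E} (hy : IsIntegral M y)
    (h : IsIntegral R (c • y)) (i : ℕ) :
    ∃ a : R, algebraMap R M a =
      (minpoly M y).coeff i * algebraMap R M c ^ ((minpoly M y).natDegree - i) := by
  have hcK : algebraMap R M c ≠ 0 := by
    simpa using hc
  have h1 : minpoly M (c • y) = (minpoly R (c • y)).map (algebraMap R M) :=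
    minpoly.isIntegrallyClosed_eq_field_fractions' M h
  have h2 : minpoly M (algebraMap R M c • y) = (minpoly M y).scaleRoots (algebraMap R M c) :=
    IsIntegrallyClosed.minpoly_smul hcK hy
  rw [algebraMap_smul] at h2
  refine ⟨(minpoly R (c • y)).coeff i, ?_⟩
  rw [← Polynomial.coeff_map, ← h1, h2, Polynomial.coeff_scaleRoots]

/-- an element `y` with `c y` integral over `R` (`c ≠ 0`) is algebraic over the fraction field. -/
theorem isIntegral_field_of_smul {c : R} (hc : c ≠ 0) {y : E} (h : IsIntegral R (c • y)) :
    IsIntegral M y := by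
  have hcK : algebraMap R M c ≠ 0 := by
    simpa using hc
  have h1 : IsIntegral M (c • y) := h.tower_top
  have h2 : IsIntegral M ((algebraMap R M c)⁻¹ • (c • y)) := h1.smul _
  have h3 : (algebraMap R M c)⁻¹ • (c • y) = y := by
    rw [← algebraMap_smul M c y, smul_smul, inv_mul_cancel₀ hcK, one_smul]
  rwa [h3] at h2

/-- **The minimal-polynomial trick**: if `π y` and `r y` are integral over the integrally closed
domain `R`, with `π` prime and `π ∤ r`, then `y` is integral over `R`. -/
theorem isIntegral_of_smul_of_smul {R : Type*} [CommRing R] [IsDomain R] [IsIntegrallyClosed R]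
    {M : Type*} [Field M] [Algebra R M] [IsFractionRing R M]
    {E : Type*} [Field E] [Algebra M E] [Algebra R E] [IsScalarTower R M E]
    (π r : R) (hπ : Prime π) (hr : ¬ π ∣ r) (y : E)
    (h1 : IsIntegral R (π • y)) (h2 : IsIntegral R (r • y)) : IsIntegral R y := by
  have hy : IsIntegral M y := isIntegral_field_of_smul hπ.ne_zero h1
  have hs0 : r ≠ 0 := fun h => hr (h ▸ dvd_zero π)
  have hcoeff : ∀ i, (minpoly M y).coeff i ∈ (algebraMap R M).range := by
    intro i
    obtain ⟨a, ha⟩ := exists_coeff_mul_pow hπ.ne_zero hy h1 i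
    obtain ⟨b, hb⟩ := exists_coeff_mul_pow hs0 hy h2 i
    set k := (minpoly M y).natDegree - i
    have hab : a * r ^ k = b * π ^ k := by
      apply FaithfulSMul.algebraMap_injective R M
      rw [map_mul, map_mul, map_pow, map_pow, ha, hb]
      ring
    have hdvd : π ^ k ∣ a := by
      have hsk : ¬ π ∣ r ^ k := fun h => hr (hπ.dvd_of_dvd_pow h)
      exact hπ.pow_dvd_of_dvd_mul_right k hsk ⟨b, by rw [hab, mul_comm]⟩
    obtain ⟨c, rfl⟩ := hdvd
    refine ⟨c, ?_⟩
    have hℓK : (algebraMap R M π) ^ k ≠ 0 := pow_ne_zero _ (by simpa using hπ.ne_zero)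
    rw [map_mul, map_pow, mul_comm] at ha
    exact mul_right_cancel₀ hℓK ha
  have hlifts : minpoly M y ∈ Polynomial.lifts (algebraMap R M) :=
    (Polynomial.lifts_iff_coeff_lifts _).mpr hcoeff
  obtain ⟨P, hP, -, hPm⟩ :=
    Polynomial.lifts_and_natDegree_eq_and_monic hlifts (minpoly.monic hy)
  refine ⟨P, hPm, ?_⟩
  have := minpoly.aeval M y
  rw [← hP, Polynomial.aeval_map_algebraMap] at this
  rwa [← Polynomial.aeval_def]

/-- variant: every element `x` of `E` that is integral over `R` and of the form `π y` with
`r y` integral (`π ∤ r`) is `π` times an integral element. -/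
theorem exists_eq_smul_of_smul_eq_smul {R : Type*} [CommRing R] [IsDomain R]
    [IsIntegrallyClosed R]
    {M : Type*} [Field M] [Algebra R M] [IsFractionRing R M]
    {E : Type*} [Field E] [Algebra M E] [Algebra R E] [IsScalarTower R M E]
    (π r : R) (hπ : Prime π) (hr : ¬ π ∣ r) (x c : E)
    (hx : IsIntegral R x) (hc : IsIntegral R c) (h : r • x = π • c) :
    ∃ y : E, IsIntegral R y ∧ x = π • y := by
  have hπM : algebraMap R M π ≠ 0 := by
    simpa using hπ.ne_zero
  refine ⟨(algebraMap R M π)⁻¹ • x, ?_, ?_⟩
  · apply isIntegral_of_smul_of_smul (M := M) π r hπ hr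
    · rw [← algebraMap_smul M π, smul_smul, mul_inv_cancel₀ hπM, one_smul]
      exact hx
    · rw [← algebraMap_smul M r, smul_comm, algebraMap_smul, h, ← algebraMap_smul M π c,
        smul_smul, inv_mul_cancel₀ hπM, one_smul]
      exact hc
  · rw [← algebraMap_smul M π, smul_smul, mul_inv_cancel₀ hπM, one_smul]

end Fermat.Agent.S18.IntTrick
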