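import Mathlib
import Fermat.Agent.S18.CoreDefs
import Fermat.Agent.S18.IntTrick

/-!
# S18, route K, bridge for `ℓ = 2, 3`: change of the base line

`M ⊆ M' ⊆ F` fields, `t : M` the coordinate of the old base line (`t = j`), `t' : M'` the
coordinate of the new one (`t' = h` or `t' = h⁻¹`), related by

* `t'` is integral over `A0[t]`;
* there is `u ∈ A0[t']`, not divisible by `π`, with `u⁻¹` integral over `A0[t]` and
  `t * u ^ K ∈ A0[t']`  (for `j = (h + 256) ^ 3 / h ^ 2`: `u = h`, `K = 2`).

Then the hypothesis `(H2)` and the Gauss predicates `InGauss`, `InPiGauss` of `CoreDefs`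
pass from the chart `A0[t]` to the chart `A0[t']`.
-/

set_option autoImplicit false

namespace Fermat.Agent.S18.BaseLine

open Polynomial Fermat.Agent.S18.CoreDefs

/-- A root of a monic polynomial whose coefficients lie in the image of `R` is integral
over `R`. -/
theorem isIntegral_of_monic_of_coeff_mem {R F : Type*} [CommRing R] [CommRing F] [Algebra R F]
    (p : F[X]) (hp : p.Monic) (hc : ∀ i, p.coeff i ∈ (algebraMap R F).range) (y : F)
    (hy : p.eval y = 0) : IsIntegral R y := by
  have hl : p ∈ Polynomial.lifts (algebraMap R F) := by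
    rw [Polynomial.lifts_iff_coeff_lifts]
    intro n
    exact hc n
  obtain ⟨q, hq, -, hqm⟩ := Polynomial.lifts_and_natDegree_eq_and_monic hl hp
  exact ⟨q, hqm, by rw [← Polynomial.eval_map, hq]; exact hy⟩

variable {A0 : Type*} [CommRing A0]
  (M : Type*) [Field M] [Algebra A0 M]
  (M' : Type*) [Field M'] [Algebra A0 M'] [Algebra M M'] [IsScalarTower A0 M M']

/-- Elements of `A0[t]` become elements of `A0[t']` after multiplication by a large power of
`u`. -/
theorem exists_mul_pow_mem (t : M) (t' : M') (u : chart A0 M' t') (K : ℕ)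
    (htu : algebraMap M M' t * (u : M') ^ K ∈ chart A0 M' t') (a : M)
    (ha : a ∈ chart A0 M t) :
    ∃ n : ℕ, ∀ m, n ≤ m → algebraMap M M' a * (u : M') ^ m ∈ chart A0 M' t' := by
  induction ha using Algebra.adjoin_induction with
  | mem x hx =>
    rw [Set.mem_singleton_iff] at hx
    subst hx
    refine ⟨K, fun m hm => ?_⟩
    obtain ⟨d, rfl⟩ := Nat.exists_eq_add_of_le hm
    rw [pow_add, ← mul_assoc]
    exact mul_mem htu (pow_mem u.2 d)
  | algebraMap r =>
    refine ⟨0, fun m _ => ?_⟩
    rw [← IsScalarTower.algebraMap_apply A0 M M']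
    exact mul_mem (Subalgebra.algebraMap_mem _ r) (pow_mem u.2 m)
  | add x y _ _ hx hy =>
    obtain ⟨n₁, h₁⟩ := hx
    obtain ⟨n₂, h₂⟩ := hy
    refine ⟨max n₁ n₂, fun m hm => ?_⟩
    rw [map_add, add_mul]
    exact add_mem (h₁ m (le_of_max_le_left hm)) (h₂ m (le_of_max_le_right hm))
  | mul x y _ _ hx hy =>
    obtain ⟨n₁, h₁⟩ := hx
    obtain ⟨n₂, h₂⟩ := hy
    refine ⟨n₁ + n₂, fun m hm => ?_⟩
    obtain ⟨d, rfl⟩ := Nat.exists_eq_add_of_le hm
    have h3 : algebraMap M M' (x * y) * (u : M') ^ (n₁ + n₂ + d) =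
        (algebraMap M M' x * (u : M') ^ n₁) * (algebraMap M M' y * (u : M') ^ (n₂ + d)) := by
      rw [map_mul]; ring
    rw [h3]
    exact mul_mem (h₁ n₁ le_rfl) (h₂ (n₂ + d) (Nat.le_add_right _ _))

/-- Every element of `A0[t']` is integral over `A0[t]`. -/
theorem isIntegral_of_mem_chart (t : M) (t' : M') (ht' : IsIntegral (chart A0 M t) t')
    (b : M') (hb : b ∈ chart A0 M' t') : IsIntegral (chart A0 M t) b := by
  induction hb using Algebra.adjoin_induction with
  | mem x hx =>
    rw [Set.mem_singleton_iff] at hx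
    subst hx
    exact ht'
  | algebraMap r =>
    have h : algebraMap A0 M' r = algebraMap (chart A0 M t) M' (algebraMap A0 (chart A0 M t) r) := by
      rw [IsScalarTower.algebraMap_apply A0 M M']
      rfl
    rw [h]
    exact isIntegral_algebraMap
  | add x y _ _ hx hy => exact hx.add hy
  | mul x y _ _ hx hy => exact hx.mul hy


variable (F : Type*) [Field F] [Algebra M F] [Algebra M' F] [Algebra A0 F]
  [IsScalarTower A0 M F] [IsScalarTower A0 M' F] [IsScalarTower M M' F]

omit [Algebra A0 F] [IsScalarTower A0 M F] [IsScalarTower A0 M' F] in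
/-- An element of `F` integral over `A0[t]` becomes integral over `A0[t']` after multiplication
by a power of `u`. -/
theorem isIntegral_pow_smul (t : M) (t' : M') (u : chart A0 M' t') (K : ℕ)
    (htu : algebraMap M M' t * (u : M') ^ K ∈ chart A0 M' t') (o : F)
    (ho : IsIntegral (chart A0 M t) o) :
    ∃ n : ℕ, ∀ m, n ≤ m → IsIntegral (chart A0 M' t') (u ^ m • o) := by
  classical
  obtain ⟨P, hPm, hP⟩ := ho
  -- a uniform exponent for the coefficients of `P`
  have hex : ∀ i : ℕ, ∃ n : ℕ, ∀ m, n ≤ m →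
      algebraMap M M' ((P.coeff i : chart A0 M t) : M) * (u : M') ^ m ∈ chart A0 M' t' :=
    fun i => exists_mul_pow_mem M M' t t' u K htu _ (P.coeff i).2
  choose N hN using hex
  -- integrality of `u ^ n • o` for every `n` above the uniform exponent
  have hstep : ∀ n : ℕ, (∀ i ∈ Finset.range (P.natDegree + 1), N i ≤ n) →
      IsIntegral (chart A0 M' t') (u ^ n • o) := by
    intro n hn
    set PF : F[X] := P.map (algebraMap (chart A0 M t) F) with hPF
    have hPFm : PF.Monic := hPm.map _
    have hdeg : PF.natDegree = P.natDegree := hPm.natDegree_map _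
    have hroot : PF.eval o = 0 := by rw [hPF, Polynomial.eval_map]; exact hP
    set s : F := algebraMap M' F ((u : M') ^ n) with hs
    have hsm : u ^ n • o = s * o := by
      rw [hs, Algebra.smul_def]
      rfl
    rw [hsm]
    refine isIntegral_of_monic_of_coeff_mem (PF.scaleRoots s)
      ((Polynomial.monic_scaleRoots_iff s).mpr hPFm) (fun i => ?_) (s * o) ?_
    · rw [Polynomial.coeff_scaleRoots, hdeg]
      rcases lt_trichotomy i P.natDegree with hi | hi | hi
      · -- `i < d`
        have h1 : PF.coeff i = algebraMap M' F (algebraMap M M' ((P.coeff i : chart A0 M t) : M)) := by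
          rw [hPF, Polynomial.coeff_map, ← IsScalarTower.algebraMap_apply M M' F]
          rfl
        have h2 : s ^ (P.natDegree - i) =
            algebraMap M' F ((u : M') ^ (n * (P.natDegree - i))) := by
          rw [hs, ← map_pow, ← pow_mul]
        have hle : N i ≤ n * (P.natDegree - i) := by
          have h3 : N i ≤ n := hn i (Finset.mem_range.mpr (by omega))
          have h4 : 1 ≤ P.natDegree - i := by omega
          calc N i ≤ n := h3
            _ = n * 1 := (mul_one n).symm
            _ ≤ n * (P.natDegree - i) := Nat.mul_le_mul_left n h4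
        have hmem := hN i (n * (P.natDegree - i)) hle
        rw [h1, h2, ← map_mul]
        exact ⟨⟨_, hmem⟩, rfl⟩
      · -- `i = d`
        subst hi
        have h1 : PF.coeff P.natDegree = 1 := by
          rw [← hdeg]; exact hPFm.coeff_natDegree
        rw [h1, Nat.sub_self, pow_zero, mul_one]
        exact ⟨1, map_one _⟩
      · -- `d < i`
        have h1 : PF.coeff i = 0 :=
          Polynomial.coeff_eq_zero_of_natDegree_lt (by rw [hdeg]; exact hi)
        rw [h1, zero_mul]
        exact ⟨0, map_zero _⟩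
    · have h := Polynomial.scaleRoots_eval₂_eq_zero (p := PF) (RingHom.id F) (r := o) (s := s)
        (by rw [Polynomial.eval₂_id]; exact hroot)
      rw [Polynomial.eval₂_id] at h
      exact h
  refine ⟨(Finset.range (P.natDegree + 1)).sup N, fun m hm => ?_⟩
  exact hstep m fun i hi => (Finset.le_sup hi).trans hm


omit [Algebra A0 F] [IsScalarTower A0 M F] [IsScalarTower A0 M' F] in
/-- An element of `F` integral over `A0[t']` is integral over `A0[t]`. -/
theorem isIntegral_chart_of_isIntegral (t : M) (t' : M') (ht' : IsIntegral (chart A0 M t) t')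
    (x : F) (hx : IsIntegral (chart A0 M' t') x) : IsIntegral (chart A0 M t) x := by
  obtain ⟨Q, hQm, hQ⟩ := hx
  -- `x` is integral over the integral closure `B` of `A0[t]` in `M'`
  have hB : IsIntegral (integralClosure (chart A0 M t) M') x := by
    refine isIntegral_of_monic_of_coeff_mem (Q.map (algebraMap (chart A0 M' t') F)) (hQm.map _)
      (fun i => ?_) x (by rw [Polynomial.eval_map]; exact hQ)
    rw [Polynomial.coeff_map]
    exact ⟨⟨((Q.coeff i : chart A0 M' t') : M'),
      isIntegral_of_mem_chart M M' t t' ht' _ (Q.coeff i).2⟩, rfl⟩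
  exact isIntegral_trans x hB

omit [Algebra A0 M'] [IsScalarTower A0 M M'] in
/-- The trace of an element of `M'` integral over `A0[t]` lies in `A0[t]`. -/
theorem exists_trace_eq [FiniteDimensional M M'] (t : M)
    (hic : IsIntegrallyClosed (chart A0 M t))
    (hfr : IsFractionRing (chart A0 M t) M) (y : M') (hy : IsIntegral (chart A0 M t) y) :
    ∃ a : chart A0 M t, Algebra.trace M M' y = algebraMap (chart A0 M t) M a := by
  have h : IsIntegral (chart A0 M t) (Algebra.trace M M' y) := Algebra.isIntegral_trace hy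
  obtain ⟨a, ha⟩ := IsIntegrallyClosed.algebraMap_eq_of_integral h
  exact ⟨a, ha.symm⟩


/-- `π ∤ s` in `A0[t]` implies `π ∤ s * u ^ n` in `A0[t']`. -/
theorem not_dvd_of_not_dvd (t : M) (t' : M') (π : A0)
    (hic : IsIntegrallyClosed (chart A0 M t)) (hfr : IsFractionRing (chart A0 M t) M)
    (hπ' : Prime (unif A0 M' t' π)) (ht' : IsIntegral (chart A0 M t) t')
    (u : chart A0 M' t') (hu0 : (u : M') ≠ 0) (hu' : IsIntegral (chart A0 M t) ((u : M')⁻¹))
    (s : chart A0 M t) (hs : ¬ unif A0 M t π ∣ s) (n : ℕ) (s' : chart A0 M' t')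
    (hs' : (s' : M') = algebraMap M M' (s : M) * (u : M') ^ n) :
    ¬ unif A0 M' t' π ∣ s' := by
  rintro ⟨b, hb⟩
  have hπM' : algebraMap A0 M' π ≠ 0 := by
    intro h0
    apply hπ'.ne_zero
    apply Subtype.ext
    exact h0
  have hπM : algebraMap A0 M π ≠ 0 := by
    intro h0
    apply hπM'
    rw [IsScalarTower.algebraMap_apply A0 M M', h0, map_zero]
  have h1 : algebraMap M M' (s : M) * (u : M') ^ n = algebraMap A0 M' π * (b : M') := by
    rw [← hs', hb]
    rfl
  have h2 : algebraMap M M' ((s : M) * (algebraMap A0 M π)⁻¹) = (b : M') * ((u : M')⁻¹) ^ n := by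
    have hun : (u : M') ^ n ≠ 0 := pow_ne_zero n hu0
    have hsM' : algebraMap M M' (s : M) =
        algebraMap A0 M' π * (b : M') * ((u : M') ^ n)⁻¹ := by
      rw [← h1, mul_assoc, mul_inv_cancel₀ hun, mul_one]
    rw [map_mul, map_inv₀, ← IsScalarTower.algebraMap_apply A0 M M', hsM', inv_pow]
    field_simp
  have h3 : IsIntegral (chart A0 M t) ((b : M') * ((u : M')⁻¹) ^ n) :=
    (isIntegral_of_mem_chart M M' t t' ht' _ b.2).mul (hu'.pow n)
  rw [← h2] at h3
  have h4 : IsIntegral (chart A0 M t) ((s : M) * (algebraMap A0 M π)⁻¹) :=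
    (isIntegral_algebraMap_iff (algebraMap M M').injective).mp h3
  obtain ⟨a, ha⟩ := IsIntegrallyClosed.algebraMap_eq_of_integral h4
  apply hs
  refine ⟨a, ?_⟩
  apply Subtype.ext
  have h5 : (a : M) = (s : M) * (algebraMap A0 M π)⁻¹ := ha
  show (s : M) = algebraMap A0 M π * (a : M)
  rw [h5]
  field_simp


omit [IsScalarTower A0 M F] in
/-- **Base-line change for (H2)**: `H2Hyp` for the chart `A0[t]` of the line `M` implies `H2Hyp`
for the chart `A0[t']` of the line `M'`. -/
theorem h2Hyp_of_h2Hyp [FiniteDimensional M F] (t : M) (t' : M') (π : A0)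
    (hic : IsIntegrallyClosed (chart A0 M t)) (hfr : IsFractionRing (chart A0 M t) M)
    (hic' : IsIntegrallyClosed (chart A0 M' t')) (hfr' : IsFractionRing (chart A0 M' t') M')
    (hπ' : Prime (unif A0 M' t' π)) (ht' : IsIntegral (chart A0 M t) t')
    (u : chart A0 M' t') (hu : ¬ unif A0 M' t' π ∣ u)
    (hu' : IsIntegral (chart A0 M t) ((u : M')⁻¹)) (K : ℕ)
    (htu : algebraMap M M' t * (u : M') ^ K ∈ chart A0 M' t')
    (h2 : H2Hyp A0 M F t π) : H2Hyp A0 M' F t' π := by
  have : FiniteDimensional M M' := FiniteDimensional.left M M' F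
  have : FiniteDimensional M' F := FiniteDimensional.right M M' F
  have hu0 : (u : M') ≠ 0 := by
    intro h0
    apply hu
    have : u = 0 := Subtype.ext h0
    rw [this]
    exact dvd_zero _
  intro x hx htr
  have hx_t : IsIntegral (chart A0 M t) x := isIntegral_chart_of_isIntegral M M' F t t' ht' x hx
  have key : ∀ o : F, IsIntegral (chart A0 M t) o → ∃ a : chart A0 M t,
      Algebra.trace M F (x * o) = algebraMap (chart A0 M t) M (unif A0 M t π * a) := by
    intro o ho
    obtain ⟨n, hn⟩ := isIntegral_pow_smul M M' F t t' u K htu o ho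
    obtain ⟨a', ha'⟩ := htr (u ^ n • o) (hn n le_rfl)
    have hun : (u : M') ^ n ≠ 0 := pow_ne_zero n hu0
    -- the trace over `M'`
    have h1 : Algebra.trace M' F (x * o) =
        algebraMap A0 M' π * ((a' : M') * ((u : M')⁻¹) ^ n) := by
      have h3 : x * (u ^ n • o) = ((u : M') ^ n) • (x * o) := by
        rw [mul_smul_comm]
        rfl
      rw [h3, LinearMap.map_smul, smul_eq_mul] at ha'
      have h4 : algebraMap (chart A0 M' t') M' (unif A0 M' t' π * a') =
          algebraMap A0 M' π * (a' : M') := rfl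
      rw [h4] at ha'
      rw [inv_pow]
      field_simp
      rw [mul_comm]
      exact ha'
    have hy : IsIntegral (chart A0 M t) ((a' : M') * ((u : M')⁻¹) ^ n) :=
      (isIntegral_of_mem_chart M M' t t' ht' _ a'.2).mul (hu'.pow n)
    obtain ⟨a, ha⟩ := exists_trace_eq M M' t hic hfr _ hy
    refine ⟨a, ?_⟩
    rw [← Algebra.trace_trace (S := M'), h1, IsScalarTower.algebraMap_apply A0 M M',
      ← Algebra.smul_def, LinearMap.map_smul, smul_eq_mul, ha]
    rfl
  obtain ⟨c, hc, hxc⟩ := h2 x hx_t key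
  refine ⟨c, ?_, hxc⟩
  obtain ⟨n, hn⟩ := isIntegral_pow_smul M M' F t t' u K htu c hc
  have hπc : IsIntegral (chart A0 M' t') (unif A0 M' t' π • c) := by
    have h5 : unif A0 M' t' π • c = π • c := by
      rw [unif, algebraMap_smul]
    rw [h5, ← hxc]
    exact hx
  exact IntTrick.isIntegral_of_smul_of_smul (M := M') (unif A0 M' t' π) (u ^ n) hπ'
    (fun h => hu (hπ'.dvd_of_dvd_pow h)) c hπc (hn n le_rfl)


/-- Auxiliary: a common multiplier. For `s ∈ A0[t]` with `π ∤ s` there are arbitrarily large `n`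
and `s' ∈ A0[t']` with `π ∤ s'` and `s' = s * u ^ n`. -/
theorem exists_multiplier (t : M) (t' : M') (π : A0)
    (hic : IsIntegrallyClosed (chart A0 M t)) (hfr : IsFractionRing (chart A0 M t) M)
    (hπ' : Prime (unif A0 M' t' π)) (ht' : IsIntegral (chart A0 M t) t')
    (u : chart A0 M' t') (hu : ¬ unif A0 M' t' π ∣ u)
    (hu' : IsIntegral (chart A0 M t) ((u : M')⁻¹)) (K : ℕ)
    (htu : algebraMap M M' t * (u : M') ^ K ∈ chart A0 M' t')
    (s : chart A0 M t) (hs : ¬ unif A0 M t π ∣ s) :
    ∃ n₀ : ℕ, ∀ n, n₀ ≤ n → ∃ s' : chart A0 M' t', ¬ unif A0 M' t' π ∣ s' ∧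
      (s' : M') = algebraMap M M' (s : M) * (u : M') ^ n := by
  have hu0 : (u : M') ≠ 0 := by
    intro h0
    apply hu
    have : u = 0 := Subtype.ext h0
    rw [this]
    exact dvd_zero _
  obtain ⟨n₀, hn₀⟩ := exists_mul_pow_mem M M' t t' u K htu (s : M) s.2
  refine ⟨n₀, fun n hn => ⟨⟨_, hn₀ n hn⟩, ?_, rfl⟩⟩
  exact not_dvd_of_not_dvd M M' t t' π hic hfr hπ' ht' u hu0 hu' s hs n _ rfl

omit [Algebra A0 F] [IsScalarTower A0 M F] [IsScalarTower A0 M' F] in
/-- **Base-line change for `InGauss`.** -/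
theorem inGauss_of_inGauss (t : M) (t' : M') (π : A0)
    (hic : IsIntegrallyClosed (chart A0 M t)) (hfr : IsFractionRing (chart A0 M t) M)
    (hπ' : Prime (unif A0 M' t' π)) (ht' : IsIntegral (chart A0 M t) t')
    (u : chart A0 M' t') (hu : ¬ unif A0 M' t' π ∣ u)
    (hu' : IsIntegral (chart A0 M t) ((u : M')⁻¹)) (K : ℕ)
    (htu : algebraMap M M' t * (u : M') ^ K ∈ chart A0 M' t')
    (x : F) (hx : InGauss A0 M F t π x) : InGauss A0 M' F t' π x := by
  obtain ⟨s, hs, hsx⟩ := hx
  obtain ⟨n₀, hn₀⟩ := exists_multiplier M M' t t' π hic hfr hπ' ht' u hu hu' K htu s hs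
  obtain ⟨n₁, hn₁⟩ := isIntegral_pow_smul M M' F t t' u K htu (s • x) hsx
  obtain ⟨s', hs', hs'eq⟩ := hn₀ (max n₀ n₁) (le_max_left _ _)
  refine ⟨s', hs', ?_⟩
  have h1 : s' • x = u ^ (max n₀ n₁) • (s • x) := by
    rw [Algebra.smul_def, Algebra.smul_def, Algebra.smul_def]
    show algebraMap M' F (s' : M') * x =
      algebraMap M' F ((u : M') ^ (max n₀ n₁)) * (algebraMap M F (s : M) * x)
    rw [hs'eq, map_mul, ← IsScalarTower.algebraMap_apply M M' F]
    ring
  rw [h1]
  exact hn₁ _ (le_max_right _ _)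

omit [IsScalarTower A0 M F] in
/-- **Base-line change for `InPiGauss`.** -/
theorem inPiGauss_of_inPiGauss (t : M) (t' : M') (π : A0)
    (hic : IsIntegrallyClosed (chart A0 M t)) (hfr : IsFractionRing (chart A0 M t) M)
    (hπ' : Prime (unif A0 M' t' π)) (ht' : IsIntegral (chart A0 M t) t')
    (u : chart A0 M' t') (hu : ¬ unif A0 M' t' π ∣ u)
    (hu' : IsIntegral (chart A0 M t) ((u : M')⁻¹)) (K : ℕ)
    (htu : algebraMap M M' t * (u : M') ^ K ∈ chart A0 M' t')
    (x : F) (hx : InPiGauss A0 M F t π x) : InPiGauss A0 M' F t' π x := by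
  obtain ⟨s, hs, c, hc, hsx⟩ := hx
  obtain ⟨n₀, hn₀⟩ := exists_multiplier M M' t t' π hic hfr hπ' ht' u hu hu' K htu s hs
  obtain ⟨n₁, hn₁⟩ := isIntegral_pow_smul M M' F t t' u K htu c hc
  obtain ⟨s', hs', hs'eq⟩ := hn₀ (max n₀ n₁) (le_max_left _ _)
  refine ⟨s', hs', u ^ (max n₀ n₁) • c, hn₁ _ (le_max_right _ _), ?_⟩
  have h1 : s' • x = u ^ (max n₀ n₁) • (s • x) := by
    rw [Algebra.smul_def, Algebra.smul_def, Algebra.smul_def]
    show algebraMap M' F (s' : M') * x =
      algebraMap M' F ((u : M') ^ (max n₀ n₁)) * (algebraMap M F (s : M) * x)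
    rw [hs'eq, map_mul, ← IsScalarTower.algebraMap_apply M M' F]
    ring
  rw [h1, hsx, smul_comm]

end Fermat.Agent.S18.BaseLine
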