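import Mathlib
import Fermat.Agent.S18.CoreDefs
import Fermat.Agent.S18.AdjoinChart
import Fermat.Agent.S18.BaseLine

/-!
# S18, route K, bridge for `ℓ = 2, 3`: the base-line change from ONE relation

The hypotheses of `BaseLine.h2Hyp_of_h2Hyp` (and of the `InGauss`/`InPiGauss` transfers) are
discharged from a single relation

  `t * h ^ a = num(h)`   (`num ∈ A0[X]` monic, `0 < a < deg num`, `num(0)` a unit of `A0`)

between the old coordinate `t : M` (`t = j`) and the new coordinate `h : M'`: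
`ℓ = 3`: `j * h ^ 2 = (h + 256) ^ 3`;  `ℓ = 2`: `j * h = (h + 27) * (h + 3) ^ 3`.
Both charts `A0[h]` and `A0[h⁻¹]` of the new line are obtained from the single chart `A0[t]`.

Exports for the caller (`A0` a discrete valuation ring, `t` transcendental, `hgen` as in the core
theorem `KummerCore.false_of_kummer`): `h2Hyp_of_rel`, `h2Hyp_inv_of_rel`, `inPiGauss_of_rel`,
`inPiGauss_inv_of_rel`, and their instances `_X02` (`ℓ = 3`) and `_X03` (`ℓ = 2`).
-/

set_option autoImplicit false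

namespace Fermat.Agent.S18.BaseLineRel

open Polynomial Fermat.Agent.S18.CoreDefs

/-- A root of a polynomial whose leading coefficient is a unit is integral. -/
theorem isIntegral_of_isUnit_leadingCoeff {R S : Type*} [CommRing R] [CommRing S] [Algebra R S]
    (p : R[X]) (hu : IsUnit p.leadingCoeff) (x : S) (hx : eval₂ (algebraMap R S) x p = 0) :
    IsIntegral R x := by
  obtain ⟨v, hv⟩ := hu
  refine ⟨C (↑v⁻¹ : R) * p,
    monic_C_mul_of_mul_leadingCoeff_eq_one (by rw [← hv]; exact v.inv_mul), ?_⟩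
  rw [eval₂_mul, hx, mul_zero]

/-- If `x` is a root of a polynomial whose constant coefficient is a unit, then `x⁻¹` is
integral. -/
theorem isIntegral_inv_of_isUnit_coeff_zero {R S : Type*} [CommRing R] [Field S] [Algebra R S]
    (p : R[X]) (h0 : IsUnit (p.coeff 0)) (x : S) (hx : eval₂ (algebraMap R S) x p = 0) :
    IsIntegral R x⁻¹ := by
  rcases eq_or_ne x 0 with rfl | hx0
  · rw [inv_zero]; exact isIntegral_zero
  obtain ⟨v, hv⟩ := h0
  let _ : Invertible x := invertibleOfNonzero hx0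
  have h1 := eval₂_reflect_mul_pow (algebraMap R S) x p.natDegree p le_rfl
  rw [hx, invOf_eq_inv] at h1
  have h2 : eval₂ (algebraMap R S) x⁻¹ (reflect p.natDegree p) = 0 := by
    rcases mul_eq_zero.mp h1 with h | h
    · exact h
    · exact absurd h (pow_ne_zero _ hx0)
  refine ⟨C (↑v⁻¹ : R) * reflect p.natDegree p,
    monic_of_natDegree_le_of_coeff_eq_one p.natDegree ?_ ?_, ?_⟩
  · refine (natDegree_C_mul_le _ _).trans ?_
    exact natDegree_reflect_le.trans (by simp)
  · rw [coeff_C_mul, coeff_reflect, revAt_le le_rfl, Nat.sub_self, ← hv]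
    exact v.inv_mul
  · rw [eval₂_mul, h2, mul_zero]

variable {A0 : Type*} [CommRing A0]
  (M : Type*) [Field M] [Algebra A0 M]
  (M' : Type*) [Field M'] [Algebra A0 M'] [Algebra M M'] [IsScalarTower A0 M M']

/-- The polynomial `num - t * X ^ a` over `A0[t]`. -/
noncomputable def relPoly (t : M) (num : A0[X]) (a : ℕ) : (chart A0 M t)[X] :=
  num.map (algebraMap A0 (chart A0 M t)) - C (coord A0 M t) * X ^ a

theorem eval₂_relPoly (t : M) (h : M') (num : A0[X]) (a : ℕ)
    (hrel : algebraMap M M' t * h ^ a = aeval h num) :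
    eval₂ (algebraMap (chart A0 M t) M') h (relPoly M t num a) = 0 := by
  have h1 : (algebraMap (chart A0 M t) M').comp (algebraMap A0 (chart A0 M t)) =
      algebraMap A0 M' := by
    ext r
    rw [IsScalarTower.algebraMap_apply A0 M M']
    rfl
  have h2 : algebraMap (chart A0 M t) M' (coord A0 M t) = algebraMap M M' t := rfl
  rw [relPoly, eval₂_sub, eval₂_map, h1, eval₂_mul, eval₂_C, eval₂_X_pow, h2, hrel,
    Polynomial.aeval_def, sub_self]

theorem monic_relPoly (t : M) (num : A0[X]) (hnum : num.Monic) (a : ℕ)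
    (ha : a < num.natDegree) : (relPoly M t num a).Monic := by
  have : Nontrivial A0 := (algebraMap A0 M).domain_nontrivial
  have hm : (num.map (algebraMap A0 (chart A0 M t))).Monic := hnum.map _
  refine hm.sub_of_left ?_
  have h1 : (C (coord A0 M t) * X ^ a : (chart A0 M t)[X]).degree ≤ (a : WithBot ℕ) :=
    degree_C_mul_X_pow_le a _
  have h2 : (num.map (algebraMap A0 (chart A0 M t))).degree = (num.natDegree : WithBot ℕ) := by
    rw [hnum.degree_map, degree_eq_natDegree hnum.ne_zero]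
  rw [h2]
  exact lt_of_le_of_lt h1 (by exact_mod_cast ha)

theorem coeff_zero_relPoly (t : M) (num : A0[X]) (a : ℕ) (ha0 : 0 < a) :
    (relPoly M t num a).coeff 0 = algebraMap A0 (chart A0 M t) (num.coeff 0) := by
  rw [relPoly, coeff_sub, coeff_map, coeff_C_mul, coeff_X_pow, if_neg (by omega), mul_zero,
    sub_zero]

/-- `h` is integral over `A0[t]`. -/
theorem isIntegral_root (t : M) (h : M') (num : A0[X]) (hnum : num.Monic) (a : ℕ)
    (ha : a < num.natDegree) (hrel : algebraMap M M' t * h ^ a = aeval h num) :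
    IsIntegral (chart A0 M t) h :=
  ⟨relPoly M t num a, monic_relPoly M t num hnum a ha, eval₂_relPoly M M' t h num a hrel⟩

/-- `h⁻¹` is integral over `A0[t]`. -/
theorem isIntegral_inv_root (t : M) (h : M') (num : A0[X]) (a : ℕ) (ha0 : 0 < a)
    (h0 : IsUnit (num.coeff 0)) (hrel : algebraMap M M' t * h ^ a = aeval h num) :
    IsIntegral (chart A0 M t) h⁻¹ :=
  isIntegral_inv_of_isUnit_coeff_zero (relPoly M t num a)
    (by rw [coeff_zero_relPoly M t num a ha0]; exact h0.map _) h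
    (eval₂_relPoly M M' t h num a hrel)


omit [Algebra A0 M] [IsScalarTower A0 M M'] in
/-- `t * h ^ a ∈ A0[h]`. -/
theorem mul_pow_mem (t : M) (h : M') (num : A0[X]) (a : ℕ)
    (hrel : algebraMap M M' t * h ^ a = aeval h num) :
    algebraMap M M' t * ((coord A0 M' h : chart A0 M' h) : M') ^ a ∈ chart A0 M' h := by
  have h1 : ((coord A0 M' h : chart A0 M' h) : M') = h := rfl
  rw [h1, hrel]
  exact Polynomial.aeval_mem_adjoin_singleton A0 h

omit [Algebra A0 M] [IsScalarTower A0 M M'] in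
/-- `t * (h⁻¹) ^ (deg num - a) ∈ A0[h⁻¹]`. -/
theorem mul_inv_pow_mem (t : M) (h : M') (hh : h ≠ 0) (num : A0[X]) (a : ℕ)
    (ha : a ≤ num.natDegree) (hrel : algebraMap M M' t * h ^ a = aeval h num) :
    algebraMap M M' t * ((coord A0 M' h⁻¹ : chart A0 M' h⁻¹) : M') ^ (num.natDegree - a) ∈
      chart A0 M' h⁻¹ := by
  have h1 : ((coord A0 M' h⁻¹ : chart A0 M' h⁻¹) : M') = h⁻¹ := rfl
  let _ : Invertible h := invertibleOfNonzero hh
  have h2 := eval₂_reflect_mul_pow (algebraMap A0 M') h num.natDegree num le_rfl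
  rw [invOf_eq_inv, ← Polynomial.aeval_def, ← Polynomial.aeval_def, ← hrel] at h2
  have h3 : algebraMap M M' t * h⁻¹ ^ (num.natDegree - a) =
      aeval h⁻¹ (reflect num.natDegree num) := by
    have hpow : h ^ num.natDegree = h ^ a * h ^ (num.natDegree - a) := by
      rw [← pow_add, Nat.add_sub_cancel' ha]
    have hne : h ^ num.natDegree ≠ 0 := pow_ne_zero _ hh
    have hne' : h ^ (num.natDegree - a) ≠ 0 := pow_ne_zero _ hh
    apply mul_right_cancel₀ hne
    rw [h2, hpow, inv_pow]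
    field_simp
  rw [h1, h3]
  exact Polynomial.aeval_mem_adjoin_singleton A0 h⁻¹

variable (F : Type*) [Field F] [Algebra M F] [Algebra M' F] [Algebra A0 F]
  [IsScalarTower A0 M' F] [IsScalarTower M M' F]

/-- **(H2) on the finite chart `A0[h]` of the new line.** -/
theorem h2Hyp_chart [FiniteDimensional M F] (t : M) (h : M') (π : A0) (num : A0[X])
    (hnum : num.Monic) (a : ℕ) (ha0 : 0 < a) (ha : a < num.natDegree)
    (h0 : IsUnit (num.coeff 0)) (hrel : algebraMap M M' t * h ^ a = aeval h num)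
    (hic : IsIntegrallyClosed (chart A0 M t)) (hfr : IsFractionRing (chart A0 M t) M)
    (hic' : IsIntegrallyClosed (chart A0 M' h)) (hfr' : IsFractionRing (chart A0 M' h) M')
    (hπ' : Prime (unif A0 M' h π)) (hu : ¬ unif A0 M' h π ∣ coord A0 M' h)
    (h2 : H2Hyp A0 M F t π) : H2Hyp A0 M' F h π :=
  BaseLine.h2Hyp_of_h2Hyp M M' F t h π hic hfr hic' hfr' hπ'
    (isIntegral_root M M' t h num hnum a ha hrel) (coord A0 M' h) hu
    (isIntegral_inv_root M M' t h num a ha0 h0 hrel) a (mul_pow_mem M M' t h num a hrel) h2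

omit [Algebra A0 M] [IsScalarTower A0 M M'] [Algebra A0 F] [Algebra M F] [Algebra M' F]
  [IsScalarTower A0 M' F] [IsScalarTower M M' F] in
/-- `h ≠ 0` follows from the relation. -/
theorem root_ne_zero (t : M) (h : M') (num : A0[X]) (a : ℕ) (ha0 : 0 < a)
    (h0 : IsUnit (num.coeff 0)) (hrel : algebraMap M M' t * h ^ a = aeval h num) : h ≠ 0 := by
  rintro rfl
  rw [zero_pow (by omega), mul_zero] at hrel
  have h1 : aeval (0 : M') num = algebraMap A0 M' (num.coeff 0) := by
    rw [Polynomial.aeval_def, Polynomial.eval₂_at_zero]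
  rw [h1] at hrel
  exact (h0.map (algebraMap A0 M')).ne_zero hrel.symm

/-- **(H2) on the chart at infinity `A0[h⁻¹]` of the new line.** -/
theorem h2Hyp_chart_inv [FiniteDimensional M F] (t : M) (h : M') (π : A0) (num : A0[X])
    (hnum : num.Monic) (a : ℕ) (ha0 : 0 < a) (ha : a < num.natDegree)
    (h0 : IsUnit (num.coeff 0)) (hrel : algebraMap M M' t * h ^ a = aeval h num)
    (hic : IsIntegrallyClosed (chart A0 M t)) (hfr : IsFractionRing (chart A0 M t) M)
    (hic' : IsIntegrallyClosed (chart A0 M' h⁻¹)) (hfr' : IsFractionRing (chart A0 M' h⁻¹) M')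
    (hπ' : Prime (unif A0 M' h⁻¹ π)) (hu : ¬ unif A0 M' h⁻¹ π ∣ coord A0 M' h⁻¹)
    (h2 : H2Hyp A0 M F t π) : H2Hyp A0 M' F h⁻¹ π :=
  BaseLine.h2Hyp_of_h2Hyp M M' F t h⁻¹ π hic hfr hic' hfr' hπ'
    (isIntegral_inv_root M M' t h num a ha0 h0 hrel) (coord A0 M' h⁻¹) hu
    (by
      have h1 : (((coord A0 M' h⁻¹ : chart A0 M' h⁻¹) : M'))⁻¹ = h := inv_inv h
      rw [h1]
      exact isIntegral_root M M' t h num hnum a ha hrel)
    (num.natDegree - a)
    (mul_inv_pow_mem M M' t h (root_ne_zero M M' t h num a ha0 h0 hrel) num a ha.le hrel) h2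

omit [Algebra A0 F] [IsScalarTower A0 M' F] in
/-- `InGauss` transfers to the finite chart `A0[h]` of the new line. -/
theorem inGauss_chart (t : M) (h : M') (π : A0) (num : A0[X])
    (hnum : num.Monic) (a : ℕ) (ha0 : 0 < a) (ha : a < num.natDegree)
    (h0 : IsUnit (num.coeff 0)) (hrel : algebraMap M M' t * h ^ a = aeval h num)
    (hic : IsIntegrallyClosed (chart A0 M t)) (hfr : IsFractionRing (chart A0 M t) M)
    (hπ' : Prime (unif A0 M' h π)) (hu : ¬ unif A0 M' h π ∣ coord A0 M' h)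
    (x : F) (hx : InGauss A0 M F t π x) : InGauss A0 M' F h π x :=
  BaseLine.inGauss_of_inGauss M M' F t h π hic hfr hπ'
    (isIntegral_root M M' t h num hnum a ha hrel) (coord A0 M' h) hu
    (isIntegral_inv_root M M' t h num a ha0 h0 hrel) a (mul_pow_mem M M' t h num a hrel) x hx

/-- `InPiGauss` transfers to the finite chart `A0[h]` of the new line. -/
theorem inPiGauss_chart (t : M) (h : M') (π : A0) (num : A0[X])
    (hnum : num.Monic) (a : ℕ) (ha0 : 0 < a) (ha : a < num.natDegree)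
    (h0 : IsUnit (num.coeff 0)) (hrel : algebraMap M M' t * h ^ a = aeval h num)
    (hic : IsIntegrallyClosed (chart A0 M t)) (hfr : IsFractionRing (chart A0 M t) M)
    (hπ' : Prime (unif A0 M' h π)) (hu : ¬ unif A0 M' h π ∣ coord A0 M' h)
    (x : F) (hx : InPiGauss A0 M F t π x) : InPiGauss A0 M' F h π x :=
  BaseLine.inPiGauss_of_inPiGauss M M' F t h π hic hfr hπ'
    (isIntegral_root M M' t h num hnum a ha hrel) (coord A0 M' h) hu
    (isIntegral_inv_root M M' t h num a ha0 h0 hrel) a (mul_pow_mem M M' t h num a hrel) x hx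

omit [Algebra A0 F] [IsScalarTower A0 M' F] in
/-- `InGauss` transfers to the chart at infinity `A0[h⁻¹]` of the new line. -/
theorem inGauss_chart_inv (t : M) (h : M') (π : A0) (num : A0[X])
    (hnum : num.Monic) (a : ℕ) (ha0 : 0 < a) (ha : a < num.natDegree)
    (h0 : IsUnit (num.coeff 0)) (hrel : algebraMap M M' t * h ^ a = aeval h num)
    (hic : IsIntegrallyClosed (chart A0 M t)) (hfr : IsFractionRing (chart A0 M t) M)
    (hπ' : Prime (unif A0 M' h⁻¹ π)) (hu : ¬ unif A0 M' h⁻¹ π ∣ coord A0 M' h⁻¹)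
    (x : F) (hx : InGauss A0 M F t π x) : InGauss A0 M' F h⁻¹ π x :=
  BaseLine.inGauss_of_inGauss M M' F t h⁻¹ π hic hfr hπ'
    (isIntegral_inv_root M M' t h num a ha0 h0 hrel) (coord A0 M' h⁻¹) hu
    (by
      have h1 : (((coord A0 M' h⁻¹ : chart A0 M' h⁻¹) : M'))⁻¹ = h := inv_inv h
      rw [h1]
      exact isIntegral_root M M' t h num hnum a ha hrel)
    (num.natDegree - a)
    (mul_inv_pow_mem M M' t h (root_ne_zero M M' t h num a ha0 h0 hrel) num a ha.le hrel) x hx

/-- `InPiGauss` transfers to the chart at infinity `A0[h⁻¹]` of the new line. -/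
theorem inPiGauss_chart_inv (t : M) (h : M') (π : A0) (num : A0[X])
    (hnum : num.Monic) (a : ℕ) (ha0 : 0 < a) (ha : a < num.natDegree)
    (h0 : IsUnit (num.coeff 0)) (hrel : algebraMap M M' t * h ^ a = aeval h num)
    (hic : IsIntegrallyClosed (chart A0 M t)) (hfr : IsFractionRing (chart A0 M t) M)
    (hπ' : Prime (unif A0 M' h⁻¹ π)) (hu : ¬ unif A0 M' h⁻¹ π ∣ coord A0 M' h⁻¹)
    (x : F) (hx : InPiGauss A0 M F t π x) : InPiGauss A0 M' F h⁻¹ π x :=
  BaseLine.inPiGauss_of_inPiGauss M M' F t h⁻¹ π hic hfr hπ'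
    (isIntegral_inv_root M M' t h num a ha0 h0 hrel) (coord A0 M' h⁻¹) hu
    (by
      have h1 : (((coord A0 M' h⁻¹ : chart A0 M' h⁻¹) : M'))⁻¹ = h := inv_inv h
      rw [h1]
      exact isIntegral_root M M' t h num hnum a ha hrel)
    (num.natDegree - a)
    (mul_inv_pow_mem M M' t h (root_ne_zero M M' t h num a ha0 h0 hrel) num a ha.le hrel) x hx

/-! ### The two concrete covers

`ℓ = 3`: `j * h ^ 2 = (h + 256) ^ 3`;  `ℓ = 2`: `j * h = (h + 27) * (h + 3) ^ 3`. -/

section Concrete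

variable (A0)

/-- The numerator `(X + 256) ^ 3` of the `ℓ = 3` cover. -/
noncomputable def num3 : A0[X] := (X + C 256) ^ 3

/-- The numerator `(X + 27) * (X + 3) ^ 3` of the `ℓ = 2` cover. -/
noncomputable def num2 : A0[X] := (X + C 27) * (X + C 3) ^ 3

theorem monic_num3 : (num3 A0).Monic := (monic_X_add_C _).pow 3

theorem monic_num2 : (num2 A0).Monic := (monic_X_add_C _).mul ((monic_X_add_C _).pow 3)

theorem natDegree_num3 [Nontrivial A0] : (num3 A0).natDegree = 3 := by
  rw [num3, (monic_X_add_C _).natDegree_pow, natDegree_X_add_C]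

theorem natDegree_num2 [Nontrivial A0] : (num2 A0).natDegree = 4 := by
  rw [num2, (monic_X_add_C _).natDegree_mul ((monic_X_add_C _).pow 3),
    (monic_X_add_C _).natDegree_pow, natDegree_X_add_C, natDegree_X_add_C]

theorem coeff_zero_num3 : (num3 A0).coeff 0 = 256 ^ 3 := by
  rw [coeff_zero_eq_eval_zero, num3]
  simp

theorem coeff_zero_num2 : (num2 A0).coeff 0 = 27 * 3 ^ 3 := by
  rw [coeff_zero_eq_eval_zero, num2]
  simp

theorem isUnit_coeff_zero_num3 (h2u : IsUnit (2 : A0)) : IsUnit ((num3 A0).coeff 0) := by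
  rw [coeff_zero_num3]
  have : (256 : A0) ^ 3 = 2 ^ 24 := by norm_num
  rw [this]
  exact h2u.pow 24

theorem isUnit_coeff_zero_num2 (h3u : IsUnit (3 : A0)) : IsUnit ((num2 A0).coeff 0) := by
  rw [coeff_zero_num2]
  have : (27 : A0) * 3 ^ 3 = 3 ^ 6 := by norm_num
  rw [this]
  exact h3u.pow 6

theorem aeval_num3 {S : Type*} [CommRing S] [Algebra A0 S] (h : S) :
    aeval h (num3 A0) = (h + 256) ^ 3 := by
  rw [num3]
  simp [map_ofNat]

theorem aeval_num2 {S : Type*} [CommRing S] [Algebra A0 S] (h : S) :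
    aeval h (num2 A0) = (h + 27) * (h + 3) ^ 3 := by
  rw [num2]
  simp [map_ofNat]

end Concrete

/-! ### Concrete corollaries: `X02` is the `ℓ = 3` cover, `X03` the `ℓ = 2` cover -/

/-- (H2) on `A0[h]`, cover `X02`. -/
theorem h2Hyp_chart_X02 [FiniteDimensional M F] (t : M) (h : M') (π : A0) (hunit : IsUnit (2 : A0))
    (hrel : algebraMap M M' t * h ^ 2 = (h + 256) ^ 3)
    (hic : IsIntegrallyClosed (chart A0 M t)) (hfr : IsFractionRing (chart A0 M t) M)
    (hic' : IsIntegrallyClosed (chart A0 M' h)) (hfr' : IsFractionRing (chart A0 M' h) M')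
    (hπ' : Prime (unif A0 M' h π)) (hu : ¬ unif A0 M' h π ∣ coord A0 M' h)
    (h2 : H2Hyp A0 M F t π) :
    H2Hyp A0 M' F h π := by
  have : Nontrivial A0 := (algebraMap A0 M).domain_nontrivial
  exact h2Hyp_chart M M' F t h π (num3 A0) (monic_num3 A0) 2 (by norm_num)
    (by rw [natDegree_num3]; norm_num) (isUnit_coeff_zero_num3 A0 hunit)
    (by rw [aeval_num3]; exact hrel) hic hfr hic' hfr' hπ' hu h2

omit [Algebra A0 F] [IsScalarTower A0 M' F] in
/-- `InGauss` on `A0[h]`, cover `X02`. -/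
theorem inGauss_chart_X02 (t : M) (h : M') (π : A0) (hunit : IsUnit (2 : A0))
    (hrel : algebraMap M M' t * h ^ 2 = (h + 256) ^ 3)
    (hic : IsIntegrallyClosed (chart A0 M t)) (hfr : IsFractionRing (chart A0 M t) M)
    (hπ' : Prime (unif A0 M' h π)) (hu : ¬ unif A0 M' h π ∣ coord A0 M' h)
    (x : F) (hx : InGauss A0 M F t π x) :
    InGauss A0 M' F h π x := by
  have : Nontrivial A0 := (algebraMap A0 M).domain_nontrivial
  exact inGauss_chart M M' F t h π (num3 A0) (monic_num3 A0) 2 (by norm_num)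
    (by rw [natDegree_num3]; norm_num) (isUnit_coeff_zero_num3 A0 hunit)
    (by rw [aeval_num3]; exact hrel) hic hfr hπ' hu x hx

/-- `InPiGauss` on `A0[h]`, cover `X02`. -/
theorem inPiGauss_chart_X02 (t : M) (h : M') (π : A0) (hunit : IsUnit (2 : A0))
    (hrel : algebraMap M M' t * h ^ 2 = (h + 256) ^ 3)
    (hic : IsIntegrallyClosed (chart A0 M t)) (hfr : IsFractionRing (chart A0 M t) M)
    (hπ' : Prime (unif A0 M' h π)) (hu : ¬ unif A0 M' h π ∣ coord A0 M' h)
    (x : F) (hx : InPiGauss A0 M F t π x) :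
    InPiGauss A0 M' F h π x := by
  have : Nontrivial A0 := (algebraMap A0 M).domain_nontrivial
  exact inPiGauss_chart M M' F t h π (num3 A0) (monic_num3 A0) 2 (by norm_num)
    (by rw [natDegree_num3]; norm_num) (isUnit_coeff_zero_num3 A0 hunit)
    (by rw [aeval_num3]; exact hrel) hic hfr hπ' hu x hx

/-- (H2) on `A0[h⁻¹]`, cover `X02`. -/
theorem h2Hyp_chart_inv_X02 [FiniteDimensional M F] (t : M) (h : M') (π : A0) (hunit : IsUnit (2 : A0))
    (hrel : algebraMap M M' t * h ^ 2 = (h + 256) ^ 3)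
    (hic : IsIntegrallyClosed (chart A0 M t)) (hfr : IsFractionRing (chart A0 M t) M)
    (hic' : IsIntegrallyClosed (chart A0 M' h⁻¹)) (hfr' : IsFractionRing (chart A0 M' h⁻¹) M')
    (hπ' : Prime (unif A0 M' h⁻¹ π)) (hu : ¬ unif A0 M' h⁻¹ π ∣ coord A0 M' h⁻¹)
    (h2 : H2Hyp A0 M F t π) :
    H2Hyp A0 M' F h⁻¹ π := by
  have : Nontrivial A0 := (algebraMap A0 M).domain_nontrivial
  exact h2Hyp_chart_inv M M' F t h π (num3 A0) (monic_num3 A0) 2 (by norm_num)
    (by rw [natDegree_num3]; norm_num) (isUnit_coeff_zero_num3 A0 hunit)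
    (by rw [aeval_num3]; exact hrel) hic hfr hic' hfr' hπ' hu h2

omit [Algebra A0 F] [IsScalarTower A0 M' F] in
/-- `InGauss` on `A0[h⁻¹]`, cover `X02`. -/
theorem inGauss_chart_inv_X02 (t : M) (h : M') (π : A0) (hunit : IsUnit (2 : A0))
    (hrel : algebraMap M M' t * h ^ 2 = (h + 256) ^ 3)
    (hic : IsIntegrallyClosed (chart A0 M t)) (hfr : IsFractionRing (chart A0 M t) M)
    (hπ' : Prime (unif A0 M' h⁻¹ π)) (hu : ¬ unif A0 M' h⁻¹ π ∣ coord A0 M' h⁻¹)
    (x : F) (hx : InGauss A0 M F t π x) :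
    InGauss A0 M' F h⁻¹ π x := by
  have : Nontrivial A0 := (algebraMap A0 M).domain_nontrivial
  exact inGauss_chart_inv M M' F t h π (num3 A0) (monic_num3 A0) 2 (by norm_num)
    (by rw [natDegree_num3]; norm_num) (isUnit_coeff_zero_num3 A0 hunit)
    (by rw [aeval_num3]; exact hrel) hic hfr hπ' hu x hx

/-- `InPiGauss` on `A0[h⁻¹]`, cover `X02`. -/
theorem inPiGauss_chart_inv_X02 (t : M) (h : M') (π : A0) (hunit : IsUnit (2 : A0))
    (hrel : algebraMap M M' t * h ^ 2 = (h + 256) ^ 3)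
    (hic : IsIntegrallyClosed (chart A0 M t)) (hfr : IsFractionRing (chart A0 M t) M)
    (hπ' : Prime (unif A0 M' h⁻¹ π)) (hu : ¬ unif A0 M' h⁻¹ π ∣ coord A0 M' h⁻¹)
    (x : F) (hx : InPiGauss A0 M F t π x) :
    InPiGauss A0 M' F h⁻¹ π x := by
  have : Nontrivial A0 := (algebraMap A0 M).domain_nontrivial
  exact inPiGauss_chart_inv M M' F t h π (num3 A0) (monic_num3 A0) 2 (by norm_num)
    (by rw [natDegree_num3]; norm_num) (isUnit_coeff_zero_num3 A0 hunit)
    (by rw [aeval_num3]; exact hrel) hic hfr hπ' hu x hx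

/-- (H2) on `A0[h]`, cover `X03`. -/
theorem h2Hyp_chart_X03 [FiniteDimensional M F] (t : M) (h : M') (π : A0) (hunit : IsUnit (3 : A0))
    (hrel : algebraMap M M' t * h = (h + 27) * (h + 3) ^ 3)
    (hic : IsIntegrallyClosed (chart A0 M t)) (hfr : IsFractionRing (chart A0 M t) M)
    (hic' : IsIntegrallyClosed (chart A0 M' h)) (hfr' : IsFractionRing (chart A0 M' h) M')
    (hπ' : Prime (unif A0 M' h π)) (hu : ¬ unif A0 M' h π ∣ coord A0 M' h)
    (h2 : H2Hyp A0 M F t π) :
    H2Hyp A0 M' F h π := by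
  have : Nontrivial A0 := (algebraMap A0 M).domain_nontrivial
  exact h2Hyp_chart M M' F t h π (num2 A0) (monic_num2 A0) 1 (by norm_num)
    (by rw [natDegree_num2]; norm_num) (isUnit_coeff_zero_num2 A0 hunit)
    (by rw [aeval_num2, pow_one]; exact hrel) hic hfr hic' hfr' hπ' hu h2

omit [Algebra A0 F] [IsScalarTower A0 M' F] in
/-- `InGauss` on `A0[h]`, cover `X03`. -/
theorem inGauss_chart_X03 (t : M) (h : M') (π : A0) (hunit : IsUnit (3 : A0))
    (hrel : algebraMap M M' t * h = (h + 27) * (h + 3) ^ 3)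
    (hic : IsIntegrallyClosed (chart A0 M t)) (hfr : IsFractionRing (chart A0 M t) M)
    (hπ' : Prime (unif A0 M' h π)) (hu : ¬ unif A0 M' h π ∣ coord A0 M' h)
    (x : F) (hx : InGauss A0 M F t π x) :
    InGauss A0 M' F h π x := by
  have : Nontrivial A0 := (algebraMap A0 M).domain_nontrivial
  exact inGauss_chart M M' F t h π (num2 A0) (monic_num2 A0) 1 (by norm_num)
    (by rw [natDegree_num2]; norm_num) (isUnit_coeff_zero_num2 A0 hunit)
    (by rw [aeval_num2, pow_one]; exact hrel) hic hfr hπ' hu x hx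

/-- `InPiGauss` on `A0[h]`, cover `X03`. -/
theorem inPiGauss_chart_X03 (t : M) (h : M') (π : A0) (hunit : IsUnit (3 : A0))
    (hrel : algebraMap M M' t * h = (h + 27) * (h + 3) ^ 3)
    (hic : IsIntegrallyClosed (chart A0 M t)) (hfr : IsFractionRing (chart A0 M t) M)
    (hπ' : Prime (unif A0 M' h π)) (hu : ¬ unif A0 M' h π ∣ coord A0 M' h)
    (x : F) (hx : InPiGauss A0 M F t π x) :
    InPiGauss A0 M' F h π x := by
  have : Nontrivial A0 := (algebraMap A0 M).domain_nontrivial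
  exact inPiGauss_chart M M' F t h π (num2 A0) (monic_num2 A0) 1 (by norm_num)
    (by rw [natDegree_num2]; norm_num) (isUnit_coeff_zero_num2 A0 hunit)
    (by rw [aeval_num2, pow_one]; exact hrel) hic hfr hπ' hu x hx

/-- (H2) on `A0[h⁻¹]`, cover `X03`. -/
theorem h2Hyp_chart_inv_X03 [FiniteDimensional M F] (t : M) (h : M') (π : A0) (hunit : IsUnit (3 : A0))
    (hrel : algebraMap M M' t * h = (h + 27) * (h + 3) ^ 3)
    (hic : IsIntegrallyClosed (chart A0 M t)) (hfr : IsFractionRing (chart A0 M t) M)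
    (hic' : IsIntegrallyClosed (chart A0 M' h⁻¹)) (hfr' : IsFractionRing (chart A0 M' h⁻¹) M')
    (hπ' : Prime (unif A0 M' h⁻¹ π)) (hu : ¬ unif A0 M' h⁻¹ π ∣ coord A0 M' h⁻¹)
    (h2 : H2Hyp A0 M F t π) :
    H2Hyp A0 M' F h⁻¹ π := by
  have : Nontrivial A0 := (algebraMap A0 M).domain_nontrivial
  exact h2Hyp_chart_inv M M' F t h π (num2 A0) (monic_num2 A0) 1 (by norm_num)
    (by rw [natDegree_num2]; norm_num) (isUnit_coeff_zero_num2 A0 hunit)
    (by rw [aeval_num2, pow_one]; exact hrel) hic hfr hic' hfr' hπ' hu h2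

omit [Algebra A0 F] [IsScalarTower A0 M' F] in
/-- `InGauss` on `A0[h⁻¹]`, cover `X03`. -/
theorem inGauss_chart_inv_X03 (t : M) (h : M') (π : A0) (hunit : IsUnit (3 : A0))
    (hrel : algebraMap M M' t * h = (h + 27) * (h + 3) ^ 3)
    (hic : IsIntegrallyClosed (chart A0 M t)) (hfr : IsFractionRing (chart A0 M t) M)
    (hπ' : Prime (unif A0 M' h⁻¹ π)) (hu : ¬ unif A0 M' h⁻¹ π ∣ coord A0 M' h⁻¹)
    (x : F) (hx : InGauss A0 M F t π x) :
    InGauss A0 M' F h⁻¹ π x := by
  have : Nontrivial A0 := (algebraMap A0 M).domain_nontrivial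
  exact inGauss_chart_inv M M' F t h π (num2 A0) (monic_num2 A0) 1 (by norm_num)
    (by rw [natDegree_num2]; norm_num) (isUnit_coeff_zero_num2 A0 hunit)
    (by rw [aeval_num2, pow_one]; exact hrel) hic hfr hπ' hu x hx

/-- `InPiGauss` on `A0[h⁻¹]`, cover `X03`. -/
theorem inPiGauss_chart_inv_X03 (t : M) (h : M') (π : A0) (hunit : IsUnit (3 : A0))
    (hrel : algebraMap M M' t * h = (h + 27) * (h + 3) ^ 3)
    (hic : IsIntegrallyClosed (chart A0 M t)) (hfr : IsFractionRing (chart A0 M t) M)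
    (hπ' : Prime (unif A0 M' h⁻¹ π)) (hu : ¬ unif A0 M' h⁻¹ π ∣ coord A0 M' h⁻¹)
    (x : F) (hx : InPiGauss A0 M F t π x) :
    InPiGauss A0 M' F h⁻¹ π x := by
  have : Nontrivial A0 := (algebraMap A0 M).domain_nontrivial
  exact inPiGauss_chart_inv M M' F t h π (num2 A0) (monic_num2 A0) 1 (by norm_num)
    (by rw [natDegree_num2]; norm_num) (isUnit_coeff_zero_num2 A0 hunit)
    (by rw [aeval_num2, pow_one]; exact hrel) hic hfr hπ' hu x hx

/-! ### Fully discharged forms

`A0` a discrete valuation ring, `t` transcendental, and the two fraction-field hypotheses in the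
`hgen` shape of the core theorem. -/

section Final

omit [Algebra A0 F] [Algebra M F] [Algebra M' F] [IsScalarTower A0 M' F] [IsScalarTower M M' F] in
/-- `h` is transcendental over `A0` as soon as `t` is. -/
theorem transcendental_root [IsDomain A0] (t : M) (ht : Transcendental A0 t) (h : M')
    (num : A0[X]) (a : ℕ) (ha0 : 0 < a) (h0 : IsUnit (num.coeff 0))
    (hrel : algebraMap M M' t * h ^ a = aeval h num) : Transcendental A0 h := by
  intro halg
  apply ht
  have hh : h ≠ 0 := root_ne_zero M M' t h num a ha0 h0 hrel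
  have hle : Algebra.adjoin A0 {h} ≤ Subalgebra.algebraicClosure A0 M' :=
    Algebra.adjoin_le (by
      intro x hx
      rw [Set.mem_singleton_iff] at hx
      rw [hx]
      exact halg)
  have h1 : IsAlgebraic A0 (aeval h num) := hle (Polynomial.aeval_mem_adjoin_singleton A0 h)
  have h2 : IsAlgebraic A0 (h ^ a)⁻¹ :=
    IsAlgebraic.inv_iff.mpr ((Subalgebra.algebraicClosure A0 M').pow_mem halg a)
  have h3 : algebraMap M M' t = aeval h num * (h ^ a)⁻¹ := by
    rw [← hrel, mul_assoc, mul_inv_cancel₀ (pow_ne_zero _ hh), mul_one]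
  have h4 : IsAlgebraic A0 (algebraMap M M' t) := by
    rw [h3]
    exact h1.mul h2
  exact (isAlgebraic_algebraMap_iff (algebraMap M M').injective).mp h4

omit [Algebra A0 F] [Algebra M F] [Algebra M' F] [IsScalarTower A0 M' F] [IsScalarTower M M' F]
  [Algebra A0 M'] [Algebra M M'] [IsScalarTower A0 M M'] [Field M'] in
/-- `π ∤ t` in the chart ring `A0[t]`. -/
theorem not_unif_dvd_coord (t : M) (ht : Transcendental A0 t) (π : A0) (hπ : ¬ IsUnit π) :
    ¬ unif A0 M t π ∣ coord A0 M t := by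
  rintro ⟨c, hc⟩
  obtain ⟨q, rfl⟩ := (AdjoinChart.chartEquiv M t ht).surjective c
  rw [← AdjoinChart.chartEquiv_X M t ht, ← AdjoinChart.chartEquiv_C_unif M t ht π, ← map_mul]
    at hc
  have h1 := congrArg (fun p : A0[X] => p.coeff 1) ((AdjoinChart.chartEquiv M t ht).injective hc)
  simp only [coeff_X_one, coeff_C_mul] at h1
  exact hπ (IsUnit.of_mul_eq_one _ h1.symm)

variable [IsDomain A0] [IsDiscreteValuationRing A0]

/-- **(H2) on `A0[h]`**, from (H2) on `A0[t]` and the relation. -/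
theorem h2Hyp_of_rel [FiniteDimensional M F] (t : M) (ht : Transcendental A0 t) (h : M')
    (π : A0) (hπ : Irreducible π) (num : A0[X]) (hnum : num.Monic) (a : ℕ) (ha0 : 0 < a)
    (ha : a < num.natDegree) (h0 : IsUnit (num.coeff 0))
    (hrel : algebraMap M M' t * h ^ a = aeval h num)
    (hgen : ∀ m : M, ∃ a b : chart A0 M t, b ≠ 0 ∧ m * (b : M) = (a : M))
    (hgen' : ∀ m : M', ∃ a b : chart A0 M' h, b ≠ 0 ∧ m * (b : M') = (a : M'))
    (h2 : H2Hyp A0 M F t π) : H2Hyp A0 M' F h π := by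
  have hh : Transcendental A0 h := transcendental_root M M' t ht h num a ha0 h0 hrel
  exact h2Hyp_chart M M' F t h π num hnum a ha0 ha h0 hrel (AdjoinChart.isIntegrallyClosed M t ht)
    (AdjoinChart.isFractionRing M t hgen) (AdjoinChart.isIntegrallyClosed M' h hh)
    (AdjoinChart.isFractionRing M' h hgen') (AdjoinChart.prime_unif M' h hh π hπ)
    (not_unif_dvd_coord M' h hh π hπ.not_isUnit) h2

/-- **(H2) on `A0[h⁻¹]`**, from (H2) on `A0[t]` and the relation. -/
theorem h2Hyp_inv_of_rel [FiniteDimensional M F] (t : M) (ht : Transcendental A0 t) (h : M')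
    (π : A0) (hπ : Irreducible π) (num : A0[X]) (hnum : num.Monic) (a : ℕ) (ha0 : 0 < a)
    (ha : a < num.natDegree) (h0 : IsUnit (num.coeff 0))
    (hrel : algebraMap M M' t * h ^ a = aeval h num)
    (hgen : ∀ m : M, ∃ a b : chart A0 M t, b ≠ 0 ∧ m * (b : M) = (a : M))
    (hgen' : ∀ m : M', ∃ a b : chart A0 M' h⁻¹, b ≠ 0 ∧ m * (b : M') = (a : M'))
    (h2 : H2Hyp A0 M F t π) : H2Hyp A0 M' F h⁻¹ π := by
  have hh : Transcendental A0 h⁻¹ := by
    rw [Transcendental, IsAlgebraic.inv_iff]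
    exact transcendental_root M M' t ht h num a ha0 h0 hrel
  exact h2Hyp_chart_inv M M' F t h π num hnum a ha0 ha h0 hrel
    (AdjoinChart.isIntegrallyClosed M t ht)
    (AdjoinChart.isFractionRing M t hgen) (AdjoinChart.isIntegrallyClosed M' h⁻¹ hh)
    (AdjoinChart.isFractionRing M' h⁻¹ hgen') (AdjoinChart.prime_unif M' h⁻¹ hh π hπ)
    (not_unif_dvd_coord M' h⁻¹ hh π hπ.not_isUnit) h2

/-- **`InPiGauss` on `A0[h]`**, from `InPiGauss` on `A0[t]` and the relation. -/
theorem inPiGauss_of_rel (t : M) (ht : Transcendental A0 t) (h : M')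
    (π : A0) (hπ : Irreducible π) (num : A0[X]) (hnum : num.Monic) (a : ℕ) (ha0 : 0 < a)
    (ha : a < num.natDegree) (h0 : IsUnit (num.coeff 0))
    (hrel : algebraMap M M' t * h ^ a = aeval h num)
    (hgen : ∀ m : M, ∃ a b : chart A0 M t, b ≠ 0 ∧ m * (b : M) = (a : M))
    (x : F) (hx : InPiGauss A0 M F t π x) : InPiGauss A0 M' F h π x := by
  have hh : Transcendental A0 h := transcendental_root M M' t ht h num a ha0 h0 hrel
  exact inPiGauss_chart M M' F t h π num hnum a ha0 ha h0 hrel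
    (AdjoinChart.isIntegrallyClosed M t ht) (AdjoinChart.isFractionRing M t hgen)
    (AdjoinChart.prime_unif M' h hh π hπ) (not_unif_dvd_coord M' h hh π hπ.not_isUnit) x hx

/-- **`InPiGauss` on `A0[h⁻¹]`**, from `InPiGauss` on `A0[t]` and the relation. -/
theorem inPiGauss_inv_of_rel (t : M) (ht : Transcendental A0 t) (h : M')
    (π : A0) (hπ : Irreducible π) (num : A0[X]) (hnum : num.Monic) (a : ℕ) (ha0 : 0 < a)
    (ha : a < num.natDegree) (h0 : IsUnit (num.coeff 0))
    (hrel : algebraMap M M' t * h ^ a = aeval h num)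
    (hgen : ∀ m : M, ∃ a b : chart A0 M t, b ≠ 0 ∧ m * (b : M) = (a : M))
    (x : F) (hx : InPiGauss A0 M F t π x) : InPiGauss A0 M' F h⁻¹ π x := by
  have hh : Transcendental A0 h⁻¹ := by
    rw [Transcendental, IsAlgebraic.inv_iff]
    exact transcendental_root M M' t ht h num a ha0 h0 hrel
  exact inPiGauss_chart_inv M M' F t h π num hnum a ha0 ha h0 hrel
    (AdjoinChart.isIntegrallyClosed M t ht) (AdjoinChart.isFractionRing M t hgen)
    (AdjoinChart.prime_unif M' h⁻¹ hh π hπ) (not_unif_dvd_coord M' h⁻¹ hh π hπ.not_isUnit) x hx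

/-- (H2) on `A0[h]`, cover `X02`, fully discharged. -/
theorem h2Hyp_of_rel_X02 [FiniteDimensional M F] (t : M) (ht : Transcendental A0 t) (h : M')
    (π : A0) (hπ : Irreducible π) (hunit : IsUnit (2 : A0))
    (hrel : algebraMap M M' t * h ^ 2 = (h + 256) ^ 3)
    (hgen : ∀ m : M, ∃ a b : chart A0 M t, b ≠ 0 ∧ m * (b : M) = (a : M))
    (hgen' : ∀ m : M', ∃ a b : chart A0 M' h, b ≠ 0 ∧ m * (b : M') = (a : M'))
    (h2 : H2Hyp A0 M F t π) : H2Hyp A0 M' F h π :=
  h2Hyp_of_rel M M' F t ht h π hπ (num3 A0) (monic_num3 A0) 2 (by norm_num)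
    (by rw [natDegree_num3]; norm_num) (isUnit_coeff_zero_num3 A0 hunit)
    (by rw [aeval_num3]; exact hrel) hgen hgen' h2

/-- `InPiGauss` on `A0[h]`, cover `X02`, fully discharged. -/
theorem inPiGauss_of_rel_X02 (t : M) (ht : Transcendental A0 t) (h : M')
    (π : A0) (hπ : Irreducible π) (hunit : IsUnit (2 : A0))
    (hrel : algebraMap M M' t * h ^ 2 = (h + 256) ^ 3)
    (hgen : ∀ m : M, ∃ a b : chart A0 M t, b ≠ 0 ∧ m * (b : M) = (a : M))
    (x : F) (hx : InPiGauss A0 M F t π x) : InPiGauss A0 M' F h π x :=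
  inPiGauss_of_rel M M' F t ht h π hπ (num3 A0) (monic_num3 A0) 2 (by norm_num)
    (by rw [natDegree_num3]; norm_num) (isUnit_coeff_zero_num3 A0 hunit)
    (by rw [aeval_num3]; exact hrel) hgen x hx

/-- (H2) on `A0[h⁻¹]`, cover `X02`, fully discharged. -/
theorem h2Hyp_inv_of_rel_X02 [FiniteDimensional M F] (t : M) (ht : Transcendental A0 t) (h : M')
    (π : A0) (hπ : Irreducible π) (hunit : IsUnit (2 : A0))
    (hrel : algebraMap M M' t * h ^ 2 = (h + 256) ^ 3)
    (hgen : ∀ m : M, ∃ a b : chart A0 M t, b ≠ 0 ∧ m * (b : M) = (a : M))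
    (hgen' : ∀ m : M', ∃ a b : chart A0 M' h⁻¹, b ≠ 0 ∧ m * (b : M') = (a : M'))
    (h2 : H2Hyp A0 M F t π) : H2Hyp A0 M' F h⁻¹ π :=
  h2Hyp_inv_of_rel M M' F t ht h π hπ (num3 A0) (monic_num3 A0) 2 (by norm_num)
    (by rw [natDegree_num3]; norm_num) (isUnit_coeff_zero_num3 A0 hunit)
    (by rw [aeval_num3]; exact hrel) hgen hgen' h2

/-- `InPiGauss` on `A0[h⁻¹]`, cover `X02`, fully discharged. -/
theorem inPiGauss_inv_of_rel_X02 (t : M) (ht : Transcendental A0 t) (h : M')
    (π : A0) (hπ : Irreducible π) (hunit : IsUnit (2 : A0))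
    (hrel : algebraMap M M' t * h ^ 2 = (h + 256) ^ 3)
    (hgen : ∀ m : M, ∃ a b : chart A0 M t, b ≠ 0 ∧ m * (b : M) = (a : M))
    (x : F) (hx : InPiGauss A0 M F t π x) : InPiGauss A0 M' F h⁻¹ π x :=
  inPiGauss_inv_of_rel M M' F t ht h π hπ (num3 A0) (monic_num3 A0) 2 (by norm_num)
    (by rw [natDegree_num3]; norm_num) (isUnit_coeff_zero_num3 A0 hunit)
    (by rw [aeval_num3]; exact hrel) hgen x hx

/-- (H2) on `A0[h]`, cover `X03`, fully discharged. -/
theorem h2Hyp_of_rel_X03 [FiniteDimensional M F] (t : M) (ht : Transcendental A0 t) (h : M')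
    (π : A0) (hπ : Irreducible π) (hunit : IsUnit (3 : A0))
    (hrel : algebraMap M M' t * h = (h + 27) * (h + 3) ^ 3)
    (hgen : ∀ m : M, ∃ a b : chart A0 M t, b ≠ 0 ∧ m * (b : M) = (a : M))
    (hgen' : ∀ m : M', ∃ a b : chart A0 M' h, b ≠ 0 ∧ m * (b : M') = (a : M'))
    (h2 : H2Hyp A0 M F t π) : H2Hyp A0 M' F h π :=
  h2Hyp_of_rel M M' F t ht h π hπ (num2 A0) (monic_num2 A0) 1 (by norm_num)
    (by rw [natDegree_num2]; norm_num) (isUnit_coeff_zero_num2 A0 hunit)
    (by rw [aeval_num2, pow_one]; exact hrel) hgen hgen' h2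

/-- `InPiGauss` on `A0[h]`, cover `X03`, fully discharged. -/
theorem inPiGauss_of_rel_X03 (t : M) (ht : Transcendental A0 t) (h : M')
    (π : A0) (hπ : Irreducible π) (hunit : IsUnit (3 : A0))
    (hrel : algebraMap M M' t * h = (h + 27) * (h + 3) ^ 3)
    (hgen : ∀ m : M, ∃ a b : chart A0 M t, b ≠ 0 ∧ m * (b : M) = (a : M))
    (x : F) (hx : InPiGauss A0 M F t π x) : InPiGauss A0 M' F h π x :=
  inPiGauss_of_rel M M' F t ht h π hπ (num2 A0) (monic_num2 A0) 1 (by norm_num)
    (by rw [natDegree_num2]; norm_num) (isUnit_coeff_zero_num2 A0 hunit)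
    (by rw [aeval_num2, pow_one]; exact hrel) hgen x hx

/-- (H2) on `A0[h⁻¹]`, cover `X03`, fully discharged. -/
theorem h2Hyp_inv_of_rel_X03 [FiniteDimensional M F] (t : M) (ht : Transcendental A0 t) (h : M')
    (π : A0) (hπ : Irreducible π) (hunit : IsUnit (3 : A0))
    (hrel : algebraMap M M' t * h = (h + 27) * (h + 3) ^ 3)
    (hgen : ∀ m : M, ∃ a b : chart A0 M t, b ≠ 0 ∧ m * (b : M) = (a : M))
    (hgen' : ∀ m : M', ∃ a b : chart A0 M' h⁻¹, b ≠ 0 ∧ m * (b : M') = (a : M'))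
    (h2 : H2Hyp A0 M F t π) : H2Hyp A0 M' F h⁻¹ π :=
  h2Hyp_inv_of_rel M M' F t ht h π hπ (num2 A0) (monic_num2 A0) 1 (by norm_num)
    (by rw [natDegree_num2]; norm_num) (isUnit_coeff_zero_num2 A0 hunit)
    (by rw [aeval_num2, pow_one]; exact hrel) hgen hgen' h2

/-- `InPiGauss` on `A0[h⁻¹]`, cover `X03`, fully discharged. -/
theorem inPiGauss_inv_of_rel_X03 (t : M) (ht : Transcendental A0 t) (h : M')
    (π : A0) (hπ : Irreducible π) (hunit : IsUnit (3 : A0))
    (hrel : algebraMap M M' t * h = (h + 27) * (h + 3) ^ 3)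
    (hgen : ∀ m : M, ∃ a b : chart A0 M t, b ≠ 0 ∧ m * (b : M) = (a : M))
    (x : F) (hx : InPiGauss A0 M F t π x) : InPiGauss A0 M' F h⁻¹ π x :=
  inPiGauss_inv_of_rel M M' F t ht h π hπ (num2 A0) (monic_num2 A0) 1 (by norm_num)
    (by rw [natDegree_num2]; norm_num) (isUnit_coeff_zero_num2 A0 hunit)
    (by rw [aeval_num2, pow_one]; exact hrel) hgen x hx

end Final

end Fermat.Agent.S18.BaseLineRel
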