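/-
S18 (route K, core L4 glue): the two charts `A0[t]`, `A0[t⁻¹] ⊆ M` of `CoreDefs` acting on an
extension `E` of `M`.

* `range_algebraMap_chart`, `range_algebraMap_mid` : images of the chart rings in `E`.
* `isIntegral_of_range_subset` : integrality only depends on the image of the base ring.
* `isIntegral_adjoin_of_chart`, `isIntegral_base` : an element integral over both charts is
  integral over `A0` (via `IntConst`).
* `isIntegral_chart_inv_of_chart`, `isIntegral_chart_of_mid`, `isIntegral_chart_of_chart_inv`,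
  `isIntegral_mid_of_chart`, `isIntegral_mid_of_chart_inv` : the monomial trick on the charts.
* `exists_bound_chart` : the torsion bound `htors` of `IdemPatch` for the three integral
  closures.
* `exists_pow_mul_mem_chart'`, `exists_pow_mul_mem_chart`, `exists_pow_mul_mem_chart_inv` :
  transfer of "not divisible by `π`" between the two charts (reflect).
* `hgen_of_mul_eq_one`, `hgen_inv` : the fraction-field hypothesis passes to the other chart.
-/
import Mathlib
import Fermat.Agent.S18.CoreDefs
import Fermat.Agent.S18.TorsGlue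
import Fermat.Agent.S18.IntConst

set_option autoImplicit false

namespace Fermat.Agent.S18.ChartGlue

open Fermat.Agent.S18.CoreDefs Polynomial

variable {A0 : Type*} [CommRing A0] {M : Type*} [Field M] [Algebra A0 M]
  {E : Type*} [Field E] [Algebra M E] [Algebra A0 E] [IsScalarTower A0 M E]

/-! ### Images of the chart rings in `E` -/

/-- The image in `E` of a subalgebra `Algebra.adjoin A0 s ⊆ M`. -/
theorem range_algebraMap_adjoin (s : Set M) :
    Set.range (algebraMap (Algebra.adjoin A0 s) E) =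
      (Algebra.adjoin A0 (algebraMap M E '' s) : Set E) := by
  have h := AlgHom.map_adjoin (IsScalarTower.toAlgHom A0 M E) s
  ext x
  constructor
  · rintro ⟨y, rfl⟩
    have : algebraMap M E (y : M) ∈ (Algebra.adjoin A0 s).map (IsScalarTower.toAlgHom A0 M E) :=
      ⟨y, y.2, rfl⟩
    rw [h] at this
    exact this
  · intro hx
    have hx' : x ∈ (Algebra.adjoin A0 s).map (IsScalarTower.toAlgHom A0 M E) := by
      rw [h]; exact hx
    obtain ⟨y, hy, rfl⟩ := hx'
    exact ⟨⟨y, hy⟩, rfl⟩

theorem range_algebraMap_chart (t : M) :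
    Set.range (algebraMap (chart A0 M t) E) = (Algebra.adjoin A0 {algebraMap M E t} : Set E) := by
  have h := range_algebraMap_adjoin (A0 := A0) (E := E) ({t} : Set M)
  rw [Set.image_singleton] at h
  exact h

theorem range_algebraMap_mid (t u : M) :
    Set.range (algebraMap (Algebra.adjoin A0 ({t, u} : Set M)) E) =
      (Algebra.adjoin A0 {algebraMap M E t, algebraMap M E u} : Set E) := by
  have h := range_algebraMap_adjoin (A0 := A0) (E := E) ({t, u} : Set M)
  rw [Set.image_pair] at h
  exact h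

/-! ### Integrality and the image of the base ring -/

/-- Integrality only depends on the image of the base ring. -/
theorem isIntegral_of_range_subset {R R' F : Type*} [CommRing R] [CommRing R'] [CommRing F]
    [Algebra R F] [Algebra R' F]
    (h : ∀ a : R, algebraMap R F a ∈ Set.range (algebraMap R' F)) {x : F}
    (hx : IsIntegral R x) : IsIntegral R' x := by
  obtain ⟨K, hK⟩ := TorsGlue.isIntegral_scale_of (R := R) (R' := R') (1 : F)
    (fun a => ⟨0, fun m _ => by rw [one_pow, one_mul]; exact h a⟩) hx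
  have := hK K le_rfl
  rwa [one_pow, one_mul] at this

/-- From the chart `A0[t] ⊆ M` to the subalgebra `A0[t] ⊆ E`. -/
theorem isIntegral_adjoin_of_chart (t : M) {x : E} (hx : IsIntegral (chart A0 M t) x) :
    IsIntegral (Algebra.adjoin A0 {algebraMap M E t}) x := by
  refine isIntegral_of_range_subset (fun a => ?_) hx
  have h1 : algebraMap (chart A0 M t) E a ∈ Set.range (algebraMap (chart A0 M t) E) := ⟨a, rfl⟩
  rw [range_algebraMap_chart] at h1
  exact ⟨⟨_, h1⟩, rfl⟩

/-- From the subalgebra `A0[t] ⊆ E` back to the chart `A0[t] ⊆ M`. -/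
theorem isIntegral_chart_of_adjoin (t : M) {x : E}
    (hx : IsIntegral (Algebra.adjoin A0 {algebraMap M E t}) x) : IsIntegral (chart A0 M t) x := by
  refine isIntegral_of_range_subset (fun a => ?_) hx
  rw [range_algebraMap_chart]
  exact a.2

/-- **Constants**: an element of `E` integral over both charts is integral over `A0`. -/
theorem isIntegral_base [IsDomain A0] [IsIntegrallyClosed A0] (t : M) (ht : Transcendental A0 t)
    (x : E) (h1 : IsIntegral (chart A0 M t) x) (h2 : IsIntegral (chart A0 M t⁻¹) x) :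
    IsIntegral A0 x := by
  have htE : Transcendental A0 (algebraMap M E t) :=
    (transcendental_algebraMap_iff (algebraMap M E).injective).mpr ht
  refine IntConst.isIntegral_of_isIntegral_adjoin (algebraMap M E t) htE x
    (isIntegral_adjoin_of_chart t h1) ?_
  have h3 := isIntegral_adjoin_of_chart t⁻¹ h2
  rwa [map_inv₀] at h3

/-! ### The monomial trick on the charts -/

omit [IsScalarTower A0 M E] [Algebra A0 E] in
theorem algebraMap_mul_inv (t : M) (ht0 : t ≠ 0) :
    algebraMap M E t * algebraMap M E t⁻¹ = 1 := by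
  rw [← map_mul, mul_inv_cancel₀ ht0, map_one]

/-- Integral over `A0[t]` ⟹ `t⁻ⁿ x` integral over `A0[t⁻¹]` for `n` large. -/
theorem isIntegral_chart_inv_of_chart (t : M) (ht0 : t ≠ 0) {x : E}
    (hx : IsIntegral (chart A0 M t) x) :
    ∃ K : ℕ, ∀ n : ℕ, K ≤ n → IsIntegral (chart A0 M t⁻¹) (algebraMap M E t⁻¹ ^ n * x) := by
  refine TorsGlue.isIntegral_scale_inv (A := A0) (algebraMap M E t) (algebraMap M E t⁻¹)
    (algebraMap_mul_inv t ht0) (fun a => ?_) (fun b hb => ?_) hx
  · have h1 : algebraMap (chart A0 M t) E a ∈ Set.range (algebraMap (chart A0 M t) E) := ⟨a, rfl⟩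
    rw [range_algebraMap_chart] at h1
    exact h1
  · rw [range_algebraMap_chart]
    exact hb

/-- Integral over `A0[t, t⁻¹]` ⟹ `tⁿ y` integral over `A0[t]` for `n` large. -/
theorem isIntegral_chart_of_mid (t : M) (ht0 : t ≠ 0) {y : E}
    (hy : IsIntegral (Algebra.adjoin A0 ({t, t⁻¹} : Set M)) y) :
    ∃ k : ℕ, ∀ n : ℕ, k ≤ n → IsIntegral (chart A0 M t) (algebraMap M E t ^ n * y) := by
  refine TorsGlue.isIntegral_scale (A := A0) (algebraMap M E t) (algebraMap M E t⁻¹)
    (algebraMap_mul_inv t ht0) (fun a => ?_) (fun b hb => ?_) hy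
  · have h1 : algebraMap (Algebra.adjoin A0 ({t, t⁻¹} : Set M)) E a ∈
        Set.range (algebraMap (Algebra.adjoin A0 ({t, t⁻¹} : Set M)) E) := ⟨a, rfl⟩
    rw [range_algebraMap_mid] at h1
    exact h1
  · rw [range_algebraMap_chart]
    exact hb

omit [Algebra A0 E] [IsScalarTower A0 M E] in
/-- Integral over `A0[t]` ⟹ integral over `A0[t, t⁻¹]`. -/
theorem isIntegral_mid_of_chart (t u : M) {x : E} (hx : IsIntegral (chart A0 M t) x) :
    IsIntegral (Algebra.adjoin A0 ({t, u} : Set M)) x := by
  refine isIntegral_of_range_subset (fun a => ?_) hx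
  exact ⟨⟨(a : M), Algebra.adjoin_mono (by simp) a.2⟩, rfl⟩

omit [Algebra A0 E] [IsScalarTower A0 M E] in
/-- Integral over `A0[u]` ⟹ integral over `A0[t, u]`. -/
theorem isIntegral_mid_of_chart_inv (t u : M) {x : E} (hx : IsIntegral (chart A0 M u) x) :
    IsIntegral (Algebra.adjoin A0 ({t, u} : Set M)) x := by
  refine isIntegral_of_range_subset (fun a => ?_) hx
  exact ⟨⟨(a : M), Algebra.adjoin_mono (by simp) a.2⟩, rfl⟩

/-- Integral over `A0[t⁻¹]` ⟹ `tⁿ y` integral over `A0[t]` for `n` large. -/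
theorem isIntegral_chart_of_chart_inv (t : M) (ht0 : t ≠ 0) {y : E}
    (hy : IsIntegral (chart A0 M t⁻¹) y) :
    ∃ k : ℕ, ∀ n : ℕ, k ≤ n → IsIntegral (chart A0 M t) (algebraMap M E t ^ n * y) :=
  isIntegral_chart_of_mid t ht0 (isIntegral_mid_of_chart_inv t t⁻¹ hy)

/-! ### The torsion bound on the charts -/

/-- **`htors` of `IdemPatch.exists_mem_inf_of_idem` on the `CoreDefs` charts.** -/
theorem exists_bound_chart [IsDomain A0] (t : M) (ht0 : t ≠ 0)
    (hfin : Module.Finite (chart A0 M t) (integralClosure (chart A0 M t) E)) :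
    ∃ c₀ : A0, c₀ ≠ 0 ∧ ∀ (c : A0) (y : E), c ≠ 0 →
      y ∈ (integralClosure (Algebra.adjoin A0 ({t, t⁻¹} : Set M)) E).restrictScalars A0 →
      c • y ∈ Subalgebra.toSubmodule ((integralClosure (chart A0 M t) E).restrictScalars A0)
          ⊔ Subalgebra.toSubmodule ((integralClosure (chart A0 M t⁻¹) E).restrictScalars A0) →
      c₀ • y ∈ Subalgebra.toSubmodule ((integralClosure (chart A0 M t) E).restrictScalars A0)
          ⊔ Subalgebra.toSubmodule ((integralClosure (chart A0 M t⁻¹) E).restrictScalars A0) := by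
  have hfg : (Subalgebra.toSubmodule (integralClosure (chart A0 M t) E)).FG :=
    Module.Finite.iff_fg.mp hfin
  obtain ⟨g, hg⟩ := hfg
  refine TorsGlue.exists_bound_of_isIntegral (Rfin := chart A0 M t)
    (Rinf := chart A0 M t⁻¹) (Rmid := Algebra.adjoin A0 ({t, t⁻¹} : Set M))
    (algebraMap M E t) (algebraMap M E t⁻¹) (algebraMap_mul_inv t ht0)
    ?_ ?_ ?_ _ _ _ ?_ ?_ ?_ g ?_ ?_
  · exact range_algebraMap_chart t
  · intro b hb
    rw [range_algebraMap_chart]
    exact hb
  · intro a
    have h1 : algebraMap (Algebra.adjoin A0 ({t, t⁻¹} : Set M)) E a ∈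
        Set.range (algebraMap (Algebra.adjoin A0 ({t, t⁻¹} : Set M)) E) := ⟨a, rfl⟩
    rw [range_algebraMap_mid] at h1
    exact h1
  · intro x
    rfl
  · intro x hx
    exact hx
  · intro x hx
    exact hx
  · intro x hx
    have : x ∈ Submodule.span (chart A0 M t) (g : Set E) := Submodule.subset_span hx
    rw [hg] at this
    exact this
  · intro x hx
    rw [hg]
    exact hx

/-! ### Transfer of non-divisibility by `π` between the charts -/

omit [Field E] [Algebra M E] [Algebra A0 E] [IsScalarTower A0 M E] in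
theorem exists_aeval_eq (t : M) (s : chart A0 M t) : ∃ Q : A0[X], aeval t Q = (s : M) := by
  have h : (s : M) ∈ Algebra.adjoin A0 {t} := s.2
  rw [Algebra.adjoin_singleton_eq_range_aeval] at h
  exact h

omit [Field E] [Algebra M E] [Algebra A0 E] [IsScalarTower A0 M E] in
theorem aeval_mem_chart (t : M) (Q : A0[X]) : aeval t Q ∈ chart A0 M t := by
  change aeval t Q ∈ Algebra.adjoin A0 {t}
  rw [Algebra.adjoin_singleton_eq_range_aeval]
  exact ⟨Q, rfl⟩

omit [Field E] [Algebra M E] [Algebra A0 E] [IsScalarTower A0 M E] in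
/-- `aeval t (reflect n Q) = t ^ n * aeval u Q` when `t u = 1` and `deg Q ≤ n`. -/
theorem aeval_reflect (t u : M) (htu : t * u = 1) (n : ℕ) (Q : A0[X]) (hQ : Q.natDegree ≤ n) :
    aeval t (reflect n Q) = t ^ n * aeval u Q := by
  let _ : Invertible u := ⟨t, htu, by rw [mul_comm]; exact htu⟩
  have h := eval₂_reflect_mul_pow (algebraMap A0 M) u n Q hQ
  have h2 : ⅟u = t := rfl
  rw [h2] at h
  rw [aeval_def, aeval_def, ← h, mul_left_comm, ← mul_pow, htu, one_pow, mul_one]

omit [Field E] [Algebra M E] [Algebra A0 E] [IsScalarTower A0 M E] in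
/-- **Transfer**: an element `s` of the chart `A0[u]` (`t u = 1`) not divisible by `π` becomes,
after multiplication by a high power of `t`, an element of the chart `A0[t]` not divisible by
`π`. -/
theorem exists_pow_mul_mem_chart' (t u : M) (htu : t * u = 1) (ht : Transcendental A0 t)
    (π : A0) (s : chart A0 M u) (hs : ¬ unif A0 M u π ∣ s) :
    ∃ K : ℕ, ∀ n : ℕ, K ≤ n → ∃ s' : chart A0 M t, (s' : M) = t ^ n * (s : M) ∧
      ¬ unif A0 M t π ∣ s' := by
  obtain ⟨Q, hQ⟩ := exists_aeval_eq u s
  refine ⟨Q.natDegree, fun n hn => ⟨⟨aeval t (reflect n Q), aeval_mem_chart t _⟩, ?_, ?_⟩⟩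
  · rw [← hQ]
    exact aeval_reflect t u htu n Q hn
  · rintro ⟨c, hc⟩
    apply hs
    obtain ⟨P, hP⟩ := exists_aeval_eq t c
    have h1 : aeval t (reflect n Q) = aeval t (C π * P) := by
      have h2 := congrArg (fun z : chart A0 M t => (z : M)) hc
      simp only [unif] at h2
      rw [map_mul, aeval_C, hP]
      exact h2
    have hinj : Function.Injective (aeval (R := A0) t) := transcendental_iff_injective.mp ht
    have h3 : reflect n Q = C π * P := hinj h1
    have h4 : Q = C π * reflect n P := by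
      rw [← reflect_C_mul, ← h3, reflect_reflect]
    refine ⟨⟨aeval u (reflect n P), aeval_mem_chart u _⟩, ?_⟩
    apply Subtype.ext
    change (s : M) = algebraMap A0 M π * aeval u (reflect n P)
    rw [← hQ, h4, map_mul, aeval_C]

omit [Field E] [Algebra M E] [Algebra A0 E] [IsScalarTower A0 M E] in
/-- Transfer from the chart at infinity to the finite chart. -/
theorem exists_pow_mul_mem_chart (t : M) (ht : Transcendental A0 t) (π : A0)
    (s : chart A0 M t⁻¹) (hs : ¬ unif A0 M t⁻¹ π ∣ s) :
    ∃ K : ℕ, ∀ n : ℕ, K ≤ n → ∃ s' : chart A0 M t, (s' : M) = t ^ n * (s : M) ∧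
      ¬ unif A0 M t π ∣ s' := by
  have : Nontrivial A0 := (algebraMap A0 M).domain_nontrivial
  exact exists_pow_mul_mem_chart' t t⁻¹
    (mul_inv_cancel₀ (fun h => ht (h ▸ isAlgebraic_zero))) ht π s hs

omit [Field E] [Algebra M E] [Algebra A0 E] [IsScalarTower A0 M E] in
/-- Transfer from the finite chart to the chart at infinity. -/
theorem exists_pow_mul_mem_chart_inv (t : M) (ht : Transcendental A0 t) (π : A0)
    (s : chart A0 M t) (hs : ¬ unif A0 M t π ∣ s) :
    ∃ K : ℕ, ∀ n : ℕ, K ≤ n → ∃ s' : chart A0 M t⁻¹, (s' : M) = t⁻¹ ^ n * (s : M) ∧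
      ¬ unif A0 M t⁻¹ π ∣ s' := by
  have : Nontrivial A0 := (algebraMap A0 M).domain_nontrivial
  exact exists_pow_mul_mem_chart' t⁻¹ t
    (inv_mul_cancel₀ (fun h => ht (h ▸ isAlgebraic_zero)))
    (IntConst.transcendental_inv t ht) π s hs

/-! ### The fraction-field hypothesis on the other chart -/

omit [Field E] [Algebra M E] [Algebra A0 E] [IsScalarTower A0 M E] in
/-- If every element of `M` is a quotient of elements of `A0[t]`, the same holds for `A0[u]`,
`t u = 1`. -/
theorem hgen_of_mul_eq_one (t u : M) (htu : t * u = 1)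
    (hgen : ∀ m : M, ∃ a b : chart A0 M t, b ≠ 0 ∧ m * (b : M) = (a : M)) :
    ∀ m : M, ∃ a b : chart A0 M u, b ≠ 0 ∧ m * (b : M) = (a : M) := by
  intro m
  obtain ⟨a, b, hb, hab⟩ := hgen m
  obtain ⟨P, hP⟩ := exists_aeval_eq t a
  obtain ⟨Q, hQ⟩ := exists_aeval_eq t b
  have hut : u * t = 1 := by rw [mul_comm]; exact htu
  have hu0 : u ≠ 0 := left_ne_zero_of_mul_eq_one hut
  set n := max P.natDegree Q.natDegree with hn
  have hPn : aeval u (reflect n P) = u ^ n * (a : M) := by
    rw [← hP]; exact aeval_reflect u t hut n P (le_max_left _ _)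
  have hQn : aeval u (reflect n Q) = u ^ n * (b : M) := by
    rw [← hQ]; exact aeval_reflect u t hut n Q (le_max_right _ _)
  refine ⟨⟨aeval u (reflect n P), aeval_mem_chart u _⟩,
    ⟨aeval u (reflect n Q), aeval_mem_chart u _⟩, ?_, ?_⟩
  · intro h0
    have h1 := congrArg (fun z : chart A0 M u => (z : M)) h0
    simp only [ZeroMemClass.coe_zero] at h1
    rw [hQn] at h1
    rcases mul_eq_zero.mp h1 with h2 | h2
    · exact hu0 (pow_eq_zero_iff (n := n) (by
        intro hn0
        rw [hn0, pow_zero] at h2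
        exact one_ne_zero h2) |>.mp h2)
    · exact hb (Subtype.ext h2)
  · change m * aeval u (reflect n Q) = aeval u (reflect n P)
    rw [hPn, hQn, ← hab]
    ring

omit [Field E] [Algebra M E] [Algebra A0 E] [IsScalarTower A0 M E] in
theorem hgen_inv (t : M) (ht0 : t ≠ 0)
    (hgen : ∀ m : M, ∃ a b : chart A0 M t, b ≠ 0 ∧ m * (b : M) = (a : M)) :
    ∀ m : M, ∃ a b : chart A0 M t⁻¹, b ≠ 0 ∧ m * (b : M) = (a : M) :=
  hgen_of_mul_eq_one t t⁻¹ (mul_inv_cancel₀ ht0) hgen

end Fermat.Agent.S18.ChartGlue
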