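import Mathlib
import Fermat.Agent.S18.CoreDefs

/-!
# S18 bridge: the Gauss valuation ring of the base line and the Gauss-level (H2)

* `gaussV A0 M t π : Subring M` : the localisation of the chart `A0[t]` at the denominators
  generated by the elements not divisible by `π` (for `π` prime in the chart these are exactly the
  elements not divisible by `π`, see `GaussCalc.mem_gaussV_iff`).
* `H2G A0 M V π F` : the trace form of the integral closure of `V` in `F` is nondegenerate
  modulo `π`.
-/

set_option autoImplicit false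

open Fermat.Agent.S18.CoreDefs

namespace Fermat.Agent.S18.GaussCalc

variable (A0 : Type*) [CommRing A0] (M : Type*) [Field M] [Algebra A0 M]

/-- The monoid of denominators of the Gauss ring: generated by the chart elements not divisible
by `π`. -/
def denom (t : M) (π : A0) : Submonoid (chart A0 M t) :=
  Submonoid.closure {s : chart A0 M t | ¬ unif A0 M t π ∣ s}

/-- The Gauss ring of the base line: fractions `a / s` with `a, s` in the chart `A0[t]` and `s`
a denominator. -/
def gaussV (t : M) (π : A0) : Subring M where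
  carrier := {m | ∃ a : chart A0 M t, ∃ s ∈ denom A0 M t π, m * (s : M) = (a : M)}
  mul_mem' := by
    rintro m m' ⟨a, s, hs, h⟩ ⟨a', s', hs', h'⟩
    refine ⟨a * a', s * s', mul_mem hs hs', ?_⟩
    rw [MulMemClass.coe_mul, MulMemClass.coe_mul, ← h, ← h']
    ring
  one_mem' := ⟨1, 1, one_mem _, by simp⟩
  add_mem' := by
    rintro m m' ⟨a, s, hs, h⟩ ⟨a', s', hs', h'⟩
    refine ⟨a * s' + a' * s, s * s', mul_mem hs hs', ?_⟩
    rw [AddMemClass.coe_add, MulMemClass.coe_mul, MulMemClass.coe_mul, MulMemClass.coe_mul,
      ← h, ← h']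
    ring
  zero_mem' := ⟨0, 1, one_mem _, by simp⟩
  neg_mem' := by
    rintro m ⟨a, s, hs, h⟩
    refine ⟨-a, s, hs, ?_⟩
    rw [NegMemClass.coe_neg, ← h]
    ring

theorem mem_gaussV {t : M} {π : A0} {m : M} :
    m ∈ gaussV A0 M t π ↔ ∃ a : chart A0 M t, ∃ s ∈ denom A0 M t π, m * (s : M) = (a : M) :=
  Iff.rfl

/-- Gauss-level (H2): the trace form of the integral closure of `V` in `F` is nondegenerate
modulo `π`. -/
def H2G (V : Subring M) (π : A0) (F : Type*) [Field F] [Algebra M F] : Prop :=
  ∀ x : F, IsIntegral V x →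
    (∀ o : F, IsIntegral V o → ∃ a ∈ V, Algebra.trace M F (x * o) = algebraMap A0 M π * a) →
    ∃ c : F, IsIntegral V c ∧ x = algebraMap M F (algebraMap A0 M π) * c

end Fermat.Agent.S18.GaussCalc
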