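import Mathlib
import Fermat.Agent.S18.CoreDefs
import Fermat.Agent.S18.IntTrick

/-!
# S18, route K: the cover layer for (H2)

`R` an integrally closed domain with fraction field `M`, `π ∈ R` prime, `M ⊂ F ⊂ F'` finite
extensions with `F' = F(θ)` separable over `F`, `θ` integral over `R`.  If the derivative of the
minimal polynomial of `θ` over `F` is a unit at `π` (`f'(θ) · w = s` with `w` integral and
`π ∤ s`), then nondegeneracy modulo `π` of the trace form of the integral closure of `R`
passes from `F` to `F'` (Euler's formula for the trace-dual of a power basis).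

The Bezout form: `θ` is a root of a monic `g ∈ R[X]` with `a g + b g' = D`, `π ∤ D`.

Stated for an abstract `R` (section `General`) and in the `CoreDefs` shape (`H2Hyp`).
-/

set_option autoImplicit false

open Polynomial

namespace Fermat.Agent.S18.H2Layer

section General

variable {R : Type*} [CommRing R] [IsDomain R] [IsIntegrallyClosed R]
  {M : Type*} [Field M] [Algebra R M] [IsFractionRing R M]
  {F : Type*} [Field F] [Algebra M F] [Algebra R F] [IsScalarTower R M F] [FiniteDimensional M F]
  {F' : Type*} [Field F'] [Algebra F F'] [Algebra M F'] [Algebra R F'] [IsScalarTower M F F']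
  [IsScalarTower R M F'] [IsScalarTower R F F'] [FiniteDimensional F F']

omit [IsDomain R] [IsIntegrallyClosed R] [IsFractionRing R M] [FiniteDimensional M F]
  [Algebra M F'] [IsScalarTower M F F'] [IsScalarTower R M F'] [IsScalarTower R M F]
  [Algebra M F] [FiniteDimensional F F'] in
/-- the coefficients of a monic factor over `F` of a monic polynomial over `R` are integral. -/
theorem isIntegral_coeff_of_dvd {g : R[X]} (hg : g.Monic) {m : F[X]} (hm : m.Monic)
    (hd : m ∣ g.map (algebraMap R F)) (i : ℕ) : IsIntegral R (m.coeff i) := by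
  have h := integralClosure.mem_lifts_of_monic_of_dvd_map F hg hm hd
  rw [Polynomial.lifts_iff_coeff_lifts] at h
  obtain ⟨c, hc⟩ := h i
  rw [← hc]
  exact c.2

omit [IsDomain R] [IsIntegrallyClosed R] [IsFractionRing R M] [FiniteDimensional M F]
  [Algebra M F'] [IsScalarTower M F F'] [IsScalarTower R M F'] [IsScalarTower R M F]
  [Algebra M F] [FiniteDimensional F F'] in
/-- a polynomial over `F` with integral coefficients takes integral values at integral points. -/
theorem isIntegral_aeval_of_coeff {m : F[X]} (hm : ∀ i, IsIntegral R (m.coeff i)) {θ : F'}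
    (hθ : IsIntegral R θ) : IsIntegral R (aeval θ m) := by
  rw [aeval_eq_sum_range]
  refine IsIntegral.sum _ fun i _ => ?_
  rw [Algebra.smul_def]
  exact ((hm i).map (IsScalarTower.toAlgHom R F F')).mul (hθ.pow i)

omit [IsDomain R] [IsIntegrallyClosed R] [IsFractionRing R M] [FiniteDimensional M F]
  [Algebra M F'] [IsScalarTower M F F'] [IsScalarTower R M F'] [IsScalarTower R M F]
  [Algebra M F] [FiniteDimensional F F'] in
/-- the coefficients of the minimal polynomial over `F` of an element integral over `R` are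
integral over `R`. -/
theorem isIntegral_coeff_minpoly {θ : F'} (hθ : IsIntegral R θ) (i : ℕ) :
    IsIntegral R ((minpoly F θ).coeff i) := by
  refine isIntegral_coeff_of_dvd (minpoly.monic hθ) (minpoly.monic hθ.tower_top) ?_ i
  exact minpoly.dvd F θ (by rw [aeval_map_algebraMap]; exact minpoly.aeval R θ)

omit [IsDomain R] [IsIntegrallyClosed R] [IsFractionRing R M] [FiniteDimensional M F]
  [Algebra M F'] [IsScalarTower M F F'] [IsScalarTower R M F'] [IsScalarTower R M F]
  [Algebra M F] [FiniteDimensional F F'] in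
/-- the coefficients of `minpoly F θ / (X - θ)` are integral over `R`. -/
theorem isIntegral_coeff_minpolyDiv {θ : F'} (hθ : IsIntegral R θ) (i : ℕ) :
    IsIntegral R ((minpolyDiv F θ).coeff i) := by
  by_contra H
  have key : ∀ j, ¬ IsIntegral R ((minpolyDiv F θ).coeff (i + j)) := by
    intro j
    induction j with
    | zero => exact H
    | succ j IH =>
      intro H'
      apply IH
      rw [coeff_minpolyDiv]
      exact ((isIntegral_coeff_minpoly hθ _).map (IsScalarTower.toAlgHom R F F')).add (H'.mul hθ)
  apply key ((minpolyDiv F θ).natDegree + 1)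
  rw [coeff_eq_zero_of_natDegree_lt (by omega)]
  exact isIntegral_zero

omit [IsScalarTower R M F] in
/-- **The cover layer for (H2)**, abstract base ring: nondegeneracy of the trace form modulo `π`
goes up a layer `F' = F(θ)` in which the derivative of the minimal polynomial of `θ` is a unit
at `π`. -/
theorem h2_of_layer [Algebra.IsSeparable F F'] (π : R) (hπ : Prime π)
    (hF : ∀ x : F, IsIntegral R x →
      (∀ o : F, IsIntegral R o → ∃ a : R, Algebra.trace M F (x * o) = algebraMap R M (π * a)) →
      ∃ c : F, IsIntegral R c ∧ x = π • c)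
    (θ : F') (hθ : IsIntegral R θ) (hgen : Algebra.adjoin F {θ} = ⊤)
    (s : R) (hs : ¬ π ∣ s) (w : F') (hw : IsIntegral R w)
    (hu : aeval θ (derivative (minpoly F θ)) * w = algebraMap R F' s)
    (x : F') (hx : IsIntegral R x)
    (hxtr : ∀ o : F', IsIntegral R o →
      ∃ a : R, Algebra.trace M F' (x * o) = algebraMap R M (π * a)) :
    ∃ c : F', IsIntegral R c ∧ x = π • c := by
  classical
  -- step 1: the traces to `F` are divisible by `π`
  have h1 : ∀ o : F', IsIntegral R o →
      ∃ c : F, IsIntegral R c ∧ Algebra.trace F F' (x * o) = π • c := by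
    intro o ho
    refine hF _ (Algebra.isIntegral_trace (hx.mul ho)) ?_
    intro o' ho'
    have ho'' : IsIntegral R (o * algebraMap F F' o') :=
      ho.mul (ho'.map (IsScalarTower.toAlgHom R F F'))
    obtain ⟨a, ha⟩ := hxtr _ ho''
    refine ⟨a, ?_⟩
    have e1 : Algebra.trace F F' (x * o) * o'
        = Algebra.trace F F' (x * (o * algebraMap F F' o')) := by
      rw [← mul_assoc, mul_comm (x * o) (algebraMap F F' o'), ← Algebra.smul_def, map_smul,
        smul_eq_mul, mul_comm]
    rw [e1, Algebra.trace_trace, ha]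
  -- step 2: Euler's formula
  have hθF : IsIntegral F θ := hθ.tower_top
  let pb : PowerBasis F F' := PowerBasis.ofAdjoinEqTop hθF hgen
  have hpbgen : pb.gen = θ := PowerBasis.ofAdjoinEqTop_gen hθF hgen
  have hs0 : s ≠ 0 := fun h => hs (h ▸ dvd_zero π)
  have hsF' : algebraMap R F' s ≠ 0 := by
    rw [IsScalarTower.algebraMap_eq R M F', IsScalarTower.algebraMap_eq M F F']
    simpa using hs0
  have hd0 : aeval θ (derivative (minpoly F θ)) ≠ 0 := by
    intro h0
    rw [h0, zero_mul] at hu
    exact hsF' hu.symm
  have hx_eq : x = ∑ i, (Algebra.trace F F' (x * pb.basis i)) • pb.basis.traceDual i := by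
    conv_lhs => rw [← pb.basis.traceDual.sum_repr x]
    refine Finset.sum_congr rfl fun i _ => ?_
    rw [Module.Basis.traceDual_repr_apply, Algebra.traceForm_apply]
  choose cf hcf hcf' using fun i : Fin pb.dim =>
    h1 (pb.basis i) (by rw [pb.coe_basis, hpbgen]; exact hθ.pow _)
  -- the integral element
  let c : F' := w * ∑ i, algebraMap F F' (cf i) * (minpolyDiv F θ).coeff i
  have hc : IsIntegral R c := by
    refine hw.mul (IsIntegral.sum _ fun i _ => ?_)
    exact ((hcf i).map (IsScalarTower.toAlgHom R F F')).mul (isIntegral_coeff_minpolyDiv hθ _)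
  have hkey : s • x = π • c := by
    have hx1 : x * aeval θ (derivative (minpoly F θ))
        = ∑ i, algebraMap F F' (π • cf i) * (minpolyDiv F θ).coeff i := by
      conv_lhs => rw [hx_eq]
      rw [Finset.sum_mul]
      refine Finset.sum_congr rfl fun i _ => ?_
      rw [Module.Basis.traceDual_powerBasis_eq, hpbgen, hcf' i, Algebra.smul_def (π • cf i),
        mul_assoc, div_mul_cancel₀ _ hd0]
    have hx2 : s • x = (x * aeval θ (derivative (minpoly F θ))) * w := by
      rw [mul_assoc, hu, Algebra.smul_def, mul_comm]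
    rw [hx2, hx1, Finset.sum_mul]
    simp only [c]
    rw [Finset.mul_sum, Finset.smul_sum]
    refine Finset.sum_congr rfl fun i _ => ?_
    rw [Algebra.smul_def π (cf i), map_mul, ← IsScalarTower.algebraMap_apply R F F',
      Algebra.smul_def π]
    ring
  exact IntTrick.exists_eq_smul_of_smul_eq_smul (M := M) π s hπ hs x c hx hc hkey

omit [IsScalarTower R M F] in
/-- **The cover layer for (H2), Bezout form**: `θ` is a root of a monic `g ∈ R[X]` whose
discriminant-type constant `D = a g + b g'` is not divisible by `π`. -/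
theorem h2_of_bezout [Algebra.IsSeparable F F'] (π : R) (hπ : Prime π)
    (hF : ∀ x : F, IsIntegral R x →
      (∀ o : F, IsIntegral R o → ∃ a : R, Algebra.trace M F (x * o) = algebraMap R M (π * a)) →
      ∃ c : F, IsIntegral R c ∧ x = π • c)
    (g a b : R[X]) (hg : g.Monic) (D : R) (hD : ¬ π ∣ D)
    (hbez : a * g + b * derivative g = C D)
    (θ : F') (h0 : aeval θ g = 0) (hgen : Algebra.adjoin F {θ} = ⊤)
    (x : F') (hx : IsIntegral R x)
    (hxtr : ∀ o : F', IsIntegral R o →
      ∃ a : R, Algebra.trace M F' (x * o) = algebraMap R M (π * a)) :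
    ∃ c : F', IsIntegral R c ∧ x = π • c := by
  have hθ : IsIntegral R θ := ⟨g, hg, by rwa [← aeval_def]⟩
  have hθF : IsIntegral F θ := hθ.tower_top
  have hdvd : minpoly F θ ∣ g.map (algebraMap R F) :=
    minpoly.dvd F θ (by rw [aeval_map_algebraMap]; exact h0)
  obtain ⟨g2, hg2⟩ := hdvd
  have hg2m : g2.Monic := by
    have hmm : (minpoly F θ * g2).Monic := by rw [← hg2]; exact hg.map _
    exact (minpoly.monic hθF).of_mul_monic_left hmm
  have hg2c : ∀ i, IsIntegral R (g2.coeff i) :=
    fun i => isIntegral_coeff_of_dvd hg hg2m ⟨minpoly F θ, by rw [hg2, mul_comm]⟩ i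
  have hbθ : IsIntegral R (aeval θ b) := by
    have := (integralClosure R F').aeval_coe ⟨θ, hθ⟩ b
    rw [show ((⟨θ, hθ⟩ : integralClosure R F') : F') = θ from rfl] at this
    rw [this]
    exact (aeval (⟨θ, hθ⟩ : integralClosure R F') b).2
  refine h2_of_layer (M := M) (F := F) π hπ hF θ hθ hgen D hD (aeval θ g2 * aeval θ b)
    ((isIntegral_aeval_of_coeff hg2c hθ).mul hbθ) ?_ x hx hxtr
  -- `g'(θ) = m'(θ) g2(θ)`
  have hder : aeval θ (derivative g) = aeval θ (derivative (minpoly F θ)) * aeval θ g2 := by
    have h1 : aeval θ (derivative (g.map (algebraMap R F))) = aeval θ (derivative g) := by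
      rw [derivative_map, aeval_map_algebraMap]
    rw [← h1, hg2, derivative_mul, map_add, map_mul, map_mul, minpoly.aeval, zero_mul, add_zero]
  have hb := congrArg (aeval θ) hbez
  rw [map_add, map_mul, map_mul, h0, mul_zero, zero_add, aeval_C, hder] at hb
  rw [← hb]
  ring

end General

section Core

open Fermat.Agent.S18.CoreDefs

variable {A0 : Type*} [CommRing A0] (M : Type*) [Field M] [Algebra A0 M]
  (F : Type*) [Field F] [Algebra M F] [Algebra A0 F] [IsScalarTower A0 M F]
  (F' : Type*) [Field F'] [Algebra F F'] [Algebra M F'] [Algebra A0 F'] [IsScalarTower M F F']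
  [IsScalarTower A0 M F'] [IsScalarTower A0 F F']

omit [Algebra A0 F] [IsScalarTower A0 M F] [Algebra A0 F'] [IsScalarTower A0 M F']
  [IsScalarTower A0 F F'] in
/-- `InGauss` is preserved by a field extension. -/
theorem inGauss_map (t : M) (π : A0) {y : F} (h : InGauss A0 M F t π y) :
    InGauss A0 M F' t π (algebraMap F F' y) := by
  obtain ⟨s, hs, hint⟩ := h
  refine ⟨s, hs, ?_⟩
  have := hint.map (IsScalarTower.toAlgHom (chart A0 M t) F F')
  rwa [map_smul] at this

omit [IsScalarTower A0 M F] [IsScalarTower A0 M F'] in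
/-- `InPiGauss` is preserved by a field extension. -/
theorem inPiGauss_map (t : M) (π : A0) {y : F} (h : InPiGauss A0 M F t π y) :
    InPiGauss A0 M F' t π (algebraMap F F' y) := by
  obtain ⟨s, hs, c, hc, hsc⟩ := h
  refine ⟨s, hs, algebraMap F F' c, hc.map (IsScalarTower.toAlgHom (chart A0 M t) F F'), ?_⟩
  have h1 : algebraMap F F' (s • y) = s • algebraMap F F' y :=
    map_smul (IsScalarTower.toAlgHom (chart A0 M t) F F') s y
  have h2 : algebraMap F F' (π • c) = π • algebraMap F F' c :=
    map_smul (IsScalarTower.toAlgHom A0 F F') π c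
  rw [← h1, hsc, h2]

variable [FiniteDimensional M F] [FiniteDimensional F F'] [Algebra.IsSeparable F F']

omit [IsScalarTower A0 F F'] in
/-- **The cover layer for (H2)** in the `CoreDefs` shape: `H2Hyp` goes up a layer `F' = F(θ)`
in which the derivative of the minimal polynomial of `θ` is a unit at `π`. -/
theorem h2Hyp_of_layer (t : M) (π : A0) (hic : IsIntegrallyClosed (chart A0 M t))
    (hfr : IsFractionRing (chart A0 M t) M) (hπ : Prime (unif A0 M t π))
    (θ : F') (hθ : IsIntegral (chart A0 M t) θ) (hgen : Algebra.adjoin F {θ} = ⊤)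
    (s : chart A0 M t) (hs : ¬ unif A0 M t π ∣ s) (w : F') (hw : IsIntegral (chart A0 M t) w)
    (hu : aeval θ (derivative (minpoly F θ)) * w = algebraMap (chart A0 M t) F' s)
    (h2 : H2Hyp A0 M F t π) : H2Hyp A0 M F' t π := by
  intro x hx hxtr
  have hF : ∀ x : F, IsIntegral (chart A0 M t) x →
      (∀ o : F, IsIntegral (chart A0 M t) o → ∃ a : chart A0 M t,
        Algebra.trace M F (x * o) = algebraMap (chart A0 M t) M (unif A0 M t π * a)) →
      ∃ c : F, IsIntegral (chart A0 M t) c ∧ x = unif A0 M t π • c := by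
    intro x hx hxo
    obtain ⟨c, hc, hxc⟩ := h2 x hx hxo
    exact ⟨c, hc, by rw [hxc, unif, algebraMap_smul]⟩
  obtain ⟨c, hc, hxc⟩ := h2_of_layer (M := M) (F := F) (unif A0 M t π) hπ hF θ hθ hgen s hs w hw
    hu x hx hxtr
  exact ⟨c, hc, by rw [hxc, unif, algebraMap_smul]⟩

omit [IsScalarTower A0 F F'] in
/-- **The cover layer for (H2), Bezout form**, in the `CoreDefs` shape. -/
theorem h2Hyp_of_bezout (t : M) (π : A0) (hic : IsIntegrallyClosed (chart A0 M t))
    (hfr : IsFractionRing (chart A0 M t) M) (hπ : Prime (unif A0 M t π))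
    (g a b : (chart A0 M t)[X]) (hg : g.Monic) (D : chart A0 M t) (hD : ¬ unif A0 M t π ∣ D)
    (hbez : a * g + b * derivative g = C D)
    (θ : F') (h0 : aeval θ g = 0) (hgen : Algebra.adjoin F {θ} = ⊤)
    (h2 : H2Hyp A0 M F t π) : H2Hyp A0 M F' t π := by
  intro x hx hxtr
  have hF : ∀ x : F, IsIntegral (chart A0 M t) x →
      (∀ o : F, IsIntegral (chart A0 M t) o → ∃ a : chart A0 M t,
        Algebra.trace M F (x * o) = algebraMap (chart A0 M t) M (unif A0 M t π * a)) →
      ∃ c : F, IsIntegral (chart A0 M t) c ∧ x = unif A0 M t π • c := by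
    intro x hx hxo
    obtain ⟨c, hc, hxc⟩ := h2 x hx hxo
    exact ⟨c, hc, by rw [hxc, unif, algebraMap_smul]⟩
  obtain ⟨c, hc, hxc⟩ := h2_of_bezout (M := M) (F := F) (unif A0 M t π) hπ hF g a b hg D hD hbez
    θ h0 hgen x hx hxtr
  exact ⟨c, hc, by rw [hxc, unif, algebraMap_smul]⟩

end Core

end Fermat.Agent.S18.H2Layer
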