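import Mathlib
import Fermat.Agent.S18.CoreDefs
import Fermat.Agent.S18.AdjoinChart
import Fermat.Agent.S18.GaussDefs
import Fermat.Agent.S18.H2Layer

/-!
# S18 bridge, `ℓ = 2, 3`: Bezout data of the cover polynomials

For the two cover polynomials

* `cover3 j = (X + 256)³ - j X²`   (the `X₀(2)` relation, used for `ℓ = 3`),
* `cover2 j = (X + 27)(X + 3)³ - j X`   (the `X₀(3)` relation, used for `ℓ = 2`),

we give explicit Bezout identities `a g + b g' = D` with `D = -2²⁵ j (j - 1728)` resp.
`D = -3 j (j - 1728)²`, valid over every commutative ring.  As `D` has unit leading coefficient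
when `2` resp. `3` is a unit, `D(t)` is a unit of the Gauss ring of the base line; this gives the
hypotheses `hint`, `hunit` of the Gauss-level layer lemma (G2) and, via `H2Layer`, the chart-level
statement `H2Hyp A0 M F t π → H2Hyp A0 M F(h) t π` for a root `h` of the cover polynomial.
-/

set_option autoImplicit false

open Polynomial

namespace Fermat.Agent.S18.CoverBezout

/-! ### The explicit identities -/

section Identities

variable {R : Type*} [CommRing R]

/-- The cover polynomial for `ℓ = 3`: `(X + 256)³ - j X²`. -/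
noncomputable def cover3 (j : R) : R[X] := (X + C 256) ^ 3 - C j * X ^ 2

/-- The cover polynomial for `ℓ = 2`: `(X + 27)(X + 3)³ - j X`. -/
noncomputable def cover2 (j : R) : R[X] := (X + C 27) * (X + C 3) ^ 3 - C j * X

/-- The discriminant-type constant of `cover3`. -/
def disc3 (j : R) : R := -(2 ^ 25) * (j * (j - 1728))

/-- The discriminant-type constant of `cover2`. -/
def disc2 (j : R) : R := -3 * (j * (j - 1728) ^ 2)

/-- Bezout cofactor of `cover3`. -/
noncomputable def a3 (j : R) : R[X] :=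
  C (-2064384 + 4608 * j - 2 * j ^ 2) + C (-4608 + 3 * j) * X

/-- Bezout cofactor of the derivative of `cover3`. -/
noncomputable def b3 (j : R) : R[X] :=
  C (176160768 - 98304 * j) + C (1081344 - 2304 * j + j ^ 2) * X + C (1536 - j) * X ^ 2

/-- Bezout cofactor of `cover2`. -/
noncomputable def a2 (j : R) : R[X] :=
  C (-5225472 + 3024 * j) + C (-829440 + 480 * j) * X + C (-27648 + 16 * j) * X ^ 2

/-- Bezout cofactor of the derivative of `cover2`. -/
noncomputable def b2 (j : R) : R[X] :=
  C (5038848 - 8100 * j + 3 * j ^ 2) + C (2426112 - 1404 * j) * X + C (269568 - 156 * j) * X ^ 2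
    + C (6912 - 4 * j) * X ^ 3

theorem cover3_eq (j : R) :
    cover3 j = X ^ 3 + C (768 - j) * X ^ 2 + C 196608 * X + C 16777216 := by
  simp only [cover3, map_sub, map_ofNat]
  ring

theorem cover2_eq (j : R) :
    cover2 j = X ^ 4 + C 36 * X ^ 3 + C 270 * X ^ 2 + C (756 - j) * X + C 729 := by
  simp only [cover2, map_sub, map_ofNat]
  ring

theorem derivative_cover3 (j : R) :
    derivative (cover3 j) = C 3 * X ^ 2 + C (2 * (768 - j)) * X + C 196608 := by
  rw [cover3_eq]
  simp only [derivative_add, derivative_mul, derivative_X_pow, derivative_C, derivative_X]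
  simp only [map_mul, map_sub, map_ofNat, Nat.cast_ofNat]
  ring

theorem derivative_cover2 (j : R) :
    derivative (cover2 j) = C 4 * X ^ 3 + C 108 * X ^ 2 + C 540 * X + C (756 - j) := by
  rw [cover2_eq]
  simp only [derivative_add, derivative_mul, derivative_X_pow, derivative_C, derivative_X]
  simp only [map_sub, map_ofNat, Nat.cast_ofNat]
  ring

theorem cover3_monic [Nontrivial R] (j : R) : (cover3 j).Monic := by
  rw [cover3_eq]
  monicity!

theorem cover2_monic [Nontrivial R] (j : R) : (cover2 j).Monic := by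
  rw [cover2_eq]
  monicity!

/-- the polynomial identity behind `bezout3`, in any commutative ring. -/
theorem bezout3_aux {S : Type*} [CommRing S] (j x : S) :
    ((-2064384 + 4608 * j - 2 * j ^ 2) + (-4608 + 3 * j) * x)
        * (x ^ 3 + (768 - j) * x ^ 2 + 196608 * x + 16777216)
      + ((176160768 - 98304 * j) + (1081344 - 2304 * j + j ^ 2) * x + (1536 - j) * x ^ 2)
        * (3 * x ^ 2 + (2 * (768 - j)) * x + 196608)
      = -(2 ^ 25) * (j * (j - 1728)) := by
  ring

/-- the polynomial identity behind `bezout2`, in any commutative ring. -/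
theorem bezout2_aux {S : Type*} [CommRing S] (j x : S) :
    ((-5225472 + 3024 * j) + (-829440 + 480 * j) * x + (-27648 + 16 * j) * x ^ 2)
        * (x ^ 4 + 36 * x ^ 3 + 270 * x ^ 2 + (756 - j) * x + 729)
      + ((5038848 - 8100 * j + 3 * j ^ 2) + (2426112 - 1404 * j) * x + (269568 - 156 * j) * x ^ 2
          + (6912 - 4 * j) * x ^ 3)
        * (4 * x ^ 3 + 108 * x ^ 2 + 540 * x + (756 - j))
      = -3 * (j * (j - 1728) ^ 2) := by
  ring

/-- **Bezout identity for `cover3`**: `a3 · g + b3 · g' = -2²⁵ j (j - 1728)`. -/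
theorem bezout3 (j : R) :
    a3 j * cover3 j + b3 j * derivative (cover3 j) = C (disc3 j) := by
  rw [derivative_cover3, cover3_eq]
  have h := bezout3_aux (C j : R[X]) X
  simp only [a3, b3, disc3, map_add, map_sub, map_mul, map_neg, map_pow, map_ofNat]
  linear_combination h

/-- **Bezout identity for `cover2`**: `a2 · g + b2 · g' = -3 j (j - 1728)²`. -/
theorem bezout2 (j : R) :
    a2 j * cover2 j + b2 j * derivative (cover2 j) = C (disc2 j) := by
  rw [derivative_cover2, cover2_eq]
  have h := bezout2_aux (C j : R[X]) X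
  simp only [a2, b2, disc2, map_add, map_sub, map_mul, map_neg, map_pow, map_ofNat]
  linear_combination h

theorem map_cover3 {S : Type*} [CommRing S] (φ : R →+* S) (j : R) :
    (cover3 j).map φ = cover3 (φ j) := by
  simp [cover3, map_ofNat]

theorem map_cover2 {S : Type*} [CommRing S] (φ : R →+* S) (j : R) :
    (cover2 j).map φ = cover2 (φ j) := by
  simp [cover2, map_ofNat]

theorem map_disc3 {S : Type*} [CommRing S] (φ : R →+* S) (j : R) :
    φ (disc3 j) = disc3 (φ j) := by
  simp [disc3, map_ofNat]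

theorem map_disc2 {S : Type*} [CommRing S] (φ : R →+* S) (j : R) :
    φ (disc2 j) = disc2 (φ j) := by
  simp [disc2, map_ofNat]

/-- `cover3` in the shape `Nn(X) - j · Dd(X)` with `Nn, Dd ∈ ℤ[X]`. -/
theorem cover3_eq_map (j : R) :
    cover3 j = ((X + C 256) ^ 3 : ℤ[X]).map (Int.castRingHom R)
      - C j * ((X ^ 2 : ℤ[X]).map (Int.castRingHom R)) := by
  simp [cover3, map_ofNat]

/-- `cover2` in the shape `Nn(X) - j · Dd(X)` with `Nn, Dd ∈ ℤ[X]`. -/
theorem cover2_eq_map (j : R) :
    cover2 j = ((X + C 27) * (X + C 3) ^ 3 : ℤ[X]).map (Int.castRingHom R)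
      - C j * ((X : ℤ[X]).map (Int.castRingHom R)) := by
  simp [cover2, map_ofNat]

theorem aeval_cover3 {S : Type*} [CommRing S] [Algebra R S] (j : R) (θ : S) :
    aeval θ (cover3 j) = (θ + 256) ^ 3 - algebraMap R S j * θ ^ 2 := by
  simp [cover3, map_ofNat]

theorem aeval_cover2 {S : Type*} [CommRing S] [Algebra R S] (j : R) (θ : S) :
    aeval θ (cover2 j) = (θ + 27) * (θ + 3) ^ 3 - algebraMap R S j * θ := by
  simp [cover2, map_ofNat]

end Identities

/-! ### From a Bezout identity to a unit derivative -/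

section General

variable {R : Type*} [CommRing R] {F : Type*} [Field F] [Algebra R F]
  {F' : Type*} [Field F'] [Algebra F F'] [Algebra R F'] [IsScalarTower R F F']

omit [IsScalarTower R F F'] in
theorem isIntegral_of_root (g : R[X]) (hg : g.Monic) (θ : F') (h0 : aeval θ g = 0) :
    IsIntegral R θ :=
  ⟨g, hg, by rwa [← aeval_def]⟩

/-- If `a g + b g' = D` and `θ` is a root of the monic `g ∈ R[X]`, then the derivative of the
minimal polynomial of `θ` over `F` divides `D` in the integral closure of `R`. -/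
theorem exists_mul_derivative_minpoly (g a b : R[X]) (hg : g.Monic) (D : R)
    (hbez : a * g + b * derivative g = C D) (θ : F') (h0 : aeval θ g = 0) :
    ∃ w : F', IsIntegral R w ∧ aeval θ (derivative (minpoly F θ)) * w = algebraMap R F' D := by
  have hθ : IsIntegral R θ := isIntegral_of_root g hg θ h0
  have hθF : IsIntegral F θ := hθ.tower_top
  have hdvd : minpoly F θ ∣ g.map (algebraMap R F) :=
    minpoly.dvd F θ (by rw [aeval_map_algebraMap]; exact h0)
  obtain ⟨g2, hg2⟩ := hdvd
  have hg2m : g2.Monic := by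
    have hmm : (minpoly F θ * g2).Monic := by rw [← hg2]; exact hg.map _
    exact (minpoly.monic hθF).of_mul_monic_left hmm
  have hg2c : ∀ i, IsIntegral R (g2.coeff i) :=
    fun i => H2Layer.isIntegral_coeff_of_dvd hg hg2m
      ⟨minpoly F θ, by rw [hg2, mul_comm]⟩ i
  have hbθ : IsIntegral R (aeval θ b) := by
    have := (integralClosure R F').aeval_coe ⟨θ, hθ⟩ b
    rw [show ((⟨θ, hθ⟩ : integralClosure R F') : F') = θ from rfl] at this
    rw [this]
    exact (aeval (⟨θ, hθ⟩ : integralClosure R F') b).2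
  refine ⟨aeval θ g2 * aeval θ b, (H2Layer.isIntegral_aeval_of_coeff hg2c hθ).mul hbθ, ?_⟩
  have hder : aeval θ (derivative g) = aeval θ (derivative (minpoly F θ)) * aeval θ g2 := by
    have h1 : aeval θ (derivative (g.map (algebraMap R F))) = aeval θ (derivative g) := by
      rw [derivative_map, aeval_map_algebraMap]
    rw [← h1, hg2, derivative_mul, map_add, map_mul, map_mul, minpoly.aeval, zero_mul, add_zero]
  have hb := congrArg (aeval θ) hbez
  rw [map_add, map_mul, map_mul, h0, mul_zero, zero_add, aeval_C, hder] at hb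
  rw [← hb]
  ring

/-- If moreover `D` is a unit of `R`, the derivative of the minimal polynomial of `θ` is a unit
of the integral closure of `R`. -/
theorem exists_unit_derivative (g a b : R[X]) (hg : g.Monic) (D : R) (hD : IsUnit D)
    (hbez : a * g + b * derivative g = C D) (θ : F') (h0 : aeval θ g = 0) :
    ∃ u : F', IsIntegral R u ∧ u * aeval θ (derivative (minpoly F θ)) = 1 := by
  obtain ⟨w, hw, hwD⟩ := exists_mul_derivative_minpoly (F := F) g a b hg D hbez θ h0
  obtain ⟨D', hD'⟩ := hD.exists_right_inv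
  refine ⟨algebraMap R F' D' * w, isIntegral_algebraMap.mul hw, ?_⟩
  calc algebraMap R F' D' * w * aeval θ (derivative (minpoly F θ))
      = algebraMap R F' D' * (aeval θ (derivative (minpoly F θ)) * w) := by ring
    _ = 1 := by rw [hwD, ← map_mul, mul_comm, hD', map_one]

end General

/-! ### Subrings of the base-line field (Gauss rings) -/

section SubringForm

variable {M : Type*} [Field M] (V : Subring M) {F : Type*} [Field F] [Algebra M F]
  {F' : Type*} [Field F'] [Algebra F F'] [Algebra M F'] [IsScalarTower M F F']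

theorem isScalarTower_subring : IsScalarTower V F F' :=
  IsScalarTower.of_algebraMap_eq fun v => by
    show algebraMap M F' (v : M) = algebraMap F F' (algebraMap M F (v : M))
    rw [← IsScalarTower.algebraMap_apply]

/-- `hint` of the Gauss-level layer lemma (G2) for a root of a monic polynomial over `V`. -/
theorem hint_of_root (g : V[X]) (hg : g.Monic) (θ : F') (h0 : aeval θ g = 0) (n : ℕ) :
    IsIntegral V ((minpoly F θ).coeff n) := by
  have : IsScalarTower V F F' := isScalarTower_subring V
  exact H2Layer.isIntegral_coeff_minpoly (isIntegral_of_root g hg θ h0) n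

/-- `hunit` of the Gauss-level layer lemma (G2) from a Bezout identity with unit constant. -/
theorem hunit_of_bezout (g a b : V[X]) (hg : g.Monic) (D : V) (hD : IsUnit D)
    (hbez : a * g + b * derivative g = C D) (θ : F') (h0 : aeval θ g = 0) :
    ∃ u : F', IsIntegral V u ∧ u * aeval θ (derivative (minpoly F θ)) = 1 := by
  have : IsScalarTower V F F' := isScalarTower_subring V
  exact exists_unit_derivative (F := F) g a b hg D hD hbez θ h0

omit [IsScalarTower M F F'] [Algebra M F] [Algebra F F'] in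
theorem aeval_subring_cover3 (j : V) (θ : F') :
    aeval θ (cover3 j) = (θ + 256) ^ 3 - algebraMap M F' (j : M) * θ ^ 2 :=
  aeval_cover3 j θ

omit [IsScalarTower M F F'] [Algebra M F] [Algebra F F'] in
theorem aeval_subring_cover2 (j : V) (θ : F') :
    aeval θ (cover2 j) = (θ + 27) * (θ + 3) ^ 3 - algebraMap M F' (j : M) * θ :=
  aeval_cover2 j θ

theorem isUnit_subring_of_inv_mem {x : V} (hx : (x : M)⁻¹ ∈ V) (hx0 : (x : M) ≠ 0) :
    IsUnit x :=
  isUnit_iff_exists_inv.mpr ⟨⟨(x : M)⁻¹, hx⟩, Subtype.ext (mul_inv_cancel₀ hx0)⟩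

/-- `hint` (G2) for a root of `cover3 t`, `t ∈ V`. -/
theorem hint_cover3_of_mem (t : M) (htV : t ∈ V) (θ : F')
    (h0 : (θ + 256) ^ 3 = algebraMap M F' t * θ ^ 2) (n : ℕ) :
    IsIntegral V ((minpoly F θ).coeff n) :=
  hint_of_root V (cover3 (⟨t, htV⟩ : V)) (cover3_monic _) θ
    (by rw [aeval_subring_cover3, h0, sub_self]) n

/-- `hint` (G2) for a root of `cover2 t`, `t ∈ V`. -/
theorem hint_cover2_of_mem (t : M) (htV : t ∈ V) (θ : F')
    (h0 : (θ + 27) * (θ + 3) ^ 3 = algebraMap M F' t * θ) (n : ℕ) :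
    IsIntegral V ((minpoly F θ).coeff n) :=
  hint_of_root V (cover2 (⟨t, htV⟩ : V)) (cover2_monic _) θ
    (by rw [aeval_subring_cover2, h0, sub_self]) n

/-- `hunit` (G2) for a root of `cover3 t`, when `t ∈ V` and `disc3 t` is a unit of `V`. -/
theorem hunit_cover3_of_mem (t : M) (htV : t ∈ V) (hD0 : disc3 t ≠ 0) (hDV : (disc3 t)⁻¹ ∈ V)
    (θ : F') (h0 : (θ + 256) ^ 3 = algebraMap M F' t * θ ^ 2) :
    ∃ u : F', IsIntegral V u ∧ u * aeval θ (derivative (minpoly F θ)) = 1 := by
  have hval : ((disc3 (⟨t, htV⟩ : V) : V) : M) = disc3 t := map_disc3 V.subtype ⟨t, htV⟩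
  refine hunit_of_bezout V (cover3 (⟨t, htV⟩ : V)) (a3 _) (b3 _) (cover3_monic _) (disc3 _)
    (isUnit_subring_of_inv_mem V (by rw [hval]; exact hDV) (by rw [hval]; exact hD0))
    (bezout3 _) θ (by rw [aeval_subring_cover3, h0, sub_self])

/-- `hunit` (G2) for a root of `cover2 t`, when `t ∈ V` and `disc2 t` is a unit of `V`. -/
theorem hunit_cover2_of_mem (t : M) (htV : t ∈ V) (hD0 : disc2 t ≠ 0) (hDV : (disc2 t)⁻¹ ∈ V)
    (θ : F') (h0 : (θ + 27) * (θ + 3) ^ 3 = algebraMap M F' t * θ) :
    ∃ u : F', IsIntegral V u ∧ u * aeval θ (derivative (minpoly F θ)) = 1 := by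
  have hval : ((disc2 (⟨t, htV⟩ : V) : V) : M) = disc2 t := map_disc2 V.subtype ⟨t, htV⟩
  refine hunit_of_bezout V (cover2 (⟨t, htV⟩ : V)) (a2 _) (b2 _) (cover2_monic _) (disc2 _)
    (isUnit_subring_of_inv_mem V (by rw [hval]; exact hDV) (by rw [hval]; exact hD0))
    (bezout2 _) θ (by rw [aeval_subring_cover2, h0, sub_self])

end SubringForm

/-! ### The chart and the Gauss ring of the base line -/

section Chart

open Fermat.Agent.S18.CoreDefs Fermat.Agent.S18.AdjoinChart Fermat.Agent.S18.GaussCalc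

variable {A0 : Type*} [CommRing A0] (M : Type*) [Field M] [Algebra A0 M]

/-- The image of a monic polynomial in the chart ring is not divisible by `π`. -/
theorem not_unif_dvd_chartEquiv_of_monic (t : M) (ht : Transcendental A0 t) (π : A0)
    (hπ : Prime (unif A0 M t π)) (P : A0[X]) (hP : P.Monic) :
    ¬ unif A0 M t π ∣ chartEquiv M t ht P := by
  intro h
  rw [← chartEquiv_C_unif M t ht π] at h
  have h' : C π ∣ P := (map_dvd_iff (chartEquiv M t ht)).mp h
  rw [C_dvd_iff_dvd_coeff] at h'
  have h1 := h' P.natDegree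
  rw [coeff_natDegree, hP.leadingCoeff] at h1
  have hu : IsUnit π := isUnit_of_dvd_one h1
  exact hπ.not_isUnit (hu.map (algebraMap A0 (chart A0 M t)))

/-- A unit multiple of the image of a monic polynomial is not divisible by `π`. -/
theorem not_unif_dvd_unit_mul (t : M) (ht : Transcendental A0 t) (π : A0)
    (hπ : Prime (unif A0 M t π)) (c : A0) (hc : IsUnit c) (P : A0[X]) (hP : P.Monic) :
    ¬ unif A0 M t π ∣ algebraMap A0 (chart A0 M t) c * chartEquiv M t ht P := by
  intro h
  rcases hπ.dvd_or_dvd h with h1 | h1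
  · exact hπ.not_isUnit (isUnit_of_dvd_unit h1 (hc.map _))
  · exact not_unif_dvd_chartEquiv_of_monic M t ht π hπ P hP h1

theorem disc3_coord_eq (t : M) (ht : Transcendental A0 t) :
    disc3 (coord A0 M t) = algebraMap A0 (chart A0 M t) (-(2 ^ 25))
      * chartEquiv M t ht (X * (X - C 1728)) := by
  rw [map_mul, chartEquiv_X_sub_C, chartEquiv_X, disc3]
  simp only [map_neg, map_pow, map_ofNat]

theorem disc2_coord_eq (t : M) (ht : Transcendental A0 t) :
    disc2 (coord A0 M t) = algebraMap A0 (chart A0 M t) (-3)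
      * chartEquiv M t ht (X * (X - C 1728) ^ 2) := by
  rw [map_mul, map_pow, chartEquiv_X_sub_C, chartEquiv_X, disc2]
  simp only [map_neg, map_ofNat]

/-- `disc3 (t)` is not divisible by `π` in the chart ring when `2` is a unit of `A0`. -/
theorem not_unif_dvd_disc3 (t : M) (ht : Transcendental A0 t) (π : A0)
    (hπ : Prime (unif A0 M t π)) (h2 : IsUnit (2 : A0)) :
    ¬ unif A0 M t π ∣ disc3 (coord A0 M t) := by
  have : Nontrivial A0 := by
    by_contra hn
    rw [not_nontrivial_iff_subsingleton] at hn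
    exact hπ.not_isUnit (by rw [unif, Subsingleton.elim π 1, map_one]; exact isUnit_one)
  rw [disc3_coord_eq M t ht]
  refine not_unif_dvd_unit_mul M t ht π hπ _ (h2.pow 25).neg _ ?_
  exact monic_X.mul (monic_X_sub_C 1728)

/-- `disc2 (t)` is not divisible by `π` in the chart ring when `3` is a unit of `A0`. -/
theorem not_unif_dvd_disc2 (t : M) (ht : Transcendental A0 t) (π : A0)
    (hπ : Prime (unif A0 M t π)) (h3 : IsUnit (3 : A0)) :
    ¬ unif A0 M t π ∣ disc2 (coord A0 M t) := by
  have : Nontrivial A0 := by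
    by_contra hn
    rw [not_nontrivial_iff_subsingleton] at hn
    exact hπ.not_isUnit (by rw [unif, Subsingleton.elim π 1, map_one]; exact isUnit_one)
  rw [disc2_coord_eq M t ht]
  refine not_unif_dvd_unit_mul M t ht π hπ _ h3.neg _ ?_
  exact monic_X.mul ((monic_X_sub_C 1728).pow 2)

theorem coe_disc3_coord (t : M) : ((disc3 (coord A0 M t) : chart A0 M t) : M) = disc3 t :=
  map_disc3 (chart A0 M t).val.toRingHom (coord A0 M t)

theorem coe_disc2_coord (t : M) : ((disc2 (coord A0 M t) : chart A0 M t) : M) = disc2 t :=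
  map_disc2 (chart A0 M t).val.toRingHom (coord A0 M t)

/-- chart elements lie in the Gauss ring. -/
theorem mem_gaussV_of_mem_chart (t : M) (π : A0) (a : chart A0 M t) :
    (a : M) ∈ gaussV A0 M t π :=
  ⟨a, 1, one_mem _, by simp⟩

/-- chart elements not divisible by `π` are units of the Gauss ring. -/
theorem inv_mem_gaussV (t : M) (π : A0) (s : chart A0 M t) (hs : ¬ unif A0 M t π ∣ s) :
    ((s : M))⁻¹ ∈ gaussV A0 M t π := by
  have hs0 : (s : M) ≠ 0 := by
    intro h
    exact hs ((Subtype.ext h : s = 0) ▸ dvd_zero _)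
  exact ⟨1, s, Submonoid.subset_closure hs, by rw [inv_mul_cancel₀ hs0]; rfl⟩

variable (F : Type*) [Field F] [Algebra M F]
  (F' : Type*) [Field F'] [Algebra F F'] [Algebra M F'] [IsScalarTower M F F']

/-- **(G2) `hint` for `ℓ = 3`**: the minimal polynomial over `F` of a root `θ` of
`(X + 256)³ - t X²` has coefficients integral over the Gauss ring of the `t`-line. -/
theorem hint_cover3 (t : M) (π : A0) (θ : F')
    (h0 : (θ + 256) ^ 3 = algebraMap M F' t * θ ^ 2) (n : ℕ) :
    IsIntegral (gaussV A0 M t π) ((minpoly F θ).coeff n) :=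
  hint_cover3_of_mem (gaussV A0 M t π) t (mem_gaussV_of_mem_chart M t π (coord A0 M t)) θ h0 n

/-- **(G2) `hint` for `ℓ = 2`**. -/
theorem hint_cover2 (t : M) (π : A0) (θ : F')
    (h0 : (θ + 27) * (θ + 3) ^ 3 = algebraMap M F' t * θ) (n : ℕ) :
    IsIntegral (gaussV A0 M t π) ((minpoly F θ).coeff n) :=
  hint_cover2_of_mem (gaussV A0 M t π) t (mem_gaussV_of_mem_chart M t π (coord A0 M t)) θ h0 n

/-- **(G2) `hunit` for `ℓ = 3`**: the derivative of the minimal polynomial over `F` of a root
`θ` of `(X + 256)³ - t X²` is a unit of the integral closure of the Gauss ring of the `t`-line,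
when `2` is a unit of `A0`. -/
theorem hunit_cover3 (t : M) (ht : Transcendental A0 t) (π : A0)
    (hπ : Prime (unif A0 M t π)) (h2 : IsUnit (2 : A0)) (θ : F')
    (h0 : (θ + 256) ^ 3 = algebraMap M F' t * θ ^ 2) :
    ∃ u : F', IsIntegral (gaussV A0 M t π) u ∧ u * aeval θ (derivative (minpoly F θ)) = 1 := by
  have hnd := not_unif_dvd_disc3 M t ht π hπ h2
  have hinv := inv_mem_gaussV M t π _ hnd
  rw [coe_disc3_coord] at hinv
  have hD0 : disc3 t ≠ 0 := by
    intro h
    apply hnd
    have : disc3 (coord A0 M t) = 0 := Subtype.ext (by rw [coe_disc3_coord, h]; rfl)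
    rw [this]
    exact dvd_zero _
  exact hunit_cover3_of_mem (gaussV A0 M t π) t
    (mem_gaussV_of_mem_chart M t π (coord A0 M t)) hD0 hinv θ h0

/-- **(G2) `hunit` for `ℓ = 2`**, when `3` is a unit of `A0`. -/
theorem hunit_cover2 (t : M) (ht : Transcendental A0 t) (π : A0)
    (hπ : Prime (unif A0 M t π)) (h3 : IsUnit (3 : A0)) (θ : F')
    (h0 : (θ + 27) * (θ + 3) ^ 3 = algebraMap M F' t * θ) :
    ∃ u : F', IsIntegral (gaussV A0 M t π) u ∧ u * aeval θ (derivative (minpoly F θ)) = 1 := by
  have hnd := not_unif_dvd_disc2 M t ht π hπ h3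
  have hinv := inv_mem_gaussV M t π _ hnd
  rw [coe_disc2_coord] at hinv
  have hD0 : disc2 t ≠ 0 := by
    intro h
    apply hnd
    have : disc2 (coord A0 M t) = 0 := Subtype.ext (by rw [coe_disc2_coord, h]; rfl)
    rw [this]
    exact dvd_zero _
  exact hunit_cover2_of_mem (gaussV A0 M t π) t
    (mem_gaussV_of_mem_chart M t π (coord A0 M t)) hD0 hinv θ h0

variable [Algebra A0 F] [IsScalarTower A0 M F] [Algebra A0 F'] [IsScalarTower A0 M F']
  [FiniteDimensional M F] [FiniteDimensional F F'] [Algebra.IsSeparable F F']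

/-- **Chart-level cover layer for `ℓ = 3`**: `H2Hyp` passes from `F` to `F' = F(θ)`, `θ` a root
of `(X + 256)³ - t X²`, when `2` is a unit of `A0`. -/
theorem h2Hyp_cover3 (t : M) (ht : Transcendental A0 t) (π : A0)
    (hic : IsIntegrallyClosed (chart A0 M t)) (hfr : IsFractionRing (chart A0 M t) M)
    (hπ : Prime (unif A0 M t π)) (h2 : IsUnit (2 : A0)) (θ : F')
    (h0 : (θ + 256) ^ 3 = algebraMap M F' t * θ ^ 2) (hgen : Algebra.adjoin F {θ} = ⊤)
    (H : H2Hyp A0 M F t π) : H2Hyp A0 M F' t π := by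
  have hroot : aeval θ (cover3 (coord A0 M t)) = 0 := by
    rw [aeval_cover3]
    show (θ + 256) ^ 3 - algebraMap M F' t * θ ^ 2 = 0
    rw [h0, sub_self]
  exact H2Layer.h2Hyp_of_bezout M F F' t π hic hfr hπ (cover3 (coord A0 M t)) (a3 _) (b3 _)
    (cover3_monic _) (disc3 _) (not_unif_dvd_disc3 M t ht π hπ h2) (bezout3 _) θ hroot hgen H

/-- **Chart-level cover layer for `ℓ = 2`**: `H2Hyp` passes from `F` to `F' = F(θ)`, `θ` a root
of `(X + 27)(X + 3)³ - t X`, when `3` is a unit of `A0`. -/
theorem h2Hyp_cover2 (t : M) (ht : Transcendental A0 t) (π : A0)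
    (hic : IsIntegrallyClosed (chart A0 M t)) (hfr : IsFractionRing (chart A0 M t) M)
    (hπ : Prime (unif A0 M t π)) (h3 : IsUnit (3 : A0)) (θ : F')
    (h0 : (θ + 27) * (θ + 3) ^ 3 = algebraMap M F' t * θ) (hgen : Algebra.adjoin F {θ} = ⊤)
    (H : H2Hyp A0 M F t π) : H2Hyp A0 M F' t π := by
  have hroot : aeval θ (cover2 (coord A0 M t)) = 0 := by
    rw [aeval_cover2]
    show (θ + 27) * (θ + 3) ^ 3 - algebraMap M F' t * θ = 0
    rw [h0, sub_self]
  exact H2Layer.h2Hyp_of_bezout M F F' t π hic hfr hπ (cover2 (coord A0 M t)) (a2 _) (b2 _)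
    (cover2_monic _) (disc2 _) (not_unif_dvd_disc2 M t ht π hπ h3) (bezout2 _) θ hroot hgen H

end Chart

end Fermat.Agent.S18.CoverBezout
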