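/-
S18 machine M, step (F3) (helper1's design): in a Noetherian domain, an element that avoids
every height-one prime except possibly `(τ)` (and is prime to `π`) is a unit times a power
of `τ`.  Mathlib only.
-/
import Mathlib

namespace Fermat.Agent.S18.DiscUnit

open Ideal

/-- A nonzero non-unit of a Noetherian domain lies in a prime of height one. -/
theorem exists_height_one_of_not_isUnit {R : Type*} [CommRing R] [IsDomain R]
    [IsNoetherianRing R] (d : R) (hd : d ≠ 0) (hu : ¬ IsUnit d) :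
    ∃ 𝔭 : Ideal R, 𝔭.IsPrime ∧ 𝔭.height = 1 ∧ d ∈ 𝔭 := by
  obtain ⟨𝔭, h𝔭⟩ := (span {d}).nonempty_minimalPrimes (by simpa [span_singleton_eq_top] using hu)
  have hprime : 𝔭.IsPrime := h𝔭.isPrime
  have hmem : d ∈ 𝔭 := h𝔭.1.2 (mem_span_singleton_self d)
  have hne : 𝔭 ≠ ⊥ := fun h => hd (by simpa [h] using hmem)
  refine ⟨𝔭, hprime, le_antisymm
    (Ideal.height_le_one_of_isPrincipal_of_mem_minimalPrimes _ 𝔭 h𝔭) ?_, hmem⟩
  rw [Order.one_le_iff_pos, pos_iff_ne_zero, Ne, Ideal.height_eq_zero_iff_eq_bot]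
  exact hne

/-- A height-one prime of a domain containing a prime element is generated by it. -/
theorem dvd_of_mem_height_one {R : Type*} [CommRing R] [IsDomain R]
    {𝔭 : Ideal R} [𝔭.IsPrime] (h1 : 𝔭.height = 1) {π : R} (hπ : Prime π) (hmem : π ∈ 𝔭)
    {d : R} (hd : d ∈ 𝔭) : π ∣ d := by
  have := 𝔭.eq_span_singleton_of_height_eq_one h1 hmem hπ
  rw [this] at hd
  exact mem_span_singleton.mp hd

/-- **(F3), height-one form.** `R` a Noetherian domain, `π`, `τ` prime elements, `d ≠ 0` not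
divisible by `π`, and `d` avoids every height-one prime containing neither `π` nor `τ`.
Then `d` is a unit times a power of `τ`. -/
theorem eq_unit_mul_pow' {R : Type*} [CommRing R] [IsDomain R] [IsNoetherianRing R]
    (π τ d : R) (hπ : Prime π) (hτ : Prime τ) (hd : d ≠ 0) (hπd : ¬ π ∣ d)
    (h : ∀ 𝔭 : Ideal R, 𝔭.IsPrime → 𝔭.height = 1 → π ∉ 𝔭 → τ ∉ 𝔭 → d ∉ 𝔭) :
    ∃ (r : ℕ) (u : R), IsUnit u ∧ d = u * τ ^ r := by
  obtain ⟨r, d', hτd', rfl⟩ := WfDvdMonoid.max_power_factor hd hτ.irreducible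
  refine ⟨r, d', ?_, mul_comm _ _⟩
  by_contra hu
  have hd' : d' ≠ 0 := right_ne_zero_of_mul hd
  obtain ⟨𝔭, hprime, h1, hmem⟩ := exists_height_one_of_not_isUnit d' hd' hu
  have hπ𝔭 : π ∉ 𝔭 := fun hm =>
    hπd (Dvd.dvd.mul_left (dvd_of_mem_height_one h1 hπ hm hmem) _)
  have hτ𝔭 : τ ∉ 𝔭 := fun hm => hτd' (dvd_of_mem_height_one h1 hτ hm hmem)
  exact h 𝔭 hprime h1 hπ𝔭 hτ𝔭 (𝔭.mul_mem_left _ hmem)

/-- **(F3).** Same with the hypothesis at all nonzero primes. -/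
theorem eq_unit_mul_pow {R : Type*} [CommRing R] [IsDomain R] [IsNoetherianRing R]
    (π τ d : R) (hπ : Prime π) (hτ : Prime τ) (hd : d ≠ 0) (hπd : ¬ π ∣ d)
    (h : ∀ 𝔭 : Ideal R, 𝔭.IsPrime → 𝔭 ≠ ⊥ → π ∉ 𝔭 → τ ∉ 𝔭 → d ∉ 𝔭) :
    ∃ (r : ℕ) (u : R), IsUnit u ∧ d = u * τ ^ r :=
  eq_unit_mul_pow' π τ d hπ hτ hd hπd fun 𝔭 hp h1 =>
    h 𝔭 hp (Ideal.ne_bot_of_height_eq_one h1)

/-- Variant: the element is a unit as soon as, in addition, `τ ∤ d`. -/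
theorem isUnit_of_not_dvd {R : Type*} [CommRing R] [IsDomain R] [IsNoetherianRing R]
    (π τ d : R) (hπ : Prime π) (hτ : Prime τ) (hd : d ≠ 0) (hπd : ¬ π ∣ d) (hτd : ¬ τ ∣ d)
    (h : ∀ 𝔭 : Ideal R, 𝔭.IsPrime → 𝔭.height = 1 → π ∉ 𝔭 → τ ∉ 𝔭 → d ∉ 𝔭) : IsUnit d := by
  by_contra hu
  obtain ⟨𝔭, hprime, h1, hmem⟩ := exists_height_one_of_not_isUnit d hd hu
  exact h 𝔭 hprime h1 (fun hm => hπd (dvd_of_mem_height_one h1 hπ hm hmem))
    (fun hm => hτd (dvd_of_mem_height_one h1 hτ hm hmem)) hmem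

end Fermat.Agent.S18.DiscUnit
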