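import Mathlib

/-!
# S18 (machine M, step F1): lifting freeness from the special fibre

`free_of_quotient_torsionFree`: over a Noetherian local domain `R` with a prime element `π` such
that `R ⧸ (π)` is a principal ideal domain, a finitely generated torsion-free module `C` whose
reduction `C ⧸ π C` is torsion-free over `R ⧸ (π)` is free.

Proof: `C ⧸ π C` is free over the PID `R ⧸ (π)`; lift a basis; the lifts span by Nakayama, and a
relation among them can be divided by `π` indefinitely, hence vanishes by Krull's intersection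
theorem.
-/

set_option autoImplicit false

namespace Fermat.Agent.S18.FreeLift

open Module

/-- A family whose reduction modulo `π` is a basis of `C ⧸ π C` is linearly independent, provided
`C` is torsion-free and `⋂ (π^n) = 0`. -/
theorem linearIndependent_of_quotient {R : Type*} [CommRing R] [IsDomain R] (π : R) (hπ0 : π ≠ 0)
    (hkrull : ∀ r : R, (∀ n : ℕ, π ^ n ∣ r) → r = 0)
    {C : Type*} [AddCommGroup C] [Module R C] [Module.IsTorsionFree R C]
    {ι : Type*} [Fintype ι] (b : ι → C)
    (hstep : ∀ g : ι → R, ∑ i, g i • b i = 0 → ∀ i, π ∣ g i) :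
    LinearIndependent R b := by
  classical
  rw [Fintype.linearIndependent_iff]
  have hpow : ∀ (n : ℕ) (g : ι → R), ∑ i, g i • b i = 0 → ∀ i, π ^ n ∣ g i := by
    intro n
    induction n with
    | zero => intro g _ i; simp
    | succ n ih =>
      intro g hg i
      have h1 := hstep g hg
      choose s hs using h1
      have h2 : π • ∑ j, s j • b j = 0 := by
        rw [Finset.smul_sum, ← hg]
        refine Finset.sum_congr rfl (fun j _ => ?_)
        rw [smul_smul, ← hs j]
      have h3 : ∑ j, s j • b j = 0 := by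
        rcases smul_eq_zero.mp h2 with h | h
        · exact absurd h hπ0
        · exact h
      obtain ⟨t, ht⟩ := ih s h3 i
      exact ⟨t, by rw [hs i, ht, pow_succ]; ring⟩
  intro g hg i
  exact hkrull _ (fun n => hpow n g hg i)

/-- auxiliary form of `linearIndependent_and_span_of_quotient_basis` with the ideal as a
variable. -/
theorem linearIndependent_and_span_aux {R : Type*} [CommRing R] [IsDomain R]
    [IsNoetherianRing R] [IsLocalRing R] (π : R) (hπ : Prime π) (I : Ideal R)
    (hI : I = Ideal.span {π})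
    {C : Type*} [AddCommGroup C] [Module R C] [Module.Finite R C] [Module.IsTorsionFree R C]
    {ι : Type*} [Fintype ι]
    (bb : Basis ι (R ⧸ I) (C ⧸ (I • (⊤ : Submodule R C))))
    (b : ι → C)
    (hb : ∀ i, (Submodule.Quotient.mk (b i) : C ⧸ (I • (⊤ : Submodule R C))) = bb i) :
    LinearIndependent R b ∧ ⊤ ≤ Submodule.span R (Set.range b) := by
  classical
  have hIprime : I.IsPrime := hI ▸ (Ideal.span_singleton_prime hπ.ne_zero).mpr hπ
  have hIne : I ≠ ⊤ := hIprime.ne_top
  have hmkI : ∀ r : R, Ideal.Quotient.mk I r = 0 ↔ π ∣ r := by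
    intro r
    rw [Ideal.Quotient.eq_zero_iff_mem, hI, Ideal.mem_span_singleton]
  -- the lifts span
  have hspan : ⊤ ≤ Submodule.span R (Set.range b) := by
    have hJ : I ≤ Ideal.jacobson ⊥ := by
      rw [IsLocalRing.jacobson_eq_maximalIdeal ⊥ bot_ne_top]
      exact IsLocalRing.le_maximalIdeal hIne
    refine Submodule.le_of_le_smul_of_le_jacobson_bot Module.Finite.fg_top hJ ?_
    intro x _
    -- coordinates of the class of `x`
    have hx := bb.sum_repr (Submodule.Quotient.mk x)
    have hc : ∀ i, ∃ r : R, Ideal.Quotient.mk I r = bb.repr (Submodule.Quotient.mk x) i :=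
      fun i => Ideal.Quotient.mk_surjective _
    choose c hc using hc
    have h1 : (Submodule.Quotient.mk (x - ∑ i, c i • b i) : C ⧸ (I • (⊤ : Submodule R C))) = 0 := by
      rw [Submodule.Quotient.mk_sub, sub_eq_zero, ← hx]
      have h2 : (Submodule.Quotient.mk (∑ i, c i • b i) : C ⧸ (I • (⊤ : Submodule R C))) =
          ∑ i, (Submodule.Quotient.mk (c i • b i) : C ⧸ (I • (⊤ : Submodule R C))) :=
        map_sum (Submodule.mkQ (I • (⊤ : Submodule R C))) _ _
      rw [h2]
      refine Finset.sum_congr rfl (fun i _ => ?_)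
      rw [← hc i, ← hb i, Module.Quotient.mk_smul_mk]
    rw [Submodule.Quotient.mk_eq_zero] at h1
    have h3 : x = ∑ i, c i • b i + (x - ∑ i, c i • b i) := by abel
    rw [h3]
    refine Submodule.add_mem_sup ?_ h1
    exact Submodule.sum_mem _ (fun i _ =>
      Submodule.smul_mem _ _ (Submodule.subset_span (Set.mem_range_self i)))
  -- the lifts are independent
  have hkrull : ∀ r : R, (∀ n : ℕ, π ^ n ∣ r) → r = 0 := by
    intro r hr
    have h1 : r ∈ ⨅ n : ℕ, I ^ n := by
      rw [Ideal.mem_iInf]
      intro n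
      rw [hI, Ideal.span_singleton_pow, Ideal.mem_span_singleton]
      exact hr n
    rw [Ideal.iInf_pow_eq_bot_of_isLocalRing I hIne] at h1
    exact h1
  have hstep : ∀ g : ι → R, ∑ i, g i • b i = 0 → ∀ i, π ∣ g i := by
    intro g hg i
    have h1 : (Submodule.Quotient.mk (∑ i, g i • b i) : C ⧸ (I • (⊤ : Submodule R C))) = 0 := by
      rw [hg]; rfl
    have h2 : (Submodule.Quotient.mk (∑ i, g i • b i) : C ⧸ (I • (⊤ : Submodule R C))) =
        ∑ i, (Submodule.Quotient.mk (g i • b i) : C ⧸ (I • (⊤ : Submodule R C))) :=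
      map_sum (Submodule.mkQ (I • (⊤ : Submodule R C))) _ _
    rw [h2] at h1
    have h3 : ∑ i, Ideal.Quotient.mk I (g i) • bb i = 0 := by
      rw [← h1]
      refine Finset.sum_congr rfl (fun i _ => ?_)
      rw [← hb i, Module.Quotient.mk_smul_mk]
    have h4 := Fintype.linearIndependent_iff.mp bb.linearIndependent
      (fun i => Ideal.Quotient.mk I (g i)) h3 i
    exact (hmkI _).mp h4
  exact ⟨linearIndependent_of_quotient π hπ.ne_zero hkrull b hstep, hspan⟩

/-- **Lifting a basis.** Over a Noetherian local domain `R` with a prime element `π`, any lift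
of a basis of `C ⧸ π C` over `R ⧸ (π)` is linearly independent and spans the finitely generated
torsion-free module `C`. -/
theorem linearIndependent_and_span_of_quotient_basis {R : Type*} [CommRing R] [IsDomain R]
    [IsNoetherianRing R] [IsLocalRing R] (π : R) (hπ : Prime π)
    {C : Type*} [AddCommGroup C] [Module R C] [Module.Finite R C] [Module.IsTorsionFree R C]
    {ι : Type*} [Fintype ι]
    (bb : Basis ι (R ⧸ Ideal.span {π}) (C ⧸ ((Ideal.span {π} : Ideal R) • (⊤ : Submodule R C))))
    (b : ι → C)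
    (hb : ∀ i, (Submodule.Quotient.mk (b i) :
      C ⧸ ((Ideal.span {π} : Ideal R) • (⊤ : Submodule R C))) = bb i) :
    LinearIndependent R b ∧ ⊤ ≤ Submodule.span R (Set.range b) :=
  linearIndependent_and_span_aux π hπ (Ideal.span {π}) rfl bb b hb

/-- A basis of `C` lifting a given basis of `C ⧸ π C`. -/
theorem exists_basis_of_quotient_basis {R : Type*} [CommRing R] [IsDomain R]
    [IsNoetherianRing R] [IsLocalRing R] (π : R) (hπ : Prime π)
    {C : Type*} [AddCommGroup C] [Module R C] [Module.Finite R C] [Module.IsTorsionFree R C]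
    {ι : Type*} [Fintype ι]
    (bb : Basis ι (R ⧸ Ideal.span {π}) (C ⧸ ((Ideal.span {π} : Ideal R) • (⊤ : Submodule R C)))) :
    ∃ B : Basis ι R C, ∀ i, (Submodule.Quotient.mk (B i) :
      C ⧸ ((Ideal.span {π} : Ideal R) • (⊤ : Submodule R C))) = bb i := by
  have hlift : ∀ i, ∃ c : C, (Submodule.Quotient.mk c :
      C ⧸ ((Ideal.span {π} : Ideal R) • (⊤ : Submodule R C))) = bb i :=
    fun i => Submodule.Quotient.mk_surjective _ (bb i)
  choose b hb using hlift
  obtain ⟨hli, hspan⟩ := linearIndependent_and_span_of_quotient_basis π hπ bb b hb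
  refine ⟨Basis.mk hli hspan, fun i => ?_⟩
  rw [Basis.mk_apply, hb]

/-- The reduction `C ⧸ π C` is torsion-free over the domain `R ⧸ (π)` as soon as
`r • x ∈ π C` with `π ∤ r` forces `x ∈ π C`. -/
theorem isTorsionFree_quotient {R : Type*} [CommRing R] (π : R) (hπ : Prime π)
    {C : Type*} [AddCommGroup C] [Module R C]
    (htf : ∀ (r : R) (x c : C), ¬ π ∣ r → r • x = π • c → ∃ c' : C, x = π • c') :
    Module.IsTorsionFree (R ⧸ Ideal.span {π})
      (C ⧸ ((Ideal.span {π} : Ideal R) • (⊤ : Submodule R C))) := by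
  set I : Ideal R := Ideal.span {π} with hI
  have hmem : ∀ x : C, x ∈ (I • (⊤ : Submodule R C)) ↔ ∃ c : C, x = π • c := by
    intro x
    rw [hI, Submodule.ideal_span_singleton_smul]
    constructor
    · rintro ⟨c, -, rfl⟩
      exact ⟨c, rfl⟩
    · rintro ⟨c, rfl⟩
      exact ⟨c, Submodule.mem_top, rfl⟩
  have hmk0 : ∀ x : C, (Submodule.Quotient.mk x : C ⧸ (I • (⊤ : Submodule R C))) = 0 ↔
      ∃ c : C, x = π • c := by
    intro x
    rw [Submodule.Quotient.mk_eq_zero, hmem]
  have hmkI : ∀ r : R, Ideal.Quotient.mk I r = 0 ↔ π ∣ r := by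
    intro r
    rw [Ideal.Quotient.eq_zero_iff_mem, hI, Ideal.mem_span_singleton]
  refine ⟨fun r hr x y hxy => ?_⟩
  obtain ⟨r, rfl⟩ := Ideal.Quotient.mk_surjective r
  obtain ⟨x, rfl⟩ := Submodule.Quotient.mk_surjective _ x
  obtain ⟨y, rfl⟩ := Submodule.Quotient.mk_surjective _ y
  have hr0 : ¬ π ∣ r := by
    rw [← hmkI]
    intro h0
    have hnt : Nontrivial (R ⧸ I) :=
      Ideal.Quotient.nontrivial_iff.mpr ((Ideal.span_singleton_prime hπ.ne_zero).mpr hπ).ne_top
    rw [h0] at hr
    exact hr.ne_zero rfl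
  have h1 : (Submodule.Quotient.mk (r • (x - y)) : C ⧸ (I • (⊤ : Submodule R C))) = 0 := by
    have h2 : Ideal.Quotient.mk I r •
        (Submodule.Quotient.mk x : C ⧸ (I • (⊤ : Submodule R C))) =
        Ideal.Quotient.mk I r • Submodule.Quotient.mk y := hxy
    rw [Module.Quotient.mk_smul_mk, Module.Quotient.mk_smul_mk] at h2
    rw [smul_sub, Submodule.Quotient.mk_sub, h2, sub_self]
  obtain ⟨c, hc⟩ := (hmk0 _).mp h1
  obtain ⟨c', hc'⟩ := htf r (x - y) c hr0 hc
  have h3 : (Submodule.Quotient.mk (x - y) : C ⧸ (I • (⊤ : Submodule R C))) = 0 :=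
    (hmk0 _).mpr ⟨c', hc'⟩
  rw [Submodule.Quotient.mk_sub, sub_eq_zero] at h3
  exact h3

/-- **Lifting freeness.** -/
theorem free_of_quotient_torsionFree {R : Type*} [CommRing R] [IsDomain R] [IsNoetherianRing R]
    [IsLocalRing R] (π : R) (hπ : Prime π) [IsPrincipalIdealRing (R ⧸ Ideal.span {π})]
    {C : Type*} [AddCommGroup C] [Module R C] [Module.Finite R C] [Module.IsTorsionFree R C]
    (htf : ∀ (r : R) (x c : C), ¬ π ∣ r → r • x = π • c → ∃ c' : C, x = π • c') :
    Module.Free R C := by
  classical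
  have hIprime : (Ideal.span {π} : Ideal R).IsPrime :=
    (Ideal.span_singleton_prime hπ.ne_zero).mpr hπ
  have hdom : IsDomain (R ⧸ (Ideal.span {π} : Ideal R)) := Ideal.Quotient.isDomain _
  have htfq := isTorsionFree_quotient π hπ htf
  have hfinq : Module.Finite (R ⧸ (Ideal.span {π} : Ideal R))
      (C ⧸ ((Ideal.span {π} : Ideal R) • (⊤ : Submodule R C))) :=
    Module.Finite.of_restrictScalars_finite R _ _
  have hfreeq : Module.Free (R ⧸ (Ideal.span {π} : Ideal R))
      (C ⧸ ((Ideal.span {π} : Ideal R) • (⊤ : Submodule R C))) :=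
    Module.free_of_finite_type_torsion_free'
  obtain ⟨B, -⟩ := exists_basis_of_quotient_basis π hπ
    (Module.Free.chooseBasis (R ⧸ (Ideal.span {π} : Ideal R))
      (C ⧸ ((Ideal.span {π} : Ideal R) • (⊤ : Submodule R C))))
  exact Module.Free.of_basis B

end Fermat.Agent.S18.FreeLift
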