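import Mathlib

/-!
# S18 machine, step (d): a lattice with "nilpotent scaled dual basis" is integrally closed

`D` a principal ideal domain with fraction field `κ`, `τ ∈ D` a prime element, `E` a commutative
`κ`-algebra with a finite `κ`-basis `b` whose `D`-span `Cs` is closed under multiplication.  Suppose there are
`w i ∈ Cs` with `Tr (b j * w i) = τ * δ_ij` (so `w i = τ • (dual basis)_i`) and every `w i` is
nilpotent modulo `τ • Cs`.  Then every element of `E` integral over `D` lies in `Cs`.
-/

set_option autoImplicit false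

namespace Fermat.Agent.S18.LatticeNormal

open Module

/-- Trace of an endomorphism of a finite free module whose `n`-th power has image in `τ • _`
is divisible by `τ` (for `τ` prime). Matrix form. -/
theorem dvd_trace_of_pow_map_eq_zero {D : Type*} [CommRing D] (τ : D) (hτ : Prime τ)
    {n : Type*} [Fintype n] [DecidableEq n] (Z : Matrix n n D) (k : ℕ)
    (hZ : ∀ i j, τ ∣ (Z ^ k) i j) : τ ∣ Z.trace := by
  classical
  have hprime : (Ideal.span {τ} : Ideal D).IsPrime :=
    (Ideal.span_singleton_prime hτ.ne_zero).mpr hτ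
  let q := Ideal.Quotient.mk (Ideal.span {τ} : Ideal D)
  have hq : ∀ x : D, q x = 0 ↔ τ ∣ x := fun x => by
    rw [Ideal.Quotient.eq_zero_iff_mem, Ideal.mem_span_singleton]
  have h1 : (Z.map q) ^ k = 0 := by
    have : (Z.map q) ^ k = (Z ^ k).map q := by
      have := (RingHom.mapMatrix (m := n) q).map_pow Z k
      simpa [RingHom.mapMatrix_apply] using this.symm
    rw [this]
    ext i j
    simp only [Matrix.map_apply, Matrix.zero_apply]
    exact (hq _).mpr (hZ i j)
  have h2 : IsNilpotent (Z.map q) := ⟨k, h1⟩
  have h3 := Matrix.isNilpotent_trace_of_isNilpotent h2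
  have : IsDomain (D ⧸ (Ideal.span {τ} : Ideal D)) := Ideal.Quotient.isDomain _
  have h4 : (Z.map q).trace = 0 := h3.eq_zero
  have h5 : q Z.trace = 0 := by
    rw [← h4]
    simp [Matrix.trace, map_sum]
  exact (hq _).mp h5


/-- **Lemma A.** A `D`-lattice `Cs = span D (range b)` in a finite `κ`-algebra `E` which is a
subring and such that `τ • (trace-dual basis)` consists of elements of `Cs` nilpotent modulo
`τ • Cs` contains every element of `E` integral over `D`. -/
theorem mem_span_of_isIntegral
    {D : Type*} [CommRing D] [IsDomain D] [IsPrincipalIdealRing D]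
    {κ : Type*} [Field κ] [Algebra D κ] [IsFractionRing D κ]
    {E : Type*} [CommRing E] [Algebra κ E] [Algebra D E] [IsScalarTower D κ E]
    {ι : Type*} [Fintype ι] [DecidableEq ι] (b : Basis ι κ E)
    (τ : D) (hτ : Prime τ)
    (hmul : ∀ i j, b i * b j ∈ Submodule.span D (Set.range b))
    (w : ι → E) (hw : ∀ i, w i ∈ Submodule.span D (Set.range b))
    (htr : ∀ i j, Algebra.trace κ E (b j * w i) = if j = i then algebraMap D κ τ else 0)
    (hnil : ∀ i, ∃ n : ℕ, ∃ c ∈ Submodule.span D (Set.range b), w i ^ n = τ • c)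
    (y : E) (hy : IsIntegral D y) : y ∈ Submodule.span D (Set.range b) := by
  classical
  set Cs : Submodule D E := Submodule.span D (Set.range b) with hCs
  set A : Submodule D E := Subalgebra.toSubmodule (Algebra.adjoin D {y}) with hA
  set Λ : Submodule D E := Cs * A with hΛ
  have hinj : Function.Injective (algebraMap D κ) := IsFractionRing.injective D κ
  -- `Cs` is closed under multiplication
  have hCC : Cs * Cs ≤ Cs := by
    rw [hCs, Submodule.span_mul_span]
    refine Submodule.span_le.mpr ?_
    rintro _ ⟨_, ⟨i, rfl⟩, _, ⟨j, rfl⟩, rfl⟩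
    exact hmul i j
  have hyA : y ∈ A := Algebra.subset_adjoin (Set.mem_singleton y)
  have h1A : (1 : E) ∈ A := (Algebra.adjoin D {y}).one_mem
  have hAmul : ∀ a ∈ A, ∀ a' ∈ A, a * a' ∈ A := fun a ha a' ha' =>
    (Algebra.adjoin D {y}).mul_mem ha ha'
  have hΛy : ∀ v ∈ Λ, y * v ∈ Λ := by
    intro v hv
    refine Submodule.mul_induction_on hv ?_ ?_
    · intro c hc a ha
      have : y * (c * a) = c * (y * a) := by ring
      rw [this]
      exact Submodule.mul_mem_mul hc (hAmul y hyA a ha)
    · intro u v hu hv'
      rw [mul_add]; exact Λ.add_mem hu hv'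
  have hΛC : ∀ c ∈ Cs, ∀ v ∈ Λ, c * v ∈ Λ := by
    intro c hc v hv
    refine Submodule.mul_induction_on hv ?_ ?_
    · intro c' hc' a ha
      rw [← mul_assoc]
      exact Submodule.mul_mem_mul (hCC (Submodule.mul_mem_mul hc hc')) ha
    · intro u v hu hv'
      rw [mul_add]; exact Λ.add_mem hu hv'
  have hCΛ : Cs ≤ Λ := by
    intro c hc
    have := Submodule.mul_mem_mul hc h1A
    rwa [mul_one] at this
  have hbΛ : ∀ i, b i ∈ Λ := fun i => hCΛ (Submodule.subset_span ⟨i, rfl⟩)
  have hΛypow : ∀ (n : ℕ), ∀ v ∈ Λ, y ^ n * v ∈ Λ := by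
    intro n
    induction n with
    | zero => intro v hv; simpa using hv
    | succ n ih =>
      intro v hv
      rw [pow_succ, mul_assoc]
      exact ih _ (hΛy v hv)
  -- `Λ` is a finite free `D`-module
  have hΛfg : Λ.FG := by
    refine Submodule.FG.mul ?_ hy.fg_adjoin_singleton
    exact Submodule.fg_span (Set.finite_range b)
  have : Module.Finite D Λ := Module.Finite.iff_fg.mpr hΛfg
  have : Module.IsTorsionFree D E := by
    refine Module.IsTorsionFree.of_smul_eq_zero ?_
    intro r m hrm
    by_cases hr : r = 0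
    · exact Or.inl hr
    · right
      have h1 : (algebraMap D κ r) • m = 0 := by rwa [algebraMap_smul]
      have h2 : algebraMap D κ r ≠ 0 := fun h => hr (hinj (by rw [h, map_zero]))
      exact (smul_eq_zero.mp h1).resolve_left h2
  have : Module.IsTorsionFree D Λ :=
    Function.Injective.moduleIsTorsionFree (Λ.subtype) Subtype.val_injective (fun _ _ => rfl)
  have : Module.Free D Λ := Module.free_of_finite_type_torsion_free'
  let J := Module.Free.ChooseBasisIndex D Λ
  let lam : Basis J D Λ := Module.Free.chooseBasis D Λ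
  let v : J → E := fun j => (lam j : E)
  have hvD : LinearIndependent D v := by
    have := lam.linearIndependent.map' Λ.subtype (Submodule.ker_subtype Λ)
    exact this
  have hvκ : LinearIndependent κ v := hvD.localization κ (nonZeroDivisors D)
  have hspan : ⊤ ≤ Submodule.span κ (Set.range v) := by
    have hΛle : (Λ : Set E) ⊆ Submodule.span κ (Set.range v) := by
      intro x hx
      have hx' : x = ∑ j, (lam.repr ⟨x, hx⟩ j) • v j := by
        have := congrArg (Λ.subtype) (lam.sum_repr ⟨x, hx⟩)
        rw [map_sum] at this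
        simp only [map_smul, Submodule.subtype_apply] at this
        exact this.symm
      rw [hx']
      refine Submodule.sum_mem _ fun j _ => ?_
      rw [← algebraMap_smul κ]
      exact Submodule.smul_mem _ _ (Submodule.subset_span ⟨j, rfl⟩)
    rw [← b.span_eq]
    refine Submodule.span_le.mpr ?_
    rintro _ ⟨i, rfl⟩
    exact hΛle (hbΛ i)
  let lam' : Basis J κ E := Basis.mk hvκ hspan
  have hlam' : ∀ j, lam' j = v j := fun j => by simp [lam']
  -- endomorphisms of `Λ` by multiplication
  have key : ∀ z : E, (hz : ∀ x ∈ Λ, z * x ∈ Λ) → ∀ n : ℕ,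
      (∀ x ∈ Λ, ∃ u ∈ Λ, z ^ n * x = τ • u) →
      ∃ t : D, Algebra.trace κ E z = algebraMap D κ (τ * t) := by
    intro z hz n hzn
    let φ : Λ →ₗ[D] Λ := (LinearMap.mulLeft D z).restrict hz
    let Z : Matrix J J D := LinearMap.toMatrix lam lam φ
    have hφpow : ∀ (m : ℕ) (x : Λ), ((φ ^ m) x : E) = z ^ m * (x : E) := by
      intro m
      induction m with
      | zero => intro x; simp
      | succ m ih =>
        intro x
        rw [pow_succ, Module.End.mul_apply, ih]
        have hφx : ((φ x : Λ) : E) = z * (x : E) := rfl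
        rw [hφx, pow_succ]
        ring
    have hZdvd : ∀ i j, τ ∣ (Z ^ n) i j := by
      intro i j
      have hZn : Z ^ n = LinearMap.toMatrix lam lam (φ ^ n) := by
        simp only [Z]
        exact LinearMap.toMatrix_pow (v₁ := lam) φ n
      rw [hZn, LinearMap.toMatrix_apply]
      obtain ⟨u, hu, hux⟩ := hzn (lam j) (lam j).2
      have : (φ ^ n) (lam j) = τ • (⟨u, hu⟩ : Λ) := by
        apply Subtype.ext
        rw [hφpow]
        exact hux
      rw [this, map_smul]
      exact ⟨_, rfl⟩
    obtain ⟨t, ht⟩ := dvd_trace_of_pow_map_eq_zero τ hτ Z n hZdvd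
    refine ⟨t, ?_⟩
    rw [Algebra.trace_eq_matrix_trace lam', ← ht]
    have hM : Algebra.leftMulMatrix lam' z = Z.map (algebraMap D κ) := by
      ext i j
      rw [Algebra.leftMulMatrix_eq_repr_mul, Matrix.map_apply, hlam']
      have hx' : z * v j = ∑ k, (lam.repr (φ (lam j)) k) • v k := by
        have := congrArg (Λ.subtype) (lam.sum_repr (φ (lam j)))
        rw [map_sum] at this
        simp only [map_smul, Submodule.subtype_apply] at this
        exact this.symm
      rw [hx', map_sum, Finset.sum_apply']
      have : ∀ k, lam'.repr ((lam.repr (φ (lam j)) k) • v k) i =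
          if k = i then algebraMap D κ (lam.repr (φ (lam j)) k) else 0 := by
        intro k
        rw [← algebraMap_smul κ, map_smul, ← hlam', Basis.repr_self, Finsupp.smul_apply,
          Finsupp.single_apply]
        split_ifs <;> simp
      simp only [this, Finset.sum_ite_eq', Finset.mem_univ, if_true]
      rw [show Z i j = lam.repr (φ (lam j)) i from LinearMap.toMatrix_apply lam lam φ i j]
    rw [hM]
    simp [Matrix.trace, map_sum]
  -- coordinates of `y`
  have hcoord : ∀ i, ∃ t : D, b.repr y i = algebraMap D κ t := by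
    intro i
    obtain ⟨n, c, hc, hwc⟩ := hnil i
    have hz : ∀ x ∈ Λ, (y * w i) * x ∈ Λ := by
      intro x hx
      rw [mul_assoc]
      exact hΛy _ (hΛC _ (hw i) x hx)
    have hzn : ∀ x ∈ Λ, ∃ u ∈ Λ, (y * w i) ^ n * x = τ • u := by
      intro x hx
      refine ⟨y ^ n * (c * x), hΛypow n _ (hΛC c hc x hx), ?_⟩
      rw [mul_pow, hwc]
      simp only [Algebra.smul_def]
      ring
    obtain ⟨t, ht⟩ := key (y * w i) hz n hzn
    refine ⟨t, ?_⟩
    have hy' : y = ∑ j, b.repr y j • b j := (b.sum_repr y).symm
    have h1 : Algebra.trace κ E (y * w i) = b.repr y i * algebraMap D κ τ := by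
      conv_lhs => rw [hy']
      rw [Finset.sum_mul, map_sum]
      have : ∀ j, Algebra.trace κ E (b.repr y j • b j * w i) =
          if j = i then b.repr y j * algebraMap D κ τ else 0 := by
        intro j
        rw [smul_mul_assoc, map_smul, htr i j]
        split_ifs <;> simp
      simp only [this, Finset.sum_ite_eq', Finset.mem_univ, if_true]
    rw [h1, map_mul] at ht
    have hτ0 : algebraMap D κ τ ≠ 0 := fun h => hτ.ne_zero (hinj (by rw [h, map_zero]))
    have : b.repr y i * algebraMap D κ τ = algebraMap D κ t * algebraMap D κ τ := by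
      rw [ht]; ring
    exact mul_right_cancel₀ hτ0 this
  choose t ht using hcoord
  have hy' : y = ∑ j, t j • b j := by
    conv_lhs => rw [← b.sum_repr y]
    refine Finset.sum_congr rfl fun j _ => ?_
    rw [ht j, algebraMap_smul]
  rw [hy']
  exact Submodule.sum_mem _ fun j _ => Submodule.smul_mem _ _ (Submodule.subset_span ⟨j, rfl⟩)

end Fermat.Agent.S18.LatticeNormal
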