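/-
Tame duality (step (a) of the "machine M" for S18).

* `isNilpotent_of_trace_mul_eq_zero`: in a finite-dimensional commutative algebra over a
  field of characteristic zero, the radical of the trace form is nilpotent.
* `smul_mem_of_trace_mem`: `S` a discrete valuation ring of residue characteristic zero with
  uniformizer `τ`, `E` a finite extension of `Frac S`, `x ∈ E` in the trace dual of the
  integral closure `O` of `S` in `E`.  Then `τ x ∈ O` and a power of `τ x` lies in `τ O`
  (the different is tame: the inverse different is contained in `τ⁻¹ · rad (τ O)`).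
-/
import Mathlib

namespace Fermat.Agent.S18.TameDual

/-- In a finite-dimensional commutative algebra over a field of characteristic zero, the
radical of the trace form consists of nilpotent elements. -/
theorem isNilpotent_of_trace_mul_eq_zero {K W : Type*} [Field K] [CharZero K] [CommRing W]
    [Algebra K W] [FiniteDimensional K W] (w : W)
    (h : ∀ w' : W, Algebra.trace K W (w * w') = 0) : IsNilpotent w := by
  have : IsArtinianRing W := IsArtinianRing.of_finite K W
  obtain ⟨n, y, hy⟩ := IsArtinian.exists_pow_succ_smul_dvd w (1 : W)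
  have h1 : w ^ (n + 1) = w ^ (n + 1 + 1) * y := by
    have : w ^ n = w ^ (n + 1) * y := by simpa using hy.symm
    calc w ^ (n + 1) = w ^ n * w := pow_succ _ _
      _ = w ^ (n + 1) * y * w := by rw [← this]
      _ = w ^ (n + 1 + 1) * y := by ring
  have h2 : ∀ k : ℕ, w ^ (n + 1) = w ^ (n + 1 + k) * y ^ k := by
    intro k
    induction k with
    | zero => simp
    | succ k ih =>
      calc w ^ (n + 1) = w ^ (n + 1 + k) * y ^ k := ih
        _ = w ^ (n + 1) * w ^ k * y ^ k := by rw [pow_add]
        _ = w ^ (n + 1 + 1) * y * w ^ k * y ^ k := by rw [← h1]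
        _ = w ^ (n + 1 + (k + 1)) * y ^ (k + 1) := by ring
  set ε : W := w ^ (n + 1) * y ^ (n + 1) with hε
  have hidem : ε * ε = ε := by
    calc ε * ε = w ^ (n + 1 + (n + 1)) * y ^ (n + 1) * y ^ (n + 1) := by rw [hε]; ring
      _ = w ^ (n + 1) * y ^ (n + 1) := by rw [← h2 (n + 1)]
  have htr : Algebra.trace K W ε = 0 := by
    have : ε = w * (w ^ n * y ^ (n + 1)) := by rw [hε]; ring
    rw [this]
    exact h _
  have hidem' : IsIdempotentElem (Algebra.lmul K W ε) := by
    change Algebra.lmul K W ε * Algebra.lmul K W ε = Algebra.lmul K W ε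
    rw [← map_mul, hidem]
  have hzero : Algebra.lmul K W ε = 0 := by
    refine (LinearMap.IsIdempotentElem.trace_eq_zero_iff hidem').mp ?_
    rw [← Algebra.trace_apply]
    exact htr
  have hε0 : ε = 0 := by
    have := congrArg (fun f : W →ₗ[K] W => f 1) hzero
    simpa using this
  refine ⟨n + 1, ?_⟩
  calc w ^ (n + 1) = w ^ (n + 1 + (n + 1)) * y ^ (n + 1) := h2 (n + 1)
    _ = w ^ (n + 1) * ε := by rw [hε]; ring
    _ = 0 := by rw [hε0, mul_zero]

open IsLocalRing in
attribute [local instance] Ideal.Quotient.field in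
/-- Trace form radical modulo the maximal ideal: over a local ring `R` of residue
characteristic zero, if all traces `Tr(o * o')` lie in the maximal ideal, a power of `o`
lies in `𝔪 O`. -/
theorem exists_pow_mem_map_of_trace_mem {R O : Type*} [CommRing R] [IsLocalRing R] [CommRing O]
    [Algebra R O] [Module.Free R O] [Module.Finite R O]
    (hchar : ∀ n : ℕ, n ≠ 0 → IsUnit (n : R)) (o : O)
    (h : ∀ o' : O, Algebra.trace R O (o * o') ∈ maximalIdeal R) :
    ∃ n : ℕ, o ^ n ∈ Ideal.map (algebraMap R O) (maximalIdeal R) := by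
  have : Module.Finite (R ⧸ maximalIdeal R) (O ⧸ Ideal.map (algebraMap R O) (maximalIdeal R)) :=
    Module.Finite.of_restrictScalars_finite R _ _
  have hc : CharZero (R ⧸ maximalIdeal R) := by
    refine charZero_of_inj_zero fun n hn => ?_
    by_contra hn0
    have h1 : ((n : R) : R ⧸ maximalIdeal R) = 0 := by simpa using hn
    rw [Ideal.Quotient.eq_zero_iff_mem] at h1
    exact (IsLocalRing.mem_maximalIdeal _).mp h1 (hchar n hn0)
  have hnil : IsNilpotent (Ideal.Quotient.mk (Ideal.map (algebraMap R O) (maximalIdeal R)) o) := by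
    refine isNilpotent_of_trace_mul_eq_zero (K := R ⧸ maximalIdeal R) _ fun w' => ?_
    obtain ⟨o', rfl⟩ := Ideal.Quotient.mk_surjective w'
    rw [← map_mul, Algebra.trace_quotient_mk, Ideal.Quotient.eq_zero_iff_mem]
    exact h o'
  obtain ⟨n, hn⟩ := hnil
  refine ⟨n, ?_⟩
  rwa [← map_pow, Ideal.Quotient.eq_zero_iff_mem] at hn

/-- **Tame duality.** Over a discrete valuation ring `S` of residue characteristic zero
with uniformizer `τ`: if `x` pairs integrally (under the trace form) with all integral
elements of the finite extension `E` of `Frac S`, then `τ • x` is integral and a power of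
`τ • x` is `τ` times an integral element. -/
theorem smul_mem_of_trace_mem {S : Type*} [CommRing S] [IsDomain S] [IsDiscreteValuationRing S]
    (hchar : ∀ n : ℕ, n ≠ 0 → IsUnit (n : S)) {M : Type*} [Field M] [Algebra S M]
    [IsFractionRing S M] {E : Type*} [Field E] [Algebra M E] [Algebra S E] [IsScalarTower S M E]
    [FiniteDimensional M E] (τ : S) (hτ : Irreducible τ) (x : E)
    (hx : ∀ o : E, IsIntegral S o → ∃ s : S, Algebra.trace M E (x * o) = algebraMap S M s) :
    IsIntegral S (τ • x) ∧ ∃ n : ℕ, ∃ o : E, IsIntegral S o ∧ (τ • x) ^ n = τ • o := by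
  classical
  have hS0 : CharZero S := charZero_of_inj_zero fun n hn => by
    by_contra hn0
    exact (hchar n hn0).ne_zero hn
  have hM0 : CharZero M := charZero_of_injective_algebraMap (IsFractionRing.injective S M)
  have hinjSE : Function.Injective (algebraMap S E) := by
    rw [IsScalarTower.algebraMap_eq S M E]
    exact (algebraMap M E).injective.comp (IsFractionRing.injective S M)
  have hτ0 : τ ≠ 0 := hτ.ne_zero
  have hτE : algebraMap S E τ ≠ 0 := fun h => hτ0 (hinjSE (by simpa using h))
  have htfE : Module.IsTorsionFree S E := .trans_faithfulSMul S M E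
  let O := integralClosure S E
  have hDed : IsDedekindDomain O := integralClosure.isDedekindDomain S M E
  have hfin : Module.Finite S O := IsIntegralClosure.finite S M E O
  have hfree : Module.Free S O := IsIntegralClosure.module_free S M E O
  have hloc : IsLocalization (Algebra.algebraMapSubmonoid O (nonZeroDivisors S)) E :=
    IsIntegralClosure.isLocalization S M E O
  have htr : ∀ o : O, Algebra.trace M E (o : E) = algebraMap S M (Algebra.trace S O o) :=
    fun o => Algebra.trace_localization S (nonZeroDivisors S) o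
  have hmax : IsLocalRing.maximalIdeal S = Ideal.span {τ} := hτ.maximalIdeal_eq
  -- the trace-form radical modulo `τ` is nilpotent modulo `τ`
  have keyT : ∀ o : O, (∀ o' : O, ∃ s : S, Algebra.trace S O (o * o') = τ * s) →
      ∃ n : ℕ, ∃ o2 : O, o ^ n = τ • o2 := by
    intro o ho
    obtain ⟨n, hn⟩ := exists_pow_mem_map_of_trace_mem hchar o (fun o' => by
      obtain ⟨s, hs⟩ := ho o'
      rw [hmax, hs]
      exact Ideal.mem_span_singleton.mpr (dvd_mul_right _ _))
    rw [hmax, Ideal.map_span, Set.image_singleton, Ideal.mem_span_singleton'] at hn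
    obtain ⟨o2, ho2⟩ := hn
    exact ⟨n, o2, by rw [← ho2, Algebra.smul_def, mul_comm]⟩
  -- traces of `τ ^ k • x` against `O`
  have htrk : ∀ (k : ℕ) (y : O), (y : E) = τ ^ k • x → ∀ o : O,
      ∃ s : S, Algebra.trace S O (y * o) = τ ^ k * s := by
    intro k y hy o
    obtain ⟨s, hs⟩ := hx (o : E) o.2
    refine ⟨s, IsFractionRing.injective S M ?_⟩
    rw [← htr, map_mul, ← hs]
    have : ((y * o : O) : E) = algebraMap S M (τ ^ k) • (x * (o : E)) := by
      rw [algebraMap_smul, ← smul_mul_assoc, ← hy]
      rfl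
    rw [this, map_smul, smul_eq_mul]
  -- some multiple is integral
  have hex : ∃ k, IsIntegral S (τ ^ k • x) := by
    have halg : IsAlgebraic S x :=
      (IsFractionRing.isAlgebraic_iff S M E).mpr (Algebra.IsAlgebraic.isAlgebraic x)
    obtain ⟨s, hs0, hs⟩ := halg.exists_integral_multiple
    obtain ⟨m, v, rfl⟩ := IsDiscreteValuationRing.eq_unit_mul_pow_irreducible hs0 hτ
    refine ⟨m, ?_⟩
    have : τ ^ m • x = ((v⁻¹ : Sˣ) : S) • (((v : S) * τ ^ m) • x) := by
      rw [smul_smul, ← mul_assoc, Units.inv_mul, one_mul]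
    rw [this]
    exact hs.smul _
  have hk1 : Nat.find hex ≤ 1 := by
    by_contra hk2
    obtain ⟨k', hk'⟩ : ∃ k', Nat.find hex = k' + 2 := ⟨Nat.find hex - 2, by omega⟩
    have hP := Nat.find_spec hex
    rw [hk'] at hP
    let u : O := ⟨τ ^ (k' + 2) • x, hP⟩
    have hu1 : ∀ o : O, ∃ s : S, Algebra.trace S O (u * o) = τ ^ 2 * s := by
      intro o
      obtain ⟨s, hs⟩ := htrk (k' + 2) u rfl o
      exact ⟨τ ^ k' * s, by rw [hs]; ring⟩
    have hu2 : ∀ o : O, u ≠ τ • o := by
      intro o ho
      have : IsIntegral S (τ ^ (k' + 1) • x) := by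
        have h1 : τ ^ (k' + 1) • x = (o : E) := by
          have h2 : τ • (τ ^ (k' + 1) • x) = τ • (o : E) := by
            have h3 := congrArg (fun z : O => (z : E)) ho
            have h4 : (u : E) = τ • (τ ^ (k' + 1) • x) := by
              change τ ^ (k' + 2) • x = _
              rw [smul_smul, ← pow_succ']
            rw [← h4]
            exact h3
          rw [Algebra.smul_def, Algebra.smul_def τ] at h2
          exact mul_left_cancel₀ hτE h2
        rw [h1]
        exact o.2
      exact Nat.find_min hex (by omega) this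
    let τO : O := algebraMap S O τ
    have hτO : τO ≠ 0 := by
      intro h
      apply hτE
      have := congrArg (fun z : O => (z : E)) h
      simpa [τO] using this
    obtain ⟨J, hJ⟩ : Ideal.span {u, τO} ∣ Ideal.span {τO} :=
      Ideal.dvd_iff_le.mpr (Ideal.span_mono (by simp))
    have hmem : τO ∈ Ideal.span {u, τO} * J := hJ ▸ Ideal.mem_span_singleton_self τO
    rw [Ideal.span_insert, Ideal.sup_mul] at hmem
    obtain ⟨y, hy, z, hz, hyz⟩ := Submodule.mem_sup.mp hmem
    obtain ⟨b', hb', rfl⟩ := Ideal.mem_span_singleton_mul.mp hy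
    obtain ⟨b'', hb'', rfl⟩ := Ideal.mem_span_singleton_mul.mp hz
    have hJu : ∀ b ∈ J, ∃ e : O, u * b = τO * e := by
      intro b hb
      have : u * b ∈ Ideal.span {τO} := by
        rw [hJ]
        exact Ideal.mul_mem_mul (Ideal.subset_span (by simp)) hb
      obtain ⟨e, he⟩ := Ideal.mem_span_singleton'.mp this
      exact ⟨e, by rw [← he, mul_comm]⟩
    obtain ⟨ε, hε⟩ := hJu b' hb'
    obtain ⟨ε'', hε''⟩ := hJu b'' hb''
    have hone : ε + b'' = 1 := by
      apply mul_left_cancel₀ hτO
      rw [mul_add, ← hε, mul_one]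
      exact hyz
    by_cases hcase : ∀ o' : O, ∃ s : S, Algebra.trace S O (ε * o') = τ * s
    · obtain ⟨n, o2, hn⟩ := keyT ε hcase
      have hb : b'' = 1 - ε := by rw [← hone]; ring
      have hq : b'' * ∑ i ∈ Finset.range n, ε ^ i = 1 - ε ^ n := by
        rw [hb]
        exact mul_neg_geom_sum ε n
      refine hu2 (ε'' * ∑ i ∈ Finset.range n, ε ^ i + u * o2) ?_
      calc u = u * (1 - ε ^ n) + u * ε ^ n := by ring
        _ = u * b'' * ∑ i ∈ Finset.range n, ε ^ i + u * (τ • o2) := by rw [← hq, hn]; ring
        _ = τO * (ε'' * ∑ i ∈ Finset.range n, ε ^ i + u * o2) := by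
          rw [hε'', Algebra.smul_def]
          ring
        _ = τ • (ε'' * ∑ i ∈ Finset.range n, ε ^ i + u * o2) := by
          rw [Algebra.smul_def]
    · push Not at hcase
      obtain ⟨o', ho'⟩ := hcase
      obtain ⟨s, hs⟩ := hu1 (b' * o')
      apply ho' s
      have h1 : u * (b' * o') = τ • (ε * o') := by
        rw [← mul_assoc, hε, Algebra.smul_def]
        ring
      rw [h1, map_smul, smul_eq_mul] at hs
      exact mul_left_cancel₀ hτ0 (by rw [hs]; ring)
  have hP1 : IsIntegral S (τ • x) := by
    have hP := Nat.find_spec hex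
    rcases Nat.le_one_iff_eq_zero_or_eq_one.mp hk1 with h0 | h1
    · rw [h0, pow_zero, one_smul] at hP
      exact hP.smul τ
    · rw [h1, pow_one] at hP
      exact hP
  refine ⟨hP1, ?_⟩
  obtain ⟨n, o2, hn⟩ := keyT ⟨τ • x, hP1⟩ (fun o' => by
    obtain ⟨s, hs⟩ := htrk 1 ⟨τ • x, hP1⟩ (by rw [pow_one]) o'
    exact ⟨s, by rw [hs, pow_one]⟩)
  exact ⟨n, o2, o2.2, congrArg (fun z : O => (z : E)) hn⟩

end Fermat.Agent.S18.TameDual
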