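import Mathlib
import Fermat.Agent.S18.LatticeNormal
import Fermat.Agent.S18.IntTrick
import Fermat.Agent.S18.FreeLift
import Fermat.Agent.S18.DiscUnit
import Fermat.Agent.S18.TameDual

/-!
# S18, machine M: the special fibre of an integral closure is normal

See the statement of `exists_sub_eq_smul_of_idem` at the end.
-/

set_option autoImplicit false

namespace Fermat.Agent.S18.MachineM

open Module TensorProduct

section BaseChange

variable (R : Type*) [CommRing R] {C : Type*} [CommRing C] [Algebra R C]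
  {ι : Type*} (bC : Basis ι R C)
  (F : Type*) [Field F] [Algebra R F]

/-- The base change map `C → F ⊗[R] C`. -/
noncomputable def red : C →ₐ[R] F ⊗[R] C := Algebra.TensorProduct.includeRight

lemma red_apply (c : C) : red R F c = (1 : F) ⊗ₜ[R] c := rfl

variable {R}

lemma red_basis (i : ι) : red R F (bC i) = Algebra.TensorProduct.basis F bC i := by
  rw [red_apply, Algebra.TensorProduct.basis_apply]

lemma repr_red (c : C) (i : ι) :
    (Algebra.TensorProduct.basis F bC).repr (red R F c) i = algebraMap R F (bC.repr c i) := by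
  rw [red_apply, Algebra.TensorProduct.basis_repr_tmul]
  simp

lemma red_eq_zero_iff (c : C) :
    red R F c = 0 ↔ ∀ i, algebraMap R F (bC.repr c i) = 0 := by
  constructor
  · intro h i
    rw [← repr_red bC F c i, h]
    simp
  · intro h
    apply (Algebra.TensorProduct.basis F bC).repr.injective
    ext i
    rw [repr_red, h i]
    simp

include bC in
lemma trace_red [Finite ι] (c : C) :
    Algebra.trace F (F ⊗[R] C) (red R F c) = algebraMap R F (Algebra.trace R C c) := by
  have : Module.Free R C := Module.Free.of_basis bC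
  have : Module.Finite R C := Module.Finite.of_basis bC
  have h : Algebra.lmul F (F ⊗[R] C) (red R F c) = (Algebra.lmul R C c).baseChange F := by
    apply TensorProduct.AlgebraTensorModule.curry_injective
    ext m
    simp [red_apply]
  rw [Algebra.trace_apply, Algebra.trace_apply]
  erw [h]
  exact LinearMap.trace_baseChange _ F

end BaseChange

section Reduced

variable {R : Type*} [CommRing R] {C : Type*} [CommRing C] [Algebra R C]
  {ι : Type*} [Fintype ι] [DecidableEq ι] (bC : Basis ι R C)

omit [DecidableEq ι] in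
lemma mem_map_iff_repr (I : Ideal R) (x : C) :
    x ∈ I.map (algebraMap R C) ↔ ∀ i, bC.repr x i ∈ I := by
  constructor
  · intro hx
    have hx' : x ∈ (I • ⊤ : Submodule R C) := by
      rw [Ideal.smul_top_eq_map]
      exact hx
    refine Submodule.smul_induction_on hx' ?_ ?_
    · intro r hr m _ i
      rw [map_smul, Finsupp.smul_apply, smul_eq_mul]
      exact I.mul_mem_right _ hr
    · intro y z hy hz i
      rw [map_add, Finsupp.add_apply]
      exact I.add_mem (hy i) (hz i)
  · intro h
    rw [← bC.sum_repr x]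
    refine Ideal.sum_mem _ fun i _ => ?_
    rw [Algebra.smul_def]
    exact Ideal.mul_mem_right _ _ (Ideal.mem_map_of_mem _ (h i))

/-- (P2) if `C/𝔭C` is reduced (locally at `𝔭`) and the residue characteristic at `𝔭` is zero,
the discriminant is not in `𝔭`. -/
theorem discr_notMem_of_reduced (𝔭 : Ideal R) [𝔭.IsPrime]
    (hchar : ∀ n : ℕ, n ≠ 0 → (n : R) ∉ 𝔭)
    (hred : ∀ (x : C) (n : ℕ), x ^ n ∈ 𝔭.map (algebraMap R C) →
      ∃ s, s ∉ 𝔭 ∧ s • x ∈ 𝔭.map (algebraMap R C)) :
    Algebra.discr R bC ∉ 𝔭 := by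
  intro hd
  let D' := R ⧸ 𝔭
  let F := FractionRing D'
  have hker : ∀ r : R, algebraMap R F r = 0 ↔ r ∈ 𝔭 := by
    intro r
    rw [IsScalarTower.algebraMap_apply R D' F, map_eq_zero_iff _ (IsFractionRing.injective D' F)]
    exact Ideal.Quotient.eq_zero_iff_mem
  have : CharZero F := by
    refine charZero_of_inj_zero fun n hn => ?_
    by_contra h0
    apply hchar n h0
    rw [← hker, map_natCast]
    exact hn
  -- a kernel vector of the Gram matrix modulo `𝔭`
  let G : Matrix ι ι R := Algebra.traceMatrix R bC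
  have hdet : (G.map (Ideal.Quotient.mk 𝔭)).det = 0 := by
    have : (G.map (Ideal.Quotient.mk 𝔭)).det = Ideal.Quotient.mk 𝔭 G.det := by
      rw [RingHom.map_det]; rfl
    rw [this]
    exact Ideal.Quotient.eq_zero_iff_mem.mpr hd
  obtain ⟨v, hv0, hv⟩ := Matrix.exists_mulVec_eq_zero_iff.mpr hdet
  choose a ha using fun i => Ideal.Quotient.mk_surjective (v i)
  set x : C := ∑ i, a i • bC i with hx
  have hxrepr : ∀ i, bC.repr x i = a i := by
    intro i
    rw [hx, map_sum]
    simp [Finsupp.single_apply, Finset.sum_apply']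
  have htr : ∀ j, Algebra.trace R C (bC j * x) ∈ 𝔭 := by
    intro j
    have h1 : Algebra.trace R C (bC j * x) = ∑ i, G j i * a i := by
      rw [hx, Finset.mul_sum, map_sum]
      refine Finset.sum_congr rfl fun i _ => ?_
      rw [mul_smul_comm, map_smul, smul_eq_mul, mul_comm]
      rfl
    rw [h1, ← Ideal.Quotient.eq_zero_iff_mem, map_sum]
    have h2 := congrFun hv j
    simp only [Matrix.mulVec, dotProduct, Matrix.map_apply, Pi.zero_apply] at h2
    rw [← h2]
    refine Finset.sum_congr rfl fun i _ => ?_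
    rw [map_mul, ha]
  -- the image of `x` in `F ⊗ C` is in the radical of the trace form
  have hrad : ∀ w' : F ⊗[R] C, Algebra.trace F (F ⊗[R] C) (red R F x * w') = 0 := by
    intro w'
    rw [← (Algebra.TensorProduct.basis F bC).sum_repr w', Finset.mul_sum, map_sum]
    refine Finset.sum_eq_zero fun j _ => ?_
    rw [mul_smul_comm, map_smul, ← red_basis, ← map_mul, trace_red bC, mul_comm,
      (hker _).mpr (htr j), smul_zero]
  have : Module.Finite F (F ⊗[R] C) := Module.Finite.of_basis (Algebra.TensorProduct.basis F bC)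
  obtain ⟨n, hn⟩ := TameDual.isNilpotent_of_trace_mul_eq_zero (K := F) (red R F x) hrad
  have hxn : x ^ n ∈ 𝔭.map (algebraMap R C) := by
    rw [mem_map_iff_repr bC]
    intro i
    rw [← hker]
    have := (red_eq_zero_iff bC F (x ^ n)).mp (by rw [map_pow, hn])
    exact this i
  obtain ⟨s, hs, hsx⟩ := hred x n hxn
  rw [mem_map_iff_repr bC] at hsx
  apply hv0
  funext i
  have h3 := hsx i
  rw [map_smul, Finsupp.smul_apply, smul_eq_mul, hxrepr] at h3
  have h4 : a i ∈ 𝔭 := (Ideal.IsPrime.mem_or_mem inferInstance h3).resolve_left hs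
  rw [← ha i]
  exact Ideal.Quotient.eq_zero_iff_mem.mpr h4

end Reduced

section Final

/-- (P5) the reduction step: from the `τ`-scaled dual elements to the conclusion of machine M. -/
theorem exists_of_dual {R : Type*} [CommRing R] [IsDomain R] (π τ : R) (hπ : Prime π)
    [IsPrincipalIdealRing (R ⧸ Ideal.span {π})]
    (hτ : Prime (Ideal.Quotient.mk (Ideal.span {π}) τ))
    {C : Type*} [CommRing C] [Algebra R C] {ι : Type*} [Fintype ι] [DecidableEq ι]
    (bC : Basis ι R C) (w : ι → C)
    (htr : ∀ i j, Algebra.trace R C (bC j * w i) = if j = i then τ else 0)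
    (hnil : ∀ i, ∃ n : ℕ, ∃ o : C, w i ^ n = τ • o)
    (c₀ : C) (s₀ : R) (hs₀ : ¬ π ∣ s₀) (hidem : ∃ c₁ : C, c₀ * c₀ - s₀ • c₀ = π • c₁) :
    ∃ c c₂ : C, c₀ - s₀ • c = π • c₂ := by
  classical
  have hP : (Ideal.span {π} : Ideal R).IsPrime := (Ideal.span_singleton_prime hπ.ne_zero).mpr hπ
  have : IsDomain (R ⧸ Ideal.span {π}) := Ideal.Quotient.isDomain _
  let D := R ⧸ Ideal.span {π}
  let κ := FractionRing D
  let W := κ ⊗[R] C
  let q : R →+* D := Ideal.Quotient.mk (Ideal.span {π})
  have hinjD : Function.Injective (algebraMap D κ) := IsFractionRing.injective D κ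
  have hRκ : ∀ r : R, algebraMap R κ r = algebraMap D κ (q r) := fun r =>
    IsScalarTower.algebraMap_apply R D κ r
  have hker : ∀ r : R, algebraMap R κ r = 0 ↔ π ∣ r := by
    intro r
    rw [hRκ, map_eq_zero_iff _ hinjD]
    exact Ideal.Quotient.eq_zero_iff_mem.trans Ideal.mem_span_singleton
  let b : Basis ι κ W := Algebra.TensorProduct.basis κ bC
  have hDsmul : ∀ (r : R) (x : W), (q r) • x = algebraMap R κ r • x := by
    intro r x
    rw [hRκ, algebraMap_smul]
  -- the image of `C` is the `D`-span of the basis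
  have hred_mem : ∀ c : C, red R κ c ∈ Submodule.span D (Set.range b) := by
    intro c
    have h1 : red R κ c = ∑ i, (q (bC.repr c i)) • b i := by
      apply b.repr.injective
      ext j
      rw [repr_red, map_sum, Finset.sum_apply']
      simp only [hDsmul, map_smul, Basis.repr_self, Finsupp.smul_apply, Finsupp.single_apply,
        smul_eq_mul, mul_ite, mul_one, mul_zero, Finset.sum_ite_eq', Finset.mem_univ, if_true]
    rw [h1]
    exact Submodule.sum_mem _ fun i _ => Submodule.smul_mem _ _ (Submodule.subset_span ⟨i, rfl⟩)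
  have hmem_red : ∀ y ∈ Submodule.span D (Set.range b), ∃ c : C, red R κ c = y := by
    intro y hy
    induction hy using Submodule.span_induction with
    | mem y hy =>
      obtain ⟨i, rfl⟩ := hy
      exact ⟨bC i, red_basis bC κ i⟩
    | zero => exact ⟨0, map_zero _⟩
    | add y z _ _ hy hz =>
      obtain ⟨c, rfl⟩ := hy
      obtain ⟨c', rfl⟩ := hz
      exact ⟨c + c', map_add _ _ _⟩
    | smul d y _ hy =>
      obtain ⟨c, rfl⟩ := hy
      obtain ⟨r, rfl⟩ := Ideal.Quotient.mk_surjective d
      refine ⟨r • c, ?_⟩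
      rw [map_smul]
      exact (hDsmul r _).symm ▸ (algebraMap_smul κ r (red R κ c)).symm
  -- apply Lemma A
  have hs₀κ : algebraMap R κ s₀ ≠ 0 := fun h => hs₀ ((hker s₀).mp h)
  set y : W := (algebraMap R κ s₀)⁻¹ • red R κ c₀ with hy
  obtain ⟨c₁, hc₁⟩ := hidem
  have hyy : y * y = y := by
    have h1 : red R κ c₀ * red R κ c₀ = algebraMap R κ s₀ • red R κ c₀ := by
      have h2 : red R κ (c₀ * c₀ - s₀ • c₀) = 0 := by
        rw [hc₁, map_smul, ← algebraMap_smul κ π, (hker π).mpr dvd_rfl, zero_smul]
      rw [map_sub, map_mul, map_smul, sub_eq_zero] at h2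
      rw [h2, algebraMap_smul]
    rw [hy, smul_mul_smul_comm, h1, smul_smul, mul_assoc, inv_mul_cancel₀ hs₀κ, mul_one]
  have hyint : IsIntegral D y := by
    refine ⟨Polynomial.X * (Polynomial.X - 1), Polynomial.monic_X.mul
      (Polynomial.monic_X_sub_C (1 : D)) |> fun h => by simpa using h, ?_⟩
    simp [hyy, mul_sub]
  have hmem := LatticeNormal.mem_span_of_isIntegral (D := D) (κ := κ) (E := W) b (q τ) hτ
    (fun i j => by
      rw [← red_basis, ← red_basis, ← map_mul]
      exact hred_mem _)
    (fun i => red R κ (w i)) (fun i => hred_mem _)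
    (fun i j => by
      rw [← red_basis, ← map_mul, trace_red bC, htr i j]
      split_ifs
      · exact hRκ τ
      · exact map_zero _)
    (fun i => by
      obtain ⟨n, o, ho⟩ := hnil i
      refine ⟨n, red R κ o, hred_mem o, ?_⟩
      rw [← map_pow, ho, map_smul, hDsmul, algebraMap_smul])
    y hyint
  obtain ⟨c, hc⟩ := hmem_red y hmem
  have h0 : red R κ (c₀ - s₀ • c) = 0 := by
    rw [map_sub, map_smul, hc, hy, ← algebraMap_smul κ s₀, smul_smul, mul_inv_cancel₀ hs₀κ,
      one_smul, sub_self]
  have hdiv : ∀ i, π ∣ bC.repr (c₀ - s₀ • c) i := fun i =>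
    (hker _).mp ((red_eq_zero_iff bC κ _).mp h0 i)
  choose qq hqq using hdiv
  refine ⟨c, ∑ i, qq i • bC i, ?_⟩
  rw [Finset.smul_sum]
  conv_lhs => rw [← bC.sum_repr (c₀ - s₀ • c)]
  refine Finset.sum_congr rfl fun i _ => ?_
  rw [hqq i, mul_smul]

end Final

section Main

lemma algebraMap_injective' {R : Type*} [CommRing R] [IsDomain R]
    (M : Type*) [Field M] [Algebra R M] [IsFractionRing R M]
    (E : Type*) [Field E] [Algebra M E] [Algebra R E] [IsScalarTower R M E] :
    Function.Injective (algebraMap R E) := by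
  rw [IsScalarTower.algebraMap_eq R M E]
  exact (algebraMap M E).injective.comp (IsFractionRing.injective R M)

/-- (P0) the integral closure is a free module. -/
theorem free_integralClosure {R : Type*} [CommRing R] [IsDomain R] [IsNoetherianRing R]
    [IsLocalRing R] [IsIntegrallyClosed R]
    (M : Type*) [Field M] [Algebra R M] [IsFractionRing R M]
    (E : Type*) [Field E] [Algebra M E] [Algebra R E] [IsScalarTower R M E] [FiniteDimensional M E]
    [Algebra.IsSeparable M E] (π : R) (hπ : Prime π)
    [IsPrincipalIdealRing (R ⧸ Ideal.span {π})] :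
    Module.Free R (integralClosure R E) := by
  have hinj := algebraMap_injective' (R := R) M E
  have : Module.Finite R (integralClosure R E) := IsIntegralClosure.finite R M E _
  have : Module.IsTorsionFree R (integralClosure R E) := by
    refine Module.IsTorsionFree.of_smul_eq_zero ?_
    intro r m hrm
    by_cases hr : r = 0
    · exact Or.inl hr
    · right
      have h1 : algebraMap R E r * (m : E) = 0 := by
        have := congrArg (Subtype.val) hrm
        simpa [Algebra.smul_def] using this
      have h2 : algebraMap R E r ≠ 0 := fun h => hr (hinj (by rw [h, map_zero]))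
      exact Subtype.ext ((mul_eq_zero.mp h1).resolve_left h2)
  refine FreeLift.free_of_quotient_torsionFree π hπ ?_
  intro r x c hr hxc
  have hπ0 : algebraMap R E π ≠ 0 := fun h => hπ.ne_zero (hinj (by rw [h, map_zero]))
  set y : E := (algebraMap R E π)⁻¹ * (x : E) with hy
  have h1 : π • y = (x : E) := by
    rw [hy, Algebra.smul_def, mul_inv_cancel_left₀ hπ0]
  have hxc' : algebraMap R E r * (x : E) = algebraMap R E π * (c : E) := by
    have := congrArg (Subtype.val) hxc
    simpa [Algebra.smul_def] using this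
  have h2 : r • y = (c : E) := by
    rw [hy, Algebra.smul_def, mul_left_comm, hxc', inv_mul_cancel_left₀ hπ0]
  have hyint : IsIntegral R y :=
    IntTrick.isIntegral_of_smul_of_smul (M := M) π r hπ hr y (h1 ▸ x.2) (h2 ▸ c.2)
  refine ⟨⟨y, hyint⟩, Subtype.ext ?_⟩
  show (x : E) = π • y
  exact h1.symm

end Main


section Pieces

/-- The quotient of a two-dimensional regular-type local ring by `π` is a principal ideal ring
with prime element the image of `τ`. -/
theorem pid_quot {R : Type*} [CommRing R] [IsDomain R] [IsNoetherianRing R] [IsLocalRing R]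
    (π τ : R) (hπ : Prime π) (hπτ : ¬ π ∣ τ)
    (hmax : IsLocalRing.maximalIdeal R = Ideal.span {π, τ}) :
    IsPrincipalIdealRing (R ⧸ Ideal.span {π}) ∧
      Prime (Ideal.Quotient.mk (Ideal.span {π}) τ) := by
  have hP : (Ideal.span {π} : Ideal R).IsPrime := (Ideal.span_singleton_prime hπ.ne_zero).mpr hπ
  have : IsDomain (R ⧸ Ideal.span {π}) := Ideal.Quotient.isDomain _
  have hloc : IsLocalRing (R ⧸ Ideal.span {π}) :=
    IsLocalRing.of_surjective' (Ideal.Quotient.mk _) Ideal.Quotient.mk_surjective
  have hm : IsLocalRing.maximalIdeal (R ⧸ Ideal.span {π}) =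
      Ideal.span {Ideal.Quotient.mk (Ideal.span {π}) τ} := by
    apply le_antisymm
    · intro y hy
      obtain ⟨r, rfl⟩ := Ideal.Quotient.mk_surjective y
      have hr : r ∈ IsLocalRing.maximalIdeal R := by
        by_contra h
        have hu : IsUnit r := by
          rwa [IsLocalRing.mem_maximalIdeal, mem_nonunits_iff, not_not] at h
        exact hy (hu.map _)
      rw [hmax, Ideal.mem_span_pair] at hr
      obtain ⟨a, b, rfl⟩ := hr
      rw [map_add, map_mul, map_mul,
        Ideal.Quotient.eq_zero_iff_mem.mpr (Ideal.mem_span_singleton_self π), mul_zero, zero_add]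
      exact Ideal.mul_mem_left _ _ (Ideal.mem_span_singleton_self _)
    · rw [Ideal.span_le, Set.singleton_subset_iff]
      intro hu
      have hu' : IsUnit (Ideal.Quotient.mk (Ideal.span {π}) τ) := by
        simpa [mem_nonunits_iff] using hu
      obtain ⟨y, hy⟩ := hu'.exists_right_inv
      obtain ⟨r, rfl⟩ := Ideal.Quotient.mk_surjective y
      rw [← map_mul, ← map_one (Ideal.Quotient.mk (Ideal.span {π})), Ideal.Quotient.eq,
        Ideal.mem_span_singleton] at hy
      obtain ⟨z, hz⟩ := hy
      have h1 : (1 : R) ∈ IsLocalRing.maximalIdeal R := by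
        have hτ : τ ∈ IsLocalRing.maximalIdeal R := by
          rw [hmax]; exact Ideal.subset_span (by simp)
        have hπ' : π ∈ IsLocalRing.maximalIdeal R := by
          rw [hmax]; exact Ideal.subset_span (by simp)
        have : (1 : R) = τ * r - π * z := by rw [← hz]; ring
        rw [this]
        exact Ideal.sub_mem _ (Ideal.mul_mem_right _ _ hτ) (Ideal.mul_mem_right _ _ hπ')
      exact (Ideal.ne_top_iff_one _).mp (IsLocalRing.maximalIdeal.isMaximal R).ne_top h1
  refine ⟨((tfae_of_isNoetherianRing_of_isLocalRing_of_isDomain (R ⧸ Ideal.span {π})).out 0 4).mpr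
    (⟨⟨_, hm⟩⟩ : (IsLocalRing.maximalIdeal (R ⧸ Ideal.span {π})).IsPrincipal), ?_⟩
  have hne : Ideal.Quotient.mk (Ideal.span {π}) τ ≠ 0 := by
    intro h
    exact hπτ (Ideal.mem_span_singleton.mp (Ideal.Quotient.eq_zero_iff_mem.mp h))
  rw [← Ideal.span_singleton_prime hne, ← hm]
  exact (IsLocalRing.maximalIdeal.isMaximal _).isPrime

/-- (T^k): iterated minimal polynomial trick. -/
theorem isIntegral_of_pow_smul {R : Type*} [CommRing R] [IsDomain R] [IsIntegrallyClosed R]
    {M : Type*} [Field M] [Algebra R M] [IsFractionRing R M]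
    {E : Type*} [Field E] [Algebra M E] [Algebra R E] [IsScalarTower R M E]
    (τ s : R) (hτ : Prime τ) (hs : ¬ τ ∣ s) (k : ℕ) (w : E)
    (h1 : IsIntegral R (τ ^ k • w)) (h2 : IsIntegral R (s • w)) : IsIntegral R w := by
  induction k with
  | zero => simpa using h1
  | succ k ih =>
    apply ih
    refine IntTrick.isIntegral_of_smul_of_smul (M := M) τ s hτ hs (τ ^ k • w) ?_ ?_
    · rw [smul_smul, ← pow_succ']
      exact h1
    · rw [smul_comm]
      exact IsIntegral.smul _ h2

/-- Membership in the extended ideal, read in the ambient ring. -/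
lemma mem_map_iff_mem_smul {R E : Type*} [CommRing R] [CommRing E] [Algebra R E]
    (C : Subalgebra R E) (𝔭 : Ideal R) (x : C) :
    x ∈ 𝔭.map (algebraMap R C) ↔ (x : E) ∈ 𝔭 • Subalgebra.toSubmodule C := by
  have h1 : (𝔭 • Subalgebra.toSubmodule C) =
      (𝔭 • (⊤ : Submodule R C)).map C.val.toLinearMap := by
    rw [Submodule.map_smul'', Submodule.map_top]
    congr 1
    ext y
    simp
  rw [h1, Ideal.smul_top_eq_map]
  constructor
  · intro hx
    exact ⟨x, hx, rfl⟩
  · rintro ⟨y, hy, hyx⟩
    have : y = x := Subtype.ext hyx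
    exact this ▸ hy

/-- A kernel vector of the Gram matrix modulo a prime containing the discriminant. -/
theorem exists_of_discr_mem {R : Type*} [CommRing R] {C : Type*} [CommRing C] [Algebra R C]
    {ι : Type*} [Fintype ι] [DecidableEq ι] (bC : Basis ι R C) (𝔭 : Ideal R) [𝔭.IsPrime]
    (hd : Algebra.discr R bC ∈ 𝔭) :
    ∃ x : C, (∀ j, Algebra.trace R C (bC j * x) ∈ 𝔭) ∧ ¬ ∀ i, bC.repr x i ∈ 𝔭 := by
  let G : Matrix ι ι R := Algebra.traceMatrix R bC
  have hdet : (G.map (Ideal.Quotient.mk 𝔭)).det = 0 := by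
    have : (G.map (Ideal.Quotient.mk 𝔭)).det = Ideal.Quotient.mk 𝔭 G.det := by
      rw [RingHom.map_det]; rfl
    rw [this]
    exact Ideal.Quotient.eq_zero_iff_mem.mpr hd
  obtain ⟨v, hv0, hv⟩ := Matrix.exists_mulVec_eq_zero_iff.mpr hdet
  choose a ha using fun i => Ideal.Quotient.mk_surjective (v i)
  set x : C := ∑ i, a i • bC i with hx
  have hxrepr : ∀ i, bC.repr x i = a i := by
    intro i
    rw [hx, map_sum]
    simp [Finsupp.single_apply, Finset.sum_apply']
  refine ⟨x, ?_, ?_⟩
  · intro j
    have h1 : Algebra.trace R C (bC j * x) = ∑ i, G j i * a i := by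
      rw [hx, Finset.mul_sum, map_sum]
      refine Finset.sum_congr rfl fun i _ => ?_
      rw [mul_smul_comm, map_smul, smul_eq_mul, mul_comm]
      rfl
    rw [h1, ← Ideal.Quotient.eq_zero_iff_mem, map_sum]
    have h2 := congrFun hv j
    simp only [Matrix.mulVec, dotProduct, Matrix.map_apply, Pi.zero_apply] at h2
    rw [← h2]
    refine Finset.sum_congr rfl fun i _ => ?_
    rw [map_mul, ha]
  · intro h
    apply hv0
    funext i
    rw [← ha i]
    have := h i
    rw [hxrepr] at this
    exact Ideal.Quotient.eq_zero_iff_mem.mpr this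

end Pieces


section Dual

/-- (P4) the `τ`-scaled dual basis lies in the integral closure and is nilpotent modulo `τ`. -/
theorem exists_dual {R : Type*} [CommRing R] [IsDomain R] [IsNoetherianRing R]
    [IsIntegrallyClosed R]
    (M : Type*) [Field M] [Algebra R M] [IsFractionRing R M]
    (E : Type*) [Field E] [Algebra M E] [Algebra R E] [IsScalarTower R M E] [FiniteDimensional M E]
    [Algebra.IsSeparable M E] (τ : R) (hτ : Prime τ) (hchar : ∀ n : ℕ, n ≠ 0 → ¬ τ ∣ (n : R))
    {ι : Type*} [Fintype ι] [DecidableEq ι] (bC : Basis ι R (integralClosure R E))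
    (r : ℕ) (u : R) (hu : IsUnit u) (hd : Algebra.discr R bC = u * τ ^ r) :
    ∃ w : ι → integralClosure R E,
      (∀ i j, Algebra.trace R (integralClosure R E) (bC j * w i) = if j = i then τ else 0) ∧
      ∀ i, ∃ n : ℕ, ∃ o : integralClosure R E, w i ^ n = τ • o := by
  classical
  have hinjM : Function.Injective (algebraMap R M) := IsFractionRing.injective R M
  have hfree : Module.Free R (integralClosure R E) := Module.Free.of_basis bC
  have hfin : Module.Finite R (integralClosure R E) := Module.Finite.of_basis bC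
  have hloc : IsLocalization
      (Algebra.algebraMapSubmonoid (integralClosure R E) (nonZeroDivisors R)) E :=
    IsIntegralClosure.isLocalization R M E _
  let bE : Basis ι M E := bC.localizationLocalization M (nonZeroDivisors R) E
  have hbE : ∀ i, bE i = (bC i : E) := fun i =>
    Basis.localizationLocalization_apply _ _ _ _ i
  have htrace : ∀ c : integralClosure R E,
      Algebra.trace M E (c : E) = algebraMap R M (Algebra.trace R _ c) :=
    fun c => Algebra.trace_localization R (nonZeroDivisors R) c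
  have hdE : Algebra.discr M bE = algebraMap R M (Algebra.discr R bC) :=
    Algebra.discr_localizationLocalization R (nonZeroDivisors R) E bC
  let x : ι → E := (Algebra.traceForm M E).dualBasis (traceForm_nondegenerate M E) bE
  have hx : ∀ i j, Algebra.trace M E (x i * bE j) = if j = i then 1 else 0 := fun i j => by
    rw [← Algebra.traceForm_apply]
    exact LinearMap.BilinForm.apply_dualBasis_left _ _ i j
  -- the trace pairing of `x i` with the integral closure
  have hxC : ∀ i (c : integralClosure R E),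
      Algebra.trace M E (x i * (c : E)) = algebraMap R M (bC.repr c i) := by
    intro i c
    have h1 : (c : E) = ∑ j, algebraMap R M (bC.repr c j) • bE j := by
      conv_lhs => rw [← bC.sum_repr c]
      rw [AddSubmonoidClass.coe_finsetSum]
      refine Finset.sum_congr rfl fun j _ => ?_
      rw [hbE, algebraMap_smul]
      rfl
    rw [h1, Finset.mul_sum, map_sum]
    simp only [mul_smul_comm, map_smul, hx, smul_eq_mul, mul_ite, mul_one, mul_zero,
      Finset.sum_ite_eq', Finset.mem_univ, if_true]
  -- (i) `τ ^ r • x i` is integral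
  have hxint : ∀ i, IsIntegral R (τ ^ r • x i) := by
    intro i
    have hmem : x i ∈ Submodule.traceDual R M (1 : Submodule (integralClosure R E) E) := by
      rw [Submodule.mem_traceDual]
      intro a ha
      obtain ⟨c, rfl⟩ := Submodule.mem_one.mp ha
      exact ⟨bC.repr c i, (hxC i c).symm⟩
    have h1 := isIntegral_discr_mul_of_mem_traceDual (A := R) (K := M)
      (1 : Submodule (integralClosure R E) E) (b := bE)
      (fun j => by rw [hbE]; exact (bC j).2) (a := 1) (x := x i) (Submodule.mem_one.mpr ⟨1, map_one _⟩) hmem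
    obtain ⟨u', hu'⟩ := hu.exists_left_inv
    have h2 : τ ^ r • x i = u' • (Algebra.discr M bE • (1 : E) * x i) := by
      rw [hdE, hd, algebraMap_smul, smul_mul_assoc, one_mul, smul_smul, ← mul_assoc, hu', one_mul]
    rw [h2]
    exact IsIntegral.smul _ h1
  -- the localization at `τ`
  have hP : (Ideal.span {τ} : Ideal R).IsPrime := (Ideal.span_singleton_prime hτ.ne_zero).mpr hτ
  have hS : (Ideal.span {τ} : Ideal R).primeCompl ≤ nonZeroDivisors R := by
    intro y hy
    exact mem_nonZeroDivisors_of_ne_zero (fun h => hy (h ▸ Ideal.zero_mem _))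
  let S := Localization.subalgebra.ofField M (Ideal.span {τ} : Ideal R).primeCompl hS
  have i1 : IsLocalization.AtPrime S (Ideal.span {τ} : Ideal R) :=
    (inferInstance : IsLocalization (Ideal.span {τ} : Ideal R).primeCompl S)
  have i6 : IsNoetherianRing S :=
    IsLocalization.isNoetherianRing (Ideal.span {τ} : Ideal R).primeCompl S inferInstance
  have i7 : IsLocalRing S := IsLocalization.AtPrime.isLocalRing S (Ideal.span {τ} : Ideal R)
  have hmaxS : IsLocalRing.maximalIdeal S = Ideal.span {algebraMap R S τ} := by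
    rw [← IsLocalization.AtPrime.map_eq_maximalIdeal (Ideal.span {τ} : Ideal R) S, Ideal.map_span,
      Set.image_singleton]
  have hinjS : Function.Injective (algebraMap R S) :=
    IsLocalization.injective S hS
  have hτS0 : algebraMap R S τ ≠ 0 := fun h => hτ.ne_zero (hinjS (by rw [h, map_zero]))
  have i8 : IsDiscreteValuationRing S :=
    { toIsPrincipalIdealRing :=
        ((tfae_of_isNoetherianRing_of_isLocalRing_of_isDomain S).out 0 4).mpr
          (⟨⟨_, hmaxS⟩⟩ : (IsLocalRing.maximalIdeal S).IsPrincipal)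
      toIsLocalRing := i7
      not_a_field' := by
        rw [hmaxS]
        intro h
        exact hτS0 (Ideal.span_singleton_eq_bot.mp h) }
  have hτS : Irreducible (algebraMap R S τ) :=
    (IsDiscreteValuationRing.irreducible_iff_uniformizer _).mpr hmaxS
  have hcharS : ∀ n : ℕ, n ≠ 0 → IsUnit (n : S) := by
    intro n hn
    have h1 : (n : R) ∈ (Ideal.span {τ} : Ideal R).primeCompl := fun h =>
      hchar n hn (Ideal.mem_span_singleton.mp h)
    have := IsLocalization.map_units S (⟨(n : R), h1⟩ : (Ideal.span {τ} : Ideal R).primeCompl)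
    simpa using this
  have hdesc : ∀ o : E, IsIntegral S o → ∃ m : R, ¬ τ ∣ m ∧ IsIntegral R (m • o) := by
    intro o ho
    obtain ⟨m, hm⟩ := IsIntegral.exists_multiple_integral_of_isLocalization
      (Ideal.span {τ} : Ideal R).primeCompl o ho
    exact ⟨m, fun h => m.2 (Ideal.mem_span_singleton.mpr h), hm⟩
  have hxS : ∀ i, ∀ o : E, IsIntegral S o →
      ∃ s : S, Algebra.trace M E (x i * o) = algebraMap S M s := by
    intro i o ho
    obtain ⟨m, hm, hmo⟩ := hdesc o ho
    have hm0 : algebraMap R M m ≠ 0 := by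
      intro h
      apply hm
      rw [hinjM (by rw [h, map_zero] : algebraMap R M m = algebraMap R M 0)]
      exact dvd_zero _
    have hmS : m ∈ (Ideal.span {τ} : Ideal R).primeCompl := fun h =>
      hm (Ideal.mem_span_singleton.mp h)
    have h1 := hxC i ⟨m • o, hmo⟩
    simp only [mul_smul_comm] at h1
    refine ⟨IsLocalization.mk' S (bC.repr ⟨m • o, hmo⟩ i) ⟨m, hmS⟩, ?_⟩
    have h2 : algebraMap S M (IsLocalization.mk' S (bC.repr ⟨m • o, hmo⟩ i) ⟨m, hmS⟩) *
        algebraMap R M m = algebraMap R M (bC.repr ⟨m • o, hmo⟩ i) := by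
      rw [IsScalarTower.algebraMap_apply R S M m, ← map_mul]
      have := IsLocalization.mk'_spec S (bC.repr ⟨m • o, hmo⟩ i) ⟨m, hmS⟩
      rw [this, ← IsScalarTower.algebraMap_apply]
    have h3 : Algebra.trace M E (m • (x i * o)) =
        algebraMap R M m * Algebra.trace M E (x i * o) := by
      rw [← algebraMap_smul M m (x i * o), map_smul, smul_eq_mul]
    rw [← h1, h3] at h2
    exact (mul_right_cancel₀ hm0 (by rw [h2, mul_comm])).symm
  have hmain : ∀ i, IsIntegral R (τ • x i) ∧
      ∃ n : ℕ, ∃ o : E, IsIntegral R o ∧ (τ • x i) ^ n = τ • o := by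
    intro i
    obtain ⟨hwS, n, o', ho'S, hpow⟩ :=
      TameDual.smul_mem_of_trace_mem hcharS (algebraMap R S τ) hτS (x i) (hxS i)
    rw [algebraMap_smul] at hwS
    rw [algebraMap_smul, algebraMap_smul] at hpow
    obtain ⟨m, hm, hmw⟩ := hdesc _ hwS
    have hw : IsIntegral R (τ • x i) := by
      refine isIntegral_of_pow_smul (M := M) τ m hτ hm r (τ • x i) ?_ hmw
      rw [smul_comm]
      exact IsIntegral.smul _ (hxint i)
    refine ⟨hw, n, o', ?_, hpow⟩
    obtain ⟨m', hm', hmo'⟩ := hdesc _ ho'S
    refine IntTrick.isIntegral_of_smul_of_smul (M := M) τ m' hτ hm' o' ?_ hmo'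
    rw [← hpow]
    exact hw.pow n
  choose hw n o ho hpow using hmain
  refine ⟨fun i => ⟨τ • x i, hw i⟩, ?_, ?_⟩
  · intro i j
    apply hinjM
    rw [← htrace]
    have h1 : ((bC j * ⟨τ • x i, hw i⟩ : integralClosure R E) : E) =
        algebraMap R M τ • (x i * bE j) := by
      rw [hbE, algebraMap_smul, mul_comm (x i), ← mul_smul_comm]
      rfl
    rw [h1, map_smul, hx]
    split_ifs
    · rw [smul_eq_mul, mul_one]
    · rw [smul_zero, map_zero]
  · intro i
    refine ⟨n i, ⟨o i, ho i⟩, Subtype.ext ?_⟩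
    exact hpow i

end Dual


section Assembly

/-- **Machine M.** `R` a two-dimensional normal Noetherian local domain with maximal ideal
`(π, τ)`, `E` a finite separable extension of `Frac R`, `C` the integral closure of `R` in `E`.
Assume the trace form of `C` is nondegenerate modulo `π` (`hH2`), and the fibres of `C` over the
primes of `R` other than `(π)`, `(τ)` are reduced (`hH3`), the residue characteristic being
a power-divisor of `π` (`hchar`).  Then every idempotent of `(C/πC)[1/s₀]` of the shape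
`c₀/s₀` lies in `C/πC`. -/
theorem exists_sub_eq_smul_of_idem {R : Type*} [CommRing R] [IsDomain R] [IsNoetherianRing R]
    [IsLocalRing R] [IsIntegrallyClosed R]
    (M : Type*) [Field M] [Algebra R M] [IsFractionRing R M]
    (E : Type*) [Field E] [Algebra M E] [Algebra R E] [IsScalarTower R M E] [FiniteDimensional M E]
    [Algebra.IsSeparable M E] (π τ : R) (hπ : Prime π) (hτ : Prime τ) (hτπ : ¬ τ ∣ π)
    (hπτ : ¬ π ∣ τ) (hmax : IsLocalRing.maximalIdeal R = Ideal.span {π, τ})
    (hchar : ∀ n : ℕ, n ≠ 0 → ∃ a : ℕ, (n : R) ∣ π ^ a)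
    (hH2 : ∀ x : E, IsIntegral R x →
      (∀ o : E, IsIntegral R o → ∃ a : R, Algebra.trace M E (x * o) = algebraMap R M (π * a)) →
      ∃ c : E, IsIntegral R c ∧ x = π • c)
    (hH3 : ∀ 𝔭 : Ideal R, 𝔭.IsPrime → 𝔭 ≠ ⊥ → π ∉ 𝔭 → τ ∉ 𝔭 → ∀ x : E, IsIntegral R x →
      ∀ n : ℕ, x ^ n ∈ 𝔭 • Subalgebra.toSubmodule (integralClosure R E) →
      ∃ s : R, s ∉ 𝔭 ∧ s • x ∈ 𝔭 • Subalgebra.toSubmodule (integralClosure R E))
    (c₀ : E) (hc₀ : IsIntegral R c₀) (s₀ : R) (hs₀ : ¬ π ∣ s₀)
    (hidem : ∃ c₁ : E, IsIntegral R c₁ ∧ c₀ * c₀ - s₀ • c₀ = π • c₁) :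
    ∃ c c₂ : E, IsIntegral R c ∧ IsIntegral R c₂ ∧ c₀ - s₀ • c = π • c₂ := by
  classical
  obtain ⟨hpid, hτ'⟩ := pid_quot π τ hπ hπτ hmax
  have hinjM : Function.Injective (algebraMap R M) := IsFractionRing.injective R M
  have hfree : Module.Free R (integralClosure R E) := free_integralClosure M E π hπ
  have hfin : Module.Finite R (integralClosure R E) := IsIntegralClosure.finite R M E _
  let bC : Basis (Module.Free.ChooseBasisIndex R (integralClosure R E)) R (integralClosure R E) :=
    Module.Free.chooseBasis R _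
  have hloc : IsLocalization
      (Algebra.algebraMapSubmonoid (integralClosure R E) (nonZeroDivisors R)) E :=
    IsIntegralClosure.isLocalization R M E _
  have htrace : ∀ c : integralClosure R E,
      Algebra.trace M E (c : E) = algebraMap R M (Algebra.trace R _ c) :=
    fun c => Algebra.trace_localization R (nonZeroDivisors R) c
  have hdE : Algebra.discr M (bC.localizationLocalization M (nonZeroDivisors R) E) =
      algebraMap R M (Algebra.discr R bC) :=
    Algebra.discr_localizationLocalization R (nonZeroDivisors R) E bC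
  have hd0 : Algebra.discr R bC ≠ 0 := by
    intro h
    have := Algebra.discr_not_zero_of_basis M (bC.localizationLocalization M (nonZeroDivisors R) E)
    rw [hdE, h, map_zero] at this
    exact this rfl
  -- (P1)
  have hP : (Ideal.span {π} : Ideal R).IsPrime := (Ideal.span_singleton_prime hπ.ne_zero).mpr hπ
  have hπd : ¬ π ∣ Algebra.discr R bC := by
    intro hdvd
    obtain ⟨x, hx1, hx2⟩ :=
      exists_of_discr_mem bC (Ideal.span {π}) (Ideal.mem_span_singleton.mpr hdvd)
    apply hx2
    have hx3 : ∀ o : E, IsIntegral R o →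
        ∃ a : R, Algebra.trace M E ((x : E) * o) = algebraMap R M (π * a) := by
      intro o ho
      have h1 : Algebra.trace R (integralClosure R E) (x * ⟨o, ho⟩) ∈ Ideal.span {π} := by
        rw [← bC.sum_repr ⟨o, ho⟩, Finset.mul_sum, map_sum]
        refine Ideal.sum_mem _ fun j _ => ?_
        rw [mul_smul_comm, map_smul, mul_comm, smul_eq_mul]
        exact Ideal.mul_mem_left _ _ (hx1 j)
      obtain ⟨a, ha⟩ := Ideal.mem_span_singleton.mp h1
      exact ⟨a, by rw [← ha, ← htrace]; rfl⟩
    obtain ⟨c, hc, hxc⟩ := hH2 x x.2 hx3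
    intro i
    have : x = π • (⟨c, hc⟩ : integralClosure R E) := Subtype.ext hxc
    rw [this, map_smul, Finsupp.smul_apply, smul_eq_mul]
    exact Ideal.mul_mem_right _ _ (Ideal.mem_span_singleton_self π)
  -- (P2)
  have hP2 : ∀ 𝔭 : Ideal R, 𝔭.IsPrime → 𝔭 ≠ ⊥ → π ∉ 𝔭 → τ ∉ 𝔭 →
      Algebra.discr R bC ∉ 𝔭 := by
    intro 𝔭 h𝔭 hbot hπ𝔭 hτ𝔭
    refine discr_notMem_of_reduced bC 𝔭 ?_ ?_
    · intro n hn hmem
      obtain ⟨a, ha⟩ := hchar n hn
      exact hπ𝔭 (h𝔭.mem_of_pow_mem a (Ideal.mem_of_dvd _ ha hmem))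
    · intro x n hxn
      rw [mem_map_iff_mem_smul] at hxn
      obtain ⟨s, hs, hsx⟩ := hH3 𝔭 h𝔭 hbot hπ𝔭 hτ𝔭 x x.2 n hxn
      refine ⟨s, hs, ?_⟩
      rw [mem_map_iff_mem_smul]
      exact hsx
  obtain ⟨r, u, hu, hdu⟩ := DiscUnit.eq_unit_mul_pow π τ _ hπ hτ hd0 hπd hP2
  have hcharτ : ∀ n : ℕ, n ≠ 0 → ¬ τ ∣ (n : R) := by
    intro n hn hdvd
    obtain ⟨a, ha⟩ := hchar n hn
    exact hτπ (hτ.dvd_of_dvd_pow (hdvd.trans ha))
  obtain ⟨w, hw1, hw2⟩ := exists_dual M E τ hτ hcharτ bC r u hu hdu
  obtain ⟨c₁, hc₁, hc₁'⟩ := hidem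
  obtain ⟨c, c₂, h⟩ := exists_of_dual π τ hπ hτ' bC w hw1 hw2
    (⟨c₀, hc₀⟩ : integralClosure R E) s₀ hs₀ ⟨⟨c₁, hc₁⟩, Subtype.ext hc₁'⟩
  exact ⟨c, c₂, c.2, c₂.2, congrArg Subtype.val h⟩

end Assembly

end Fermat.Agent.S18.MachineM
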