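import Mathlib
import Fermat.Agent.S18.IntTrick
import Fermat.Agent.S18.MachineM

/-!
# S18 (route K), core step L2: globalisation of machine M

`R₀` is a Noetherian integrally closed domain (a chart `A0[t]` of the base line), `π ∈ R₀` a prime
element, `E` a finite separable extension of `M = Frac R₀`.  If at every maximal ideal `𝔫 ∋ π`
the hypotheses of machine M hold for the local ring `R₀_𝔫`, then an element `e` of the integral
closure `O''` of `R₀_(π)` which is idempotent modulo `π O''` is congruent modulo `π O''` to an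
element integral over `R₀`.

The proof localises at each `𝔫`, applies `MachineM.exists_sub_eq_smul_of_idem`, clears
denominators, and uses that an ideal containing `π` and an element outside every maximal ideal
containing `π` is the unit ideal.
-/

set_option autoImplicit false

open IsLocalRing

namespace Fermat.Agent.S18.Globalize

/-! ### prime elements in a localisation at a prime -/

section Transfer

variable {R₀ : Type*} [CommRing R₀] [IsDomain R₀] (𝔫 : Ideal R₀) [h𝔫 : 𝔫.IsPrime]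
  (R : Type*) [CommRing R] [Algebra R₀ R] [hloc : IsLocalization.AtPrime R 𝔫]

include h𝔫 hloc

theorem algebraMap_injective : Function.Injective (algebraMap R₀ R) :=
  IsLocalization.injective R (Ideal.primeCompl_le_nonZeroDivisors 𝔫)

omit [IsDomain R₀] [CommRing R] [Algebra R₀ R] hloc in
theorem disjoint_span {g : R₀} (hmem : g ∈ 𝔫) :
    Disjoint (𝔫.primeCompl : Set R₀) (Ideal.span {g} : Set R₀) := by
  rw [Set.disjoint_left]
  intro x hx hx'
  exact hx ((Ideal.span_singleton_le_iff_mem _).mpr hmem hx')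

/-- a prime element lying in `𝔫` stays prime in the localisation at `𝔫`. -/
theorem prime_algebraMap {g : R₀} (hg : Prime g) (hmem : g ∈ 𝔫) :
    Prime (algebraMap R₀ R g) := by
  have hI : (Ideal.span {g}).IsPrime := (Ideal.span_singleton_prime hg.ne_zero).mpr hg
  have h1 := IsLocalization.isPrime_of_isPrime_disjoint 𝔫.primeCompl R _ hI
    (disjoint_span 𝔫 hmem)
  rw [Ideal.map_span, Set.image_singleton] at h1
  refine (Ideal.span_singleton_prime ?_).mp h1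
  intro h0
  exact hg.ne_zero (algebraMap_injective 𝔫 R (h0.trans (map_zero _).symm))

omit [IsDomain R₀] in
/-- divisibility by a prime element lying in `𝔫` can be tested before localising. -/
theorem dvd_of_algebraMap_dvd {g : R₀} (hg : Prime g) (hmem : g ∈ 𝔫) (x : R₀)
    (h : algebraMap R₀ R g ∣ algebraMap R₀ R x) : g ∣ x := by
  have hI : (Ideal.span {g}).IsPrime := (Ideal.span_singleton_prime hg.ne_zero).mpr hg
  have h1 := IsLocalization.under_map_of_isPrime_disjoint 𝔫.primeCompl R hI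
    (disjoint_span 𝔫 hmem)
  have h2 : x ∈ (Ideal.map (algebraMap R₀ R) (Ideal.span {g})).under R₀ := by
    rw [Ideal.under, Ideal.mem_comap, Ideal.map_span, Set.image_singleton,
      Ideal.mem_span_singleton]
    exact h
  rw [h1] at h2
  exact Ideal.mem_span_singleton.mp h2

end Transfer

/-! ### clearing denominators in `𝔭 • C` -/

section Denominators

variable {R₀ : Type*} [CommRing R₀] (𝔫 : Ideal R₀) [h𝔫 : 𝔫.IsPrime]
  (R : Type*) [CommRing R] [Algebra R₀ R] [hloc : IsLocalization.AtPrime R 𝔫]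
  (E : Type*) [CommRing E] [Algebra R₀ E] [Algebra R E] [IsScalarTower R₀ R E]

include h𝔫 hloc

/-- an element integral over the localisation becomes integral over `R₀` after multiplication
by an element outside `𝔫`. -/
theorem exists_smul_isIntegral {x : E} (hx : IsIntegral R x) :
    ∃ s : R₀, s ∉ 𝔫 ∧ IsIntegral R₀ (s • x) := by
  obtain ⟨⟨s, hs⟩, hsx⟩ := IsIntegral.exists_multiple_integral_of_isLocalization 𝔫.primeCompl x hx
  exact ⟨s, hs, hsx⟩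

/-- clearing denominators: `𝔭 • C_R ⊆ (𝔫.primeCompl)⁻¹ (𝔭 ∩ R₀) • C_{R₀}`. -/
theorem exists_smul_mem_comap_smul (𝔭 : Ideal R) {z : E}
    (hz : z ∈ 𝔭 • Subalgebra.toSubmodule (integralClosure R E)) :
    ∃ d : R₀, d ∉ 𝔫 ∧ d • z ∈
      (𝔭.comap (algebraMap R₀ R)) • Subalgebra.toSubmodule (integralClosure R₀ E) := by
  refine Submodule.smul_induction_on (p := fun z => ∃ d : R₀, d ∉ 𝔫 ∧ d • z ∈
      (𝔭.comap (algebraMap R₀ R)) • Subalgebra.toSubmodule (integralClosure R₀ E)) hz ?_ ?_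
  · intro p hp c hc
    obtain ⟨⟨a, ⟨u, hu⟩⟩, hau⟩ := IsLocalization.surj 𝔫.primeCompl p
    obtain ⟨v, hv, hvc⟩ := exists_smul_isIntegral 𝔫 R E (x := c) hc
    refine ⟨u * v, 𝔫.primeCompl.mul_mem hu hv, ?_⟩
    have ha : a ∈ 𝔭.comap (algebraMap R₀ R) := by
      rw [Ideal.mem_comap, ← hau]
      exact 𝔭.mul_mem_right _ hp
    have h1 : (u * v) • (p • c) = a • (v • c) := by
      rw [← algebraMap_smul R (u * v) (p • c), ← algebraMap_smul R a (v • c),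
        ← algebraMap_smul R v c, smul_smul, smul_smul, ← hau, map_mul]
      congr 1
      ring
    rw [h1]
    exact Submodule.smul_mem_smul ha hvc
  · rintro x y ⟨d₁, hd₁, h₁⟩ ⟨d₂, hd₂, h₂⟩
    refine ⟨d₁ * d₂, 𝔫.primeCompl.mul_mem hd₁ hd₂, ?_⟩
    have h : (d₁ * d₂) • (x + y) = d₂ • (d₁ • x) + d₁ • (d₂ • y) := by
      rw [smul_add, smul_smul, smul_smul, mul_comm d₂ d₁]
    rw [h]
    exact Submodule.add_mem _ (Submodule.smul_mem _ _ h₁) (Submodule.smul_mem _ _ h₂)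

omit h𝔫 hloc in
/-- `(𝔭 ∩ R₀) • C_{R₀} ⊆ 𝔭 • C_R`. -/
theorem mem_smul_of_mem_comap_smul (𝔭 : Ideal R) {z : E}
    (hz : z ∈ (𝔭.comap (algebraMap R₀ R)) •
      Subalgebra.toSubmodule (integralClosure R₀ E)) :
    z ∈ 𝔭 • Subalgebra.toSubmodule (integralClosure R E) := by
  refine Submodule.smul_induction_on
    (p := fun z => z ∈ 𝔭 • Subalgebra.toSubmodule (integralClosure R E)) hz ?_ ?_
  · intro a ha c hc
    rw [← algebraMap_smul R a c]
    exact Submodule.smul_mem_smul ha (IsIntegral.tower_top hc)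
  · intro x y hx hy
    exact Submodule.add_mem _ hx hy

omit h𝔫 hloc [Algebra R₀ R] [Algebra R₀ E] [IsScalarTower R₀ R E] in
/-- `𝔭 • C_R` is stable under multiplication by `C_R`. -/
theorem mul_mem_smul (𝔭 : Ideal R) {x z : E} (hx : IsIntegral R x)
    (hz : z ∈ 𝔭 • Subalgebra.toSubmodule (integralClosure R E)) :
    x * z ∈ 𝔭 • Subalgebra.toSubmodule (integralClosure R E) := by
  refine Submodule.smul_induction_on
    (p := fun z => x * z ∈ 𝔭 • Subalgebra.toSubmodule (integralClosure R E)) hz ?_ ?_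
  · intro p hp c hc
    rw [mul_smul_comm]
    exact Submodule.smul_mem_smul hp (hx.mul hc)
  · intro y z hy hz
    rw [mul_add]
    exact Submodule.add_mem _ hy hz

end Denominators

/-! ### the local step -/

section LocalStep

variable {R₀ : Type*} [CommRing R₀] [IsDomain R₀] [IsIntegrallyClosed R₀]
  (M : Type*) [Field M] [Algebra R₀ M] [IsFractionRing R₀ M]
  (E : Type*) [Field E] [Algebra M E] [Algebra R₀ E] [IsScalarTower R₀ M E]
  [FiniteDimensional M E]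
  (𝔫 : Ideal R₀) [h𝔫 : 𝔫.IsPrime]
  (R : Type*) [CommRing R] [Algebra R₀ R] [hloc : IsLocalization.AtPrime R 𝔫]
  [Algebra R M] [IsScalarTower R₀ R M] [Algebra R E] [IsScalarTower R₀ R E]
  [IsScalarTower R M E]

include h𝔫 hloc

omit [IsDomain R₀] [IsScalarTower R M E] in
/-- (H2) passes to the localisation at a prime containing `π`. -/
theorem hH2_local (π : R₀) (hπ : Prime π) (hπ𝔫 : π ∈ 𝔫)
    (hH2 : ∀ x : E, IsIntegral R₀ x →
      (∀ o : E, IsIntegral R₀ o →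
        ∃ a : R₀, Algebra.trace M E (x * o) = algebraMap R₀ M (π * a)) →
      ∃ c : E, IsIntegral R₀ c ∧ x = π • c) :
    ∀ x : E, IsIntegral R x →
      (∀ o : E, IsIntegral R o →
        ∃ a : R, Algebra.trace M E (x * o) = algebraMap R M (algebraMap R₀ R π * a)) →
      ∃ c : E, IsIntegral R c ∧ x = algebraMap R₀ R π • c := by
  intro x hx htr
  obtain ⟨s, hs, hsx⟩ := exists_smul_isIntegral 𝔫 R E hx
  have key : ∀ o : E, IsIntegral R₀ o →
      ∃ a : R₀, Algebra.trace M E ((s • x) * o) = algebraMap R₀ M (π * a) := by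
    intro o ho
    obtain ⟨a, ha⟩ := htr o ho.tower_top
    have hint : IsIntegral R₀ (Algebra.trace M E ((s • x) * o)) :=
      Algebra.isIntegral_trace (hsx.mul ho)
    obtain ⟨r₀, hr₀⟩ := IsIntegrallyClosed.isIntegral_iff.mp hint
    obtain ⟨⟨a₁, ⟨s', hs'⟩⟩, has⟩ := IsLocalization.surj 𝔫.primeCompl a
    have has' : algebraMap R M a * algebraMap R₀ M s' = algebraMap R₀ M a₁ := by
      have := congrArg (algebraMap R M) has
      rw [map_mul, ← IsScalarTower.algebraMap_apply R₀ R M,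
        ← IsScalarTower.algebraMap_apply R₀ R M] at this
      exact this
    have h1 : Algebra.trace M E ((s • x) * o) =
        algebraMap R₀ M s * Algebra.trace M E (x * o) := by
      rw [smul_mul_assoc, ← algebraMap_smul M s (x * o), map_smul, smul_eq_mul]
    have h2 : algebraMap R₀ M (s' * r₀) = algebraMap R₀ M (π * (s * a₁)) := by
      rw [map_mul, hr₀, h1, ha, map_mul, map_mul, map_mul, ← has',
        ← IsScalarTower.algebraMap_apply R₀ R M]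
      ring
    have h3 : s' * r₀ = π * (s * a₁) := IsFractionRing.injective R₀ M h2
    have h4 : π ∣ r₀ := by
      have h5 : π ∣ s' * r₀ := ⟨_, h3⟩
      rcases hπ.dvd_or_dvd h5 with h | h
      · obtain ⟨k, rfl⟩ := h
        exact absurd (𝔫.mul_mem_right k hπ𝔫) hs'
      · exact h
    obtain ⟨a', rfl⟩ := h4
    exact ⟨a', hr₀.symm⟩
  obtain ⟨c, hc, hsc⟩ := hH2 (s • x) hsx key
  obtain ⟨v, hv⟩ := (IsLocalization.map_units R (⟨s, hs⟩ : 𝔫.primeCompl)).exists_right_inv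
  refine ⟨v • c, (IsIntegral.tower_top hc).smul v, ?_⟩
  have h6 : x = v • (s • x) := by
    rw [← algebraMap_smul R s x, smul_smul, mul_comm]
    simp only [] at hv
    rw [hv, one_smul]
  rw [h6, hsc, ← algebraMap_smul R π c, smul_comm]

omit [IsDomain R₀] [IsIntegrallyClosed R₀] in
/-- (H3) passes to the localisation: reducedness of the fibres at the primes inside `𝔫`. -/
theorem hH3_local (π τ : R₀)
    (hred : ∀ 𝔭 : Ideal R₀, 𝔭.IsPrime → 𝔭 ≠ ⊥ → 𝔭 ≤ 𝔫 → π ∉ 𝔭 → τ ∉ 𝔭 →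
      ∀ x : E, IsIntegral R₀ x → ∀ n : ℕ,
        x ^ n ∈ 𝔭 • Subalgebra.toSubmodule (integralClosure R₀ E) →
        ∃ s : R₀, s ∉ 𝔭 ∧ s • x ∈ 𝔭 • Subalgebra.toSubmodule (integralClosure R₀ E)) :
    ∀ 𝔭 : Ideal R, 𝔭.IsPrime → 𝔭 ≠ ⊥ → algebraMap R₀ R π ∉ 𝔭 → algebraMap R₀ R τ ∉ 𝔭 →
      ∀ x : E, IsIntegral R x → ∀ n : ℕ,
        x ^ n ∈ 𝔭 • Subalgebra.toSubmodule (integralClosure R E) →
        ∃ s : R, s ∉ 𝔭 ∧ s • x ∈ 𝔭 • Subalgebra.toSubmodule (integralClosure R E) := by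
  intro 𝔭 h𝔭 hne hπ𝔭 hτ𝔭 x hx n hxn
  set 𝔭₀ : Ideal R₀ := 𝔭.comap (algebraMap R₀ R) with h𝔭₀
  have h𝔭₀prime : 𝔭₀.IsPrime := Ideal.comap_isPrime _ 𝔭
  have h𝔭₀ne : 𝔭₀ ≠ ⊥ := by
    intro hbot
    apply hne
    rw [eq_bot_iff]
    intro p hp
    obtain ⟨⟨a, ⟨u, hu⟩⟩, hau⟩ := IsLocalization.surj 𝔫.primeCompl p
    have ha : a ∈ 𝔭₀ := by
      rw [h𝔭₀, Ideal.mem_comap, ← hau]
      exact 𝔭.mul_mem_right _ hp
    rw [hbot, Ideal.mem_bot] at ha
    rw [ha, map_zero] at hau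
    have hunit := IsLocalization.map_units R (⟨u, hu⟩ : 𝔫.primeCompl)
    rw [Ideal.mem_bot]
    exact (hunit.mul_left_eq_zero).mp hau
  have h𝔭₀le : 𝔭₀ ≤ 𝔫 := by
    intro a ha
    by_contra hna
    have hunit := IsLocalization.map_units R (⟨a, hna⟩ : 𝔫.primeCompl)
    exact h𝔭.ne_top (Ideal.eq_top_of_isUnit_mem _ (Ideal.mem_comap.mp ha) hunit)
  have hred' := hred 𝔭₀ h𝔭₀prime h𝔭₀ne h𝔭₀le hπ𝔭 hτ𝔭
  obtain ⟨s₁, hs₁, hs₁x⟩ := exists_smul_isIntegral 𝔫 R E hx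
  -- `(s₁ x)^(n+1) ∈ 𝔭 C_R`
  have h1 : (s₁ • x) ^ (n + 1) ∈ 𝔭 • Subalgebra.toSubmodule (integralClosure R E) := by
    have h2 : x ^ (n + 1) ∈ 𝔭 • Subalgebra.toSubmodule (integralClosure R E) := by
      rw [pow_succ']
      exact mul_mem_smul R E 𝔭 hx hxn
    rw [smul_pow, ← algebraMap_smul R (s₁ ^ (n + 1)) (x ^ (n + 1))]
    exact Submodule.smul_mem _ _ h2
  obtain ⟨d, hd, hdz⟩ := exists_smul_mem_comap_smul 𝔫 R E 𝔭 h1
  have hy : IsIntegral R₀ (d • s₁ • x) := hs₁x.smul d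
  have hyn : (d • s₁ • x) ^ (n + 1) ∈
      𝔭₀ • Subalgebra.toSubmodule (integralClosure R₀ E) := by
    have : (d • s₁ • x) ^ (n + 1) = d ^ n • (d • (s₁ • x) ^ (n + 1)) := by
      rw [smul_pow, smul_smul, ← pow_succ]
    rw [this]
    exact Submodule.smul_mem _ _ hdz
  obtain ⟨s, hs, hsy⟩ := hred' _ hy _ hyn
  refine ⟨algebraMap R₀ R (s * d * s₁), ?_, ?_⟩
  · intro hmem
    have hmem' : s * d * s₁ ∈ 𝔭₀ := hmem
    rcases h𝔭₀prime.mem_or_mem hmem' with h | h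
    · rcases h𝔭₀prime.mem_or_mem h with h | h
      · exact hs h
      · exact hd (h𝔭₀le h)
    · exact hs₁ (h𝔭₀le h)
  · rw [algebraMap_smul, mul_assoc, mul_smul, mul_smul]
    exact mem_smul_of_mem_comap_smul R E 𝔭 hsy

end LocalStep

/-! ### machine M at one maximal ideal -/

section AtMaximal

variable {R₀ : Type*} [CommRing R₀] [IsDomain R₀] [IsNoetherianRing R₀] [IsIntegrallyClosed R₀]
  (M : Type*) [Field M] [Algebra R₀ M] [IsFractionRing R₀ M]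
  (E : Type*) [Field E] [Algebra M E] [Algebra R₀ E] [IsScalarTower R₀ M E]
  [FiniteDimensional M E] [Algebra.IsSeparable M E]
  (𝔫 : Ideal R₀) [h𝔫 : 𝔫.IsPrime]
  (R : Type*) [CommRing R] [Algebra R₀ R] [hloc : IsLocalization.AtPrime R 𝔫]
  [Algebra R M] [IsScalarTower R₀ R M] [Algebra R E] [IsScalarTower R₀ R E]
  [IsScalarTower R M E]

include h𝔫 hloc

/-- Machine M applied to the localisation `R` of `R₀` at `𝔫 = (π, τ)`: some multiple `u • e`,
`u ∉ 𝔫`, is congruent modulo `π O''` to an element integral over `R₀`. -/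
theorem exists_notMem_of_local (π : R₀) (hπ : Prime π)
    (hchar : ∀ n : ℕ, n ≠ 0 → ∃ a : ℕ, (n : R₀) ∣ π ^ a)
    (hH2 : ∀ x : E, IsIntegral R₀ x →
      (∀ o : E, IsIntegral R₀ o →
        ∃ a : R₀, Algebra.trace M E (x * o) = algebraMap R₀ M (π * a)) →
      ∃ c : E, IsIntegral R₀ c ∧ x = π • c)
    (τ : R₀) (h𝔫τ : 𝔫 = Ideal.span {π, τ}) (hτ : Prime τ) (hτπ : ¬ τ ∣ π) (hπτ : ¬ π ∣ τ)
    (hred : ∀ 𝔭 : Ideal R₀, 𝔭.IsPrime → 𝔭 ≠ ⊥ → 𝔭 ≤ 𝔫 → π ∉ 𝔭 → τ ∉ 𝔭 →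
      ∀ x : E, IsIntegral R₀ x → ∀ n : ℕ,
        x ^ n ∈ 𝔭 • Subalgebra.toSubmodule (integralClosure R₀ E) →
        ∃ s : R₀, s ∉ 𝔭 ∧ s • x ∈ 𝔭 • Subalgebra.toSubmodule (integralClosure R₀ E))
    (e : E) (s₀ : R₀) (hs₀ : ¬ π ∣ s₀) (he : IsIntegral R₀ (s₀ • e))
    (hidem : ∃ s₁ : R₀, ¬ π ∣ s₁ ∧ ∃ c₁ : E, IsIntegral R₀ c₁ ∧ s₁ • (e * e - e) = π • c₁) :
    ∃ u : R₀, u ∉ 𝔫 ∧ ∃ c : E, IsIntegral R₀ c ∧ ∃ c₂ : E, IsIntegral R₀ c₂ ∧
      s₀ • (u • e - c) = π • c₂ := by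
  have hπ𝔫 : π ∈ 𝔫 := h𝔫τ ▸ Ideal.subset_span (Set.mem_insert _ _)
  have hτ𝔫 : τ ∈ 𝔫 := h𝔫τ ▸ Ideal.subset_span (Set.mem_insert_of_mem _ rfl)
  have hdom : IsDomain R := IsLocalization.isDomain_of_atPrime R 𝔫
  have hnoeth : IsNoetherianRing R := IsLocalization.isNoetherianRing 𝔫.primeCompl R inferInstance
  have hlocal : IsLocalRing R := IsLocalization.AtPrime.isLocalRing R 𝔫
  have hic : IsIntegrallyClosed R :=
    isIntegrallyClosed_of_isLocalization R 𝔫.primeCompl (Ideal.primeCompl_le_nonZeroDivisors 𝔫)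
  have hfrac : IsFractionRing R M :=
    IsFractionRing.isFractionRing_of_isDomain_of_isLocalization 𝔫.primeCompl R M
  have hπR : Prime (algebraMap R₀ R π) := prime_algebraMap 𝔫 R hπ hπ𝔫
  have hτR : Prime (algebraMap R₀ R τ) := prime_algebraMap 𝔫 R hτ hτ𝔫
  have hτπR : ¬ algebraMap R₀ R τ ∣ algebraMap R₀ R π := fun h =>
    hτπ (dvd_of_algebraMap_dvd 𝔫 R hτ hτ𝔫 π h)
  have hπτR : ¬ algebraMap R₀ R π ∣ algebraMap R₀ R τ := fun h =>
    hπτ (dvd_of_algebraMap_dvd 𝔫 R hπ hπ𝔫 τ h)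
  have hmax : IsLocalRing.maximalIdeal R =
      Ideal.span {algebraMap R₀ R π, algebraMap R₀ R τ} := by
    rw [← IsLocalization.AtPrime.map_eq_maximalIdeal 𝔫 R, h𝔫τ, Ideal.map_span, Set.image_pair]
  have hcharR : ∀ n : ℕ, n ≠ 0 → ∃ a : ℕ, (n : R) ∣ algebraMap R₀ R π ^ a := by
    intro n hn
    obtain ⟨a, ha⟩ := hchar n hn
    refine ⟨a, ?_⟩
    have := map_dvd (algebraMap R₀ R) ha
    rwa [map_natCast, map_pow] at this
  have hH2R := hH2_local M E 𝔫 R π hπ hπ𝔫 hH2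
  have hH3R := hH3_local E 𝔫 R π τ hred
  -- the idempotent datum
  have hπE : algebraMap R₀ E π ≠ 0 := by
    rw [IsScalarTower.algebraMap_apply R₀ M E]
    intro h0
    have h1 := (algebraMap M E).injective (h0.trans (map_zero _).symm)
    exact hπ.ne_zero (IsFractionRing.injective R₀ M (h1.trans (map_zero _).symm))
  have hc₀ : IsIntegral R (s₀ • e) := IsIntegral.tower_top he
  have hs₀R : ¬ algebraMap R₀ R π ∣ algebraMap R₀ R s₀ := fun h =>
    hs₀ (dvd_of_algebraMap_dvd 𝔫 R hπ hπ𝔫 s₀ h)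
  have hidemR : ∃ c₁ : E, IsIntegral R c₁ ∧
      (s₀ • e) * (s₀ • e) - algebraMap R₀ R s₀ • (s₀ • e) = algebraMap R₀ R π • c₁ := by
    obtain ⟨s₁, hs₁, c₁, hc₁, h1⟩ := hidem
    set z : E := (s₀ • e) * (s₀ • e) - s₀ • (s₀ • e) with hz
    have hzint : IsIntegral R₀ z := (he.mul he).sub (he.smul s₀)
    set w : E := (algebraMap R₀ E π)⁻¹ * z with hw
    have hπw : π • w = z := by
      rw [hw, Algebra.smul_def, ← mul_assoc, mul_inv_cancel₀ hπE, one_mul]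
    have hs₁w : s₁ • w = (s₀ * s₀) • c₁ := by
      have h2 : s₁ • z = π • ((s₀ * s₀) • c₁) := by
        rw [smul_comm π, ← h1, hz]
        simp only [Algebra.smul_def, map_mul]
        ring
      have h3 : π • (s₁ • w) = π • ((s₀ * s₀) • c₁) := by
        rw [smul_comm, hπw, h2]
      simp only [Algebra.smul_def] at h3 ⊢
      exact mul_left_cancel₀ hπE h3
    have hwint : IsIntegral R₀ w :=
      IntTrick.isIntegral_of_smul_of_smul (M := M) π s₁ hπ hs₁ w (hπw ▸ hzint)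
        (hs₁w ▸ hc₁.smul (s₀ * s₀))
    refine ⟨w, IsIntegral.tower_top hwint, ?_⟩
    rw [algebraMap_smul, algebraMap_smul, hπw]
  obtain ⟨c, c₂, hc, hc₂, hcc⟩ := MachineM.exists_sub_eq_smul_of_idem M E
    (algebraMap R₀ R π) (algebraMap R₀ R τ) hπR hτR hτπR hπτR hmax hcharR hH2R hH3R
    (s₀ • e) hc₀ (algebraMap R₀ R s₀) hs₀R hidemR
  obtain ⟨u, hu, huc⟩ := exists_smul_isIntegral 𝔫 R E hc
  obtain ⟨v, hv, hvc⟩ := exists_smul_isIntegral 𝔫 R E hc₂
  refine ⟨u * v, 𝔫.primeCompl.mul_mem hu hv, (u * v) • c, ?_, (u * v) • c₂, ?_, ?_⟩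
  · rw [mul_comm, mul_smul]
    exact huc.smul v
  · rw [mul_smul]
    exact hvc.smul u
  · rw [algebraMap_smul, algebraMap_smul] at hcc
    rw [← smul_sub, smul_comm, smul_sub, hcc, smul_comm]

end AtMaximal

/-! ### the global statement -/

/-- **Globalisation of machine M** (core step L2). -/
theorem exists_sub_eq_smul_of_idem {R₀ : Type*} [CommRing R₀] [IsDomain R₀]
    [IsNoetherianRing R₀] [IsIntegrallyClosed R₀] (M : Type*) [Field M] [Algebra R₀ M]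
    [IsFractionRing R₀ M] (E : Type*) [Field E] [Algebra M E] [Algebra R₀ E]
    [IsScalarTower R₀ M E] [FiniteDimensional M E] [Algebra.IsSeparable M E] (π : R₀)
    (hπ : Prime π) (hchar : ∀ n : ℕ, n ≠ 0 → ∃ a : ℕ, (n : R₀) ∣ π ^ a)
    (hH2 : ∀ x : E, IsIntegral R₀ x →
      (∀ o : E, IsIntegral R₀ o →
        ∃ a : R₀, Algebra.trace M E (x * o) = algebraMap R₀ M (π * a)) →
      ∃ c : E, IsIntegral R₀ c ∧ x = π • c)
    (hloc : ∀ 𝔫 : Ideal R₀, 𝔫.IsMaximal → π ∈ 𝔫 → ∃ τ : R₀, 𝔫 = Ideal.span {π, τ} ∧ Prime τ ∧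
      ¬ τ ∣ π ∧ ¬ π ∣ τ ∧ ∀ 𝔭 : Ideal R₀, 𝔭.IsPrime → 𝔭 ≠ ⊥ → 𝔭 ≤ 𝔫 → π ∉ 𝔭 → τ ∉ 𝔭 →
        ∀ x : E, IsIntegral R₀ x → ∀ n : ℕ,
          x ^ n ∈ 𝔭 • Subalgebra.toSubmodule (integralClosure R₀ E) →
          ∃ s : R₀, s ∉ 𝔭 ∧ s • x ∈ 𝔭 • Subalgebra.toSubmodule (integralClosure R₀ E))
    (e : E) (s₀ : R₀) (hs₀ : ¬ π ∣ s₀) (he : IsIntegral R₀ (s₀ • e))
    (hidem : ∃ s₁ : R₀, ¬ π ∣ s₁ ∧ ∃ c₁ : E, IsIntegral R₀ c₁ ∧ s₁ • (e * e - e) = π • c₁) :
    ∃ c : E, IsIntegral R₀ c ∧ ∃ s₂ : R₀, ¬ π ∣ s₂ ∧ ∃ c₂ : E, IsIntegral R₀ c₂ ∧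
      s₂ • (e - c) = π • c₂ := by
  -- the ideal of denominators
  let I : Ideal R₀ :=
    { carrier := {u | ∃ c : E, IsIntegral R₀ c ∧ ∃ c₂ : E, IsIntegral R₀ c₂ ∧
        s₀ • (u • e - c) = π • c₂}
      zero_mem' := ⟨0, isIntegral_zero, 0, isIntegral_zero, by simp⟩
      add_mem' := by
        rintro u u' ⟨c, hc, c₂, hc₂, h⟩ ⟨c', hc', c₂', hc₂', h'⟩
        refine ⟨c + c', hc.add hc', c₂ + c₂', hc₂.add hc₂', ?_⟩
        rw [add_smul, add_sub_add_comm, smul_add, h, h', smul_add]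
      smul_mem' := by
        rintro a u ⟨c, hc, c₂, hc₂, h⟩
        refine ⟨a • c, hc.smul a, a • c₂, hc₂.smul a, ?_⟩
        rw [smul_eq_mul, mul_smul, ← smul_sub, smul_comm, h, smul_comm] }
  have hπI : π ∈ I := by
    refine ⟨0, isIntegral_zero, s₀ • e, he, ?_⟩
    rw [sub_zero, smul_comm]
  have htop : I = ⊤ := by
    by_contra hne
    obtain ⟨𝔫, h𝔫max, hI𝔫⟩ := Ideal.exists_le_maximal I hne
    have hπ𝔫 : π ∈ 𝔫 := hI𝔫 hπI
    obtain ⟨τ, h𝔫τ, hτ, hτπ, hπτ, hred⟩ := hloc 𝔫 h𝔫max hπ𝔫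
    have h𝔫prime : 𝔫.IsPrime := h𝔫max.isPrime
    obtain ⟨u, hu, c, hc, c₂, hc₂, h⟩ := exists_notMem_of_local M E 𝔫
      (Localization.subalgebra.ofField M 𝔫.primeCompl (Ideal.primeCompl_le_nonZeroDivisors 𝔫))
      π hπ hchar hH2 τ h𝔫τ hτ hτπ hπτ hred e s₀ hs₀ he hidem
    exact hu (hI𝔫 ⟨c, hc, c₂, hc₂, h⟩)
  have h1 : (1 : R₀) ∈ I := htop ▸ Submodule.mem_top
  obtain ⟨c, hc, c₂, hc₂, h⟩ := h1
  rw [one_smul] at h
  exact ⟨c, hc, s₀, hs₀, c₂, hc₂, h⟩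

end Fermat.Agent.S18.Globalize
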