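/-
S18, route K, core row L4: the endgame.

`A0` a discrete valuation ring with uniformizer `π`, `M` the function field of the base line
with coordinate `t`, `E` a finite separable extension of `M` satisfying (H2) and (H3) on both
charts `A0[t]`, `A0[t⁻¹]`, and with no constants beyond `A0`.  Every element `e` of the Gauss
ring `O''` of `E` which is idempotent modulo `π O''` is congruent to a constant `a : A0` modulo
`π O''`.
-/
import Mathlib
import Fermat.Agent.S18.CoreDefs
import Fermat.Agent.S18.CoreAux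
import Fermat.Agent.S18.AdjoinChart
import Fermat.Agent.S18.Globalize

set_option autoImplicit false

namespace Fermat.Agent.S18.Core

open Fermat.Agent.S18.CoreDefs

/-- The machine on one chart: an element of the Gauss ring which is idempotent modulo `π` is
congruent modulo `π O''` to an element integral over the chart. -/
theorem exists_lift_chart {A0 : Type*} [CommRing A0] [IsDomain A0] [IsDiscreteValuationRing A0]
    (M : Type*) [Field M] [Algebra A0 M] (E : Type*) [Field E] [Algebra M E] [Algebra A0 E]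
    [IsScalarTower A0 M E] [FiniteDimensional M E] [Algebra.IsSeparable M E] (π : A0)
    (hπ : Irreducible π) (hchar : ∀ n : ℕ, n ≠ 0 → ∃ a : ℕ, (n : A0) ∣ π ^ a) (t : M)
    (ht : Transcendental A0 t)
    (hgen : ∀ m : M, ∃ a b : chart A0 M t, b ≠ 0 ∧ m * (b : M) = (a : M)) (Crit : Finset A0)
    (h2 : H2Hyp A0 M E t π) (h3 : H3Hyp A0 M E t π Crit)
    (e : E) (he : InGauss A0 M E t π e) (hid : InPiGauss A0 M E t π (e * e - e)) :
    ∃ a : E, IsIntegral (chart A0 M t) a ∧ InPiGauss A0 M E t π (e - a) := by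
  have := AdjoinChart.isIntegrallyClosed M t ht
  have := AdjoinChart.isNoetherianRing M t ht
  have := AdjoinChart.isFractionRing M t hgen
  have hp := AdjoinChart.prime_unif M t ht π hπ
  have hunif : ∀ y : E, (unif A0 M t π) • y = π • y := fun y => by
    rw [unif, algebraMap_smul]
  obtain ⟨s₀, hs₀, he'⟩ := he
  obtain ⟨s₁, hs₁, c₁, hc₁, h1⟩ := hid
  obtain ⟨c, hc, s₂, hs₂, c₂, hc₂, h⟩ := Globalize.exists_sub_eq_smul_of_idem
    (R₀ := chart A0 M t) M E (unif A0 M t π) hp (AdjoinChart.hchar_chart M t π hchar)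
    (fun x hx hxo => by
      obtain ⟨c, hc, hxc⟩ := h2 x hx hxo
      exact ⟨c, hc, by rw [hunif]; exact hxc⟩)
    (AdjoinChart.hloc_of_H3 M E t ht π hπ Crit h3) e s₀ hs₀ he'
    ⟨s₁, hs₁, c₁, hc₁, by rw [hunif]; exact h1⟩
  exact ⟨c, hc, s₂, hs₂, c₂, hc₂, by rw [← hunif]; exact h⟩

/-- **Core row L4 (endgame).** -/
theorem exists_const_of_idem {A0 : Type*} [CommRing A0] [IsDomain A0]
    [IsDiscreteValuationRing A0] (M : Type*) [Field M] [Algebra A0 M] (E : Type*) [Field E]
    [Algebra M E] [Algebra A0 E] [IsScalarTower A0 M E] [FiniteDimensional M E]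
    [Algebra.IsSeparable M E] (π : A0) (hπ : Irreducible π)
    (hchar : ∀ n : ℕ, n ≠ 0 → ∃ a : ℕ, (n : A0) ∣ π ^ a) (t : M) (ht : Transcendental A0 t)
    (hgen : ∀ m : M, ∃ a b : chart A0 M t, b ≠ 0 ∧ m * (b : M) = (a : M))
    (Critf Criti : Finset A0)
    (h2f : H2Hyp A0 M E t π) (h2i : H2Hyp A0 M E t⁻¹ π) (h3f : H3Hyp A0 M E t π Critf)
    (h3i : H3Hyp A0 M E t⁻¹ π Criti)
    (hconst : ∀ h : E, IsIntegral A0 h → ∃ a : A0, h = algebraMap A0 E a)
    (e : E) (hef : InGauss A0 M E t π e) (hei : InGauss A0 M E t⁻¹ π e)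
    (hidf : InPiGauss A0 M E t π (e * e - e)) (hidi : InPiGauss A0 M E t⁻¹ π (e * e - e)) :
    ∃ a : A0, InPiGauss A0 M E t π (e - algebraMap A0 E a) := by
  have ht0 : t ≠ 0 := fun h => ht (h ▸ isAlgebraic_zero)
  have ht' : Transcendental A0 t⁻¹ := IntConst.transcendental_inv t ht
  have hgen' := CoreAux.hgen_inv t ht0 hgen
  have := AdjoinChart.isIntegrallyClosed M t ht
  have := AdjoinChart.isIntegrallyClosed M t⁻¹ ht'
  have := AdjoinChart.isNoetherianRing M t ht
  have := AdjoinChart.isFractionRing M t hgen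
  have := AdjoinChart.isFractionRing M t⁻¹ hgen'
  have harch : ∀ c : A0, c ≠ 0 → ∃ n : ℕ, c ∣ π ^ n := by
    intro c hc
    obtain ⟨n, u, rfl⟩ := IsDiscreteValuationRing.eq_unit_mul_pow_irreducible hc hπ
    exact ⟨n, ⟨((u⁻¹ : A0ˣ) : A0), by rw [mul_comm (u : A0), mul_assoc, Units.mul_inv, mul_one]⟩⟩
  exact CoreAux.exists_const_of_lifts M E π hπ.ne_zero harch t ht
    (AdjoinChart.prime_unif M t ht π hπ) (AdjoinChart.prime_unif M t⁻¹ ht' π hπ)
    (IsIntegralClosure.finite (chart A0 M t) M E (integralClosure (chart A0 M t) E))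
    hconst e hef hei hidf hidi
    (exists_lift_chart M E π hπ hchar t ht hgen Critf h2f h3f e hef hidf)
    (exists_lift_chart M E π hπ hchar t⁻¹ ht' hgen' Criti h2i h3i e hei hidi)

end Fermat.Agent.S18.Core
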