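import Mathlib
import Fermat.Agent.S18.CoreDefs
import Fermat.Agent.S18.IntTrick

/-!
# S18, route K, core file L5a: the Kummer layer of the abstract core

`false_of_kummer_of_const` : the abstract core theorem (interface to the bridge), with the chart
facts (L3) and the conclusion of the idempotent theorem (L4) as explicit hypotheses.
-/

set_option autoImplicit false
set_option linter.unusedSectionVars false

namespace Fermat.Agent.S18.KummerLayer

open Polynomial Fermat.Agent.S18.CoreDefs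

/-! ### Part A: traces in a Kummer extension `E = F[θ]`, `θ ^ p = Y`, `[E : F] = p` -/

section Trace

variable {F E : Type*} [Field F] [Field E] [Algebra F E] (p : ℕ) (Y : F) (θ : E)

/-- The powers `1, θ, …, θ^(p-1)` span `E = F[θ]` when `θ ^ p = Y`. -/
theorem span_pow_eq_top (hp : 0 < p) (hθ : θ ^ p = algebraMap F E Y)
    (hθgen : Algebra.adjoin F {θ} = ⊤) :
    ⊤ ≤ Submodule.span F (Set.range fun i : Fin p => θ ^ (i : ℕ)) := by
  intro x _
  have hx : x ∈ Algebra.adjoin F {θ} := hθgen ▸ Algebra.mem_top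
  rw [Algebra.adjoin_singleton_eq_range_aeval] at hx
  obtain ⟨q, hq0⟩ := hx
  have hq0' : aeval θ q = x := hq0
  rw [← hq0']
  have hmon : (X ^ p - C Y : F[X]).Monic := monic_X_pow_sub_C Y hp.ne'
  have h0 : aeval θ (X ^ p - C Y : F[X]) = 0 := by simp [hθ]
  have hq : aeval θ q = aeval θ (q %ₘ (X ^ p - C Y)) := by
    conv_lhs => rw [← modByMonic_add_div q (q := (X ^ p - C Y : F[X]))]
    rw [map_add, map_mul, h0, zero_mul, add_zero]
  have hne1 : (X ^ p - C Y : F[X]) ≠ 1 := by
    intro h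
    have := congrArg natDegree h
    rw [natDegree_X_pow_sub_C, natDegree_one] at this
    exact hp.ne' this
  have hdeg : (q %ₘ (X ^ p - C Y)).natDegree < p := by
    have := natDegree_modByMonic_lt q hmon hne1
    rwa [natDegree_X_pow_sub_C] at this
  rw [hq, aeval_eq_sum_range' hdeg]
  exact Submodule.sum_mem _ fun i hi => Submodule.smul_mem _ _
    (Submodule.subset_span ⟨⟨i, Finset.mem_range.mp hi⟩, rfl⟩)

/-- The power basis `1, θ, …, θ^(p-1)` of the Kummer extension. -/
noncomputable def kbasis (hp : 0 < p) (hθ : θ ^ p = algebraMap F E Y)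
    (hθgen : Algebra.adjoin F {θ} = ⊤) (hdeg : Module.finrank F E = p) :
    Module.Basis (Fin p) F E :=
  basisOfTopLeSpanOfCardEqFinrank (fun i : Fin p => θ ^ (i : ℕ))
    (span_pow_eq_top p Y θ hp hθ hθgen) (by rw [Fintype.card_fin, hdeg])

theorem kbasis_apply (hp : 0 < p) (hθ : θ ^ p = algebraMap F E Y)
    (hθgen : Algebra.adjoin F {θ} = ⊤) (hdeg : Module.finrank F E = p) (i : Fin p) :
    kbasis p Y θ hp hθ hθgen hdeg i = θ ^ (i : ℕ) := by
  rw [kbasis, coe_basisOfTopLeSpanOfCardEqFinrank]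

/-- `Tr(θ^n) = 0` for `0 < n < p`. -/
theorem trace_pow_of_lt (hp : 0 < p) (hθ : θ ^ p = algebraMap F E Y)
    (hθgen : Algebra.adjoin F {θ} = ⊤) (hdeg : Module.finrank F E = p) (n : ℕ) (hn0 : 0 < n)
    (hnp : n < p) : Algebra.trace F E (θ ^ n) = 0 := by
  classical
  set b := kbasis p Y θ hp hθ hθgen hdeg with hb
  rw [Algebra.trace_eq_matrix_trace b, Matrix.trace]
  refine Finset.sum_eq_zero fun j _ => ?_
  rw [Matrix.diag_apply, Algebra.leftMulMatrix_eq_repr_mul, hb, kbasis_apply, ← pow_add]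
  by_cases h : n + (j : ℕ) < p
  · have : θ ^ (n + (j : ℕ)) = kbasis p Y θ hp hθ hθgen hdeg ⟨n + j, h⟩ := by
      rw [kbasis_apply]
    rw [this, Module.Basis.repr_self, Finsupp.single_apply, if_neg]
    intro hEq
    have := congrArg Fin.val hEq
    simp only at this
    omega
  · have hle : p ≤ n + (j : ℕ) := not_lt.mp h
    have hlt : n + (j : ℕ) - p < p := by have := j.isLt; omega
    have : θ ^ (n + (j : ℕ)) = Y • kbasis p Y θ hp hθ hθgen hdeg ⟨n + j - p, hlt⟩ := by
      rw [kbasis_apply, Algebra.smul_def, ← hθ, ← pow_add]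
      congr 1
      simp only
      omega
    rw [this, map_smul, Module.Basis.repr_self, Finsupp.smul_apply, Finsupp.single_apply, if_neg,
      smul_zero]
    intro hEq
    have := congrArg Fin.val hEq
    simp only at this
    omega

/-- `Tr(θ^n)` for `0 < n < 2p`: it is `p Y` for `n = p` and `0` otherwise. -/
theorem trace_pow (hp : 0 < p) (hθ : θ ^ p = algebraMap F E Y)
    (hθgen : Algebra.adjoin F {θ} = ⊤) (hdeg : Module.finrank F E = p) (n : ℕ) (hn0 : 0 < n)
    (hn2 : n < 2 * p) : Algebra.trace F E (θ ^ n) = if n = p then (p : F) * Y else 0 := by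
  have hfin : FiniteDimensional F E := Module.finite_of_finrank_pos (by rw [hdeg]; exact hp)
  rcases lt_trichotomy n p with h | h | h
  · rw [if_neg h.ne, trace_pow_of_lt p Y θ hp hθ hθgen hdeg n hn0 h]
  · rw [if_pos h, h, hθ, Algebra.trace_algebraMap, hdeg, nsmul_eq_mul]
  · rw [if_neg h.ne']
    have : θ ^ n = Y • θ ^ (n - p) := by
      rw [Algebra.smul_def, ← hθ, ← pow_add]
      congr 1
      omega
    rw [this, map_smul, trace_pow_of_lt p Y θ hp hθ hθgen hdeg (n - p) (by omega) (by omega),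
      smul_zero]

/-- **Coordinates by traces**: `Tr(x θ^(p-k)) = p Y x_k`. -/
theorem trace_mul_pow (hp : 0 < p) (hθ : θ ^ p = algebraMap F E Y)
    (hθgen : Algebra.adjoin F {θ} = ⊤) (hdeg : Module.finrank F E = p) (x : E) (k : Fin p) :
    Algebra.trace F E (x * θ ^ (p - (k : ℕ))) =
      (p : F) * Y * (kbasis p Y θ hp hθ hθgen hdeg).repr x k := by
  classical
  set b := kbasis p Y θ hp hθ hθgen hdeg with hb
  conv_lhs => rw [← b.sum_repr x]
  rw [Finset.sum_mul, map_sum]
  have hterm : ∀ m : Fin p, Algebra.trace F E (b.repr x m • b m * θ ^ (p - (k : ℕ))) =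
      if m = k then (p : F) * Y * b.repr x k else 0 := by
    intro m
    rw [smul_mul_assoc, map_smul, hb, kbasis_apply, ← pow_add,
      trace_pow p Y θ hp hθ hθgen hdeg _ (by have := k.isLt; omega)
        (by have := k.isLt; have := m.isLt; omega)]
    by_cases hmk : m = k
    · subst hmk
      rw [if_pos rfl, if_pos (by have := m.isLt; omega), smul_eq_mul]
      ring
    · rw [if_neg hmk, if_neg, smul_zero]
      intro hEq
      apply hmk
      apply Fin.ext
      have := k.isLt
      have := m.isLt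
      omega
  rw [Finset.sum_congr rfl fun m _ => hterm m, Finset.sum_ite_eq' Finset.univ k, if_pos (Finset.mem_univ _)]

end Trace

/-! ### Part B: calculus of the Gauss ring `O''` and of `π O''` (elementwise) -/

section Gauss

variable {A0 : Type*} [CommRing A0] [IsDomain A0] {M : Type*} [Field M] [Algebra A0 M]
  {E : Type*} [Field E] [Algebra M E] [Algebra A0 E] [IsScalarTower A0 M E] {t : M} {π : A0}

theorem pi_smul_eq (x : E) : π • x = unif A0 M t π • x := by
  rw [unif, algebraMap_smul]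

theorem inGauss_of_isIntegral (hprime : Prime (unif A0 M t π)) {x : E}
    (hx : IsIntegral (chart A0 M t) x) : InGauss A0 M E t π x :=
  ⟨1, hprime.not_dvd_one, by rwa [one_smul]⟩

theorem inGauss_algebraMap (hprime : Prime (unif A0 M t π)) (a : A0) :
    InGauss A0 M E t π (algebraMap A0 E a) := by
  refine inGauss_of_isIntegral hprime ?_
  rw [IsScalarTower.algebraMap_apply A0 (chart A0 M t) E]
  exact isIntegral_algebraMap

theorem inGauss_natCast (hprime : Prime (unif A0 M t π)) (n : ℕ) :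
    InGauss A0 M E t π (n : E) := by
  have := inGauss_algebraMap (E := E) hprime (n : A0)
  rwa [map_natCast] at this

theorem inGauss_zero (hprime : Prime (unif A0 M t π)) : InGauss A0 M E t π (0 : E) :=
  inGauss_of_isIntegral hprime isIntegral_zero

theorem inGauss_one (hprime : Prime (unif A0 M t π)) : InGauss A0 M E t π (1 : E) :=
  inGauss_of_isIntegral hprime isIntegral_one

theorem inGauss_add (hprime : Prime (unif A0 M t π)) {x y : E} (hx : InGauss A0 M E t π x)
    (hy : InGauss A0 M E t π y) : InGauss A0 M E t π (x + y) := by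
  obtain ⟨s₁, hs₁, h₁⟩ := hx
  obtain ⟨s₂, hs₂, h₂⟩ := hy
  refine ⟨s₁ * s₂, fun h => (hprime.dvd_or_dvd h).elim hs₁ hs₂, ?_⟩
  have : (s₁ * s₂) • (x + y) = s₂ • (s₁ • x) + s₁ • (s₂ • y) := by
    rw [smul_add, mul_smul, mul_smul, smul_comm s₁ s₂ x]
  rw [this]
  exact (IsIntegral.smul s₂ h₁).add (IsIntegral.smul s₁ h₂)

theorem inGauss_mul (hprime : Prime (unif A0 M t π)) {x y : E} (hx : InGauss A0 M E t π x)
    (hy : InGauss A0 M E t π y) : InGauss A0 M E t π (x * y) := by
  obtain ⟨s₁, hs₁, h₁⟩ := hx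
  obtain ⟨s₂, hs₂, h₂⟩ := hy
  refine ⟨s₁ * s₂, fun h => (hprime.dvd_or_dvd h).elim hs₁ hs₂, ?_⟩
  rw [← smul_mul_smul_comm]
  exact h₁.mul h₂

theorem inGauss_pow (hprime : Prime (unif A0 M t π)) {x : E} (hx : InGauss A0 M E t π x)
    (n : ℕ) : InGauss A0 M E t π (x ^ n) := by
  induction n with
  | zero => rw [pow_zero]; exact inGauss_one hprime
  | succ n ih => rw [pow_succ]; exact inGauss_mul hprime ih hx

theorem inGauss_sum (hprime : Prime (unif A0 M t π)) {ι : Type*} (S : Finset ι) (f : ι → E)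
    (h : ∀ i ∈ S, InGauss A0 M E t π (f i)) : InGauss A0 M E t π (∑ i ∈ S, f i) := by
  classical
  induction S using Finset.induction_on with
  | empty => rw [Finset.sum_empty]; exact inGauss_zero hprime
  | insert a S ha ih =>
    rw [Finset.sum_insert ha]
    exact inGauss_add hprime (h a (Finset.mem_insert_self a S))
      (ih fun i hi => h i (Finset.mem_insert_of_mem hi))

/-- roots of elements of the Gauss ring are in the Gauss ring. -/
theorem inGauss_of_pow {x : E} {n : ℕ} (hn : 0 < n) (hx : InGauss A0 M E t π (x ^ n)) :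
    InGauss A0 M E t π x := by
  obtain ⟨s, hs, h⟩ := hx
  refine ⟨s, hs, IsIntegral.of_pow hn ?_⟩
  have : (s • x) ^ n = s ^ (n - 1) • (s • x ^ n) := by
    rw [_root_.smul_pow, smul_smul, ← pow_succ, Nat.sub_add_cancel hn]
  rw [this]
  exact IsIntegral.smul _ h

theorem inGauss_of_inPiGauss {x : E} (hx : InPiGauss A0 M E t π x) : InGauss A0 M E t π x := by
  obtain ⟨s, hs, c, hc, h⟩ := hx
  refine ⟨s, hs, ?_⟩
  rw [h, pi_smul_eq (t := t)]
  exact IsIntegral.smul _ hc

theorem inPiGauss_zero (hprime : Prime (unif A0 M t π)) : InPiGauss A0 M E t π (0 : E) :=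
  ⟨1, hprime.not_dvd_one, 0, isIntegral_zero, by rw [smul_zero, smul_zero]⟩

theorem inPiGauss_mul_inGauss (hprime : Prime (unif A0 M t π)) {x y : E}
    (hx : InPiGauss A0 M E t π x) (hy : InGauss A0 M E t π y) : InPiGauss A0 M E t π (x * y) := by
  obtain ⟨s₁, hs₁, c, hc, h₁⟩ := hx
  obtain ⟨s₂, hs₂, h₂⟩ := hy
  refine ⟨s₁ * s₂, fun h => (hprime.dvd_or_dvd h).elim hs₁ hs₂, c * s₂ • y, hc.mul h₂, ?_⟩
  rw [← smul_mul_smul_comm, h₁, smul_mul_assoc]

theorem inPiGauss_add (hprime : Prime (unif A0 M t π)) {x y : E}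
    (hx : InPiGauss A0 M E t π x) (hy : InPiGauss A0 M E t π y) :
    InPiGauss A0 M E t π (x + y) := by
  obtain ⟨s₁, hs₁, c₁, hc₁, h₁⟩ := hx
  obtain ⟨s₂, hs₂, c₂, hc₂, h₂⟩ := hy
  refine ⟨s₁ * s₂, fun h => (hprime.dvd_or_dvd h).elim hs₁ hs₂, s₂ • c₁ + s₁ • c₂,
    (IsIntegral.smul s₂ hc₁).add (IsIntegral.smul s₁ hc₂), ?_⟩
  rw [smul_add, mul_smul, mul_smul, smul_comm s₁ s₂ x, h₁, h₂, smul_add, smul_comm s₂ π c₁,
    smul_comm s₁ π c₂]

theorem inPiGauss_sum (hprime : Prime (unif A0 M t π)) {ι : Type*} (S : Finset ι) (f : ι → E)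
    (h : ∀ i ∈ S, InPiGauss A0 M E t π (f i)) : InPiGauss A0 M E t π (∑ i ∈ S, f i) := by
  classical
  induction S using Finset.induction_on with
  | empty => rw [Finset.sum_empty]; exact inPiGauss_zero hprime
  | insert a S ha ih =>
    rw [Finset.sum_insert ha]
    exact inPiGauss_add hprime (h a (Finset.mem_insert_self a S))
      (ih fun i hi => h i (Finset.mem_insert_of_mem hi))

/-- `1 ∉ π O''` (over the base field `M` itself, hence over any extension). -/
theorem not_inPiGauss_one (hprime : Prime (unif A0 M t π))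
    (hic : IsIntegrallyClosed (chart A0 M t)) (hfr : IsFractionRing (chart A0 M t) M) :
    ¬ InPiGauss A0 M E t π (1 : E) := by
  rintro ⟨s, hs, c, hc, h⟩
  have hπM : ((unif A0 M t π : chart A0 M t) : M) ≠ 0 := by
    intro h0
    exact hprime.ne_zero (Subtype.ext h0)
  -- `c = s / π` lies in `M`
  have hc' : c = algebraMap M E ((s : M) * ((unif A0 M t π : chart A0 M t) : M)⁻¹) := by
    have h1 : algebraMap M E (s : M) = algebraMap M E ((unif A0 M t π : chart A0 M t) : M) * c := by
      have h2 : s • (1 : E) = unif A0 M t π • c := by rw [h, pi_smul_eq (t := t)]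
      rw [Algebra.smul_def, mul_one, Algebra.smul_def] at h2
      exact h2
    have hne : algebraMap M E ((unif A0 M t π : chart A0 M t) : M) ≠ 0 := by
      rwa [Ne, map_eq_zero]
    rw [map_mul, map_inv₀, h1]
    field_simp
  rw [hc'] at hc
  have hcM : IsIntegral (chart A0 M t) ((s : M) * ((unif A0 M t π : chart A0 M t) : M)⁻¹) :=
    (isIntegral_algebraMap_iff (algebraMap M E).injective).mp hc
  obtain ⟨r, hr⟩ := IsIntegrallyClosed.isIntegral_iff.mp hcM
  apply hs
  refine ⟨r, Subtype.ext ?_⟩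
  have hr' : (r : M) = (s : M) * ((unif A0 M t π : chart A0 M t) : M)⁻¹ := hr
  rw [Subalgebra.coe_mul, hr']
  field_simp

end Gauss

/-! ### Part C: the tower `M ⊆ F ⊆ E` -/

section Tower

variable {A0 : Type*} [CommRing A0] [IsDomain A0] {M : Type*} [Field M] [Algebra A0 M]
  {F : Type*} [Field F] [Algebra M F] [Algebra A0 F] [IsScalarTower A0 M F]
  {E : Type*} [Field E] [Algebra F E] [Algebra M E] [Algebra A0 E] [IsScalarTower M F E]
  [IsScalarTower A0 M E] [IsScalarTower A0 F E] {t : M} {π : A0}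

theorem chart_smul_algebraMap (s : chart A0 M t) (y : F) :
    s • algebraMap F E y = algebraMap F E (s • y) := by
  rw [Algebra.smul_def, Algebra.smul_def, map_mul, ← IsScalarTower.algebraMap_apply]

theorem base_smul_algebraMap (a : A0) (y : F) :
    a • algebraMap F E y = algebraMap F E (a • y) := by
  rw [Algebra.smul_def, Algebra.smul_def, map_mul, ← IsScalarTower.algebraMap_apply]

theorem inGauss_map {y : F} (hy : InGauss A0 M F t π y) :
    InGauss A0 M E t π (algebraMap F E y) := by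
  obtain ⟨s, hs, h⟩ := hy
  refine ⟨s, hs, ?_⟩
  rw [chart_smul_algebraMap]
  exact h.algebraMap

theorem inPiGauss_map {y : F} (hy : InPiGauss A0 M F t π y) :
    InPiGauss A0 M E t π (algebraMap F E y) := by
  obtain ⟨s, hs, c, hc, h⟩ := hy
  refine ⟨s, hs, algebraMap F E c, hc.algebraMap, ?_⟩
  rw [chart_smul_algebraMap, h, base_smul_algebraMap]

theorem inPiGauss_trace [FiniteDimensional F E] {x : E} (hx : InPiGauss A0 M E t π x) :
    InPiGauss A0 M F t π (Algebra.trace F E x) := by
  obtain ⟨s, hs, c, hc, h⟩ := hx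
  refine ⟨s, hs, Algebra.trace F E c, Algebra.isIntegral_trace hc, ?_⟩
  have h1 : s • Algebra.trace F E x = Algebra.trace F E (s • x) := by
    rw [← algebraMap_smul F s x, map_smul, algebraMap_smul]
  have h2 : π • Algebra.trace F E c = Algebra.trace F E (π • c) := by
    rw [← algebraMap_smul F π c, map_smul, algebraMap_smul]
  rw [h1, h, h2]

end Tower

/-! ### Part D: the Kummer layer -/

section Geom

variable {W : Type*} [CommRing W]

theorem pow_mul_geom (θ : W) (p i : ℕ) :
    θ ^ i * ∑ j ∈ Finset.range p, θ ^ j =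
      ∑ j ∈ Finset.range p, θ ^ j + (θ ^ p - 1) * ∑ m ∈ Finset.range i, θ ^ m := by
  induction i with
  | zero => simp
  | succ i ih =>
    have h1 := mul_geom_sum θ p
    rw [Finset.sum_range_succ, pow_succ, mul_assoc]
    have h2 : θ * ∑ j ∈ Finset.range p, θ ^ j = ∑ j ∈ Finset.range p, θ ^ j + (θ ^ p - 1) := by
      linear_combination h1
    rw [h2, mul_add, ih]
    ring

theorem geom_mul_geom (θ : W) (p : ℕ) :
    (∑ j ∈ Finset.range p, θ ^ j) * ∑ j ∈ Finset.range p, θ ^ j =
      (p : W) * ∑ j ∈ Finset.range p, θ ^ j +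
        (θ ^ p - 1) * ∑ i ∈ Finset.range p, ∑ m ∈ Finset.range i, θ ^ m := by
  have h : ∀ i ∈ Finset.range p, θ ^ i * ∑ j ∈ Finset.range p, θ ^ j =
      ∑ j ∈ Finset.range p, θ ^ j + (θ ^ p - 1) * ∑ m ∈ Finset.range i, θ ^ m :=
    fun i _ => pow_mul_geom θ p i
  rw [Finset.sum_mul, Finset.sum_congr rfl h, Finset.sum_add_distrib, Finset.sum_const,
    Finset.card_range, nsmul_eq_mul, ← Finset.mul_sum]

end Geom

section Kummer

variable {A0 : Type*} [CommRing A0] [IsDomain A0] {M : Type*} [Field M] [Algebra A0 M]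
  {F : Type*} [Field F] [Algebra M F] [Algebra A0 F] [IsScalarTower A0 M F]
  {E : Type*} [Field E] [Algebra F E] [Algebra M E] [Algebra A0 E] [IsScalarTower M F E]
  [IsScalarTower A0 M E] [IsScalarTower A0 F E] {t : M} {π : A0} (p : ℕ) (Y : F) (θ : E)

theorem inGauss_theta (hp : 0 < p) (hθ : θ ^ p = algebraMap F E Y)
    (hY : InGauss A0 M F t π Y) : InGauss A0 M E t π θ :=
  inGauss_of_pow hp (hθ ▸ inGauss_map hY)

/-- The element `c (1 + θ + … + θ^(p-1))` (`c = p⁻¹`): an idempotent modulo `π`. -/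
noncomputable def idem (c : A0) : E := algebraMap A0 E c * ∑ i ∈ Finset.range p, θ ^ i

theorem inGauss_idem (hprime : Prime (unif A0 M t π)) (hp : 0 < p)
    (hθ : θ ^ p = algebraMap F E Y) (hY : InGauss A0 M F t π Y) (c : A0) :
    InGauss A0 M E t π (idem p θ c) :=
  inGauss_mul hprime (inGauss_algebraMap hprime c)
    (inGauss_sum hprime _ _ fun i _ => inGauss_pow hprime (inGauss_theta p Y θ hp hθ hY) i)

theorem idem_sq_sub (c : A0) (hc : (p : A0) * c = 1) :
    idem p θ c * idem p θ c - idem p θ c =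
      (θ ^ p - 1) * (algebraMap A0 E (c * c) *
        ∑ i ∈ Finset.range p, ∑ m ∈ Finset.range i, θ ^ m) := by
  have hcE : (p : E) * algebraMap A0 E c = 1 := by
    have := congrArg (algebraMap A0 E) hc
    rwa [map_mul, map_natCast, map_one] at this
  have h := geom_mul_geom θ p
  unfold idem
  rw [map_mul]
  linear_combination (algebraMap A0 E c) ^ 2 * h +
    (algebraMap A0 E c * ∑ j ∈ Finset.range p, θ ^ j) * hcE

theorem inPiGauss_idem_sq (hprime : Prime (unif A0 M t π)) (hp : 0 < p)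
    (hθ : θ ^ p = algebraMap F E Y) (hY : InGauss A0 M F t π Y)
    (hY1 : InPiGauss A0 M F t π (Y - 1)) (c : A0) (hc : (p : A0) * c = 1) :
    InPiGauss A0 M E t π (idem p θ c * idem p θ c - idem p θ c) := by
  rw [idem_sq_sub p θ c hc]
  have h1 : θ ^ p - 1 = algebraMap F E (Y - 1) := by rw [map_sub, map_one, hθ]
  rw [h1]
  refine inPiGauss_mul_inGauss hprime (inPiGauss_map hY1) ?_
  refine inGauss_mul hprime (inGauss_algebraMap hprime _) ?_
  refine inGauss_sum hprime _ _ fun i _ => inGauss_sum hprime _ _ fun m _ => ?_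
  exact inGauss_pow hprime (inGauss_theta p Y θ hp hθ hY) m

/-- **(K2)**: `H2Hyp` passes from `F` to the Kummer extension `E = F[θ]`. -/
theorem h2Hyp_kummer [FiniteDimensional M F] (hprime : Prime (unif A0 M t π))
    (hic : IsIntegrallyClosed (chart A0 M t)) (hfr : IsFractionRing (chart A0 M t) M)
    (hp : 0 < p) (hpA : IsUnit (p : A0)) (hθ : θ ^ p = algebraMap F E Y)
    (hθgen : Algebra.adjoin F {θ} = ⊤) (hdeg : Module.finrank F E = p) (hY0 : Y ≠ 0)
    (hY : InGauss A0 M F t π Y) (hY' : InGauss A0 M F t π Y⁻¹) (h2 : H2Hyp A0 M F t π) :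
    H2Hyp A0 M E t π := by
  intro x hx htr
  have hfin : FiniteDimensional F E := Module.finite_of_finrank_pos (by rw [hdeg]; exact hp)
  have hθG : InGauss A0 M E t π θ := inGauss_theta p Y θ hp hθ hY
  obtain ⟨s, hs, hsθ⟩ := hθG
  obtain ⟨pu, hpu⟩ := hpA
  have hpF : (p : F) * algebraMap A0 F (↑pu⁻¹ : A0) = 1 := by
    have : (p : A0) * (↑pu⁻¹ : A0) = 1 := by rw [← hpu, Units.mul_inv]
    have := congrArg (algebraMap A0 F) this
    rwa [map_mul, map_natCast, map_one] at this
  have hcoord : ∀ k : Fin p,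
      InPiGauss A0 M F t π ((kbasis p Y θ hp hθ hθgen hdeg).repr x k) := by
    intro k
    have hzint : IsIntegral (chart A0 M t) (Algebra.trace F E (x * (s • θ) ^ (p - (k : ℕ)))) :=
      Algebra.isIntegral_trace (hx.mul (hsθ.pow _))
    have hz2 : ∀ o : F, IsIntegral (chart A0 M t) o → ∃ a : chart A0 M t,
        Algebra.trace M F (Algebra.trace F E (x * (s • θ) ^ (p - (k : ℕ))) * o) =
          algebraMap (chart A0 M t) M (unif A0 M t π * a) := by
      intro o ho
      obtain ⟨a, ha⟩ := htr ((s • θ) ^ (p - (k : ℕ)) * algebraMap F E o)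
        ((hsθ.pow _).mul ho.algebraMap)
      refine ⟨a, ?_⟩
      have e1 : Algebra.trace F E (x * (s • θ) ^ (p - (k : ℕ))) * o =
          Algebra.trace F E (x * ((s • θ) ^ (p - (k : ℕ)) * algebraMap F E o)) := by
        rw [mul_comm _ o, ← smul_eq_mul, ← map_smul, Algebra.smul_def]
        congr 1
        ring
      rw [e1, Algebra.trace_trace, ha]
    obtain ⟨c, hc, hzc⟩ := h2 _ hzint hz2
    have hz3 : Algebra.trace F E (x * (s • θ) ^ (p - (k : ℕ))) =
        s ^ (p - (k : ℕ)) • ((p : F) * Y * (kbasis p Y θ hp hθ hθgen hdeg).repr x k) := by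
      rw [_root_.smul_pow, mul_smul_comm, ← algebraMap_smul F, map_smul, algebraMap_smul,
        trace_mul_pow p Y θ hp hθ hθgen hdeg x k]
    have h4 : InPiGauss A0 M F t π ((p : F) * Y * (kbasis p Y θ hp hθ hθgen hdeg).repr x k) :=
      ⟨s ^ (p - (k : ℕ)), fun h => hs (hprime.dvd_of_dvd_pow h), c, hc, by rw [← hz3, hzc]⟩
    have h5 := inPiGauss_mul_inGauss hprime h4
      (inGauss_mul hprime hY' (inGauss_algebraMap hprime (↑pu⁻¹ : A0)))
    have h6 : (p : F) * Y * (kbasis p Y θ hp hθ hθgen hdeg).repr x k *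
        (Y⁻¹ * algebraMap A0 F (↑pu⁻¹ : A0)) = (kbasis p Y θ hp hθ hθgen hdeg).repr x k := by
      have hYY : Y * Y⁻¹ = 1 := mul_inv_cancel₀ hY0
      linear_combination ((kbasis p Y θ hp hθ hθgen hdeg).repr x k) * hpF +
        ((p : F) * (kbasis p Y θ hp hθ hθgen hdeg).repr x k * algebraMap A0 F (↑pu⁻¹ : A0)) * hYY
    rwa [h6] at h5
  have hθG : InGauss A0 M E t π θ := inGauss_theta p Y θ hp hθ hY
  have hxP : InPiGauss A0 M E t π x := by
    rw [← (kbasis p Y θ hp hθ hθgen hdeg).sum_repr x]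
    refine inPiGauss_sum hprime _ _ fun k _ => ?_
    rw [kbasis_apply, Algebra.smul_def]
    exact inPiGauss_mul_inGauss hprime (inPiGauss_map (hcoord k)) (inGauss_pow hprime hθG k)
  obtain ⟨s', hs', c, hc, h⟩ := hxP
  obtain ⟨y, hy, hxy⟩ := IntTrick.exists_eq_smul_of_smul_eq_smul (M := M) (unif A0 M t π) s'
    hprime hs' x c hx hc (by rw [h, pi_smul_eq (t := t)])
  exact ⟨y, hy, by rw [pi_smul_eq (t := t)]; exact hxy⟩

/-- **(K4)**: the idempotent `e = p⁻¹ Σ θ^i` is not congruent to a constant modulo `π O''`. -/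
theorem not_inPiGauss_idem_sub (hprime : Prime (unif A0 M t π))
    (hic : IsIntegrallyClosed (chart A0 M t)) (hfr : IsFractionRing (chart A0 M t) M)
    (hp : 2 ≤ p) (hθ : θ ^ p = algebraMap F E Y)
    (hθgen : Algebra.adjoin F {θ} = ⊤) (hdeg : Module.finrank F E = p) (hY0 : Y ≠ 0)
    (hY : InGauss A0 M F t π Y) (hY' : InGauss A0 M F t π Y⁻¹) (c : A0)
    (hc : (p : A0) * c = 1) (a : A0) :
    ¬ InPiGauss A0 M E t π (idem p θ c - algebraMap A0 E a) := by
  intro h
  have hp0 : 0 < p := by omega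
  have hfin : FiniteDimensional F E := Module.finite_of_finrank_pos (by rw [hdeg]; exact hp0)
  have hθG : InGauss A0 M E t π θ := inGauss_theta p Y θ hp0 hθ hY
  have h1 := inPiGauss_trace (F := F)
    (inPiGauss_mul_inGauss hprime h (inGauss_pow hprime hθG (p - 1)))
  have hcF : algebraMap A0 F c * (p : F) = 1 := by
    have := congrArg (algebraMap A0 F) hc
    rw [map_mul, map_natCast, map_one] at this
    rw [mul_comm]; exact this
  have htr : Algebra.trace F E ((idem p θ c - algebraMap A0 E a) * θ ^ (p - 1)) = Y := by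
    rw [sub_mul, map_sub]
    have hA : Algebra.trace F E (algebraMap A0 E a * θ ^ (p - 1)) = 0 := by
      rw [IsScalarTower.algebraMap_apply A0 F E, ← Algebra.smul_def, map_smul,
        trace_pow_of_lt p Y θ hp0 hθ hθgen hdeg (p - 1) (by omega) (by omega), smul_zero]
    have hB : Algebra.trace F E (idem p θ c * θ ^ (p - 1)) = Y := by
      unfold idem
      rw [mul_assoc, Finset.sum_mul, IsScalarTower.algebraMap_apply A0 F E, ← Algebra.smul_def,
        map_smul, map_sum]
      have hterm : ∀ i ∈ Finset.range p, Algebra.trace F E (θ ^ i * θ ^ (p - 1)) =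
          if i = 1 then (p : F) * Y else 0 := by
        intro i hi
        have hi' := Finset.mem_range.mp hi
        by_cases h0 : i = 0
        · subst h0
          rw [pow_zero, one_mul, trace_pow_of_lt p Y θ hp0 hθ hθgen hdeg (p - 1) (by omega)
            (by omega), if_neg (by omega)]
        · rw [← pow_add, trace_pow p Y θ hp0 hθ hθgen hdeg _ (by omega) (by omega)]
          by_cases h1 : i = 1
          · rw [if_pos h1, if_pos (by omega)]
          · rw [if_neg h1, if_neg (by omega)]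
      rw [Finset.sum_congr rfl hterm, Finset.sum_ite_eq' (Finset.range p) 1,
        if_pos (Finset.mem_range.mpr (by omega)), smul_eq_mul, ← mul_assoc, hcF, one_mul]
    rw [hA, hB, sub_zero]
  rw [htr] at h1
  have h2 := inPiGauss_mul_inGauss hprime h1 hY'
  rw [mul_inv_cancel₀ hY0] at h2
  exact not_inPiGauss_one hprime hic hfr h2

end Kummer

/-! ### Part E: the core theorem -/

section Core

open IntermediateField in
/-- `E = F[θ]` with `θ ^ p = Y ≠ 0` and `p ≠ 0` in `F` is separable over `F`. -/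
theorem isSeparable_kummer {F E : Type*} [Field F] [Field E] [Algebra F E] (p : ℕ) (Y : F)
    (θ : E) (hpF : (p : F) ≠ 0) (hY0 : Y ≠ 0) (hθ : θ ^ p = algebraMap F E Y)
    (hθgen : Algebra.adjoin F {θ} = ⊤) : Algebra.IsSeparable F E := by
  have h0 : aeval θ (X ^ p - C Y : F[X]) = 0 := by simp [hθ]
  have hsep : (X ^ p - C Y : F[X]).Separable := separable_X_pow_sub_C Y hpF hY0
  have hsepθ : IsSeparable F θ := hsep.of_dvd (minpoly.dvd F θ h0)
  refine ⟨fun x => ?_⟩
  have hle : Algebra.adjoin F {θ} ≤ (separableClosure F E).toSubalgebra := by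
    refine Algebra.adjoin_le ?_
    rintro _ rfl
    exact mem_separableClosure_iff.mpr hsepθ
  have hx : x ∈ (separableClosure F E).toSubalgebra := hle (hθgen ▸ Algebra.mem_top)
  exact mem_separableClosure_iff.mp hx

variable {A0 : Type*} [CommRing A0] [IsDomain A0] (M : Type*) [Field M] [Algebra A0 M]
  (F : Type*) [Field F] [Algebra M F] [Algebra A0 F] [IsScalarTower A0 M F]
  (E : Type*) [Field E] [Algebra F E] [Algebra M E] [Algebra A0 E] [IsScalarTower M F E]
  [IsScalarTower A0 M E] [IsScalarTower A0 F E]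

/-- `Y ∈ O''` from `Y - 1 ∈ π O''`. -/
theorem inGauss_of_sub_one {t : M} {π : A0} (hprime : Prime (unif A0 M t π)) {Y : F}
    (h : InPiGauss A0 M F t π (Y - 1)) : InGauss A0 M F t π Y := by
  have := inGauss_add hprime (inGauss_of_inPiGauss h) (inGauss_one hprime)
  rwa [sub_add_cancel] at this

/-- `Y ≠ 0` from `Y⁻¹ - 1 ∈ π O''`. -/
theorem ne_zero_of_inv_sub_one {t : M} {π : A0} (hprime : Prime (unif A0 M t π))
    (hic : IsIntegrallyClosed (chart A0 M t)) (hfr : IsFractionRing (chart A0 M t) M) {Y : F}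
    (h : InPiGauss A0 M F t π (Y⁻¹ - 1)) : Y ≠ 0 := by
  rintro rfl
  rw [inv_zero, zero_sub] at h
  have h1 := inPiGauss_mul_inGauss hprime h (inGauss_algebraMap (E := F) hprime (-1 : A0))
  rw [map_neg, map_one, neg_mul_neg, one_mul] at h1
  exact not_inPiGauss_one hprime hic hfr h1

/-- The finiteness instance needed to call L4. -/
theorem finiteDimensional_top [FiniteDimensional M F] (p : ℕ) (hp : 0 < p)
    (hdeg : Module.finrank F E = p) : FiniteDimensional M E := by
  have hfin : FiniteDimensional F E := Module.finite_of_finrank_pos (by rw [hdeg]; exact hp)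
  exact FiniteDimensional.trans M F E

/-- The separability instance needed to call L4. -/
theorem isSeparable_top [Algebra.IsSeparable M F] (p : ℕ) (Y : F) (θ : E) (hpF : (p : F) ≠ 0)
    (hY0 : Y ≠ 0) (hθ : θ ^ p = algebraMap F E Y) (hθgen : Algebra.adjoin F {θ} = ⊤) :
    Algebra.IsSeparable M E := by
  have h1 : Algebra.IsSeparable F E := isSeparable_kummer p Y θ hpF hY0 hθ hθgen
  exact Algebra.IsSeparable.trans M F E

/-- **The abstract Kummer core**, with the chart facts (L3) and the conclusion of the idempotent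
theorem (L4) as explicit hypotheses: `Y ≡ 1 mod π O''` on both charts is impossible for a Kummer
extension `E = F[θ]`, `θ ^ p = Y`, of degree `p` for which every element of `O''_E` that is
idempotent modulo `π` is congruent to a constant. -/
theorem false_of_kummer_of_const [FiniteDimensional M F] (π : A0) (t : M)
    (hprimef : Prime (unif A0 M t π)) (hicf : IsIntegrallyClosed (chart A0 M t))
    (hfrf : IsFractionRing (chart A0 M t) M)
    (hprimei : Prime (unif A0 M t⁻¹ π)) (hici : IsIntegrallyClosed (chart A0 M t⁻¹))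
    (hfri : IsFractionRing (chart A0 M t⁻¹) M)
    (p : ℕ) (hp : 2 ≤ p) (hpA : IsUnit (p : A0)) (Y : F) (θ : E)
    (hθ : θ ^ p = algebraMap F E Y) (hθgen : Algebra.adjoin F {θ} = ⊤)
    (hdeg : Module.finrank F E = p)
    (h2f : H2Hyp A0 M F t π) (h2i : H2Hyp A0 M F t⁻¹ π)
    (hYf : InPiGauss A0 M F t π (Y - 1)) (hYi : InPiGauss A0 M F t⁻¹ π (Y - 1))
    (hYf' : InPiGauss A0 M F t π (Y⁻¹ - 1)) (hYi' : InPiGauss A0 M F t⁻¹ π (Y⁻¹ - 1))
    (hL4 : H2Hyp A0 M E t π → H2Hyp A0 M E t⁻¹ π → ∀ e : E, InGauss A0 M E t π e →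
      InGauss A0 M E t⁻¹ π e → InPiGauss A0 M E t π (e * e - e) →
      InPiGauss A0 M E t⁻¹ π (e * e - e) → ∃ a : A0, InPiGauss A0 M E t π (e - algebraMap A0 E a)) :
    False := by
  have hp0 : 0 < p := by omega
  have hY0 : Y ≠ 0 := ne_zero_of_inv_sub_one M F hprimef hicf hfrf hYf'
  have hGf : InGauss A0 M F t π Y := inGauss_of_sub_one M F hprimef hYf
  have hGi : InGauss A0 M F t⁻¹ π Y := inGauss_of_sub_one M F hprimei hYi
  have hGf' : InGauss A0 M F t π Y⁻¹ := inGauss_of_sub_one M F hprimef hYf'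
  have hGi' : InGauss A0 M F t⁻¹ π Y⁻¹ := inGauss_of_sub_one M F hprimei hYi'
  obtain ⟨pu, hpu⟩ := id hpA
  have hc : (p : A0) * (↑pu⁻¹ : A0) = 1 := by rw [← hpu, Units.mul_inv]
  obtain ⟨a, ha⟩ := hL4
    (h2Hyp_kummer p Y θ hprimef hicf hfrf hp0 hpA hθ hθgen hdeg hY0 hGf hGf' h2f)
    (h2Hyp_kummer p Y θ hprimei hici hfri hp0 hpA hθ hθgen hdeg hY0 hGi hGi' h2i)
    (idem p θ (↑pu⁻¹ : A0))
    (inGauss_idem p Y θ hprimef hp0 hθ hGf _) (inGauss_idem p Y θ hprimei hp0 hθ hGi _)
    (inPiGauss_idem_sq p Y θ hprimef hp0 hθ hGf hYf _ hc)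
    (inPiGauss_idem_sq p Y θ hprimei hp0 hθ hGi hYi _ hc)
  exact not_inPiGauss_idem_sub p Y θ hprimef hicf hfrf hp hθ hθgen hdeg hY0 hGf hGf' _ hc a ha

end Core

end Fermat.Agent.S18.KummerLayer
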