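import Mathlib
import Fermat.Agent.S18.CoreDefs
import Fermat.Agent.S18.AdjoinChart
import Fermat.Agent.S18.ChartGlue
import Fermat.Agent.S18.IntConst
import Fermat.Agent.S18.KummerLayer
import Fermat.Agent.S18.Core

/-!
# S18, route K, core file L5: the abstract Kummer core

`false_of_kummer` is the contract between the CORE and the BRIDGE of S18 (route K).

`A0` a discrete valuation ring with uniformizer `π` (residue characteristic `ℓ`), `M = K0(t)` the
function field of the base line, `F / M` a finite separable extension, `E = F[θ]` with `θ ^ p = Y`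
of degree `p` (a prime invertible in `A0`).  If

* the special fibre of the integral closure of `A0[t^{±1}]` in `F` is generically étale (`H2Hyp`),
* the characteristic-zero fibres of the integral closure of `A0[t^{±1}]` in `E` are reduced
  outside non-colliding critical values (`H3Hyp`),
* `E` has no new constants (`hconst`),

then `Y ≡ 1` modulo `π` (on both charts, together with `Y⁻¹`) is impossible.
-/

set_option autoImplicit false

namespace Fermat.Agent.S18.KummerCore

open Fermat.Agent.S18.CoreDefs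

/-- **The abstract Kummer core theorem** (route K, L5). -/
theorem false_of_kummer {A0 : Type*} [CommRing A0] [IsDomain A0] [IsDiscreteValuationRing A0]
    (M : Type*) [Field M] [Algebra A0 M]
    (F : Type*) [Field F] [Algebra M F] [Algebra A0 F] [IsScalarTower A0 M F]
    [FiniteDimensional M F] [Algebra.IsSeparable M F]
    (E : Type*) [Field E] [Algebra F E] [Algebra M E] [Algebra A0 E] [IsScalarTower M F E]
    [IsScalarTower A0 M E] [IsScalarTower A0 F E]
    (π : A0) (hπ : Irreducible π) (hchar : ∀ n : ℕ, n ≠ 0 → ∃ a : ℕ, (n : A0) ∣ π ^ a)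
    (t : M) (ht : Transcendental A0 t)
    (hgen : ∀ m : M, ∃ a b : chart A0 M t, b ≠ 0 ∧ m * (b : M) = (a : M))
    (p : ℕ) (hp : p.Prime) (hpA : IsUnit (p : A0)) (Y : F) (θ : E)
    (hθ : θ ^ p = algebraMap F E Y) (hθgen : Algebra.adjoin F {θ} = ⊤)
    (hdeg : Module.finrank F E = p) (Critf Criti : Finset A0)
    (h2f : H2Hyp A0 M F t π) (h2i : H2Hyp A0 M F t⁻¹ π)
    (h3f : H3Hyp A0 M E t π Critf) (h3i : H3Hyp A0 M E t⁻¹ π Criti)
    (hYf : InPiGauss A0 M F t π (Y - 1)) (hYi : InPiGauss A0 M F t⁻¹ π (Y - 1))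
    (hYf' : InPiGauss A0 M F t π (Y⁻¹ - 1)) (hYi' : InPiGauss A0 M F t⁻¹ π (Y⁻¹ - 1))
    (hconst : ∀ h : E, IsIntegral A0 h → ∃ a : A0, h = algebraMap A0 E a) : False := by
  have ht0 : t ≠ 0 := by
    rintro rfl
    exact ht ⟨Polynomial.X, Polynomial.X_ne_zero, by simp⟩
  have hti : Transcendental A0 t⁻¹ := IntConst.transcendental_inv t ht
  have hgeni : ∀ m : M, ∃ a b : chart A0 M t⁻¹, b ≠ 0 ∧ m * (b : M) = (a : M) :=
    ChartGlue.hgen_inv t ht0 hgen
  have hprimef : Prime (unif A0 M t π) := AdjoinChart.prime_unif M t ht π hπ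
  have hprimei : Prime (unif A0 M t⁻¹ π) := AdjoinChart.prime_unif M t⁻¹ hti π hπ
  have hicf : IsIntegrallyClosed (chart A0 M t) := AdjoinChart.isIntegrallyClosed M t ht
  have hici : IsIntegrallyClosed (chart A0 M t⁻¹) := AdjoinChart.isIntegrallyClosed M t⁻¹ hti
  have hfrf : IsFractionRing (chart A0 M t) M := AdjoinChart.isFractionRing M t hgen
  have hfri : IsFractionRing (chart A0 M t⁻¹) M := AdjoinChart.isFractionRing M t⁻¹ hgeni
  have hY0 : Y ≠ 0 := KummerLayer.ne_zero_of_inv_sub_one M F hprimef hicf hfrf hYf'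
  have hpF : (p : F) ≠ 0 := by
    have h1 : IsUnit (algebraMap A0 F (p : A0)) := hpA.map _
    rw [map_natCast] at h1
    exact h1.ne_zero
  have : FiniteDimensional M E := KummerLayer.finiteDimensional_top M F E p hp.pos hdeg
  have : Algebra.IsSeparable M E := KummerLayer.isSeparable_top M F E p Y θ hpF hY0 hθ hθgen
  exact KummerLayer.false_of_kummer_of_const M F E π t hprimef hicf hfrf hprimei hici hfri p
    hp.two_le hpA Y θ hθ hθgen hdeg h2f h2i hYf hYi hYf' hYi'
    (fun h2f' h2i' e hef hei hidf hidi =>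
      Core.exists_const_of_idem M E π hπ hchar t ht hgen Critf Criti h2f' h2i' h3f h3i hconst e
        hef hei hidf hidi)

end Fermat.Agent.S18.KummerCore
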