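import Mathlib
import Fermat.Agent.S18.CoreDefs
import Fermat.Agent.S18.AdjoinChart
import Fermat.Agent.S18.ChartGlue
import Fermat.Agent.S18.IntConst
import Fermat.Agent.S18.KummerCore
import Fermat.Agent.S18.CoverBezout
import Fermat.Agent.S18.H2Layer
import Fermat.Agent.S18.BaseLineRel

/-!
# S18, route K: the cover form of the core contract

`KummerCore.false_of_kummer` on the base line `Mh = K0(h)` of a cover `F' = F(h)` of the
`j`-line, with all `π`-adic inputs given on the single chart `A0[j]` of the `j`-line: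

* `false_of_kummer_cover`: general form (relation `j * h ^ a = num(h)`, the layer step
  `H2Hyp A0 Mj F' j π` as a hypothesis);
* `false_of_kummer_cover3`: `ℓ = 3`, relation `j * h ^ 2 = (h + 256) ^ 3`;
* `false_of_kummer_cover2`: `ℓ = 2`, relation `j * h = (h + 27) * (h + 3) ^ 3`.
-/

set_option autoImplicit false

namespace Fermat.Agent.S18.CoverCore

open Polynomial Fermat.Agent.S18.CoreDefs

variable {A0 : Type*} [CommRing A0] [IsDomain A0] [IsDiscreteValuationRing A0]
  (Mj : Type*) [Field Mj] [Algebra A0 Mj]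
  (Mh : Type*) [Field Mh] [Algebra A0 Mh] [Algebra Mj Mh] [IsScalarTower A0 Mj Mh]
  (F' : Type*) [Field F'] [Algebra Mj F'] [Algebra Mh F'] [Algebra A0 F']
  [IsScalarTower A0 Mj F'] [IsScalarTower A0 Mh F'] [IsScalarTower Mj Mh F']
  [FiniteDimensional Mj F']
  (E : Type*) [Field E] [Algebra F' E] [Algebra Mh E] [Algebra A0 E] [IsScalarTower Mh F' E]
  [IsScalarTower A0 Mh E] [IsScalarTower A0 F' E]

/-- **Cover form of the core contract, general relation.** -/
theorem false_of_kummer_cover (π : A0) (hπ : Irreducible π)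
    (hchar : ∀ n : ℕ, n ≠ 0 → ∃ a : ℕ, (n : A0) ∣ π ^ a)
    (j : Mj) (hj : Transcendental A0 j)
    (hgenj : ∀ m : Mj, ∃ a b : chart A0 Mj j, b ≠ 0 ∧ m * (b : Mj) = (a : Mj))
    (h : Mh) (hgenh : ∀ m : Mh, ∃ a b : chart A0 Mh h, b ≠ 0 ∧ m * (b : Mh) = (a : Mh))
    (num : A0[X]) (hnum : num.Monic) (a : ℕ) (ha0 : 0 < a) (ha : a < num.natDegree)
    (h0 : IsUnit (num.coeff 0)) (hrel : algebraMap Mj Mh j * h ^ a = aeval h num)
    (p : ℕ) (hp : p.Prime) (hpA : IsUnit (p : A0)) (Y : F') (θ : E)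
    (hθ : θ ^ p = algebraMap F' E Y) (hθgen : Algebra.adjoin F' {θ} = ⊤)
    (hdeg : Module.finrank F' E = p) (Critf Criti : Finset A0)
    (h2 : H2Hyp A0 Mj F' j π)
    (h3f : H3Hyp A0 Mh E h π Critf) (h3i : H3Hyp A0 Mh E h⁻¹ π Criti)
    (hY : InPiGauss A0 Mj F' j π (Y - 1)) (hY' : InPiGauss A0 Mj F' j π (Y⁻¹ - 1))
    (hconst : ∀ x : E, IsIntegral A0 x → ∃ c : A0, x = algebraMap A0 E c) : False := by
  have hcz : CharZero A0 := by
    refine charZero_of_inj_zero fun n hn => ?_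
    by_contra hn0
    obtain ⟨a', ha'⟩ := hchar n hn0
    rw [hn, zero_dvd_iff] at ha'
    exact pow_ne_zero a' hπ.ne_zero ha'
  have hinjA : Function.Injective (algebraMap A0 Mj) := by
    have hinj := transcendental_iff_injective.mp hj
    intro x y hxy
    apply Polynomial.C_injective
    apply hinj
    rw [aeval_C, aeval_C, hxy]
  have hczj : CharZero Mj := charZero_of_injective_algebraMap hinjA
  have hczh : CharZero Mh := charZero_of_injective_algebraMap (algebraMap Mj Mh).injective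
  have hczF : CharZero F' := charZero_of_injective_algebraMap (algebraMap Mj F').injective
  have hh : Transcendental A0 h :=
    BaseLineRel.transcendental_root Mj Mh j hj h num a ha0 h0 hrel
  have hh0 : h ≠ 0 := fun h' => hh (h' ▸ isAlgebraic_zero)
  have hgenh' := ChartGlue.hgen_inv h hh0 hgenh
  have hfinMh : FiniteDimensional Mh F' := FiniteDimensional.right Mj Mh F'
  have hsep : Algebra.IsSeparable Mh F' := inferInstance
  have h2f : H2Hyp A0 Mh F' h π :=
    BaseLineRel.h2Hyp_of_rel Mj Mh F' j hj h π hπ num hnum a ha0 ha h0 hrel hgenj hgenh h2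
  have h2i : H2Hyp A0 Mh F' h⁻¹ π :=
    BaseLineRel.h2Hyp_inv_of_rel Mj Mh F' j hj h π hπ num hnum a ha0 ha h0 hrel hgenj hgenh' h2
  have hYf : InPiGauss A0 Mh F' h π (Y - 1) :=
    BaseLineRel.inPiGauss_of_rel Mj Mh F' j hj h π hπ num hnum a ha0 ha h0 hrel hgenj _ hY
  have hYi : InPiGauss A0 Mh F' h⁻¹ π (Y - 1) :=
    BaseLineRel.inPiGauss_inv_of_rel Mj Mh F' j hj h π hπ num hnum a ha0 ha h0 hrel hgenj _ hY
  have hYf' : InPiGauss A0 Mh F' h π (Y⁻¹ - 1) :=
    BaseLineRel.inPiGauss_of_rel Mj Mh F' j hj h π hπ num hnum a ha0 ha h0 hrel hgenj _ hY'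
  have hYi' : InPiGauss A0 Mh F' h⁻¹ π (Y⁻¹ - 1) :=
    BaseLineRel.inPiGauss_inv_of_rel Mj Mh F' j hj h π hπ num hnum a ha0 ha h0 hrel hgenj _ hY'
  exact KummerCore.false_of_kummer Mh F' E π hπ hchar h hh hgenh p hp hpA Y θ hθ hθgen hdeg
    Critf Criti h2f h2i h3f h3i hYf hYi hYf' hYi' hconst

variable (F : Type*) [Field F] [Algebra Mj F] [Algebra A0 F] [IsScalarTower A0 Mj F]
  [FiniteDimensional Mj F] [Algebra F F'] [IsScalarTower Mj F F'] [IsScalarTower A0 F F']

/-- **Cover form of the core contract, `ℓ = 3`**: `j * h ^ 2 = (h + 256) ^ 3`. -/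
theorem false_of_kummer_cover3 (π : A0) (hπ : Irreducible π)
    (hchar : ∀ n : ℕ, n ≠ 0 → ∃ a : ℕ, (n : A0) ∣ π ^ a) (h2u : IsUnit (2 : A0))
    (j : Mj) (hj : Transcendental A0 j)
    (hgenj : ∀ m : Mj, ∃ a b : chart A0 Mj j, b ≠ 0 ∧ m * (b : Mj) = (a : Mj))
    (h : Mh) (hgenh : ∀ m : Mh, ∃ a b : chart A0 Mh h, b ≠ 0 ∧ m * (b : Mh) = (a : Mh))
    (hrel : algebraMap Mj Mh j * h ^ 2 = (h + 256) ^ 3)
    (hgenF : Algebra.adjoin F {algebraMap Mh F' h} = ⊤)
    (p : ℕ) (hp : p.Prime) (hpA : IsUnit (p : A0)) (Y : F) (θ : E)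
    (hθ : θ ^ p = algebraMap F' E (algebraMap F F' Y)) (hθgen : Algebra.adjoin F' {θ} = ⊤)
    (hdeg : Module.finrank F' E = p) (Critf Criti : Finset A0)
    (h2 : H2Hyp A0 Mj F j π)
    (h3f : H3Hyp A0 Mh E h π Critf) (h3i : H3Hyp A0 Mh E h⁻¹ π Criti)
    (hY : InPiGauss A0 Mj F j π (Y - 1)) (hY' : InPiGauss A0 Mj F j π (Y⁻¹ - 1))
    (hconst : ∀ x : E, IsIntegral A0 x → ∃ c : A0, x = algebraMap A0 E c) : False := by
  have hcz : CharZero A0 := by
    refine charZero_of_inj_zero fun n hn => ?_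
    by_contra hn0
    obtain ⟨a', ha'⟩ := hchar n hn0
    rw [hn, zero_dvd_iff] at ha'
    exact pow_ne_zero a' hπ.ne_zero ha'
  have hinjA : Function.Injective (algebraMap A0 Mj) := by
    have hinj := transcendental_iff_injective.mp hj
    intro x y hxy
    apply Polynomial.C_injective
    apply hinj
    rw [aeval_C, aeval_C, hxy]
  have hczj : CharZero Mj := charZero_of_injective_algebraMap hinjA
  have hczF : CharZero F := charZero_of_injective_algebraMap (algebraMap Mj F).injective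
  have hfinFF' : FiniteDimensional F F' := FiniteDimensional.right Mj F F'
  have hsep : Algebra.IsSeparable F F' := inferInstance
  have hicj := AdjoinChart.isIntegrallyClosed Mj j hj
  have hfrj := AdjoinChart.isFractionRing Mj j hgenj
  have hπj := AdjoinChart.prime_unif Mj j hj π hπ
  have h0' : (algebraMap Mh F' h + 256) ^ 3 = algebraMap Mj F' j * algebraMap Mh F' h ^ 2 := by
    have h1 := congrArg (algebraMap Mh F') hrel
    simp only [map_mul, map_pow, map_add, map_ofNat] at h1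
    rw [← IsScalarTower.algebraMap_apply Mj Mh F' j] at h1
    exact h1.symm
  have h2F' : H2Hyp A0 Mj F' j π :=
    CoverBezout.h2Hyp_cover3 Mj F F' j hj π hicj hfrj hπj h2u (algebraMap Mh F' h) h0' hgenF h2
  have hYF := H2Layer.inPiGauss_map Mj F F' j π hY
  rw [map_sub, map_one] at hYF
  have hYF' := H2Layer.inPiGauss_map Mj F F' j π hY'
  rw [map_sub, map_one, map_inv₀] at hYF'
  exact false_of_kummer_cover Mj Mh F' E π hπ hchar j hj hgenj h hgenh (BaseLineRel.num3 A0)
    (BaseLineRel.monic_num3 A0) 2 (by norm_num) (by rw [BaseLineRel.natDegree_num3]; norm_num)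
    (BaseLineRel.isUnit_coeff_zero_num3 A0 h2u) (by rw [BaseLineRel.aeval_num3]; exact hrel) p hp hpA (algebraMap F F' Y) θ hθ hθgen hdeg
    Critf Criti h2F' h3f h3i hYF hYF' hconst

/-- **Cover form of the core contract, `ℓ = 2`**: `j * h = (h + 27) * (h + 3) ^ 3`. -/
theorem false_of_kummer_cover2 (π : A0) (hπ : Irreducible π)
    (hchar : ∀ n : ℕ, n ≠ 0 → ∃ a : ℕ, (n : A0) ∣ π ^ a) (h3u : IsUnit (3 : A0))
    (j : Mj) (hj : Transcendental A0 j)
    (hgenj : ∀ m : Mj, ∃ a b : chart A0 Mj j, b ≠ 0 ∧ m * (b : Mj) = (a : Mj))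
    (h : Mh) (hgenh : ∀ m : Mh, ∃ a b : chart A0 Mh h, b ≠ 0 ∧ m * (b : Mh) = (a : Mh))
    (hrel : algebraMap Mj Mh j * h = (h + 27) * (h + 3) ^ 3)
    (hgenF : Algebra.adjoin F {algebraMap Mh F' h} = ⊤)
    (p : ℕ) (hp : p.Prime) (hpA : IsUnit (p : A0)) (Y : F) (θ : E)
    (hθ : θ ^ p = algebraMap F' E (algebraMap F F' Y)) (hθgen : Algebra.adjoin F' {θ} = ⊤)
    (hdeg : Module.finrank F' E = p) (Critf Criti : Finset A0)
    (h2 : H2Hyp A0 Mj F j π)
    (h3f : H3Hyp A0 Mh E h π Critf) (h3i : H3Hyp A0 Mh E h⁻¹ π Criti)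
    (hY : InPiGauss A0 Mj F j π (Y - 1)) (hY' : InPiGauss A0 Mj F j π (Y⁻¹ - 1))
    (hconst : ∀ x : E, IsIntegral A0 x → ∃ c : A0, x = algebraMap A0 E c) : False := by
  have hcz : CharZero A0 := by
    refine charZero_of_inj_zero fun n hn => ?_
    by_contra hn0
    obtain ⟨a', ha'⟩ := hchar n hn0
    rw [hn, zero_dvd_iff] at ha'
    exact pow_ne_zero a' hπ.ne_zero ha'
  have hinjA : Function.Injective (algebraMap A0 Mj) := by
    have hinj := transcendental_iff_injective.mp hj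
    intro x y hxy
    apply Polynomial.C_injective
    apply hinj
    rw [aeval_C, aeval_C, hxy]
  have hczj : CharZero Mj := charZero_of_injective_algebraMap hinjA
  have hczF : CharZero F := charZero_of_injective_algebraMap (algebraMap Mj F).injective
  have hfinFF' : FiniteDimensional F F' := FiniteDimensional.right Mj F F'
  have hsep : Algebra.IsSeparable F F' := inferInstance
  have hicj := AdjoinChart.isIntegrallyClosed Mj j hj
  have hfrj := AdjoinChart.isFractionRing Mj j hgenj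
  have hπj := AdjoinChart.prime_unif Mj j hj π hπ
  have h0' : (algebraMap Mh F' h + 27) * (algebraMap Mh F' h + 3) ^ 3 = algebraMap Mj F' j * algebraMap Mh F' h := by
    have h1 := congrArg (algebraMap Mh F') hrel
    simp only [map_mul, map_pow, map_add, map_ofNat] at h1
    rw [← IsScalarTower.algebraMap_apply Mj Mh F' j] at h1
    exact h1.symm
  have h2F' : H2Hyp A0 Mj F' j π :=
    CoverBezout.h2Hyp_cover2 Mj F F' j hj π hicj hfrj hπj h3u (algebraMap Mh F' h) h0' hgenF h2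
  have hYF := H2Layer.inPiGauss_map Mj F F' j π hY
  rw [map_sub, map_one] at hYF
  have hYF' := H2Layer.inPiGauss_map Mj F F' j π hY'
  rw [map_sub, map_one, map_inv₀] at hYF'
  exact false_of_kummer_cover Mj Mh F' E π hπ hchar j hj hgenj h hgenh (BaseLineRel.num2 A0)
    (BaseLineRel.monic_num2 A0) 1 (by norm_num) (by rw [BaseLineRel.natDegree_num2]; norm_num)
    (BaseLineRel.isUnit_coeff_zero_num2 A0 h3u) (by rw [BaseLineRel.aeval_num2, pow_one]; exact hrel) p hp hpA (algebraMap F F' Y) θ hθ hθgen hdeg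
    Critf Criti h2F' h3f h3i hYF hYF' hconst

end Fermat.Agent.S18.CoverCore
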