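import Mathlib
import Fermat.Agent.S18.CoreDefs
import Fermat.Agent.S18.AdjoinChart

/-!
# S18, route K, the block `ℓ = 2, 3`: the concrete data of the two covers

For `ℓ = 3` the base line is the `X₀(2)`-line with Hauptmodul `h`, `j = (h + 256)³ / h²`; for
`ℓ = 2` it is the `X₀(3)`-line, `j = (h + 27)(h + 3)³ / h`.  The cover polynomials
`g3 j = (X + 256)³ - j X²` and `g2 j = (X + 27)(X + 3)³ - j X` are monic and satisfy Bezout
identities `a g + b g' = D` with `D = -2²⁵ j (j - 1728)` resp. `D = -3 j (j - 1728)`, which is a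
unit modulo `3` resp. `2` times `j²`.

Everything is generic in a commutative ring `R` and `j : R`; the chart form (`R = chart A0 M t`,
`j = coord A0 M t`) of the non-divisibility of `D` by the uniformizer is in the section `Chart`.
The last section derives, from a Bezout identity with unit `D`, the integrality of the
coefficients of the minimal polynomial of a root and the invertibility of its derivative at the
root.
-/

set_option autoImplicit false

open Polynomial

namespace Fermat.Agent.S18.CoverData

section Poly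

variable {R : Type*} [CommRing R] (j : R)

/-- The cover polynomial of the `X₀(2)`-line over the `j`-line (`ℓ = 3`). -/
noncomputable def g3 : R[X] := (X + C 256) ^ 3 - C j * X ^ 2

/-- Bezout cofactor of `g3`. -/
noncomputable def a3 : R[X] := C (3 * j - 4608) * X + C (-2 * j ^ 2 + 4608 * j - 2064384)

/-- Bezout cofactor of the derivative of `g3`. -/
noncomputable def b3 : R[X] :=
  C (1536 - j) * X ^ 2 + C (j ^ 2 - 2304 * j + 1081344) * X + C (176160768 - 98304 * j)

/-- The Bezout constant of `g3`: `-2²⁵ j (j - 1728)`. -/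
def D3 : R := -33554432 * j * (j - 1728)

/-- The cover polynomial of the `X₀(3)`-line over the `j`-line (`ℓ = 2`). -/
noncomputable def g2 : R[X] := (X + C 27) * (X + C 3) ^ 3 - C j * X

/-- Bezout cofactor of `g2`. -/
noncomputable def a2 : R[X] := C 16 * X ^ 2 + C 480 * X + C 3024

/-- Bezout cofactor of the derivative of `g2`. -/
noncomputable def b2 : R[X] :=
  C (-4) * X ^ 3 + C (-156) * X ^ 2 + C (-1404) * X + C (3 * (j - 972))

/-- The Bezout constant of `g2`: `-3 j (j - 1728)`. -/
def D2 : R := -3 * j * (j - 1728)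

theorem derivative_g3 : derivative (g3 j) = 3 * (X + C 256) ^ 2 - C j * (2 * X) := by
  simp only [g3, derivative_sub, derivative_pow, derivative_add, derivative_X, derivative_C,
    derivative_mul, mul_one, zero_mul, zero_add, Nat.cast_ofNat, map_ofNat]
  norm_num

theorem derivative_g2 :
    derivative (g2 j) = (X + C 3) ^ 3 + (X + C 27) * (3 * (X + C 3) ^ 2) - C j := by
  simp only [g2, derivative_sub, derivative_pow, derivative_add, derivative_X, derivative_C,
    derivative_mul, mul_one, zero_mul, zero_add, Nat.cast_ofNat, map_ofNat]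
  norm_num

/-- **Bezout identity for `g3`.** -/
theorem bezout3 : a3 j * g3 j + b3 j * derivative (g3 j) = C (D3 j) := by
  rw [derivative_g3]
  simp only [g3, a3, b3, D3, map_sub, map_mul, map_add, map_pow, map_neg, map_ofNat]
  ring

/-- **Bezout identity for `g2`.** -/
theorem bezout2 : (a2 : R[X]) * g2 j + b2 j * derivative (g2 j) = C (D2 j) := by
  rw [derivative_g2]
  simp only [g2, a2, b2, D2, map_sub, map_mul, map_neg, map_ofNat]
  ring

theorem natDegree_g3 [Nontrivial R] : (g3 j).natDegree = 3 := by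
  have h1 : ((X + C (256 : R)) ^ 3).natDegree = 3 := natDegree_pow_X_add_C 3 256
  have h2 : (C j * X ^ 2 : R[X]).natDegree < ((X + C (256 : R)) ^ 3).natDegree := by
    rw [h1]
    exact lt_of_le_of_lt (natDegree_C_mul_X_pow_le j 2) (by norm_num)
  rw [g3, natDegree_sub_eq_left_of_natDegree_lt h2, h1]

theorem monic_g3 : (g3 j).Monic := by
  rcases subsingleton_or_nontrivial R with h | h
  · exact Subsingleton.elim _ _
  · have h1 : ((X + C (256 : R)) ^ 3).natDegree = 3 := natDegree_pow_X_add_C 3 256
    have h2 : (C j * X ^ 2 : R[X]).natDegree < ((X + C (256 : R)) ^ 3).natDegree := by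
      rw [h1]
      exact lt_of_le_of_lt (natDegree_C_mul_X_pow_le j 2) (by norm_num)
    exact ((monic_X_add_C (256 : R)).pow 3).sub_of_left (degree_lt_degree h2)

theorem natDegree_g2_aux [Nontrivial R] :
    ((X + C (27 : R)) * (X + C 3) ^ 3).natDegree = 4 := by
  rw [(monic_X_add_C (27 : R)).natDegree_mul ((monic_X_add_C (3 : R)).pow 3),
    natDegree_X_add_C, natDegree_pow_X_add_C]

theorem natDegree_g2 [Nontrivial R] : (g2 j).natDegree = 4 := by
  have h2 : (C j * X : R[X]).natDegree < ((X + C (27 : R)) * (X + C 3) ^ 3).natDegree := by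
    rw [natDegree_g2_aux]
    exact lt_of_le_of_lt ((natDegree_C_mul_le j X).trans natDegree_X_le) (by norm_num)
  rw [g2, natDegree_sub_eq_left_of_natDegree_lt h2, natDegree_g2_aux]

theorem monic_g2 : (g2 j).Monic := by
  rcases subsingleton_or_nontrivial R with h | h
  · exact Subsingleton.elim _ _
  · have hm : ((X + C (27 : R)) * (X + C 3) ^ 3).Monic :=
      (monic_X_add_C (27 : R)).mul ((monic_X_add_C (3 : R)).pow 3)
    have h2 : (C j * X : R[X]).natDegree < ((X + C (27 : R)) * (X + C 3) ^ 3).natDegree := by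
      rw [natDegree_g2_aux]
      exact lt_of_le_of_lt ((natDegree_C_mul_le j X).trans natDegree_X_le) (by norm_num)
    exact hm.sub_of_left (degree_lt_degree h2)

variable {S : Type*} [CommRing S] [Algebra R S]

theorem aeval_g3 (h : S) :
    aeval h (g3 j) = (h + 256) ^ 3 - algebraMap R S j * h ^ 2 := by
  simp only [g3, map_sub, map_mul, map_add, map_pow, aeval_X, aeval_C, map_ofNat]

theorem aeval_g2 (h : S) :
    aeval h (g2 j) = (h + 27) * (h + 3) ^ 3 - algebraMap R S j * h := by
  simp only [g2, map_sub, map_mul, map_add, map_pow, aeval_X, aeval_C, map_ofNat]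

/-- `h` is a root of `g3 j` iff `j h² = (h + 256)³`. -/
theorem aeval_g3_eq_zero_iff (h : S) :
    aeval h (g3 j) = 0 ↔ algebraMap R S j * h ^ 2 = (h + 256) ^ 3 := by
  rw [aeval_g3, sub_eq_zero, eq_comm]

/-- `h` is a root of `g2 j` iff `j h = (h + 27)(h + 3)³`. -/
theorem aeval_g2_eq_zero_iff (h : S) :
    aeval h (g2 j) = 0 ↔ algebraMap R S j * h = (h + 27) * (h + 3) ^ 3 := by
  rw [aeval_g2, sub_eq_zero, eq_comm]

omit [Algebra R S] in
theorem map_g3 (f : R →+* S) : (g3 j).map f = g3 (f j) := by
  simp only [g3, Polynomial.map_sub, Polynomial.map_mul, Polynomial.map_add, Polynomial.map_pow,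
    map_X, map_C, map_ofNat, Polynomial.map_ofNat]

omit [Algebra R S] in
theorem map_g2 (f : R →+* S) : (g2 j).map f = g2 (f j) := by
  simp only [g2, Polynomial.map_sub, Polynomial.map_mul, Polynomial.map_add, Polynomial.map_pow,
    map_X, map_C, map_ofNat, Polynomial.map_ofNat]

omit [Algebra R S] in
theorem isUnit_D3 (h2 : IsUnit (2 : R)) (hj : IsUnit j) (hj' : IsUnit (j - 1728)) :
    IsUnit (D3 j) := by
  have h : (-33554432 : R) = -(2 ^ 25) := by norm_num
  rw [D3, h]
  exact (((h2.pow 25).neg).mul hj).mul hj'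

omit [Algebra R S] in
theorem isUnit_D2 (h3 : IsUnit (3 : R)) (hj : IsUnit j) (hj' : IsUnit (j - 1728)) :
    IsUnit (D2 j) := by
  rw [D2]
  exact ((h3.neg).mul hj).mul hj'

end Poly

/-! ### The chart form: `π ∤ D` in `A0[t]` -/

section Chart

open Fermat.Agent.S18.CoreDefs

variable {A0 : Type*} [CommRing A0] (M : Type*) [Field M] [Algebra A0 M]

/-- `C π` does not divide `u X (X - c)` for a unit `u`. -/
theorem not_C_dvd_aux (π : A0) (hπ : ¬ IsUnit π) (u c : A0) (hu : IsUnit u) :
    ¬ C π ∣ C u * (X * (X - C c)) := by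
  intro h
  rw [C_dvd_iff_dvd_coeff] at h
  have h2 := h 2
  have hc : (C u * (X * (X - C c))).coeff 2 = u := by
    rw [coeff_C_mul, coeff_X_mul, coeff_sub, coeff_X_one, coeff_C]
    simp
  rw [hc] at h2
  exact hπ (isUnit_of_dvd_unit h2 hu)

/-- `π ∤ D3` in the chart `A0[t]` (residue characteristic `≠ 2`). -/
theorem not_unif_dvd_D3 (t : M) (ht : Transcendental A0 t) (π : A0) (hπ : ¬ IsUnit π)
    (h2 : IsUnit (2 : A0)) : ¬ unif A0 M t π ∣ D3 (coord A0 M t) := by
  have hD : D3 (coord A0 M t) =
      AdjoinChart.chartEquiv M t ht (C (-33554432 : A0) * (X * (X - C 1728))) := by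
    rw [map_mul, map_mul, AdjoinChart.chartEquiv_X_sub_C, AdjoinChart.chartEquiv_X,
      AdjoinChart.chartEquiv_C, D3]
    simp only [map_neg, map_ofNat]
    ring
  rw [hD, ← AdjoinChart.chartEquiv_C_unif M t ht π]
  intro h
  have h' := (map_dvd_iff (AdjoinChart.chartEquiv M t ht)).mp h
  have hu : IsUnit (-33554432 : A0) := by
    have h : (-33554432 : A0) = -(2 ^ 25) := by norm_num
    rw [h]
    exact (h2.pow 25).neg
  exact not_C_dvd_aux π hπ _ 1728 hu h'

/-- `π ∤ D2` in the chart `A0[t]` (residue characteristic `≠ 3`). -/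
theorem not_unif_dvd_D2 (t : M) (ht : Transcendental A0 t) (π : A0) (hπ : ¬ IsUnit π)
    (h3 : IsUnit (3 : A0)) : ¬ unif A0 M t π ∣ D2 (coord A0 M t) := by
  have hD : D2 (coord A0 M t) =
      AdjoinChart.chartEquiv M t ht (C (-3 : A0) * (X * (X - C 1728))) := by
    rw [map_mul, map_mul, AdjoinChart.chartEquiv_X_sub_C, AdjoinChart.chartEquiv_X,
      AdjoinChart.chartEquiv_C, D2]
    simp only [map_neg, map_ofNat]
    ring
  rw [hD, ← AdjoinChart.chartEquiv_C_unif M t ht π]
  intro h
  have h' := (map_dvd_iff (AdjoinChart.chartEquiv M t ht)).mp h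
  exact not_C_dvd_aux π hπ _ 1728 h3.neg h'

end Chart

/-! ### From a Bezout identity to the unit derivative of the minimal polynomial -/

section Unit

variable {R : Type*} [CommRing R] {F : Type*} [Field F] [Algebra R F]
  {F' : Type*} [Field F'] [Algebra F F'] [Algebra R F'] [IsScalarTower R F F']

omit [Algebra F F'] [Algebra R F'] [IsScalarTower R F F'] in
/-- The coefficients of a monic factor over `F` of a monic polynomial over `R` are integral. -/
theorem isIntegral_coeff_of_monic_dvd {g : R[X]} (hg : g.Monic) {m : F[X]} (hm : m.Monic)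
    (hd : m ∣ g.map (algebraMap R F)) (i : ℕ) : IsIntegral R (m.coeff i) := by
  have h := integralClosure.mem_lifts_of_monic_of_dvd_map F hg hm hd
  rw [Polynomial.lifts_iff_coeff_lifts] at h
  obtain ⟨c, hc⟩ := h i
  rw [← hc]
  exact c.2

/-- A polynomial over `F` with integral coefficients takes integral values at integral points. -/
theorem isIntegral_aeval_of_isIntegral_coeff {m : F[X]} (hm : ∀ i, IsIntegral R (m.coeff i))
    {θ : F'} (hθ : IsIntegral R θ) : IsIntegral R (aeval θ m) := by
  rw [aeval_eq_sum_range]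
  refine IsIntegral.sum _ fun i _ => ?_
  rw [Algebra.smul_def]
  exact ((hm i).map (IsScalarTower.toAlgHom R F F')).mul (hθ.pow i)

/-- **(hint)**: the coefficients of the minimal polynomial over `F` of a root of a monic
polynomial over `R` are integral over `R`. -/
theorem isIntegral_coeff_minpoly_of_root (g : R[X]) (hg : g.Monic) (h : F')
    (h0 : aeval h g = 0) (n : ℕ) : IsIntegral R ((minpoly F h).coeff n) := by
  have hθ : IsIntegral R h := ⟨g, hg, by rwa [← aeval_def]⟩
  refine isIntegral_coeff_of_monic_dvd hg (minpoly.monic hθ.tower_top) ?_ n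
  exact minpoly.dvd F h (by rw [aeval_map_algebraMap]; exact h0)

/-- **(hunit)**: if `h` is a root of a monic `g ∈ R[X]` with `a g + b g' = D`, `D` a unit of `R`,
then the derivative of the minimal polynomial of `h` over `F`, evaluated at `h`, has an inverse
which is integral over `R`. -/
theorem exists_mul_derivative_minpoly_eq_one (g a b : R[X]) (hg : g.Monic) (D : R)
    (hD : IsUnit D) (hbez : a * g + b * derivative g = C D) (h : F') (h0 : aeval h g = 0) :
    ∃ u : F', IsIntegral R u ∧ u * aeval h (derivative (minpoly F h)) = 1 := by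
  have hθ : IsIntegral R h := ⟨g, hg, by rwa [← aeval_def]⟩
  have hθF : IsIntegral F h := hθ.tower_top
  have hdvd : minpoly F h ∣ g.map (algebraMap R F) :=
    minpoly.dvd F h (by rw [aeval_map_algebraMap]; exact h0)
  obtain ⟨g2, hg2⟩ := hdvd
  have hg2m : g2.Monic := by
    have hmm : (minpoly F h * g2).Monic := by rw [← hg2]; exact hg.map _
    exact (minpoly.monic hθF).of_mul_monic_left hmm
  have hg2c : ∀ i, IsIntegral R (g2.coeff i) :=
    fun i => isIntegral_coeff_of_monic_dvd hg hg2m ⟨minpoly F h, by rw [hg2, mul_comm]⟩ i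
  have hbθ : IsIntegral R (aeval h b) := by
    have := (integralClosure R F').aeval_coe ⟨h, hθ⟩ b
    rw [show ((⟨h, hθ⟩ : integralClosure R F') : F') = h from rfl] at this
    rw [this]
    exact (aeval (⟨h, hθ⟩ : integralClosure R F') b).2
  obtain ⟨D', hD'⟩ := hD.exists_left_inv
  refine ⟨algebraMap R F' D' * (aeval h b * aeval h g2),
    isIntegral_algebraMap.mul (hbθ.mul (isIntegral_aeval_of_isIntegral_coeff hg2c hθ)), ?_⟩
  have hder : aeval h (derivative g) = aeval h (derivative (minpoly F h)) * aeval h g2 := by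
    have h1 : aeval h (derivative (g.map (algebraMap R F))) = aeval h (derivative g) := by
      rw [derivative_map, aeval_map_algebraMap]
    rw [← h1, hg2, derivative_mul, map_add, map_mul, map_mul, minpoly.aeval, zero_mul, add_zero]
  have hb := congrArg (aeval h) hbez
  rw [map_add, map_mul, map_mul, h0, mul_zero, zero_add, aeval_C, hder] at hb
  calc algebraMap R F' D' * (aeval h b * aeval h g2) * aeval h (derivative (minpoly F h))
      = algebraMap R F' D' * (aeval h b * (aeval h (derivative (minpoly F h)) * aeval h g2)) := by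
        ring
    _ = algebraMap R F' D' * algebraMap R F' D := by rw [hb]
    _ = 1 := by rw [← map_mul, hD', map_one]

/-- `hint` and `hunit` for a root of `g3 j` (`ℓ = 3`). -/
theorem hint_hunit_g3 (j : R) (hD : IsUnit (D3 j)) (h : F') (h0 : aeval h (g3 j) = 0) :
    (∀ n : ℕ, IsIntegral R ((minpoly F h).coeff n)) ∧
      ∃ u : F', IsIntegral R u ∧ u * aeval h (derivative (minpoly F h)) = 1 :=
  ⟨isIntegral_coeff_minpoly_of_root (g3 j) (monic_g3 j) h h0,
    exists_mul_derivative_minpoly_eq_one (g3 j) (a3 j) (b3 j) (monic_g3 j) (D3 j) hD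
      (bezout3 j) h h0⟩

/-- `hint` and `hunit` for a root of `g2 j` (`ℓ = 2`). -/
theorem hint_hunit_g2 (j : R) (hD : IsUnit (D2 j)) (h : F') (h0 : aeval h (g2 j) = 0) :
    (∀ n : ℕ, IsIntegral R ((minpoly F h).coeff n)) ∧
      ∃ u : F', IsIntegral R u ∧ u * aeval h (derivative (minpoly F h)) = 1 :=
  ⟨isIntegral_coeff_minpoly_of_root (g2 j) (monic_g2 j) h h0,
    exists_mul_derivative_minpoly_eq_one (g2 j) a2 (b2 j) (monic_g2 j) (D2 j) hD
      (bezout2 j) h h0⟩

end Unit

end Fermat.Agent.S18.CoverData
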