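/-
S18 (route K, bridge leaf G5 of the contract): norm descent of `p`-th powers.

* `exists_pow_eq_of_finrank_coprime`: if `F'/F` is a finite field extension of degree prime
  to `p` and `Y : F` becomes a `p`-th power in `F'`, then `Y` is a `p`-th power in `F`
  (norm + Bezout).
* `exists_pow_eq_of_adjoinRoot`: the same for `F' = AdjoinRoot g1`, `g1` irreducible of degree
  prime to `p`.
* `exists_irreducible_factor_natDegree`: a monic cubic has a monic irreducible factor of degree
  `1` or `3`; a monic quartic has one of degree `1`, `2` or `4`.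
* `exists_irreducible_factor_not_dvd`: a monic polynomial whose degree is not divisible by `p`
  has a monic irreducible factor whose degree is not divisible by `p`.

Mathlib only.
-/
import Mathlib

set_option autoImplicit false

namespace Fermat.Agent.S18.NormDescent

open Polynomial

/-- **Norm descent.** If `[F' : F]` is finite and prime to `p`, an element of `F` which is a
`p`-th power in `F'` is a `p`-th power in `F`. -/
theorem exists_pow_eq_of_finrank_coprime {F F' : Type*} [Field F] [Field F'] [Algebra F F']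
    [FiniteDimensional F F'] (p : ℕ) (hcop : (Module.finrank F F').Coprime p) (Y : F)
    (h : ∃ z : F', z ^ p = algebraMap F F' Y) : ∃ b : F, b ^ p = Y := by
  obtain ⟨z, hz⟩ := h
  by_cases hY : Y = 0
  · subst hY
    refine ⟨0, zero_pow ?_⟩
    rintro rfl
    rw [pow_zero, map_zero] at hz
    exact one_ne_zero hz
  · have hN : (Algebra.norm F z) ^ p = Y ^ Module.finrank F F' := by
      rw [← map_pow, hz, Algebra.norm_algebraMap]
    have hco : IsCoprime (Module.finrank F F' : ℤ) (p : ℤ) := Nat.isCoprime_iff_coprime.mpr hcop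
    obtain ⟨a, b, hab⟩ := hco
    refine ⟨(Algebra.norm F z) ^ a * Y ^ b, ?_⟩
    have h1 : ((Algebra.norm F z) ^ a) ^ p = Y ^ ((Module.finrank F F' : ℤ) * a) := by
      rw [← zpow_natCast ((Algebra.norm F z) ^ a) p, ← zpow_mul, mul_comm a (p : ℤ), zpow_mul,
        zpow_natCast, hN, ← zpow_natCast Y (Module.finrank F F'), ← zpow_mul]
    have h2 : (Y ^ b) ^ p = Y ^ (b * (p : ℤ)) := by
      rw [← zpow_natCast (Y ^ b) p, ← zpow_mul]
    rw [mul_pow, h1, h2, ← zpow_add₀ hY]
    have : (Module.finrank F F' : ℤ) * a + b * (p : ℤ) = 1 := by linarith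
    rw [this, zpow_one]

/-- Norm descent through `AdjoinRoot g1` (contract shape; `hp` and `CharZero` are not needed
but kept so that the signature is the one of the contract). -/
theorem exists_pow_eq_of_adjoinRoot {FL : Type*} [Field FL] [CharZero FL] (g1 : Polynomial FL)
    [Fact (Irreducible g1)] (p : ℕ) (hp : p.Prime) (hd : Nat.Coprime g1.natDegree p) (Y : FL)
    (h : ∃ s : AdjoinRoot g1, s ^ p = algebraMap FL (AdjoinRoot g1) Y) : ∃ s : FL, s ^ p = Y := by
  have _hp := hp
  have hg0 : g1 ≠ 0 := (Fact.out : Irreducible g1).ne_zero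
  have : FiniteDimensional FL (AdjoinRoot g1) := (AdjoinRoot.powerBasis hg0).finite
  have hfin : Module.finrank FL (AdjoinRoot g1) = g1.natDegree := by
    rw [PowerBasis.finrank (AdjoinRoot.powerBasis hg0), AdjoinRoot.powerBasis_dim hg0]
  exact exists_pow_eq_of_finrank_coprime p (by rw [hfin]; exact hd) Y h

/-- A monic polynomial of positive degree over a field splits off a monic irreducible factor
with monic cofactor. -/
theorem exists_monic_irreducible_mul {FL : Type*} [Field FL] (g : Polynomial FL) (hg : g.Monic)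
    (hpos : 0 < g.natDegree) :
    ∃ g1 q : Polynomial FL, g1.Monic ∧ Irreducible g1 ∧ q.Monic ∧ g = g1 * q ∧
      g1.natDegree + q.natDegree = g.natDegree ∧ 0 < g1.natDegree := by
  have hu : ¬ IsUnit g := by
    intro hu
    rw [hg.isUnit_iff] at hu
    rw [hu, natDegree_one] at hpos
    exact lt_irrefl _ hpos
  obtain ⟨g1, hg1, hirr, q, hq⟩ := Polynomial.exists_monic_irreducible_factor g hu
  have hqm : q.Monic := hg1.of_mul_monic_left (hq ▸ hg)
  refine ⟨g1, q, hg1, hirr, hqm, hq, ?_, hirr.natDegree_pos⟩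
  rw [hq, hg1.natDegree_mul hqm]

/-- A monic cubic has a monic irreducible factor of degree `1` or `3`; a monic quartic has a
monic irreducible factor of degree `1`, `2` or `4` (contract shape). -/
theorem exists_irreducible_factor_natDegree {FL : Type*} [Field FL] (g : Polynomial FL)
    (hg : g.Monic) :
    (g.natDegree = 3 → ∃ g1 : Polynomial FL, Irreducible g1 ∧ g1.Monic ∧ g1 ∣ g ∧
      (g1.natDegree = 1 ∨ g1.natDegree = 3)) ∧
    (g.natDegree = 4 → ∃ g1 : Polynomial FL, Irreducible g1 ∧ g1.Monic ∧ g1 ∣ g ∧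
      (g1.natDegree = 1 ∨ g1.natDegree = 2 ∨ g1.natDegree = 4)) := by
  have hlin : ∀ q : Polynomial FL, q.Monic → q.natDegree = 1 → Irreducible q := by
    intro q hq hq1
    refine Polynomial.irreducible_of_degree_eq_one ?_
    rw [Polynomial.degree_eq_natDegree hq.ne_zero, hq1]
    rfl
  constructor
  · intro h3
    obtain ⟨g1, q, hg1, hirr, hq, hgq, hdeg, hpos⟩ :=
      exists_monic_irreducible_mul g hg (by rw [h3]; norm_num)
    by_cases h2 : g1.natDegree = 2
    · have hq1 : q.natDegree = 1 := by omega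
      exact ⟨q, hlin q hq hq1, hq, ⟨g1, by rw [hgq, mul_comm]⟩, Or.inl hq1⟩
    · exact ⟨g1, hirr, hg1, ⟨q, hgq⟩, by omega⟩
  · intro h4
    obtain ⟨g1, q, hg1, hirr, hq, hgq, hdeg, hpos⟩ :=
      exists_monic_irreducible_mul g hg (by rw [h4]; norm_num)
    by_cases h3 : g1.natDegree = 3
    · have hq1 : q.natDegree = 1 := by omega
      exact ⟨q, hlin q hq hq1, hq, ⟨g1, by rw [hgq, mul_comm]⟩, Or.inl hq1⟩
    · exact ⟨g1, hirr, hg1, ⟨q, hgq⟩, by omega⟩

/-- A monic polynomial whose degree is not divisible by `p` has a monic irreducible factor whose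
degree is not divisible by `p`. -/
theorem exists_irreducible_factor_not_dvd {FL : Type*} [Field FL] (p : ℕ) :
    ∀ (n : ℕ) (g : Polynomial FL), g.Monic → g.natDegree = n → ¬ p ∣ g.natDegree →
      ∃ g1 : Polynomial FL, Irreducible g1 ∧ g1.Monic ∧ g1 ∣ g ∧ ¬ p ∣ g1.natDegree := by
  intro n
  induction n using Nat.strong_induction_on with
  | _ n ih =>
    intro g hg hn hp
    have hpos : 0 < g.natDegree := by
      rcases Nat.eq_zero_or_pos g.natDegree with h0 | h0
      · exact absurd (h0 ▸ dvd_zero p) hp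
      · exact h0
    obtain ⟨g1, q, hg1, hirr, hq, hgq, hdeg, hpos1⟩ := exists_monic_irreducible_mul g hg hpos
    by_cases h1 : p ∣ g1.natDegree
    · have hq' : ¬ p ∣ q.natDegree := by
        intro hq'
        exact hp (hdeg ▸ dvd_add h1 hq')
      obtain ⟨g2, hirr2, hg2, hdvd2, hnd2⟩ := ih q.natDegree (by omega) q hq rfl hq'
      exact ⟨g2, hirr2, hg2, hdvd2.trans ⟨g1, by rw [hgq, mul_comm]⟩, hnd2⟩
    · exact ⟨g1, hirr, hg1, ⟨q, hgq⟩, h1⟩

/-- Combination used by the `ℓ = 2, 3` block: if `g` is monic and `p ∤ deg g`, there is a monic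
irreducible factor `g1` of `g`, of degree prime to `p`, such that every `Y` which is a `p`-th
power in `AdjoinRoot g1` is a `p`-th power in the base field. -/
theorem exists_irreducible_factor_descent {FL : Type*} [Field FL] (g : Polynomial FL)
    (hg : g.Monic) (p : ℕ) (hp : p.Prime) (hpg : ¬ p ∣ g.natDegree) :
    ∃ g1 : Polynomial FL, Irreducible g1 ∧ g1.Monic ∧ g1 ∣ g ∧ Nat.Coprime g1.natDegree p ∧
      ∀ (_ : Fact (Irreducible g1)) (Y : FL),
        (∃ s : AdjoinRoot g1, s ^ p = algebraMap FL (AdjoinRoot g1) Y) → ∃ s : FL, s ^ p = Y := by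
  obtain ⟨g1, hirr, hg1, hdvd, hnd⟩ := exists_irreducible_factor_not_dvd p g.natDegree g hg rfl hpg
  have hcop : Nat.Coprime g1.natDegree p := ((Nat.Prime.coprime_iff_not_dvd hp).mpr hnd).symm
  refine ⟨g1, hirr, hg1, hdvd, hcop, ?_⟩
  intro hfact Y h
  obtain ⟨z, hz⟩ := h
  by_cases hY : Y = 0
  · exact ⟨0, by rw [hY, zero_pow hp.ne_zero]⟩
  · have hg0 : g1 ≠ 0 := hirr.ne_zero
    have : FiniteDimensional FL (AdjoinRoot g1) := (AdjoinRoot.powerBasis hg0).finite
    have hfin : Module.finrank FL (AdjoinRoot g1) = g1.natDegree := by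
      rw [PowerBasis.finrank (AdjoinRoot.powerBasis hg0), AdjoinRoot.powerBasis_dim hg0]
    exact exists_pow_eq_of_finrank_coprime p (by rw [hfin]; exact hcop) Y ⟨z, hz⟩

end Fermat.Agent.S18.NormDescent
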