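import Mathlib
import Fermat.Agent.S18.FieldDef
import Fermat.Agent.S18.FieldDefQ
import Fermat.Agent.S18.S24Export
import Fermat.Agent.S18.CoverField
import Fermat.Agent.S18.NormDescent

/-!
# S18, route K, the `ℓ = 2, 3` block: the base number field of the cover

For `ℓ ∈ {2, 3}` the core theorem is applied to `F# = F_{K0}[X]/(m0)`, where `m0` is a monic
irreducible factor of the cover polynomial `g = Nn(X) - j * Dd(X)`.  The factor is chosen over
the geometric function field `FL N` (so that `Y` stays a non-`p`-th power and the constants of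
`F#` do not grow), hence the number field `K0` must contain a field of definition `Kb` of its
coefficients.  `Kb` has to be fixed *before* `K0` is introduced (`Descent.KummerK0 A N p Kb`).

* `exists_definedOver_finset` : finitely many elements of `FL N` are defined over one finite
  extension of `ℚ`;
* `exists_definedOver_coeff` : so are the coefficients of a polynomial over `FL N`;
* `exists_base_field` : one finite `Kb` works for *all* monic irreducible factors of a nonzero
  `G : (FL N)[X]`;
* `exists_map_eq_of_le` : descent of such a factor to `(F_{K0})[X]` for every `K0 ⊇ Kb` and every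
  realisation `ι : F_{K0} →+* FL N` of the coefficient extension;
* `exists_cover_field` : the combination with `NormDescent.exists_irreducible_factor_descent`
  used by the top theorem for `ℓ = 2, 3`.
-/

set_option autoImplicit false
set_option synthInstance.maxHeartbeats 400000
set_option linter.style.haveILetI false

noncomputable section

open Polynomial ModularCurve

namespace Fermat.Agent.S18.CoverBase

local notation "Qb" => AlgebraicClosure ℚ

variable (N : ℕ) [NeZero N]

/-- Finitely many elements of the geometric function field are defined over one finite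
extension of `ℚ`. -/
theorem exists_definedOver_finset (S : Finset (S24Export.FL N)) :
    ∃ Kb : IntermediateField ℚ Qb, FiniteDimensional ℚ Kb ∧
      ∀ x ∈ S, FieldDef.DefinedOver N Kb ((x : S24Export.FL N) : LaurentSeries Qb) := by
  classical
  induction S using Finset.induction_on with
  | empty => exact ⟨⊥, inferInstance, fun x hx => absurd hx (Finset.notMem_empty x)⟩
  | insert a S _ ih =>
    obtain ⟨K1, hK1, h1⟩ := ih
    have hle : ∀ x : LaurentSeries Qb, x ∈ S24Export.FL N → x ∈ modularFunctionFieldFullC Qb N :=
      fun x hx => by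
        rw [← FieldDefQ.FL_eq N]
        exact hx
    have hmem : ((a : S24Export.FL N) : LaurentSeries Qb) ∈ modularFunctionFieldFullC Qb N :=
      hle _ a.2
    haveI : Algebra.IsAlgebraic ℚ Qb := AlgebraicClosure.isAlgebraic ℚ
    obtain ⟨K2, hK2, h2⟩ := FieldDef.exists_finite_subfield hmem
    refine ⟨K1 ⊔ K2, IntermediateField.finiteDimensional_sup K1 K2, fun x hx => ?_⟩
    rcases Finset.mem_insert.mp hx with rfl | hx
    · exact h2.mono le_sup_right
    · exact (h1 x hx).mono le_sup_left

omit [NeZero N] in
theorem definedOver_zero (K : IntermediateField ℚ Qb) :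
    FieldDef.DefinedOver N K (0 : LaurentSeries Qb) :=
  ⟨0, zero_mem _, map_zero _⟩

/-- The coefficients of a polynomial over the geometric function field are defined over one
finite extension of `ℚ`. -/
theorem exists_definedOver_coeff (m : (S24Export.FL N)[X]) :
    ∃ Kb : IntermediateField ℚ Qb, FiniteDimensional ℚ Kb ∧
      ∀ i, FieldDef.DefinedOver N Kb ((m.coeff i : S24Export.FL N) : LaurentSeries Qb) := by
  classical
  obtain ⟨Kb, hKb, h⟩ := exists_definedOver_finset N m.coeffs
  refine ⟨Kb, hKb, fun i => ?_⟩
  by_cases hi : m.coeff i = 0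
  · rw [hi]
    exact definedOver_zero N Kb
  · exact h _ (Polynomial.coeff_mem_coeffs hi)

/-- **The base field.** One finite extension `Kb` of `ℚ` over which all monic irreducible
factors of `G` have their coefficients defined. -/
theorem exists_base_field (G : (S24Export.FL N)[X]) (hG : G ≠ 0) :
    ∃ Kb : IntermediateField ℚ Qb, FiniteDimensional ℚ Kb ∧
      ∀ m : (S24Export.FL N)[X], m.Monic → Irreducible m → m ∣ G →
        ∀ i, FieldDef.DefinedOver N Kb ((m.coeff i : S24Export.FL N) : LaurentSeries Qb) := by
  classical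
  obtain ⟨Kb, hKb, h⟩ := exists_definedOver_finset N
    ((UniqueFactorizationMonoid.normalizedFactors G).toFinset.biUnion fun m => m.coeffs)
  refine ⟨Kb, hKb, fun m hm hirr hdvd i => ?_⟩
  by_cases hi : m.coeff i = 0
  · rw [hi]
    exact definedOver_zero N Kb
  · apply h
    rw [Finset.mem_biUnion]
    refine ⟨m, ?_, Polynomial.coeff_mem_coeffs hi⟩
    rw [Multiset.mem_toFinset]
    exact (UniqueFactorizationMonoid.mem_normalizedFactors_iff' hG).mpr
      ⟨hirr, hm.normalize_eq_self, hdvd⟩

variable {N}

omit [NeZero N] in
/-- An element defined over `Kb ≤ K0` lies in the range of every realisation `ι` of the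
coefficient extension `F_{K0} → FL N`. -/
theorem mem_range_of_definedOver {Kb K0 : IntermediateField ℚ Qb} (hle : Kb ≤ K0)
    (ι : modularFunctionFieldFullC K0 N →+* S24Export.FL N)
    (hcoe : ∀ x, ((ι x : S24Export.FL N) : LaurentSeries Qb) =
      coeffMap (algebraMap K0 Qb) (x : LaurentSeries K0))
    (x : S24Export.FL N) (hx : FieldDef.DefinedOver N Kb ((x : S24Export.FL N) : LaurentSeries Qb)) :
    x ∈ Set.range ι := by
  obtain ⟨y, hy, hyx⟩ := hx.mono hle
  refine ⟨⟨y, hy⟩, Subtype.ext ?_⟩
  rw [hcoe]
  exact hyx

omit [NeZero N] in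
/-- Descent of a monic irreducible polynomial with coefficients defined over `Kb` to
`(F_{K0})[X]`, for `K0 ⊇ Kb`. -/
theorem exists_map_eq_of_le {Kb K0 : IntermediateField ℚ Qb} (hle : Kb ≤ K0)
    (ι : modularFunctionFieldFullC K0 N →+* S24Export.FL N)
    (hcoe : ∀ x, ((ι x : S24Export.FL N) : LaurentSeries Qb) =
      coeffMap (algebraMap K0 Qb) (x : LaurentSeries K0))
    (m : (S24Export.FL N)[X]) (hm : m.Monic) (hirr : Irreducible m)
    (hdef : ∀ i, FieldDef.DefinedOver N Kb ((m.coeff i : S24Export.FL N) : LaurentSeries Qb)) :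
    ∃ m0 : (modularFunctionFieldFullC K0 N)[X], m0.Monic ∧ Irreducible m0 ∧ m0.map ι = m :=
  CoverField.exists_descent ι m hm hirr fun i =>
    mem_range_of_definedOver hle ι hcoe _ (hdef i)

omit [NeZero N] in
/-- If moreover the polynomial divides the image of `G0 : (F_{K0})[X]`, its descent divides
`G0`. -/
theorem dvd_of_map_dvd_map {K0 : IntermediateField ℚ Qb}
    (ι : modularFunctionFieldFullC K0 N →+* S24Export.FL N)
    (m0 G0 : (modularFunctionFieldFullC K0 N)[X]) (h : m0.map ι ∣ G0.map ι) : m0 ∣ G0 :=
  (Polynomial.map_dvd_map' ι).mp h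

variable (N)

/-- **The cover field datum for `ℓ = 2, 3`.** For a monic `g` over the geometric function field
with `p ∤ deg g` there are a finite extension `Kb` of `ℚ` and a monic irreducible factor `g1` of
`g` of degree prime to `p` such that

* a `p`-th power in `FL[X]/(g1)` coming from `FL` is a `p`-th power in `FL` (norm descent);
* for every `K0 ⊇ Kb` and every realisation `ι` of the coefficient extension, `g1` descends to a
  monic irreducible `m0` over `F_{K0}`. -/
theorem exists_cover_field (g : (S24Export.FL N)[X]) (hg : g.Monic) (p : ℕ) (hp : p.Prime)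
    (hpg : ¬ p ∣ g.natDegree) :
    ∃ (Kb : IntermediateField ℚ Qb) (_ : FiniteDimensional ℚ Kb) (g1 : (S24Export.FL N)[X]),
      Irreducible g1 ∧ g1.Monic ∧ g1 ∣ g ∧ Nat.Coprime g1.natDegree p ∧
      (∀ (_ : Fact (Irreducible g1)) (Y : S24Export.FL N),
        (∃ s : AdjoinRoot g1, s ^ p = algebraMap (S24Export.FL N) (AdjoinRoot g1) Y) →
          ∃ s : S24Export.FL N, s ^ p = Y) ∧
      ∀ (K0 : IntermediateField ℚ Qb), Kb ≤ K0 →
        ∀ (ι : modularFunctionFieldFullC K0 N →+* S24Export.FL N),
          (∀ x, ((ι x : S24Export.FL N) : LaurentSeries Qb) =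
            coeffMap (algebraMap K0 Qb) (x : LaurentSeries K0)) →
          ∃ m0 : (modularFunctionFieldFullC K0 N)[X], m0.Monic ∧ Irreducible m0 ∧
            m0.map ι = g1 ∧
            ∀ G0 : (modularFunctionFieldFullC K0 N)[X], G0.map ι = g → m0 ∣ G0 := by
  obtain ⟨g1, hirr, hmon, hdvd, hcop, hnorm⟩ :=
    NormDescent.exists_irreducible_factor_descent g hg p hp hpg
  obtain ⟨Kb, hKb, hdef⟩ := exists_definedOver_coeff N g1
  refine ⟨Kb, hKb, g1, hirr, hmon, hdvd, hcop, hnorm, fun K0 hle ι hcoe => ?_⟩
  obtain ⟨m0, hm0, hirr0, hmap⟩ := exists_map_eq_of_le hle ι hcoe g1 hmon hirr hdef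
  refine ⟨m0, hm0, hirr0, hmap, fun G0 hG0 => ?_⟩
  apply dvd_of_map_dvd_map ι
  rw [hmap, hG0]
  exact hdvd

end Fermat.Agent.S18.CoverBase
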