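import Mathlib
import Fermat.Agent.S18.CoverBase
import Fermat.Agent.S18.Setup
import Fermat.Agent.S18.CoverData

/-!
# S18, route K, the `ℓ = 2, 3` block: base field and cover factor on the sealed carriers

Row R1 of the bridge contract, stated on the carriers of `Setup.lean` (`Setup.FK K N`,
`Setup.ιL K N`), for the cover polynomials `CoverData.g3`, `CoverData.g2`.

* `exists_base_field` : the coefficients of a polynomial over the geometric function field lie
  in the range of `Setup.ιL K0 N` for every number field `K0` containing one finite `Kb`;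
* `exists_factor3`, `exists_factor2` : a monic irreducible factor of the cover polynomial over
  `FL N` through which `p`-th powers descend;
* `exists_descent`, `exists_cover3`, `exists_cover2` : the descended factor `m0` over
  `Setup.FK K0 N`, dividing the cover polynomial over `K0`, with `Kb` fixed in advance.
-/

set_option autoImplicit false
set_option synthInstance.maxHeartbeats 400000
set_option linter.style.haveILetI false

noncomputable section

open Polynomial ModularCurve

namespace Fermat.Agent.S18.CoverBaseS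

local notation "Qb" => AlgebraicClosure ℚ

variable (N : ℕ) [NeZero N]

/-- **Row R1, base field.** The coefficients of a polynomial over `FL N` come from
`Setup.FK K0 N` for every `K0` containing one finite extension `Kb` of `ℚ`. -/
theorem exists_base_field (m : (S24Export.FL N)[X]) :
    ∃ Kb : IntermediateField ℚ Qb, FiniteDimensional ℚ Kb ∧
      ∀ (K0 : IntermediateField ℚ Qb), Kb ≤ K0 →
        ∀ i : ℕ, m.coeff i ∈ Set.range (Setup.ιL ↥K0 N) := by
  obtain ⟨Kb, hKb, hdef⟩ := CoverBase.exists_definedOver_coeff N m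
  exact ⟨Kb, hKb, fun K0 hle i =>
    CoverBase.mem_range_of_definedOver hle (Setup.ιL ↥K0 N) (fun x => Setup.coe_ιL ↥K0 N x) _
      (hdef i)⟩

/-- The same for all monic irreducible factors of a nonzero polynomial at once. -/
theorem exists_base_field_factors (G : (S24Export.FL N)[X]) (hG : G ≠ 0) :
    ∃ Kb : IntermediateField ℚ Qb, FiniteDimensional ℚ Kb ∧
      ∀ (K0 : IntermediateField ℚ Qb), Kb ≤ K0 →
        ∀ m : (S24Export.FL N)[X], m.Monic → Irreducible m → m ∣ G →
          ∀ i : ℕ, m.coeff i ∈ Set.range (Setup.ιL ↥K0 N) := by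
  obtain ⟨Kb, hKb, hdef⟩ := CoverBase.exists_base_field N G hG
  exact ⟨Kb, hKb, fun K0 hle m hm hirr hdvd i =>
    CoverBase.mem_range_of_definedOver hle (Setup.ιL ↥K0 N) (fun x => Setup.coe_ιL ↥K0 N x) _
      (hdef m hm hirr hdvd i)⟩

/-- **Row R1, the factor for `ℓ = 3`.** -/
theorem exists_factor3 (p : ℕ) (hp : p.Prime) (hp3 : p ≠ 3) :
    ∃ m : (S24Export.FL N)[X], m.Monic ∧ Irreducible m ∧ m ∣ CoverData.g3 (S24Export.jL N) ∧
      ∀ (_ : Fact (Irreducible m)) (Y : S24Export.FL N),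
        (∃ s : AdjoinRoot m, s ^ p = algebraMap (S24Export.FL N) (AdjoinRoot m) Y) →
          ∃ s : S24Export.FL N, s ^ p = Y := by
  have hpg : ¬ p ∣ (CoverData.g3 (S24Export.jL N)).natDegree := by
    rw [CoverData.natDegree_g3]
    intro h
    exact hp3 ((Nat.prime_dvd_prime_iff_eq hp Nat.prime_three).mp h)
  obtain ⟨g1, hirr, hmon, hdvd, -, hnorm⟩ :=
    NormDescent.exists_irreducible_factor_descent (CoverData.g3 (S24Export.jL N))
      (CoverData.monic_g3 _) p hp hpg
  exact ⟨g1, hmon, hirr, hdvd, hnorm⟩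

/-- **Row R1, the factor for `ℓ = 2`.** -/
theorem exists_factor2 (p : ℕ) (hp : p.Prime) (hp2 : p ≠ 2) :
    ∃ m : (S24Export.FL N)[X], m.Monic ∧ Irreducible m ∧ m ∣ CoverData.g2 (S24Export.jL N) ∧
      ∀ (_ : Fact (Irreducible m)) (Y : S24Export.FL N),
        (∃ s : AdjoinRoot m, s ^ p = algebraMap (S24Export.FL N) (AdjoinRoot m) Y) →
          ∃ s : S24Export.FL N, s ^ p = Y := by
  have hpg : ¬ p ∣ (CoverData.g2 (S24Export.jL N)).natDegree := by
    rw [CoverData.natDegree_g2]
    intro h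
    have h4 : p ∣ 2 ^ 2 := by norm_num; exact h
    exact hp2 ((Nat.prime_dvd_prime_iff_eq hp Nat.prime_two).mp (hp.dvd_of_dvd_pow h4))
  obtain ⟨g1, hirr, hmon, hdvd, -, hnorm⟩ :=
    NormDescent.exists_irreducible_factor_descent (CoverData.g2 (S24Export.jL N))
      (CoverData.monic_g2 _) p hp hpg
  exact ⟨g1, hmon, hirr, hdvd, hnorm⟩

variable {N}

/-- Descent of a monic irreducible polynomial over `FL N` whose coefficients lie in the range of
`Setup.ιL K N`, for an abstract field `K` embedded in `ℚ̄`: a monic irreducible `m0` over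
`Setup.FK K N` with irreducible image. -/
theorem exists_descent (K : Type*) [Field K] [Algebra K Qb] (m : (S24Export.FL N)[X])
    (hm : m.Monic) (hirr : Irreducible m) (hcoef : ∀ i, m.coeff i ∈ Set.range (Setup.ιL K N)) :
    ∃ m0 : (Setup.FK K N)[X], m0.Monic ∧ Irreducible m0 ∧ m0.map (Setup.ιL K N) = m ∧
      Irreducible (m0.map (Setup.ιL K N)) := by
  obtain ⟨m0, h1, h2, h3⟩ := CoverField.exists_descent (Setup.ιL K N) m hm hirr hcoef
  exact ⟨m0, h1, h2, h3, h3 ▸ hirr⟩

/-- The descended factor divides the cover polynomial over `K` (`ℓ = 3`). -/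
theorem dvd_g3 (K : Type*) [Field K] [Algebra K Qb] (m0 : (Setup.FK K N)[X])
    (h : m0.map (Setup.ιL K N) ∣ CoverData.g3 (S24Export.jL N)) :
    m0 ∣ CoverData.g3 (Setup.jF K N) := by
  apply (Polynomial.map_dvd_map' (Setup.ιL K N)).mp
  rw [CoverData.map_g3, Setup.ιL_jF]
  exact h

/-- The descended factor divides the cover polynomial over `K` (`ℓ = 2`). -/
theorem dvd_g2 (K : Type*) [Field K] [Algebra K Qb] (m0 : (Setup.FK K N)[X])
    (h : m0.map (Setup.ιL K N) ∣ CoverData.g2 (S24Export.jL N)) :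
    m0 ∣ CoverData.g2 (Setup.jF K N) := by
  apply (Polynomial.map_dvd_map' (Setup.ιL K N)).mp
  rw [CoverData.map_g2, Setup.ιL_jF]
  exact h

/-- The root of the descended factor is a root of the cover polynomial (`ℓ = 3`): the `hroot`
of row R3. -/
theorem aeval_root_g3 (K : Type*) [Field K] [Algebra K Qb] (m0 : (Setup.FK K N)[X])
    (h : m0.map (Setup.ιL K N) ∣ CoverData.g3 (S24Export.jL N)) :
    Polynomial.aeval (AdjoinRoot.root m0) (CoverData.g3 (Setup.jF K N)) = 0 :=
  CoverField.aeval_root_eq_zero_of_dvd m0 _ (dvd_g3 K m0 h)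

/-- The root of the descended factor is a root of the cover polynomial (`ℓ = 2`). -/
theorem aeval_root_g2 (K : Type*) [Field K] [Algebra K Qb] (m0 : (Setup.FK K N)[X])
    (h : m0.map (Setup.ιL K N) ∣ CoverData.g2 (S24Export.jL N)) :
    Polynomial.aeval (AdjoinRoot.root m0) (CoverData.g2 (Setup.jF K N)) = 0 :=
  CoverField.aeval_root_eq_zero_of_dvd m0 _ (dvd_g2 K m0 h)

variable (N)

/-- **The cover datum for `ℓ = 3`, with the base field fixed in advance.** For a prime `p ≠ 3`
there are a finite extension `Kb` of `ℚ` and a monic irreducible factor `m` of the cover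
polynomial over `FL N`, through which `p`-th powers descend, such that for every number field
`K0 ⊇ Kb` the factor descends to a monic irreducible `m0` over `Setup.FK K0 N` whose root is a
root of the cover polynomial over `K0`. -/
theorem exists_cover3 (p : ℕ) (hp : p.Prime) (hp3 : p ≠ 3) :
    ∃ (Kb : IntermediateField ℚ Qb) (_ : FiniteDimensional ℚ Kb) (m : (S24Export.FL N)[X]),
      m.Monic ∧ Irreducible m ∧ m ∣ CoverData.g3 (S24Export.jL N) ∧
      (∀ (_ : Fact (Irreducible m)) (Y : S24Export.FL N),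
        (∃ s : AdjoinRoot m, s ^ p = algebraMap (S24Export.FL N) (AdjoinRoot m) Y) →
          ∃ s : S24Export.FL N, s ^ p = Y) ∧
      ∀ (K0 : IntermediateField ℚ Qb), Kb ≤ K0 →
        ∃ m0 : (Setup.FK ↥K0 N)[X], m0.Monic ∧ Irreducible m0 ∧
          m0.map (Setup.ιL ↥K0 N) = m ∧ Irreducible (m0.map (Setup.ιL ↥K0 N)) ∧
          m0 ∣ CoverData.g3 (Setup.jF ↥K0 N) ∧
          Polynomial.aeval (AdjoinRoot.root m0) (CoverData.g3 (Setup.jF ↥K0 N)) = 0 := by
  obtain ⟨m, hm, hirr, hdvd, hnorm⟩ := exists_factor3 N p hp hp3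
  obtain ⟨Kb, hKb, hcoef⟩ := exists_base_field N m
  refine ⟨Kb, hKb, m, hm, hirr, hdvd, hnorm, fun K0 hle => ?_⟩
  obtain ⟨m0, h1, h2, h3, h4⟩ := exists_descent ↥K0 m hm hirr (hcoef K0 hle)
  have h5 : m0.map (Setup.ιL ↥K0 N) ∣ CoverData.g3 (S24Export.jL N) := h3 ▸ hdvd
  exact ⟨m0, h1, h2, h3, h4, dvd_g3 ↥K0 m0 h5, aeval_root_g3 ↥K0 m0 h5⟩

/-- **The cover datum for `ℓ = 2`, with the base field fixed in advance.** -/
theorem exists_cover2 (p : ℕ) (hp : p.Prime) (hp2 : p ≠ 2) :
    ∃ (Kb : IntermediateField ℚ Qb) (_ : FiniteDimensional ℚ Kb) (m : (S24Export.FL N)[X]),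
      m.Monic ∧ Irreducible m ∧ m ∣ CoverData.g2 (S24Export.jL N) ∧
      (∀ (_ : Fact (Irreducible m)) (Y : S24Export.FL N),
        (∃ s : AdjoinRoot m, s ^ p = algebraMap (S24Export.FL N) (AdjoinRoot m) Y) →
          ∃ s : S24Export.FL N, s ^ p = Y) ∧
      ∀ (K0 : IntermediateField ℚ Qb), Kb ≤ K0 →
        ∃ m0 : (Setup.FK ↥K0 N)[X], m0.Monic ∧ Irreducible m0 ∧
          m0.map (Setup.ιL ↥K0 N) = m ∧ Irreducible (m0.map (Setup.ιL ↥K0 N)) ∧
          m0 ∣ CoverData.g2 (Setup.jF ↥K0 N) ∧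
          Polynomial.aeval (AdjoinRoot.root m0) (CoverData.g2 (Setup.jF ↥K0 N)) = 0 := by
  obtain ⟨m, hm, hirr, hdvd, hnorm⟩ := exists_factor2 N p hp hp2
  obtain ⟨Kb, hKb, hcoef⟩ := exists_base_field N m
  refine ⟨Kb, hKb, m, hm, hirr, hdvd, hnorm, fun K0 hle => ?_⟩
  obtain ⟨m0, h1, h2, h3, h4⟩ := exists_descent ↥K0 m hm hirr (hcoef K0 hle)
  have h5 : m0.map (Setup.ιL ↥K0 N) ∣ CoverData.g2 (S24Export.jL N) := h3 ▸ hdvd
  exact ⟨m0, h1, h2, h3, h4, dvd_g2 ↥K0 m0 h5, aeval_root_g2 ↥K0 m0 h5⟩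

end Fermat.Agent.S18.CoverBaseS
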