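import Mathlib
import Fermat.Agent.S18.CoverBaseS

/-!
# S18, route K, the `ℓ = 2, 3` block: the cover datum in the shape consumed by the top theorem

`CoverBaseS.exists_cover3 / exists_cover2` with the norm-descent clause transported to the
descended factor: for every number field `K0 ⊇ Kb` there is a monic irreducible `m0` over
`Setup.FK K0 N`, with irreducible image over `FL N`, dividing the cover polynomial, such that an
element of `FL N` which is not a `p`-th power stays a non-`p`-th power in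
`AdjoinRoot (m0.map (Setup.ιL K0 N))`.  The geometric factor does not appear any more.
-/

set_option autoImplicit false
set_option synthInstance.maxHeartbeats 400000
set_option linter.style.haveILetI false

noncomputable section

open Polynomial ModularCurve

namespace Fermat.Agent.S18.CoverPow

local notation "Qb" => AlgebraicClosure ℚ

/-- Transport of the norm-descent clause along `m0.map ι = m`. -/
theorem not_pow_of_map_eq {F0 F : Type*} [Field F0] [Field F] (ι : F0 →+* F) (m0 : F0[X])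
    (m : F[X]) (hmap : m0.map ι = m) (hirr : Irreducible m) (p : ℕ)
    (hnorm : ∀ (_ : Fact (Irreducible m)) (Y : F),
      (∃ s : AdjoinRoot m, s ^ p = algebraMap F (AdjoinRoot m) Y) → ∃ s : F, s ^ p = Y)
    (Y : F) (hY : ∀ z : F, z ^ p ≠ Y) :
    ∀ z : AdjoinRoot (m0.map ι), z ^ p ≠ AdjoinRoot.of (m0.map ι) Y := by
  subst hmap
  intro z hz
  obtain ⟨s, hs⟩ := hnorm ⟨hirr⟩ Y ⟨z, hz⟩
  exact hY s hs

variable (N : ℕ) [NeZero N]

/-- **The cover datum for the `X₀(2)`-cover `g3`** (any prime `p ≠ 3`), top-theorem shape. -/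
theorem exists_cover3 (p : ℕ) (hp : p.Prime) (hp3 : p ≠ 3) :
    ∃ (Kb : IntermediateField ℚ Qb) (_ : FiniteDimensional ℚ Kb),
      ∀ (K0 : IntermediateField ℚ Qb), Kb ≤ K0 →
        ∃ m0 : (Setup.FK ↥K0 N)[X], m0.Monic ∧ Irreducible m0 ∧
          Irreducible (m0.map (Setup.ιL ↥K0 N)) ∧
          m0 ∣ CoverData.g3 (Setup.jF ↥K0 N) ∧
          Polynomial.aeval (AdjoinRoot.root m0) (CoverData.g3 (Setup.jF ↥K0 N)) = 0 ∧
          ∀ Y : S24Export.FL N, (∀ z : S24Export.FL N, z ^ p ≠ Y) →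
            ∀ z : AdjoinRoot (m0.map (Setup.ιL ↥K0 N)),
              z ^ p ≠ AdjoinRoot.of (m0.map (Setup.ιL ↥K0 N)) Y := by
  obtain ⟨Kb, hKb, m, -, hirr, -, hnorm, hdesc⟩ := CoverBaseS.exists_cover3 N p hp hp3
  refine ⟨Kb, hKb, fun K0 hle => ?_⟩
  obtain ⟨m0, h1, h2, h3, h4, h5, h6⟩ := hdesc K0 hle
  exact ⟨m0, h1, h2, h4, h5, h6, fun Y hY =>
    not_pow_of_map_eq (Setup.ιL ↥K0 N) m0 m h3 hirr p hnorm Y hY⟩

/-- **The cover datum for the `X₀(3)`-cover `g2`** (any prime `p ≠ 2`), top-theorem shape. -/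
theorem exists_cover2 (p : ℕ) (hp : p.Prime) (hp2 : p ≠ 2) :
    ∃ (Kb : IntermediateField ℚ Qb) (_ : FiniteDimensional ℚ Kb),
      ∀ (K0 : IntermediateField ℚ Qb), Kb ≤ K0 →
        ∃ m0 : (Setup.FK ↥K0 N)[X], m0.Monic ∧ Irreducible m0 ∧
          Irreducible (m0.map (Setup.ιL ↥K0 N)) ∧
          m0 ∣ CoverData.g2 (Setup.jF ↥K0 N) ∧
          Polynomial.aeval (AdjoinRoot.root m0) (CoverData.g2 (Setup.jF ↥K0 N)) = 0 ∧
          ∀ Y : S24Export.FL N, (∀ z : S24Export.FL N, z ^ p ≠ Y) →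
            ∀ z : AdjoinRoot (m0.map (Setup.ιL ↥K0 N)),
              z ^ p ≠ AdjoinRoot.of (m0.map (Setup.ιL ↥K0 N)) Y := by
  obtain ⟨Kb, hKb, m, -, hirr, -, hnorm, hdesc⟩ := CoverBaseS.exists_cover2 N p hp hp2
  refine ⟨Kb, hKb, fun K0 hle => ?_⟩
  obtain ⟨m0, h1, h2, h3, h4, h5, h6⟩ := hdesc K0 hle
  exact ⟨m0, h1, h2, h4, h5, h6, fun Y hY =>
    not_pow_of_map_eq (Setup.ιL ↥K0 N) m0 m h3 hirr p hnorm Y hY⟩

end Fermat.Agent.S18.CoverPow
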