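import Mathlib
import Fermat.Prelude.Def_ModularCurve_X0
import Fermat.Prelude.Def_ModularCurve_LaurentCoeff
import Fermat.Prelude.Def_ModularCurve_JqCoeff
import Fermat.Prelude.Def_ModularCurve_X0ModL
import Fermat.Prelude.Thm_ModularCurve_coeffMap_qExpand

/-!
# S18 (B1): the Gauss valuation ring of the modular function field over a discrete valuation ring

`K` is a field, `A` a valuation subring of `K`, `φ : A →+* k` a ring homomorphism to a field and
`π : A` an element such that

* `hφ : ∀ x, φ x = 0 ↔ π ∣ x` (the kernel of `φ` is `π A`),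
* `hπ0 : π ≠ 0`,
* `hkrull : ∀ c ≠ 0, ∃ n, ¬ π ^ n ∣ c` (`A` is discrete).

`T = A((q))`, `incl : T → K((q))` is the inclusion and `rho φ : T → k((q))` the coefficientwise
reduction.

* `gaussRing A φ`: the subring `{a / b : a, b ∈ T, rho b ≠ 0}` of `K((q))`;
* `red A φ : gaussRing A φ →+* k((q))`, with kernel `π · gaussRing` (`red_eq_zero_iff`);
* `fracSubfield A`: the subfield `{a / b : b ≠ 0}`; every nonzero element of it is a power of `π`
  times a unit of the Gauss ring (`exists_zpow_mul`), so the Gauss ring is a discrete valuation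
  ring of it (`mem_or_inv_mem`);
* `FK K N := modularFunctionFieldFullC K N` lies in `fracSubfield A` (`full_le_fracSubfield`);
  `OvSubring A φ N` is the trace of the Gauss ring on `FK K N`, `Ov` the same as a
  `ValuationSubring`, `redv : OvSubring A φ N →+* k((q))` the reduction; its kernel is generated by
  `π`, and `OvSubring` is a discrete valuation ring with uniformizer `π`
  (`isDiscreteValuationRing_ov`);
* the unit lemma `isUnit_of_rho_ne_zero` and the corollary `exists_eq_one_add_of_mul_eq` used for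
  the Kummer generator `Y = u₁ / u₂`.

This is a generalising copy of `Fermat/Agent/S28/Gauss.lean` (`ℤ_(ℓ) ⊂ ℚ` replaced by `A ⊂ K`).
-/

set_option autoImplicit false

noncomputable section

open ModularCurve

namespace Fermat.Agent.S18.GaussA0

/-! ### Laurent series over `A` -/

section Series

variable {K : Type*} [Field K] (A : ValuationSubring K)

/-- The inclusion `A((q)) → K((q))`. -/
def incl : LaurentSeries ↥A →+* LaurentSeries K :=
  coeffMap A.subtype

@[simp]
theorem incl_coeff (a : LaurentSeries ↥A) (n : ℤ) : (incl A a).coeff n = (a.coeff n : K) :=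
  rfl

theorem incl_injective : Function.Injective (incl A) := by
  intro a b h
  ext n
  have := congrArg (fun f => HahnSeries.coeff f n) h
  exact this

theorem incl_ne_zero {b : LaurentSeries ↥A} (hb : b ≠ 0) : incl A b ≠ 0 := fun h =>
  hb (incl_injective A (by rw [h, map_zero]))

open Classical in
/-- The zero-preserving map `K → A` which is the identity on `A` (junk value `0`). -/
def toA : ZeroHom K ↥A where
  toFun x := if h : x ∈ A then ⟨x, h⟩ else 0
  map_zero' := by
    rw [dif_pos A.zero_mem]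
    rfl

/-- A series over `K` with coefficients in `A` comes from `A((q))`. -/
theorem exists_incl_eq (f : LaurentSeries K) (h : ∀ n, f.coeff n ∈ A) : ∃ a, incl A a = f := by
  refine ⟨f.map (toA A), ?_⟩
  ext n
  rw [incl_coeff, HahnSeries.map_coeff]
  show ((toA A (f.coeff n) : ↥A) : K) = f.coeff n
  simp only [toA, ZeroHom.coe_mk]
  rw [dif_pos (h n)]

theorem mem_range_incl_iff (f : LaurentSeries K) :
    f ∈ (incl A).range ↔ ∀ n, f.coeff n ∈ A := by
  constructor
  · rintro ⟨a, rfl⟩ n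
    rw [incl_coeff]
    exact (a.coeff n).2
  · intro h
    obtain ⟨a, ha⟩ := exists_incl_eq A f h
    exact ⟨a, ha⟩

variable {A}

/-- The constant series `π` of `A((q))`. -/
def piT (π : ↥A) : LaurentSeries ↥A := HahnSeries.C π

theorem piT_mul_coeff (π : ↥A) (a : LaurentSeries ↥A) (n : ℤ) :
    (piT π * a).coeff n = π * a.coeff n := by
  rw [piT, HahnSeries.C_mul_eq_smul, HahnSeries.coeff_smul, smul_eq_mul]

theorem incl_piT (π : ↥A) : incl A (piT π) = HahnSeries.C (π : K) := by
  rw [piT, incl, HahnSeries.C_apply, coeffMap_single, HahnSeries.C_apply]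
  rfl

theorem incl_C (c : ↥A) : incl A (HahnSeries.C c) = HahnSeries.C (c : K) := by
  rw [incl, HahnSeries.C_apply, coeffMap_single, HahnSeries.C_apply]
  rfl

variable {k : Type*} [Field k] (φ : ↥A →+* k)

/-- The coefficientwise reduction `A((q)) → k((q))`. -/
def rho : LaurentSeries ↥A →+* LaurentSeries k := coeffMap φ

@[simp]
theorem rho_coeff (a : LaurentSeries ↥A) (n : ℤ) : (rho φ a).coeff n = φ (a.coeff n) := rfl

theorem rho_C (c : ↥A) : rho φ (HahnSeries.C c) = HahnSeries.C (φ c) := by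
  rw [rho, HahnSeries.C_apply, coeffMap_single, HahnSeries.C_apply]

theorem rho_piT {π : ↥A} (hφπ : φ π = 0) : rho φ (piT π) = 0 := by
  rw [piT, rho_C, hφπ, map_zero]

open Classical in
/-- Division by `π` on `A` (junk value `0` on non-multiples). -/
def divPi (π : ↥A) : ZeroHom ↥A ↥A where
  toFun x := if h : x ≠ 0 ∧ π ∣ x then h.2.choose else 0
  map_zero' := by
    rw [dif_neg]
    exact fun h => h.1 rfl

open Classical in
theorem pi_mul_divPi (π x : ↥A) (h : π ∣ x) : π * divPi π x = x := by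
  by_cases hx : x = 0
  · subst hx
    rw [map_zero, mul_zero]
  · show π * (if h : x ≠ 0 ∧ π ∣ x then h.2.choose else 0) = x
    rw [dif_pos ⟨hx, h⟩]
    exact (Exists.choose_spec (⟨hx, h⟩ : x ≠ 0 ∧ π ∣ x).2).symm

/-- Division by `π` on series (junk on non-divisible coefficients). -/
def divPiT (π : ↥A) (a : LaurentSeries ↥A) : LaurentSeries ↥A :=
  a.map (divPi π)

variable {φ}

/-- (G1) A series with zero reduction is divisible by `π`. -/
theorem piT_mul_divPiT {π : ↥A} (hφ : ∀ x, φ x = 0 ↔ π ∣ x) (a : LaurentSeries ↥A)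
    (h : rho φ a = 0) : piT π * divPiT π a = a := by
  ext n
  rw [piT_mul_coeff, divPiT, HahnSeries.map_coeff]
  have hn : φ (a.coeff n) = 0 := by
    have := congrArg (fun f => HahnSeries.coeff f n) h
    simpa using this
  exact congrArg Subtype.val (pi_mul_divPi π (a.coeff n) ((hφ _).mp hn))

/-- (G2), auxiliary form: induction on a power of `π` not dividing a fixed coefficient. -/
theorem exists_pow_mul_aux {π : ↥A} (hφ : ∀ x, φ x = 0 ↔ π ∣ x) (n : ℤ) :
    ∀ (d : ℕ) (a : LaurentSeries ↥A), ¬ π ^ d ∣ a.coeff n →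
      ∃ (m : ℕ) (a' : LaurentSeries ↥A), a = piT π ^ m * a' ∧ rho φ a' ≠ 0 := by
  intro d
  induction d with
  | zero =>
    intro a ha
    exact absurd (by rw [pow_zero]; exact one_dvd _) ha
  | succ d ih =>
    intro a ha
    by_cases hprim : rho φ a ≠ 0
    · exact ⟨0, a, by rw [pow_zero, one_mul], hprim⟩
    · rw [not_not] at hprim
      have ha1 := piT_mul_divPiT hφ a hprim
      set a₁ := divPiT π a with ha₁
      have hc : a.coeff n = π * a₁.coeff n := by
        conv_lhs => rw [← ha1]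
        exact piT_mul_coeff π a₁ n
      have hd1 : ¬ π ^ d ∣ a₁.coeff n := by
        intro hdvd
        apply ha
        rw [hc, pow_succ']
        exact mul_dvd_mul_left π hdvd
      obtain ⟨m, a', hm, hprim'⟩ := ih a₁ hd1
      refine ⟨m + 1, a', ?_, hprim'⟩
      rw [← ha1, hm, pow_succ]
      ring

/-- (G2) Every nonzero series is a power of `π` times a series with nonzero reduction. -/
theorem exists_pow_mul {π : ↥A} (hφ : ∀ x, φ x = 0 ↔ π ∣ x)
    (hkrull : ∀ c : ↥A, c ≠ 0 → ∃ n : ℕ, ¬ π ^ n ∣ c) (a : LaurentSeries ↥A) (ha : a ≠ 0) :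
    ∃ (m : ℕ) (a' : LaurentSeries ↥A), a = piT π ^ m * a' ∧ rho φ a' ≠ 0 := by
  obtain ⟨n, hn⟩ : ∃ n, a.coeff n ≠ 0 := by
    by_contra hcon
    push Not at hcon
    apply ha
    ext n
    exact congrArg Subtype.val (hcon n)
  obtain ⟨d, hd⟩ := hkrull _ hn
  exact exists_pow_mul_aux hφ n d a hd

end Series

/-! ### The Gauss valuation ring -/

section Ring

variable {K : Type*} [Field K] (A : ValuationSubring K)
variable {k : Type*} [Field k] (φ : ↥A →+* k)

/-- The Gauss valuation ring `O = {a / b : a, b ∈ A((q)), rho b ≠ 0}` in `K((q))`. -/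
def gaussRing : Subring (LaurentSeries K) where
  carrier := {x | ∃ a b : LaurentSeries ↥A, rho φ b ≠ 0 ∧ x * incl A b = incl A a}
  mul_mem' := by
    rintro x y ⟨a, b, hb, h⟩ ⟨a', b', hb', h'⟩
    refine ⟨a * a', b * b', by rw [map_mul]; exact mul_ne_zero hb hb', ?_⟩
    rw [map_mul, map_mul, ← h, ← h']
    ring
  one_mem' := ⟨1, 1, by rw [map_one]; exact one_ne_zero, by rw [map_one, mul_one]⟩
  add_mem' := by
    rintro x y ⟨a, b, hb, h⟩ ⟨a', b', hb', h'⟩
    refine ⟨a * b' + a' * b, b * b', by rw [map_mul]; exact mul_ne_zero hb hb', ?_⟩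
    rw [map_add, map_mul, map_mul, map_mul, ← h, ← h']
    ring
  zero_mem' := ⟨0, 1, by rw [map_one]; exact one_ne_zero, by rw [map_zero, zero_mul]⟩
  neg_mem' := by
    rintro x ⟨a, b, hb, h⟩
    exact ⟨-a, b, hb, by rw [map_neg, ← h, neg_mul]⟩

theorem mem_gaussRing_iff (x : LaurentSeries K) :
    x ∈ gaussRing A φ ↔ ∃ a b : LaurentSeries ↥A, rho φ b ≠ 0 ∧ x * incl A b = incl A a :=
  Iff.rfl

theorem incl_mem_gaussRing (a : LaurentSeries ↥A) : incl A a ∈ gaussRing A φ :=
  ⟨a, 1, by rw [map_one]; exact one_ne_zero, by rw [map_one, mul_one]⟩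

variable {A φ}

theorem ne_zero_of_rho_ne_zero {b : LaurentSeries ↥A} (hb : rho φ b ≠ 0) : b ≠ 0 := by
  rintro rfl
  exact hb (map_zero _)

/-- The value of the reduction on a fraction does not depend on the representation. -/
theorem rho_div_eq {x : LaurentSeries K} {a b a' b' : LaurentSeries ↥A}
    (hb : rho φ b ≠ 0) (hb' : rho φ b' ≠ 0) (h : x * incl A b = incl A a)
    (h' : x * incl A b' = incl A a') : rho φ a / rho φ b = rho φ a' / rho φ b' := by
  have hab : a * b' = a' * b := by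
    apply incl_injective A
    rw [map_mul, map_mul, ← h, ← h']
    ring
  rw [div_eq_div_iff hb hb', ← map_mul, ← map_mul, hab]

variable (A φ)

/-- A chosen numerator of an element of the Gauss ring. -/
def numOf (x : gaussRing A φ) : LaurentSeries ↥A := Classical.choose x.2

/-- A chosen denominator (with nonzero reduction) of an element of the Gauss ring. -/
def denOf (x : gaussRing A φ) : LaurentSeries ↥A :=
  Classical.choose (Classical.choose_spec x.2)

theorem rho_denOf_ne_zero (x : gaussRing A φ) : rho φ (denOf A φ x) ≠ 0 :=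
  (Classical.choose_spec (Classical.choose_spec x.2)).1

theorem mul_incl_denOf (x : gaussRing A φ) :
    (x : LaurentSeries K) * incl A (denOf A φ x) = incl A (numOf A φ x) :=
  (Classical.choose_spec (Classical.choose_spec x.2)).2

/-- Reduction of the Gauss ring, with values in `k((q))`. -/
def red : gaussRing A φ →+* LaurentSeries k where
  toFun x := rho φ (numOf A φ x) / rho φ (denOf A φ x)
  map_one' := by
    have h1 : ((1 : gaussRing A φ) : LaurentSeries K) * incl A 1 = incl A 1 := by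
      rw [map_one, mul_one]; rfl
    have h2 : rho φ (1 : LaurentSeries ↥A) ≠ 0 := by rw [map_one]; exact one_ne_zero
    rw [rho_div_eq (rho_denOf_ne_zero A φ 1) h2 (mul_incl_denOf A φ 1) h1, map_one,
      div_one]
  map_zero' := by
    have h1 : ((0 : gaussRing A φ) : LaurentSeries K) * incl A 1 = incl A 0 := by
      rw [map_zero, map_one, mul_one]; rfl
    have h2 : rho φ (1 : LaurentSeries ↥A) ≠ 0 := by rw [map_one]; exact one_ne_zero
    rw [rho_div_eq (rho_denOf_ne_zero A φ 0) h2 (mul_incl_denOf A φ 0) h1, map_zero,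
      zero_div]
  map_mul' x y := by
    have hx := mul_incl_denOf A φ x
    have hy := mul_incl_denOf A φ y
    have h1 : ((x * y : gaussRing A φ) : LaurentSeries K) *
        incl A (denOf A φ x * denOf A φ y) = incl A (numOf A φ x * numOf A φ y) := by
      rw [map_mul, map_mul, Subring.coe_mul]
      linear_combination ((y : LaurentSeries K) * incl A (denOf A φ y)) * hx +
        (incl A (numOf A φ x)) * hy
    have h2 : rho φ (denOf A φ x * denOf A φ y) ≠ 0 := by
      rw [map_mul]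
      exact mul_ne_zero (rho_denOf_ne_zero A φ x) (rho_denOf_ne_zero A φ y)
    rw [rho_div_eq (rho_denOf_ne_zero A φ (x * y)) h2 (mul_incl_denOf A φ (x * y)) h1,
      map_mul, map_mul, div_mul_div_comm]
  map_add' x y := by
    have hx := mul_incl_denOf A φ x
    have hy := mul_incl_denOf A φ y
    have hρx := rho_denOf_ne_zero A φ x
    have hρy := rho_denOf_ne_zero A φ y
    have h1 : ((x + y : gaussRing A φ) : LaurentSeries K) *
        incl A (denOf A φ x * denOf A φ y) =
        incl A (numOf A φ x * denOf A φ y + denOf A φ x * numOf A φ y) := by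
      rw [map_add, map_mul, map_mul, map_mul, Subring.coe_add]
      linear_combination (incl A (denOf A φ y)) * hx + (incl A (denOf A φ x)) * hy
    have h2 : rho φ (denOf A φ x * denOf A φ y) ≠ 0 := by
      rw [map_mul]
      exact mul_ne_zero hρx hρy
    rw [rho_div_eq (rho_denOf_ne_zero A φ (x + y)) h2 (mul_incl_denOf A φ (x + y)) h1,
      map_add, map_mul, map_mul, map_mul, div_add_div _ _ hρx hρy]

variable {A φ}

/-- The defining property of `red`: `red (a / b) = rho a / rho b`. -/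
theorem red_eq (x : gaussRing A φ) {a b : LaurentSeries ↥A}
    (hb : rho φ b ≠ 0) (h : (x : LaurentSeries K) * incl A b = incl A a) :
    red A φ x = rho φ a / rho φ b :=
  rho_div_eq (rho_denOf_ne_zero A φ x) hb (mul_incl_denOf A φ x) h

theorem red_mul_rho (x : gaussRing A φ) {a b : LaurentSeries ↥A}
    (hb : rho φ b ≠ 0) (h : (x : LaurentSeries K) * incl A b = incl A a) :
    red A φ x * rho φ b = rho φ a := by
  rw [red_eq x hb h, div_mul_cancel₀ _ hb]

/-- `red` extends the coefficientwise reduction of `A((q))`. -/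
theorem red_incl (a : LaurentSeries ↥A) :
    red A φ ⟨incl A a, incl_mem_gaussRing A φ a⟩ = rho φ a := by
  have h2 : rho φ (1 : LaurentSeries ↥A) ≠ 0 := by rw [map_one]; exact one_ne_zero
  rw [red_eq _ h2 (a := a) (by rw [map_one, mul_one]), map_one, div_one]

/-- the element `π` of the Gauss ring. -/
def piG (φ : ↥A →+* k) (π : ↥A) : gaussRing A φ :=
  ⟨incl A (piT π), incl_mem_gaussRing A φ _⟩

theorem coe_piG (π : ↥A) : ((piG φ π : gaussRing A φ) : LaurentSeries K) = HahnSeries.C (π : K) :=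
  incl_piT π

theorem red_piG {π : ↥A} (hφπ : φ π = 0) : red A φ (piG φ π) = 0 := by
  rw [piG, red_incl, rho_piT φ hφπ]

/-- The kernel of `red` is `π O`. -/
theorem red_eq_zero_iff {π : ↥A} (hφ : ∀ x, φ x = 0 ↔ π ∣ x) (hπ0 : π ≠ 0)
    (x : gaussRing A φ) :
    red A φ x = 0 ↔ ∃ y : gaussRing A φ, x = piG φ π * y := by
  have hπK : (π : K) ≠ 0 := fun h => hπ0 (Subtype.ext h)
  have hCπ : (HahnSeries.C (π : K) : LaurentSeries K) ≠ 0 := HahnSeries.C_ne_zero hπK
  constructor
  · intro h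
    obtain ⟨a, b, hb, hab⟩ := x.2
    have ha0 : rho φ a = 0 := by
      rw [← red_mul_rho x hb hab, h, zero_mul]
    have ha := piT_mul_divPiT hφ a ha0
    have hy : (HahnSeries.C (π : K) : LaurentSeries K)⁻¹ * (x : LaurentSeries K) ∈
        gaussRing A φ := by
      refine ⟨divPiT π a, b, hb, ?_⟩
      have hinc : incl A a = HahnSeries.C (π : K) * incl A (divPiT π a) := by
        rw [← incl_piT, ← map_mul, ha]
      rw [mul_assoc, hab, hinc, ← mul_assoc, inv_mul_cancel₀ hCπ, one_mul]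
    refine ⟨⟨_, hy⟩, Subtype.ext ?_⟩
    rw [Subring.coe_mul, coe_piG, ← mul_assoc, mul_inv_cancel₀ hCπ, one_mul]
  · rintro ⟨y, rfl⟩
    rw [map_mul, red_piG ((hφ π).mpr dvd_rfl), zero_mul]

end Ring

/-! ### The fraction field and the valuation-ring property -/

section Frac

variable {K : Type*} [Field K] (A : ValuationSubring K)

/-- The subfield `{a / b : a, b ∈ A((q)), b ≠ 0}` of `K((q))`. -/
def fracSubfield : Subfield (LaurentSeries K) where
  carrier := {x | ∃ a b : LaurentSeries ↥A, b ≠ 0 ∧ x * incl A b = incl A a}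
  mul_mem' := by
    rintro x y ⟨a, b, hb, h⟩ ⟨a', b', hb', h'⟩
    refine ⟨a * a', b * b', mul_ne_zero hb hb', ?_⟩
    rw [map_mul, map_mul, ← h, ← h']
    ring
  one_mem' := ⟨1, 1, one_ne_zero, by rw [map_one, mul_one]⟩
  add_mem' := by
    rintro x y ⟨a, b, hb, h⟩ ⟨a', b', hb', h'⟩
    refine ⟨a * b' + a' * b, b * b', mul_ne_zero hb hb', ?_⟩
    rw [map_add, map_mul, map_mul, map_mul, ← h, ← h']
    ring
  zero_mem' := ⟨0, 1, one_ne_zero, by rw [map_zero, zero_mul]⟩
  neg_mem' := by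
    rintro x ⟨a, b, hb, h⟩
    exact ⟨-a, b, hb, by rw [map_neg, ← h, neg_mul]⟩
  inv_mem' := by
    rintro x ⟨a, b, hb, h⟩
    by_cases hx : x = 0
    · subst hx
      exact ⟨0, 1, one_ne_zero, by rw [inv_zero, map_zero, zero_mul]⟩
    · have ha : a ≠ 0 := by
        rintro rfl
        rw [map_zero] at h
        rcases mul_eq_zero.mp h with h0 | h0
        · exact hx h0
        · exact incl_ne_zero A hb h0
      refine ⟨b, a, ha, ?_⟩
      rw [← h, ← mul_assoc, inv_mul_cancel₀ hx, one_mul]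

theorem mem_fracSubfield_iff (x : LaurentSeries K) :
    x ∈ fracSubfield A ↔ ∃ a b : LaurentSeries ↥A, b ≠ 0 ∧ x * incl A b = incl A a :=
  Iff.rfl

theorem incl_mem_fracSubfield (a : LaurentSeries ↥A) : incl A a ∈ fracSubfield A :=
  ⟨a, 1, one_ne_zero, by rw [map_one, mul_one]⟩

/-- constants lie in the fraction field. -/
theorem C_mem_fracSubfield (c : K) : (HahnSeries.C c : LaurentSeries K) ∈ fracSubfield A := by
  rcases A.mem_or_inv_mem c with h | h
  · have := incl_mem_fracSubfield A (HahnSeries.C (⟨c, h⟩ : ↥A))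
    rwa [incl_C] at this
  · have h1 := incl_mem_fracSubfield A (HahnSeries.C (⟨c⁻¹, h⟩ : ↥A))
    rw [incl_C] at h1
    have h2 := (fracSubfield A).inv_mem h1
    have h3 : ((HahnSeries.C (c⁻¹ : K) : LaurentSeries K))⁻¹ = HahnSeries.C c := by
      rw [← map_inv₀, inv_inv]
    rwa [h3] at h2

variable {A}
variable {k : Type*} [Field k] {φ : ↥A →+* k}

theorem gaussRing_le_fracSubfield {x : LaurentSeries K} (hx : x ∈ gaussRing A φ) :
    x ∈ fracSubfield A := by
  obtain ⟨a, b, hb, h⟩ := hx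
  exact ⟨a, b, ne_zero_of_rho_ne_zero hb, h⟩

/-- an element of the Gauss ring with nonzero reduction is invertible in the Gauss ring. -/
theorem inv_mem_gaussRing_of_red_ne_zero (x : gaussRing A φ) (h : red A φ x ≠ 0) :
    (x : LaurentSeries K)⁻¹ ∈ gaussRing A φ := by
  obtain ⟨a, b, hb, hab⟩ := x.2
  have ha : rho φ a ≠ 0 := by
    rw [← red_mul_rho x hb hab]
    exact mul_ne_zero h hb
  have hx0 : (x : LaurentSeries K) ≠ 0 := by
    intro h0
    apply h
    have : x = 0 := Subtype.ext h0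
    rw [this, map_zero]
  refine ⟨b, a, ha, ?_⟩
  rw [← hab, ← mul_assoc, inv_mul_cancel₀ hx0, one_mul]

/-- **Normal form**: a nonzero element of the fraction field is `π ^ m / π ^ n` times a fraction of
two series with nonzero reduction. -/
theorem exists_pow_mul_eq {π : ↥A} (hφ : ∀ x, φ x = 0 ↔ π ∣ x)
    (hkrull : ∀ c : ↥A, c ≠ 0 → ∃ n : ℕ, ¬ π ^ n ∣ c) {x : LaurentSeries K}
    (hx : x ∈ fracSubfield A) (hx0 : x ≠ 0) :
    ∃ (m n : ℕ) (a' b' : LaurentSeries ↥A), rho φ a' ≠ 0 ∧ rho φ b' ≠ 0 ∧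
      x * (HahnSeries.C (π : K) ^ n * incl A b') = HahnSeries.C (π : K) ^ m * incl A a' := by
  obtain ⟨a, b, hb, h⟩ := hx
  have ha : a ≠ 0 := by
    rintro rfl
    rw [map_zero] at h
    rcases mul_eq_zero.mp h with h0 | h0
    · exact hx0 h0
    · exact incl_ne_zero A hb h0
  obtain ⟨m, a', rfl, ha'⟩ := exists_pow_mul hφ hkrull a ha
  obtain ⟨n, b', rfl, hb'⟩ := exists_pow_mul hφ hkrull b hb
  refine ⟨m, n, a', b', ha', hb', ?_⟩
  rw [map_mul, map_mul, map_pow, map_pow, incl_piT] at h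
  exact h

/-- **Normal form**, second version: a nonzero element of the fraction field is `π ^ m * u` or
`u / π ^ (m + 1)` with `u` a unit of the Gauss ring (both `u` and `u⁻¹` lie in the Gauss ring and
`u` has nonzero reduction). -/
theorem exists_unit_mul_pow {π : ↥A} (hφ : ∀ x, φ x = 0 ↔ π ∣ x) (hπ0 : π ≠ 0)
    (hkrull : ∀ c : ↥A, c ≠ 0 → ∃ n : ℕ, ¬ π ^ n ∣ c) {x : LaurentSeries K}
    (hx : x ∈ fracSubfield A) (hx0 : x ≠ 0) :
    ∃ (u : gaussRing A φ), red A φ u ≠ 0 ∧ (u : LaurentSeries K)⁻¹ ∈ gaussRing A φ ∧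
      ∃ m : ℕ, x = (HahnSeries.C (π : K) : LaurentSeries K) ^ m * (u : LaurentSeries K) ∨
        x * (HahnSeries.C (π : K) : LaurentSeries K) ^ (m + 1) = (u : LaurentSeries K) := by
  have hπK : (π : K) ≠ 0 := fun h => hπ0 (Subtype.ext h)
  have hCπ : (HahnSeries.C (π : K) : LaurentSeries K) ≠ 0 := HahnSeries.C_ne_zero hπK
  obtain ⟨m, n, a', b', ha', hb', h⟩ := exists_pow_mul_eq hφ hkrull hx hx0
  have hb'0 : incl A b' ≠ 0 := incl_ne_zero A (ne_zero_of_rho_ne_zero hb')
  have hu : incl A a' * (incl A b')⁻¹ ∈ gaussRing A φ :=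
    ⟨a', b', hb', by rw [mul_assoc, inv_mul_cancel₀ hb'0, mul_one]⟩
  have hred : red A φ ⟨_, hu⟩ ≠ 0 := by
    rw [red_eq ⟨_, hu⟩ hb' (a := a') (by
      show incl A a' * (incl A b')⁻¹ * incl A b' = incl A a'
      rw [mul_assoc, inv_mul_cancel₀ hb'0, mul_one])]
    exact div_ne_zero ha' hb'
  refine ⟨⟨_, hu⟩, hred, inv_mem_gaussRing_of_red_ne_zero _ hred, ?_⟩
  rcases le_or_gt n m with hnm | hnm
  · obtain ⟨d, rfl⟩ := Nat.exists_eq_add_of_le hnm
    refine ⟨d, Or.inl ?_⟩
    have hpow : (HahnSeries.C (π : K) : LaurentSeries K) ^ n ≠ 0 := pow_ne_zero _ hCπ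
    show x = HahnSeries.C (π : K) ^ d * (incl A a' * (incl A b')⁻¹)
    rw [pow_add] at h
    have h2 : x * incl A b' = HahnSeries.C (π : K) ^ d * incl A a' := by
      apply mul_left_cancel₀ hpow
      linear_combination h
    rw [← mul_assoc, ← h2, mul_assoc, mul_inv_cancel₀ hb'0, mul_one]
  · obtain ⟨d, rfl⟩ := Nat.exists_eq_add_of_le hnm.le
    have hd : 1 ≤ d := by omega
    obtain ⟨e, rfl⟩ := Nat.exists_eq_add_of_le hd
    refine ⟨e, Or.inr ?_⟩
    have hpow : (HahnSeries.C (π : K) : LaurentSeries K) ^ m ≠ 0 := pow_ne_zero _ hCπ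
    show x * HahnSeries.C (π : K) ^ (e + 1) = incl A a' * (incl A b')⁻¹
    have h2 : x * HahnSeries.C (π : K) ^ (e + 1) * incl A b' = incl A a' := by
      apply mul_left_cancel₀ hpow
      rw [pow_add] at h
      rw [add_comm e 1]
      linear_combination h
    rw [← h2, mul_assoc, mul_inv_cancel₀ hb'0, mul_one]

/-- **Valuation-ring property**: an element of the fraction field lies in `O`, or its inverse
lies in `π O`. -/
theorem mem_or_inv_mem {π : ↥A} (hφ : ∀ x, φ x = 0 ↔ π ∣ x) (hπ0 : π ≠ 0)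
    (hkrull : ∀ c : ↥A, c ≠ 0 → ∃ n : ℕ, ¬ π ^ n ∣ c) {x : LaurentSeries K}
    (hx : x ∈ fracSubfield A) :
    x ∈ gaussRing A φ ∨ ∃ z : gaussRing A φ, x * ((piG φ π : LaurentSeries K) * z) = 1 := by
  by_cases hx0 : x = 0
  · left
    rw [hx0]
    exact (gaussRing A φ).zero_mem
  have hπK : (π : K) ≠ 0 := fun h => hπ0 (Subtype.ext h)
  have hCπ : (HahnSeries.C (π : K) : LaurentSeries K) ≠ 0 := HahnSeries.C_ne_zero hπK
  obtain ⟨u, hu, huinv, m, h | h⟩ := exists_unit_mul_pow hφ hπ0 hkrull hx hx0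
  · left
    rw [h]
    have h1 : (HahnSeries.C (π : K) : LaurentSeries K) ^ m ∈ gaussRing A φ := by
      rw [← coe_piG (φ := φ)]
      exact (gaussRing A φ).pow_mem (piG φ π).2 m
    exact (gaussRing A φ).mul_mem h1 u.2
  · right
    have hu0 : (u : LaurentSeries K) ≠ 0 := by
      intro h0
      apply hu
      have : u = 0 := Subtype.ext h0
      rw [this, map_zero]
    have hz : (HahnSeries.C (π : K) : LaurentSeries K) ^ m * (u : LaurentSeries K)⁻¹ ∈
        gaussRing A φ := by
      have h1 : (HahnSeries.C (π : K) : LaurentSeries K) ^ m ∈ gaussRing A φ := by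
        rw [← coe_piG (φ := φ)]
        exact (gaussRing A φ).pow_mem (piG φ π).2 m
      exact (gaussRing A φ).mul_mem h1 huinv
    refine ⟨⟨_, hz⟩, ?_⟩
    rw [coe_piG]
    show x * (HahnSeries.C (π : K) * (HahnSeries.C (π : K) ^ m * (u : LaurentSeries K)⁻¹)) = 1
    rw [← h]
    have hx1 : x * HahnSeries.C (π : K) ^ (m + 1) ≠ 0 := by rw [h]; exact hu0
    rw [show x * (HahnSeries.C (π : K) * (HahnSeries.C (π : K) ^ m *
        (x * HahnSeries.C (π : K) ^ (m + 1))⁻¹)) =
      (x * HahnSeries.C (π : K) ^ (m + 1)) * (x * HahnSeries.C (π : K) ^ (m + 1))⁻¹ by ring,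
      mul_inv_cancel₀ hx1]

end Frac

/-! ### The modular function field -/

section Modular

variable {K : Type*} [Field K] (A : ValuationSubring K)
variable {k : Type*} [Field k] (φ : ↥A →+* k) (N : ℕ)

theorem incl_jqModC : incl A (jqModC ↥A) = jqModC K := coeffMap_jqModC _

theorem incl_qExpand (d : ℕ) [NeZero d] (a : LaurentSeries ↥A) :
    incl A (qExpand ↥A d a) = qExpand K d (incl A a) :=
  coeffMap_qExpand _ d a

theorem rho_jqModC : rho φ (jqModC ↥A) = jqModC k := coeffMap_jqModC φ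

theorem rho_qExpand (d : ℕ) [NeZero d] (a : LaurentSeries ↥A) :
    rho φ (qExpand ↥A d a) = qExpand k d (rho φ a) :=
  coeffMap_qExpand φ d a

theorem algebraMap_eq_C (c : K) :
    algebraMap K (LaurentSeries K) c = HahnSeries.C c := by
  rw [algebraMap_laurentSeries_eq_single, HahnSeries.C_apply]

/-- The modular function field lies in the fraction field of `A((q))`. -/
theorem full_le_fracSubfield {x : LaurentSeries K} (hx : x ∈ modularFunctionFieldFullC K N) :
    x ∈ fracSubfield A := by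
  have hle : modularFunctionFieldFullC K N ≤ (fracSubfield A).toIntermediateField (fun c => by
      rw [algebraMap_eq_C]
      exact C_mem_fracSubfield A c) := by
    rw [modularFunctionFieldFullC, IntermediateField.adjoin_le_iff]
    rintro y ⟨d, hne, -, rfl⟩
    have := hne
    have := incl_mem_fracSubfield A (qExpand ↥A d (jqModC ↥A))
    rwa [incl_qExpand, incl_jqModC] at this
  exact hle hx

/-- **The Gauss ring of the modular function field** `F_K = K(j(q^d) : d ∣ N)`: the elements of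
`F_K` whose `q`-expansion is a quotient `a / b` of series over `A` with `rho b ≠ 0`. -/
def OvSubring : Subring ↥(modularFunctionFieldFullC K N) :=
  (gaussRing A φ).comap (algebraMap ↥(modularFunctionFieldFullC K N) (LaurentSeries K))

theorem mem_OvSubring_iff (x : ↥(modularFunctionFieldFullC K N)) :
    x ∈ OvSubring A φ N ↔ (x : LaurentSeries K) ∈ gaussRing A φ :=
  Iff.rfl

theorem mem_OvSubring_iff' (x : ↥(modularFunctionFieldFullC K N)) :
    x ∈ OvSubring A φ N ↔
      ∃ a b : LaurentSeries ↥A, rho φ b ≠ 0 ∧ (x : LaurentSeries K) * incl A b = incl A a :=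
  Iff.rfl

/-- The inclusion of `OvSubring` into the Gauss ring. -/
def toGauss : ↥(OvSubring A φ N) →+* ↥(gaussRing A φ) where
  toFun x := ⟨((x : ↥(modularFunctionFieldFullC K N)) : LaurentSeries K), x.2⟩
  map_one' := rfl
  map_mul' _ _ := rfl
  map_zero' := rfl
  map_add' _ _ := rfl

theorem coe_toGauss (x : ↥(OvSubring A φ N)) :
    (toGauss A φ N x : LaurentSeries K) =
      ((x : ↥(modularFunctionFieldFullC K N)) : LaurentSeries K) :=
  rfl

theorem toGauss_injective : Function.Injective (toGauss A φ N) := by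
  intro x y h
  apply Subtype.ext
  apply Subtype.ext
  have h' : (toGauss A φ N x : LaurentSeries K) = (toGauss A φ N y : LaurentSeries K) :=
    congrArg Subtype.val h
  exact h'

/-- **Reduction of the Gauss ring of `F_K`**, with values in `k((q))`. -/
def redv : ↥(OvSubring A φ N) →+* LaurentSeries k :=
  (red A φ).comp (toGauss A φ N)

variable {A φ N}

/-- the computation rule of `redv`: `redv (a / b) * rho b = rho a`. -/
theorem redv_mul_rho (x : ↥(OvSubring A φ N)) {a b : LaurentSeries ↥A} (hb : rho φ b ≠ 0)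
    (h : ((x : ↥(modularFunctionFieldFullC K N)) : LaurentSeries K) * incl A b = incl A a) :
    redv A φ N x * rho φ b = rho φ a :=
  red_mul_rho (toGauss A φ N x) hb h

/-- `redv` of an element whose `q`-expansion has coefficients in `A` is the coefficientwise
reduction. -/
theorem redv_of_incl (x : ↥(OvSubring A φ N)) (a : LaurentSeries ↥A)
    (h : ((x : ↥(modularFunctionFieldFullC K N)) : LaurentSeries K) = incl A a) :
    redv A φ N x = rho φ a := by
  rw [redv, RingHom.comp_apply, ← red_incl (φ := φ) a]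
  congr 1
  exact Subtype.ext h

/-- an element of `F_K` whose `q`-expansion has coefficients in `A` lies in the Gauss ring. -/
theorem mem_OvSubring_of_incl {x : ↥(modularFunctionFieldFullC K N)} (a : LaurentSeries ↥A)
    (h : (x : LaurentSeries K) = incl A a) : x ∈ OvSubring A φ N := by
  rw [mem_OvSubring_iff, h]
  exact incl_mem_gaussRing A φ a

variable (A φ N)

/-- The constants `A → OvSubring`. -/
def constO : ↥A →+* ↥(OvSubring A φ N) where
  toFun c := ⟨algebraMap K ↥(modularFunctionFieldFullC K N) (c : K),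
    mem_OvSubring_of_incl (HahnSeries.C c) (by
      rw [incl_C, ← algebraMap_eq_C]
      rfl)⟩
  map_one' := by
    apply Subtype.ext
    show algebraMap K ↥(modularFunctionFieldFullC K N) ((1 : ↥A) : K) = 1
    rw [OneMemClass.coe_one, map_one]
  map_mul' a b := by
    apply Subtype.ext
    show algebraMap K ↥(modularFunctionFieldFullC K N) ((a * b : ↥A) : K) = _
    rw [MulMemClass.coe_mul, map_mul]
    rfl
  map_zero' := by
    apply Subtype.ext
    show algebraMap K ↥(modularFunctionFieldFullC K N) ((0 : ↥A) : K) = 0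
    rw [ZeroMemClass.coe_zero, map_zero]
  map_add' a b := by
    apply Subtype.ext
    show algebraMap K ↥(modularFunctionFieldFullC K N) ((a + b : ↥A) : K) = _
    rw [AddMemClass.coe_add, map_add]
    rfl

theorem coe_constO (c : ↥A) :
    ((constO A φ N c : ↥(modularFunctionFieldFullC K N))) =
      algebraMap K ↥(modularFunctionFieldFullC K N) (c : K) :=
  rfl

theorem coe_coe_constO (c : ↥A) :
    (((constO A φ N c : ↥(modularFunctionFieldFullC K N))) : LaurentSeries K) =
      HahnSeries.C (c : K) := by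
  rw [coe_constO, ← algebraMap_eq_C]
  rfl

theorem redv_constO (c : ↥A) : redv A φ N (constO A φ N c) = HahnSeries.C (φ c) := by
  rw [redv_of_incl _ (HahnSeries.C c) (by rw [coe_coe_constO, incl_C]), rho_C]

/-- `j(q^d)`, `d ∣ N`, as an element of the Gauss ring of `F_K`. -/
def jdO (d : ℕ) [NeZero d] (hd : d ∣ N) : ↥(OvSubring A φ N) :=
  ⟨⟨qExpand K d (jqModC K), jqModCd_mem_full K N hd⟩,
    mem_OvSubring_of_incl (qExpand ↥A d (jqModC ↥A)) (by
      rw [incl_qExpand, incl_jqModC])⟩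

theorem coe_jdO (d : ℕ) [NeZero d] (hd : d ∣ N) :
    (((jdO A φ N d hd : ↥(OvSubring A φ N)) : ↥(modularFunctionFieldFullC K N)) :
      LaurentSeries K) = qExpand K d (jqModC K) :=
  rfl

theorem redv_jdO (d : ℕ) [NeZero d] (hd : d ∣ N) :
    redv A φ N (jdO A φ N d hd) = qExpand k d (jqModC k) := by
  rw [redv_of_incl _ (qExpand ↥A d (jqModC ↥A)) (by rw [coe_jdO, incl_qExpand, incl_jqModC]),
    rho_qExpand, rho_jqModC]

variable {A φ N}

/-- an element of the Gauss ring of `F_K` with nonzero reduction is a unit. -/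
theorem isUnit_of_redv_ne_zero (x : ↥(OvSubring A φ N)) (h : redv A φ N x ≠ 0) : IsUnit x := by
  have hinv := inv_mem_gaussRing_of_red_ne_zero (toGauss A φ N x) h
  have hx0 : (x : ↥(modularFunctionFieldFullC K N)) ≠ 0 := by
    intro h0
    apply h
    have : x = 0 := Subtype.ext h0
    rw [this, map_zero]
  have hmem : (x : ↥(modularFunctionFieldFullC K N))⁻¹ ∈ OvSubring A φ N := by
    rw [mem_OvSubring_iff]
    exact hinv
  refine IsUnit.of_mul_eq_one ⟨_, hmem⟩ (Subtype.ext ?_)
  show (x : ↥(modularFunctionFieldFullC K N)) * (x : ↥(modularFunctionFieldFullC K N))⁻¹ = 1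
  exact mul_inv_cancel₀ hx0

theorem isUnit_iff_redv_ne_zero (x : ↥(OvSubring A φ N)) : IsUnit x ↔ redv A φ N x ≠ 0 :=
  ⟨fun h => (h.map (redv A φ N)).ne_zero, isUnit_of_redv_ne_zero x⟩

/-- **Unit lemma**: a series over `A` with nonzero reduction whose image lies in `F_K` is a unit
of the Gauss ring, with reduction the coefficientwise reduction. -/
theorem isUnit_of_rho_ne_zero (u : LaurentSeries ↥A)
    (hu : incl A u ∈ modularFunctionFieldFullC K N) (hρ : rho φ u ≠ 0) :
    ∃ x : ↥(OvSubring A φ N),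
      ((x : ↥(modularFunctionFieldFullC K N)) : LaurentSeries K) = incl A u ∧ IsUnit x ∧
        redv A φ N x = rho φ u := by
  refine ⟨⟨⟨incl A u, hu⟩, mem_OvSubring_of_incl u rfl⟩, rfl, ?_, redv_of_incl _ u rfl⟩
  apply isUnit_of_redv_ne_zero
  rw [redv_of_incl _ u rfl]
  exact hρ

/-- The kernel of `redv` is generated by `π`. -/
theorem redv_eq_zero_iff {π : ↥A} (hφ : ∀ x, φ x = 0 ↔ π ∣ x) (hπ0 : π ≠ 0)
    (x : ↥(OvSubring A φ N)) :
    redv A φ N x = 0 ↔ ∃ y : ↥(OvSubring A φ N), x = constO A φ N π * y := by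
  have hπK : (π : K) ≠ 0 := fun h => hπ0 (Subtype.ext h)
  have hCπ : (HahnSeries.C (π : K) : LaurentSeries K) ≠ 0 := HahnSeries.C_ne_zero hπK
  constructor
  · intro h
    obtain ⟨y, hy⟩ := (red_eq_zero_iff hφ hπ0 (toGauss A φ N x)).mp h
    have hy' : ((x : ↥(modularFunctionFieldFullC K N)) : LaurentSeries K) =
        HahnSeries.C (π : K) * (y : LaurentSeries K) := by
      have := congrArg Subtype.val hy
      rwa [Subring.coe_mul, coe_piG, coe_toGauss] at this
    have hπF : algebraMap K ↥(modularFunctionFieldFullC K N) (π : K) ≠ 0 := by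
      rw [Ne, map_eq_zero]
      exact hπK
    -- `y = x / π` lies in `F_K`
    set z : ↥(modularFunctionFieldFullC K N) :=
      (algebraMap K ↥(modularFunctionFieldFullC K N) (π : K))⁻¹ *
        (x : ↥(modularFunctionFieldFullC K N)) with hz
    have hzy : (z : LaurentSeries K) = (y : LaurentSeries K) := by
      have h1 : ((algebraMap K ↥(modularFunctionFieldFullC K N) (π : K) :
          ↥(modularFunctionFieldFullC K N)) : LaurentSeries K) = HahnSeries.C (π : K) := by
        rw [← algebraMap_eq_C]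
        rfl
      rw [hz, IntermediateField.coe_mul, IntermediateField.coe_inv, h1, hy', ← mul_assoc,
        inv_mul_cancel₀ hCπ, one_mul]
    have hzmem : z ∈ OvSubring A φ N := by
      rw [mem_OvSubring_iff, hzy]
      exact y.2
    refine ⟨⟨z, hzmem⟩, Subtype.ext ?_⟩
    show (x : ↥(modularFunctionFieldFullC K N)) =
      algebraMap K ↥(modularFunctionFieldFullC K N) (π : K) * z
    rw [hz, ← mul_assoc, mul_inv_cancel₀ hπF, one_mul]
  · rintro ⟨y, rfl⟩
    rw [map_mul, redv_constO, (hφ π).mpr dvd_rfl, map_zero, zero_mul]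

theorem ker_redv {π : ↥A} (hφ : ∀ x, φ x = 0 ↔ π ∣ x) (hπ0 : π ≠ 0) :
    RingHom.ker (redv A φ N) = Ideal.span {constO A φ N π} := by
  ext x
  rw [RingHom.mem_ker, redv_eq_zero_iff hφ hπ0, Ideal.mem_span_singleton]
  rfl

/-- the non-units of the Gauss ring of `F_K` are the multiples of `π`. -/
theorem not_isUnit_iff {π : ↥A} (hφ : ∀ x, φ x = 0 ↔ π ∣ x) (hπ0 : π ≠ 0)
    (x : ↥(OvSubring A φ N)) : ¬ IsUnit x ↔ constO A φ N π ∣ x := by
  rw [isUnit_iff_redv_ne_zero, not_not, redv_eq_zero_iff hφ hπ0]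
  rfl

/-- **Valuation-ring property** of the Gauss ring of `F_K`. -/
theorem mem_or_inv_mem_OvSubring {π : ↥A} (hφ : ∀ x, φ x = 0 ↔ π ∣ x) (hπ0 : π ≠ 0)
    (hkrull : ∀ c : ↥A, c ≠ 0 → ∃ n : ℕ, ¬ π ^ n ∣ c)
    (x : ↥(modularFunctionFieldFullC K N)) :
    x ∈ OvSubring A φ N ∨ x⁻¹ ∈ OvSubring A φ N := by
  rcases mem_or_inv_mem hφ hπ0 hkrull (full_le_fracSubfield A N x.2) with h | ⟨z, hz⟩
  · exact Or.inl h
  · right
    rw [mem_OvSubring_iff, IntermediateField.coe_inv]
    have h1 : ((x : ↥(modularFunctionFieldFullC K N)) : LaurentSeries K)⁻¹ =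
        (piG φ π : LaurentSeries K) * z := (eq_inv_of_mul_eq_one_right hz).symm ▸ rfl
    rw [h1]
    exact (gaussRing A φ).mul_mem (piG φ π).2 z.2

end Modular

/-! ### The discrete valuation ring `Ov` -/

section DVR

variable {K : Type*} [Field K] (A : ValuationSubring K)
variable {k : Type*} [Field k] (φ : ↥A →+* k) (N : ℕ)
variable {π : ↥A}

/-- **The Gauss ring of `F_K` as a valuation subring.** -/
def Ov (hφ : ∀ x, φ x = 0 ↔ π ∣ x) (hπ0 : π ≠ 0)
    (hkrull : ∀ c : ↥A, c ≠ 0 → ∃ n : ℕ, ¬ π ^ n ∣ c) :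
    ValuationSubring ↥(modularFunctionFieldFullC K N) :=
  { OvSubring A φ N with
    mem_or_inv_mem' := mem_or_inv_mem_OvSubring hφ hπ0 hkrull }

variable (hφ : ∀ x, φ x = 0 ↔ π ∣ x) (hπ0 : π ≠ 0)
  (hkrull : ∀ c : ↥A, c ≠ 0 → ∃ n : ℕ, ¬ π ^ n ∣ c)

theorem Ov_toSubring : (Ov A φ N hφ hπ0 hkrull).toSubring = OvSubring A φ N := rfl

theorem mem_Ov_iff (x : ↥(modularFunctionFieldFullC K N)) :
    x ∈ Ov A φ N hφ hπ0 hkrull ↔ (x : LaurentSeries K) ∈ gaussRing A φ :=
  Iff.rfl

theorem mem_Ov_iff' (x : ↥(modularFunctionFieldFullC K N)) :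
    x ∈ Ov A φ N hφ hπ0 hkrull ↔
      ∃ a b : LaurentSeries ↥A, rho φ b ≠ 0 ∧ (x : LaurentSeries K) * incl A b = incl A a :=
  Iff.rfl

/-- **Reduction of `Ov`**, with values in `k((q))` (the map `redv` on the valuation subring). -/
def redO : ↥(Ov A φ N hφ hπ0 hkrull) →+* LaurentSeries k :=
  redv A φ N

/-- The constants `A → Ov`. -/
def constOv : ↥A →+* ↥(Ov A φ N hφ hπ0 hkrull) :=
  constO A φ N

theorem coe_constOv (c : ↥A) :
    ((constOv A φ N hφ hπ0 hkrull c : ↥(modularFunctionFieldFullC K N))) =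
      algebraMap K ↥(modularFunctionFieldFullC K N) (c : K) :=
  rfl

theorem redO_constOv (c : ↥A) :
    redO A φ N hφ hπ0 hkrull (constOv A φ N hφ hπ0 hkrull c) = HahnSeries.C (φ c) :=
  redv_constO A φ N c

/-- `j(q^d)`, `d ∣ N`, as an element of `Ov`. -/
def jdOv (d : ℕ) [NeZero d] (hd : d ∣ N) : ↥(Ov A φ N hφ hπ0 hkrull) :=
  jdO A φ N d hd

theorem coe_jdOv (d : ℕ) [NeZero d] (hd : d ∣ N) :
    (((jdOv A φ N hφ hπ0 hkrull d hd : ↥(Ov A φ N hφ hπ0 hkrull)) :
      ↥(modularFunctionFieldFullC K N)) : LaurentSeries K) = qExpand K d (jqModC K) :=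
  rfl

theorem redO_jdOv (d : ℕ) [NeZero d] (hd : d ∣ N) :
    redO A φ N hφ hπ0 hkrull (jdOv A φ N hφ hπ0 hkrull d hd) = qExpand k d (jqModC k) :=
  redv_jdO A φ N d hd

/-- the computation rule of `redO`: `redO (a / b) * rho b = rho a`. -/
theorem redO_mul_rho (x : ↥(Ov A φ N hφ hπ0 hkrull)) {a b : LaurentSeries ↥A}
    (hb : rho φ b ≠ 0)
    (h : ((x : ↥(modularFunctionFieldFullC K N)) : LaurentSeries K) * incl A b = incl A a) :
    redO A φ N hφ hπ0 hkrull x * rho φ b = rho φ a :=
  redv_mul_rho (A := A) (φ := φ) (N := N) x hb h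

theorem redO_of_incl (x : ↥(Ov A φ N hφ hπ0 hkrull)) (a : LaurentSeries ↥A)
    (h : ((x : ↥(modularFunctionFieldFullC K N)) : LaurentSeries K) = incl A a) :
    redO A φ N hφ hπ0 hkrull x = rho φ a :=
  redv_of_incl (A := A) (φ := φ) (N := N) x a h

theorem isUnit_iff_redO_ne_zero (x : ↥(Ov A φ N hφ hπ0 hkrull)) :
    IsUnit x ↔ redO A φ N hφ hπ0 hkrull x ≠ 0 :=
  isUnit_iff_redv_ne_zero (A := A) (φ := φ) (N := N) x

/-- **The kernel of `redO` is the maximal ideal.** -/
theorem redO_eq_zero_iff (x : ↥(Ov A φ N hφ hπ0 hkrull)) :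
    redO A φ N hφ hπ0 hkrull x = 0 ↔ x ∈ IsLocalRing.maximalIdeal ↥(Ov A φ N hφ hπ0 hkrull) := by
  rw [IsLocalRing.mem_maximalIdeal, mem_nonunits_iff, isUnit_iff_redO_ne_zero, not_not]

/-- The kernel of `redO` is generated by `π`. -/
theorem redO_eq_zero_iff_dvd (x : ↥(Ov A φ N hφ hπ0 hkrull)) :
    redO A φ N hφ hπ0 hkrull x = 0 ↔ constOv A φ N hφ hπ0 hkrull π ∣ x :=
  redv_eq_zero_iff (A := A) (φ := φ) (N := N) hφ hπ0 x

/-- **The maximal ideal of `Ov` is generated by `π`.** -/
theorem maximalIdeal_Ov :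
    IsLocalRing.maximalIdeal ↥(Ov A φ N hφ hπ0 hkrull) =
      Ideal.span {constOv A φ N hφ hπ0 hkrull π} := by
  ext x
  rw [← redO_eq_zero_iff, redO_eq_zero_iff_dvd, Ideal.mem_span_singleton]

theorem constOv_pi_ne_zero : constOv A φ N hφ hπ0 hkrull π ≠ 0 := by
  intro h
  have h1 := congrArg Subtype.val h
  rw [coe_constOv] at h1
  have h2 : (π : K) = 0 := by
    have h3 : algebraMap K ↥(modularFunctionFieldFullC K N) (π : K) = 0 := h1
    exact (map_eq_zero _).mp h3
  exact hπ0 (Subtype.ext h2)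

theorem prime_constOv_pi : Prime (constOv A φ N hφ hπ0 hkrull π) := by
  rw [← Ideal.span_singleton_prime (constOv_pi_ne_zero A φ N hφ hπ0 hkrull),
    ← maximalIdeal_Ov A φ N hφ hπ0 hkrull]
  exact (IsLocalRing.maximalIdeal.isMaximal _).isPrime

theorem irreducible_constOv_pi : Irreducible (constOv A φ N hφ hπ0 hkrull π) :=
  (prime_constOv_pi A φ N hφ hπ0 hkrull).irreducible

/-- every nonzero element of `Ov` is a power of `π` times a unit. -/
theorem exists_pow_mul_unit (x : ↥(Ov A φ N hφ hπ0 hkrull)) (hx : x ≠ 0) :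
    ∃ (n : ℕ) (u : (↥(Ov A φ N hφ hπ0 hkrull))ˣ),
      x = constOv A φ N hφ hπ0 hkrull π ^ n * u := by
  have hπK : (π : K) ≠ 0 := fun h => hπ0 (Subtype.ext h)
  have hCπ : (HahnSeries.C (π : K) : LaurentSeries K) ≠ 0 := HahnSeries.C_ne_zero hπK
  have hx0 : ((x : ↥(modularFunctionFieldFullC K N)) : LaurentSeries K) ≠ 0 := by
    intro h
    apply hx
    apply Subtype.ext
    apply Subtype.ext
    exact h
  have hπF : algebraMap K ↥(modularFunctionFieldFullC K N) (π : K) ≠ 0 := by
    rw [Ne, map_eq_zero]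
    exact hπK
  have hcoeπ : ((algebraMap K ↥(modularFunctionFieldFullC K N) (π : K) :
      ↥(modularFunctionFieldFullC K N)) : LaurentSeries K) = HahnSeries.C (π : K) := by
    rw [← algebraMap_eq_C]
    rfl
  obtain ⟨u, hu, -, m, h | h⟩ := exists_unit_mul_pow hφ hπ0 hkrull
    (full_le_fracSubfield A N (x : ↥(modularFunctionFieldFullC K N)).2) hx0
  · -- `x = π ^ m * u`
    set z : ↥(modularFunctionFieldFullC K N) :=
      ((algebraMap K ↥(modularFunctionFieldFullC K N) (π : K)) ^ m)⁻¹ *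
        (x : ↥(modularFunctionFieldFullC K N)) with hz
    have hzu : (z : LaurentSeries K) = (u : LaurentSeries K) := by
      rw [hz, IntermediateField.coe_mul, IntermediateField.coe_inv, IntermediateField.coe_pow,
        hcoeπ, h, ← mul_assoc, inv_mul_cancel₀ (pow_ne_zero _ hCπ), one_mul]
    have hzmem : z ∈ Ov A φ N hφ hπ0 hkrull := by
      rw [mem_Ov_iff, hzu]
      exact u.2
    have hzred : redO A φ N hφ hπ0 hkrull ⟨z, hzmem⟩ ≠ 0 := by
      have : redO A φ N hφ hπ0 hkrull ⟨z, hzmem⟩ = red A φ u := by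
        show red A φ (toGauss A φ N ⟨z, hzmem⟩) = red A φ u
        congr 1
        exact Subtype.ext hzu
      rw [this]
      exact hu
    obtain ⟨v, hv⟩ := (isUnit_iff_redO_ne_zero A φ N hφ hπ0 hkrull _).mpr hzred
    refine ⟨m, v, Subtype.ext ?_⟩
    rw [hv]
    show (x : ↥(modularFunctionFieldFullC K N)) =
      (algebraMap K ↥(modularFunctionFieldFullC K N) (π : K)) ^ m * z
    rw [hz, ← mul_assoc, mul_inv_cancel₀ (pow_ne_zero _ hπF), one_mul]
  · -- `x * π ^ (m + 1) = u` is impossible: the reduction of `u` would vanish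
    exfalso
    apply hu
    have h1 : u = toGauss A φ N x * piG φ π ^ (m + 1) := by
      apply Subtype.ext
      rw [Subring.coe_mul, Subring.coe_pow, coe_piG]
      exact h.symm
    rw [h1, map_mul, map_pow, red_piG ((hφ π).mpr dvd_rfl), zero_pow (Nat.succ_ne_zero m),
      mul_zero]

/-- **`Ov` is a discrete valuation ring** (with uniformizer `π`). -/
theorem isDiscreteValuationRing_Ov :
    IsDiscreteValuationRing ↥(Ov A φ N hφ hπ0 hkrull) := by
  refine IsDiscreteValuationRing.ofHasUnitMulPowIrreducibleFactorization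
    ⟨constOv A φ N hφ hπ0 hkrull π, irreducible_constOv_pi A φ N hφ hπ0 hkrull, ?_⟩
  intro x hx
  obtain ⟨n, u, hu⟩ := exists_pow_mul_unit A φ N hφ hπ0 hkrull x hx
  exact ⟨n, u, hu.symm⟩

end DVR

/-! ### The residue field -/

section ResField

variable {K : Type*} [Field K] (A : ValuationSubring K)
variable {k : Type*} [Field k] (φ : ↥A →+* k) (N : ℕ)

/-- **The residue field of the Gauss ring of `F_K`**, as a subfield of `k((q))`: the range of
`redv`. -/
def resField : Subfield (LaurentSeries k) :=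
  { (redv A φ N).range with
    inv_mem' := by
      rintro _ ⟨x, rfl⟩
      by_cases h : redv A φ N x = 0
      · rw [h, inv_zero]
        exact Subring.zero_mem _
      · obtain ⟨u, hu⟩ := isUnit_of_redv_ne_zero x h
        refine ⟨((u⁻¹ : (↥(OvSubring A φ N))ˣ) : ↥(OvSubring A φ N)), ?_⟩
        rw [← hu]
        apply eq_inv_of_mul_eq_one_left
        rw [← map_mul, Units.inv_mul, map_one] }

theorem mem_resField_iff (y : LaurentSeries k) :
    y ∈ resField A φ N ↔ ∃ x : ↥(OvSubring A φ N), redv A φ N x = y :=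
  Iff.rfl

theorem redv_mem_resField (x : ↥(OvSubring A φ N)) : redv A φ N x ∈ resField A φ N :=
  ⟨x, rfl⟩

theorem C_mem_resField (a : ↥A) : (HahnSeries.C (φ a) : LaurentSeries k) ∈ resField A φ N :=
  ⟨constO A φ N a, redv_constO A φ N a⟩

theorem jd_mem_resField (d : ℕ) [NeZero d] (hd : d ∣ N) :
    qExpand k d (jqModC k) ∈ resField A φ N :=
  ⟨jdO A φ N d hd, redv_jdO A φ N d hd⟩

/-- if `φ` is surjective, the residue field contains the modular function field over `k`. -/
theorem full_le_resField (hφs : Function.Surjective φ) {y : LaurentSeries k}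
    (hy : y ∈ modularFunctionFieldFullC k N) : y ∈ resField A φ N := by
  have hle : modularFunctionFieldFullC k N ≤ (resField A φ N).toIntermediateField (fun c => by
      obtain ⟨a, rfl⟩ := hφs c
      rw [algebraMap_eq_C]
      exact C_mem_resField A φ N a) := by
    rw [modularFunctionFieldFullC, IntermediateField.adjoin_le_iff]
    rintro y ⟨d, hne, hd, rfl⟩
    have := hne
    exact jd_mem_resField A φ N d hd
  exact hle hy

end ResField

/-! ### The Kummer generator `Y = u₁ / u₂` -/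

section Kummer

variable {K : Type*} [Field K] {A : ValuationSubring K}
variable {k : Type*} [Field k] {φ : ↥A →+* k} {N : ℕ}

/-- a quotient of two series over `A`, the denominator with nonzero reduction, lies in the Gauss
ring as soon as it lies in `F_K`. -/
theorem mem_OvSubring_of_mul_eq (Y : ↥(modularFunctionFieldFullC K N)) (u₁ u₂ : LaurentSeries ↥A)
    (hY : (Y : LaurentSeries K) * incl A u₂ = incl A u₁) (h₂ : rho φ u₂ ≠ 0) :
    Y ∈ OvSubring A φ N :=
  ⟨u₁, u₂, h₂, hY⟩

/-- **`Y = u₁ / u₂` with equal nonzero reductions reduces to `1`.** -/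
theorem redv_eq_one_of_mul_eq (Y : ↥(modularFunctionFieldFullC K N)) (u₁ u₂ : LaurentSeries ↥A)
    (hY : (Y : LaurentSeries K) * incl A u₂ = incl A u₁) (h₂ : rho φ u₂ ≠ 0)
    (h₁₂ : rho φ u₁ = rho φ u₂) :
    redv A φ N ⟨Y, mem_OvSubring_of_mul_eq Y u₁ u₂ hY h₂⟩ = 1 := by
  have h := redv_mul_rho (A := A) (φ := φ) (N := N)
    ⟨Y, mem_OvSubring_of_mul_eq Y u₁ u₂ hY h₂⟩ h₂ hY
  rw [h₁₂] at h
  exact mul_right_cancel₀ h₂ (h.trans (one_mul _).symm)

/-- **`Y = u₁ / u₂` with equal nonzero reductions is `≡ 1` modulo `π` in the Gauss ring.** -/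
theorem exists_eq_one_add_of_mul_eq {π : ↥A} (hφ : ∀ x, φ x = 0 ↔ π ∣ x) (hπ0 : π ≠ 0)
    (Y : ↥(modularFunctionFieldFullC K N)) (u₁ u₂ : LaurentSeries ↥A)
    (hY : (Y : LaurentSeries K) * incl A u₂ = incl A u₁) (h₂ : rho φ u₂ ≠ 0)
    (h₁₂ : rho φ u₁ = rho φ u₂) :
    ∃ w : ↥(OvSubring A φ N),
      Y = 1 + algebraMap K ↥(modularFunctionFieldFullC K N) (π : K) *
        (w : ↥(modularFunctionFieldFullC K N)) := by
  have h1 := redv_eq_one_of_mul_eq Y u₁ u₂ hY h₂ h₁₂
  have h2 : redv A φ N (⟨Y, mem_OvSubring_of_mul_eq Y u₁ u₂ hY h₂⟩ - 1) = 0 := by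
    rw [map_sub, h1, map_one, sub_self]
  obtain ⟨w, hw⟩ := (redv_eq_zero_iff hφ hπ0 _).mp h2
  refine ⟨w, ?_⟩
  have h3 := congrArg Subtype.val hw
  have h4 : Y - 1 = algebraMap K ↥(modularFunctionFieldFullC K N) (π : K) *
      (w : ↥(modularFunctionFieldFullC K N)) := h3
  rw [← h4]
  ring

/-- the same for `Y⁻¹`. -/
theorem exists_inv_eq_one_add_of_mul_eq {π : ↥A} (hφ : ∀ x, φ x = 0 ↔ π ∣ x) (hπ0 : π ≠ 0)
    (Y : ↥(modularFunctionFieldFullC K N)) (u₁ u₂ : LaurentSeries ↥A)
    (hY : (Y : LaurentSeries K) * incl A u₂ = incl A u₁) (h₂ : rho φ u₂ ≠ 0)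
    (h₁₂ : rho φ u₁ = rho φ u₂) :
    ∃ w : ↥(OvSubring A φ N),
      Y⁻¹ = 1 + algebraMap K ↥(modularFunctionFieldFullC K N) (π : K) *
        (w : ↥(modularFunctionFieldFullC K N)) := by
  have h₁ : rho φ u₁ ≠ 0 := h₁₂ ▸ h₂
  have hu₁ : incl A u₁ ≠ 0 := incl_ne_zero A (ne_zero_of_rho_ne_zero h₁)
  have hY0 : (Y : LaurentSeries K) ≠ 0 := by
    intro h0
    rw [h0, zero_mul] at hY
    exact hu₁ hY.symm
  have hY' : ((Y⁻¹ : ↥(modularFunctionFieldFullC K N)) : LaurentSeries K) * incl A u₁ =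
      incl A u₂ := by
    rw [IntermediateField.coe_inv, ← hY, ← mul_assoc, inv_mul_cancel₀ hY0, one_mul]
  exact exists_eq_one_add_of_mul_eq hφ hπ0 Y⁻¹ u₂ u₁ hY' h₁ h₁₂.symm

end Kummer

/-! ### Feeding the hypotheses from a uniformizer -/

section Hyps

variable {K : Type*} [Field K] {A : ValuationSubring K}

/-- `hφ` for the residue map, from a generator of the maximal ideal. -/
theorem residue_eq_zero_iff_dvd {π : ↥A}
    (hmax : IsLocalRing.maximalIdeal ↥A = Ideal.span {π}) (x : ↥A) :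
    IsLocalRing.residue ↥A x = 0 ↔ π ∣ x := by
  rw [IsLocalRing.residue_eq_zero_iff, hmax, Ideal.mem_span_singleton]

/-- `hφ` for a ring homomorphism to a field whose kernel is the maximal ideal. -/
theorem eq_zero_iff_dvd_of_ker {k : Type*} [Field k] (φ : ↥A →+* k) {π : ↥A}
    (hmax : IsLocalRing.maximalIdeal ↥A = Ideal.span {π})
    (hker : ∀ x : ↥A, φ x = 0 ↔ x ∈ IsLocalRing.maximalIdeal ↥A) (x : ↥A) :
    φ x = 0 ↔ π ∣ x := by
  rw [hker, hmax, Ideal.mem_span_singleton]

/-- `hkrull` from the archimedean property `∀ c ≠ 0, ∃ n, c ∣ π ^ n` of a non-unit `π ≠ 0`. -/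
theorem krull_of_arch {π : ↥A} (hπ0 : π ≠ 0) (hπu : ¬ IsUnit π)
    (harch : ∀ c : ↥A, c ≠ 0 → ∃ n : ℕ, c ∣ π ^ n) (c : ↥A) (hc : c ≠ 0) :
    ∃ n : ℕ, ¬ π ^ n ∣ c := by
  obtain ⟨n, hn⟩ := harch c hc
  refine ⟨n + 1, fun h => hπu ?_⟩
  obtain ⟨d, hd⟩ := h.trans hn
  have h1 : π ^ n * (π * d) = π ^ n * 1 := by
    rw [mul_one, ← mul_assoc, ← pow_succ]
    exact hd.symm
  exact IsUnit.of_mul_eq_one d (mul_left_cancel₀ (pow_ne_zero n hπ0) h1)

end Hyps

end Fermat.Agent.S18.GaussA0
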