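/-
S18 bridge, leaf B2 (abstract part): lifting a residue basis.

`O` is a subring of a field `F` with a "uniformizer" `π` and a reduction map `red : O →+* kk`
into a field whose kernel is `π O`, such that every nonzero element of `F` is `π ^ n * u` with
`n : ℤ` and `red u ≠ 0` (a discrete "Gauss ring").  If `F0` is a subfield containing `π`,
`[F : F0] ≤ n` and `m 1, …, m n ∈ O` have reductions independent over `red (O ∩ F0)`, then the
`m i` are an `F0`-basis of `F`, `O` is free over `O ∩ F0` on the `m i`, and `O` is the integral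
closure of `O ∩ F0` in `F`.  Mathlib only.
-/
import Mathlib

set_option autoImplicit false

namespace Fermat.Agent.S18.ResBasis

variable {F : Type*} [Field F] {kk : Type*} [Field kk]

/-- `O ⊆ F` is a discrete Gauss ring with uniformizer `π` and reduction `red`. -/
def IsGauss (O : Subring F) (red : O →+* kk) (π : O) : Prop :=
  (π : F) ≠ 0 ∧ red π = 0 ∧ (∀ x : O, red x = 0 → ∃ y : O, x = π * y) ∧
    ∀ x : F, x ≠ 0 → ∃ (n : ℤ) (u : O), x = (π : F) ^ n * (u : F) ∧ red u ≠ 0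

section basic

variable {O : Subring F} {red : O →+* kk} {π : O}

theorem IsGauss.pi_ne_zero (hG : IsGauss O red π) : (π : F) ≠ 0 := hG.1

theorem IsGauss.red_pi (hG : IsGauss O red π) : red π = 0 := hG.2.1

theorem IsGauss.exists_eq_mul (hG : IsGauss O red π) {x : O} (hx : red x = 0) :
    ∃ y : O, x = π * y := hG.2.2.1 x hx

theorem IsGauss.exists_zpow (hG : IsGauss O red π) {x : F} (hx : x ≠ 0) :
    ∃ (n : ℤ) (u : O), x = (π : F) ^ n * (u : F) ∧ red u ≠ 0 := hG.2.2.2 x hx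

theorem IsGauss.red_eq_zero_iff (hG : IsGauss O red π) (x : O) :
    red x = 0 ↔ ∃ y : O, x = π * y := by
  refine ⟨fun h => hG.exists_eq_mul h, ?_⟩
  rintro ⟨y, rfl⟩
  rw [map_mul, hG.red_pi, zero_mul]

/-- In a decomposition `x = π ^ n * u` of an element of `O` the exponent is nonnegative. -/
theorem IsGauss.nonneg_of_mem (hG : IsGauss O red π) {x : F} (hx : x ∈ O) {n : ℤ} {u : O}
    (hxu : x = (π : F) ^ n * (u : F)) (hu : red u ≠ 0) : 0 ≤ n := by
  by_contra hn
  rw [not_le] at hn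
  obtain ⟨k, hk⟩ : ∃ k : ℕ, n = -((k : ℤ) + 1) := ⟨(-n - 1).toNat, by omega⟩
  have h1 : (u : F) = (π : F) ^ (k + 1) * x := by
    rw [hxu, hk, zpow_neg, ← mul_assoc]
    rw [show ((k : ℤ) + 1) = ((k + 1 : ℕ) : ℤ) by push_cast; ring, zpow_natCast,
      mul_inv_cancel₀ (pow_ne_zero _ hG.pi_ne_zero), one_mul]
  have h2 : u = π ^ (k + 1) * ⟨x, hx⟩ := Subtype.ext (by simpa using h1)
  apply hu
  rw [h2, map_mul, map_pow, hG.red_pi, zero_pow (Nat.succ_ne_zero k), zero_mul]

/-- Elements with nonzero reduction are units of `O`. -/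
theorem IsGauss.inv_mem (hG : IsGauss O red π) {u : O} (hu : red u ≠ 0) : (u : F)⁻¹ ∈ O := by
  have hu0 : (u : F) ≠ 0 := by
    intro h
    apply hu
    have : u = 0 := Subtype.ext h
    rw [this, map_zero]
  obtain ⟨n, v, hv, hvr⟩ := hG.exists_zpow (inv_ne_zero hu0)
  -- `1 = π ^ n * (u * v)` with `red (u * v) ≠ 0` forces `n = 0`
  have h1 : (1 : F) = (π : F) ^ n * ((u * v : O) : F) := by
    have : (u : F) * (u : F)⁻¹ = 1 := mul_inv_cancel₀ hu0
    rw [← this, hv]
    push_cast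
    ring
  have huv : red (u * v) ≠ 0 := by
    rw [map_mul]
    exact mul_ne_zero hu hvr
  have hn0 : 0 ≤ n := hG.nonneg_of_mem (O.one_mem) h1 huv
  obtain ⟨k, rfl⟩ : ∃ k : ℕ, n = (k : ℤ) := ⟨n.toNat, by omega⟩
  rcases Nat.eq_zero_or_pos k with rfl | hk
  · rw [hv]
    simp
  · exfalso
    have h2 : (1 : O) = π ^ k * (u * v) := Subtype.ext (by simpa using h1)
    have h3 : red 1 = 0 := by
      rw [h2, map_mul, map_pow, hG.red_pi, zero_pow (by omega), zero_mul]
    rw [map_one] at h3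
    exact one_ne_zero h3

theorem mem_of_nonneg {x : F} {n : ℤ} {u : O}
    (hxu : x = (π : F) ^ n * (u : F)) (hn : 0 ≤ n) : x ∈ O := by
  obtain ⟨k, rfl⟩ : ∃ k : ℕ, n = (k : ℤ) := ⟨n.toNat, by omega⟩
  rw [hxu, zpow_natCast]
  exact O.mul_mem (O.pow_mem π.2 k) u.2

/-- the valuation property -/
theorem IsGauss.mem_or_inv_mem (hG : IsGauss O red π) (x : F) : x ∈ O ∨ x⁻¹ ∈ O := by
  by_cases hx : x = 0
  · left; rw [hx]; exact O.zero_mem
  obtain ⟨n, u, hxu, hu⟩ := hG.exists_zpow hx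
  rcases le_total 0 n with hn | hn
  · exact Or.inl (mem_of_nonneg hxu hn)
  · right
    have hinv : (u : F)⁻¹ ∈ O := hG.inv_mem hu
    have : x⁻¹ = (π : F) ^ (-n) * ((⟨(u : F)⁻¹, hinv⟩ : O) : F) := by
      rw [hxu, mul_inv, zpow_neg]
    exact mem_of_nonneg this (by omega)

/-- a bounded-denominator statement: some power of `π` moves `x` into `O` -/
theorem IsGauss.exists_pow_mul_mem (hG : IsGauss O red π) (x : F) :
    ∃ k : ℕ, ∀ j : ℕ, k ≤ j → (π : F) ^ j * x ∈ O := by
  by_cases hx : x = 0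
  · exact ⟨0, fun j _ => by rw [hx, mul_zero]; exact O.zero_mem⟩
  obtain ⟨n, u, hxu, hu⟩ := hG.exists_zpow hx
  refine ⟨(-n).toNat, fun j hj => ?_⟩
  have : (π : F) ^ j * x = (π : F) ^ ((j : ℤ) + n) * (u : F) := by
    rw [hxu, ← mul_assoc, zpow_add₀ hG.pi_ne_zero, zpow_natCast]
  exact mem_of_nonneg this (by omega)

theorem IsGauss.exists_pow_mul_mem_fin (hG : IsGauss O red π) {n : ℕ} (c : Fin n → F) :
    ∃ k : ℕ, ∀ i, (π : F) ^ k * c i ∈ O := by
  choose k hk using fun i => hG.exists_pow_mul_mem (c i)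
  exact ⟨Finset.univ.sup k, fun i => hk i _ (Finset.le_sup (Finset.mem_univ i))⟩

/-- Krull intersection: only `0` is divisible by all powers of `π`. -/
theorem IsGauss.eq_zero_of_forall_pow_dvd (hG : IsGauss O red π) (x : O)
    (h : ∀ j : ℕ, ∃ y : O, x = π ^ j * y) : x = 0 := by
  by_contra hx
  have hx' : (x : F) ≠ 0 := fun h0 => hx (Subtype.ext h0)
  obtain ⟨n, u, hxu, hu⟩ := hG.exists_zpow hx'
  have hn : 0 ≤ n := hG.nonneg_of_mem x.2 hxu hu
  obtain ⟨k, rfl⟩ : ∃ k : ℕ, n = (k : ℤ) := ⟨n.toNat, by omega⟩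
  obtain ⟨y, hy⟩ := h (k + 1)
  have h1 : (π : F) ^ k * (u : F) = (π : F) ^ k * ((π : F) * (y : F)) := by
    have := congrArg (Subtype.val) hy
    rw [hxu, zpow_natCast] at this
    rw [this]
    push_cast
    ring
  have h2 : (u : F) = (π : F) * (y : F) := mul_left_cancel₀ (pow_ne_zero k hG.pi_ne_zero) h1
  have h3 : u = π * y := Subtype.ext (by simpa using h2)
  apply hu
  rw [h3, map_mul, hG.red_pi, zero_mul]

end basic

section lift

variable {O : Subring F} {red : O →+* kk} {π : O}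

/-- One division step: a combination of the `m i` with coefficients in `O ∩ F0` lying in `π O`
has all its coefficients in `π (O ∩ F0)`. -/
theorem IsGauss.exists_div (hG : IsGauss O red π) (F0 : Subfield F) (hπF0 : (π : F) ∈ F0)
    {n : ℕ} (m : Fin n → O)
    (hind : ∀ c : Fin n → O, (∀ i, (c i : F) ∈ F0) → ∑ i, red (c i) * red (m i) = 0 →
      ∀ i, red (c i) = 0)
    (c : Fin n → O) (hc : ∀ i, (c i : F) ∈ F0) (z : O) (hz : ∑ i, c i * m i = π * z) :
    ∃ d : Fin n → O, (∀ i, (d i : F) ∈ F0) ∧ ∀ i, c i = π * d i := by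
  have h1 : ∑ i, red (c i) * red (m i) = 0 := by
    have := congrArg red hz
    rw [map_sum, map_mul, hG.red_pi, zero_mul] at this
    simpa [map_mul] using this
  have h2 := hind c hc h1
  choose d hd using fun i => hG.exists_eq_mul (h2 i)
  refine ⟨d, fun i => ?_, hd⟩
  have h3 : (d i : F) = (π : F)⁻¹ * (c i : F) := by
    rw [hd i]
    push_cast
    rw [← mul_assoc, inv_mul_cancel₀ hG.pi_ne_zero, one_mul]
  rw [h3]
  exact F0.mul_mem (F0.inv_mem hπF0) (hc i)

/-- **(a)** The `m i` are linearly independent over `F0` (elementary form). -/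
theorem IsGauss.eq_zero_of_sum_eq_zero (hG : IsGauss O red π) (F0 : Subfield F)
    (hπF0 : (π : F) ∈ F0) {n : ℕ} (m : Fin n → O)
    (hind : ∀ c : Fin n → O, (∀ i, (c i : F) ∈ F0) → ∑ i, red (c i) * red (m i) = 0 →
      ∀ i, red (c i) = 0)
    (c : Fin n → F) (hc : ∀ i, c i ∈ F0) (h0 : ∑ i, c i * (m i : F) = 0) : ∀ i, c i = 0 := by
  -- integral case, by repeated division
  have key : ∀ (j : ℕ) (c : Fin n → O), (∀ i, (c i : F) ∈ F0) → ∑ i, c i * m i = 0 →
      ∀ i, ∃ y : O, c i = π ^ j * y := by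
    intro j
    induction j with
    | zero => intro c _ _ i; exact ⟨c i, by simp⟩
    | succ j ih =>
      intro c hc h0 i
      obtain ⟨d, hd, hcd⟩ := hG.exists_div F0 hπF0 m hind c hc 0 (by rw [h0, mul_zero])
      have hπ0 : π ≠ 0 := fun h => hG.pi_ne_zero (by rw [h]; rfl)
      have h1 : π * ∑ i, d i * m i = 0 := by
        rw [Finset.mul_sum, ← h0]
        exact Finset.sum_congr rfl fun i _ => by rw [hcd i, mul_assoc]
      have h2 : ∑ i, d i * m i = 0 := (mul_eq_zero.mp h1).resolve_left hπ0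
      obtain ⟨y, hy⟩ := ih d hd h2 i
      exact ⟨y, by rw [hcd i, hy, pow_succ]; ring⟩
  obtain ⟨k, hk⟩ := hG.exists_pow_mul_mem_fin c
  let c' : Fin n → O := fun i => ⟨(π : F) ^ k * c i, hk i⟩
  have hc' : ∀ i, ((c' i : O) : F) ∈ F0 := fun i => F0.mul_mem (F0.pow_mem hπF0 k) (hc i)
  have h0' : ∑ i, c' i * m i = 0 := by
    apply Subtype.ext
    push_cast
    have : ∑ i, (π : F) ^ k * c i * (m i : F) = (π : F) ^ k * ∑ i, c i * (m i : F) := by
      rw [Finset.mul_sum]
      exact Finset.sum_congr rfl fun i _ => by ring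
    simp only [c']
    rw [this, h0, mul_zero]
  intro i
  have h1 : c' i = 0 := hG.eq_zero_of_forall_pow_dvd (c' i) fun j => key j c' hc' h0' i
  have h2 : (π : F) ^ k * c i = 0 := congrArg Subtype.val h1
  exact (mul_eq_zero.mp h2).resolve_left (pow_ne_zero k hG.pi_ne_zero)

/-- Integrality of coefficients: if a combination of the `m i` with coefficients in `F0` lies in
`O`, the coefficients lie in `O`. -/
theorem IsGauss.coeff_mem (hG : IsGauss O red π) (F0 : Subfield F)
    (hπF0 : (π : F) ∈ F0) {n : ℕ} (m : Fin n → O)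
    (hind : ∀ c : Fin n → O, (∀ i, (c i : F) ∈ F0) → ∑ i, red (c i) * red (m i) = 0 →
      ∀ i, red (c i) = 0)
    (c : Fin n → F) (hc : ∀ i, c i ∈ F0) (hx : ∑ i, c i * (m i : F) ∈ O) : ∀ i, c i ∈ O := by
  have key : ∀ (k : ℕ) (c : Fin n → F), (∀ i, c i ∈ F0) → (∀ i, (π : F) ^ k * c i ∈ O) →
      ∑ i, c i * (m i : F) ∈ O → ∀ i, c i ∈ O := by
    intro k
    induction k with
    | zero => intro c _ h _ i; simpa using h i
    | succ k ih =>
      intro c hc hk hx
      let c' : Fin n → O := fun i => ⟨(π : F) ^ (k + 1) * c i, hk i⟩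
      have hc' : ∀ i, ((c' i : O) : F) ∈ F0 :=
        fun i => F0.mul_mem (F0.pow_mem hπF0 (k + 1)) (hc i)
      have hz : ∑ i, c' i * m i = π * (π ^ k * ⟨_, hx⟩) := by
        apply Subtype.ext
        push_cast
        simp only [c']
        rw [← mul_assoc, ← pow_succ', Finset.mul_sum]
        exact Finset.sum_congr rfl fun i _ => by ring
      obtain ⟨d, -, hcd⟩ := hG.exists_div F0 hπF0 m hind c' hc' _ hz
      refine ih c hc (fun i => ?_) hx
      have h1 : (π : F) ^ (k + 1) * c i = (π : F) * (d i : F) := by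
        have := congrArg Subtype.val (hcd i)
        simpa [c'] using this
      have h2 : (π : F) ^ k * c i = (d i : F) := by
        apply mul_left_cancel₀ hG.pi_ne_zero
        rw [← h1, pow_succ]
        ring
      rw [h2]
      exact (d i).2
  obtain ⟨k, hk⟩ := hG.exists_pow_mul_mem_fin c
  exact key k c hc hk hx

/-- **Spanning** from the rank bound (elementary form): if any `n + 1` elements of `F` are
`F0`-dependent, the independent family `m` spans `F` over `F0`. -/
theorem IsGauss.exists_repr (hG : IsGauss O red π) (F0 : Subfield F)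
    (hπF0 : (π : F) ∈ F0) {n : ℕ} (m : Fin n → O)
    (hind : ∀ c : Fin n → O, (∀ i, (c i : F) ∈ F0) → ∑ i, red (c i) * red (m i) = 0 →
      ∀ i, red (c i) = 0)
    (hrank : ∀ x : Fin (n + 1) → F, ∃ c : Fin (n + 1) → F, (∀ i, c i ∈ F0) ∧
      ∑ i, c i * x i = 0 ∧ ∃ i, c i ≠ 0)
    (x : F) : ∃ c : Fin n → F, (∀ i, c i ∈ F0) ∧ x = ∑ i, c i * (m i : F) := by
  obtain ⟨c, hc, hsum, i0, hi0⟩ := hrank (Fin.cons x fun i => (m i : F))
  rw [Fin.sum_univ_succ] at hsum
  simp only [Fin.cons_zero, Fin.cons_succ] at hsum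
  have hc0 : c 0 ≠ 0 := by
    intro h0
    rw [h0, zero_mul, zero_add] at hsum
    have hall := hG.eq_zero_of_sum_eq_zero F0 hπF0 m hind (fun i => c i.succ)
      (fun i => hc _) hsum
    refine Fin.cases ?_ (fun i => ?_) i0 hi0
    · exact fun h => h h0
    · exact fun h => h (hall i)
  refine ⟨fun i => -(c 0)⁻¹ * c i.succ, fun i => ?_, ?_⟩
  · exact F0.mul_mem (F0.neg_mem (F0.inv_mem (hc 0))) (hc _)
  · have h1 : c 0 * x = -∑ i : Fin n, c i.succ * (m i : F) := eq_neg_of_add_eq_zero_left hsum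
    have h2 : x = (c 0)⁻¹ * (c 0 * x) := by
      rw [← mul_assoc, inv_mul_cancel₀ hc0, one_mul]
    rw [h2, h1, mul_neg, Finset.mul_sum, ← Finset.sum_neg_distrib]
    exact Finset.sum_congr rfl fun i _ => by ring

/-- **(b)** `O` is spanned over `O ∩ F0` by the `m i`. -/
theorem IsGauss.exists_repr_mem (hG : IsGauss O red π) (F0 : Subfield F)
    (hπF0 : (π : F) ∈ F0) {n : ℕ} (m : Fin n → O)
    (hind : ∀ c : Fin n → O, (∀ i, (c i : F) ∈ F0) → ∑ i, red (c i) * red (m i) = 0 →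
      ∀ i, red (c i) = 0)
    (hrank : ∀ x : Fin (n + 1) → F, ∃ c : Fin (n + 1) → F, (∀ i, c i ∈ F0) ∧
      ∑ i, c i * x i = 0 ∧ ∃ i, c i ≠ 0)
    (x : O) : ∃ c : Fin n → O, (∀ i, (c i : F) ∈ F0) ∧ x = ∑ i, c i * m i := by
  obtain ⟨c, hc, hx⟩ := hG.exists_repr F0 hπF0 m hind hrank (x : F)
  have hmem := hG.coeff_mem F0 hπF0 m hind c hc (by rw [← hx]; exact x.2)
  refine ⟨fun i => ⟨c i, hmem i⟩, fun i => hc i, ?_⟩
  apply Subtype.ext
  rw [hx]
  push_cast
  rfl

/-- **(c)** the reduction of `O` is spanned by the reductions of the `m i` over the reduction of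
`O ∩ F0`. -/
theorem IsGauss.exists_red_repr (hG : IsGauss O red π) (F0 : Subfield F)
    (hπF0 : (π : F) ∈ F0) {n : ℕ} (m : Fin n → O)
    (hind : ∀ c : Fin n → O, (∀ i, (c i : F) ∈ F0) → ∑ i, red (c i) * red (m i) = 0 →
      ∀ i, red (c i) = 0)
    (hrank : ∀ x : Fin (n + 1) → F, ∃ c : Fin (n + 1) → F, (∀ i, c i ∈ F0) ∧
      ∑ i, c i * x i = 0 ∧ ∃ i, c i ≠ 0)
    (x : O) : ∃ c : Fin n → O, (∀ i, (c i : F) ∈ F0) ∧ red x = ∑ i, red (c i) * red (m i) := by
  obtain ⟨c, hc, hx⟩ := hG.exists_repr_mem F0 hπF0 m hind hrank x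
  exact ⟨c, hc, by rw [hx, map_sum]; simp [map_mul]⟩

end lift

section structure_

variable {O : Subring F} {red : O →+* kk} {π : O}

/-- Elements with nonzero reduction are units. -/
theorem IsGauss.isUnit (hG : IsGauss O red π) {u : O} (hu : red u ≠ 0) : IsUnit u := by
  have hu0 : (u : F) ≠ 0 := by
    intro h
    apply hu
    have : u = 0 := Subtype.ext h
    rw [this, map_zero]
  refine isUnit_iff_exists_inv.mpr ⟨⟨(u : F)⁻¹, hG.inv_mem hu⟩, Subtype.ext ?_⟩
  push_cast
  exact mul_inv_cancel₀ hu0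

theorem IsGauss.isUnit_iff (hG : IsGauss O red π) (u : O) : IsUnit u ↔ red u ≠ 0 :=
  ⟨fun h => (h.map red).ne_zero, fun h => hG.isUnit h⟩

theorem IsGauss.pi_ne_zero' (hG : IsGauss O red π) : π ≠ 0 :=
  fun h => hG.pi_ne_zero (by rw [h]; rfl)

/-- every nonzero element of `O` is a unit times a power of `π` -/
theorem IsGauss.exists_pow_mul_unit (hG : IsGauss O red π) {x : O} (hx : x ≠ 0) :
    ∃ (k : ℕ) (u : O), x = π ^ k * u ∧ red u ≠ 0 := by
  have hx' : (x : F) ≠ 0 := fun h0 => hx (Subtype.ext h0)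
  obtain ⟨n, u, hxu, hu⟩ := hG.exists_zpow hx'
  have hn : 0 ≤ n := hG.nonneg_of_mem x.2 hxu hu
  obtain ⟨k, rfl⟩ : ∃ k : ℕ, n = (k : ℤ) := ⟨n.toNat, by omega⟩
  exact ⟨k, u, Subtype.ext (by simpa using hxu), hu⟩

theorem IsGauss.irreducible (hG : IsGauss O red π) : Irreducible π := by
  rw [irreducible_iff]
  refine ⟨fun h => (hG.isUnit_iff π).mp h hG.red_pi, fun a b hab => ?_⟩
  by_cases ha : red a = 0
  · right
    obtain ⟨a', rfl⟩ := hG.exists_eq_mul ha
    have h1 : π * 1 = π * (a' * b) := by rw [mul_one, ← mul_assoc]; exact hab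
    have h2 : 1 = a' * b := mul_left_cancel₀ hG.pi_ne_zero' h1
    exact isUnit_iff_exists_inv'.mpr ⟨a', h2.symm⟩
  · exact Or.inl (hG.isUnit ha)

/-- A Gauss ring is a discrete valuation ring. -/
theorem IsGauss.isDiscreteValuationRing (hG : IsGauss O red π) : IsDiscreteValuationRing O := by
  refine IsDiscreteValuationRing.ofHasUnitMulPowIrreducibleFactorization
    ⟨π, hG.irreducible, fun {x} hx => ?_⟩
  obtain ⟨k, u, hxu, hu⟩ := hG.exists_pow_mul_unit hx
  exact ⟨k, ⟨(hG.isUnit hu).unit, by rw [hxu]; simp⟩⟩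

/-- the maximal ideal is `π O` -/
theorem IsGauss.not_isUnit_iff (hG : IsGauss O red π) (x : O) :
    ¬ IsUnit x ↔ ∃ y : O, x = π * y := by
  rw [hG.isUnit_iff, not_not, hG.red_eq_zero_iff]

/-- The valuation subring of `F` with the same carrier. -/
def IsGauss.valuationSubring (hG : IsGauss O red π) : ValuationSubring F :=
  { O with mem_or_inv_mem' := hG.mem_or_inv_mem }

theorem IsGauss.mem_valuationSubring (hG : IsGauss O red π) (x : F) :
    x ∈ hG.valuationSubring ↔ x ∈ O := Iff.rfl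

theorem IsGauss.valuationSubring_toSubring (hG : IsGauss O red π) :
    hG.valuationSubring.toSubring = O := rfl

/-- `O` is integrally closed in `F`: an element of `F` integral over a subring of `O` lies in
`O`. -/
theorem IsGauss.mem_of_isIntegral (hG : IsGauss O red π) (R : Subring F) (hR : R ≤ O) (x : F)
    (hx : IsIntegral R x) : x ∈ O := by
  obtain ⟨p, hp, hpx⟩ := hx
  let ι : R →+* hG.valuationSubring := Subring.inclusion hR
  have hint : IsIntegral hG.valuationSubring x := by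
    refine ⟨p.map ι, hp.map ι, ?_⟩
    rw [Polynomial.eval₂_map]
    exact hpx
  obtain ⟨y, hy⟩ := IsIntegrallyClosed.isIntegral_iff.mp hint
  rw [← hy]
  exact y.2

/-- Restriction of a Gauss ring to a subfield (given as a field with a ring hom into `F`)
containing the uniformizer. -/
theorem IsGauss.comap (hG : IsGauss O red π) {F' : Type*} [Field F'] (f : F' →+* F)
    (π' : F') (hπ' : f π' = π) :
    IsGauss (kk := kk) (O.comap f)
      (red.comp ((f.restrict (O.comap f) O fun _ hx => hx)))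
      ⟨π', by rw [Subring.mem_comap, hπ']; exact π.2⟩ := by
  have hπ'0 : π' ≠ 0 := by
    intro h
    apply hG.pi_ne_zero
    rw [← hπ', h, map_zero]
  refine ⟨hπ'0, ?_, ?_, ?_⟩
  · have : (f.restrict (O.comap f) O fun _ hx => hx)
        ⟨π', by rw [Subring.mem_comap, hπ']; exact π.2⟩ = π := Subtype.ext hπ'
    rw [RingHom.comp_apply, this, hG.red_pi]
  · intro x hx
    rw [RingHom.comp_apply] at hx
    obtain ⟨y, hy⟩ := hG.exists_eq_mul hx
    have hy' : f (x : F') = (π : F) * (y : F) := congrArg Subtype.val hy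
    have hfy : f (π'⁻¹ * (x : F')) = (y : F) := by
      rw [map_mul, map_inv₀, hπ', hy', ← mul_assoc, inv_mul_cancel₀ hG.pi_ne_zero, one_mul]
    refine ⟨⟨π'⁻¹ * (x : F'), by rw [Subring.mem_comap, hfy]; exact y.2⟩, Subtype.ext ?_⟩
    push_cast
    rw [← mul_assoc, mul_inv_cancel₀ hπ'0, one_mul]
  · intro x hx
    have hfx : f x ≠ 0 := fun h => hx (f.injective (by rw [h, map_zero]))
    obtain ⟨n, u, hxu, hu⟩ := hG.exists_zpow hfx
    have hfu : f (π' ^ (-n) * x) = (u : F) := by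
      rw [map_mul, map_zpow₀, hπ', hxu, ← mul_assoc, ← zpow_add₀ hG.pi_ne_zero]
      simp
    refine ⟨n, ⟨π' ^ (-n) * x, by rw [Subring.mem_comap, hfu]; exact u.2⟩, ?_, ?_⟩
    · push_cast
      rw [← mul_assoc, ← zpow_add₀ hπ'0]
      simp
    · rw [RingHom.comp_apply]
      have : (f.restrict (O.comap f) O fun _ hx => hx)
          ⟨π' ^ (-n) * x, by rw [Subring.mem_comap, hfu]; exact u.2⟩ = u := Subtype.ext hfu
      rw [this]
      exact hu

end structure_

section integral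

variable {O : Subring F} {red : O →+* kk} {π : O}

/-- **(d)** every element of `O` is integral over `O ∩ F0`. -/
theorem IsGauss.isIntegral_of_mem (hG : IsGauss O red π) (F0 : Subfield F)
    (hπF0 : (π : F) ∈ F0) {n : ℕ} (m : Fin n → O)
    (hind : ∀ c : Fin n → O, (∀ i, (c i : F) ∈ F0) → ∑ i, red (c i) * red (m i) = 0 →
      ∀ i, red (c i) = 0)
    (hrank : ∀ x : Fin (n + 1) → F, ∃ c : Fin (n + 1) → F, (∀ i, c i ∈ F0) ∧
      ∑ i, c i * x i = 0 ∧ ∃ i, c i ≠ 0)
    (x : F) (hx : x ∈ O) : IsIntegral (O ⊓ F0.toSubring : Subring F) x := by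
  let S : Subalgebra (O ⊓ F0.toSubring : Subring F) F :=
    { toSubsemiring := O.toSubsemiring
      algebraMap_mem' := fun r => r.2.1 }
  have heq : Subalgebra.toSubmodule S =
      Submodule.span (O ⊓ F0.toSubring : Subring F) (Set.range fun i => (m i : F)) := by
    apply le_antisymm
    · intro y hy
      obtain ⟨c, hc, hyc⟩ := hG.exists_repr_mem F0 hπF0 m hind hrank ⟨y, hy⟩
      have hy' : y = ∑ i, (c i : F) * (m i : F) := by
        have := congrArg Subtype.val hyc
        simpa using this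
      rw [hy']
      refine Submodule.sum_mem _ fun i _ => ?_
      have : (c i : F) * (m i : F) =
          (⟨(c i : F), ⟨(c i).2, hc i⟩⟩ : (O ⊓ F0.toSubring : Subring F)) • (m i : F) := rfl
      rw [this]
      exact Submodule.smul_mem _ _ (Submodule.subset_span ⟨i, rfl⟩)
    · refine Submodule.span_le.mpr ?_
      rintro _ ⟨i, rfl⟩
      exact (m i).2
  have hfg : (Subalgebra.toSubmodule S).FG := by
    rw [heq]
    exact Submodule.fg_span (Set.finite_range _)
  exact IsIntegral.of_mem_of_fg S hfg x hx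

/-- **(d)** `O` is exactly the set of elements of `F` integral over `O ∩ F0`. -/
theorem IsGauss.isIntegral_iff (hG : IsGauss O red π) (F0 : Subfield F)
    (hπF0 : (π : F) ∈ F0) {n : ℕ} (m : Fin n → O)
    (hind : ∀ c : Fin n → O, (∀ i, (c i : F) ∈ F0) → ∑ i, red (c i) * red (m i) = 0 →
      ∀ i, red (c i) = 0)
    (hrank : ∀ x : Fin (n + 1) → F, ∃ c : Fin (n + 1) → F, (∀ i, c i ∈ F0) ∧
      ∑ i, c i * x i = 0 ∧ ∃ i, c i ≠ 0)
    (x : F) : IsIntegral (O ⊓ F0.toSubring : Subring F) x ↔ x ∈ O :=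
  ⟨fun h => hG.mem_of_isIntegral _ inf_le_left x h,
    fun h => hG.isIntegral_of_mem F0 hπF0 m hind hrank x h⟩

/-- **(e)** uniqueness: a valuation subring of `F` containing `O ∩ F0` in which `π` is not
invertible is `O`. -/
theorem IsGauss.eq_of_le (hG : IsGauss O red π) (F0 : Subfield F)
    (hπF0 : (π : F) ∈ F0) {n : ℕ} (m : Fin n → O)
    (hind : ∀ c : Fin n → O, (∀ i, (c i : F) ∈ F0) → ∑ i, red (c i) * red (m i) = 0 →
      ∀ i, red (c i) = 0)
    (hrank : ∀ x : Fin (n + 1) → F, ∃ c : Fin (n + 1) → F, (∀ i, c i ∈ F0) ∧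
      ∑ i, c i * x i = 0 ∧ ∃ i, c i ≠ 0)
    (W : ValuationSubring F) (hW : (O ⊓ F0.toSubring : Subring F) ≤ W.toSubring)
    (hπW : (π : F)⁻¹ ∉ W) : W.toSubring = O := by
  have hOW : O ≤ W.toSubring := by
    intro x hx
    obtain ⟨p, hp, hpx⟩ := hG.isIntegral_of_mem F0 hπF0 m hind hrank x hx
    let ι : (O ⊓ F0.toSubring : Subring F) →+* W := Subring.inclusion hW
    have hint : IsIntegral W x := by
      refine ⟨p.map ι, hp.map ι, ?_⟩
      rw [Polynomial.eval₂_map]
      exact hpx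
    obtain ⟨y, hy⟩ := IsIntegrallyClosed.isIntegral_iff.mp hint
    rw [← hy]
    exact y.2
  refine le_antisymm ?_ hOW
  intro x hx
  by_contra hxO
  have hx0 : x ≠ 0 := fun h => hxO (by rw [h]; exact O.zero_mem)
  obtain ⟨k, u, hxu, hu⟩ := hG.exists_zpow hx0
  have hk : k < 0 := by
    by_contra hk
    exact hxO (mem_of_nonneg hxu (not_lt.mp hk))
  have hu0 : (u : F) ≠ 0 := by
    intro h
    apply hu
    have : u = 0 := Subtype.ext h
    rw [this, map_zero]
  have hπk : (π : F) ^ k ∈ W := by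
    have : (π : F) ^ k = x * (u : F)⁻¹ := by
      rw [hxu, mul_assoc, mul_inv_cancel₀ hu0, mul_one]
    rw [this]
    exact W.toSubring.mul_mem hx (hOW (hG.inv_mem hu))
  apply hπW
  have : (π : F)⁻¹ = (π : F) ^ k * (π : F) ^ (-k - 1).toNat := by
    rw [← zpow_natCast, ← zpow_add₀ hG.pi_ne_zero, ← zpow_neg_one]
    congr 1
    omega
  rw [this]
  exact W.toSubring.mul_mem hπk (W.toSubring.pow_mem (hOW π.2) _)

end integral

section mathlibForm

variable {O : Subring F} {red : O →+* kk} {π : O}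

/-- the rank hypothesis from `finrank ≤ n` -/
theorem hrank_of_finrank_le (F0 : Subfield F) [FiniteDimensional F0 F] {n : ℕ}
    (h : Module.finrank F0 F ≤ n) (x : Fin (n + 1) → F) :
    ∃ c : Fin (n + 1) → F, (∀ i, c i ∈ F0) ∧ ∑ i, c i * x i = 0 ∧ ∃ i, c i ≠ 0 := by
  have hnot : ¬ LinearIndependent F0 x := by
    intro hli
    have := hli.fintype_card_le_finrank
    rw [Fintype.card_fin] at this
    omega
  obtain ⟨g, hg, i, hi⟩ := Fintype.not_linearIndependent_iff.mp hnot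
  refine ⟨fun i => (g i : F), fun i => (g i).2, ?_, i, fun h => hi (Subtype.ext h)⟩
  rw [← hg]
  rfl

/-- **(a)**, Mathlib form. -/
theorem IsGauss.linearIndependent (hG : IsGauss O red π) (F0 : Subfield F)
    (hπF0 : (π : F) ∈ F0) {n : ℕ} (m : Fin n → O)
    (hind : ∀ c : Fin n → O, (∀ i, (c i : F) ∈ F0) → ∑ i, red (c i) * red (m i) = 0 →
      ∀ i, red (c i) = 0) :
    LinearIndependent F0 (fun i => (m i : F)) := by
  rw [Fintype.linearIndependent_iff]
  intro g hg i
  have := hG.eq_zero_of_sum_eq_zero F0 hπF0 m hind (fun i => (g i : F)) (fun i => (g i).2) hg i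
  exact Subtype.ext this

/-- the `m i` span `F` over `F0`, Mathlib form. -/
theorem IsGauss.span_eq_top (hG : IsGauss O red π) (F0 : Subfield F)
    (hπF0 : (π : F) ∈ F0) {n : ℕ} (m : Fin n → O)
    (hind : ∀ c : Fin n → O, (∀ i, (c i : F) ∈ F0) → ∑ i, red (c i) * red (m i) = 0 →
      ∀ i, red (c i) = 0)
    (hrank : ∀ x : Fin (n + 1) → F, ∃ c : Fin (n + 1) → F, (∀ i, c i ∈ F0) ∧
      ∑ i, c i * x i = 0 ∧ ∃ i, c i ≠ 0) :
    Submodule.span F0 (Set.range fun i => (m i : F)) = ⊤ := by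
  rw [eq_top_iff]
  intro x _
  obtain ⟨c, hc, hx⟩ := hG.exists_repr F0 hπF0 m hind hrank x
  rw [hx]
  refine Submodule.sum_mem _ fun i _ => ?_
  have : c i * (m i : F) = (⟨c i, hc i⟩ : F0) • (m i : F) := rfl
  rw [this]
  exact Submodule.smul_mem _ _ (Submodule.subset_span ⟨i, rfl⟩)

end mathlibForm

end Fermat.Agent.S18.ResBasis
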