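/-
S18 bridge, leaf B2 (abstract part 2): the Gauss ring of a line.

`O ⊆ F` a discrete Gauss ring (`ResBasis.IsGauss`), `K` a field of constants with `K → F`,
`t ∈ O` whose reduction is transcendental over the reductions of the constants.  Then
`O ∩ K(t)` is the localisation of `A[t]` at `π`, `A := O ∩ K`: every `c ∈ O ∩ K(t)` is
`P(t) / Q(t)` with `P, Q ∈ A[X]` and `Q` of nonzero reduction; in particular the reduction of
`O ∩ K(t)` consists of rational functions in the reduction of `t`.  Mathlib + ResBasis.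
-/
import Mathlib
import Fermat.Agent.S18.ResBasis

set_option autoImplicit false

namespace Fermat.Agent.S18.GaussLine

open Polynomial Fermat.Agent.S18.ResBasis

variable {kk : Type*} [Field kk]

section normalize

variable {K : Type*} [Field K] {A : Subring K} {redA : A →+* kk} {πA : A}

/-- Gauss normalisation of a nonzero polynomial over the fraction field: it is a power of the
uniformizer times a polynomial over `A` with nonzero reduction. -/
theorem exists_normalize (hG : IsGauss A redA πA) (Q : K[X]) (hQ : Q ≠ 0) :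
    ∃ (n : ℤ) (Q' : A[X]), Q'.map redA ≠ 0 ∧ Q = C ((πA : K) ^ n) * Q'.map A.subtype := by
  have h : ∀ i : ℕ, ∃ (n : ℤ) (u : A), Q.coeff i ≠ 0 →
      (Q.coeff i = (πA : K) ^ n * (u : K) ∧ redA u ≠ 0) := by
    intro i
    by_cases hi : Q.coeff i = 0
    · exact ⟨0, 0, fun h => absurd hi h⟩
    · obtain ⟨n, u, h1, h2⟩ := hG.exists_zpow hi
      exact ⟨n, u, fun _ => ⟨h1, h2⟩⟩
  choose n u hnu using h
  obtain ⟨i0, hi0, hmin⟩ := Finset.exists_min_image Q.support n (support_nonempty.mpr hQ)
  have hi0' : Q.coeff i0 ≠ 0 := mem_support_iff.mp hi0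
  have hπ := hG.pi_ne_zero
  set S : K[X] := C ((πA : K) ^ (-(n i0))) * Q with hS
  have hScoeff : ∀ i, S.coeff i = (πA : K) ^ (-(n i0)) * Q.coeff i := fun i => by
    rw [hS, coeff_C_mul]
  have hSmem : (↑S.coeffs : Set K) ⊆ A := by
    intro c hc
    obtain ⟨i, hi, rfl⟩ := mem_coeffs_iff.mp (Finset.mem_coe.mp hc)
    have hQi : Q.coeff i ≠ 0 := by
      intro h0
      rw [mem_support_iff, hScoeff, h0, mul_zero] at hi
      exact hi rfl
    have hle : n i0 ≤ n i := hmin i (mem_support_iff.mpr hQi)
    have h1 : S.coeff i = (πA : K) ^ (n i - n i0) * (u i : K) := by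
      rw [hScoeff, (hnu i hQi).1, ← mul_assoc, ← zpow_add₀ hπ]
      congr 2
      ring
    exact mem_of_nonneg h1 (by omega)
  refine ⟨n i0, S.toSubring A hSmem, ?_, ?_⟩
  · intro h0
    have h1 : redA ((S.toSubring A hSmem).coeff i0) = 0 := by
      rw [← coeff_map, h0, coeff_zero]
    have h2 : (S.toSubring A hSmem).coeff i0 = u i0 := by
      apply Subtype.ext
      rw [coeff_toSubring, hScoeff, (hnu i0 hi0').1, ← mul_assoc, ← zpow_add₀ hπ]
      simp
    rw [h2] at h1
    exact (hnu i0 hi0').2 h1
  · rw [map_toSubring, hS, ← mul_assoc, ← C_mul, ← zpow_add₀ hπ]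
    simp

end normalize

section line

variable {F : Type*} [Field F] {O : Subring F} {red : O →+* kk} {π : O}
variable (K : Type*) [Field K] [Algebra K F]

/-- inclusion of the constants of `K` lying in `O` into `O` -/
def constIncl (O : Subring F) : O.comap (algebraMap K F) →+* O :=
  (algebraMap K F).restrict (O.comap (algebraMap K F)) O fun _ h => h

theorem coe_constIncl (a : O.comap (algebraMap K F)) :
    ((constIncl K O a : O) : F) = algebraMap K F (a : K) := rfl

/-- evaluation at `t ∈ O` of a polynomial with constant coefficients in `O` -/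
noncomputable def evalO (t : O) (P : (O.comap (algebraMap K F))[X]) : O :=
  P.eval₂ (constIncl K O) t

theorem coe_evalO (t : O) (P : (O.comap (algebraMap K F))[X]) :
    ((evalO K t P : O) : F) = aeval (t : F) (P.map (O.comap (algebraMap K F)).subtype) := by
  have h1 := hom_eval₂ P (constIncl K O) O.subtype t
  rw [aeval_def, eval₂_map]
  exact h1

theorem red_evalO (red : O →+* kk) (t : O) (P : (O.comap (algebraMap K F))[X]) :
    red (evalO K t P) = (P.map (red.comp (constIncl K O))).eval (red t) := by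
  have h1 := hom_eval₂ P (constIncl K O) red t
  rw [eval_map]
  exact h1

variable {K}

/-- **The Gauss ring of the line.**  If the reduction of `t ∈ O` is transcendental over the
reductions of the constants, every element of `O ∩ K(t)` is `P(t) / Q(t)` with `P, Q` polynomials
over `A := O ∩ K` and `Q` of nonzero reduction. -/
theorem exists_evalO_of_mem_adjoin (hG : IsGauss O red π) (π0 : K) (hπ0 : algebraMap K F π0 = π)
    (t : O)
    (htr : ∀ P : (O.comap (algebraMap K F))[X], P.map (red.comp (constIncl K O)) ≠ 0 →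
      (P.map (red.comp (constIncl K O))).eval (red t) ≠ 0)
    (c : O) (hc : (c : F) ∈ IntermediateField.adjoin K {(t : F)}) :
    ∃ P Q : (O.comap (algebraMap K F))[X], Q.map (red.comp (constIncl K O)) ≠ 0 ∧
      c * evalO K t Q = evalO K t P := by
  have hGK := hG.comap (algebraMap K F) π0 hπ0
  have hπ0mem : π0 ∈ O.comap (algebraMap K F) := by
    rw [Subring.mem_comap, hπ0]; exact π.2
  set πA : O.comap (algebraMap K F) := ⟨π0, hπ0mem⟩ with hπA
  have hinclπ : constIncl K O πA = π := Subtype.ext hπ0
  by_cases hc0 : c = 0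
  · refine ⟨0, 1, ?_, ?_⟩
    · rw [Polynomial.map_one]; exact one_ne_zero
    · rw [hc0, zero_mul]
      simp [evalO]
  obtain ⟨r, s, hrs⟩ := (IntermediateField.mem_adjoin_simple_iff K (c : F)).mp hc
  have hcF : (c : F) ≠ 0 := fun h => hc0 (Subtype.ext h)
  have hs0 : aeval (t : F) s ≠ 0 := by
    intro h
    rw [h, div_zero] at hrs
    exact hcF hrs
  have hr0 : aeval (t : F) r ≠ 0 := by
    intro h
    rw [h, zero_div] at hrs
    exact hcF hrs
  have hs : s ≠ 0 := fun h => hs0 (by rw [h, map_zero])
  have hr : r ≠ 0 := fun h => hr0 (by rw [h, map_zero])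
  obtain ⟨n, Q', hQ', hsQ⟩ := exists_normalize hGK s hs
  obtain ⟨e, P', hP', hrP⟩ := exists_normalize hGK r hr
  -- values at `t`
  have hval : ∀ (R : K[X]) (m : ℤ) (R' : (O.comap (algebraMap K F))[X]),
      R = C (((πA : O.comap (algebraMap K F)) : K) ^ m) * R'.map (O.comap (algebraMap K F)).subtype →
      aeval (t : F) R = (π : F) ^ m * ((evalO K t R' : O) : F) := by
    intro R m R' hR
    rw [hR, map_mul, aeval_C, coe_evalO, map_zpow₀]
    congr 2
  have hsv := hval s n Q' hsQ
  have hrv := hval r e P' hrP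
  have hQu : red (evalO K t Q') ≠ 0 := by rw [red_evalO]; exact htr Q' hQ'
  have hPu : red (evalO K t P') ≠ 0 := by rw [red_evalO]; exact htr P' hP'
  have hQinv : ((evalO K t Q' : O) : F)⁻¹ ∈ O := hG.inv_mem hQu
  have hQ0 : ((evalO K t Q' : O) : F) ≠ 0 := by
    intro h
    apply hQu
    have : evalO K t Q' = 0 := Subtype.ext h
    rw [this, map_zero]
  -- `c = π ^ (e - n) * (P'(t) * Q'(t)⁻¹)`
  set w : O := evalO K t P' * ⟨_, hQinv⟩ with hw
  have hwred : red w ≠ 0 := by
    rw [hw, map_mul]
    refine mul_ne_zero hPu ?_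
    intro h
    have h1 : evalO K t Q' * ⟨_, hQinv⟩ = 1 := Subtype.ext (by
      push_cast
      exact mul_inv_cancel₀ hQ0)
    have h2 := congrArg red h1
    rw [map_mul, h, mul_zero, map_one] at h2
    exact zero_ne_one h2
  have hcw : (c : F) = (π : F) ^ (e - n) * (w : F) := by
    rw [hrs, hsv, hrv, hw, zpow_sub₀ hG.pi_ne_zero]
    push_cast
    field_simp
  have hen : 0 ≤ e - n := hG.nonneg_of_mem c.2 hcw hwred
  obtain ⟨k, hk⟩ : ∃ k : ℕ, e - n = (k : ℤ) := ⟨(e - n).toNat, by omega⟩
  refine ⟨C (πA ^ k) * P', Q', hQ', ?_⟩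
  apply Subtype.ext
  have h1 : evalO K t (C (πA ^ k) * P') = π ^ k * evalO K t P' := by
    rw [evalO, eval₂_mul, eval₂_C, map_pow, hinclπ]
    rfl
  rw [h1]
  push_cast
  rw [hcw, hk, zpow_natCast, hw]
  push_cast
  field_simp

/-- The reduction of an element of `O ∩ K(t)` is a rational function of the reduction of `t`. -/
theorem exists_red_eq_div (hG : IsGauss O red π) (π0 : K) (hπ0 : algebraMap K F π0 = π)
    (t : O)
    (htr : ∀ P : (O.comap (algebraMap K F))[X], P.map (red.comp (constIncl K O)) ≠ 0 →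
      (P.map (red.comp (constIncl K O))).eval (red t) ≠ 0)
    (c : O) (hc : (c : F) ∈ IntermediateField.adjoin K {(t : F)}) :
    ∃ P Q : (O.comap (algebraMap K F))[X], Q.map (red.comp (constIncl K O)) ≠ 0 ∧
      red c * (Q.map (red.comp (constIncl K O))).eval (red t) =
        (P.map (red.comp (constIncl K O))).eval (red t) := by
  obtain ⟨P, Q, hQ, h⟩ := exists_evalO_of_mem_adjoin hG π0 hπ0 t htr c hc
  refine ⟨P, Q, hQ, ?_⟩
  have := congrArg red h
  rwa [map_mul, red_evalO, red_evalO] at this

end line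

end Fermat.Agent.S18.GaussLine
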