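/-
S18 bridge, leaf B2 (instantiation): degree and residue basis of the Gauss ring of the modular
function field `F_K = K(j(q^d) : d ∣ N)` over a discrete valuation ring `A ⊂ K`, via the `ψ(N)`
monomials of S28.

* `isGauss` : the Gauss ring `OvSubring A φ N` (helper12's `GaussA0`) is a discrete Gauss ring in
  the sense of `ResBasis.IsGauss`, with uniformizer `π` and reduction `redv`.
* `exists_monomials` : `ψ(N)` monomials in the `j(q^d)` independent over `k[j]`, for every field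
  `k` in which the primes dividing `N` are invertible (S28, through the algebraic closure).
* `exists_poly_of_mem_adjoin` : `Ov ∩ K(j)` is the localisation of `A[j]` at `π`.
* `exists_repr`, `exists_repr_mem`, `isIntegral_iff`, … : the monomials are a `K(j)`-basis of
  `F_K`, the Gauss ring is free on them over `Ov ∩ K(j)` and is its integral closure.
* `redv_mem_full`, `redF` : the reduction takes values in `F_k = k(j(q^d))`, onto if `φ` is.
-/
import Mathlib
import Fermat.Agent.S18.GaussA0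
import Fermat.Agent.S18.ResBasis
import Fermat.Agent.S18.GaussLine
import Fermat.Agent.S18.FieldDef
import Fermat.Agent.S28.CruxLFinal

set_option autoImplicit false

noncomputable section

open ModularCurve Polynomial

namespace Fermat.Agent.S18.GaussDeg

open Fermat.Agent.S18.GaussA0 Fermat.Agent.S18.ResBasis Fermat.Agent.S28

/-! ### The `ψ(N)` monomials over an arbitrary field -/

/-- **The monomials.**  For every field `k` in which the primes dividing `N` are invertible there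
are `ψ(N)` monomials in the `j(q^d)`, `d ∣ N`, linearly independent over `k[j]`. -/
theorem exists_monomials (k : Type*) [Field k] (N : ℕ) (hN : 0 < N)
    (hNk : ∀ p : ℕ, p.Prime → p ∣ N → (p : k) ≠ 0) :
    ∃ m : Fin (dedekindPsi N) → (ℕ →₀ ℕ), (∀ i, ∀ d ∈ (m i).support, d ∣ N) ∧
      ∀ c : Fin (dedekindPsi N) → Polynomial k,
        ∑ i, Polynomial.aeval (jqModC k) (c i) * Defs.mono k (m i) = 0 → ∀ i, c i = 0 := by
  refine CruxL.exists_monomials_of_modData (AlgebraicClosure k)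
    (algebraMap k (AlgebraicClosure k)) N hN ?_
    (fun p _ hp _ => haveI : Fact p.Prime := ⟨hp⟩; CruxL.modData p _)
  intro p hp hpN h0
  apply hNk p hp hpN
  have h1 : algebraMap k (AlgebraicClosure k) (p : k) = 0 := by rw [map_natCast]; exact h0
  exact (map_eq_zero _).mp h1

/-- a monomial in the `j(q^d)`, `d ∣ N`, lies in the function field. -/
theorem mono_mem_full (K : Type*) [Field K] (N : ℕ) (hN : 0 < N) (m : ℕ →₀ ℕ)
    (hm : ∀ d ∈ m.support, d ∣ N) : Defs.mono K m ∈ modularFunctionFieldFullC K N := by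
  rw [Defs.mono, Finsupp.prod]
  refine prod_mem fun d hd => pow_mem ?_ _
  have hdN := hm d hd
  have hd0 : d ≠ 0 := fun h => hN.ne' (by rw [h, zero_dvd_iff] at hdN; exact hdN)
  have : NeZero d := ⟨hd0⟩
  rw [Defs.jd_of_neZero]
  exact jqModCd_mem_full K N hdN

section setting

variable {K : Type*} [Field K] (A : ValuationSubring K) {k : Type*} [Field k] (φ : ↥A →+* k)
  (N : ℕ) {π : ↥A}

/-! ### Units and constants -/

variable {A φ} in
/-- the maximal ideal of `A` is `π A`: an element with nonzero reduction is a unit. -/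
theorem isUnit_of_phi_ne_zero (hφ : ∀ x, φ x = 0 ↔ π ∣ x) (hπ0 : π ≠ 0) (x : ↥A)
    (hx : φ x ≠ 0) : IsUnit x := by
  have hx' : ¬ π ∣ x := fun h => hx ((hφ x).mpr h)
  rcases ValuationRing.dvd_total x π with h | h
  · obtain ⟨y, hy⟩ := h
    have h1 : φ x * φ y = 0 := by rw [← map_mul, ← hy, (hφ π).mpr dvd_rfl]
    rcases mul_eq_zero.mp h1 with h2 | h2
    · exact absurd h2 hx
    · obtain ⟨z, rfl⟩ := (hφ y).mp h2
      have h3 : π * 1 = π * (x * z) := by
        rw [mul_one]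
        calc π = x * (π * z) := hy
          _ = π * (x * z) := by ring
      have h4 : 1 = x * z := mul_left_cancel₀ hπ0 h3
      exact IsUnit.of_mul_eq_one z h4.symm
  · exact absurd h hx'

variable {A φ N} in
/-- a constant of `K` lying in the Gauss ring lies in `A`. -/
theorem mem_of_algebraMap_mem (hφ : ∀ x, φ x = 0 ↔ π ∣ x) (hπ0 : π ≠ 0) (a : K)
    (ha : algebraMap K ↥(modularFunctionFieldFullC K N) a ∈ OvSubring A φ N) : a ∈ A := by
  obtain ⟨a', b, hb, h⟩ := (mem_OvSubring_iff' A φ N _).mp ha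
  have hcoe : ((algebraMap K ↥(modularFunctionFieldFullC K N) a :
      ↥(modularFunctionFieldFullC K N)) : LaurentSeries K) = HahnSeries.C a := by
    rw [← algebraMap_eq_C]; rfl
  rw [hcoe] at h
  obtain ⟨n, hn⟩ : ∃ n : ℤ, (rho φ b).coeff n ≠ 0 := by
    by_contra hall
    push Not at hall
    exact hb (HahnSeries.ext (funext hall))
  rw [rho_coeff] at hn
  have hu := isUnit_of_phi_ne_zero hφ hπ0 (b.coeff n) hn
  have h1 : a * ((b.coeff n : ↥A) : K) = ((a'.coeff n : ↥A) : K) := by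
    have := congrArg (fun s : LaurentSeries K => s.coeff n) h
    simp only [incl_coeff, HahnSeries.C_mul_eq_smul, HahnSeries.coeff_smul, smul_eq_mul] at this
    exact this
  obtain ⟨v, hv⟩ := hu
  have hvK : ((b.coeff n : ↥A) : K) * ((v⁻¹ : (↥A)ˣ) : ↥A) = 1 := by
    rw [← hv]
    have := v.mul_inv
    exact_mod_cast congrArg (Subtype.val) this
  have h2 : a = ((a'.coeff n * ((v⁻¹ : (↥A)ˣ) : ↥A) : ↥A) : K) := by
    push_cast
    rw [← h1, mul_assoc, hvK, mul_one]
  rw [h2]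
  exact (a'.coeff n * ((v⁻¹ : (↥A)ˣ) : ↥A)).2

/-! ### The Gauss ring is a discrete Gauss ring -/

/-- **(D1)** helper12's Gauss ring of `F_K` is a discrete Gauss ring (`ResBasis.IsGauss`). -/
theorem isGauss (hφ : ∀ x, φ x = 0 ↔ π ∣ x) (hπ0 : π ≠ 0)
    (hkrull : ∀ c : ↥A, c ≠ 0 → ∃ n : ℕ, ¬ π ^ n ∣ c) :
    IsGauss (OvSubring A φ N) (redv A φ N) (constO A φ N π) := by
  have hπF : algebraMap K ↥(modularFunctionFieldFullC K N) (π : K) ≠ 0 := by
    rw [Ne, map_eq_zero]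
    exact fun h => hπ0 (Subtype.ext h)
  have key : ∀ x : ↥(modularFunctionFieldFullC K N), x ≠ 0 → x ∈ OvSubring A φ N →
      ∃ (n : ℕ) (u : ↥(OvSubring A φ N)),
        x = (algebraMap K ↥(modularFunctionFieldFullC K N) (π : K)) ^ n *
          (u : ↥(modularFunctionFieldFullC K N)) ∧ redv A φ N u ≠ 0 ∧
          (u : ↥(modularFunctionFieldFullC K N))⁻¹ ∈ OvSubring A φ N := by
    intro x hx0 hx
    obtain ⟨n, u, hu⟩ := GaussA0.exists_pow_mul_unit A φ N hφ hπ0 hkrull ⟨x, hx⟩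
      (fun h => hx0 (congrArg Subtype.val h))
    have hur : redv A φ N (u : ↥(Ov A φ N hφ hπ0 hkrull)) ≠ 0 :=
      (isUnit_iff_redO_ne_zero A φ N hφ hπ0 hkrull _).mp u.isUnit
    refine ⟨n, (u : ↥(Ov A φ N hφ hπ0 hkrull)), ?_, hur, ?_⟩
    · exact congrArg Subtype.val hu
    · have h1 : ((u : ↥(Ov A φ N hφ hπ0 hkrull)) : ↥(modularFunctionFieldFullC K N)) *
          (((u⁻¹ : (↥(Ov A φ N hφ hπ0 hkrull))ˣ) : ↥(Ov A φ N hφ hπ0 hkrull)) :
            ↥(modularFunctionFieldFullC K N)) = 1 := congrArg Subtype.val u.mul_inv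
      rw [inv_eq_of_mul_eq_one_right h1]
      exact ((u⁻¹ : (↥(Ov A φ N hφ hπ0 hkrull))ˣ) : ↥(Ov A φ N hφ hπ0 hkrull)).2
  refine ⟨hπF, ?_, ?_, ?_⟩
  · rw [redv_constO, (hφ π).mpr dvd_rfl, map_zero]
  · intro x hx
    exact (redv_eq_zero_iff hφ hπ0 x).mp hx
  · intro x hx0
    rcases mem_or_inv_mem_OvSubring (N := N) hφ hπ0 hkrull x with h | h
    · obtain ⟨n, u, hxu, hu, -⟩ := key x hx0 h
      exact ⟨n, u, by rw [zpow_natCast]; exact hxu, hu⟩
    · obtain ⟨n, u, hxu, hu, huinv⟩ := key x⁻¹ (inv_ne_zero hx0) h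
      have hu0 : (u : ↥(modularFunctionFieldFullC K N)) ≠ 0 := by
        intro h0
        apply hu
        have : u = 0 := Subtype.ext h0
        rw [this, map_zero]
      refine ⟨-(n : ℤ), ⟨_, huinv⟩, ?_, ?_⟩
      · have : x = (x⁻¹)⁻¹ := (inv_inv x).symm
        rw [this, hxu, mul_inv, zpow_neg, zpow_natCast]
        rfl
      · intro h0
        have h1 : u * ⟨_, huinv⟩ = (1 : ↥(OvSubring A φ N)) :=
          Subtype.ext (mul_inv_cancel₀ hu0)
        have h2 := congrArg (redv A φ N) h1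
        rw [map_mul, h0, mul_zero, map_one] at h2
        exact zero_ne_one h2

end setting

/-! ### Independence of the reduced monomials over `k(j)` -/

section indep

variable (k : Type*) [Field k]

theorem aeval_jqModC_ne_zero {q : k[X]} (hq : q ≠ 0) : aeval (jqModC k) q ≠ 0 :=
  fun h => hq ((transcendental_iff.mp (CruxL.transcendental_jqModC k)) q h)

/-- an element of `k(j)` is a quotient of polynomials in `j` -/
theorem exists_poly_of_mem_adjoin_jqModC {g : LaurentSeries k}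
    (hg : g ∈ IntermediateField.adjoin k {jqModC k}) :
    ∃ p q : k[X], q ≠ 0 ∧ g * aeval (jqModC k) q = aeval (jqModC k) p := by
  obtain ⟨r, s, hrs⟩ := (IntermediateField.mem_adjoin_simple_iff k g).mp hg
  by_cases hs : s = 0
  · refine ⟨0, 1, one_ne_zero, ?_⟩
    rw [hrs, hs, map_zero, div_zero, zero_mul]
  · refine ⟨r, s, hs, ?_⟩
    rw [hrs, div_mul_cancel₀ _ (aeval_jqModC_ne_zero k hs)]

variable {k}

/-- **Independence over `k(j)`** (elementary form) of monomials independent over `k[j]`. -/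
theorem eq_zero_of_sum_mono {n : ℕ} (m : Fin n → (ℕ →₀ ℕ))
    (hmono : ∀ c : Fin n → Polynomial k,
      ∑ i, aeval (jqModC k) (c i) * Defs.mono k (m i) = 0 → ∀ i, c i = 0)
    (g : Fin n → LaurentSeries k)
    (hg : ∀ i, ∃ p q : k[X], q ≠ 0 ∧ g i * aeval (jqModC k) q = aeval (jqModC k) p)
    (h0 : ∑ i, g i * Defs.mono k (m i) = 0) : ∀ i, g i = 0 := by
  classical
  choose p q hq hpq using hg
  have h1 : ∑ i, aeval (jqModC k) (p i * ∏ l ∈ Finset.univ.erase i, q l) * Defs.mono k (m i) =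
      0 := by
    have h2 : ∀ i, aeval (jqModC k) (p i * ∏ l ∈ Finset.univ.erase i, q l) * Defs.mono k (m i) =
        (∏ l, aeval (jqModC k) (q l)) * (g i * Defs.mono k (m i)) := by
      intro i
      rw [map_mul, map_prod, ← hpq i, ← Finset.mul_prod_erase Finset.univ _ (Finset.mem_univ i)]
      ring
    rw [Finset.sum_congr rfl fun i _ => h2 i, ← Finset.mul_sum, h0, mul_zero]
  intro i
  have h3 := hmono _ h1 i
  have h4 : ∏ l ∈ Finset.univ.erase i, q l ≠ 0 :=
    Finset.prod_ne_zero_iff.mpr fun l _ => hq l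
  have h5 : p i = 0 := (mul_eq_zero.mp h3).resolve_right h4
  have h6 := hpq i
  rw [h5, map_zero] at h6
  exact (mul_eq_zero.mp h6).resolve_right (aeval_jqModC_ne_zero k (hq i))

/-- **Independence over `k(j)`**, Mathlib form. -/
theorem linearIndependent_mono {n : ℕ} (m : Fin n → (ℕ →₀ ℕ))
    (hmono : ∀ c : Fin n → Polynomial k,
      ∑ i, aeval (jqModC k) (c i) * Defs.mono k (m i) = 0 → ∀ i, c i = 0) :
    LinearIndependent (IntermediateField.adjoin k {jqModC k}) (fun i => Defs.mono k (m i)) := by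
  rw [Fintype.linearIndependent_iff]
  intro g hg i
  have := eq_zero_of_sum_mono m hmono (fun i => (g i : LaurentSeries k))
    (fun i => exists_poly_of_mem_adjoin_jqModC k (g i).2) hg i
  exact Subtype.ext this

end indep

/-! ### `j` and the monomials in the Gauss ring; the Gauss ring of the `j`-line -/

section line

variable {K : Type*} [Field K] (A : ValuationSubring K) {k : Type*} [Field k] (φ : ↥A →+* k)
  (N : ℕ) {π : ↥A}

/-- `j` as an element of the Gauss ring of `F_K`. -/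
def jO : ↥(OvSubring A φ N) :=
  ⟨FieldDef.jC K N, mem_OvSubring_of_incl (jqModC ↥A) (by rw [incl_jqModC]; rfl)⟩

theorem coe_jO : ((jO A φ N : ↥(OvSubring A φ N)) : ↥(modularFunctionFieldFullC K N)) =
    FieldDef.jC K N := rfl

theorem redv_jO : redv A φ N (jO A φ N) = jqModC k := by
  rw [redv_of_incl _ (jqModC ↥A) (by rw [incl_jqModC]; rfl), rho_jqModC]

/-- a monomial in the `j(q^d)`, `d ∣ N`, as an element of the Gauss ring of `F_K`. -/
def monoO (hN : 0 < N) (m : ℕ →₀ ℕ) (hm : ∀ d ∈ m.support, d ∣ N) : ↥(OvSubring A φ N) :=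
  ⟨⟨Defs.mono K m, mono_mem_full K N hN m hm⟩,
    mem_OvSubring_of_incl (Defs.mono ↥A m) (Defs.coeffMap_mono A.subtype m).symm⟩

theorem coe_monoO (hN : 0 < N) (m : ℕ →₀ ℕ) (hm : ∀ d ∈ m.support, d ∣ N) :
    (((monoO A φ N hN m hm : ↥(OvSubring A φ N)) : ↥(modularFunctionFieldFullC K N)) :
      LaurentSeries K) = Defs.mono K m := rfl

theorem redv_monoO (hN : 0 < N) (m : ℕ →₀ ℕ) (hm : ∀ d ∈ m.support, d ∣ N) :
    redv A φ N (monoO A φ N hN m hm) = Defs.mono k m := by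
  rw [redv_of_incl _ (Defs.mono ↥A m) (Defs.coeffMap_mono A.subtype m).symm]
  exact Defs.coeffMap_mono φ m

variable {A φ N}

/-- the constants of `K` in the Gauss ring, mapped to `A`. -/
def constToA (hφ : ∀ x, φ x = 0 ↔ π ∣ x) (hπ0 : π ≠ 0) :
    (OvSubring A φ N).comap (algebraMap K ↥(modularFunctionFieldFullC K N)) →+* ↥A where
  toFun a := ⟨(a : K), mem_of_algebraMap_mem hφ hπ0 (a : K) a.2⟩
  map_one' := rfl
  map_mul' _ _ := rfl
  map_zero' := rfl
  map_add' _ _ := rfl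

theorem coe_constToA (hφ : ∀ x, φ x = 0 ↔ π ∣ x) (hπ0 : π ≠ 0)
    (a : (OvSubring A φ N).comap (algebraMap K ↥(modularFunctionFieldFullC K N))) :
    ((constToA hφ hπ0 a : ↥A) : K) = (a : K) := rfl

theorem redv_comp_constIncl (hφ : ∀ x, φ x = 0 ↔ π ∣ x) (hπ0 : π ≠ 0) :
    (redv A φ N).comp (GaussLine.constIncl K (OvSubring A φ N)) =
      (HahnSeries.C : k →+* LaurentSeries k).comp (φ.comp (constToA hφ hπ0)) := by
  ext a : 1
  rw [RingHom.comp_apply, RingHom.comp_apply, RingHom.comp_apply]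
  have h1 : GaussLine.constIncl K (OvSubring A φ N) a = constO A φ N (constToA hφ hπ0 a) :=
    Subtype.ext rfl
  rw [h1, redv_constO]

theorem eval_map_C (p : k[X]) (x : LaurentSeries k) :
    (p.map (HahnSeries.C : k →+* LaurentSeries k)).eval x = aeval x p := by
  rw [eval_map, aeval_def]
  congr 1
  ext c : 1
  exact (algebraMap_eq_C c).symm

/-- **(D3)** `Ov ∩ K(j)` is the localisation of `A[j]` at `π`: every element of the Gauss ring
lying in `K(j)` is `P(j) / Q(j)` with `P, Q ∈ A[X]`, `Q` of nonzero reduction; and its reduction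
is `P̄(j̄) / Q̄(j̄)`. -/
theorem exists_poly_of_mem_adjoin (hφ : ∀ x, φ x = 0 ↔ π ∣ x) (hπ0 : π ≠ 0)
    (hkrull : ∀ c : ↥A, c ≠ 0 → ∃ n : ℕ, ¬ π ^ n ∣ c) (c : ↥(OvSubring A φ N))
    (hc : (c : ↥(modularFunctionFieldFullC K N)) ∈
      IntermediateField.adjoin K {FieldDef.jC K N}) :
    ∃ P Q : (↥A)[X], Q.map φ ≠ 0 ∧
      (c : ↥(modularFunctionFieldFullC K N)) * aeval (FieldDef.jC K N) (Q.map A.subtype) =
        aeval (FieldDef.jC K N) (P.map A.subtype) ∧
      redv A φ N c * aeval (jqModC k) (Q.map φ) = aeval (jqModC k) (P.map φ) := by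
  have hG := isGauss A φ N hφ hπ0 hkrull
  have hcomp := redv_comp_constIncl (N := N) hφ hπ0
  have hmapC : ∀ P : ((OvSubring A φ N).comap
      (algebraMap K ↥(modularFunctionFieldFullC K N)))[X],
      P.map ((redv A φ N).comp (GaussLine.constIncl K (OvSubring A φ N))) =
        ((P.map (constToA hφ hπ0)).map φ).map (HahnSeries.C : k →+* LaurentSeries k) := by
    intro P
    rw [hcomp, Polynomial.map_map, Polynomial.map_map]
    rfl
  have htr : ∀ P : ((OvSubring A φ N).comap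
      (algebraMap K ↥(modularFunctionFieldFullC K N)))[X],
      P.map ((redv A φ N).comp (GaussLine.constIncl K (OvSubring A φ N))) ≠ 0 →
      (P.map ((redv A φ N).comp (GaussLine.constIncl K (OvSubring A φ N)))).eval
        (redv A φ N (jO A φ N)) ≠ 0 := by
    intro P hP
    rw [hmapC] at hP ⊢
    rw [eval_map_C, redv_jO]
    apply aeval_jqModC_ne_zero
    intro h0
    rw [h0, Polynomial.map_zero] at hP
    exact hP rfl
  obtain ⟨P, Q, hQ, h⟩ := GaussLine.exists_evalO_of_mem_adjoin hG (π : K) rfl (jO A φ N) htr c hc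
  have hsub : ∀ R : ((OvSubring A φ N).comap
      (algebraMap K ↥(modularFunctionFieldFullC K N)))[X],
      R.map ((OvSubring A φ N).comap
        (algebraMap K ↥(modularFunctionFieldFullC K N))).subtype =
        (R.map (constToA hφ hπ0)).map A.subtype := by
    intro R
    rw [Polynomial.map_map]
    rfl
  refine ⟨P.map (constToA hφ hπ0), Q.map (constToA hφ hπ0), ?_, ?_, ?_⟩
  · intro h0
    apply hQ
    rw [hmapC, h0, Polynomial.map_zero]
  · have h1 := congrArg Subtype.val h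
    rw [Subring.coe_mul, GaussLine.coe_evalO, GaussLine.coe_evalO, hsub, hsub] at h1
    exact h1
  · have h1 := congrArg (redv A φ N) h
    rw [map_mul, GaussLine.red_evalO, GaussLine.red_evalO, hmapC, hmapC, eval_map_C, eval_map_C,
      redv_jO] at h1
    exact h1

/-- the reduction of an element of `Ov ∩ K(j)` lies in `k(j)`. -/
theorem redv_mem_adjoin (hφ : ∀ x, φ x = 0 ↔ π ∣ x) (hπ0 : π ≠ 0)
    (hkrull : ∀ c : ↥A, c ≠ 0 → ∃ n : ℕ, ¬ π ^ n ∣ c) (c : ↥(OvSubring A φ N))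
    (hc : (c : ↥(modularFunctionFieldFullC K N)) ∈
      IntermediateField.adjoin K {FieldDef.jC K N}) :
    redv A φ N c ∈ IntermediateField.adjoin k {jqModC k} := by
  obtain ⟨P, Q, hQ, -, h⟩ := exists_poly_of_mem_adjoin hφ hπ0 hkrull c hc
  rw [IntermediateField.mem_adjoin_simple_iff]
  exact ⟨P.map φ, Q.map φ, by rw [← h, mul_div_cancel_right₀ _ (aeval_jqModC_ne_zero k hQ)]⟩

end line

/-! ### The residue basis -/

/-- the elementary rank hypothesis of `ResBasis` from a `finrank` bound over an intermediate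
field. -/
theorem hrank_of_finrank {K' F' : Type*} [Field K'] [Field F'] [Algebra K' F']
    (M : IntermediateField K' F') [FiniteDimensional M F'] {n : ℕ}
    (h : Module.finrank M F' ≤ n) (x : Fin (n + 1) → F') :
    ∃ c : Fin (n + 1) → F', (∀ i, c i ∈ M.toSubfield) ∧ ∑ i, c i * x i = 0 ∧ ∃ i, c i ≠ 0 := by
  have hnot : ¬ LinearIndependent M x := by
    intro hli
    have := hli.fintype_card_le_finrank
    rw [Fintype.card_fin] at this
    omega
  obtain ⟨g, hg, i, hi⟩ := Fintype.not_linearIndependent_iff.mp hnot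
  refine ⟨fun i => (g i : F'), fun i => (g i).2, ?_, i, fun h => hi (Subtype.ext h)⟩
  rw [← hg]
  rfl

section basis

variable {K : Type*} [Field K] (A : ValuationSubring K) {k : Type*} [Field k] (φ : ↥A →+* k)
  (N : ℕ) {π : ↥A}

variable {A φ N}

/-- **(D4)** the reductions of the monomials are independent over the reduction of
`Ov ∩ K(j)`. -/
theorem hind (hφ : ∀ x, φ x = 0 ↔ π ∣ x) (hπ0 : π ≠ 0)
    (hkrull : ∀ c : ↥A, c ≠ 0 → ∃ n : ℕ, ¬ π ^ n ∣ c) (hN : 0 < N) {n : ℕ}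
    (m : Fin n → (ℕ →₀ ℕ)) (hm : ∀ i, ∀ d ∈ (m i).support, d ∣ N)
    (hmono : ∀ c : Fin n → Polynomial k,
      ∑ i, aeval (jqModC k) (c i) * Defs.mono k (m i) = 0 → ∀ i, c i = 0)
    (c : Fin n → ↥(OvSubring A φ N))
    (hc : ∀ i, (c i : ↥(modularFunctionFieldFullC K N)) ∈
      (IntermediateField.adjoin K {FieldDef.jC K N}).toSubfield)
    (h0 : ∑ i, redv A φ N (c i) * redv A φ N (monoO A φ N hN (m i) (hm i)) = 0) :
    ∀ i, redv A φ N (c i) = 0 := by
  refine eq_zero_of_sum_mono m hmono (fun i => redv A φ N (c i)) (fun i => ?_) ?_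
  · obtain ⟨P, Q, hQ, -, h⟩ := exists_poly_of_mem_adjoin hφ hπ0 hkrull (c i) (hc i)
    exact ⟨P.map φ, Q.map φ, hQ, h⟩
  · simpa only [redv_monoO] using h0

theorem pi_mem_adjoin :
    ((constO A φ N π : ↥(OvSubring A φ N)) : ↥(modularFunctionFieldFullC K N)) ∈
      (IntermediateField.adjoin K {FieldDef.jC K N}).toSubfield :=
  (IntermediateField.adjoin K {FieldDef.jC K N}).algebraMap_mem (π : K)

/-- **The monomials are independent over `K(j)`** (elementary form). -/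
theorem eq_zero_of_sum_eq_zero (hφ : ∀ x, φ x = 0 ↔ π ∣ x) (hπ0 : π ≠ 0)
    (hkrull : ∀ c : ↥A, c ≠ 0 → ∃ n : ℕ, ¬ π ^ n ∣ c) (hN : 0 < N) {n : ℕ}
    (m : Fin n → (ℕ →₀ ℕ)) (hm : ∀ i, ∀ d ∈ (m i).support, d ∣ N)
    (hmono : ∀ c : Fin n → Polynomial k,
      ∑ i, aeval (jqModC k) (c i) * Defs.mono k (m i) = 0 → ∀ i, c i = 0)
    (c : Fin n → ↥(modularFunctionFieldFullC K N))
    (hc : ∀ i, c i ∈ IntermediateField.adjoin K {FieldDef.jC K N})
    (h0 : ∑ i, c i * (monoO A φ N hN (m i) (hm i) : ↥(modularFunctionFieldFullC K N)) = 0) :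
    ∀ i, c i = 0 :=
  (isGauss A φ N hφ hπ0 hkrull).eq_zero_of_sum_eq_zero _ pi_mem_adjoin
    (fun i => monoO A φ N hN (m i) (hm i)) (hind hφ hπ0 hkrull hN m hm hmono) c hc h0

/-- **The monomials are independent over `K(j)`**, Mathlib form. -/
theorem linearIndependent (hφ : ∀ x, φ x = 0 ↔ π ∣ x) (hπ0 : π ≠ 0)
    (hkrull : ∀ c : ↥A, c ≠ 0 → ∃ n : ℕ, ¬ π ^ n ∣ c) (hN : 0 < N) {n : ℕ}
    (m : Fin n → (ℕ →₀ ℕ)) (hm : ∀ i, ∀ d ∈ (m i).support, d ∣ N)
    (hmono : ∀ c : Fin n → Polynomial k,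
      ∑ i, aeval (jqModC k) (c i) * Defs.mono k (m i) = 0 → ∀ i, c i = 0) :
    LinearIndependent (IntermediateField.adjoin K {FieldDef.jC K N})
      (fun i => (monoO A φ N hN (m i) (hm i) : ↥(modularFunctionFieldFullC K N))) := by
  rw [Fintype.linearIndependent_iff]
  intro g hg i
  have := eq_zero_of_sum_eq_zero hφ hπ0 hkrull hN m hm hmono
    (fun i => (g i : ↥(modularFunctionFieldFullC K N))) (fun i => (g i).2) hg i
  exact Subtype.ext this

/-- **Integrality of coordinates**: if a `K(j)`-combination of the monomials lies in the Gauss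
ring, so do its coefficients. -/
theorem coeff_mem (hφ : ∀ x, φ x = 0 ↔ π ∣ x) (hπ0 : π ≠ 0)
    (hkrull : ∀ c : ↥A, c ≠ 0 → ∃ n : ℕ, ¬ π ^ n ∣ c) (hN : 0 < N) {n : ℕ}
    (m : Fin n → (ℕ →₀ ℕ)) (hm : ∀ i, ∀ d ∈ (m i).support, d ∣ N)
    (hmono : ∀ c : Fin n → Polynomial k,
      ∑ i, aeval (jqModC k) (c i) * Defs.mono k (m i) = 0 → ∀ i, c i = 0)
    (c : Fin n → ↥(modularFunctionFieldFullC K N))
    (hc : ∀ i, c i ∈ IntermediateField.adjoin K {FieldDef.jC K N})
    (hx : ∑ i, c i * (monoO A φ N hN (m i) (hm i) : ↥(modularFunctionFieldFullC K N)) ∈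
      OvSubring A φ N) : ∀ i, c i ∈ OvSubring A φ N :=
  (isGauss A φ N hφ hπ0 hkrull).coeff_mem _ pi_mem_adjoin
    (fun i => monoO A φ N hN (m i) (hm i)) (hind hφ hπ0 hkrull hN m hm hmono) c hc hx

/-- **The monomials span `F_K` over `K(j)`** when `[F_K : K(j)] ≤ n`. -/
theorem exists_repr (hφ : ∀ x, φ x = 0 ↔ π ∣ x) (hπ0 : π ≠ 0)
    (hkrull : ∀ c : ↥A, c ≠ 0 → ∃ n : ℕ, ¬ π ^ n ∣ c) (hN : 0 < N) {n : ℕ}
    (m : Fin n → (ℕ →₀ ℕ)) (hm : ∀ i, ∀ d ∈ (m i).support, d ∣ N)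
    (hmono : ∀ c : Fin n → Polynomial k,
      ∑ i, aeval (jqModC k) (c i) * Defs.mono k (m i) = 0 → ∀ i, c i = 0)
    [FiniteDimensional (IntermediateField.adjoin K {FieldDef.jC K N})
      ↥(modularFunctionFieldFullC K N)]
    (hle : Module.finrank (IntermediateField.adjoin K {FieldDef.jC K N})
      ↥(modularFunctionFieldFullC K N) ≤ n)
    (x : ↥(modularFunctionFieldFullC K N)) :
    ∃ c : Fin n → ↥(modularFunctionFieldFullC K N),
      (∀ i, c i ∈ IntermediateField.adjoin K {FieldDef.jC K N}) ∧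
      x = ∑ i, c i * (monoO A φ N hN (m i) (hm i) : ↥(modularFunctionFieldFullC K N)) :=
  (isGauss A φ N hφ hπ0 hkrull).exists_repr _ pi_mem_adjoin
    (fun i => monoO A φ N hN (m i) (hm i)) (hind hφ hπ0 hkrull hN m hm hmono)
    (hrank_of_finrank _ hle) x

/-- **The Gauss ring is free over `Ov ∩ K(j)` on the monomials.** -/
theorem exists_repr_mem (hφ : ∀ x, φ x = 0 ↔ π ∣ x) (hπ0 : π ≠ 0)
    (hkrull : ∀ c : ↥A, c ≠ 0 → ∃ n : ℕ, ¬ π ^ n ∣ c) (hN : 0 < N) {n : ℕ}
    (m : Fin n → (ℕ →₀ ℕ)) (hm : ∀ i, ∀ d ∈ (m i).support, d ∣ N)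
    (hmono : ∀ c : Fin n → Polynomial k,
      ∑ i, aeval (jqModC k) (c i) * Defs.mono k (m i) = 0 → ∀ i, c i = 0)
    [FiniteDimensional (IntermediateField.adjoin K {FieldDef.jC K N})
      ↥(modularFunctionFieldFullC K N)]
    (hle : Module.finrank (IntermediateField.adjoin K {FieldDef.jC K N})
      ↥(modularFunctionFieldFullC K N) ≤ n)
    (x : ↥(OvSubring A φ N)) :
    ∃ c : Fin n → ↥(OvSubring A φ N),
      (∀ i, (c i : ↥(modularFunctionFieldFullC K N)) ∈
        IntermediateField.adjoin K {FieldDef.jC K N}) ∧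
      x = ∑ i, c i * monoO A φ N hN (m i) (hm i) :=
  (isGauss A φ N hφ hπ0 hkrull).exists_repr_mem _ pi_mem_adjoin
    (fun i => monoO A φ N hN (m i) (hm i)) (hind hφ hπ0 hkrull hN m hm hmono)
    (hrank_of_finrank _ hle) x

/-- `[F_K : K(j)] = n`. -/
theorem finrank_eq (hφ : ∀ x, φ x = 0 ↔ π ∣ x) (hπ0 : π ≠ 0)
    (hkrull : ∀ c : ↥A, c ≠ 0 → ∃ n : ℕ, ¬ π ^ n ∣ c) (hN : 0 < N) {n : ℕ}
    (m : Fin n → (ℕ →₀ ℕ)) (hm : ∀ i, ∀ d ∈ (m i).support, d ∣ N)
    (hmono : ∀ c : Fin n → Polynomial k,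
      ∑ i, aeval (jqModC k) (c i) * Defs.mono k (m i) = 0 → ∀ i, c i = 0)
    [FiniteDimensional (IntermediateField.adjoin K {FieldDef.jC K N})
      ↥(modularFunctionFieldFullC K N)]
    (hle : Module.finrank (IntermediateField.adjoin K {FieldDef.jC K N})
      ↥(modularFunctionFieldFullC K N) ≤ n) :
    Module.finrank (IntermediateField.adjoin K {FieldDef.jC K N})
      ↥(modularFunctionFieldFullC K N) = n := by
  refine le_antisymm hle ?_
  have := (linearIndependent hφ hπ0 hkrull hN m hm hmono).fintype_card_le_finrank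
  rwa [Fintype.card_fin] at this

/-- **The Gauss ring is the integral closure of `Ov ∩ K(j)` in `F_K`.** -/
theorem isIntegral_iff (hφ : ∀ x, φ x = 0 ↔ π ∣ x) (hπ0 : π ≠ 0)
    (hkrull : ∀ c : ↥A, c ≠ 0 → ∃ n : ℕ, ¬ π ^ n ∣ c) (hN : 0 < N) {n : ℕ}
    (m : Fin n → (ℕ →₀ ℕ)) (hm : ∀ i, ∀ d ∈ (m i).support, d ∣ N)
    (hmono : ∀ c : Fin n → Polynomial k,
      ∑ i, aeval (jqModC k) (c i) * Defs.mono k (m i) = 0 → ∀ i, c i = 0)
    [FiniteDimensional (IntermediateField.adjoin K {FieldDef.jC K N})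
      ↥(modularFunctionFieldFullC K N)]
    (hle : Module.finrank (IntermediateField.adjoin K {FieldDef.jC K N})
      ↥(modularFunctionFieldFullC K N) ≤ n)
    (x : ↥(modularFunctionFieldFullC K N)) :
    IsIntegral (OvSubring A φ N ⊓
      (IntermediateField.adjoin K {FieldDef.jC K N}).toSubfield.toSubring :
        Subring ↥(modularFunctionFieldFullC K N)) x ↔ x ∈ OvSubring A φ N :=
  (isGauss A φ N hφ hπ0 hkrull).isIntegral_iff _ pi_mem_adjoin
    (fun i => monoO A φ N hN (m i) (hm i)) (hind hφ hπ0 hkrull hN m hm hmono)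
    (hrank_of_finrank _ hle) x

/-! ### The residue field -/

/-- **(D5)** the reduction of the Gauss ring takes values in `F_k = k(j(q^d) : d ∣ N)`. -/
theorem redv_mem_full (hφ : ∀ x, φ x = 0 ↔ π ∣ x) (hπ0 : π ≠ 0)
    (hkrull : ∀ c : ↥A, c ≠ 0 → ∃ n : ℕ, ¬ π ^ n ∣ c) (hN : 0 < N) {n : ℕ}
    (m : Fin n → (ℕ →₀ ℕ)) (hm : ∀ i, ∀ d ∈ (m i).support, d ∣ N)
    (hmono : ∀ c : Fin n → Polynomial k,
      ∑ i, aeval (jqModC k) (c i) * Defs.mono k (m i) = 0 → ∀ i, c i = 0)
    [FiniteDimensional (IntermediateField.adjoin K {FieldDef.jC K N})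
      ↥(modularFunctionFieldFullC K N)]
    (hle : Module.finrank (IntermediateField.adjoin K {FieldDef.jC K N})
      ↥(modularFunctionFieldFullC K N) ≤ n)
    (x : ↥(OvSubring A φ N)) : redv A φ N x ∈ modularFunctionFieldFullC k N := by
  obtain ⟨c, hc, hx⟩ := exists_repr_mem hφ hπ0 hkrull hN m hm hmono hle x
  rw [hx, map_sum]
  refine sum_mem fun i _ => ?_
  rw [map_mul, redv_monoO]
  refine mul_mem ?_ (mono_mem_full k N hN (m i) (hm i))
  have h1 := redv_mem_adjoin hφ hπ0 hkrull (c i) (hc i)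
  have h2 : IntermediateField.adjoin k {jqModC k} ≤ modularFunctionFieldFullC k N := by
    rw [IntermediateField.adjoin_simple_le_iff]
    exact jqModC_mem_full k N
  exact h2 h1

/-- the reduction of the Gauss ring is contained in the `k(j)`-span of the reduced monomials:
every value is `∑ gᵢ · m̄ᵢ` with `gᵢ ∈ k(j)`. -/
theorem exists_redv_eq_sum (hφ : ∀ x, φ x = 0 ↔ π ∣ x) (hπ0 : π ≠ 0)
    (hkrull : ∀ c : ↥A, c ≠ 0 → ∃ n : ℕ, ¬ π ^ n ∣ c) (hN : 0 < N) {n : ℕ}
    (m : Fin n → (ℕ →₀ ℕ)) (hm : ∀ i, ∀ d ∈ (m i).support, d ∣ N)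
    (hmono : ∀ c : Fin n → Polynomial k,
      ∑ i, aeval (jqModC k) (c i) * Defs.mono k (m i) = 0 → ∀ i, c i = 0)
    [FiniteDimensional (IntermediateField.adjoin K {FieldDef.jC K N})
      ↥(modularFunctionFieldFullC K N)]
    (hle : Module.finrank (IntermediateField.adjoin K {FieldDef.jC K N})
      ↥(modularFunctionFieldFullC K N) ≤ n)
    (x : ↥(OvSubring A φ N)) :
    ∃ g : Fin n → LaurentSeries k, (∀ i, g i ∈ IntermediateField.adjoin k {jqModC k}) ∧
      redv A φ N x = ∑ i, g i * Defs.mono k (m i) := by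
  obtain ⟨c, hc, hx⟩ := exists_repr_mem hφ hπ0 hkrull hN m hm hmono hle x
  refine ⟨fun i => redv A φ N (c i), fun i => redv_mem_adjoin hφ hπ0 hkrull (c i) (hc i), ?_⟩
  rw [hx, map_sum]
  exact Finset.sum_congr rfl fun i _ => by rw [map_mul, redv_monoO]

variable (A φ N) in
/-- **The reduction map onto the function field in characteristic `ℓ`**:
`Ov → F_k = k(j(q^d) : d ∣ N)`. -/
def redF (hφ : ∀ x, φ x = 0 ↔ π ∣ x) (hπ0 : π ≠ 0)
    (hkrull : ∀ c : ↥A, c ≠ 0 → ∃ n : ℕ, ¬ π ^ n ∣ c) (hN : 0 < N) {n : ℕ}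
    (m : Fin n → (ℕ →₀ ℕ)) (hm : ∀ i, ∀ d ∈ (m i).support, d ∣ N)
    (hmono : ∀ c : Fin n → Polynomial k,
      ∑ i, aeval (jqModC k) (c i) * Defs.mono k (m i) = 0 → ∀ i, c i = 0)
    [FiniteDimensional (IntermediateField.adjoin K {FieldDef.jC K N})
      ↥(modularFunctionFieldFullC K N)]
    (hle : Module.finrank (IntermediateField.adjoin K {FieldDef.jC K N})
      ↥(modularFunctionFieldFullC K N) ≤ n) :
    ↥(OvSubring A φ N) →+* ↥(modularFunctionFieldFullC k N) :=
  (redv A φ N).codRestrict (modularFunctionFieldFullC k N)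
    (redv_mem_full hφ hπ0 hkrull hN m hm hmono hle)

theorem coe_redF (hφ : ∀ x, φ x = 0 ↔ π ∣ x) (hπ0 : π ≠ 0)
    (hkrull : ∀ c : ↥A, c ≠ 0 → ∃ n : ℕ, ¬ π ^ n ∣ c) (hN : 0 < N) {n : ℕ}
    (m : Fin n → (ℕ →₀ ℕ)) (hm : ∀ i, ∀ d ∈ (m i).support, d ∣ N)
    (hmono : ∀ c : Fin n → Polynomial k,
      ∑ i, aeval (jqModC k) (c i) * Defs.mono k (m i) = 0 → ∀ i, c i = 0)
    [FiniteDimensional (IntermediateField.adjoin K {FieldDef.jC K N})
      ↥(modularFunctionFieldFullC K N)]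
    (hle : Module.finrank (IntermediateField.adjoin K {FieldDef.jC K N})
      ↥(modularFunctionFieldFullC K N) ≤ n) (x : ↥(OvSubring A φ N)) :
    ((redF A φ N hφ hπ0 hkrull hN m hm hmono hle x : ↥(modularFunctionFieldFullC k N)) :
      LaurentSeries k) = redv A φ N x := rfl

/-- the reduction map is onto `F_k` when `φ` is onto `k`. -/
theorem redF_surjective (hφ : ∀ x, φ x = 0 ↔ π ∣ x) (hπ0 : π ≠ 0)
    (hkrull : ∀ c : ↥A, c ≠ 0 → ∃ n : ℕ, ¬ π ^ n ∣ c) (hN : 0 < N) {n : ℕ}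
    (m : Fin n → (ℕ →₀ ℕ)) (hm : ∀ i, ∀ d ∈ (m i).support, d ∣ N)
    (hmono : ∀ c : Fin n → Polynomial k,
      ∑ i, aeval (jqModC k) (c i) * Defs.mono k (m i) = 0 → ∀ i, c i = 0)
    [FiniteDimensional (IntermediateField.adjoin K {FieldDef.jC K N})
      ↥(modularFunctionFieldFullC K N)]
    (hle : Module.finrank (IntermediateField.adjoin K {FieldDef.jC K N})
      ↥(modularFunctionFieldFullC K N) ≤ n) (hφs : Function.Surjective φ) :
    Function.Surjective (redF A φ N hφ hπ0 hkrull hN m hm hmono hle) := by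
  intro y
  obtain ⟨x, hx⟩ := (mem_resField_iff A φ N _).mp (full_le_resField A φ N hφs y.2)
  exact ⟨x, Subtype.ext hx⟩

end basis

end Fermat.Agent.S18.GaussDeg
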