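import Mathlib

/-!
# S18 bridge (B2, abstract half): lifting independent residues along a valuation ring

`M ⊆ F` fields, `O` a valuation subring of `F`, `O₀ := O ∩ M` (as `O.comap (algebraMap M F)`),
`ρ : O →+* Ω` a "reduction" homomorphism to a field.

* `linearIndependent_of_red`: elements of `O` whose reductions are linearly independent over
  `ρ (O₀)` are linearly independent over `M`  (`[κ : κ₀] ≤ [F : M]`).
* `exists_eq_sum_of_red`: if moreover they span `F` over `M` and `ρ` kills the maximal ideal,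
  then `O` is the `O₀`-span of them (so `O` is finite free over `O₀`, and `ρ (O)` is the
  `ρ (O₀)`-span of the reductions).
* `isIntegralElem_iff`: in that situation `O` is exactly the integral closure of `O₀` in `F`.
-/

set_option autoImplicit false

namespace Fermat.Agent.S18.GaussBasis

variable {M F Ω : Type*} [Field M] [Field F] [Algebra M F] [Field Ω]

/-- The inclusion `O ∩ M → O`. -/
def inclHom (O : ValuationSubring F) : ↥(O.comap (algebraMap M F)) →+* ↥O :=
  (algebraMap M F).restrict (O.comap (algebraMap M F)) O (fun _ hx => hx)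

@[simp]
theorem coe_inclHom (O : ValuationSubring F) (c : ↥(O.comap (algebraMap M F))) :
    ((inclHom O c : ↥O) : F) = algebraMap M F (c : M) := rfl

theorem coe_sum_inclHom_mul (O : ValuationSubring F) {ι : Type*} (s : Finset ι)
    (c : ι → ↥(O.comap (algebraMap M F))) (x : ι → ↥O) :
    ((∑ i ∈ s, inclHom O (c i) * x i : ↥O) : F) =
      ∑ i ∈ s, algebraMap M F (c i : M) * ((x i : ↥O) : F) := by
  push_cast
  rfl

/-- Scaling a finite family of elements of `M`, not all zero, by the inverse of one of largest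
valuation: all quotients lie in the valuation ring. -/
theorem exists_scale (O : ValuationSubring F) {ι : Type*} (s : Finset ι) (g : ι → M)
    (h : ∃ i ∈ s, g i ≠ 0) :
    ∃ i₁ ∈ s, g i₁ ≠ 0 ∧ ∀ i ∈ s, algebraMap M F (g i / g i₁) ∈ O := by
  obtain ⟨i₀, hi₀, hne₀⟩ := h
  obtain ⟨i₁, hi₁, hmax⟩ := Finset.exists_max_image s
    (fun i => O.valuation (algebraMap M F (g i))) ⟨i₀, hi₀⟩
  have hne₁ : g i₁ ≠ 0 := by
    intro h0
    have h1 := hmax i₀ hi₀
    simp only [h0, map_zero] at h1
    have h2 : O.valuation (algebraMap M F (g i₀)) ≠ 0 := by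
      rw [Valuation.ne_zero_iff]
      exact fun h => hne₀ ((algebraMap M F).injective (by rw [h, map_zero]))
    exact h2 (le_antisymm h1 zero_le)
  refine ⟨i₁, hi₁, hne₁, fun i hi => ?_⟩
  rw [← ValuationSubring.valuation_le_one_iff, map_div₀, map_div₀]
  have hv₁ : O.valuation (algebraMap M F (g i₁)) ≠ 0 := by
    rw [Valuation.ne_zero_iff]
    exact fun h => hne₁ ((algebraMap M F).injective (by rw [h, map_zero]))
  exact div_le_one_of_le₀ (hmax i hi) zero_le

/-- **Lifting independent residues.** -/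
theorem linearIndependent_of_red (O : ValuationSubring F) (ρ : ↥O →+* Ω) {ι : Type*}
    (x : ι → ↥O)
    (hx : ∀ (s : Finset ι) (c : ι → ↥(O.comap (algebraMap M F))),
      ∑ i ∈ s, ρ (inclHom O (c i)) * ρ (x i) = 0 → ∀ i ∈ s, ρ (inclHom O (c i)) = 0) :
    LinearIndependent M (fun i => ((x i : ↥O) : F)) := by
  classical
  rw [linearIndependent_iff']
  intro s g hg i hi
  by_contra hne
  obtain ⟨i₁, hi₁, hne₁, hO⟩ := exists_scale O s g ⟨i, hi, hne⟩
  let c : ι → ↥(O.comap (algebraMap M F)) := fun i =>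
    if h : i ∈ s then ⟨g i / g i₁, hO i h⟩ else 0
  have hc : ∀ i ∈ s, ((c i : ↥(O.comap (algebraMap M F))) : M) = g i / g i₁ := by
    intro i hi
    simp only [c, dif_pos hi]
  have hsum : ∑ i ∈ s, inclHom O (c i) * x i = 0 := by
    apply Subtype.ext
    rw [coe_sum_inclHom_mul]
    have h1 : ∑ i ∈ s, algebraMap M F (c i : M) * ((x i : ↥O) : F) =
        (g i₁)⁻¹ • ∑ i ∈ s, g i • ((x i : ↥O) : F) := by
      rw [Finset.smul_sum]
      refine Finset.sum_congr rfl fun i hi => ?_
      rw [hc i hi, smul_smul, Algebra.smul_def, div_eq_inv_mul]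
    rw [h1, hg, smul_zero]
    rfl
  have h2 : ∑ i ∈ s, ρ (inclHom O (c i)) * ρ (x i) = 0 := by
    have := congrArg ρ hsum
    simpa [map_sum, map_mul] using this
  have h3 := hx s c h2 i₁ hi₁
  have h4 : c i₁ = 1 := by
    apply Subtype.ext
    rw [hc i₁ hi₁, div_self hne₁]
    rfl
  rw [h4, map_one, map_one] at h3
  exact one_ne_zero h3

/-- If the lifts also span, the valuation ring is the `O ∩ M`-span of the lifts. -/
theorem exists_eq_sum_of_red (O : ValuationSubring F) (ρ : ↥O →+* Ω)
    (hρ : ∀ y : ↥O, y ∈ IsLocalRing.maximalIdeal ↥O → ρ y = 0) {ι : Type*} (x : ι → ↥O)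
    (hx : ∀ (s : Finset ι) (c : ι → ↥(O.comap (algebraMap M F))),
      ∑ i ∈ s, ρ (inclHom O (c i)) * ρ (x i) = 0 → ∀ i ∈ s, ρ (inclHom O (c i)) = 0)
    (hspan : ⊤ ≤ Submodule.span M (Set.range fun i => ((x i : ↥O) : F))) (y : ↥O) :
    ∃ (s : Finset ι) (c : ι → ↥(O.comap (algebraMap M F))),
      y = ∑ i ∈ s, inclHom O (c i) * x i := by
  classical
  have hy : (y : F) ∈ Submodule.span M (Set.range fun i => ((x i : ↥O) : F)) :=
    hspan Submodule.mem_top
  obtain ⟨g, hg⟩ := Finsupp.mem_span_range_iff_exists_finsupp.mp hy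
  set s := g.support with hs
  have hg' : ∑ i ∈ s, g i • ((x i : ↥O) : F) = (y : F) := hg
  -- all coefficients are integral
  have hmem : ∀ i ∈ s, algebraMap M F (g i) ∈ O := by
    by_contra hcon
    obtain ⟨i, hi, hiO⟩ : ∃ i ∈ s, algebraMap M F (g i) ∉ O := by
      by_contra h
      exact hcon fun i hi => by_contra fun hiO => h ⟨i, hi, hiO⟩
    have hgi : g i ≠ 0 := fun h => hiO (by rw [h, map_zero]; exact O.zero_mem)
    obtain ⟨i₁, hi₁, hne₁, hO⟩ := exists_scale O s g ⟨i, hi, hgi⟩
    have hi₁O : algebraMap M F (g i₁) ∉ O := by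
      intro h
      apply hiO
      have : algebraMap M F (g i) = algebraMap M F (g i / g i₁) * algebraMap M F (g i₁) := by
        rw [← map_mul, div_mul_cancel₀ _ hne₁]
      rw [this]
      exact O.mul_mem _ _ (hO i hi) h
    have heO : algebraMap M F (g i₁)⁻¹ ∈ O := by
      rw [map_inv₀]
      exact (O.mem_or_inv_mem _).resolve_left hi₁O
    have hemax : (⟨algebraMap M F (g i₁)⁻¹, heO⟩ : ↥O) ∈ IsLocalRing.maximalIdeal ↥O := by
      rw [IsLocalRing.mem_maximalIdeal, mem_nonunits_iff]
      intro hu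
      obtain ⟨u, hu⟩ := hu
      apply hi₁O
      have h1 : ((u⁻¹ : (↥O)ˣ) : ↥O) * ⟨algebraMap M F (g i₁)⁻¹, heO⟩ = 1 := by
        rw [← hu]; exact u.inv_mul
      have h2 : (((u⁻¹ : (↥O)ˣ) : ↥O) : F) * algebraMap M F (g i₁)⁻¹ = 1 := by
        have := congrArg (Subtype.val) h1
        simpa using this
      have h3 : algebraMap M F (g i₁) = (((u⁻¹ : (↥O)ˣ) : ↥O) : F) := by
        have hne : algebraMap M F (g i₁) ≠ 0 :=
          fun h => hne₁ ((algebraMap M F).injective (by rw [h, map_zero]))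
        rw [map_inv₀] at h2
        field_simp at h2
        exact h2.symm
      rw [h3]
      exact ((u⁻¹ : (↥O)ˣ) : ↥O).2
    let c : ι → ↥(O.comap (algebraMap M F)) := fun i =>
      if h : i ∈ s then ⟨g i / g i₁, hO i h⟩ else 0
    have hc : ∀ i ∈ s, ((c i : ↥(O.comap (algebraMap M F))) : M) = g i / g i₁ := by
      intro i hi
      simp only [c, dif_pos hi]
    have hsum : (⟨algebraMap M F (g i₁)⁻¹, heO⟩ : ↥O) * y = ∑ i ∈ s, inclHom O (c i) * x i := by
      apply Subtype.ext
      rw [coe_sum_inclHom_mul]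
      have h1 : ∑ i ∈ s, algebraMap M F (c i : M) * ((x i : ↥O) : F) =
          (g i₁)⁻¹ • ∑ i ∈ s, g i • ((x i : ↥O) : F) := by
        rw [Finset.smul_sum]
        refine Finset.sum_congr rfl fun i hi => ?_
        rw [hc i hi, smul_smul, Algebra.smul_def, div_eq_inv_mul]
      rw [h1, hg', Algebra.smul_def]
      rfl
    have h2 : ∑ i ∈ s, ρ (inclHom O (c i)) * ρ (x i) = 0 := by
      have := congrArg ρ hsum
      rw [map_mul, hρ _ hemax, zero_mul] at this
      simpa [map_sum, map_mul] using this.symm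
    have h3 := hx s c h2 i₁ hi₁
    have h4 : c i₁ = 1 := by
      apply Subtype.ext
      rw [hc i₁ hi₁, div_self hne₁]
      rfl
    rw [h4, map_one, map_one] at h3
    exact one_ne_zero h3
  refine ⟨s, fun i => if h : i ∈ s then ⟨g i, hmem i h⟩ else 0, ?_⟩
  apply Subtype.ext
  rw [coe_sum_inclHom_mul, ← hg']
  refine Finset.sum_congr rfl fun i hi => ?_
  rw [dif_pos hi, Algebra.smul_def]

/-- The reduction of the valuation ring is spanned by the reductions of the lifts. -/
theorem exists_red_eq_sum (O : ValuationSubring F) (ρ : ↥O →+* Ω)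
    (hρ : ∀ y : ↥O, y ∈ IsLocalRing.maximalIdeal ↥O → ρ y = 0) {ι : Type*} (x : ι → ↥O)
    (hx : ∀ (s : Finset ι) (c : ι → ↥(O.comap (algebraMap M F))),
      ∑ i ∈ s, ρ (inclHom O (c i)) * ρ (x i) = 0 → ∀ i ∈ s, ρ (inclHom O (c i)) = 0)
    (hspan : ⊤ ≤ Submodule.span M (Set.range fun i => ((x i : ↥O) : F))) (y : ↥O) :
    ∃ (s : Finset ι) (c : ι → ↥(O.comap (algebraMap M F))),
      ρ y = ∑ i ∈ s, ρ (inclHom O (c i)) * ρ (x i) := by
  obtain ⟨s, c, h⟩ := exists_eq_sum_of_red O ρ hρ x hx hspan y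
  exact ⟨s, c, by rw [h, map_sum]; simp [map_mul]⟩

/-- In the spanning situation, `O` is exactly the integral closure of `O ∩ M` in `F`
(integrality through the ring homomorphism `O ∩ M → M → F`). -/
theorem isIntegralElem_iff (O : ValuationSubring F) (ρ : ↥O →+* Ω)
    (hρ : ∀ y : ↥O, y ∈ IsLocalRing.maximalIdeal ↥O → ρ y = 0) {ι : Type*} [Finite ι]
    (x : ι → ↥O)
    (hx : ∀ (s : Finset ι) (c : ι → ↥(O.comap (algebraMap M F))),
      ∑ i ∈ s, ρ (inclHom O (c i)) * ρ (x i) = 0 → ∀ i ∈ s, ρ (inclHom O (c i)) = 0)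
    (hspan : ⊤ ≤ Submodule.span M (Set.range fun i => ((x i : ↥O) : F))) (y : F) :
    ((algebraMap M F).comp (O.comap (algebraMap M F)).subtype).IsIntegralElem y ↔ y ∈ O := by
  classical
  have hcomp : (algebraMap M F).comp (O.comap (algebraMap M F)).subtype =
      O.subtype.comp (inclHom O) := RingHom.ext fun _ => rfl
  constructor
  · rintro ⟨p, hpm, hp0⟩
    have hint : IsIntegral ↥O y := by
      refine ⟨p.map (inclHom O), hpm.map _, ?_⟩
      rw [Polynomial.eval₂_map]
      rw [hcomp] at hp0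
      exact hp0
    obtain ⟨z, hz⟩ := IsIntegrallyClosed.isIntegral_iff.mp hint
    rw [← hz]
    exact z.2
  · intro hy
    let _ : Algebra ↥(O.comap (algebraMap M F)) F :=
      ((algebraMap M F).comp (O.comap (algebraMap M F)).subtype).toAlgebra
    have halg : ∀ c : ↥(O.comap (algebraMap M F)),
        algebraMap ↥(O.comap (algebraMap M F)) F c = algebraMap M F (c : M) := fun _ => rfl
    let S : Subalgebra ↥(O.comap (algebraMap M F)) F :=
      { O.toSubring.toSubsemiring with
        algebraMap_mem' := fun c => c.2 }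
    have hS : ∀ z : F, z ∈ S ↔ z ∈ O := fun _ => Iff.rfl
    have hfg : (Subalgebra.toSubmodule S).FG := by
      have : Fintype ι := Fintype.ofFinite ι
      refine ⟨Finset.univ.image fun i => ((x i : ↥O) : F), ?_⟩
      apply le_antisymm
      · refine Submodule.span_le.mpr ?_
        intro z hz
        simp only [Finset.coe_image, Finset.coe_univ, Set.image_univ, Set.mem_range] at hz
        obtain ⟨i, rfl⟩ := hz
        exact (x i).2
      · intro z hz
        obtain ⟨s, c, hsc⟩ := exists_eq_sum_of_red O ρ hρ x hx hspan ⟨z, hz⟩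
        have hz' : z = ∑ i ∈ s, algebraMap M F (c i : M) * ((x i : ↥O) : F) := by
          have := congrArg Subtype.val hsc
          rw [coe_sum_inclHom_mul] at this
          exact this
        rw [hz']
        refine Submodule.sum_mem _ fun i _ => ?_
        have h1 : algebraMap M F (c i : M) * ((x i : ↥O) : F) = c i • ((x i : ↥O) : F) := by
          rw [Algebra.smul_def, halg]
        rw [h1]
        refine Submodule.smul_mem _ _ (Submodule.subset_span ?_)
        simp
    exact IsIntegral.of_mem_of_fg S hfg y ((hS y).mpr hy)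

/-- Degree form: if `[F : M] ≤ #ι` then the lifts form a basis: they span `F` and
`[F : M] = #ι`. -/
theorem span_eq_top_of_red (O : ValuationSubring F) (ρ : ↥O →+* Ω) {ι : Type*} [Fintype ι]
    [FiniteDimensional M F] (x : ι → ↥O)
    (hx : ∀ (s : Finset ι) (c : ι → ↥(O.comap (algebraMap M F))),
      ∑ i ∈ s, ρ (inclHom O (c i)) * ρ (x i) = 0 → ∀ i ∈ s, ρ (inclHom O (c i)) = 0)
    (hle : Module.finrank M F ≤ Fintype.card ι) :
    Module.finrank M F = Fintype.card ι ∧
      ⊤ ≤ Submodule.span M (Set.range fun i => ((x i : ↥O) : F)) := by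
  have hli := linearIndependent_of_red O ρ x hx
  have hcard : Fintype.card ι = Module.finrank M F :=
    le_antisymm hli.fintype_card_le_finrank hle
  exact ⟨hcard.symm, (hli.span_eq_top_of_card_eq_finrank' hcard).ge⟩

end Fermat.Agent.S18.GaussBasis
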