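import Mathlib
import Fermat.Agent.S18.CoreDefs
import Fermat.Agent.S18.GaussBasis
import Fermat.Agent.S18.IntTrick

/-!
# S18 bridge: (H2) for the base field from a Gauss valuation ring

`A0` the base ring, `M = K0(t)`, `F / M` finite, `chart A0 M t = A0[t] ⊆ M`.
`O` is a valuation subring of `F` (the Gauss ring), `ρ : O →+* κ` its reduction ONTO the residue
field `κ`, `κ₀` a subfield of `κ` (given as a field with an algebra structure) containing the
reduction of `O ∩ M`, with `κ / κ₀` separable.  A family `x : ι → O` with `κ₀`-independent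
reductions and `[F : M] ≤ #ι` is then a basis of `O` over `O ∩ M` (`GaussBasis`), and:

* `IsGauss.inGauss_iff`: `InGauss A0 M F t π z ↔ z ∈ O`;
* `IsGauss.inPiGauss_iff`: `InPiGauss A0 M F t π z ↔ z ∈ πO`;
* `IsGauss.exists_trace_red`: `Tr_{F/M}` maps `O` to `O ∩ M` and reduces to `Tr_{κ/κ₀}`;
* `IsGauss.h2Hyp` / `h2Hyp_of_gauss`: the hypothesis `H2Hyp A0 M F t π` of the Kummer core.
-/

set_option autoImplicit false
set_option linter.unusedSectionVars false

namespace Fermat.Agent.S18.H2Base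

open Polynomial
open Fermat.Agent.S18.CoreDefs Fermat.Agent.S18.GaussBasis

section Clear

/-- A finite family of fractions with denominators prime to `p` has a common such denominator. -/
theorem exists_common_den {R M : Type*} [CommRing R] [CommRing M] [Algebra R M] {p : R}
    (hp : Prime p) {ι : Type*} (T : Finset ι) (c : ι → M)
    (h : ∀ i ∈ T, ∃ s a : R, ¬ p ∣ s ∧ c i * algebraMap R M s = algebraMap R M a) :
    ∃ s : R, ¬ p ∣ s ∧ ∀ i ∈ T, ∃ a : R, c i * algebraMap R M s = algebraMap R M a := by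
  classical
  induction T using Finset.induction_on with
  | empty => exact ⟨1, hp.not_dvd_one, fun i hi => absurd hi (Finset.notMem_empty i)⟩
  | insert j T hj ih =>
    obtain ⟨s', hs', h'⟩ := ih fun i hi => h i (Finset.mem_insert_of_mem hi)
    obtain ⟨sj, aj, hsj, hj'⟩ := h j (Finset.mem_insert_self j T)
    refine ⟨sj * s', fun hd => (hp.dvd_or_dvd hd).elim hsj hs', fun i hi => ?_⟩
    rcases Finset.mem_insert.mp hi with hij | hi
    · subst hij
      exact ⟨aj * s', by rw [map_mul, map_mul, ← mul_assoc, hj']⟩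
    · obtain ⟨a, ha⟩ := h' i hi
      exact ⟨a * sj, by
        rw [map_mul, map_mul, mul_comm (algebraMap R M sj), ← mul_assoc, ha]⟩

/-- Clearing denominators in an integral equation: if `z` is a root of a monic polynomial over
`M` whose coefficients are fractions with denominators prime to `p`, then `s • z` is integral
over `R` for some `s` prime to `p`. -/
theorem exists_isIntegral_smul {R M F : Type*} [CommRing R] [Field M] [Algebra R M] [Field F]
    [Algebra M F] [Algebra R F] [IsScalarTower R M F] {p : R} (hp : Prime p) (z : F)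
    (P : M[X]) (hP : P.Monic) (hz : aeval z P = 0)
    (hcoeff : ∀ i, ∃ s a : R, ¬ p ∣ s ∧ P.coeff i * algebraMap R M s = algebraMap R M a) :
    ∃ s : R, ¬ p ∣ s ∧ IsIntegral R (s • z) := by
  obtain ⟨s, hs, hsa⟩ := exists_common_den hp (Finset.range P.natDegree) P.coeff
    (fun i _ => hcoeff i)
  refine ⟨s, hs, ?_⟩
  have hlifts : P.scaleRoots (algebraMap R M s) ∈ Polynomial.lifts (algebraMap R M) := by
    rw [Polynomial.lifts_iff_coeff_lifts]
    intro i
    rw [Polynomial.coeff_scaleRoots]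
    rcases lt_trichotomy i P.natDegree with hi | hi | hi
    · obtain ⟨a, ha⟩ := hsa i (Finset.mem_range.mpr hi)
      refine ⟨a * s ^ (P.natDegree - i - 1), ?_⟩
      have h1 : P.natDegree - i = (P.natDegree - i - 1) + 1 := by omega
      rw [h1, pow_succ, map_mul, map_pow, ← ha, Nat.add_sub_cancel]
      ring
    · subst hi
      exact ⟨1, by rw [hP.coeff_natDegree, Nat.sub_self, pow_zero, mul_one, map_one]⟩
    · exact ⟨0, by rw [Polynomial.coeff_eq_zero_of_natDegree_lt hi, zero_mul, map_zero]⟩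
  obtain ⟨q, hq, -, hqm⟩ := Polynomial.lifts_and_natDegree_eq_and_monic hlifts
    ((Polynomial.monic_scaleRoots_iff _).mpr hP)
  refine ⟨q, hqm, ?_⟩
  have h0 := Polynomial.scaleRoots_aeval_eq_zero (r := algebraMap R M s) hz
  rw [← hq, Polynomial.aeval_map_algebraMap, ← IsScalarTower.algebraMap_apply,
    ← Algebra.smul_def] at h0
  rwa [← Polynomial.aeval_def]

end Clear

section Gauss

variable (A0 : Type*) [CommRing A0] (M : Type*) [Field M] [Algebra A0 M]
  (F : Type*) [Field F] [Algebra M F] [Algebra A0 F] [IsScalarTower A0 M F]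

/-- `O` is a Gauss valuation ring of `F` over the chart `A0[t]`, with reduction `ρ` onto its
residue field `κ`, and `κ₀ ⊆ κ` contains the reduction of `O ∩ M`. -/
structure IsGauss (t : M) (π : A0) (O : ValuationSubring F) {κ : Type*} [Field κ]
    (ρ : ↥O →+* κ) (κ₀ : Type*) [Field κ₀] [Algebra κ₀ κ] : Prop where
  prime_unif : Prime (unif A0 M t π)
  surj : Function.Surjective ρ
  ker : ∀ y : ↥O, ρ y = 0 → ∃ z : ↥O, (y : F) = π • (z : F)
  chart_mem : ∀ r : chart A0 M t, algebraMap M F (r : M) ∈ O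
  red_unif : ∀ h : algebraMap A0 F π ∈ O, ρ ⟨algebraMap A0 F π, h⟩ = 0
  den : ∀ c : M, algebraMap M F c ∈ O →
    ∃ s a : chart A0 M t, ¬ unif A0 M t π ∣ s ∧ c * (s : M) = (a : M)
  red_base : ∀ c : ↥(O.comap (algebraMap M F)),
    ρ (inclHom O c) ∈ Set.range (algebraMap κ₀ κ)

variable {A0 M F}
variable {t : M} {π : A0} {O : ValuationSubring F} {κ : Type*} [Field κ] {ρ : ↥O →+* κ}
  {κ₀ : Type*} [Field κ₀] [Algebra κ₀ κ]

theorem coe_unif : ((unif A0 M t π : chart A0 M t) : M) = algebraMap A0 M π := rfl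

theorem unif_smul (z : F) : (unif A0 M t π) • z = π • z := by
  rw [Algebra.smul_def, Algebra.smul_def]
  congr 1
  exact (IsScalarTower.algebraMap_apply A0 M F π).symm

theorem chart_smul (s : chart A0 M t) (z : F) : s • z = algebraMap M F (s : M) * z := by
  rw [Algebra.smul_def]
  rfl

/-- A chart element prime to `π` has nonzero reduction. -/
theorem red_ne_zero_of_not_dvd (hπ : Prime (unif A0 M t π))
    (hker : ∀ y : ↥O, ρ y = 0 → ∃ z : ↥O, (y : F) = π • (z : F))
    (hden : ∀ c : M, algebraMap M F c ∈ O →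
      ∃ s a : chart A0 M t, ¬ unif A0 M t π ∣ s ∧ c * (s : M) = (a : M))
    {s : chart A0 M t} (hs : ¬ unif A0 M t π ∣ s) (hmem : algebraMap M F (s : M) ∈ O) :
    ρ ⟨algebraMap M F (s : M), hmem⟩ ≠ 0 := by
  intro h0
  obtain ⟨z, hz⟩ := hker _ h0
  have hz' : algebraMap M F (s : M) = π • (z : F) := hz
  have hπM : algebraMap A0 M π ≠ 0 := by
    intro h1
    apply hπ.ne_zero
    apply Subtype.ext
    rw [coe_unif, h1]
    rfl
  have hπF : algebraMap M F (algebraMap A0 M π) ≠ 0 := (_root_.map_ne_zero _).mpr hπM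
  have hzc : algebraMap M F ((s : M) / algebraMap A0 M π) = (z : F) := by
    rw [map_div₀, hz', Algebra.smul_def, IsScalarTower.algebraMap_apply A0 M F,
      mul_div_cancel_left₀ _ hπF]
  obtain ⟨s', a', hs', hsa⟩ := hden ((s : M) / algebraMap A0 M π) (by rw [hzc]; exact z.2)
  have hdvd : unif A0 M t π ∣ s * s' := by
    refine ⟨a', ?_⟩
    apply Subtype.ext
    show (s : M) * (s' : M) = algebraMap A0 M π * (a' : M)
    rw [← hsa]
    field_simp
  exact (hπ.dvd_or_dvd hdvd).elim hs hs'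

namespace IsGauss

variable (h : IsGauss A0 M F t π O ρ κ₀)
include h

/-- The inclusion of the chart into `O ∩ M`. -/
def chartHom : chart A0 M t →+* ↥(O.comap (algebraMap M F)) :=
  (chart A0 M t).val.toRingHom.codRestrict (O.comap (algebraMap M F)) h.chart_mem

theorem coe_chartHom (r : chart A0 M t) :
    ((h.chartHom r : ↥(O.comap (algebraMap M F))) : M) = (r : M) := rfl

/-- The inclusion of the chart into `O`. -/
def chartHomO : chart A0 M t →+* ↥O := (inclHom O).comp h.chartHom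

theorem coe_chartHomO (r : chart A0 M t) :
    ((h.chartHomO r : ↥O) : F) = algebraMap M F (r : M) := rfl

theorem algebraMap_comp_chartHomO :
    (algebraMap ↥O F).comp h.chartHomO = algebraMap (chart A0 M t) F :=
  RingHom.ext fun _ => rfl

theorem red_unif' : ρ (h.chartHomO (unif A0 M t π)) = 0 := by
  have hmem : algebraMap A0 F π ∈ O := by
    have h1 := h.chart_mem (unif A0 M t π)
    rwa [coe_unif, ← IsScalarTower.algebraMap_apply A0 M F π] at h1
  have h2 : h.chartHomO (unif A0 M t π) = ⟨algebraMap A0 F π, hmem⟩ :=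
    Subtype.ext (IsScalarTower.algebraMap_apply A0 M F π).symm
  rw [h2]
  exact h.red_unif hmem

theorem red_eq_zero_of_dvd {s : chart A0 M t} (hs : unif A0 M t π ∣ s) :
    ρ (h.chartHomO s) = 0 := by
  obtain ⟨a, rfl⟩ := hs
  rw [map_mul, map_mul, h.red_unif', zero_mul]

theorem red_ne_zero {s : chart A0 M t} (hs : ¬ unif A0 M t π ∣ s) :
    ρ (h.chartHomO s) ≠ 0 :=
  red_ne_zero_of_not_dvd h.prime_unif h.ker h.den hs (h.chart_mem s)

theorem red_eq_zero_of_mem_maximalIdeal (y : ↥O) (hy : y ∈ IsLocalRing.maximalIdeal ↥O) :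
    ρ y = 0 := by
  have hmax : (RingHom.ker ρ).IsMaximal := RingHom.ker_isMaximal_of_surjective ρ h.surj
  have h1 := IsLocalRing.eq_maximalIdeal hmax
  rw [← h1] at hy
  exact hy

theorem isUnit_of_red_ne_zero (y : ↥O) (hy : ρ y ≠ 0) : IsUnit y := by
  by_contra hu
  exact hy (h.red_eq_zero_of_mem_maximalIdeal y ((IsLocalRing.mem_maximalIdeal y).mpr hu))

/-- Elements integral over the chart lie in `O`. -/
theorem mem_of_isIntegral {z : F} (hz : IsIntegral (chart A0 M t) z) : z ∈ O := by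
  obtain ⟨p, hpm, hp0⟩ := hz
  have hint : IsIntegral ↥O z := by
    refine ⟨p.map h.chartHomO, hpm.map _, ?_⟩
    rw [Polynomial.eval₂_map, h.algebraMap_comp_chartHomO]
    exact hp0
  obtain ⟨w, hw⟩ := IsIntegrallyClosed.isIntegral_iff.mp hint
  rw [← hw]
  exact w.2

/-- `O`-membership descends along multiplication by a chart element prime to `π`. -/
theorem mem_of_smul_mem {s : chart A0 M t} (hs : ¬ unif A0 M t π ∣ s) {z : F}
    (hz : s • z ∈ O) : z ∈ O := by
  obtain ⟨u, hu⟩ := h.isUnit_of_red_ne_zero _ (h.red_ne_zero hs)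
  have h3 : ((u⁻¹ : (↥O)ˣ) : ↥O) * h.chartHomO s = 1 := by
    rw [← hu]
    exact u.inv_mul
  have h4 : (((u⁻¹ : (↥O)ˣ) : ↥O) : F) * algebraMap M F (s : M) = 1 :=
    congrArg Subtype.val h3
  have h5 : z = (((u⁻¹ : (↥O)ˣ) : ↥O) : F) * (s • z) := by
    rw [chart_smul, ← mul_assoc, h4, one_mul]
  rw [h5]
  exact O.mul_mem _ _ (Subtype.property _) hz

theorem mem_of_inGauss {z : F} (hz : InGauss A0 M F t π z) : z ∈ O := by
  obtain ⟨s, hs, hint⟩ := hz
  exact h.mem_of_smul_mem hs (h.mem_of_isIntegral hint)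

theorem red_eq_zero_of_inPiGauss {z : F} (hz : InPiGauss A0 M F t π z) :
    ∃ hm : z ∈ O, ρ ⟨z, hm⟩ = 0 := by
  obtain ⟨s, hs, c, hc, hsc⟩ := hz
  have hcO : c ∈ O := h.mem_of_isIntegral hc
  have hπc : π • c = ((h.chartHomO (unif A0 M t π) * ⟨c, hcO⟩ : ↥O) : F) := by
    rw [← unif_smul (t := t), chart_smul]
    rfl
  have hszO : s • z ∈ O := by
    rw [hsc, hπc]
    exact Subtype.property _
  have hzO : z ∈ O := h.mem_of_smul_mem hs hszO
  refine ⟨hzO, ?_⟩
  have h1 : h.chartHomO s * ⟨z, hzO⟩ = h.chartHomO (unif A0 M t π) * ⟨c, hcO⟩ := by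
    apply Subtype.ext
    rw [← hπc, ← hsc, chart_smul]
    rfl
  have h2 := congrArg ρ h1
  rw [map_mul, map_mul, h.red_unif', zero_mul] at h2
  exact (mul_eq_zero.mp h2).resolve_left (h.red_ne_zero hs)

/-- The valuation-ring dichotomy in the shape `x⁻¹ ∈ O ∨ x ∈ πO`. -/
theorem inv_mem_or {z : F} (hz : z ∈ O) : z⁻¹ ∈ O ∨ ∃ y ∈ O, z = π • y := by
  by_cases h0 : ρ ⟨z, hz⟩ = 0
  · obtain ⟨w, hw⟩ := h.ker _ h0
    exact Or.inr ⟨w, w.2, hw⟩
  · left
    obtain ⟨u, hu⟩ := h.isUnit_of_red_ne_zero _ h0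
    have h1 : ((u⁻¹ : (↥O)ˣ) : ↥O) * ⟨z, hz⟩ = 1 := by
      rw [← hu]
      exact u.inv_mul
    have h2 : (((u⁻¹ : (↥O)ˣ) : ↥O) : F) * z = 1 := congrArg Subtype.val h1
    rw [← eq_inv_of_mul_eq_one_left h2]
    exact Subtype.property _

/-- The independence hypothesis of `GaussBasis`, from `κ₀`-linear independence. -/
theorem red_indep {ι : Type*} (x : ι → ↥O) (hli : LinearIndependent κ₀ (fun i => ρ (x i)))
    (s : Finset ι) (c : ι → ↥(O.comap (algebraMap M F)))
    (hsum : ∑ i ∈ s, ρ (inclHom O (c i)) * ρ (x i) = 0) :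
    ∀ i ∈ s, ρ (inclHom O (c i)) = 0 := by
  choose d hd using h.red_base
  have h1 : ∑ i ∈ s, d (c i) • ρ (x i) = 0 := by
    rw [← hsum]
    refine Finset.sum_congr rfl fun i _ => ?_
    rw [Algebra.smul_def, hd]
  intro i hi
  have h2 := linearIndependent_iff'.mp hli s (fun i => d (c i)) h1 i hi
  rw [← hd, h2, map_zero]

section Basis

variable [FiniteDimensional M F] {ι : Type*} [Fintype ι] (x : ι → ↥O)
  (hli : LinearIndependent κ₀ (fun i => ρ (x i))) (hle : Module.finrank M F ≤ Fintype.card ι)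
include hli hle

theorem span_eq_top : ⊤ ≤ Submodule.span M (Set.range fun i => ((x i : ↥O) : F)) :=
  (span_eq_top_of_red O ρ x (h.red_indep x hli) hle).2

theorem finrank_eq : Module.finrank M F = Fintype.card ι :=
  (span_eq_top_of_red O ρ x (h.red_indep x hli) hle).1

/-- `O` is the `O ∩ M`-span of the family `x`. -/
theorem exists_eq_sum (y : ↥O) :
    ∃ c : ι → ↥(O.comap (algebraMap M F)), y = ∑ i, inclHom O (c i) * x i := by
  classical
  obtain ⟨s, c, hsc⟩ := exists_eq_sum_of_red O ρ h.red_eq_zero_of_mem_maximalIdeal x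
    (h.red_indep x hli) (h.span_eq_top x hli hle) y
  refine ⟨fun i => if i ∈ s then c i else 0, ?_⟩
  rw [hsc, ← Finset.sum_subset (Finset.subset_univ s)]
  · refine Finset.sum_congr rfl fun i hi => ?_
    simp only [if_pos hi]
  · intro i _ hi
    simp only [if_neg hi, map_zero, zero_mul]

/-- The reductions of the family span `κ` over `κ₀`. -/
theorem span_red_eq_top : ⊤ ≤ Submodule.span κ₀ (Set.range fun i => ρ (x i)) := by
  intro w _
  obtain ⟨y, rfl⟩ := h.surj w
  obtain ⟨c, hc⟩ := h.exists_eq_sum x hli hle y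
  rw [hc, map_sum]
  refine Submodule.sum_mem _ fun i _ => ?_
  obtain ⟨d, hd⟩ := h.red_base (c i)
  rw [map_mul, ← hd, ← Algebra.smul_def]
  exact Submodule.smul_mem _ _ (Submodule.subset_span ⟨i, rfl⟩)

theorem finiteDimensional_red : FiniteDimensional κ₀ κ :=
  Module.Finite.of_basis (Module.Basis.mk hli (h.span_red_eq_top x hli hle))

theorem finrank_red_eq : Module.finrank κ₀ κ = Fintype.card ι :=
  Module.finrank_eq_card_basis (Module.Basis.mk hli (h.span_red_eq_top x hli hle))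

/-- **Trace reduction**: `Tr_{F/M}` maps `O` into `O ∩ M` and reduces to `Tr_{κ/κ₀}`. -/
theorem exists_trace_red (y : ↥O) :
    ∃ T : ↥(O.comap (algebraMap M F)), (T : M) = Algebra.trace M F (y : F) ∧
      ρ (inclHom O T) = algebraMap κ₀ κ (Algebra.trace κ₀ κ (ρ y)) := by
  classical
  have hx := h.red_indep x hli
  let bF : Module.Basis ι M F :=
    Module.Basis.mk (linearIndependent_of_red O ρ x hx) (h.span_eq_top x hli hle)
  let bκ : Module.Basis ι κ₀ κ := Module.Basis.mk hli (h.span_red_eq_top x hli hle)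
  have hbF : ∀ i, bF i = ((x i : ↥O) : F) := fun i => Module.Basis.mk_apply _ _ i
  have hbκ : ∀ i, bκ i = ρ (x i) := fun i => Module.Basis.mk_apply _ _ i
  choose c hc using fun j => h.exists_eq_sum x hli hle (y * x j)
  choose d hd using h.red_base
  have h1 : ∀ j i, bF.repr ((y : F) * bF j) i = (c j i : M) := by
    intro j i
    have h2 : (y : F) * bF j = ∑ i, (c j i : M) • bF i := by
      have h3 := congrArg Subtype.val (hc j)
      rw [coe_sum_inclHom_mul] at h3
      simp only [hbF, Algebra.smul_def]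
      exact h3
    rw [h2, Module.Basis.repr_sum_self]
  have h2 : ∀ j i, bκ.repr (ρ y * bκ j) i = d (c j i) := by
    intro j i
    have h3 : ρ y * bκ j = ∑ i, d (c j i) • bκ i := by
      rw [hbκ, ← map_mul, hc j, map_sum]
      refine Finset.sum_congr rfl fun i _ => ?_
      rw [map_mul, hbκ, Algebra.smul_def, hd]
    rw [h3, Module.Basis.repr_sum_self]
  refine ⟨∑ i, c i i, ?_, ?_⟩
  · rw [Algebra.trace_eq_matrix_trace bF, Matrix.trace]
    simp only [Matrix.diag_apply, Algebra.leftMulMatrix_eq_repr_mul, h1]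
    exact map_sum (O.comap (algebraMap M F)).subtype _ _
  · rw [Algebra.trace_eq_matrix_trace bκ, Matrix.trace]
    simp only [Matrix.diag_apply, Algebra.leftMulMatrix_eq_repr_mul, h2]
    rw [map_sum, map_sum, map_sum]
    exact Finset.sum_congr rfl fun i _ => (hd _).symm

/-- Every element of `O` is in the integral closure of the localised chart. -/
theorem inGauss_of_mem {z : F} (hz : z ∈ O) : InGauss A0 M F t π z := by
  have hx := h.red_indep x hli
  obtain ⟨p, hpm, hp0⟩ := (isIntegralElem_iff O ρ h.red_eq_zero_of_mem_maximalIdeal x hx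
    (h.span_eq_top x hli hle) z).mpr hz
  have hP0 : aeval z (p.map (O.comap (algebraMap M F)).subtype) = 0 := by
    rw [Polynomial.aeval_def, Polynomial.eval₂_map]
    exact hp0
  refine exists_isIntegral_smul h.prime_unif z _ (hpm.map _) hP0 (fun i => ?_)
  rw [Polynomial.coeff_map]
  exact h.den _ (p.coeff i).2

/-- `O''` of the Kummer core (for the base field) is the Gauss valuation ring. -/
theorem inGauss_iff (z : F) : InGauss A0 M F t π z ↔ z ∈ O :=
  ⟨h.mem_of_inGauss, h.inGauss_of_mem x hli hle⟩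

/-- Elements of `O` with zero reduction are in `π O''`. -/
theorem inPiGauss_of_red_eq_zero (y : ↥O) (hy : ρ y = 0) : InPiGauss A0 M F t π (y : F) := by
  obtain ⟨z, hz⟩ := h.ker y hy
  obtain ⟨s, hs, hint⟩ := h.inGauss_of_mem x hli hle z.2
  exact ⟨s, hs, s • (z : F), hint, by rw [hz, smul_comm]⟩

/-- `π O''` of the Kummer core (for the base field) is the maximal ideal of the Gauss ring. -/
theorem inPiGauss_iff (z : F) : InPiGauss A0 M F t π z ↔ ∃ hm : z ∈ O, ρ ⟨z, hm⟩ = 0 :=
  ⟨h.red_eq_zero_of_inPiGauss, fun ⟨hm, h0⟩ => h.inPiGauss_of_red_eq_zero x hli hle ⟨z, hm⟩ h0⟩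

/-- `Y ∈ O` with reduction `1`: `Y - 1 ∈ π O''`. -/
theorem inPiGauss_sub_one (y : ↥O) (hy : ρ y = 1) : InPiGauss A0 M F t π ((y : F) - 1) :=
  h.inPiGauss_of_red_eq_zero x hli hle (y - 1) (by rw [map_sub, hy, map_one, sub_self])

/-- `Y ∈ O` with reduction `1`: `Y⁻¹ - 1 ∈ π O''`. -/
theorem inPiGauss_inv_sub_one (y : ↥O) (hy : ρ y = 1) :
    InPiGauss A0 M F t π ((y : F)⁻¹ - 1) := by
  obtain ⟨u, hu⟩ := h.isUnit_of_red_ne_zero y (by rw [hy]; exact one_ne_zero)
  have h1 : ((u⁻¹ : (↥O)ˣ) : ↥O) * y = 1 := by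
    rw [← hu]
    exact u.inv_mul
  have h2 : (((u⁻¹ : (↥O)ˣ) : ↥O) : F) * (y : F) = 1 := congrArg Subtype.val h1
  have h3 : (y : F)⁻¹ = (((u⁻¹ : (↥O)ˣ) : ↥O) : F) := (eq_inv_of_mul_eq_one_left h2).symm
  have h4 : ρ ((u⁻¹ : (↥O)ˣ) : ↥O) = 1 := by
    have h5 := congrArg ρ h1
    rw [map_mul, hy, mul_one, map_one] at h5
    exact h5
  rw [h3]
  exact h.inPiGauss_sub_one x hli hle _ h4

/-- **(H2) for the base field** on the chart `A0[t]`. -/
theorem h2Hyp [Algebra.IsSeparable κ₀ κ] (hic : IsIntegrallyClosed (chart A0 M t))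
    (hfr : IsFractionRing (chart A0 M t) M) : H2Hyp A0 M F t π := by
  classical
  intro a ha htr
  have haO : a ∈ O := h.mem_of_isIntegral ha
  have hfin : FiniteDimensional κ₀ κ := h.finiteDimensional_red x hli hle
  have hzero : ρ ⟨a, haO⟩ = 0 := by
    refine (traceForm_nondegenerate κ₀ κ).1 _ fun w => ?_
    rw [Algebra.traceForm_apply]
    obtain ⟨y, rfl⟩ := h.surj w
    obtain ⟨s, hs, hint⟩ := h.inGauss_of_mem x hli hle y.2
    obtain ⟨b, hb⟩ := htr (s • (y : F)) hint
    obtain ⟨T, hT1, hT2⟩ := h.exists_trace_red x hli hle (⟨a, haO⟩ * h.chartHomO s * y)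
    have hT : T = h.chartHom (unif A0 M t π * b) := by
      apply Subtype.ext
      rw [hT1]
      have h1 : ((⟨a, haO⟩ * h.chartHomO s * y : ↥O) : F) = a * (s • (y : F)) := by
        rw [chart_smul, ← mul_assoc]
        rfl
      rw [h1, hb]
      rfl
    have h0 : ρ (inclHom O T) = 0 := by
      rw [hT]
      exact h.red_eq_zero_of_dvd (Dvd.intro b rfl)
    rw [h0] at hT2
    obtain ⟨d, hd⟩ := h.red_base (h.chartHom s)
    have hd' : ρ (h.chartHomO s) = algebraMap κ₀ κ d := hd.symm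
    have hd0 : d ≠ 0 := by
      rintro rfl
      exact h.red_ne_zero hs (by rw [hd', map_zero])
    have h3 : ρ (⟨a, haO⟩ * h.chartHomO s * y) = d • (ρ ⟨a, haO⟩ * ρ y) := by
      rw [map_mul, map_mul, hd', Algebra.smul_def]
      ring
    rw [h3, map_smul, smul_eq_mul] at hT2
    have h4 : d * Algebra.trace κ₀ κ (ρ ⟨a, haO⟩ * ρ y) = 0 :=
      (algebraMap κ₀ κ).injective (by rw [← hT2, map_zero])
    exact (mul_eq_zero.mp h4).resolve_left hd0
  obtain ⟨z, hz⟩ := h.ker ⟨a, haO⟩ hzero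
  have hz' : a = π • (z : F) := hz
  obtain ⟨s, hs, hint⟩ := h.inGauss_of_mem x hli hle z.2
  have key : s • a = unif A0 M t π • (s • (z : F)) := by
    rw [unif_smul, hz', smul_comm]
  have : IsIntegrallyClosed (chart A0 M t) := hic
  have : IsFractionRing (chart A0 M t) M := hfr
  obtain ⟨c, hc, hac⟩ := IntTrick.exists_eq_smul_of_smul_eq_smul (M := M) (unif A0 M t π) s
    h.prime_unif hs a (s • (z : F)) ha hint key
  exact ⟨c, hc, by rw [hac, unif_smul]⟩

/-- One trace is a unit at `π`. -/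
theorem exists_trace_unit [Algebra.IsSeparable κ₀ κ] :
    ∃ z ∈ O, ∀ s a : chart A0 M t, ¬ unif A0 M t π ∣ s →
      (s : M) * Algebra.trace M F z ≠ ((unif A0 M t π * a : chart A0 M t) : M) := by
  have hfin : FiniteDimensional κ₀ κ := h.finiteDimensional_red x hli hle
  obtain ⟨w, hw⟩ := Algebra.trace_surjective κ₀ κ 1
  obtain ⟨y, rfl⟩ := h.surj w
  refine ⟨y, y.2, fun s a hs heq => ?_⟩
  obtain ⟨T, hT1, hT2⟩ := h.exists_trace_red x hli hle y
  have h1 : h.chartHom s * T = h.chartHom (unif A0 M t π * a) := by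
    apply Subtype.ext
    show (s : M) * (T : M) = _
    rw [hT1, heq]
    rfl
  have h2 := congrArg (fun c => ρ (inclHom O c)) h1
  simp only [map_mul] at h2
  rw [hT2, hw, map_one, mul_one] at h2
  apply h.red_ne_zero hs
  show ρ (inclHom O (h.chartHom s)) = 0
  rw [h2]
  have h3 := h.red_unif'
  have h4 : ρ (inclHom O (h.chartHom (unif A0 M t π))) = 0 := h3
  rw [h4, zero_mul]

end Basis

end IsGauss

/-- Constructor from generator-level data: `A0 ⊆ O`, `t ∈ O`, reductions of the constants and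
of `t` in `κ₀`. -/
theorem isGauss_of_generators (t : M) (π : A0) (O : ValuationSubring F) {κ : Type*} [Field κ]
    (ρ : ↥O →+* κ) (κ₀ : Type*) [Field κ₀] [Algebra κ₀ κ]
    (hπ : Prime (unif A0 M t π)) (hsurj : Function.Surjective ρ)
    (hker : ∀ y : ↥O, ρ y = 0 → ∃ z : ↥O, (y : F) = π • (z : F))
    (hA : ∀ a : A0, algebraMap A0 F a ∈ O) (ht : algebraMap M F t ∈ O)
    (hρπ : ρ ⟨algebraMap A0 F π, hA π⟩ = 0)
    (hden : ∀ c : M, algebraMap M F c ∈ O →
      ∃ s a : chart A0 M t, ¬ unif A0 M t π ∣ s ∧ c * (s : M) = (a : M))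
    (hρA : ∀ a : A0, ρ ⟨algebraMap A0 F a, hA a⟩ ∈ Set.range (algebraMap κ₀ κ))
    (hρt : ρ ⟨algebraMap M F t, ht⟩ ∈ Set.range (algebraMap κ₀ κ)) :
    IsGauss A0 M F t π O ρ κ₀ := by
  have key : ∀ m ∈ Algebra.adjoin A0 {t}, ∃ hm : algebraMap M F m ∈ O,
      ρ ⟨algebraMap M F m, hm⟩ ∈ Set.range (algebraMap κ₀ κ) := by
    intro m hm
    induction hm using Algebra.adjoin_induction with
    | mem x hx =>
      rw [Set.mem_singleton_iff] at hx
      subst hx
      exact ⟨ht, hρt⟩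
    | algebraMap a =>
      have hm : algebraMap M F (algebraMap A0 M a) ∈ O := by
        rw [← IsScalarTower.algebraMap_apply A0 M F]
        exact hA a
      refine ⟨hm, ?_⟩
      have h1 : (⟨algebraMap M F (algebraMap A0 M a), hm⟩ : ↥O) = ⟨algebraMap A0 F a, hA a⟩ :=
        Subtype.ext (IsScalarTower.algebraMap_apply A0 M F a).symm
      rw [h1]
      exact hρA a
    | add x y _ _ hx hy =>
      obtain ⟨h1, d1, e1⟩ := hx
      obtain ⟨h2, d2, e2⟩ := hy
      have hm : algebraMap M F (x + y) ∈ O := by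
        rw [map_add]
        exact O.add_mem _ _ h1 h2
      refine ⟨hm, d1 + d2, ?_⟩
      have h3 : (⟨algebraMap M F (x + y), hm⟩ : ↥O) =
          ⟨algebraMap M F x, h1⟩ + ⟨algebraMap M F y, h2⟩ := Subtype.ext (map_add _ _ _)
      rw [h3, map_add, map_add, e1, e2]
    | mul x y _ _ hx hy =>
      obtain ⟨h1, d1, e1⟩ := hx
      obtain ⟨h2, d2, e2⟩ := hy
      have hm : algebraMap M F (x * y) ∈ O := by
        rw [map_mul]
        exact O.mul_mem _ _ h1 h2
      refine ⟨hm, d1 * d2, ?_⟩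
      have h3 : (⟨algebraMap M F (x * y), hm⟩ : ↥O) =
          ⟨algebraMap M F x, h1⟩ * ⟨algebraMap M F y, h2⟩ := Subtype.ext (map_mul _ _ _)
      rw [h3, map_mul, map_mul, e1, e2]
  have hRO : ∀ r : chart A0 M t, algebraMap M F (r : M) ∈ O := fun r => (key r r.2).1
  refine ⟨hπ, hsurj, hker, hRO, fun _ => hρπ, hden, fun c => ?_⟩
  obtain ⟨s, a, hs, hsa⟩ := hden (c : M) c.2
  obtain ⟨ds, hds⟩ := (key s s.2).2
  obtain ⟨da, hda⟩ := (key a a.2).2
  have hne : ρ ⟨algebraMap M F (s : M), hRO s⟩ ≠ 0 := red_ne_zero_of_not_dvd hπ hker hden hs _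
  have hds0 : ds ≠ 0 := by
    rintro rfl
    exact hne (by rw [← hds, map_zero])
  have h1 : inclHom O c * ⟨algebraMap M F (s : M), hRO s⟩ = ⟨algebraMap M F (a : M), hRO a⟩ := by
    apply Subtype.ext
    show algebraMap M F (c : M) * algebraMap M F (s : M) = algebraMap M F (a : M)
    rw [← map_mul, hsa]
  have h2 := congrArg ρ h1
  rw [map_mul, ← hds, ← hda] at h2
  refine ⟨da / ds, ?_⟩
  rw [map_div₀, ← h2, mul_div_assoc, div_self ((_root_.map_ne_zero _).mpr hds0), mul_one]

/-- **(H2) for the base field**, unbundled form. -/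
theorem h2Hyp_of_gauss [FiniteDimensional M F] (t : M) (π : A0)
    (hic : IsIntegrallyClosed (chart A0 M t)) (hfr : IsFractionRing (chart A0 M t) M)
    (hπ : Prime (unif A0 M t π))
    (O : ValuationSubring F) {κ : Type*} [Field κ] (ρ : ↥O →+* κ) (hsurj : Function.Surjective ρ)
    (hker : ∀ y : ↥O, ρ y = 0 → ∃ z : ↥O, (y : F) = π • (z : F))
    (hRO : ∀ r : chart A0 M t, algebraMap M F (r : M) ∈ O)
    (hρπ : ∀ h : algebraMap A0 F π ∈ O, ρ ⟨algebraMap A0 F π, h⟩ = 0)
    (hO₀ : ∀ c : M, algebraMap M F c ∈ O →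
      ∃ s a : chart A0 M t, ¬ unif A0 M t π ∣ s ∧ c * (s : M) = (a : M))
    (κ₀ : Type*) [Field κ₀] [Algebra κ₀ κ] [Algebra.IsSeparable κ₀ κ]
    (hρ₀ : ∀ c : ↥(O.comap (algebraMap M F)), ρ (inclHom O c) ∈ Set.range (algebraMap κ₀ κ))
    {ι : Type*} [Fintype ι] (x : ι → ↥O) (hli : LinearIndependent κ₀ (fun i => ρ (x i)))
    (hle : Module.finrank M F ≤ Fintype.card ι) : H2Hyp A0 M F t π :=
  IsGauss.h2Hyp ⟨hπ, hsurj, hker, hRO, hρπ, hO₀, hρ₀⟩ x hli hle hic hfr

end Gauss

end Fermat.Agent.S18.H2Base
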