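import Mathlib
import Fermat.Agent.S18.H2Base
import Fermat.Agent.S18.GaussA0
import Fermat.Agent.S18.SepQ
import Fermat.Agent.S18.GaussDeg

/-!
# S18 bridge: (H2) for the modular function field `F_K = K(j(q^d) : d ∣ N)`

Instantiation of `H2Base` with the Gauss valuation ring `GaussA0.Ov` of
`F_K = modularFunctionFieldFullC K N` over a discrete valuation subring `A` of `K`
(`φ : A →+* k` surjective with kernel `(π)`, `k` perfect).

* `resI`: the residue field of `Ov` (the range of the reduction), as an intermediate field of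
  `k((q)) / k`; `Kap`: the same as an extension of `κ₀ = k(j̄)`; `redK`: the reduction ONTO it.
* `isGauss`: `H2Base.IsGauss A M F_K t π Ov redK k(j̄)` for any field `M` with `K ⊆ M ⊆ F_K`
  and `t : M` mapping to `j` (instance-generic in the `A`-algebra structures).
* `h2Hyp`: `H2Hyp A M F_K t π` from a family of elements of `Ov` whose reductions are
  `k(j̄)`-linearly independent in `k((q))`, of cardinality `≥ [F_K : M]`.
  No algebraicity / separability input is needed: the residue field is finite over `k(j̄)` by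
  the basis, hence separable (`SepQ`).
* `inPiGauss_of_mul_eq`: `Y - 1`, `Y⁻¹ - 1 ∈ π O''` for `Y = u₁ / u₂` with equal nonzero
  reductions.
-/

set_option autoImplicit false
set_option linter.unusedSectionVars false

open ModularCurve IntermediateField

namespace Fermat.Agent.S18.H2Inst

open Fermat.Agent.S18.CoreDefs Fermat.Agent.S18.GaussA0 Fermat.Agent.S18.H2Base
open Fermat.Agent.S28

section Res

variable {K : Type*} [Field K] (A : ValuationSubring K) {k : Type*} [Field k] (φ : ↥A →+* k)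
  (N : ℕ)

/-- The residue field of the Gauss ring of `F_K`, as an intermediate field of `k((q)) / k`. -/
noncomputable def resI (hφs : Function.Surjective φ) : IntermediateField k (LaurentSeries k) :=
  (resField A φ N).toIntermediateField fun c => by
    obtain ⟨a, rfl⟩ := hφs c
    rw [algebraMap_eq_C]
    exact C_mem_resField A φ N a

theorem mem_resI_iff (hφs : Function.Surjective φ) (y : LaurentSeries k) :
    y ∈ resI A φ N hφs ↔ ∃ x : ↥(OvSubring A φ N), redv A φ N x = y :=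
  Iff.rfl

theorem jq_le_resI (hφs : Function.Surjective φ) : k⟮jqModC k⟯ ≤ resI A φ N hφs := by
  rw [IntermediateField.adjoin_simple_le_iff]
  have h := jd_mem_resField A φ N 1 (one_dvd N)
  rw [qExpand_one_apply] at h
  exact h

/-- The residue field of the Gauss ring as an extension of `κ₀ = k(j̄)`. -/
noncomputable abbrev Kap (hφs : Function.Surjective φ) :
    IntermediateField ↥k⟮jqModC k⟯ (LaurentSeries k) :=
  IntermediateField.extendScalars (jq_le_resI A φ N hφs)

variable {π : ↥A} (hφ : ∀ x, φ x = 0 ↔ π ∣ x) (hπ0 : π ≠ 0)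
  (hkrull : ∀ c : ↥A, c ≠ 0 → ∃ n : ℕ, ¬ π ^ n ∣ c)

/-- The reduction of the Gauss ring onto its residue field. -/
noncomputable def redK (hφs : Function.Surjective φ) :
    ↥(Ov A φ N hφ hπ0 hkrull) →+* ↥(Kap A φ N hφs) :=
  (redO A φ N hφ hπ0 hkrull).codRestrict (Kap A φ N hφs) fun x =>
    (IntermediateField.mem_extendScalars _).mpr ⟨x, rfl⟩

theorem coe_redK (hφs : Function.Surjective φ) (x : ↥(Ov A φ N hφ hπ0 hkrull)) :
    ((redK A φ N hφ hπ0 hkrull hφs x : ↥(Kap A φ N hφs)) : LaurentSeries k) =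
      redO A φ N hφ hπ0 hkrull x :=
  rfl

theorem redK_surjective (hφs : Function.Surjective φ) :
    Function.Surjective (redK A φ N hφ hπ0 hkrull hφs) := by
  rintro ⟨y, hy⟩
  obtain ⟨x, hx⟩ := (IntermediateField.mem_extendScalars _).mp hy
  exact ⟨x, Subtype.ext hx⟩

end Res

section Main

variable {K : Type*} [Field K] (A : ValuationSubring K) {k : Type*} [Field k] (φ : ↥A →+* k)
  (N : ℕ) {π : ↥A} (hφ : ∀ x, φ x = 0 ↔ π ∣ x) (hπ0 : π ≠ 0)
  (hkrull : ∀ c : ↥A, c ≠ 0 → ∃ n : ℕ, ¬ π ^ n ∣ c) (hφs : Function.Surjective φ)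

variable (M : Type*) [Field M] [Algebra K M] [Algebra M ↥(modularFunctionFieldFullC K N)] [IsScalarTower K M ↥(modularFunctionFieldFullC K N)]
  [Algebra ↥A M] [Algebra ↥A ↥(modularFunctionFieldFullC K N)] [IsScalarTower ↥A M ↥(modularFunctionFieldFullC K N)]
  (hAF : ∀ a : ↥A, algebraMap ↥A ↥(modularFunctionFieldFullC K N) a = algebraMap K ↥(modularFunctionFieldFullC K N) (a : K))
  (t : M) (htj : ((algebraMap M ↥(modularFunctionFieldFullC K N) t : ↥(modularFunctionFieldFullC K N)) : LaurentSeries K) = jqModC K)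
  (hπ' : Prime (unif ↥A M t π))
  (hden : ∀ c : M, algebraMap M ↥(modularFunctionFieldFullC K N) c ∈ Ov A φ N hφ hπ0 hkrull →
    ∃ s a : chart ↥A M t, ¬ unif ↥A M t π ∣ s ∧ c * (s : M) = (a : M))

include hφs hAF htj hπ' hden

/-- **The Gauss ring of `F_K` is a Gauss ring over the chart `A[t]`** in the sense of
`H2Base`. -/
theorem isGauss :
    IsGauss ↥A M ↥(modularFunctionFieldFullC K N) t π (Ov A φ N hφ hπ0 hkrull) (redK A φ N hφ hπ0 hkrull hφs)
      ↥k⟮jqModC k⟯ := by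
  have hA : ∀ a : ↥A, algebraMap ↥A ↥(modularFunctionFieldFullC K N) a ∈ Ov A φ N hφ hπ0 hkrull := fun a => by
    rw [hAF]
    exact (constOv A φ N hφ hπ0 hkrull a).2
  have htF : algebraMap M ↥(modularFunctionFieldFullC K N) t = (jdOv A φ N hφ hπ0 hkrull 1 (one_dvd N) : ↥(modularFunctionFieldFullC K N)) := by
    apply Subtype.ext
    rw [htj, coe_jdOv, qExpand_one_apply]
  have ht : algebraMap M ↥(modularFunctionFieldFullC K N) t ∈ Ov A φ N hφ hπ0 hkrull := by
    rw [htF]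
    exact Subtype.property _
  refine isGauss_of_generators t π _ _ _ hπ' (redK_surjective A φ N hφ hπ0 hkrull hφs) ?_ hA ht
    ?_ hden ?_ ?_
  · intro y hy
    have h0 : redO A φ N hφ hπ0 hkrull y = 0 := congrArg Subtype.val hy
    obtain ⟨z, hz⟩ := (redO_eq_zero_iff_dvd A φ N hφ hπ0 hkrull y).mp h0
    refine ⟨z, ?_⟩
    rw [hz, Algebra.smul_def, hAF]
    rfl
  · apply Subtype.ext
    have h1 : (⟨algebraMap ↥A ↥(modularFunctionFieldFullC K N) π, hA π⟩ : ↥(Ov A φ N hφ hπ0 hkrull)) =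
        constOv A φ N hφ hπ0 hkrull π := Subtype.ext (hAF π)
    rw [coe_redK, h1, redO_constOv, (hφ π).mpr dvd_rfl, map_zero]
    rfl
  · intro a
    refine ⟨algebraMap k ↥k⟮jqModC k⟯ (φ a), ?_⟩
    apply Subtype.ext
    have h1 : (⟨algebraMap ↥A ↥(modularFunctionFieldFullC K N) a, hA a⟩ : ↥(Ov A φ N hφ hπ0 hkrull)) =
        constOv A φ N hφ hπ0 hkrull a := Subtype.ext (hAF a)
    rw [coe_redK, h1, redO_constOv, ← algebraMap_eq_C]
    rfl
  · refine ⟨⟨jqModC k, IntermediateField.mem_adjoin_simple_self k _⟩, ?_⟩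
    apply Subtype.ext
    have h1 : (⟨algebraMap M ↥(modularFunctionFieldFullC K N) t, ht⟩ : ↥(Ov A φ N hφ hπ0 hkrull)) =
        jdOv A φ N hφ hπ0 hkrull 1 (one_dvd N) := Subtype.ext htF
    rw [coe_redK, h1, redO_jdOv, qExpand_one_apply]
    rfl

variable [FiniteDimensional M ↥(modularFunctionFieldFullC K N)] {ι : Type*} [Fintype ι] (x : ι → ↥(Ov A φ N hφ hπ0 hkrull))
  (hli : LinearIndependent ↥k⟮jqModC k⟯ (fun i => redO A φ N hφ hπ0 hkrull (x i)))
  (hle : Module.finrank M ↥(modularFunctionFieldFullC K N) ≤ Fintype.card ι)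

include hli hle

theorem linearIndependent_redK :
    LinearIndependent ↥k⟮jqModC k⟯ (fun i => redK A φ N hφ hπ0 hkrull hφs (x i)) := by
  apply LinearIndependent.of_comp (Kap A φ N hφs).val.toLinearMap
  exact hli

/-- The residue field of the Gauss ring is finite over `k(j̄)`. -/
theorem finiteDimensional_Kap : FiniteDimensional ↥k⟮jqModC k⟯ ↥(Kap A φ N hφs) :=
  (isGauss A φ N hφ hπ0 hkrull hφs M hAF t htj hπ' hden).finiteDimensional_red x
    (linearIndependent_redK A φ N hφ hπ0 hkrull hφs M hAF t htj hπ' hden x hli hle) hle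

/-- The residue field of the Gauss ring is separable over `k(j̄)` (`k` perfect). -/
theorem isSeparable_Kap [PerfectField k] :
    Algebra.IsSeparable ↥k⟮jqModC k⟯ ↥(Kap A φ N hφs) := by
  have hfin := finiteDimensional_Kap A φ N hφ hπ0 hkrull hφs M hAF t htj hπ' hden x hli hle
  refine SepQ.isSeparable_extendScalars SepQ.theta_jqModC_ne_zero (resI A φ N hφs)
    (jq_le_resI A φ N hφs) (fun y hy => ?_)
  have halg : Algebra.IsAlgebraic ↥k⟮jqModC k⟯ ↥(Kap A φ N hφs) :=
    @Algebra.IsAlgebraic.of_finite ↥k⟮jqModC k⟯ ↥(Kap A φ N hφs) _ _ _ _ hfin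
  have h1 : IsAlgebraic ↥k⟮jqModC k⟯
      (⟨y, (IntermediateField.mem_extendScalars _).mpr hy⟩ : ↥(Kap A φ N hφs)) :=
    halg.isAlgebraic _
  exact (IntermediateField.isAlgebraic_iff (S := Kap A φ N hφs)).mp h1

/-- **(H2) for the modular function field** `F_K` over the chart `A[t]`, `t ↦ j`. -/
theorem h2Hyp [PerfectField k] (hic : IsIntegrallyClosed (chart ↥A M t))
    (hfr : IsFractionRing (chart ↥A M t) M) : H2Hyp ↥A M ↥(modularFunctionFieldFullC K N) t π := by
  have hsep := isSeparable_Kap A φ N hφ hπ0 hkrull hφs M hAF t htj hπ' hden x hli hle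
  exact (isGauss A φ N hφ hπ0 hkrull hφs M hAF t htj hπ' hden).h2Hyp x
    (linearIndependent_redK A φ N hφ hπ0 hkrull hφs M hAF t htj hπ' hden x hli hle) hle hic hfr

/-- `O''` of the Kummer core for `F_K` is the Gauss ring. -/
theorem inGauss_iff (z : ↥(modularFunctionFieldFullC K N)) : InGauss ↥A M ↥(modularFunctionFieldFullC K N) t π z ↔ z ∈ Ov A φ N hφ hπ0 hkrull :=
  (isGauss A φ N hφ hπ0 hkrull hφs M hAF t htj hπ' hden).inGauss_iff x
    (linearIndependent_redK A φ N hφ hπ0 hkrull hφs M hAF t htj hπ' hden x hli hle) hle z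

/-- `π O''` of the Kummer core for `F_K` is the maximal ideal of the Gauss ring. -/
theorem inPiGauss_iff (z : ↥(modularFunctionFieldFullC K N)) :
    InPiGauss ↥A M ↥(modularFunctionFieldFullC K N) t π z ↔
      ∃ hm : z ∈ Ov A φ N hφ hπ0 hkrull, redO A φ N hφ hπ0 hkrull ⟨z, hm⟩ = 0 := by
  rw [(isGauss A φ N hφ hπ0 hkrull hφs M hAF t htj hπ' hden).inPiGauss_iff x
    (linearIndependent_redK A φ N hφ hπ0 hkrull hφs M hAF t htj hπ' hden x hli hle) hle z]
  constructor
  · rintro ⟨hm, h0⟩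
    exact ⟨hm, congrArg Subtype.val h0⟩
  · rintro ⟨hm, h0⟩
    exact ⟨hm, Subtype.ext h0⟩

/-- **The Kummer generator**: for `Y = u₁ / u₂` with equal nonzero reductions, `Y - 1` and
`Y⁻¹ - 1` lie in `π O''`. -/
theorem inPiGauss_of_mul_eq (Y : ↥(modularFunctionFieldFullC K N)) (u₁ u₂ : LaurentSeries ↥A)
    (hY : (Y : LaurentSeries K) * incl A u₂ = incl A u₁) (h₂ : rho φ u₂ ≠ 0)
    (h₁₂ : rho φ u₁ = rho φ u₂) :
    InPiGauss ↥A M ↥(modularFunctionFieldFullC K N) t π (Y - 1) ∧ InPiGauss ↥A M ↥(modularFunctionFieldFullC K N) t π (Y⁻¹ - 1) := by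
  have hG := isGauss A φ N hφ hπ0 hkrull hφs M hAF t htj hπ' hden
  have hli' := linearIndependent_redK A φ N hφ hπ0 hkrull hφs M hAF t htj hπ' hden x hli hle
  have hYO : Y ∈ Ov A φ N hφ hπ0 hkrull := mem_OvSubring_of_mul_eq Y u₁ u₂ hY h₂
  have h1 : redK A φ N hφ hπ0 hkrull hφs ⟨Y, hYO⟩ = 1 :=
    Subtype.ext (redv_eq_one_of_mul_eq Y u₁ u₂ hY h₂ h₁₂)
  exact ⟨hG.inPiGauss_sub_one x hli' hle ⟨Y, hYO⟩ h1,
    hG.inPiGauss_inv_sub_one x hli' hle ⟨Y, hYO⟩ h1⟩

end Main

section Mono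

variable {K : Type*} [Field K] (A : ValuationSubring K) {k : Type*} [Field k] (φ : ↥A →+* k)
  (N : ℕ) {π : ↥A} (hφ : ∀ x, φ x = 0 ↔ π ∣ x) (hπ0 : π ≠ 0)
  (hkrull : ∀ c : ↥A, c ≠ 0 → ∃ n : ℕ, ¬ π ^ n ∣ c) (hφs : Function.Surjective φ)

variable (M : Type*) [Field M] [Algebra K M] [Algebra M ↥(modularFunctionFieldFullC K N)]
  [IsScalarTower K M ↥(modularFunctionFieldFullC K N)]
  [Algebra ↥A M] [Algebra ↥A ↥(modularFunctionFieldFullC K N)]
  [IsScalarTower ↥A M ↥(modularFunctionFieldFullC K N)]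
  (hAF : ∀ a : ↥A, algebraMap ↥A ↥(modularFunctionFieldFullC K N) a =
    algebraMap K ↥(modularFunctionFieldFullC K N) (a : K))
  (t : M) (htj : ((algebraMap M ↥(modularFunctionFieldFullC K N) t :
    ↥(modularFunctionFieldFullC K N)) : LaurentSeries K) = jqModC K)
  (hπ' : Prime (unif ↥A M t π))
  (hden : ∀ c : M, algebraMap M ↥(modularFunctionFieldFullC K N) c ∈ Ov A φ N hφ hπ0 hkrull →
    ∃ s a : chart ↥A M t, ¬ unif ↥A M t π ∣ s ∧ c * (s : M) = (a : M))
  (hN : 0 < N) (hNk : ∀ p : ℕ, p.Prime → p ∣ N → (p : k) ≠ 0)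
  [FiniteDimensional M ↥(modularFunctionFieldFullC K N)]
  (hle : Module.finrank M ↥(modularFunctionFieldFullC K N) ≤ dedekindPsi N)

include hφs hAF htj hπ' hden hN hNk hle

/-- The `ψ(N)` monomials of S28 as a family of the Gauss ring with `k(j̄)`-independent
reductions. -/
theorem exists_family :
    ∃ x : Fin (dedekindPsi N) → ↥(Ov A φ N hφ hπ0 hkrull),
      LinearIndependent ↥k⟮jqModC k⟯ (fun i => redO A φ N hφ hπ0 hkrull (x i)) ∧
      Module.finrank M ↥(modularFunctionFieldFullC K N) ≤ Fintype.card (Fin (dedekindPsi N)) := by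
  obtain ⟨m, hm, hmono⟩ := GaussDeg.exists_monomials k N hN hNk
  refine ⟨fun i => GaussDeg.monoO A φ N hN (m i) (hm i), ?_, by rw [Fintype.card_fin]; exact hle⟩
  have h1 : (fun i => redO A φ N hφ hπ0 hkrull (GaussDeg.monoO A φ N hN (m i) (hm i))) =
      fun i => Defs.mono k (m i) := funext fun i => GaussDeg.redv_monoO A φ N hN (m i) (hm i)
  rw [h1]
  exact GaussDeg.linearIndependent_mono m hmono

/-- **(H2) for the modular function field** `F_K` over the chart `A[t]`, `t ↦ j`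
(monomial basis plugged in). -/
theorem h2Hyp_mono [PerfectField k] (hic : IsIntegrallyClosed (chart ↥A M t))
    (hfr : IsFractionRing (chart ↥A M t) M) :
    H2Hyp ↥A M ↥(modularFunctionFieldFullC K N) t π := by
  obtain ⟨x, hli, hle'⟩ := exists_family A φ N hφ hπ0 hkrull hφs M hAF t htj hπ' hden hN hNk hle
  exact h2Hyp A φ N hφ hπ0 hkrull hφs M hAF t htj hπ' hden x hli hle' hic hfr

theorem inGauss_iff_mono (z : ↥(modularFunctionFieldFullC K N)) :
    InGauss ↥A M ↥(modularFunctionFieldFullC K N) t π z ↔ z ∈ Ov A φ N hφ hπ0 hkrull := by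
  obtain ⟨x, hli, hle'⟩ := exists_family A φ N hφ hπ0 hkrull hφs M hAF t htj hπ' hden hN hNk hle
  exact inGauss_iff A φ N hφ hπ0 hkrull hφs M hAF t htj hπ' hden x hli hle' z

theorem inPiGauss_iff_mono (z : ↥(modularFunctionFieldFullC K N)) :
    InPiGauss ↥A M ↥(modularFunctionFieldFullC K N) t π z ↔
      ∃ hm : z ∈ Ov A φ N hφ hπ0 hkrull, redO A φ N hφ hπ0 hkrull ⟨z, hm⟩ = 0 := by
  obtain ⟨x, hli, hle'⟩ := exists_family A φ N hφ hπ0 hkrull hφs M hAF t htj hπ' hden hN hNk hle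
  exact inPiGauss_iff A φ N hφ hπ0 hkrull hφs M hAF t htj hπ' hden x hli hle' z

/-- **The Kummer generator** (monomial basis plugged in). -/
theorem inPiGauss_of_mul_eq_mono (Y : ↥(modularFunctionFieldFullC K N))
    (u₁ u₂ : LaurentSeries ↥A)
    (hY : (Y : LaurentSeries K) * incl A u₂ = incl A u₁) (h₂ : rho φ u₂ ≠ 0)
    (h₁₂ : rho φ u₁ = rho φ u₂) :
    InPiGauss ↥A M ↥(modularFunctionFieldFullC K N) t π (Y - 1) ∧
      InPiGauss ↥A M ↥(modularFunctionFieldFullC K N) t π (Y⁻¹ - 1) := by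
  obtain ⟨x, hli, hle'⟩ := exists_family A φ N hφ hπ0 hkrull hφs M hAF t htj hπ' hden hN hNk hle
  exact inPiGauss_of_mul_eq A φ N hφ hπ0 hkrull hφs M hAF t htj hπ' hden x hli hle' Y u₁ u₂ hY
    h₂ h₁₂

end Mono

end Fermat.Agent.S18.H2Inst
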