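import Mathlib
import Fermat.Agent.S18.CoreDefs
import Fermat.Agent.S18.AdjoinChart
import Fermat.Agent.S18.GaussDeg

/-!
# S18 bridge (H2), auxiliary file for `H2Inst`: the denominators of the Gauss ring on the `j`-line

`K` a field, `A` a discrete valuation subring with reduction `φ : A →+* k` (kernel `π A`),
`F_K = K(j(q^d) : d ∣ N)`, `Ov` its Gauss valuation ring (`GaussA0`).  For a field `M` between `K`
and `F_K` with coordinate `t ↦ j` whose image lies in `K(j)`:

* `hden`: every `c : M` lying in `Ov` is `a / s` with `a, s` in the chart `A[t]` and `π ∤ s`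
  (`Ov ∩ M` is the localisation of the chart at `(π)`); this is the field `den` of
  `H2Base.IsGauss` for the Gauss ring of the modular function field.
-/

set_option autoImplicit false

open ModularCurve Polynomial

namespace Fermat.Agent.S18.H2InstAux

open Fermat.Agent.S18.CoreDefs Fermat.Agent.S18.GaussA0

/-- evaluation over `A` with the structure map given by `hAF` is evaluation over `K` of the
polynomial with coefficients in `K`. -/
theorem aeval_eq_aeval_map {K : Type*} [Field K] (A : ValuationSubring K) {F : Type*} [Field F]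
    [Algebra K F] [Algebra ↥A F]
    (hAF : ∀ a : ↥A, algebraMap ↥A F a = algebraMap K F (a : K)) (x : F) (P : (↥A)[X]) :
    aeval x P = aeval x (P.map A.subtype) := by
  have h1 : algebraMap ↥A F = (algebraMap K F).comp A.subtype := RingHom.ext hAF
  rw [aeval_def, aeval_def, eval₂_map, h1]

/-- **The denominators of the Gauss ring on the `j`-line** (chart form). -/
theorem hden {K : Type*} [Field K] (A : ValuationSubring K) {k : Type*} [Field k]
    (φ : ↥A →+* k) (N : ℕ) {π : ↥A} (hφ : ∀ x, φ x = 0 ↔ π ∣ x) (hπ0 : π ≠ 0)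
    (hkrull : ∀ c : ↥A, c ≠ 0 → ∃ n : ℕ, ¬ π ^ n ∣ c)
    (M : Type*) [Field M] [Algebra K M] [Algebra M ↥(modularFunctionFieldFullC K N)]
    [IsScalarTower K M ↥(modularFunctionFieldFullC K N)] [Algebra ↥A M]
    [Algebra ↥A ↥(modularFunctionFieldFullC K N)]
    [IsScalarTower ↥A M ↥(modularFunctionFieldFullC K N)]
    (hAF : ∀ a : ↥A, algebraMap ↥A ↥(modularFunctionFieldFullC K N) a =
      algebraMap K ↥(modularFunctionFieldFullC K N) (a : K))
    (t : M)
    (htj : ((algebraMap M ↥(modularFunctionFieldFullC K N) t :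
      ↥(modularFunctionFieldFullC K N)) : LaurentSeries K) = jqModC K)
    (ht : Transcendental ↥A t)
    (hM : ∀ c : M, algebraMap M ↥(modularFunctionFieldFullC K N) c ∈
      IntermediateField.adjoin K {FieldDef.jC K N}) :
    ∀ c : M, algebraMap M ↥(modularFunctionFieldFullC K N) c ∈ GaussA0.Ov A φ N hφ hπ0 hkrull →
      ∃ s a : chart ↥A M t, ¬ unif ↥A M t π ∣ s ∧ c * (s : M) = (a : M) := by
  intro c hc
  have htj' : algebraMap M ↥(modularFunctionFieldFullC K N) t = FieldDef.jC K N :=
    Subtype.ext htj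
  obtain ⟨P, Q, hQ, h1, -⟩ := GaussDeg.exists_poly_of_mem_adjoin hφ hπ0 hkrull
    (⟨algebraMap M ↥(modularFunctionFieldFullC K N) c, hc⟩ : ↥(OvSubring A φ N)) (hM c)
  -- transport of the evaluations to `M`
  have hev : ∀ R : (↥A)[X], algebraMap M ↥(modularFunctionFieldFullC K N) (aeval t R) =
      aeval (FieldDef.jC K N) (R.map A.subtype) := by
    intro R
    rw [← aeval_algebraMap_apply, htj']
    exact aeval_eq_aeval_map A hAF _ R
  refine ⟨AdjoinChart.chartEquiv M t ht Q, AdjoinChart.chartEquiv M t ht P, ?_, ?_⟩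
  · rw [← AdjoinChart.chartEquiv_C_unif M t ht π]
    intro hdvd
    have hdvd' : C π ∣ Q := by
      obtain ⟨r, hr⟩ := hdvd
      refine ⟨(AdjoinChart.chartEquiv M t ht).symm r, ?_⟩
      apply (AdjoinChart.chartEquiv M t ht).injective
      rw [map_mul, AlgEquiv.apply_symm_apply]
      exact hr
    obtain ⟨R, rfl⟩ := hdvd'
    apply hQ
    rw [Polynomial.map_mul, Polynomial.map_C, (hφ π).mpr dvd_rfl, C_0, zero_mul]
  · rw [AdjoinChart.coe_chartEquiv, AdjoinChart.coe_chartEquiv]
    apply (algebraMap M ↥(modularFunctionFieldFullC K N)).injective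
    rw [map_mul, hev, hev]
    exact h1

end Fermat.Agent.S18.H2InstAux
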