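import Mathlib
import Fermat.Agent.S18.CoreDefs

/-!
# S18 (route K, bridge): the base line `M = K0(t)` over `A0`

Inputs of the abstract core (`KummerCore.false_of_kummer`, `Core.exists_const_of_idem`,
`AdjoinChart`) for the base line `M = K0(t)`, `K0 = Frac A0`:

* `hgen_of_exists_div`, `hgen_of_adjoin_eq_top`, `hgen_adjoinSimple`: every element of `M` is a
  quotient of two elements of the chart ring `A0[t]` (the hypothesis `hgen`);
* `exists_pow_mul_mem_chart_inv`, `hgen_inv`: reflection `A0[t] → A0[t⁻¹]` and `hgen` for the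
  chart at infinity;
* `transcendental_of_field`, `transcendental_gen`: the hypothesis `ht`;
* `hchar_of_arch`, `isUnit_natCast_of_charP`: the hypotheses `hchar`, `hpA`.
-/

set_option autoImplicit false

open Polynomial IntermediateField

namespace Fermat.Agent.S18.LineGen

open Fermat.Agent.S18.CoreDefs

section Chart

variable {A0 M : Type*} [CommRing A0] [Field M] [Algebra A0 M]

/-- Values of `A0`-polynomials at `t` lie in the chart ring `A0[t]`. -/
theorem aeval_mem_chart (t : M) (P : A0[X]) : aeval t P ∈ chart A0 M t := by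
  rw [chart, Algebra.adjoin_singleton_eq_range_aeval]
  exact ⟨P, rfl⟩

/-- Elements of the chart ring are values of `A0`-polynomials. -/
theorem exists_aeval_eq_of_mem_chart (t : M) {x : M} (hx : x ∈ chart A0 M t) :
    ∃ P : A0[X], aeval t P = x := by
  rw [chart, Algebra.adjoin_singleton_eq_range_aeval] at hx
  exact hx

/-- **Reflection**: multiplying an element of `A0[t]` by a high power of `t⁻¹` lands in
`A0[t⁻¹]`. -/
theorem exists_pow_mul_mem_chart_inv (t : M) {x : M} (hx : x ∈ chart A0 M t) :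
    ∃ N : ℕ, ∀ n : ℕ, N ≤ n → t⁻¹ ^ n * x ∈ chart A0 M t⁻¹ := by
  obtain ⟨P, rfl⟩ := exists_aeval_eq_of_mem_chart t hx
  refine ⟨P.natDegree, fun n hn => ?_⟩
  have hmem : t⁻¹ ∈ chart A0 M t⁻¹ := Algebra.subset_adjoin rfl
  rcases eq_or_ne t 0 with rfl | ht
  · have h0 : aeval (0 : M) P ∈ chart A0 M (0 : M)⁻¹ := by
      rw [inv_zero]
      exact aeval_mem_chart 0 P
    exact (chart A0 M (0 : M)⁻¹).mul_mem ((chart A0 M (0 : M)⁻¹).pow_mem hmem n) h0
  rw [aeval_eq_sum_range, Finset.mul_sum]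
  refine (chart A0 M t⁻¹).sum_mem (fun i hi => ?_)
  have hin : i ≤ n := (Nat.lt_succ_iff.mp (Finset.mem_range.mp hi)).trans hn
  have h2 : t⁻¹ ^ n * t ^ i = t⁻¹ ^ (n - i) := by
    have h3 : t⁻¹ ^ n = t⁻¹ ^ (n - i) * t⁻¹ ^ i := by rw [← pow_add, Nat.sub_add_cancel hin]
    rw [h3, mul_assoc, ← mul_pow, inv_mul_cancel₀ ht, one_pow, mul_one]
  have h1 : t⁻¹ ^ n * P.coeff i • t ^ i = P.coeff i • t⁻¹ ^ (n - i) := by
    rw [mul_smul_comm, h2]
  rw [h1]
  exact (chart A0 M t⁻¹).smul_mem ((chart A0 M t⁻¹).pow_mem hmem _) _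

/-- `hgen` for the chart `A0[t]` implies `hgen` for the chart at infinity `A0[t⁻¹]`. -/
theorem hgen_inv (t : M)
    (hgen : ∀ m : M, ∃ a b : chart A0 M t, b ≠ 0 ∧ m * (b : M) = (a : M)) :
    ∀ m : M, ∃ a b : chart A0 M t⁻¹, b ≠ 0 ∧ m * (b : M) = (a : M) := by
  intro m
  obtain ⟨a, b, hb, hab⟩ := hgen m
  rcases eq_or_ne t 0 with rfl | ht
  · rw [inv_zero]
    exact ⟨a, b, hb, hab⟩
  · obtain ⟨Na, hNa⟩ := exists_pow_mul_mem_chart_inv t a.2
    obtain ⟨Nb, hNb⟩ := exists_pow_mul_mem_chart_inv t b.2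
    have ha' := hNa (max Na Nb) (le_max_left _ _)
    have hb' := hNb (max Na Nb) (le_max_right _ _)
    refine ⟨⟨_, ha'⟩, ⟨_, hb'⟩, ?_, ?_⟩
    · intro h
      have h0 : t⁻¹ ^ max Na Nb * (b : M) = 0 := congrArg Subtype.val h
      rcases mul_eq_zero.mp h0 with h1 | h1
      · exact pow_ne_zero _ (inv_ne_zero ht) h1
      · exact hb (Subtype.ext h1)
    · change m * (t⁻¹ ^ max Na Nb * (b : M)) = t⁻¹ ^ max Na Nb * (a : M)
      rw [← hab]
      ring

end Chart

/-- `A0 → M` is injective when it factors through the fraction field of `A0`. -/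
theorem algebraMap_injective_of_isFractionRing (A0 K0 M : Type*) [CommRing A0] [Field K0]
    [Algebra A0 K0] [IsFractionRing A0 K0] [Field M] [Algebra K0 M] [Algebra A0 M]
    [IsScalarTower A0 K0 M] : Function.Injective (algebraMap A0 M) := by
  rw [IsScalarTower.algebraMap_eq A0 K0 M]
  exact (algebraMap K0 M).injective.comp (IsFractionRing.injective A0 K0)

section Hgen

variable {A0 K0 M : Type*} [CommRing A0] [IsDomain A0] [Field K0] [Algebra A0 K0]
  [IsFractionRing A0 K0] [Field M] [Algebra K0 M] [Algebra A0 M] [IsScalarTower A0 K0 M]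


/-- Clearing denominators: a `K0`-polynomial value at `t` becomes a chart element after
multiplication by a nonzero constant of `A0`. -/
theorem exists_aeval_eq_mul (t : M) (r : K0[X]) :
    ∃ (b : A0) (R : A0[X]), b ≠ 0 ∧ aeval t R = algebraMap A0 M b * aeval t r := by
  obtain ⟨b, hbmem, hb⟩ := IsLocalization.integerNormalization_spec (nonZeroDivisors A0) r
  refine ⟨b, IsLocalization.integerNormalization (nonZeroDivisors A0) r,
    mem_nonZeroDivisors_iff_ne_zero.mp hbmem, ?_⟩
  rw [← aeval_map_algebraMap K0, hb, ← algebraMap_smul K0 b r, map_smul,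
    Algebra.smul_def, ← IsScalarTower.algebraMap_apply]

/-- **`hgen`**: if every element of `M` is a quotient of two `K0`-polynomial values at `t`,
then every element of `M` is a quotient of two elements of the chart ring `A0[t]`. -/
theorem hgen_of_exists_div (t : M)
    (hM : ∀ m : M, ∃ r s : K0[X], m = aeval t r / aeval t s) :
    ∀ m : M, ∃ a b : chart A0 M t, b ≠ 0 ∧ m * (b : M) = (a : M) := by
  intro m
  obtain ⟨r, s, hrs⟩ := hM m
  by_cases hs : aeval t s = 0
  · refine ⟨0, 1, one_ne_zero, ?_⟩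
    rw [hrs, hs, div_zero, zero_mul]
    rfl
  · obtain ⟨b1, R, hb1, hR⟩ := exists_aeval_eq_mul (A0 := A0) t r
    obtain ⟨b2, S, hb2, hS⟩ := exists_aeval_eq_mul (A0 := A0) t s
    have hinj : Function.Injective (algebraMap A0 M) :=
      algebraMap_injective_of_isFractionRing A0 K0 M
    have hb1' : algebraMap A0 M b1 ≠ 0 := fun h => hb1 (hinj (by rw [h, map_zero]))
    have hb2' : algebraMap A0 M b2 ≠ 0 := fun h => hb2 (hinj (by rw [h, map_zero]))
    refine ⟨⟨aeval t (C b2 * R), aeval_mem_chart t _⟩, ⟨aeval t (C b1 * S), aeval_mem_chart t _⟩,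
      ?_, ?_⟩
    · intro h
      have h0 : aeval t (C b1 * S) = 0 := congrArg Subtype.val h
      rw [map_mul, aeval_C, hS] at h0
      exact mul_ne_zero hb1' (mul_ne_zero hb2' hs) h0
    · change m * aeval t (C b1 * S) = aeval t (C b2 * R)
      rw [map_mul, map_mul, aeval_C, aeval_C, hS, hR, hrs]
      field_simp

/-- **`hgen`** for `M = K0(t)`. -/
theorem hgen_of_adjoin_eq_top (t : M) (htop : K0⟮t⟯ = ⊤) :
    ∀ m : M, ∃ a b : chart A0 M t, b ≠ 0 ∧ m * (b : M) = (a : M) :=
  hgen_of_exists_div t (fun m =>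
    (IntermediateField.mem_adjoin_simple_iff K0 m).mp (htop ▸ IntermediateField.mem_top))

omit [IsDomain A0] [IsFractionRing A0 K0] in
/-- **`ht`**: transcendence over the fraction field implies transcendence over `A0`. -/
theorem transcendental_of_field (hinj : Function.Injective (algebraMap A0 K0)) {t : M}
    (ht : Transcendental K0 t) : Transcendental A0 t :=
  ht.restrictScalars hinj

end Hgen

section AdjoinSimple

variable {A0 K0 Ω : Type*} [CommRing A0] [IsDomain A0] [Field K0] [Algebra A0 K0]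
  [IsFractionRing A0 K0] [Field Ω] [Algebra K0 Ω] [Algebra A0 Ω] [IsScalarTower A0 K0 Ω]

/-- **`hgen`** for the base line realised as the simple extension `K0⟮x⟯` inside a field `Ω`,
with coordinate `AdjoinSimple.gen K0 x`. -/
theorem hgen_adjoinSimple (x : Ω) :
    ∀ m : K0⟮x⟯, ∃ a b : chart A0 K0⟮x⟯ (AdjoinSimple.gen K0 x),
      b ≠ 0 ∧ m * (b : K0⟮x⟯) = (a : K0⟮x⟯) := by
  refine hgen_of_exists_div (K0 := K0) (AdjoinSimple.gen K0 x) (fun m => ?_)
  obtain ⟨r, s, hrs⟩ := (IntermediateField.mem_adjoin_simple_iff K0 (m : Ω)).mp m.2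
  refine ⟨r, s, Subtype.ext ?_⟩
  rw [hrs]
  simp [AdjoinSimple.coe_aeval_gen_apply]

omit [IsDomain A0] [IsFractionRing A0 K0] [Algebra A0 Ω] [IsScalarTower A0 K0 Ω] in
/-- The generator of `K0⟮x⟯` is transcendental over `K0` if `x` is. -/
theorem transcendental_gen {x : Ω} (hx : Transcendental K0 x) :
    Transcendental K0 (AdjoinSimple.gen K0 x) := fun h =>
  hx (by simpa using h.algHom (K0⟮x⟯.val))

end AdjoinSimple

section Char

/-- **`hchar`** from the archimedean property of a uniformizer. -/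
theorem hchar_of_arch {A0 : Type*} [CommRing A0] [CharZero A0] (π : A0)
    (harch : ∀ c : A0, c ≠ 0 → ∃ n : ℕ, c ∣ π ^ n) :
    ∀ n : ℕ, n ≠ 0 → ∃ a : ℕ, (n : A0) ∣ π ^ a :=
  fun n hn => harch (n : A0) (Nat.cast_ne_zero.mpr hn)

/-- **`hpA`**: a natural number prime to the residue characteristic is a unit of a local
ring. -/
theorem isUnit_natCast_of_charP {R : Type*} [CommRing R] [IsLocalRing R] (ℓ : ℕ)
    [CharP (IsLocalRing.ResidueField R) ℓ] (n : ℕ) (hn : ¬ ℓ ∣ n) : IsUnit (n : R) := by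
  by_contra h
  have hmem : (n : R) ∈ IsLocalRing.maximalIdeal R := (IsLocalRing.mem_maximalIdeal _).mpr h
  have h0 : IsLocalRing.residue R (n : R) = 0 := (IsLocalRing.residue_eq_zero_iff _).mpr hmem
  rw [map_natCast] at h0
  exact hn ((CharP.cast_eq_zero_iff (IsLocalRing.ResidueField R) ℓ n).mp h0)

end Char

end Fermat.Agent.S18.LineGen
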