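import Mathlib
import Fermat.Agent.S18.Setup
import Fermat.Agent.S18.H2Inst
import Fermat.Agent.S18.H2InstAux
import Fermat.Agent.S18.LineGen
import Fermat.Agent.S18.AdjoinChart

/-!
# S18 bridge, row R4: (H2) and the Kummer generator on the sealed carriers

For a field `K` finite over `ℚ` and embedded in `ℚ̄`, a valuation subring `A` of `ℚ̄` over the
prime `ℓ ∤ N`, `A₀ = A ∩ K` with uniformizer `π`:

* `h2_jline`: `H2Hyp A₀ (Line K j) (FK K N) (Line.gen K j) π`  (finite chart `A₀[j]`);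
* `inPiGauss_jline`: for `Y = v₁ / v₂` a quotient of two series over `A₀` lying in `F_K` with
  equal nonzero reductions, `Y - 1` and `Y⁻¹ - 1` lie in `π O''`.

Both are `H2Inst` (Gauss ring `GaussA0.Ov` of `F_K`, reduction = residue map of `A₀`, monomial
residue basis of `GaussDeg`) with the denominator lemma `H2InstAux.hden`, on the sealed carriers
of `Setup`.
-/

set_option autoImplicit false
set_option linter.unusedSectionVars false

open ModularCurve

namespace Fermat.Agent.S18.H2Top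

open Fermat.Agent.S18.CoreDefs Fermat.Agent.S18.Setup Fermat.Agent.S18

local notation "Qb" => AlgebraicClosure ℚ

variable (K : Type*) [Field K] [Algebra K Qb] [Algebra ℚ K] [FiniteDimensional ℚ K]
  (N : ℕ) [NeZero N] (A : ValuationSubring Qb)

/-- The common data of the two theorems: the hypotheses of `GaussA0` for the residue map of
`A₀ = A ∩ K`. -/
theorem gauss_hyps {ℓ : ℕ} (hℓ : ℓ.Prime) (hℓN : ¬ ℓ ∣ N) (hA : A.LiesOverPrime ℓ)
    (π : ↥(A0.down K A)) (hπ : Irreducible π)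
    (hmax : IsLocalRing.maximalIdeal ↥(A0.down K A) = Ideal.span {π}) :
    (∀ x : ↥(A0.down K A), IsLocalRing.residue ↥(A0.down K A) x = 0 ↔ π ∣ x) ∧ π ≠ 0 ∧
    (∀ c : ↥(A0.down K A), c ≠ 0 → ∃ n : ℕ, ¬ π ^ n ∣ c) ∧
    Finite (IsLocalRing.ResidueField ↥(A0.down K A)) ∧
    (∀ p : ℕ, p.Prime → p ∣ N → ((p : ℕ) : IsLocalRing.ResidueField ↥(A0.down K A)) ≠ 0) := by
  have hB : (A0.down K A).LiesOverPrime ℓ := (A0.liesOverPrime_down_iff A).mpr hA
  have hdvr : IsDiscreteValuationRing ↥(A0.down K A) := A0.isDiscreteValuationRing _ hℓ hB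
  have hchar : CharP (IsLocalRing.ResidueField ↥(A0.down K A)) ℓ :=
    A0.charP_residueField _ hℓ hB
  have hπ0 : π ≠ 0 := hπ.ne_zero
  have harch : ∀ c : ↥(A0.down K A), c ≠ 0 → ∃ n : ℕ, c ∣ π ^ n := by
    intro c hc
    obtain ⟨n, u, hu⟩ := IsDiscreteValuationRing.eq_unit_mul_pow_irreducible hc hπ
    refine ⟨n, ((u⁻¹ : (↥(A0.down K A))ˣ) : ↥(A0.down K A)), ?_⟩
    rw [hu, mul_comm (u : ↥(A0.down K A)), mul_assoc, Units.mul_inv, mul_one]
  refine ⟨GaussA0.residue_eq_zero_iff_dvd hmax, hπ0,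
    GaussA0.krull_of_arch hπ0 hπ.not_isUnit harch, A0.finite_residueField _ hℓ hB, ?_⟩
  intro p hp hpN h0
  have h1 : ℓ ∣ p := (CharP.cast_eq_zero_iff _ ℓ p).mp h0
  have h2 : ℓ = p := (Nat.prime_dvd_prime_iff_eq hℓ hp).mp h1
  exact hℓN (h2 ▸ hpN)

/-- **Row R4, (H2)**: the hypothesis `H2Hyp` of the Kummer core for the function field
`F_K = K(j(q^d) : d ∣ N)` over the finite chart `A₀[j]` of the `j`-line. -/
theorem h2_jline {ℓ : ℕ} (hℓ : ℓ.Prime) (hℓN : ¬ ℓ ∣ N) (hA : A.LiesOverPrime ℓ)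
    (π : ↥(A0.down K A)) (hπ : Irreducible π)
    (hmax : IsLocalRing.maximalIdeal ↥(A0.down K A) = Ideal.span {π}) :
    H2Hyp ↥(A0.down K A) (Line K (jF K N)) (FK K N) (Line.gen K (jF K N)) π := by
  obtain ⟨hφ, hπ0, hkrull, hfin, hNk⟩ := gauss_hyps K N A hℓ hℓN hA π hπ hmax
  have hB : (A0.down K A).LiesOverPrime ℓ := (A0.liesOverPrime_down_iff A).mpr hA
  have hdvr : IsDiscreteValuationRing ↥(A0.down K A) := A0.isDiscreteValuationRing _ hℓ hB
  have hperf : PerfectField (IsLocalRing.ResidueField ↥(A0.down K A)) := PerfectField.ofFinite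
  have ht : Transcendental ↥(A0.down K A) (Line.gen K (jF K N)) :=
    Line.transcendental_gen_val (jF K N) (A0.down K A) (transcendental_jF K N)
  have hgen := LineGen.hgen_of_adjoin_eq_top (A0 := ↥(A0.down K A)) (K0 := K)
    (Line.gen K (jF K N)) (Line.adjoin_gen K (jF K N))
  have hπ' := AdjoinChart.prime_unif (Line K (jF K N)) (Line.gen K (jF K N)) ht π hπ
  have hic := AdjoinChart.isIntegrallyClosed (Line K (jF K N)) (Line.gen K (jF K N)) ht
  have hfr := AdjoinChart.isFractionRing (Line K (jF K N)) (Line.gen K (jF K N)) hgen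
  have hN : 0 < N := Nat.pos_of_ne_zero (NeZero.ne N)
  have hden := @H2InstAux.hden K _ (A0.down K A) _ _ (IsLocalRing.residue ↥(A0.down K A)) N π
    hφ hπ0 hkrull (Line K (jF K N)) (instFieldLine K (jF K N)) (instAlgebraLine K (jF K N))
    (instAlgebraLineTop K (jF K N)) (instIsScalarTowerLine K (jF K N))
    (inferInstance : Algebra ↥(A0.down K A) (Line K (jF K N)))
    (inferInstance : Algebra ↥(A0.down K A) (FK K N))
    (inferInstance : IsScalarTower ↥(A0.down K A) (Line K (jF K N)) (FK K N))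
    (fun _ => rfl) (Line.gen K (jF K N)) rfl ht (algebraMap_line_mem K (jF K N))
  exact @H2Inst.h2Hyp_mono K _ (A0.down K A) _ _ (IsLocalRing.residue ↥(A0.down K A)) N π
    hφ hπ0 hkrull IsLocalRing.residue_surjective (Line K (jF K N)) (instFieldLine K (jF K N))
    (instAlgebraLine K (jF K N)) (instAlgebraLineTop K (jF K N))
    (instIsScalarTowerLine K (jF K N))
    (inferInstance : Algebra ↥(A0.down K A) (Line K (jF K N)))
    (inferInstance : Algebra ↥(A0.down K A) (FK K N))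
    (inferInstance : IsScalarTower ↥(A0.down K A) (Line K (jF K N)) (FK K N))
    (fun _ => rfl) (Line.gen K (jF K N)) rfl hπ' hden hN hNk
    (instFiniteDimensionalLineFK K N) (finrank_line_le K N) hperf hic hfr

/-- **Row R4, the Kummer generator**: for `Y = v₁ / v₂` with `v₁, v₂` series over `A₀` lying in
`F_K`, of equal nonzero reductions, `Y - 1` and `Y⁻¹ - 1` lie in `π O''` (finite chart). -/
theorem inPiGauss_jline {ℓ : ℕ} (hℓ : ℓ.Prime) (hℓN : ¬ ℓ ∣ N) (hA : A.LiesOverPrime ℓ)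
    (π : ↥(A0.down K A)) (hπ : Irreducible π)
    (hmax : IsLocalRing.maximalIdeal ↥(A0.down K A) = Ideal.span {π})
    (v₁ v₂ : LaurentSeries ↥(A0.down K A))
    (h₁ : coeffMap (A0.down K A).subtype v₁ ∈ modularFunctionFieldFullC K N)
    (h₂ : coeffMap (A0.down K A).subtype v₂ ∈ modularFunctionFieldFullC K N)
    (hne : coeffMap (IsLocalRing.residue ↥(A0.down K A)) v₁ ≠ 0)
    (heq : coeffMap (IsLocalRing.residue ↥(A0.down K A)) v₁ =
      coeffMap (IsLocalRing.residue ↥(A0.down K A)) v₂) :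
    InPiGauss ↥(A0.down K A) (Line K (jF K N)) (FK K N) (Line.gen K (jF K N)) π
        (FK.mk _ h₁ / FK.mk _ h₂ - 1) ∧
      InPiGauss ↥(A0.down K A) (Line K (jF K N)) (FK K N) (Line.gen K (jF K N)) π
        ((FK.mk _ h₁ / FK.mk _ h₂)⁻¹ - 1) := by
  obtain ⟨hφ, hπ0, hkrull, hfin, hNk⟩ := gauss_hyps K N A hℓ hℓN hA π hπ hmax
  have hB : (A0.down K A).LiesOverPrime ℓ := (A0.liesOverPrime_down_iff A).mpr hA
  have hdvr : IsDiscreteValuationRing ↥(A0.down K A) := A0.isDiscreteValuationRing _ hℓ hB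
  have ht : Transcendental ↥(A0.down K A) (Line.gen K (jF K N)) :=
    Line.transcendental_gen_val (jF K N) (A0.down K A) (transcendental_jF K N)
  have hπ' := AdjoinChart.prime_unif (Line K (jF K N)) (Line.gen K (jF K N)) ht π hπ
  have hN : 0 < N := Nat.pos_of_ne_zero (NeZero.ne N)
  have hden := @H2InstAux.hden K _ (A0.down K A) _ _ (IsLocalRing.residue ↥(A0.down K A)) N π
    hφ hπ0 hkrull (Line K (jF K N)) (instFieldLine K (jF K N)) (instAlgebraLine K (jF K N))
    (instAlgebraLineTop K (jF K N)) (instIsScalarTowerLine K (jF K N))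
    (inferInstance : Algebra ↥(A0.down K A) (Line K (jF K N)))
    (inferInstance : Algebra ↥(A0.down K A) (FK K N))
    (inferInstance : IsScalarTower ↥(A0.down K A) (Line K (jF K N)) (FK K N))
    (fun _ => rfl) (Line.gen K (jF K N)) rfl ht (algebraMap_line_mem K (jF K N))
  have hv₂ : GaussA0.rho (IsLocalRing.residue ↥(A0.down K A)) v₂ ≠ 0 := by
    intro h
    exact hne (heq.trans h)
  have hi₂ : GaussA0.incl (A0.down K A) v₂ ≠ 0 :=
    GaussA0.incl_ne_zero (A0.down K A) (GaussA0.ne_zero_of_rho_ne_zero hv₂)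
  have hY : FK.val K N (FK.mk _ h₁ / FK.mk _ h₂) *
      GaussA0.incl (A0.down K A) v₂ = GaussA0.incl (A0.down K A) v₁ := by
    have h3 : FK.val K N (FK.mk _ h₁ / FK.mk _ h₂) =
        GaussA0.incl (A0.down K A) v₁ / GaussA0.incl (A0.down K A) v₂ := by
      rw [map_div₀, FK.val_mk, FK.val_mk]
      rfl
    rw [h3, div_mul_cancel₀ _ hi₂]
  exact @H2Inst.inPiGauss_of_mul_eq_mono K _ (A0.down K A) _ _
    (IsLocalRing.residue ↥(A0.down K A)) N π
    hφ hπ0 hkrull IsLocalRing.residue_surjective (Line K (jF K N)) (instFieldLine K (jF K N))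
    (instAlgebraLine K (jF K N)) (instAlgebraLineTop K (jF K N))
    (instIsScalarTowerLine K (jF K N))
    (inferInstance : Algebra ↥(A0.down K A) (Line K (jF K N)))
    (inferInstance : Algebra ↥(A0.down K A) (FK K N))
    (inferInstance : IsScalarTower ↥(A0.down K A) (Line K (jF K N)) (FK K N))
    (fun _ => rfl) (Line.gen K (jF K N)) rfl hπ' hden hN hNk
    (instFiniteDimensionalLineFK K N) (finrank_line_le K N)
    (FK.mk _ h₁ / FK.mk _ h₂) v₁ v₂ hY hv₂ heq

end Fermat.Agent.S18.H2Top
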