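import Mathlib

/-!
# S18 (bridge): a finite extension of a function field is a function field

If `F` is finite over `K(x)` and `Ω` is a finite extension of `F`, then `Ω` is finite over
`K(x)`, where `x` is viewed in `Ω`; and `x` stays transcendental.  This provides the
"function field in one variable" hypotheses (`Transcendental K x`, `FiniteDimensional K⟮x⟯ Ω`)
for the cover field `Ω = F(h)` of the generic cover datum.
-/

set_option autoImplicit false

namespace Fermat.Agent.S18.FFTower

open scoped IntermediateField

variable {K F Ω : Type*} [Field K] [Field F] [Field Ω] [Algebra K F] [Algebra F Ω] [Algebra K Ω]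
  [IsScalarTower K F Ω]

/-- The image of a transcendental element under a field embedding is transcendental. -/
theorem transcendental_algebraMap (x : F) (hx : Transcendental K x) :
    Transcendental K (algebraMap F Ω x) := fun h =>
  hx ((isAlgebraic_algebraMap_iff (algebraMap F Ω).injective).mp h)

/-- elements of `K(x)` map into `K(x)` (with `x` viewed in `Ω`). -/
theorem algebraMap_mem_adjoin (x : F) (s : K⟮x⟯) :
    algebraMap F Ω (s : F) ∈ K⟮algebraMap F Ω x⟯ := by
  have hle : K⟮x⟯ ≤ (K⟮algebraMap F Ω x⟯).comap (IsScalarTower.toAlgHom K F Ω) := by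
    rw [IntermediateField.adjoin_simple_le_iff]
    exact IntermediateField.mem_adjoin_simple_self K (algebraMap F Ω x)
  exact hle s.2

/-- A finite extension of a function field is a function field: if `F` is finite over `K(x)`
and `Ω` is finite over `F`, then `Ω` is finite over `K(x)` (with `x` viewed in `Ω`). -/
theorem finiteDimensional_adjoin_algebraMap (x : F) [FiniteDimensional K⟮x⟯ F]
    [FiniteDimensional F Ω] : FiniteDimensional K⟮algebraMap F Ω x⟯ Ω := by
  have h1 : Module.Finite K⟮x⟯ Ω := Module.Finite.trans F Ω
  let e : K⟮x⟯ →+* K⟮algebraMap F Ω x⟯ :=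
    ((algebraMap F Ω).comp (algebraMap K⟮x⟯ F)).codRestrict K⟮algebraMap F Ω x⟯
      (algebraMap_mem_adjoin x)
  let alg : Algebra K⟮x⟯ K⟮algebraMap F Ω x⟯ := e.toAlgebra
  have hst : IsScalarTower K⟮x⟯ K⟮algebraMap F Ω x⟯ Ω :=
    IsScalarTower.of_algebraMap_eq (fun s => rfl)
  exact Module.Finite.of_restrictScalars_finite K⟮x⟯ K⟮algebraMap F Ω x⟯ Ω

end Fermat.Agent.S18.FFTower
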