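import Mathlib
import Fermat.Agent.S18.CoreDefs

/-!
# S18, route K (bridge): the valuative criterion for `CoreDefs.ReducedAt`

If every valuation subring `W` of `E` containing the localisation of `R` at a prime `𝔭` in which
`g ∈ 𝔭` is not a unit has maximal ideal `g · W` (i.e. `E` is unramified over `𝔭`), then the fibre
at `𝔭` of the integral closure of `R` in `E` is reduced.
-/

set_option autoImplicit false

namespace Fermat.Agent.S18.ValRed

open Fermat.Agent.S18.CoreDefs

section Generic

variable {R E : Type*} [CommRing R] [Field E] [Algebra R E]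

/-- The valuation-form hypothesis: every valuation subring of `E` containing `R`, in which the
elements outside `𝔭` are units and `g` is not a unit, has maximal ideal generated by `g`. -/
def ValHyp (𝔭 : Ideal R) (g : R) : Prop :=
  ∀ W : ValuationSubring E, (∀ r : R, algebraMap R E r ∈ W) →
    (∀ r : R, r ∉ 𝔭 → (algebraMap R E r)⁻¹ ∈ W) → (algebraMap R E g)⁻¹ ∉ W →
    ∀ z ∈ W, z⁻¹ ∉ W → ∃ z' ∈ W, z = algebraMap R E g * z'

/-- An element integral over `R` lies in every valuation subring containing the image of `R`. -/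
theorem mem_valuationSubring_of_isIntegral (W : ValuationSubring E)
    (hW1 : ∀ r : R, algebraMap R E r ∈ W) {x : E} (hx : IsIntegral R x) : x ∈ W := by
  have : x ∈ (integralClosure (Subring.closure (Set.range (algebraMap R E))) E).toSubring := by
    show IsIntegral (Subring.closure (Set.range (algebraMap R E))) x
    obtain ⟨p, hp, hpx⟩ := hx
    refine ⟨p.map ((algebraMap R E).codRestrict (Subring.closure (Set.range (algebraMap R E)))
      fun r => Subring.subset_closure ⟨r, rfl⟩), hp.map _, ?_⟩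
    rw [Polynomial.eval₂_map]
    exact hpx
  rw [← iInf_valuationSubring_superset] at this
  exact (Subring.mem_iInf.mp this) ⟨W, by rintro _ ⟨r, rfl⟩; exact hW1 r⟩

/-- Core step: if `x` is integral and divisible by `g` in every valuation ring of `E` over `R_𝔭`
in which `g` is a non-unit, then `s • x = g • c'` with `s ∉ 𝔭` and `c'` integral. -/
theorem exists_smul_eq_smul (hinj : Function.Injective (algebraMap R E))
    (𝔭 : Ideal R) [h𝔭 : 𝔭.IsPrime] (g : R) (hg0 : g ≠ 0)
    (x : E) (hx : IsIntegral R x)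
    (hW : ∀ W : ValuationSubring E, (∀ r : R, algebraMap R E r ∈ W) →
      (∀ r : R, r ∉ 𝔭 → (algebraMap R E r)⁻¹ ∈ W) → (algebraMap R E g)⁻¹ ∉ W →
      ∃ z' ∈ W, x = algebraMap R E g * z') :
    ∃ s : R, s ∉ 𝔭 ∧ ∃ c' : E, IsIntegral R c' ∧ s • x = g • c' := by
  classical
  have hgE : algebraMap R E g ≠ 0 := fun h => hg0 (hinj (by rw [h, map_zero]))
  -- the localisation at `𝔭` maps to `E`
  have hunit : ∀ y : 𝔭.primeCompl, IsUnit (algebraMap R E (y : R)) := by
    intro y
    refine IsUnit.mk0 _ fun h => ?_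
    have : (y : R) = 0 := hinj (by rw [h, map_zero])
    exact y.2 (this ▸ 𝔭.zero_mem)
  let f : Localization.AtPrime 𝔭 →+* E := IsLocalization.lift (M := 𝔭.primeCompl) hunit
  let _ : Algebra (Localization.AtPrime 𝔭) E := f.toAlgebra
  have hf : ∀ r : R, algebraMap (Localization.AtPrime 𝔭) E
      (algebraMap R (Localization.AtPrime 𝔭) r) = algebraMap R E r := fun r =>
    IsLocalization.lift_eq hunit r
  have _ : IsScalarTower R (Localization.AtPrime 𝔭) E :=
    IsScalarTower.of_algebraMap_eq fun r => (hf r).symm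
  set y : E := x / algebraMap R E g with hy
  have hyint : IsIntegral (Localization.AtPrime 𝔭) y := by
    by_contra hcon
    have hmem : y ∉ (integralClosure (Localization.AtPrime 𝔭) E).toSubring := hcon
    obtain ⟨V, hV, hyV⟩ := Subring.exists_le_valuationSubring_of_isIntegrallyClosedIn hmem
    have hV1 : ∀ r : R, algebraMap R E r ∈ V := fun r => by
      rw [← hf r]
      exact hV (isIntegral_algebraMap (R := Localization.AtPrime 𝔭) (A := E))
    have hV2 : ∀ r : R, r ∉ 𝔭 → (algebraMap R E r)⁻¹ ∈ V := by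
      intro r hr
      have h1 : algebraMap (Localization.AtPrime 𝔭) E
          (IsLocalization.mk' (Localization.AtPrime 𝔭) (1 : R) (⟨r, hr⟩ : 𝔭.primeCompl))
            * algebraMap R E r = 1 := by
        rw [← hf r, ← map_mul, IsLocalization.mk'_spec, map_one, map_one]
      rw [← eq_inv_of_mul_eq_one_left h1]
      exact hV (isIntegral_algebraMap (R := Localization.AtPrime 𝔭) (A := E))
    have hxV : x ∈ V := hV (hx.tower_top (A := Localization.AtPrime 𝔭))
    by_cases hgV : (algebraMap R E g)⁻¹ ∈ V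
    · exact hyV (by rw [hy, div_eq_mul_inv]; exact V.mul_mem _ _ hxV hgV)
    · obtain ⟨z', hz', hxz⟩ := hW V hV1 hV2 hgV
      apply hyV
      rw [hy, hxz, mul_div_assoc, mul_comm, div_mul_cancel₀ _ hgE]
      exact hz'
  obtain ⟨m, hm⟩ := IsIntegral.exists_multiple_integral_of_isLocalization 𝔭.primeCompl y hyint
  refine ⟨(m : R), m.2, m • y, hm, ?_⟩
  rw [Submonoid.smul_def, smul_comm, hy, Algebra.smul_def g, mul_div_cancel₀ _ hgE]

/-- **Valuative criterion for reducedness of the fibre** (generic ring form).  `𝔭` a prime of `R`,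
`g ∈ 𝔭` a generator of `𝔭 R_𝔭`; if `E` is unramified over `𝔭` in valuation form, then an integral
`x` with `x ^ n ∈ 𝔭 • C` (`C` the integral closure of `R` in `E`) satisfies `s • x ∈ 𝔭 • C` for
some `s ∉ 𝔭`. -/
theorem exists_smul_mem_of_pow_mem (hinj : Function.Injective (algebraMap R E))
    (𝔭 : Ideal R) [h𝔭 : 𝔭.IsPrime] (g : R) (hg : g ∈ 𝔭) (hg0 : g ≠ 0)
    (hgen : ∀ r ∈ 𝔭, ∃ s : R, s ∉ 𝔭 ∧ g ∣ s * r)
    (hval : ValHyp (E := E) 𝔭 g)
    (x : E) (hx : IsIntegral R x) (n : ℕ)
    (hxn : x ^ n ∈ 𝔭 • Subalgebra.toSubmodule (integralClosure R E)) :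
    ∃ s : R, s ∉ 𝔭 ∧ s • x ∈ 𝔭 • Subalgebra.toSubmodule (integralClosure R E) := by
  classical
  have hgE : algebraMap R E g ≠ 0 := fun h => hg0 (hinj (by rw [h, map_zero]))
  obtain ⟨s, hs, c', hc', hsx⟩ := exists_smul_eq_smul hinj 𝔭 g hg0 x hx (by
    intro W hW1 hW2 hgW
    have hxW : x ∈ W := mem_valuationSubring_of_isIntegral W hW1 hx
    -- every element of `𝔭 • C` lies in `g · W`
    have hmemW : ∀ w ∈ 𝔭 • Subalgebra.toSubmodule (integralClosure R E),
        ∃ w' ∈ W, w = algebraMap R E g * w' := by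
      intro w hw
      refine Submodule.smul_induction_on hw ?_ ?_
      · intro r hr c hc
        obtain ⟨s, hs, a, ha⟩ := hgen r hr
        have hcW : c ∈ W := mem_valuationSubring_of_isIntegral W hW1 (hc : IsIntegral R c)
        have hsE : algebraMap R E s ≠ 0 := fun h => hs (by
          have : s = 0 := hinj (by rw [h, map_zero])
          exact this ▸ 𝔭.zero_mem)
        refine ⟨(algebraMap R E s)⁻¹ * algebraMap R E a * c,
          W.mul_mem _ _ (W.mul_mem _ _ (hW2 s hs) (hW1 a)) hcW, ?_⟩
        have h1 : algebraMap R E s * algebraMap R E r = algebraMap R E g * algebraMap R E a := by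
          rw [← map_mul, ← map_mul, ha]
        rw [Algebra.smul_def]
        field_simp
        linear_combination (c) * h1
      · rintro w₁ w₂ ⟨a₁, ha₁, rfl⟩ ⟨a₂, ha₂, rfl⟩
        exact ⟨a₁ + a₂, W.add_mem _ _ ha₁ ha₂, by ring⟩
    obtain ⟨w', hw', hxw⟩ := hmemW _ hxn
    by_cases hx0 : x = 0
    · exact ⟨0, W.zero_mem, by rw [hx0, mul_zero]⟩
    -- `x` is a non-unit of `W`
    have hxinv : x⁻¹ ∉ W := by
      intro hxi
      apply hgW
      have : (algebraMap R E g)⁻¹ = w' * (x⁻¹) ^ n := by
        have hxn0 : x ^ n ≠ 0 := pow_ne_zero n hx0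
        rw [inv_pow, eq_mul_inv_iff_mul_eq₀ hxn0, hxw, ← mul_assoc, inv_mul_cancel₀ hgE, one_mul]
      rw [this]
      exact W.mul_mem _ _ hw' (W.pow_mem hxi n)
    exact hval W hW1 hW2 hgW x hxW hxinv)
  exact ⟨s, hs, by rw [hsx]; exact Submodule.smul_mem_smul hg hc'⟩

end Generic

section Chart

variable (A0 : Type*) [CommRing A0] (M : Type*) [Field M] [Algebra A0 M]
  (E : Type*) [Field E] [Algebra M E]

theorem algebraMap_chart_injective (t : M) :
    Function.Injective (algebraMap (chart A0 M t) E) := by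
  intro a b hab
  apply Subtype.ext
  exact (algebraMap M E).injective hab

/-- **Valuative criterion ⟹ `ReducedAt`**, general prime `𝔭` of the chart with a local
generator `g`. -/
theorem reducedAt_of_valuation (t : M) (𝔭 : Ideal (chart A0 M t)) [𝔭.IsPrime]
    (g : chart A0 M t) (hg : g ∈ 𝔭) (hg0 : g ≠ 0)
    (hgen : ∀ r ∈ 𝔭, ∃ s : chart A0 M t, s ∉ 𝔭 ∧ g ∣ s * r)
    (hval : ValHyp (E := E) 𝔭 g) : ReducedAt A0 M E t 𝔭 :=
  fun x hx n hxn =>
    exists_smul_mem_of_pow_mem (algebraMap_chart_injective A0 M E t) 𝔭 g hg hg0 hgen hval x hx n hxn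

/-- **Valuative criterion ⟹ `ReducedAt`**, principal prime `(g)` of the chart. -/
theorem reducedAt_span_of_valuation (t : M) (g : chart A0 M t) (hg0 : g ≠ 0)
    [(Ideal.span {g}).IsPrime]
    (hval : ValHyp (E := E) (Ideal.span {g}) g) : ReducedAt A0 M E t (Ideal.span {g}) :=
  reducedAt_of_valuation A0 M E t (Ideal.span {g}) g (Ideal.mem_span_singleton_self g) hg0
    (fun r hr => ⟨1, (Ideal.ne_top_iff_one _).mp (Ideal.IsPrime.ne_top inferInstance), by
      rw [one_mul]; exact Ideal.mem_span_singleton.mp hr⟩) hval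

end Chart

end Fermat.Agent.S18.ValRed
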