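import Mathlib
import Fermat.Agent.S18.CoreDefs
import Fermat.Agent.S18.ValRed

/-!
# S18, route K (bridge): `H3Hyp` from the valuation form over `K0[X]`

A nonzero prime `𝔭` of the chart `A0[t]` not meeting `A0 ∖ 0` has a local generator `G(t)` with
`G ∈ A0[X]` irreducible over `K0 = Frac A0`.  Hence, if for every irreducible `g ∈ K0[X]` not
vanishing at the critical values every valuation ring `W ⊇ K0[t]` of `E` with `g(t)` a non-unit
has maximal ideal `g(t) · W`, then `CoreDefs.H3Hyp` holds.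
-/

set_option autoImplicit false

namespace Fermat.Agent.S18.H3Val

open Polynomial Fermat.Agent.S18.CoreDefs

section Lift

variable {A0 : Type*} [CommRing A0] [IsDomain A0] {K0 : Type*} [Field K0] [Algebra A0 K0]
  [IsFractionRing A0 K0]

/-- clearing denominators of a polynomial over the fraction field. -/
theorem exists_lift (q : K0[X]) :
    ∃ (b : A0) (Q : A0[X]), b ≠ 0 ∧ Q.map (algebraMap A0 K0) = C (algebraMap A0 K0 b) * q := by
  obtain ⟨b, hb, hQ⟩ := IsLocalization.integerNormalization_spec (nonZeroDivisors A0) q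
  refine ⟨b, IsLocalization.integerNormalization (nonZeroDivisors A0) q,
    nonZeroDivisors.ne_zero hb, ?_⟩
  rw [hQ, ← algebraMap_smul K0 b q, smul_eq_C_mul]

end Lift

section Ev

variable (A0 : Type*) [CommRing A0] (M : Type*) [Field M] [Algebra A0 M]

/-- evaluation of polynomials at the coordinate of the chart. -/
noncomputable def ev (t : M) : A0[X] →ₐ[A0] chart A0 M t := aeval (coord A0 M t)

theorem coe_ev (t : M) (G : A0[X]) : ((ev A0 M t G : chart A0 M t) : M) = aeval t G := by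
  rw [ev, aeval_subalgebra_coe]
  rfl

theorem ev_C (t : M) (a : A0) : ev A0 M t (C a) = algebraMap A0 (chart A0 M t) a := by
  rw [ev, aeval_C]

theorem ev_X (t : M) : ev A0 M t X = coord A0 M t := by
  rw [ev, aeval_X]

theorem ev_surjective (t : M) : Function.Surjective (ev A0 M t) := by
  intro r
  have h : (r : M) ∈ (aeval t : A0[X] →ₐ[A0] M).range := by
    rw [← Algebra.adjoin_singleton_eq_range_aeval]
    exact r.2
  obtain ⟨R, hR⟩ := h
  exact ⟨R, Subtype.ext (by rw [coe_ev]; exact hR)⟩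

theorem ev_injective (t : M) (ht : Transcendental A0 t) : Function.Injective (ev A0 M t) := by
  intro P Q h
  have h' := congrArg Subtype.val h
  rw [coe_ev, coe_ev] at h'
  exact (transcendental_iff_injective.mp ht) h'

end Ev

section Generator

variable (A0 : Type*) [CommRing A0] [IsDomain A0] (K0 : Type*) [Field K0] [Algebra A0 K0]
  [IsFractionRing A0 K0] (M : Type*) [Field M] [Algebra A0 M]

/-- A nonzero prime of the chart `A0[t]` not meeting `A0 ∖ 0` has a local generator `G(t)`,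
`G ∈ A0[X]` irreducible over `K0`, which does not vanish at any `c` with `t - c ∉ 𝔭`. -/
theorem exists_generator (t : M) (𝔭 : Ideal (chart A0 M t)) [h𝔭 : 𝔭.IsPrime] (hbot : 𝔭 ≠ ⊥)
    (h0 : ∀ a : A0, a ≠ 0 → algebraMap A0 (chart A0 M t) a ∉ 𝔭) :
    ∃ G : A0[X], G ≠ 0 ∧ ev A0 M t G ∈ 𝔭 ∧ Irreducible (G.map (algebraMap A0 K0)) ∧
      (∀ r ∈ 𝔭, ∃ a : A0, a ≠ 0 ∧ ev A0 M t G ∣ algebraMap A0 (chart A0 M t) a * r) ∧
      (∀ c : A0, coord A0 M t - algebraMap A0 (chart A0 M t) c ∉ 𝔭 →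
        (G.map (algebraMap A0 K0)).eval (algebraMap A0 K0 c) ≠ 0) := by
  classical
  obtain ⟨r, hr, hr0⟩ : ∃ r ∈ 𝔭, r ≠ 0 := Submodule.exists_mem_ne_zero_of_ne_bot hbot
  obtain ⟨R, rfl⟩ := ev_surjective A0 M t r
  have hex : ∃ n : ℕ, ∃ G : A0[X], G ≠ 0 ∧ ev A0 M t G ∈ 𝔭 ∧ G.natDegree = n :=
    ⟨R.natDegree, R, fun h => hr0 (by rw [h, map_zero]), hr, rfl⟩
  obtain ⟨G, hG0, hG, hGn⟩ := Nat.find_spec hex
  have hmin : ∀ H : A0[X], H ≠ 0 → ev A0 M t H ∈ 𝔭 → G.natDegree ≤ H.natDegree := by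
    intro H hH0 hH
    rw [hGn]
    exact Nat.find_min' hex ⟨H, hH0, hH, rfl⟩
  have hinj : Function.Injective (algebraMap A0 K0) := IsFractionRing.injective A0 K0
  have hmapinj : Function.Injective (Polynomial.map (algebraMap A0 K0)) :=
    Polynomial.map_injective _ hinj
  have hdegG : G.natDegree ≠ 0 := by
    intro h
    have hGC := eq_C_of_natDegree_eq_zero h
    have ha : G.coeff 0 ≠ 0 := fun h' => hG0 (by rw [hGC, h', C_0])
    apply h0 _ ha
    rw [← ev_C, ← hGC]
    exact hG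
  set g := G.map (algebraMap A0 K0) with hg
  have hg0 : g ≠ 0 := fun h => hG0 (hmapinj (by rw [Polynomial.map_zero]; exact h))
  have hgdeg : g.natDegree = G.natDegree := natDegree_map_eq_of_injective hinj G
  -- a nonzero polynomial over `K0` of smaller degree has no lift in `𝔭`
  have hkey : ∀ q : K0[X], q ≠ 0 → q.natDegree < G.natDegree → ∀ (b : A0) (Q : A0[X]),
      Q.map (algebraMap A0 K0) = C (algebraMap A0 K0 b) * q → b ≠ 0 → ev A0 M t Q ∉ 𝔭 := by
    intro q hq0 hqdeg b Q hQ hb hmem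
    have hb' : algebraMap A0 K0 b ≠ 0 := fun h => hb (hinj (by rw [h, map_zero]))
    have hQ0 : Q ≠ 0 := by
      rintro rfl
      rw [Polynomial.map_zero] at hQ
      rcases mul_eq_zero.mp hQ.symm with h | h
      · exact hb' (C_eq_zero.mp h)
      · exact hq0 h
    have hle := hmin Q hQ0 hmem
    have hQdeg : Q.natDegree = q.natDegree := by
      rw [← natDegree_map_eq_of_injective hinj Q, hQ, natDegree_C_mul hb']
    omega
  refine ⟨G, hG0, hG, ?_, ?_, ?_⟩
  · -- irreducibility over `K0`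
    rw [← hg, irreducible_iff]
    refine ⟨fun hu => hdegG (by rw [← hgdeg]; exact natDegree_eq_zero_of_isUnit hu),
      fun p1 p2 h12 => ?_⟩
    by_contra hcon
    push Not at hcon
    obtain ⟨hu1, hu2⟩ := hcon
    have hp10 : p1 ≠ 0 := fun h => hg0 (by rw [h12, h, zero_mul])
    have hp20 : p2 ≠ 0 := fun h => hg0 (by rw [h12, h, mul_zero])
    have hd1 : p1.natDegree ≠ 0 := fun h => hu1 (by
      have h1 := eq_C_of_natDegree_eq_zero h
      rw [h1]
      exact isUnit_C.mpr (IsUnit.mk0 _ fun h' => hp10 (by rw [h1, h', C_0])))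
    have hd2 : p2.natDegree ≠ 0 := fun h => hu2 (by
      have h1 := eq_C_of_natDegree_eq_zero h
      rw [h1]
      exact isUnit_C.mpr (IsUnit.mk0 _ fun h' => hp20 (by rw [h1, h', C_0])))
    have hsum : p1.natDegree + p2.natDegree = G.natDegree := by
      rw [← hgdeg, h12, natDegree_mul hp10 hp20]
    obtain ⟨b1, Q1, hb1, hQ1⟩ := exists_lift (A0 := A0) p1
    obtain ⟨b2, Q2, hb2, hQ2⟩ := exists_lift (A0 := A0) p2
    have hprod : Q1 * Q2 = C (b1 * b2) * G := by
      apply hmapinj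
      rw [Polynomial.map_mul, Polynomial.map_mul, hQ1, hQ2, Polynomial.map_C, map_mul, C_mul,
        ← hg, h12]
      ring
    have hmem : ev A0 M t Q1 * ev A0 M t Q2 ∈ 𝔭 := by
      rw [← map_mul, hprod, map_mul]
      exact 𝔭.mul_mem_left _ hG
    rcases h𝔭.mem_or_mem hmem with h | h
    · exact hkey p1 hp10 (by omega) b1 Q1 hQ1 hb1 h
    · exact hkey p2 hp20 (by omega) b2 Q2 hQ2 hb2 h
  · -- local generation
    intro r hr
    obtain ⟨Rr, rfl⟩ := ev_surjective A0 M t r
    set ρ := Rr.map (algebraMap A0 K0) with hρ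
    have hdiv : g * (ρ / g) + ρ % g = ρ := EuclideanDomain.div_add_mod ρ g
    obtain ⟨b1, Q1, hb1, hQ1⟩ := exists_lift (A0 := A0) (ρ / g)
    by_cases hrem : ρ % g = 0
    · refine ⟨b1, hb1, ev A0 M t Q1, ?_⟩
      have h1 : C b1 * Rr = G * Q1 := by
        apply hmapinj
        rw [Polynomial.map_mul, Polynomial.map_mul, Polynomial.map_C, hQ1, ← hg, ← hρ]
        rw [hrem, add_zero] at hdiv
        conv_lhs => rw [← hdiv]
        ring
      rw [← ev_C, ← map_mul, h1, map_mul]
    · exfalso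
      obtain ⟨b2, Q2, hb2, hQ2⟩ := exists_lift (A0 := A0) (ρ % g)
      have hlt : (ρ % g).natDegree < G.natDegree := by
        rw [← hgdeg]
        exact natDegree_lt_natDegree hrem (degree_mod_lt ρ hg0)
      apply hkey (ρ % g) hrem hlt b2 Q2 hQ2 hb2
      have heq : C b1 * Q2 = C (b1 * b2) * Rr - G * (C b2 * Q1) := by
        apply hmapinj
        simp only [Polynomial.map_mul, Polynomial.map_sub, Polynomial.map_C, hQ1, hQ2, map_mul]
        rw [← hg, ← hρ]
        have h2 : ρ % g = ρ - g * (ρ / g) := by rw [eq_sub_iff_add_eq, add_comm]; exact hdiv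
        rw [h2]
        ring
      have hmem : ev A0 M t (C b1 * Q2) ∈ 𝔭 := by
        rw [heq, map_sub]
        refine 𝔭.sub_mem ?_ ?_
        · rw [map_mul]
          exact 𝔭.mul_mem_left _ hr
        · rw [map_mul]
          exact 𝔭.mul_mem_right _ hG
      rw [map_mul] at hmem
      rcases h𝔭.mem_or_mem hmem with h | h
      · exact absurd (by rw [← ev_C]; exact h) (h0 b1 hb1)
      · exact h
  · -- non-vanishing at the values `c` with `t - c ∉ 𝔭`
    intro c hc hroot
    have hGc : G.eval c = 0 := by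
      apply hinj
      rw [map_zero, ← hroot, eval_map, eval₂_at_apply]
    obtain ⟨Q, hQ⟩ := dvd_iff_isRoot.mpr hGc
    have hQ0 : Q ≠ 0 := fun h => hG0 (by rw [hQ, h, mul_zero])
    have hmem : ev A0 M t (X - C c) * ev A0 M t Q ∈ 𝔭 := by
      rw [← map_mul, ← hQ]
      exact hG
    rcases h𝔭.mem_or_mem hmem with h | h
    · apply hc
      rw [map_sub, ev_X, ev_C] at h
      exact h
    · have h1 := hmin Q hQ0 h
      have hdeg : G.natDegree = Q.natDegree + 1 := by
        rw [hQ, natDegree_mul (X_sub_C_ne_zero c) hQ0, natDegree_X_sub_C, add_comm]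
      omega

end Generator

section Main

variable {A0 : Type*} [CommRing A0] [IsDomain A0] (K0 : Type*) [Field K0] [Algebra A0 K0]
  [IsFractionRing A0 K0] (M : Type*) [Field M] [Algebra A0 M] [Algebra K0 M] [IsScalarTower A0 K0 M]
  (E : Type*) [Field E] [Algebra M E] [Algebra A0 E] [IsScalarTower A0 M E] [Algebra K0 E]
  [IsScalarTower K0 M E]

/-- **`H3Hyp` from the valuation form over `K0[X]`.**  If for every irreducible `g ∈ K0[X]` that
does not vanish at the critical values, every valuation subring `W` of `E` containing `K0[t]` in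
which `g(t)` is not a unit has maximal ideal `g(t) · W`, then `H3Hyp A0 M E t π Crit` holds. -/
theorem h3Hyp_of_valuation (π : A0) (harch : ∀ a : A0, a ≠ 0 → ∃ n : ℕ, a ∣ π ^ n)
    (t : M) (ht : Transcendental A0 t) (Crit : Finset A0)
    (hcoll : ∀ c ∈ Crit, ∀ c' ∈ Crit, c ≠ c' → IsUnit (c - c'))
    (hunr : ∀ W : ValuationSubring E, (∀ c : K0, algebraMap K0 E c ∈ W) → algebraMap M E t ∈ W →
      ∀ g : K0[X], Irreducible g → (∀ c ∈ Crit, g.eval (algebraMap A0 K0 c) ≠ 0) →
      aeval (algebraMap M E t) g ∈ W → (aeval (algebraMap M E t) g)⁻¹ ∉ W →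
      ∀ y ∈ W, y⁻¹ ∉ W → ∃ y' ∈ W, y = aeval (algebraMap M E t) g * y') :
    H3Hyp A0 M E t π Crit := by
  have _ : IsScalarTower A0 K0 E := IsScalarTower.of_algebraMap_eq fun a => by
    rw [IsScalarTower.algebraMap_apply A0 M E, IsScalarTower.algebraMap_apply A0 K0 M,
      ← IsScalarTower.algebraMap_apply K0 M E]
  refine ⟨hcoll, fun 𝔭 h𝔭 hbot hπ hcrit => ?_⟩
  have _ := h𝔭
  have h0 : ∀ a : A0, a ≠ 0 → algebraMap A0 (chart A0 M t) a ∉ 𝔭 := by
    intro a ha hmem
    obtain ⟨n, b, hb⟩ := harch a ha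
    have hpow : unif A0 M t π ^ n ∈ 𝔭 := by
      have : unif A0 M t π ^ n = algebraMap A0 (chart A0 M t) a * algebraMap A0 (chart A0 M t) b := by
        rw [unif, ← map_pow, hb, map_mul]
      rw [this]
      exact 𝔭.mul_mem_right _ hmem
    exact hπ (h𝔭.mem_of_pow_mem n hpow)
  obtain ⟨G, hG0, hG, hirr, hgen, hcr⟩ := exists_generator A0 K0 M t 𝔭 hbot h0
  have hevG0 : ev A0 M t G ≠ 0 := fun h => hG0 (ev_injective A0 M t ht (by rw [h, map_zero]))
  have hcoe : ∀ x : chart A0 M t, algebraMap (chart A0 M t) E x = algebraMap M E (x : M) :=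
    fun x => rfl
  refine ValRed.reducedAt_of_valuation A0 M E t 𝔭 (ev A0 M t G) hG hevG0
    (fun r hr => by
      obtain ⟨a, ha, hdvd⟩ := hgen r hr
      exact ⟨algebraMap A0 (chart A0 M t) a, h0 a ha, hdvd⟩) ?_
  intro W hW1 hW2 hgW z hz hzinv
  have hval : aeval (algebraMap M E t) (G.map (algebraMap A0 K0))
      = algebraMap (chart A0 M t) E (ev A0 M t G) := by
    rw [aeval_map_algebraMap, aeval_algebraMap_apply, hcoe, coe_ev]
  have hA0 : ∀ a : A0, algebraMap A0 E a = algebraMap (chart A0 M t) E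
      (algebraMap A0 (chart A0 M t) a) := fun a => by
    rw [hcoe, IsScalarTower.algebraMap_apply A0 M E]
    rfl
  have hK0 : ∀ c : K0, algebraMap K0 E c ∈ W := by
    intro c
    obtain ⟨a, b, hb, rfl⟩ := IsFractionRing.div_surjective (A := A0) c
    have hb0 : b ≠ 0 := nonZeroDivisors.ne_zero hb
    rw [map_div₀, ← IsScalarTower.algebraMap_apply A0 K0 E, ← IsScalarTower.algebraMap_apply A0 K0 E,
      div_eq_mul_inv, hA0 a, hA0 b]
    exact W.mul_mem _ _ (hW1 _) (hW2 _ (h0 b hb0))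
  have htW : algebraMap M E t ∈ W := hW1 (coord A0 M t)
  have hgmem : aeval (algebraMap M E t) (G.map (algebraMap A0 K0)) ∈ W := by
    rw [hval]
    exact hW1 _
  rw [← hval] at hgW ⊢
  exact hunr W hK0 htW _ hirr (fun c hc => hcr c (hcrit c hc)) hgmem hgW z hz hzinv

/-- Variant of `h3Hyp_of_valuation` with the conclusion of the valuation form written as a
quotient: `y / g(t) ∈ W`. -/
theorem h3Hyp_of_valuation_div (π : A0) (harch : ∀ a : A0, a ≠ 0 → ∃ n : ℕ, a ∣ π ^ n)
    (t : M) (ht : Transcendental A0 t) (Crit : Finset A0)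
    (hcoll : ∀ c ∈ Crit, ∀ c' ∈ Crit, c ≠ c' → IsUnit (c - c'))
    (hunr : ∀ W : ValuationSubring E, (∀ c : K0, algebraMap K0 E c ∈ W) → algebraMap M E t ∈ W →
      ∀ g : K0[X], Irreducible g → (∀ c ∈ Crit, g.eval (algebraMap A0 K0 c) ≠ 0) →
      aeval (algebraMap M E t) g ∈ W → (aeval (algebraMap M E t) g)⁻¹ ∉ W →
      ∀ y ∈ W, y⁻¹ ∉ W → y / aeval (algebraMap M E t) g ∈ W) :
    H3Hyp A0 M E t π Crit :=
  h3Hyp_of_valuation K0 M E π harch t ht Crit hcoll fun W hK0 htW g hirr hcr hgW hgW' y hy hy' =>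
    ⟨y / aeval (algebraMap M E t) g, hunr W hK0 htW g hirr hcr hgW hgW' y hy hy', by
      have hne : aeval (algebraMap M E t) g ≠ 0 := fun h => hgW' (by
        rw [h, inv_zero]; exact W.zero_mem)
      rw [mul_div_cancel₀ _ hne]⟩

end Main

end Fermat.Agent.S18.H3Val
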