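import Mathlib
import Fermat.Agent.S18.CoreDefs
import Fermat.Agent.S18.H3Val
import Fermat.Agent.S18.ValExt
import Fermat.Agent.S18.KummerOrd
import Fermat.Agent.S18.S24Export

/-!
# S18, route K (bridge B3): `H3Hyp` for the `j`-line from the places of `X₀(N)` over `ℚ̄`

`h3Hyp_of_places` composes `H3Val.h3Hyp_of_valuation` (primes of the chart ↦ irreducible
polynomials over `K0`) with `ValExt.div_mem_of_unramified` (valuation rings of the arithmetic
field ↦ places of the geometric field): the hypothesis (H3) of the Kummer core holds for a chart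
`A0[t]` as soon as the geometric function field `F'` is unramified over the base line outside the
critical values (`hF`) and `E' / F'` is unramified everywhere (`hE`).

`h3Hyp_jline` / `h3Hyp_jline_inv` are the two instances for the `j`-line (`F' = ℚ̄(X₀(N))`,
coordinate `j` resp. `1/j`, critical values `{0, 1728}` resp. `{0, 1/1728}`), and the `_kummer`
variants discharge `hE` for a Kummer extension `E' = F'(θ)`, `θ ^ p = Y`, `p ∣ ord_P Y`.
-/

set_option autoImplicit false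
set_option linter.unusedSectionVars false

namespace Fermat.Agent.S18.H3Line

open Fermat.Agent.S18.CoreDefs AlgebraicCurve Polynomial

open scoped IntermediateField

section Generic

variable {A0 : Type*} [CommRing A0] [IsDomain A0] (K0 : Type*) [Field K0]
  [Algebra A0 K0] [IsFractionRing A0 K0] (M : Type*) [Field M] [Algebra A0 M] [Algebra K0 M]
  [IsScalarTower A0 K0 M] (E : Type*) [Field E] [Algebra M E] [Algebra A0 E]
  [IsScalarTower A0 M E] [Algebra K0 E] [IsScalarTower K0 M E]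
  {L F' E' : Type*} [Field L] [IsAlgClosed L] [CharZero L] [Field F'] [Field E']
  [Algebra K0 L] [Algebra.IsAlgebraic K0 L]
  [Algebra L F'] [Algebra F' E'] [Algebra L E'] [IsScalarTower L F' E'] [FiniteDimensional F' E']

/-- **(H3) from places, generic base function.** -/
theorem h3Hyp_of_places (π : A0) (harch : ∀ a : A0, a ≠ 0 → ∃ n : ℕ, a ∣ π ^ n) (t : M)
    (ht : Transcendental A0 t) (Crit : Finset A0)
    (hcoll : ∀ c ∈ Crit, ∀ c' ∈ Crit, c ≠ c' → IsUnit (c - c'))
    (φ : E →+* E') (hφ : ∀ c : K0, φ (algebraMap K0 E c) = algebraMap L E' (algebraMap K0 L c))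
    (x : F') (hx : Transcendental L x) [FiniteDimensional L⟮x⟯ F']
    (s : F') (hs : φ (algebraMap M E t) = algebraMap F' E' s)
    (hF : ∀ (P : Place L F') (b : L), (∀ c ∈ Crit, b ≠ algebraMap K0 L (algebraMap A0 K0 c)) →
      0 < P.ord (s - algebraMap L F' b) → P.ord (s - algebraMap L F' b) = 1)
    (hE : ∀ P' : Place L E', ∃ ϖ : F', P'.ord (algebraMap F' E' ϖ) = 1) :
    H3Hyp A0 M E t π Crit := by
  have hchar : CharZero K0 := (algebraMap K0 L).charZero
  refine H3Val.h3Hyp_of_valuation_div K0 M E π harch t ht Crit hcoll ?_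
  intro W hK0 htW g hg hgc hgW hgW' y hy hy'
  exact ValExt.div_mem_of_unramified φ hφ x hx W hK0 (algebraMap M E t) s hs htW g
    hg.separable hgW hgW' (fun P b hb hpos => hF P b (fun c hc hbc => hgc c hc (by
      have h1 : algebraMap K0 L (g.eval (algebraMap A0 K0 c)) = 0 := by
        rw [← aeval_algebraMap_apply_eq_algebraMap_eval, ← hbc]
        exact hb
      exact (map_eq_zero _).mp h1)) hpos) hE y hy hy'

end Generic

section JLine

open Fermat.Agent.S18.S24Export Fermat.Agent.S24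

local notation "Qb" => AlgebraicClosure ℚ

variable (N : ℕ) [NeZero N]

/-- `1/j` is unramified over every value `b ≠ 0, 1/1728`. -/
theorem ord_inv_sub_eq_one (b : Qb) (hb0 : b ≠ 0) (hb1 : b * 1728 ≠ 1)
    (P : Place Qb (FL N)) (hpos : 0 < P.ord ((jL N)⁻¹ - algebraMap Qb (FL N) b)) :
    P.ord ((jL N)⁻¹ - algebraMap Qb (FL N) b) = 1 := by
  set j : FL N := jL N with hj
  set B : FL N := algebraMap Qb (FL N) b with hB
  have hj0 : j ≠ 0 := jL_ne_zero N
  have hB0 : B ≠ 0 := by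
    rw [hB, Ne, map_eq_zero]
    exact hb0
  have hordB : P.ord B = 0 := Place.ord_algebraMap P b
  have hd0 : j⁻¹ - B ≠ 0 := by
    intro h
    rw [h, Place.ord_zero] at hpos
    exact lt_irrefl _ hpos
  -- `ord (j⁻¹) = 0`
  have hjinv : P.ord j⁻¹ = 0 := by
    have h1 : min (P.ord (j⁻¹ - B)) (P.ord B) ≤ P.ord (j⁻¹ - B + B) :=
      Place.min_le_ord_add P hd0 hB0 (by rw [sub_add_cancel]; exact inv_ne_zero hj0)
    rw [sub_add_cancel, hordB] at h1
    have h1' : 0 ≤ P.ord j⁻¹ := by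
      rw [min_eq_right hpos.le] at h1
      exact h1
    by_contra hne
    have hpos' : 0 < P.ord j⁻¹ := lt_of_le_of_ne h1' (Ne.symm hne)
    have hnd0 : -(j⁻¹ - B) ≠ 0 := neg_ne_zero.mpr hd0
    have h2 : min (P.ord j⁻¹) (P.ord (-(j⁻¹ - B))) ≤ P.ord (j⁻¹ + -(j⁻¹ - B)) :=
      Place.min_le_ord_add P (inv_ne_zero hj0) hnd0 (by
        rw [show j⁻¹ + -(j⁻¹ - B) = B by ring]; exact hB0)
    rw [show j⁻¹ + -(j⁻¹ - B) = B by ring, hordB, Fermat.Agent.S18.ValExt.ord_neg] at h2
    have h3 : 0 < min (P.ord j⁻¹) (P.ord (j⁻¹ - B)) := lt_min hpos' hpos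
    omega
  -- the identity `j⁻¹ - B = -B * (j - B⁻¹) * j⁻¹`
  have hBinv : algebraMap Qb (FL N) b⁻¹ = B⁻¹ := by rw [map_inv₀]
  have hid : j⁻¹ - B = (-B) * (j - algebraMap Qb (FL N) b⁻¹) * j⁻¹ := by
    rw [hBinv]
    field_simp
    ring
  have hs0 : j - algebraMap Qb (FL N) b⁻¹ ≠ 0 := jL_sub_ne_zero N b⁻¹
  have hord : P.ord (j⁻¹ - B) = P.ord (j - algebraMap Qb (FL N) b⁻¹) := by
    conv_lhs => rw [hid]
    rw [P.ord_mul (mul_ne_zero (neg_ne_zero.mpr hB0) hs0) (inv_ne_zero hj0),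
      P.ord_mul (neg_ne_zero.mpr hB0) hs0, Fermat.Agent.S18.ValExt.ord_neg, hordB, hjinv]
    ring
  rw [hord] at hpos ⊢
  refine S24Export.ord_eq_one_of_generic N b⁻¹ (inv_ne_zero hb0) ?_ P hpos
  intro h
  apply hb1
  rw [← h, mul_inv_cancel₀ hb0]

variable {A0 : Type*} [CommRing A0] [IsDomain A0] [DecidableEq A0] (K0 : Type*) [Field K0]
  [Algebra A0 K0] [IsFractionRing A0 K0] (M : Type*) [Field M] [Algebra A0 M] [Algebra K0 M]
  [IsScalarTower A0 K0 M] (E : Type*) [Field E] [Algebra M E] [Algebra A0 E]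
  [IsScalarTower A0 M E] [Algebra K0 E] [IsScalarTower K0 M E]
  [Algebra K0 Qb] [Algebra.IsAlgebraic K0 Qb]
  {E' : Type*} [Field E'] [Algebra (FL N) E'] [Algebra Qb E'] [IsScalarTower Qb (FL N) E']
  [FiniteDimensional (FL N) E']

/-- **(H3) on the finite chart of the `j`-line**: critical values `{0, 1728}`. -/
theorem h3Hyp_jline (π : A0) (harch : ∀ a : A0, a ≠ 0 → ∃ n : ℕ, a ∣ π ^ n) (t : M)
    (ht : Transcendental A0 t) (c1728 : A0) (h1728 : algebraMap A0 K0 c1728 = 1728)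
    (hu : IsUnit c1728)
    (φ : E →+* E') (hφ : ∀ c : K0, φ (algebraMap K0 E c) = algebraMap Qb E' (algebraMap K0 Qb c))
    (hs : φ (algebraMap M E t) = algebraMap (FL N) E' (jL N))
    (hE : ∀ P' : Place Qb E', ∃ ϖ : FL N, P'.ord (algebraMap (FL N) E' ϖ) = 1) :
    H3Hyp A0 M E t π {0, c1728} := by
  refine h3Hyp_of_places K0 M E π harch t ht {0, c1728} ?_ φ hφ (jL N) (transcendental_jL N)
    (jL N) hs ?_ hE
  · intro c hc c' hc' hne
    rw [Finset.mem_insert, Finset.mem_singleton] at hc hc'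
    rcases hc with rfl | rfl <;> rcases hc' with rfl | rfl
    · exact absurd rfl hne
    · rw [zero_sub]; exact hu.neg
    · rw [sub_zero]; exact hu
    · exact absurd rfl hne
  · intro P b hb hpos
    have hb0 : b ≠ 0 := by
      have := hb 0 (Finset.mem_insert_self _ _)
      rwa [map_zero, map_zero] at this
    have hb1 : b ≠ 1728 := by
      have := hb c1728 (Finset.mem_insert_of_mem (Finset.mem_singleton_self _))
      rwa [h1728, map_ofNat] at this
    exact S24Export.ord_eq_one_of_generic N b hb0 hb1 P hpos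

/-- **(H3) on the chart at infinity of the `j`-line**: coordinate `1/j`, critical values
`{0, 1/1728}`. -/
theorem h3Hyp_jline_inv (π : A0) (harch : ∀ a : A0, a ≠ 0 → ∃ n : ℕ, a ∣ π ^ n) (t : M)
    (ht : Transcendental A0 t) (c : A0) (hc : algebraMap A0 K0 c * 1728 = 1) (hu : IsUnit c)
    (φ : E →+* E') (hφ : ∀ c : K0, φ (algebraMap K0 E c) = algebraMap Qb E' (algebraMap K0 Qb c))
    (hs : φ (algebraMap M E t) = algebraMap (FL N) E' (jL N)⁻¹)
    (hE : ∀ P' : Place Qb E', ∃ ϖ : FL N, P'.ord (algebraMap (FL N) E' ϖ) = 1) :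
    H3Hyp A0 M E t π {0, c} := by
  refine h3Hyp_of_places K0 M E π harch t ht {0, c} ?_ φ hφ (jL N) (transcendental_jL N)
    (jL N)⁻¹ hs ?_ hE
  · intro a ha a' ha' hne
    rw [Finset.mem_insert, Finset.mem_singleton] at ha ha'
    rcases ha with rfl | rfl <;> rcases ha' with rfl | rfl
    · exact absurd rfl hne
    · rw [zero_sub]; exact hu.neg
    · rw [sub_zero]; exact hu
    · exact absurd rfl hne
  · intro P b hb hpos
    have hb0 : b ≠ 0 := by
      have := hb 0 (Finset.mem_insert_self _ _)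
      rwa [map_zero, map_zero] at this
    have hb1 : b * 1728 ≠ 1 := by
      have h1 := hb c (Finset.mem_insert_of_mem (Finset.mem_singleton_self _))
      intro h2
      apply h1
      have h3 : algebraMap K0 Qb (algebraMap A0 K0 c) * 1728 = 1 := by
        have := congrArg (algebraMap K0 Qb) hc
        rwa [map_mul, map_ofNat, map_one] at this
      have h1728 : (1728 : Qb) ≠ 0 := by norm_num
      exact mul_right_cancel₀ h1728 (h2.trans h3.symm)
    exact ord_inv_sub_eq_one N b hb0 hb1 P hpos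

/-- `hE` for a Kummer extension `E' = F_L(θ)`, `θ ^ p = Y`, with `p ∣ ord_P Y` at every place. -/
theorem exists_ord_eq_one_of_kummer (p : ℕ) (hp : p ≠ 0) (Y : FL N) (hY0 : Y ≠ 0)
    (hY : ∀ P : Place Qb (FL N), (p : ℤ) ∣ P.ord Y) (θ : E')
    (hθ : θ ^ p = algebraMap (FL N) E' Y) (hgen : IntermediateField.adjoin (FL N) {θ} = ⊤) :
    ∀ P' : Place Qb E', ∃ ϖ : FL N, P'.ord (algebraMap (FL N) E' ϖ) = 1 :=
  Fermat.Agent.S18.KummerOrd.kummer_exists_ord_eq_one
    (fun P' => by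
      obtain ⟨u, -, -, hu, -⟩ := Fermat.Agent.S18.ValExt.exists_place_comap (F := FL N) P'
      exact ⟨u, hu⟩)
    p (Nat.cast_ne_zero.mpr hp) Y hY0 hY θ hθ hgen

/-- **(H3) for the Kummer field, finite chart of the `j`-line.**  `E' = F_L(θ)`, `θ ^ p = Y`,
`p ∣ ord_P Y` at every place `P` of `F_L = ℚ̄(X₀(N))`. -/
theorem h3Hyp_jline_kummer (π : A0) (harch : ∀ a : A0, a ≠ 0 → ∃ n : ℕ, a ∣ π ^ n) (t : M)
    (ht : Transcendental A0 t) (c1728 : A0) (h1728 : algebraMap A0 K0 c1728 = 1728)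
    (hu : IsUnit c1728)
    (φ : E →+* E') (hφ : ∀ c : K0, φ (algebraMap K0 E c) = algebraMap Qb E' (algebraMap K0 Qb c))
    (hs : φ (algebraMap M E t) = algebraMap (FL N) E' (jL N))
    (p : ℕ) (hp : p ≠ 0) (Y : FL N) (hY0 : Y ≠ 0)
    (hY : ∀ P : Place Qb (FL N), (p : ℤ) ∣ P.ord Y) (θ : E')
    (hθ : θ ^ p = algebraMap (FL N) E' Y) (hgen : IntermediateField.adjoin (FL N) {θ} = ⊤) :
    H3Hyp A0 M E t π {0, c1728} :=
  h3Hyp_jline N K0 M E π harch t ht c1728 h1728 hu φ hφ hs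
    (exists_ord_eq_one_of_kummer N p hp Y hY0 hY θ hθ hgen)

/-- **(H3) for the Kummer field, chart at infinity of the `j`-line.** -/
theorem h3Hyp_jline_inv_kummer (π : A0) (harch : ∀ a : A0, a ≠ 0 → ∃ n : ℕ, a ∣ π ^ n) (t : M)
    (ht : Transcendental A0 t) (c : A0) (hc : algebraMap A0 K0 c * 1728 = 1) (hu : IsUnit c)
    (φ : E →+* E') (hφ : ∀ c : K0, φ (algebraMap K0 E c) = algebraMap Qb E' (algebraMap K0 Qb c))
    (hs : φ (algebraMap M E t) = algebraMap (FL N) E' (jL N)⁻¹)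
    (p : ℕ) (hp : p ≠ 0) (Y : FL N) (hY0 : Y ≠ 0)
    (hY : ∀ P : Place Qb (FL N), (p : ℤ) ∣ P.ord Y) (θ : E')
    (hθ : θ ^ p = algebraMap (FL N) E' Y) (hgen : IntermediateField.adjoin (FL N) {θ} = ⊤) :
    H3Hyp A0 M E t π {0, c} :=
  h3Hyp_jline_inv N K0 M E π harch t ht c hc hu φ hφ hs
    (exists_ord_eq_one_of_kummer N p hp Y hY0 hY θ hθ hgen)

end JLine

end Fermat.Agent.S18.H3Line
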