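import Mathlib
import Fermat.Agent.S18.H3Line
import Fermat.Agent.S18.KummerGeo
import Fermat.Agent.S18.FFTower

/-!
# S18 (bridge, (H3)): `H3Hyp` for the Kummer field `E = F0(Y^(1/p))` as an `AdjoinRoot`

The final calls of the (H3) chain for the concrete carrier `E := AdjoinRoot (X ^ p - C Y)` over
a `K0`-form `F0` of a geometric function field `Ω` (via `ι : F0 →+* Ω`):

* `h3Hyp_of_places_adjoinRoot`: generic geometric field `Ω` (a function field over `L`),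
  hypothesis `hF` = "`Ω` is unramified over the base line outside the critical values";
* `h3Hyp_cover_adjoinRoot`: `Ω` a finite extension of `F_L = ℚ̄(X₀(N))` (the cover field
  `F_L(h)`), `p ∣ ord_P Y_L` at the places of `F_L`;
* `h3Hyp_jline_adjoinRoot`, `h3Hyp_jline_inv_adjoinRoot`: `Ω = F_L`, the two charts of the
  `j`-line, critical values `{0, 1728}` resp. `{0, 1/1728}`.

The geometric Kummer field, the comparison map and `hE` come from `KummerGeo`.
-/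

set_option autoImplicit false

namespace Fermat.Agent.S18.H3Inst

open Fermat.Agent.S18.CoreDefs AlgebraicCurve Polynomial Fermat.Agent.S18.S24Export
open Fermat.Agent.S18.KummerGeo

open scoped IntermediateField

local notation "Qb" => AlgebraicClosure ℚ

section Transfer

variable {L F Ω : Type*} [Field L] [Field F] [Field Ω] [Algebra L F] [Algebra F Ω] [Algebra L Ω]
  [IsScalarTower L F Ω] [Algebra.IsAlgebraic F Ω]

/-- divisibility of the orders of `Y` passes to a finite extension. -/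
theorem dvd_ord_algebraMap (p : ℕ) (Y : F) (hY : ∀ P : Place L F, (p : ℤ) ∣ P.ord Y)
    (u : Place L Ω) : (p : ℤ) ∣ u.ord (algebraMap F Ω Y) := by
  obtain ⟨P, e, -, -, hord⟩ := ValExt.exists_place_comap (F := F) u
  rw [hord Y]
  exact Dvd.dvd.mul_left (hY P) _

end Transfer

section Cover

variable {A0 : Type*} [CommRing A0] [IsDomain A0] (K0 : Type*) [Field K0]
  [Algebra A0 K0] [IsFractionRing A0 K0] (M : Type*) [Field M] [Algebra A0 M] [Algebra K0 M]
  [IsScalarTower A0 K0 M]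
  (F0 : Type*) [Field F0] [Algebra M F0] [Algebra A0 F0] [IsScalarTower A0 M F0]
  [Algebra K0 F0] [IsScalarTower K0 M F0]
  {L Ω : Type*} [Field L] [IsAlgClosed L] [CharZero L] [Field Ω]
  [Algebra K0 L] [Algebra.IsAlgebraic K0 L] [Algebra L Ω]

/-- **(H3) for the Kummer field over a geometric function field `Ω`**: `F0` is the `K0`-form of
`Ω` (via `ι`), `E = F0(Y^(1/p))`, and the base coordinate `t` goes to `ι t ∈ Ω`. -/
theorem h3Hyp_of_places_adjoinRoot (ι : F0 →+* Ω)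
    (hι : ∀ c : K0, ι (algebraMap K0 F0 c) = algebraMap L Ω (algebraMap K0 L c))
    (π : A0) (harch : ∀ a : A0, a ≠ 0 → ∃ n : ℕ, a ∣ π ^ n) (t : M)
    (ht : Transcendental A0 t) (Crit : Finset A0)
    (hcoll : ∀ c ∈ Crit, ∀ c' ∈ Crit, c ≠ c' → IsUnit (c - c'))
    (x : Ω) (hx : Transcendental L x) [FiniteDimensional L⟮x⟯ Ω]
    (hF : ∀ (P : Place L Ω) (b : L), (∀ c ∈ Crit, b ≠ algebraMap K0 L (algebraMap A0 K0 c)) →
      0 < P.ord (ι (algebraMap M F0 t) - algebraMap L Ω b) →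
      P.ord (ι (algebraMap M F0 t) - algebraMap L Ω b) = 1)
    {p : ℕ} (hp : p.Prime) {Y : F0} (hY0 : Y ≠ 0) [Fact (Irreducible (kpoly p Y))]
    (hYp : ∀ z : Ω, z ^ p ≠ ι Y) (hord : ∀ u : Place L Ω, (p : ℤ) ∣ u.ord (ι Y)) :
    H3Hyp A0 M (AdjoinRoot (kpoly p Y)) t π Crit := by
  have hirr : Fact (Irreducible (kpoly p (ι Y))) := ⟨irreducible_kpoly hp hYp⟩
  have hfd := KummerGeo.finiteDimensional p (ι Y) hp.pos
  refine H3Line.h3Hyp_of_places K0 M (AdjoinRoot (kpoly p Y)) π harch t ht Crit hcoll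
    (phi ι p Y) (phi_algebraMap_base ι p Y hι) x hx (ι (algebraMap M F0 t)) ?_ hF
    (KummerGeo.exists_ord_eq_one hp ((map_ne_zero ι).mpr hY0) hord)
  rw [IsScalarTower.algebraMap_apply M F0 (AdjoinRoot (kpoly p Y)), phi_algebraMap]

end Cover

section CoverFL

variable (N : ℕ) [NeZero N]
  {A0 : Type*} [CommRing A0] [IsDomain A0] (K0 : Type*) [Field K0]
  [Algebra A0 K0] [IsFractionRing A0 K0] (M : Type*) [Field M] [Algebra A0 M] [Algebra K0 M]
  [IsScalarTower A0 K0 M]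
  (F0 : Type*) [Field F0] [Algebra M F0] [Algebra A0 F0] [IsScalarTower A0 M F0]
  [Algebra K0 F0] [IsScalarTower K0 M F0]
  [Algebra K0 Qb] [Algebra.IsAlgebraic K0 Qb]
  {Ω : Type*} [Field Ω] [Algebra Qb Ω] [Algebra (FL N) Ω] [IsScalarTower Qb (FL N) Ω]
  [FiniteDimensional (FL N) Ω]

/-- **(H3) for the Kummer field over a cover field** `Ω ⊇ F_L = ℚ̄(X₀(N))` (finite):
`hF` is the unramifiedness of `Ω` over the base line (`HLinePlaces` / `H3HLine`), and the Kummer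
datum `Y` comes from `Y_L ∈ F_L` with `p ∣ ord_P Y_L` at all places of `F_L`. -/
theorem h3Hyp_cover_adjoinRoot (ι : F0 →+* Ω)
    (hι : ∀ c : K0, ι (algebraMap K0 F0 c) = algebraMap Qb Ω (algebraMap K0 Qb c))
    (π : A0) (harch : ∀ a : A0, a ≠ 0 → ∃ n : ℕ, a ∣ π ^ n) (t : M)
    (ht : Transcendental A0 t) (Crit : Finset A0)
    (hcoll : ∀ c ∈ Crit, ∀ c' ∈ Crit, c ≠ c' → IsUnit (c - c'))
    (hF : ∀ (P : Place Qb Ω) (b : Qb),
      (∀ c ∈ Crit, b ≠ algebraMap K0 Qb (algebraMap A0 K0 c)) →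
      0 < P.ord (ι (algebraMap M F0 t) - algebraMap Qb Ω b) →
      P.ord (ι (algebraMap M F0 t) - algebraMap Qb Ω b) = 1)
    {p : ℕ} (hp : p.Prime) {Y : F0} (hY0 : Y ≠ 0) [Fact (Irreducible (kpoly p Y))]
    (YL : FL N) (hYL : ι Y = algebraMap (FL N) Ω YL)
    (hYp : ∀ z : Ω, z ^ p ≠ algebraMap (FL N) Ω YL)
    (hord : ∀ P : Place Qb (FL N), (p : ℤ) ∣ P.ord YL) :
    H3Hyp A0 M (AdjoinRoot (kpoly p Y)) t π Crit := by
  have hfd := FFTower.finiteDimensional_adjoin_algebraMap (K := Qb) (Ω := Ω) (jL N)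
  exact h3Hyp_of_places_adjoinRoot K0 M F0 ι hι π harch t ht Crit hcoll
    (algebraMap (FL N) Ω (jL N)) (FFTower.transcendental_algebraMap _ (transcendental_jL N))
    hF hp hY0 (fun z => by rw [hYL]; exact hYp z)
    (fun u => by rw [hYL]; exact dvd_ord_algebraMap p YL hord u)

end CoverFL

section JLine

variable (N : ℕ) [NeZero N]
  {A0 : Type*} [CommRing A0] [IsDomain A0] [DecidableEq A0] (K0 : Type*) [Field K0]
  [Algebra A0 K0] [IsFractionRing A0 K0] (M : Type*) [Field M] [Algebra A0 M] [Algebra K0 M]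
  [IsScalarTower A0 K0 M]
  (F0 : Type*) [Field F0] [Algebra M F0] [Algebra A0 F0] [IsScalarTower A0 M F0]
  [Algebra K0 F0] [IsScalarTower K0 M F0]
  [Algebra K0 Qb] [Algebra.IsAlgebraic K0 Qb]

/-- **(H3), finite chart of the `j`-line, for `E = F0(Y^(1/p))`** (`ℓ ≥ 5`): `F0` the `K0`-form
of `F_L = ℚ̄(X₀(N))`, `t ↦ j`, critical values `{0, 1728}`. -/
theorem h3Hyp_jline_adjoinRoot (ι : F0 →+* FL N)
    (hι : ∀ c : K0, ι (algebraMap K0 F0 c) = algebraMap Qb (FL N) (algebraMap K0 Qb c))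
    (π : A0) (harch : ∀ a : A0, a ≠ 0 → ∃ n : ℕ, a ∣ π ^ n) (t : M)
    (ht : Transcendental A0 t) (htj : ι (algebraMap M F0 t) = jL N)
    (c1728 : A0) (h1728 : algebraMap A0 K0 c1728 = 1728) (hu : IsUnit c1728)
    {p : ℕ} (hp : p.Prime) {Y : F0} (hY0 : Y ≠ 0) [Fact (Irreducible (kpoly p Y))]
    (hYp : ∀ z : FL N, z ^ p ≠ ι Y) (hord : ∀ P : Place Qb (FL N), (p : ℤ) ∣ P.ord (ι Y)) :
    H3Hyp A0 M (AdjoinRoot (kpoly p Y)) t π {0, c1728} := by
  have hirr : Fact (Irreducible (kpoly p (ι Y))) := ⟨irreducible_kpoly hp hYp⟩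
  have hfd := KummerGeo.finiteDimensional p (ι Y) hp.pos
  refine H3Line.h3Hyp_jline N K0 M (AdjoinRoot (kpoly p Y)) π harch t ht c1728 h1728 hu
    (phi ι p Y) (phi_algebraMap_base ι p Y hι) ?_
    (KummerGeo.exists_ord_eq_one hp ((map_ne_zero ι).mpr hY0) hord)
  rw [IsScalarTower.algebraMap_apply M F0 (AdjoinRoot (kpoly p Y)), phi_algebraMap, htj]

/-- **(H3), chart at infinity of the `j`-line, for `E = F0(Y^(1/p))`** (`ℓ ≥ 5`): `t ↦ 1/j`,
critical values `{0, 1/1728}`. -/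
theorem h3Hyp_jline_inv_adjoinRoot (ι : F0 →+* FL N)
    (hι : ∀ c : K0, ι (algebraMap K0 F0 c) = algebraMap Qb (FL N) (algebraMap K0 Qb c))
    (π : A0) (harch : ∀ a : A0, a ≠ 0 → ∃ n : ℕ, a ∣ π ^ n) (t : M)
    (ht : Transcendental A0 t) (htj : ι (algebraMap M F0 t) = (jL N)⁻¹)
    (c : A0) (hc : algebraMap A0 K0 c * 1728 = 1) (hu : IsUnit c)
    {p : ℕ} (hp : p.Prime) {Y : F0} (hY0 : Y ≠ 0) [Fact (Irreducible (kpoly p Y))]
    (hYp : ∀ z : FL N, z ^ p ≠ ι Y) (hord : ∀ P : Place Qb (FL N), (p : ℤ) ∣ P.ord (ι Y)) :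
    H3Hyp A0 M (AdjoinRoot (kpoly p Y)) t π {0, c} := by
  have hirr : Fact (Irreducible (kpoly p (ι Y))) := ⟨irreducible_kpoly hp hYp⟩
  have hfd := KummerGeo.finiteDimensional p (ι Y) hp.pos
  refine H3Line.h3Hyp_jline_inv N K0 M (AdjoinRoot (kpoly p Y)) π harch t ht c hc hu
    (phi ι p Y) (phi_algebraMap_base ι p Y hι) ?_
    (KummerGeo.exists_ord_eq_one hp ((map_ne_zero ι).mpr hY0) hord)
  rw [IsScalarTower.algebraMap_apply M F0 (AdjoinRoot (kpoly p Y)), phi_algebraMap, htj]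

end JLine

end Fermat.Agent.S18.H3Inst
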