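import Mathlib

/-!
# S18 (theta trick, rational side): a valuation ring centred at a point of the line

`L` a field, `Ω ⊇ L` a field, `W` a valuation subring of `Ω` containing `L`, `h ∈ Ω` and
`h₀ ∈ L` such that `m := h - h₀` is a nonzero non-unit of `W`.  Then `W ∩ L(h)` has residue
field `L` and its maximal ideal is generated by `m`: every `a ∈ L(h) ∩ W` can be written
`a = c + m a'` with `c ∈ L` and `a' ∈ L(h) ∩ W`.

This is hypothesis `h2` of `ThetaTrick.exists_eq_mul_of_theta` for `M2 = L(h)`.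
-/

namespace Fermat.Agent.S18.RatSide

open Polynomial

variable {L Ω : Type*} [Field L] [Field Ω] [Algebra L Ω]

/-- polynomials in `h` with coefficients in `L` lie in `W`. -/
theorem aeval_mem (W : ValuationSubring Ω) (hLW : ∀ c : L, algebraMap L Ω c ∈ W) (h : Ω)
    (hh : h ∈ W) (p : L[X]) : aeval h p ∈ W := by
  induction p using Polynomial.induction_on' with
  | add p q hp hq => rw [map_add]; exact W.add_mem _ _ hp hq
  | monomial n c =>
    rw [aeval_monomial]
    exact W.mul_mem _ _ (hLW c) (W.pow_mem hh n)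

/-- Taylor expansion to first order at `h₀`. -/
theorem exists_aeval_eq (h : Ω) (h0 : L) (p : L[X]) :
    ∃ p₁ : L[X], aeval h p = algebraMap L Ω (p.eval h0) + (h - algebraMap L Ω h0) * aeval h p₁ := by
  obtain ⟨p₁, hp₁⟩ := X_sub_C_dvd_sub_C_eval (a := h0) (p := p)
  refine ⟨p₁, ?_⟩
  have := congrArg (aeval h) hp₁
  simp only [map_sub, map_mul, aeval_X, aeval_C] at this
  linear_combination this

/-- a polynomial in `h` not vanishing at `h₀` is a unit of `W`. -/
theorem valuation_aeval_eq_one (W : ValuationSubring Ω) (hLW : ∀ c : L, algebraMap L Ω c ∈ W)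
    (h : Ω) (h0 : L) (hm : W.valuation (h - algebraMap L Ω h0) < 1) (p : L[X])
    (hp : p.eval h0 ≠ 0) : W.valuation (aeval h p) = 1 := by
  have hh : h ∈ W := by
    have h1 : h = (h - algebraMap L Ω h0) + algebraMap L Ω h0 := by ring
    rw [h1]
    exact W.add_mem _ _ ((W.valuation_le_one_iff _).mp hm.le) (hLW h0)
  obtain ⟨p₁, hp₁⟩ := exists_aeval_eq h h0 p
  have hc : W.valuation (algebraMap L Ω (p.eval h0)) = 1 := by
    have h1 := (W.valuation_le_one_iff _).mpr (hLW (p.eval h0))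
    have h2 := (W.valuation_le_one_iff _).mpr (hLW (p.eval h0)⁻¹)
    rw [map_inv₀, map_inv₀] at h2
    have hne : W.valuation (algebraMap L Ω (p.eval h0)) ≠ 0 :=
      W.valuation.ne_zero_iff.mpr (by simpa using hp)
    exact le_antisymm h1 (not_lt.mp fun hlt =>
      absurd h2 (not_le.mpr ((one_lt_inv₀ (zero_lt_iff.mpr hne)).mpr hlt)))
  have hlt : W.valuation ((h - algebraMap L Ω h0) * aeval h p₁) < 1 := by
    rw [map_mul]
    exact (mul_le_of_le_one_right'
      ((W.valuation_le_one_iff _).mpr (aeval_mem W hLW h hh p₁))).trans_lt hm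
  rw [hp₁, Valuation.map_add_eq_of_lt_left _ (by rw [hc]; exact hlt), hc]

/-- **The rational side of the theta trick.** -/
theorem exists_eq_add_mul (W : ValuationSubring Ω) (hLW : ∀ c : L, algebraMap L Ω c ∈ W)
    (h : Ω) (h0 : L) (hm0 : h - algebraMap L Ω h0 ≠ 0) (hmW : h - algebraMap L Ω h0 ∈ W)
    (hm : (h - algebraMap L Ω h0)⁻¹ ∉ W) :
    ∀ a ∈ IntermediateField.adjoin L {h}, a ∈ W →
      ∃ c : L, ∃ a' ∈ IntermediateField.adjoin L {h}, a' ∈ W ∧
        a = algebraMap L Ω c + (h - algebraMap L Ω h0) * a' := by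
  classical
  intro a haM haW
  have hLM : ∀ c : L, algebraMap L Ω c ∈ IntermediateField.adjoin L {h} := fun c =>
    (IntermediateField.adjoin L {h}).algebraMap_mem c
  have hhM : h ∈ IntermediateField.adjoin L {h} := IntermediateField.mem_adjoin_simple_self L h
  have hpM : ∀ p : L[X], aeval h p ∈ IntermediateField.adjoin L {h} := fun p => by
    have : aeval h p ∈ Algebra.adjoin L {h} := by
      rw [Algebra.adjoin_singleton_eq_range_aeval]; exact ⟨p, rfl⟩
    exact IntermediateField.algebra_adjoin_le_adjoin L {h} this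
  have hh : h ∈ W := by
    have h1 : h = (h - algebraMap L Ω h0) + algebraMap L Ω h0 := by ring
    rw [h1]
    exact W.add_mem _ _ hmW (hLW h0)
  -- valuation of `m`
  have hvm : W.valuation (h - algebraMap L Ω h0) < 1 := by
    refine lt_of_le_of_ne ((W.valuation_le_one_iff _).mpr hmW) fun h1 => hm ?_
    rw [← W.valuation_le_one_iff, map_inv₀, h1, inv_one]
  have hvm0 : W.valuation (h - algebraMap L Ω h0) ≠ 0 := W.valuation.ne_zero_iff.mpr hm0
  by_cases ha0 : a = 0
  · exact ⟨0, 0, zero_mem _, W.zero_mem, by rw [ha0]; simp⟩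
  obtain ⟨r, s, hrs⟩ := (IntermediateField.mem_adjoin_simple_iff L a).mp haM
  have hr0 : r ≠ 0 := by
    rintro rfl
    exact ha0 (by rw [hrs]; simp)
  have hs0 : s ≠ 0 := by
    rintro rfl
    exact ha0 (by rw [hrs]; simp)
  obtain ⟨r₁, hr₁, hr₁'⟩ := exists_eq_pow_rootMultiplicity_mul_and_not_dvd r hr0 h0
  obtain ⟨s₁, hs₁, hs₁'⟩ := exists_eq_pow_rootMultiplicity_mul_and_not_dvd s hs0 h0
  have hr₁0 : r₁.eval h0 ≠ 0 := fun h' => hr₁' (dvd_iff_isRoot.mpr h')
  have hs₁0 : s₁.eval h0 ≠ 0 := fun h' => hs₁' (dvd_iff_isRoot.mpr h')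
  obtain ⟨i, hi⟩ : ∃ i : ℕ, i = rootMultiplicity h0 r := ⟨_, rfl⟩
  obtain ⟨k, hk⟩ : ∃ k : ℕ, k = rootMultiplicity h0 s := ⟨_, rfl⟩
  rw [← hi] at hr₁
  rw [← hk] at hs₁
  have hra : aeval h r = (h - algebraMap L Ω h0) ^ i * aeval h r₁ := by
    conv_lhs => rw [hr₁]
    simp
  have hsa : aeval h s = (h - algebraMap L Ω h0) ^ k * aeval h s₁ := by
    conv_lhs => rw [hs₁]
    simp
  have hvr₁ := valuation_aeval_eq_one W hLW h h0 hvm r₁ hr₁0
  have hvs₁ := valuation_aeval_eq_one W hLW h h0 hvm s₁ hs₁0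
  have hs₁ne : aeval h s₁ ≠ 0 := W.valuation.ne_zero_iff.mp (by rw [hvs₁]; exact one_ne_zero)
  have hmM : h - algebraMap L Ω h0 ∈ IntermediateField.adjoin L {h} := sub_mem hhM (hLM h0)
  -- `k ≤ i`
  have hki : k ≤ i := by
    by_contra hcon
    push Not at hcon
    obtain ⟨d, rfl⟩ : ∃ d, k = i + (d + 1) := ⟨k - i - 1, by omega⟩
    have hva : W.valuation a * W.valuation (h - algebraMap L Ω h0) ^ (d + 1) = 1 := by
      have : a * (h - algebraMap L Ω h0) ^ (d + 1) = aeval h r₁ / aeval h s₁ := by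
        rw [hrs, hra, hsa]
        field_simp
        ring
      rw [← map_pow, ← map_mul, this, map_div₀, hvr₁, hvs₁, div_one]
    have h1 : W.valuation a * W.valuation (h - algebraMap L Ω h0) ^ (d + 1) < 1 :=
      (mul_le_of_le_one_left' ((W.valuation_le_one_iff _).mpr haW)).trans_lt
        (pow_lt_one₀ zero_le hvm (Nat.succ_ne_zero d))
    exact h1.ne hva
  obtain ⟨d, rfl⟩ : ∃ d, i = k + d := ⟨i - k, by omega⟩
  have haU : a = (h - algebraMap L Ω h0) ^ d * (aeval h r₁ / aeval h s₁) := by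
    rw [hrs, hra, hsa]
    field_simp
    ring
  have hUM : aeval h r₁ / aeval h s₁ ∈ IntermediateField.adjoin L {h} :=
    div_mem (hpM r₁) (hpM s₁)
  have hUW : aeval h r₁ / aeval h s₁ ∈ W := by
    rw [← W.valuation_le_one_iff, map_div₀, hvr₁, hvs₁, div_one]
  cases d with
  | zero =>
    -- residue `c := r₁(h₀) / s₁(h₀)`
    obtain ⟨R, hR⟩ := exists_aeval_eq h h0 r₁
    obtain ⟨S, hS⟩ := exists_aeval_eq h h0 s₁
    have hc0 : algebraMap L Ω (s₁.eval h0) ≠ 0 := by simpa using hs₁0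
    refine ⟨r₁.eval h0 / s₁.eval h0,
      (aeval h R * algebraMap L Ω (s₁.eval h0) - algebraMap L Ω (r₁.eval h0) * aeval h S) /
        (aeval h s₁ * algebraMap L Ω (s₁.eval h0)), ?_, ?_, ?_⟩
    · exact div_mem (sub_mem (mul_mem (hpM R) (hLM _)) (mul_mem (hLM _) (hpM S)))
        (mul_mem (hpM s₁) (hLM _))
    · have hnum : aeval h R * algebraMap L Ω (s₁.eval h0) -
          algebraMap L Ω (r₁.eval h0) * aeval h S ∈ W :=
        sub_mem (W.mul_mem _ _ (aeval_mem W hLW h hh R) (hLW _))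
          (W.mul_mem _ _ (hLW _) (aeval_mem W hLW h hh S))
      have hden : W.valuation (aeval h s₁ * algebraMap L Ω (s₁.eval h0)) = 1 := by
        have h1 := valuation_aeval_eq_one W hLW h h0 hvm (C (s₁.eval h0)) (by simpa using hs₁0)
        rw [aeval_C] at h1
        rw [map_mul, hvs₁, h1, one_mul]
      rw [← W.valuation_le_one_iff, map_div₀, hden, div_one]
      exact (W.valuation_le_one_iff _).mpr hnum
    · rw [haU, pow_zero, one_mul, map_div₀]
      field_simp
      rw [hR, hS]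
      ring
  | succ d =>
    refine ⟨0, (h - algebraMap L Ω h0) ^ d * (aeval h r₁ / aeval h s₁), ?_, ?_, ?_⟩
    · exact mul_mem (pow_mem hmM d) hUM
    · exact W.mul_mem _ _ (W.pow_mem hmW d) hUW
    · rw [haU, map_zero, zero_add, pow_succ]
      ring

end Fermat.Agent.S18.RatSide
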