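import Mathlib

/-!
# S18, cover lemma (i): the theta trick ("Abhyankar's lemma by hand")

`L` is an algebraically closed field, `Ω ⊇ L` a field with a valuation `v` trivial on `L`,
`M1, M2` two subfields generating `Ω`.  Suppose that `v` restricted to `M1` has residue field `L`
and uniformizer `t`, that `v` restricted to `M2` has residue field `L` and uniformizer `m`, and
that a common function `x = u₁ t ^ e = u₂ m ^ (e f)` (units `u₁ ∈ M1`, `u₂ ∈ M2`) has ramification
index `e` on the `M1`-side dividing its ramification index `e f` on the `M2`-side, with `e`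
invertible in `L`.  Then `m` is a uniformizer of `v` on `Ω`: the compositum is unramified over
`M2`.

Application (S18): `M1 = F_L` (modular function field, `t` a uniformizer at a place `P`),
`M2 = L(y)` (the auxiliary rational cover, `m = y - y₀`), `x = j - b`.

The proof avoids completions: with `θ := m ^ f / t` (a unit with `θ ^ e ≡ γ ∈ Lˣ`), one shows by
induction on `n` that the two valuation rings, `θ` and `θ⁻¹` lie in
`R_n := {z | ∃ p ∈ L[X], v (z - p(m)) ≤ v m ^ n}`, a ring closed under inverses of units; hence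
every value of `v` is a power of `v m`.
-/

namespace Fermat.Agent.S18.ThetaTrick

open Polynomial

variable {L Ω Γ₀ : Type*} [Field L] [Field Ω] [Algebra L Ω] [LinearOrderedCommGroupWithZero Γ₀]

/-- `z` is approximated to order `n` by a polynomial in `m` with coefficients in `L`. -/
def Approx (v : Valuation Ω Γ₀) (m : Ω) (n : ℕ) (z : Ω) : Prop :=
  ∃ p : L[X], v (z - aeval m p) ≤ v m ^ n

section basic

variable (v : Valuation Ω Γ₀) (m : Ω)

theorem val_aeval_le_one (hL1 : ∀ c : L, v (algebraMap L Ω c) ≤ 1) (hm : v m ≤ 1) (p : L[X]) :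
    v (aeval m p) ≤ 1 := by
  rw [aeval_eq_sum_range]
  refine v.map_sum_le fun i _ => ?_
  rw [Algebra.smul_def, map_mul, map_pow]
  exact mul_le_one' (hL1 _) (pow_le_one₀ zero_le hm)

theorem val_aeval_sub_coeff_zero_le (hL1 : ∀ c : L, v (algebraMap L Ω c) ≤ 1) (hm : v m ≤ 1)
    (p : L[X]) : v (aeval m p - algebraMap L Ω (p.coeff 0)) ≤ v m := by
  have h : aeval m p - algebraMap L Ω (p.coeff 0) = m * aeval m (divX p) := by
    have := congrArg (aeval m) (X_mul_divX_add p)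
    simp only [map_add, map_mul, aeval_X, aeval_C] at this
    linear_combination -this
  rw [h, map_mul]
  exact mul_le_of_le_one_right' (val_aeval_le_one v m hL1 hm _)

variable {v m}

theorem Approx.le_one (hL1 : ∀ c : L, v (algebraMap L Ω c) ≤ 1) (hm : v m ≤ 1) {n : ℕ} {z : Ω}
    (hz : Approx (L := L) v m n z) : v z ≤ 1 := by
  obtain ⟨p, hp⟩ := hz
  have : z = (z - aeval m p) + aeval m p := by ring
  rw [this]
  exact v.map_add_le (hp.trans (pow_le_one₀ zero_le hm)) (val_aeval_le_one v m hL1 hm p)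

theorem approx_zero_of_le_one {z : Ω} (hz : v z ≤ 1) : Approx (L := L) v m 0 z :=
  ⟨0, by simpa using hz⟩

theorem approx_algebraMap (n : ℕ) (c : L) : Approx (L := L) v m n (algebraMap L Ω c) :=
  ⟨C c, by simp⟩

theorem approx_self (n : ℕ) : Approx (L := L) v m n m :=
  ⟨X, by simp⟩

theorem Approx.add {n : ℕ} {z z' : Ω} (hz : Approx (L := L) v m n z)
    (hz' : Approx (L := L) v m n z') : Approx (L := L) v m n (z + z') := by
  obtain ⟨p, hp⟩ := hz
  obtain ⟨p', hp'⟩ := hz'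
  refine ⟨p + p', ?_⟩
  have : z + z' - aeval m (p + p') = (z - aeval m p) + (z' - aeval m p') := by
    rw [map_add]; ring
  rw [this]
  exact v.map_add_le hp hp'

theorem Approx.mul (hL1 : ∀ c : L, v (algebraMap L Ω c) ≤ 1) (hm : v m ≤ 1) {n : ℕ} {z z' : Ω}
    (hz : Approx (L := L) v m n z) (hz' : Approx (L := L) v m n z') :
    Approx (L := L) v m n (z * z') := by
  have hz'1 := hz'.le_one hL1 hm
  obtain ⟨p, hp⟩ := hz
  obtain ⟨p', hp'⟩ := hz'
  refine ⟨p * p', ?_⟩
  have : z * z' - aeval m (p * p') = (z - aeval m p) * z' + aeval m p * (z' - aeval m p') := by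
    rw [map_mul]; ring
  rw [this]
  refine v.map_add_le ?_ ?_
  · rw [map_mul]
    exact (mul_le_mul' hp hz'1).trans (by rw [mul_one])
  · rw [map_mul]
    exact (mul_le_mul' (val_aeval_le_one v m hL1 hm p) hp').trans (by rw [one_mul])

theorem Approx.pow (hL1 : ∀ c : L, v (algebraMap L Ω c) ≤ 1) (hm : v m ≤ 1) {n : ℕ} {z : Ω}
    (hz : Approx (L := L) v m n z) (k : ℕ) : Approx (L := L) v m n (z ^ k) := by
  induction k with
  | zero => simpa using approx_algebraMap (v := v) (m := m) n (1 : L)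
  | succ k ih => rw [pow_succ]; exact ih.mul hL1 hm hz

theorem Approx.multiset_prod (hL1 : ∀ c : L, v (algebraMap L Ω c) ≤ 1) (hm : v m ≤ 1) {n : ℕ}
    (s : Multiset Ω) (hs : ∀ z ∈ s, Approx (L := L) v m n z) : Approx (L := L) v m n s.prod := by
  induction s using Multiset.induction_on with
  | empty => simpa using approx_algebraMap (v := v) (m := m) n (1 : L)
  | cons a s ih =>
    rw [Multiset.prod_cons]
    exact (hs a (Multiset.mem_cons_self a s)).mul hL1 hm
      (ih fun z hz => hs z (Multiset.mem_cons_of_mem hz))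

/-- The step of the induction: `c + m z` is approximated one order better than `z`. -/
theorem Approx.step {n : ℕ} {z : Ω} (hz : Approx (L := L) v m n z) (c : L) :
    Approx (L := L) v m (n + 1) (algebraMap L Ω c + m * z) := by
  obtain ⟨p, hp⟩ := hz
  refine ⟨C c + X * p, ?_⟩
  have : algebraMap L Ω c + m * z - aeval m (C c + X * p) = m * (z - aeval m p) := by
    simp; ring
  rw [this, map_mul, pow_succ, mul_comm]
  exact mul_le_mul' hp le_rfl

/-- `R_n` is closed under inverses of units. -/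
theorem Approx.inv (hL : ∀ c : L, c ≠ 0 → v (algebraMap L Ω c) = 1) (hm : v m < 1) {n : ℕ}
    {z : Ω} (hz : Approx (L := L) v m n z) (hz1 : v z = 1) : Approx (L := L) v m n z⁻¹ := by
  have hL1 : ∀ c : L, v (algebraMap L Ω c) ≤ 1 := by
    intro c
    by_cases hc : c = 0
    · simp [hc]
    · exact (hL c hc).le
  cases n with
  | zero => exact approx_zero_of_le_one (by rw [map_inv₀, hz1, inv_one])
  | succ n =>
    obtain ⟨p, hp⟩ := hz
    have hlt : v m ^ (n + 1) < 1 := pow_lt_one₀ zero_le hm (Nat.succ_ne_zero n)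
    have hp1 : v (aeval m p) = 1 := by
      have h : aeval m p = z - (z - aeval m p) := by ring
      rw [h, Valuation.map_sub_eq_of_lt_left _ (by rw [hz1]; exact hp.trans_lt hlt), hz1]
    have hc1 : v (algebraMap L Ω (p.coeff 0)) = 1 := by
      have h : algebraMap L Ω (p.coeff 0) = aeval m p - (aeval m p - algebraMap L Ω (p.coeff 0)) := by
        ring
      rw [h, Valuation.map_sub_eq_of_lt_left _
        (by rw [hp1]; exact (val_aeval_sub_coeff_zero_le v m hL1 hm.le p).trans_lt hm), hp1]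
    have hc0 : p.coeff 0 ≠ 0 := by
      intro h
      rw [h, map_zero, map_zero] at hc1
      exact zero_ne_one hc1
    have hcop : IsCoprime p (X ^ (n + 1)) := by
      refine IsCoprime.pow_right ⟨C (p.coeff 0)⁻¹, -(C (p.coeff 0)⁻¹ * divX p), ?_⟩
      have h1 := X_mul_divX_add p
      have h2 : C (p.coeff 0)⁻¹ * C (p.coeff 0) = (1 : L[X]) := by
        rw [← C_mul, inv_mul_cancel₀ hc0, C_1]
      linear_combination h2 - C (p.coeff 0)⁻¹ * h1
    obtain ⟨a, b, hab⟩ := hcop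
    refine ⟨a, ?_⟩
    have hab' : aeval m a * aeval m p + aeval m b * m ^ (n + 1) = 1 := by
      have := congrArg (aeval m) hab
      simpa using this
    have hz0 : z ≠ 0 := by
      intro h
      rw [h, map_zero] at hz1
      exact zero_ne_one hz1
    have h : z⁻¹ - aeval m a = z⁻¹ * (aeval m a * (aeval m p - z) + aeval m b * m ^ (n + 1)) := by
      have hzz : z⁻¹ * z = 1 := inv_mul_cancel₀ hz0
      linear_combination (-(z⁻¹)) * hab' + aeval m a * hzz
    rw [h, map_mul, map_inv₀, hz1, inv_one, one_mul]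
    refine v.map_add_le ?_ ?_
    · rw [map_mul, Valuation.map_sub_swap]
      exact (mul_le_mul' (val_aeval_le_one v m hL1 hm.le a) hp).trans (by rw [one_mul])
    · rw [map_mul, map_pow]
      exact (mul_le_mul' (val_aeval_le_one v m hL1 hm.le b) le_rfl).trans (by rw [one_mul])

/-- The value of a nonzero polynomial in `m` is a power of `v m`. -/
theorem exists_val_aeval_eq_pow (hL : ∀ c : L, c ≠ 0 → v (algebraMap L Ω c) = 1) (hm : v m < 1)
    (p : L[X]) (hp : p ≠ 0) : ∃ k : ℕ, v (aeval m p) = v m ^ k := by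
  have hL1 : ∀ c : L, v (algebraMap L Ω c) ≤ 1 := by
    intro c
    by_cases hc : c = 0
    · simp [hc]
    · exact (hL c hc).le
  obtain ⟨q, hq, hndvd⟩ := exists_eq_pow_rootMultiplicity_mul_and_not_dvd p hp 0
  rw [C_0, sub_zero] at hq hndvd
  have hq0 : q.coeff 0 ≠ 0 := fun h => hndvd (X_dvd_iff.mpr h)
  refine ⟨rootMultiplicity 0 p, ?_⟩
  have hq1 : v (aeval m q) = 1 := by
    have h : aeval m q = algebraMap L Ω (q.coeff 0) + (aeval m q - algebraMap L Ω (q.coeff 0)) := by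
      ring
    rw [h, Valuation.map_add_eq_of_lt_left _
      (by rw [hL _ hq0]; exact (val_aeval_sub_coeff_zero_le v m hL1 hm.le q).trans_lt hm), hL _ hq0]
  conv_lhs => rw [hq]
  rw [map_mul, map_pow, aeval_X, map_mul, map_pow, hq1, mul_one]

theorem Approx.neg (hL1 : ∀ c : L, v (algebraMap L Ω c) ≤ 1) (hm : v m ≤ 1) {n : ℕ} {z : Ω}
    (hz : Approx (L := L) v m n z) : Approx (L := L) v m n (-z) := by
  have h : -z = algebraMap L Ω (-1) * z := by simp
  rw [h]
  exact (approx_algebraMap n (-1)).mul hL1 hm hz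

end basic

section main

variable [IsAlgClosed L] (v : Valuation Ω Γ₀)

/-- **The theta trick.** See the module docstring. `ϖ` is a uniformizer of the (discrete, rank
one) valuation `v`; the conclusion says that `m` is a uniformizer too. -/
theorem valuation_eq_of_theta
    (hL : ∀ c : L, c ≠ 0 → v (algebraMap L Ω c) = 1) (M1 M2 : Subfield Ω) (hgen : M1 ⊔ M2 = ⊤)
    (t m : Ω) (hm0 : m ≠ 0) (hm : v m < 1)
    (h1 : ∀ a ∈ M1, v a ≤ 1 → ∃ c : L, ∃ a' ∈ M1, v a' ≤ 1 ∧ a = algebraMap L Ω c + t * a')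
    (h2 : ∀ a ∈ M2, v a ≤ 1 → ∃ c : L, ∃ a' ∈ M2, v a' ≤ 1 ∧ a = algebraMap L Ω c + m * a')
    (u₁ u₂ : Ω) (hu₁ : u₁ ∈ M1) (hu₁' : v u₁ = 1) (hu₂ : u₂ ∈ M2) (hu₂' : v u₂ = 1)
    (e f : ℕ) (he : (e : L) ≠ 0) (hf : 0 < f) (hx : u₁ * t ^ e = u₂ * m ^ (e * f))
    (ϖ : Ω) (hϖ : v ϖ < 1) (hϖ0 : ϖ ≠ 0) (hmax : ∀ z, v z < 1 → v z ≤ v ϖ)
    (harch : ∀ z : Ω, z ≠ 0 → ∃ n : ℕ, v ϖ ^ n < v z) : v m = v ϖ := by
  classical
  have hL1 : ∀ c : L, v (algebraMap L Ω c) ≤ 1 := by
    intro c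
    by_cases hc : c = 0
    · simp [hc]
    · exact (hL c hc).le
  have he0 : e ≠ 0 := by
    rintro rfl
    simp at he
  have hu₁0 : u₁ ≠ 0 := v.ne_zero_iff.mp (by rw [hu₁']; exact one_ne_zero)
  have hu₂0 : u₂ ≠ 0 := v.ne_zero_iff.mp (by rw [hu₂']; exact one_ne_zero)
  have ht0 : t ≠ 0 := by
    intro h
    rw [h, zero_pow he0, mul_zero] at hx
    exact (mul_ne_zero hu₂0 (pow_ne_zero _ hm0)) hx.symm
  have hvu₂i : v u₂⁻¹ = 1 := by rw [map_inv₀, hu₂', inv_one]
  -- θ := m ^ f / t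
  obtain ⟨θ, hθ⟩ : ∃ θ : Ω, θ = m ^ f / t := ⟨_, rfl⟩
  have hθ0 : θ ≠ 0 := by rw [hθ]; exact div_ne_zero (pow_ne_zero _ hm0) ht0
  have hθe : θ ^ e = u₁ * u₂⁻¹ := by
    rw [hθ, div_pow, ← pow_mul, mul_comm f e, div_eq_iff (pow_ne_zero _ ht0),
      eq_comm, mul_assoc, mul_comm u₂⁻¹, ← mul_assoc, hx, mul_assoc, mul_comm _ u₂⁻¹,
      ← mul_assoc, mul_inv_cancel₀ hu₂0, one_mul]
  have hvθ : v θ = 1 := by
    have h : v θ ^ e = 1 := by
      rw [← map_pow, hθe, map_mul, hvu₂i, hu₁', mul_one]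
    rcases lt_trichotomy (v θ) 1 with h' | h' | h'
    · exact absurd h (pow_lt_one₀ zero_le h' he0).ne
    · exact h'
    · exact absurd h (one_lt_pow₀ h' he0).ne'
  have hvθi : v θ⁻¹ = 1 := by rw [map_inv₀, hvθ, inv_one]
  have ht : t = m * (m ^ (f - 1) * θ⁻¹) := by
    rw [hθ, inv_div, ← mul_assoc, ← pow_succ', Nat.sub_add_cancel hf,
      mul_div_cancel₀ _ (pow_ne_zero _ hm0)]
  have hvt : v t < 1 := by
    rw [ht, map_mul, map_mul, map_pow, hvθi, mul_one]
    exact (mul_le_of_le_one_right' (pow_le_one₀ zero_le hm.le)).trans_lt hm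
  -- expansions of `u₁` and `u₂⁻¹`
  obtain ⟨c₁, u', hu'M, hu'v, hu'⟩ := h1 u₁ hu₁ hu₁'.le
  obtain ⟨c₂, u'', hu''M, hu''v, hu''⟩ := h2 u₂⁻¹ (M2.inv_mem hu₂) hvu₂i.le
  have hc₁ : c₁ ≠ 0 := by
    rintro rfl
    have : v u₁ < 1 := by
      rw [hu', map_zero, zero_add, map_mul]
      exact (mul_le_of_le_one_right' hu'v).trans_lt hvt
    exact this.ne hu₁'
  have hc₂ : c₂ ≠ 0 := by
    rintro rfl
    have : v u₂⁻¹ < 1 := by
      rw [hu'', map_zero, zero_add, map_mul]
      exact (mul_le_of_le_one_right' hu''v).trans_lt hm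
    exact this.ne hvu₂i
  obtain ⟨γ, hγ⟩ : ∃ γ : L, γ = c₁ * c₂ := ⟨_, rfl⟩
  have hγ0 : γ ≠ 0 := by rw [hγ]; exact mul_ne_zero hc₁ hc₂
  obtain ⟨g, hg⟩ : ∃ g : Ω, g = algebraMap L Ω c₁ * u'' + m ^ (f - 1) * θ⁻¹ * u' * u₂⁻¹ :=
    ⟨_, rfl⟩
  have hθγ : θ ^ e - algebraMap L Ω γ = m * g := by
    rw [hθe, hγ, map_mul, hg]
    linear_combination u₂⁻¹ * hu' + algebraMap L Ω c₁ * hu'' + u' * u₂⁻¹ * ht
  have hvg : v g ≤ 1 := by
    rw [hg]
    refine v.map_add_le ?_ ?_
    · rw [map_mul]; exact mul_le_one' (hL1 _) hu''v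
    · rw [map_mul, map_mul, map_mul, map_pow, hvθi, hvu₂i, mul_one, mul_one]
      exact mul_le_one' (pow_le_one₀ zero_le hm.le) hu'v
  -- the polynomial `X ^ e - γ` has distinct roots in `L`
  obtain ⟨P, hP⟩ : ∃ P : L[X], P = X ^ e - C γ := ⟨_, rfl⟩
  have hPmonic : P.Monic := by rw [hP]; exact monic_X_pow_sub_C γ he0
  have hPsep : P.Separable := by rw [hP]; exact separable_X_pow_sub_C γ he hγ0
  have hPsplit : P.Splits := IsAlgClosed.splits P
  have hnodup : P.roots.Nodup := nodup_roots hPsep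
  have hprod : θ ^ e - algebraMap L Ω γ = (P.roots.map (fun a => θ - algebraMap L Ω a)).prod := by
    have h := congrArg (aeval θ) (hPsplit.eq_prod_roots_of_monic hPmonic)
    rw [map_multiset_prod, Multiset.map_map] at h
    have h' : aeval θ P = θ ^ e - algebraMap L Ω γ := by rw [hP]; simp
    rw [← h', h]
    exact congrArg Multiset.prod (Multiset.map_congr rfl fun a _ => by simp)
  -- a root `ω` with `v (θ - ω) < 1`
  obtain ⟨ω, hω, hvω⟩ : ∃ ω ∈ P.roots, v (θ - algebraMap L Ω ω) < 1 := by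
    by_contra hcon
    push Not at hcon
    have hall : ∀ a ∈ P.roots, v (θ - algebraMap L Ω a) = 1 := fun a ha =>
      le_antisymm (v.map_sub_le hvθ.le (hL1 a)) (hcon a ha)
    have : v (θ ^ e - algebraMap L Ω γ) = 1 := by
      rw [hprod, map_multiset_prod, Multiset.map_map]
      apply Multiset.prod_eq_one
      intro x hx
      obtain ⟨a, ha, rfl⟩ := Multiset.mem_map.mp hx
      exact hall a ha
    rw [hθγ, map_mul] at this
    exact absurd this ((mul_le_of_le_one_right' hvg).trans_lt hm).ne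
  obtain ⟨s₀, hs₀⟩ : ∃ s₀ : Ω,
      s₀ = ((P.roots.erase ω).map (fun a => θ - algebraMap L Ω a)).prod := ⟨_, rfl⟩
  have hs₀eq : (θ - algebraMap L Ω ω) * s₀ = m * g := by
    rw [← hθγ, hprod, hs₀]
    exact Multiset.prod_map_erase (f := fun a => θ - algebraMap L Ω a) hω
  have hvs₀ : v s₀ = 1 := by
    rw [hs₀, map_multiset_prod, Multiset.map_map]
    apply Multiset.prod_eq_one
    intro x hx
    obtain ⟨a, ha, rfl⟩ := Multiset.mem_map.mp hx
    have haω : a ≠ ω := ((Multiset.Nodup.mem_erase_iff hnodup).mp ha).1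
    have hne : ω - a ≠ 0 := sub_ne_zero.mpr haω.symm
    have h : θ - algebraMap L Ω a = algebraMap L Ω (ω - a) + (θ - algebraMap L Ω ω) := by
      rw [map_sub]; ring
    show v (θ - algebraMap L Ω a) = 1
    rw [h, Valuation.map_add_eq_of_lt_left _ (by rw [hL _ hne]; exact hvω), hL _ hne]
  have hs₀0 : s₀ ≠ 0 := v.ne_zero_iff.mp (by rw [hvs₀]; exact one_ne_zero)
  have hθω : θ = algebraMap L Ω ω + m * (g * s₀⁻¹) := by
    have h : θ - algebraMap L Ω ω = m * g * s₀⁻¹ := by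
      rw [← hs₀eq, mul_assoc, mul_inv_cancel₀ hs₀0, mul_one]
    linear_combination h
  -- the induction: the two valuation rings, `θ` and `θ⁻¹` are approximable to every order
  have key : ∀ n : ℕ, Approx (L := L) v m n θ ∧ Approx (L := L) v m n θ⁻¹ ∧
      (∀ a ∈ M1, v a ≤ 1 → Approx (L := L) v m n a) ∧
      (∀ a ∈ M2, v a ≤ 1 → Approx (L := L) v m n a) := by
    intro n
    induction n with
    | zero =>
      exact ⟨approx_zero_of_le_one hvθ.le, approx_zero_of_le_one hvθi.le,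
        fun a _ ha => approx_zero_of_le_one ha, fun a _ ha => approx_zero_of_le_one ha⟩
    | succ n ih =>
      obtain ⟨ihθ, ihθi, ih1, ih2⟩ := ih
      have hmn : Approx (L := L) v m n (m ^ (f - 1) * θ⁻¹) :=
        ((approx_self n).pow hL1 hm.le (f - 1)).mul hL1 hm.le ihθi
      have hO2 : ∀ a ∈ M2, v a ≤ 1 → Approx (L := L) v m (n + 1) a := by
        intro a ha hva
        obtain ⟨c, a', ha'M, ha'v, rfl⟩ := h2 a ha hva
        exact (ih2 a' ha'M ha'v).step c
      have hO1 : ∀ a ∈ M1, v a ≤ 1 → Approx (L := L) v m (n + 1) a := by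
        intro a ha hva
        obtain ⟨c, a', ha'M, ha'v, rfl⟩ := h1 a ha hva
        have h : algebraMap L Ω c + t * a' =
            algebraMap L Ω c + m * (m ^ (f - 1) * θ⁻¹ * a') := by
          linear_combination a' * ht
        rw [h]
        exact (hmn.mul hL1 hm.le (ih1 a' ha'M ha'v)).step c
      have hg_n : Approx (L := L) v m n g := by
        rw [hg]
        exact ((approx_algebraMap n c₁).mul hL1 hm.le (ih2 u'' hu''M hu''v)).add
          ((hmn.mul hL1 hm.le (ih1 u' hu'M hu'v)).mul hL1 hm.le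
            (ih2 u₂⁻¹ (M2.inv_mem hu₂) hvu₂i.le))
      have hs₀_n : Approx (L := L) v m n s₀ := by
        rw [hs₀]
        apply Approx.multiset_prod hL1 hm.le
        intro z hz
        obtain ⟨a, ha, rfl⟩ := Multiset.mem_map.mp hz
        have h : θ - algebraMap L Ω a = θ + algebraMap L Ω (-a) := by rw [map_neg]; ring
        show Approx (L := L) v m n (θ - algebraMap L Ω a)
        rw [h]
        exact ihθ.add (approx_algebraMap n (-a))
      have hθ_n1 : Approx (L := L) v m (n + 1) θ := by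
        have := (hg_n.mul hL1 hm.le (hs₀_n.inv hL hm hvs₀)).step ω
        rwa [← hθω] at this
      exact ⟨hθ_n1, hθ_n1.inv hL hm hvθ, hO1, hO2⟩
  -- every nonzero element approximable to all orders has value a power of `v m`
  have hvm_le : v m ≤ v ϖ := hmax m hm
  have hpowval : ∀ z : Ω, z ≠ 0 → (∀ n, Approx (L := L) v m n z) → ∃ k : ℕ, v z = v m ^ k := by
    intro z hz0 hz
    obtain ⟨n, hn⟩ := harch z hz0
    obtain ⟨p, hp⟩ := hz n
    have hlt : v (z - aeval m p) < v z :=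
      hp.trans_lt ((pow_le_pow_left₀ zero_le hvm_le n).trans_lt hn)
    have hvp : v (aeval m p) = v z := by
      have h : aeval m p = z - (z - aeval m p) := by ring
      rw [h, Valuation.map_sub_eq_of_lt_left _ hlt]
    have hp0 : p ≠ 0 := by
      rintro rfl
      rw [map_zero, map_zero] at hvp
      exact (v.ne_zero_iff.mpr hz0) hvp.symm
    obtain ⟨k, hk⟩ := exists_val_aeval_eq_pow hL hm p hp0
    exact ⟨k, by rw [← hvp, hk]⟩
  -- the fractions of approximable elements form a subfield containing `M1` and `M2`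
  have h1app : ∀ n, Approx (L := L) v m n (1 : Ω) := fun n => by
    simpa using approx_algebraMap (v := v) (m := m) n (1 : L)
  have h0app : ∀ n, Approx (L := L) v m n (0 : Ω) := fun n => by
    simpa using approx_algebraMap (v := v) (m := m) n (0 : L)
  let K : Subfield Ω :=
    { carrier := {z | ∃ a b : Ω, (∀ n, Approx (L := L) v m n a) ∧
        (∀ n, Approx (L := L) v m n b) ∧ b ≠ 0 ∧ z * b = a}
      mul_mem' := by
        rintro z z' ⟨a, b, ha, hb, hb0, hab⟩ ⟨a', b', ha', hb', hb0', hab'⟩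
        exact ⟨a * a', b * b', fun n => (ha n).mul hL1 hm.le (ha' n),
          fun n => (hb n).mul hL1 hm.le (hb' n), mul_ne_zero hb0 hb0', by
            rw [← hab, ← hab']; ring⟩
      one_mem' := ⟨1, 1, h1app, h1app, one_ne_zero, one_mul 1⟩
      add_mem' := by
        rintro z z' ⟨a, b, ha, hb, hb0, hab⟩ ⟨a', b', ha', hb', hb0', hab'⟩
        exact ⟨a * b' + a' * b, b * b',
          fun n => ((ha n).mul hL1 hm.le (hb' n)).add ((ha' n).mul hL1 hm.le (hb n)),
          fun n => (hb n).mul hL1 hm.le (hb' n), mul_ne_zero hb0 hb0', by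
            rw [← hab, ← hab']; ring⟩
      zero_mem' := ⟨0, 1, h0app, h1app, one_ne_zero, zero_mul 1⟩
      neg_mem' := by
        rintro z ⟨a, b, ha, hb, hb0, hab⟩
        exact ⟨-a, b, fun n => (ha n).neg hL1 hm.le, hb, hb0, by rw [← hab]; ring⟩
      inv_mem' := by
        rintro z ⟨a, b, ha, hb, hb0, hab⟩
        by_cases hz : z = 0
        · exact ⟨0, 1, h0app, h1app, one_ne_zero, by rw [hz]; simp⟩
        · have ha0 : a ≠ 0 := by rw [← hab]; exact mul_ne_zero hz hb0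
          exact ⟨b, a, hb, ha, ha0, by rw [← hab, ← mul_assoc, inv_mul_cancel₀ hz, one_mul]⟩ }
  have hMK : ∀ M : Subfield Ω, (∀ a ∈ M, v a ≤ 1 → ∀ n, Approx (L := L) v m n a) → M ≤ K := by
    intro M hM z hz
    by_cases hvz : v z ≤ 1
    · exact ⟨z, 1, hM z hz hvz, h1app, one_ne_zero, mul_one z⟩
    · have hz0 : z ≠ 0 := by
        rintro rfl
        exact hvz (by simp)
      have hvzi : v z⁻¹ ≤ 1 := by
        rw [map_inv₀]
        exact inv_le_one_of_one_le₀ (not_le.mp hvz).le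
      exact ⟨1, z⁻¹, h1app, hM z⁻¹ (M.inv_mem hz) hvzi, inv_ne_zero hz0, mul_inv_cancel₀ hz0⟩
  have hK : K = ⊤ := by
    rw [eq_top_iff, ← hgen]
    exact sup_le (hMK M1 fun a ha hva n => (key n).2.2.1 a ha hva)
      (hMK M2 fun a ha hva n => (key n).2.2.2 a ha hva)
  obtain ⟨a, b, ha, hb, hb0, hab⟩ : ϖ ∈ K := by rw [hK]; exact Subfield.mem_top ϖ
  have ha0 : a ≠ 0 := by rw [← hab]; exact mul_ne_zero hϖ0 hb0
  obtain ⟨ka, hka⟩ := hpowval a ha0 ha
  obtain ⟨kb, hkb⟩ := hpowval b hb0 hb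
  have hval : v ϖ * v m ^ kb = v m ^ ka := by rw [← hkb, ← hka, ← map_mul, hab]
  have hμ0 : v m ≠ 0 := v.ne_zero_iff.mpr hm0
  have hμpos : 0 < v m := zero_lt_iff.mpr hμ0
  have hlt : kb < ka := by
    by_contra hcon
    push Not at hcon
    have h1 : v m ^ kb ≤ v m ^ ka := pow_le_pow_of_le_one zero_le hm.le hcon
    have h2 : 1 * v m ^ kb ≤ v ϖ * v m ^ kb := by rw [one_mul, hval]; exact h1
    have h3 : (1 : Γ₀) ≤ v ϖ := le_of_mul_le_mul_right h2 (pow_pos hμpos kb)
    exact absurd hϖ (not_lt.mpr h3)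
  obtain ⟨j, rfl⟩ : ∃ j, ka = kb + (j + 1) := ⟨ka - kb - 1, by omega⟩
  have hϖeq : v ϖ = v m ^ (j + 1) := by
    rw [pow_add, mul_comm] at hval
    exact mul_left_cancel₀ (pow_ne_zero kb hμ0) hval
  exact le_antisymm hvm_le (hϖeq ▸ pow_le_of_le_one zero_le hm.le (Nat.succ_ne_zero j))

/-- **The theta trick for a discrete valuation subring.** Under the hypotheses of
`valuation_eq_of_theta`, phrased with membership in a discrete valuation subring `W` of `Ω`,
the element `m` generates the maximal ideal of `W`. -/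
theorem exists_eq_mul_of_theta (W : ValuationSubring Ω) [IsDiscreteValuationRing W]
    (hLW : ∀ c : L, algebraMap L Ω c ∈ W) (M1 M2 : Subfield Ω) (hgen : M1 ⊔ M2 = ⊤)
    (t m : Ω) (hm0 : m ≠ 0) (hmW : m ∈ W) (hm : m⁻¹ ∉ W)
    (h1 : ∀ a ∈ M1, a ∈ W → ∃ c : L, ∃ a' ∈ M1, a' ∈ W ∧ a = algebraMap L Ω c + t * a')
    (h2 : ∀ a ∈ M2, a ∈ W → ∃ c : L, ∃ a' ∈ M2, a' ∈ W ∧ a = algebraMap L Ω c + m * a')
    (u₁ u₂ : Ω) (hu₁ : u₁ ∈ M1) (hu₁0 : u₁ ≠ 0) (hu₁W : u₁ ∈ W) (hu₁W' : u₁⁻¹ ∈ W)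
    (hu₂ : u₂ ∈ M2) (hu₂0 : u₂ ≠ 0) (hu₂W : u₂ ∈ W) (hu₂W' : u₂⁻¹ ∈ W)
    (e f : ℕ) (he : (e : L) ≠ 0) (hf : 0 < f) (hx : u₁ * t ^ e = u₂ * m ^ (e * f)) :
    ∀ z ∈ W, z⁻¹ ∉ W → ∃ z' ∈ W, z = m * z' := by
  have hle : ∀ x : Ω, W.valuation x ≤ 1 ↔ x ∈ W := W.valuation_le_one_iff
  -- units and non-units in terms of the valuation
  have hunit : ∀ x : Ω, x ≠ 0 → x ∈ W → x⁻¹ ∈ W → W.valuation x = 1 := by
    intro x hx0 hx hx'
    have h1 := (hle x).mpr hx
    have h2 := (hle x⁻¹).mpr hx'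
    rw [map_inv₀] at h2
    have hpos : 0 < W.valuation x := zero_lt_iff.mpr (W.valuation.ne_zero_iff.mpr hx0)
    exact le_antisymm h1
      (not_lt.mp fun hlt => absurd h2 (not_le.mpr ((one_lt_inv₀ hpos).mpr hlt)))
  have hnonunit : ∀ x : Ω, x ∈ W → x⁻¹ ∉ W → W.valuation x < 1 := by
    intro x hx hx'
    refine lt_of_le_of_ne ((hle x).mpr hx) fun h => hx' ((hle x⁻¹).mp ?_)
    rw [map_inv₀, h, inv_one]
  have hL : ∀ c : L, c ≠ 0 → W.valuation (algebraMap L Ω c) = 1 := by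
    intro c hc
    refine hunit _ (by simpa using hc) (hLW c) ?_
    rw [← map_inv₀]
    exact hLW c⁻¹
  -- a uniformizer of `W`
  obtain ⟨ϖ, hϖ⟩ := IsDiscreteValuationRing.exists_irreducible W
  have hϖlt : W.valuation (ϖ : Ω) < 1 :=
    (W.valuation_lt_one_iff ϖ).mp (by
      rw [hϖ.maximalIdeal_eq]; exact Ideal.mem_span_singleton_self ϖ)
  have hϖ0 : (ϖ : Ω) ≠ 0 := by
    intro h
    exact hϖ.ne_zero (Subtype.ext h)
  have hmax : ∀ z : Ω, W.valuation z < 1 → W.valuation z ≤ W.valuation (ϖ : Ω) := by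
    intro z hz
    have hzW : z ∈ W := (hle z).mp hz.le
    have hmem : (⟨z, hzW⟩ : W) ∈ IsLocalRing.maximalIdeal W :=
      (W.valuation_lt_one_iff ⟨z, hzW⟩).mpr hz
    rw [hϖ.maximalIdeal_eq, Ideal.mem_span_singleton] at hmem
    obtain ⟨z', hz'⟩ := hmem
    have hz'' : z = (ϖ : Ω) * (z' : Ω) := congrArg Subtype.val hz'
    rw [hz'', map_mul]
    exact mul_le_of_le_one_right' (W.valuation_le_one z')
  have harch : ∀ z : Ω, z ≠ 0 → ∃ n : ℕ, W.valuation (ϖ : Ω) ^ n < W.valuation z := by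
    intro z hz0
    by_cases hzW : z ∈ W
    · have hz0' : (⟨z, hzW⟩ : W) ≠ 0 := fun h => hz0 (congrArg Subtype.val h)
      obtain ⟨n, u, hu⟩ := IsDiscreteValuationRing.eq_unit_mul_pow_irreducible hz0' hϖ
      have hz' : z = (u : W) * (ϖ : Ω) ^ n := by
        have := congrArg Subtype.val hu
        simpa using this
      refine ⟨n + 1, ?_⟩
      rw [hz', map_mul, map_pow, W.valuation_unit u, one_mul]
      exact pow_lt_pow_right_of_lt_one₀ (zero_lt_iff.mpr (W.valuation.ne_zero_iff.mpr hϖ0))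
        hϖlt (Nat.lt_succ_self n)
    · refine ⟨1, ?_⟩
      rw [pow_one]
      exact hϖlt.trans (not_le.mp fun h => hzW ((hle z).mp h))
  have key := valuation_eq_of_theta (L := L) W.valuation hL M1 M2 hgen t m hm0
    (hnonunit m hmW hm)
    (fun a ha hva => by
      obtain ⟨c, a', ha', ha'W, h⟩ := h1 a ha ((hle a).mp hva)
      exact ⟨c, a', ha', (hle a').mpr ha'W, h⟩)
    (fun a ha hva => by
      obtain ⟨c, a', ha', ha'W, h⟩ := h2 a ha ((hle a).mp hva)
      exact ⟨c, a', ha', (hle a').mpr ha'W, h⟩)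
    u₁ u₂ hu₁ (hunit u₁ hu₁0 hu₁W hu₁W') hu₂ (hunit u₂ hu₂0 hu₂W hu₂W') e f he hf hx
    (ϖ : Ω) hϖlt hϖ0 hmax harch
  intro z hzW hz'
  refine ⟨z / m, (hle _).mp ?_, by rw [mul_div_cancel₀ _ hm0]⟩
  rw [map_div₀]
  exact div_le_one_of_le₀ (key ▸ hmax z (hnonunit z hzW hz')) zero_le

end main

end Fermat.Agent.S18.ThetaTrick
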