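import Fermat.Agent.S18.S24Export
import Fermat.Agent.S18.ThetaTrick
import Fermat.Agent.S18.RatSide
import Fermat.Agent.S24.FFDeg

/-!
# S18 (route K, step 6): `F_L(h) / ℚ̄(h)` is unramified at the absorbed points of the `h`-line

`FL N` is the function field of `X₀(N)` over `ℚ̄`, `Ω = FL N (h)` a field generated by an element
`h` with `j · den(h) = num(h)` (`num, den ∈ ℚ̄[X]`: the `h`-line is a rational cover of the
`j`-line).  Let `PΩ` be a place of `Ω` centred at a finite point `h₀` of the `h`-line with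
`den(h₀) ≠ 0`, and `b := num(h₀)/den(h₀) = j(h₀)`.  If the multiplicity `e₀` of `h₀` in the fibre
`num - b den` is divisible by `3` when `b = 0` and by `2` when `b = 1728`, then `h - h₀` is a
uniformizer of `PΩ`: the cover `Ω / ℚ̄(h)` is unramified at `PΩ`.

Inputs: the ramification of `j` on `X₀(N)` (S24Export: `1` at generic points, `1 | 3` over `0`,
`1 | 2` over `1728`, residue fields `ℚ̄`), the theta trick (`ThetaTrick`) and its rational side
(`RatSide`).

Instances at the end: the `X₀(2)`-line `j = (h + 256)³ / h²` (used for `ℓ = 3`; critical values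
`h = 0, -64`) and the `X₀(3)`-line `j = (h + 27)(h + 3)³ / h` (used for `ℓ = 2`; critical values
`h = 0, -27`).
-/

set_option autoImplicit false

namespace Fermat.Agent.S18.HLinePlaces

open AlgebraicCurve Polynomial Fermat.Agent.S24 Fermat.Agent.S18.S24Export

section general

variable {K F Ω : Type*} [Field K] [Field F] [Field Ω] [Algebra K F] [Algebra K Ω] [Algebra F Ω]
  [IsScalarTower K F Ω]

/-- The restriction of a place of `Ω` to a subfield `F` on which it is nontrivial. -/
noncomputable def restrict (PΩ : Place K Ω)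
    (hnt : ∃ f : F, f ≠ 0 ∧ PΩ.adicValuation (algebraMap F Ω f) < 1) : Place K F :=
  PlacesAbsAux.placeOf (PΩ.adicValuation.comap (algebraMap F Ω))
    (fun c hc => by
      rw [Valuation.comap_apply, ← IsScalarTower.algebraMap_apply]
      exact PlacesAbsAux.adicValuation_algebraMap PΩ c hc)
    (by
      obtain ⟨f, hf0, hf⟩ := hnt
      exact ⟨f, hf0, by rwa [Valuation.comap_apply]⟩)

theorem mem_restrict_iff (PΩ : Place K Ω)
    (hnt : ∃ f : F, f ≠ 0 ∧ PΩ.adicValuation (algebraMap F Ω f) < 1) (f : F) :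
    f ∈ (restrict PΩ hnt).toValuationSubring ↔ algebraMap F Ω f ∈ PΩ.toValuationSubring := by
  unfold restrict
  rw [PlacesAbsAux.placeOf_toValuationSubring, Valuation.mem_valuationSubring_iff,
    Valuation.comap_apply, PlacesAbsAux.adicValuation_le_one_iff]

/-- membership in the valuation ring of a place, in terms of `ord`. -/
theorem mem_iff_ord_nonneg (P : Place K F) (f : F) :
    f ∈ P.toValuationSubring ↔ 0 ≤ P.ord f := by
  by_cases hf : f = 0
  · subst hf; simp
  · exact (Place.ord_nonneg_iff_mem P hf).symm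

theorem inv_notMem_of_ord_pos (P : Place K F) {f : F} (hf : 0 < P.ord f) :
    f⁻¹ ∉ P.toValuationSubring := by
  rw [mem_iff_ord_nonneg, Place.ord_inv]
  exact fun h => absurd hf (by omega)

theorem ord_pos_of_mem_of_inv_notMem (P : Place K F) {f : F} (hf : f ∈ P.toValuationSubring)
    (hf' : f⁻¹ ∉ P.toValuationSubring) : 0 < P.ord f := by
  have h1 := (mem_iff_ord_nonneg P f).mp hf
  have h2 : ¬ 0 ≤ -P.ord f := by
    rw [← Place.ord_inv, ← mem_iff_ord_nonneg]
    exact hf'
  omega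

/-- If the residue field of the place `P` is `K` and `t` is a uniformizer, every element of the
valuation ring is `c + t f'`. -/
theorem exists_eq_add_mul_of_residue (P : Place K F)
    (hres : ∀ f ∈ P.toValuationSubring, ∃ c : K, f = algebraMap K F c ∨
      0 < P.ord (f - algebraMap K F c))
    (t : F) (ht : P.ord t = 1) :
    ∀ f ∈ P.toValuationSubring, ∃ c : K, ∃ f' ∈ P.toValuationSubring,
      f = algebraMap K F c + t * f' := by
  intro f hf
  have ht0 : t ≠ 0 := by
    rintro rfl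
    simp at ht
  obtain ⟨c, hc | hc⟩ := hres f hf
  · exact ⟨c, 0, zero_mem _, by rw [hc]; simp⟩
  · have hfc0 : f - algebraMap K F c ≠ 0 := by
      intro h0
      rw [h0] at hc
      simp at hc
    refine ⟨c, (f - algebraMap K F c) * t⁻¹, ?_, ?_⟩
    · rw [mem_iff_ord_nonneg, Place.ord_mul P hfc0 (inv_ne_zero ht0), Place.ord_inv, ht]
      omega
    · field_simp
      ring

end general

section modular

local notation "Qb" => AlgebraicClosure ℚ

variable (N : ℕ) [NeZero N] {Ω : Type*} [Field Ω] [Algebra Qb Ω] [Algebra (FL N) Ω]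
  [IsScalarTower Qb (FL N) Ω]

/-- **`Ω = F_L(h)` is unramified over the `h`-line at the absorbed points.** -/
theorem ord_sub_eq_one (h : Ω) (hgen : IntermediateField.adjoin (FL N) {h} = ⊤)
    (num den : Qb[X])
    (hrel : algebraMap (FL N) Ω (jL N) * aeval h den = aeval h num)
    (PΩ : Place Qb Ω) (h0 : Qb) (hh0 : 0 < PΩ.ord (h - algebraMap Qb Ω h0))
    (hden : den.eval h0 ≠ 0) (hG : num - C (num.eval h0 / den.eval h0) * den ≠ 0)
    (h3 : num.eval h0 = 0 → 3 ∣ rootMultiplicity h0 num)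
    (h2 : num.eval h0 = 1728 * den.eval h0 → 2 ∣ rootMultiplicity h0 (num - C 1728 * den)) :
    PΩ.ord (h - algebraMap Qb Ω h0) = 1 := by
  classical
  have hLW : ∀ c : Qb, algebraMap Qb Ω c ∈ PΩ.toValuationSubring := PΩ.algebraMap_mem'
  have hm0 : h - algebraMap Qb Ω h0 ≠ 0 := by
    intro h0'
    rw [h0'] at hh0
    simp at hh0
  have hmW : h - algebraMap Qb Ω h0 ∈ PΩ.toValuationSubring :=
    (mem_iff_ord_nonneg PΩ _).mpr hh0.le
  have hm : (h - algebraMap Qb Ω h0)⁻¹ ∉ PΩ.toValuationSubring := inv_notMem_of_ord_pos PΩ hh0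
  have hvm : PΩ.toValuationSubring.valuation (h - algebraMap Qb Ω h0) < 1 := by
    refine lt_of_le_of_ne ((PΩ.toValuationSubring.valuation_le_one_iff _).mpr hmW) fun h1 => hm ?_
    rw [← PΩ.toValuationSubring.valuation_le_one_iff, map_inv₀, h1, inv_one]
  -- the fibre polynomial
  obtain ⟨b, hb⟩ : ∃ b : Qb, b = num.eval h0 / den.eval h0 := ⟨_, rfl⟩
  rw [← hb] at hG
  obtain ⟨G, hGdef⟩ : ∃ G : Qb[X], G = num - C b * den := ⟨_, rfl⟩
  rw [← hGdef] at hG
  have hGroot : G.IsRoot h0 := by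
    rw [IsRoot, hGdef, eval_sub, eval_mul, eval_C, hb, div_mul_cancel₀ _ hden, sub_self]
  obtain ⟨e0, he0⟩ : ∃ e0 : ℕ, e0 = rootMultiplicity h0 G := ⟨_, rfl⟩
  have he0pos : 0 < e0 := by rw [he0]; exact (rootMultiplicity_pos hG).mpr hGroot
  obtain ⟨q, hq, hq'⟩ := exists_eq_pow_rootMultiplicity_mul_and_not_dvd G hG h0
  rw [← he0] at hq
  have hq0 : q.eval h0 ≠ 0 := fun h' => hq' (dvd_iff_isRoot.mpr h')
  have hvden := RatSide.valuation_aeval_eq_one PΩ.toValuationSubring hLW h h0 hvm den hden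
  have hvq := RatSide.valuation_aeval_eq_one PΩ.toValuationSubring hLW h h0 hvm q hq0
  have hden0 : aeval h den ≠ 0 :=
    PΩ.toValuationSubring.valuation.ne_zero_iff.mp (by rw [hvden]; exact one_ne_zero)
  have hq0' : aeval h q ≠ 0 :=
    PΩ.toValuationSubring.valuation.ne_zero_iff.mp (by rw [hvq]; exact one_ne_zero)
  -- `j - b = u₂ m ^ e0`
  obtain ⟨u₂, hu₂def⟩ : ∃ u₂ : Ω, u₂ = aeval h q / aeval h den := ⟨_, rfl⟩
  have hu₂0 : u₂ ≠ 0 := by rw [hu₂def]; exact div_ne_zero hq0' hden0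
  have hvu₂ : PΩ.toValuationSubring.valuation u₂ = 1 := by
    rw [hu₂def, map_div₀, hvq, hvden, div_one]
  have hu₂W : u₂ ∈ PΩ.toValuationSubring :=
    (PΩ.toValuationSubring.valuation_le_one_iff _).mp hvu₂.le
  have hu₂W' : u₂⁻¹ ∈ PΩ.toValuationSubring := by
    rw [← PΩ.toValuationSubring.valuation_le_one_iff, map_inv₀, hvu₂, inv_one]
  have hjb : algebraMap (FL N) Ω (jL N - algebraMap Qb (FL N) b) =
      u₂ * (h - algebraMap Qb Ω h0) ^ e0 := by
    have hGh : aeval h G = (h - algebraMap Qb Ω h0) ^ e0 * aeval h q := by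
      conv_lhs => rw [hq]
      simp
    have hGh' : aeval h G = aeval h num - algebraMap Qb Ω b * aeval h den := by
      rw [hGdef]; simp
    rw [map_sub, ← IsScalarTower.algebraMap_apply, hu₂def, div_mul_eq_mul_div,
      eq_div_iff hden0, mul_comm (aeval h q), ← hGh, hGh', ← hrel]
    ring
  have hjbW : algebraMap (FL N) Ω (jL N - algebraMap Qb (FL N) b) ∈ PΩ.toValuationSubring := by
    rw [hjb]; exact mul_mem hu₂W (pow_mem hmW e0)
  have hjbW' : (algebraMap (FL N) Ω (jL N - algebraMap Qb (FL N) b))⁻¹ ∉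
      PΩ.toValuationSubring := by
    intro hcon
    have h1 : PΩ.toValuationSubring.valuation
        (algebraMap (FL N) Ω (jL N - algebraMap Qb (FL N) b)) < 1 := by
      rw [hjb, map_mul, hvu₂, one_mul, map_pow]
      exact pow_lt_one₀ zero_le hvm he0pos.ne'
    have h2 := (PΩ.toValuationSubring.valuation_le_one_iff _).mpr hcon
    rw [map_inv₀] at h2
    have hne : PΩ.toValuationSubring.valuation
        (algebraMap (FL N) Ω (jL N - algebraMap Qb (FL N) b)) ≠ 0 := by
      rw [hjb]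
      exact PΩ.toValuationSubring.valuation.ne_zero_iff.mpr
        (mul_ne_zero hu₂0 (pow_ne_zero _ hm0))
    exact absurd h2 (not_le.mpr ((one_lt_inv₀ (zero_lt_iff.mpr hne)).mpr h1))
  -- the restricted place `P` of `FL N`
  have hnt : ∃ f : FL N, f ≠ 0 ∧ PΩ.adicValuation (algebraMap (FL N) Ω f) < 1 := by
    refine ⟨jL N - algebraMap Qb (FL N) b, jL_sub_ne_zero N b, ?_⟩
    refine lt_of_le_of_ne ((PlacesAbsAux.adicValuation_le_one_iff PΩ _).mpr hjbW) fun h1 =>
      hjbW' ?_
    rw [← PlacesAbsAux.adicValuation_le_one_iff, map_inv₀, h1, inv_one]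
  obtain ⟨P, hP⟩ : ∃ P : Place Qb (FL N), P = restrict PΩ hnt := ⟨_, rfl⟩
  have hPmem : ∀ f : FL N, f ∈ P.toValuationSubring ↔
      algebraMap (FL N) Ω f ∈ PΩ.toValuationSubring := fun f => by
    rw [hP]; exact mem_restrict_iff PΩ hnt f
  have hordj : 0 < P.ord (jL N - algebraMap Qb (FL N) b) :=
    ord_pos_of_mem_of_inv_notMem P ((hPmem _).mpr hjbW)
      (fun hcon => hjbW' (by rw [← map_inv₀]; exact (hPmem _).mp hcon))
  -- the ramification index `e` of `P` divides `e0`
  obtain ⟨e, f, hepos, hfpos, hef, hordje⟩ : ∃ e f : ℕ, 0 < e ∧ 0 < f ∧ e0 = e * f ∧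
      P.ord (jL N - algebraMap Qb (FL N) b) = (e : ℤ) := by
    by_cases hb0 : b = 0
    · have hnum0 : num.eval h0 = 0 := by
        have h' : num.eval h0 / den.eval h0 = 0 := by rw [← hb, hb0]
        rcases div_eq_zero_iff.mp h' with h' | h'
        · exact h'
        · exact absurd h' hden
      have hGnum : G = num := by rw [hGdef, hb0]; simp
      obtain ⟨f, hf⟩ := h3 hnum0
      rw [← hGnum, ← he0] at hf
      have hordj' : 0 < P.ord (jL N) := by
        have := hordj
        rwa [hb0, map_zero, sub_zero] at this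
      rcases ord_zero_cases N P hordj' with h1 | h1
      · exact ⟨1, e0, one_pos, he0pos, by ring, by rw [hb0, map_zero, sub_zero, h1]; rfl⟩
      · exact ⟨3, f, by norm_num, by omega, hf, by rw [hb0, map_zero, sub_zero, h1]; rfl⟩
    · by_cases hb1 : b = 1728
      · have hnum1 : num.eval h0 = 1728 * den.eval h0 := by
          have h' : num.eval h0 / den.eval h0 = 1728 := by rw [← hb, hb1]
          rw [div_eq_iff hden] at h'
          exact h'
        have hG1 : G = num - C 1728 * den := by rw [hGdef, hb1]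
        obtain ⟨f, hf⟩ := h2 hnum1
        rw [← hG1, ← he0] at hf
        have hordj' : 0 < P.ord (jL N - algebraMap Qb (FL N) 1728) := by
          have := hordj
          rwa [hb1] at this
        rcases ord_1728_cases N P hordj' with h1 | h1
        · exact ⟨1, e0, one_pos, he0pos, by ring, by rw [hb1, h1]; rfl⟩
        · exact ⟨2, f, by norm_num, by omega, hf, by rw [hb1, h1]; rfl⟩
      · exact ⟨1, e0, one_pos, he0pos, by ring, by
          rw [S24Export.ord_eq_one_of_generic N b hb0 hb1 P hordj]; rfl⟩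
  -- uniformizer and unit on the `FL N` side
  obtain ⟨π, hπ⟩ := IsDiscreteValuationRing.exists_irreducible P.toValuationSubring
  have hordπ : P.ord (π : FL N) = 1 := P.ord_coe_irreducible hπ
  have hπ0 : (π : FL N) ≠ 0 := fun h' => hπ.ne_zero (Subtype.ext h')
  obtain ⟨u₁₀, hu₁₀def⟩ : ∃ u : FL N,
      u = (jL N - algebraMap Qb (FL N) b) * ((π : FL N) ^ e)⁻¹ := ⟨_, rfl⟩
  have hu₁₀0 : u₁₀ ≠ 0 := by
    rw [hu₁₀def]
    exact mul_ne_zero (jL_sub_ne_zero N b) (inv_ne_zero (pow_ne_zero _ hπ0))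
  have hordu : P.ord u₁₀ = 0 := by
    rw [hu₁₀def, Place.ord_mul P (jL_sub_ne_zero N b) (inv_ne_zero (pow_ne_zero _ hπ0)),
      Place.ord_inv, hordje]
    have : P.ord ((π : FL N) ^ e) = (e : ℤ) := by
      have h' := P.ord_zpow (π : FL N) (e : ℤ)
      rw [zpow_natCast, hordπ, mul_one] at h'
      exact h'
    rw [this]; ring
  have hu₁₀P : u₁₀ ∈ P.toValuationSubring := (mem_iff_ord_nonneg P _).mpr hordu.ge
  have hu₁₀P' : u₁₀⁻¹ ∈ P.toValuationSubring := by
    rw [mem_iff_ord_nonneg, Place.ord_inv, hordu]; simp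
  have hx : algebraMap (FL N) Ω u₁₀ * algebraMap (FL N) Ω (π : FL N) ^ e =
      u₂ * (h - algebraMap Qb Ω h0) ^ (e * f) := by
    rw [← hef, ← hjb, ← map_pow, ← map_mul, hu₁₀def, inv_mul_cancel_right₀ (pow_ne_zero _ hπ0)]
  -- the two subfields
  have hgen' : (algebraMap (FL N) Ω).fieldRange ⊔ (IntermediateField.adjoin Qb {h}).toSubfield
      = ⊤ := by
    rw [eq_top_iff]
    have h1 : (IntermediateField.adjoin (FL N) {h}).toSubfield = ⊤ := by rw [hgen]; rfl
    rw [← h1, IntermediateField.adjoin_toSubfield, Subfield.closure_le]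
    rintro x (⟨y, rfl⟩ | hx)
    · exact (le_sup_left : (algebraMap (FL N) Ω).fieldRange ≤ _) (RingHom.mem_fieldRange_self _ y)
    · rw [Set.mem_singleton_iff] at hx
      rw [hx]
      exact (le_sup_right : (IntermediateField.adjoin Qb {h}).toSubfield ≤ _)
        (IntermediateField.mem_adjoin_simple_self Qb h)
  have hresP : ∀ g ∈ P.toValuationSubring, ∃ c : Qb, g = algebraMap Qb (FL N) c ∨
      0 < P.ord (g - algebraMap Qb (FL N) c) := fun g hg =>
    FFDeg.exists_residue (IntermediateField.adjoin Qb {jL N}) (jL N) rfl P g hg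
  have h1 : ∀ a ∈ (algebraMap (FL N) Ω).fieldRange, a ∈ PΩ.toValuationSubring →
      ∃ c : Qb, ∃ a' ∈ (algebraMap (FL N) Ω).fieldRange, a' ∈ PΩ.toValuationSubring ∧
        a = algebraMap Qb Ω c + algebraMap (FL N) Ω (π : FL N) * a' := by
    rintro a ⟨a₀, rfl⟩ haW
    obtain ⟨c, a₀', ha₀', hsplit⟩ :=
      exists_eq_add_mul_of_residue P hresP (π : FL N) hordπ a₀ ((hPmem a₀).mpr haW)
    refine ⟨c, algebraMap (FL N) Ω a₀', RingHom.mem_fieldRange_self _ a₀',
      (hPmem a₀').mp ha₀', ?_⟩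
    rw [hsplit, map_add, map_mul, ← IsScalarTower.algebraMap_apply]
  have h2' : ∀ a ∈ (IntermediateField.adjoin Qb {h}).toSubfield, a ∈ PΩ.toValuationSubring →
      ∃ c : Qb, ∃ a' ∈ (IntermediateField.adjoin Qb {h}).toSubfield,
        a' ∈ PΩ.toValuationSubring ∧ a = algebraMap Qb Ω c + (h - algebraMap Qb Ω h0) * a' := by
    intro a ha haW
    obtain ⟨c, a', ha', ha'W, hsplit⟩ :=
      RatSide.exists_eq_add_mul PΩ.toValuationSubring hLW h h0 hm0 hmW hm a
        ha haW
    exact ⟨c, a', ha', ha'W, hsplit⟩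
  have hu₂M : u₂ ∈ (IntermediateField.adjoin Qb {h}).toSubfield := by
    rw [hu₂def]
    show aeval h q / aeval h den ∈ IntermediateField.adjoin Qb {h}
    have hpM : ∀ p : Qb[X], aeval h p ∈ IntermediateField.adjoin Qb {h} := fun p => by
      have : aeval h p ∈ Algebra.adjoin Qb {h} := by
        rw [Algebra.adjoin_singleton_eq_range_aeval]; exact ⟨p, rfl⟩
      exact IntermediateField.algebra_adjoin_le_adjoin Qb {h} this
    exact div_mem (hpM q) (hpM den)
  have key := ThetaTrick.exists_eq_mul_of_theta (L := Qb) PΩ.toValuationSubring hLW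
    (algebraMap (FL N) Ω).fieldRange (IntermediateField.adjoin Qb {h}).toSubfield hgen'
    (algebraMap (FL N) Ω (π : FL N)) (h - algebraMap Qb Ω h0) hm0 hmW hm h1 h2'
    (algebraMap (FL N) Ω u₁₀) u₂ (RingHom.mem_fieldRange_self _ u₁₀)
    (by simpa using hu₁₀0) ((hPmem u₁₀).mp hu₁₀P)
    (by rw [← map_inv₀]; exact (hPmem _).mp hu₁₀P') hu₂M hu₂0 hu₂W hu₂W' e f
    (by exact_mod_cast hepos.ne') hfpos hx
  -- conclusion: compare with a uniformizer of `PΩ`
  obtain ⟨ϖ, hϖ⟩ := IsDiscreteValuationRing.exists_irreducible PΩ.toValuationSubring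
  have hordϖ : PΩ.ord (ϖ : Ω) = 1 := PΩ.ord_coe_irreducible hϖ
  obtain ⟨z', hz'W, hz'⟩ := key (ϖ : Ω) ϖ.2 (inv_notMem_of_ord_pos PΩ (by rw [hordϖ]; exact one_pos))
  have hϖ0 : (ϖ : Ω) ≠ 0 := fun h' => hϖ.ne_zero (Subtype.ext h')
  have hz'0 : z' ≠ 0 := by
    rintro rfl
    rw [mul_zero] at hz'
    exact hϖ0 hz'
  have hsum : PΩ.ord (ϖ : Ω) = PΩ.ord (h - algebraMap Qb Ω h0) + PΩ.ord z' := by
    rw [hz', Place.ord_mul PΩ hm0 hz'0]
  have hz'ord : 0 ≤ PΩ.ord z' := (mem_iff_ord_nonneg PΩ z').mp hz'W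
  rw [hordϖ] at hsum
  omega

/-- **The `X₀(2)`-line (used for `ℓ = 3`).** If `Ω = F_L(h)` with `j h² = (h + 256)³`, then
`Ω / ℚ̄(h)` is unramified at every place centred at a finite point `h₀ ≠ 0, -64` of the
`h`-line. (Over `j = 0` the point `h = -256` has `e = 3`; over `j = 1728` the point `h = 512`
has `e = 2`: they absorb the elliptic ramification of `X₀(N)`.) -/
theorem ord_sub_eq_one_X02 (h : Ω) (hgen : IntermediateField.adjoin (FL N) {h} = ⊤)
    (hrel : algebraMap (FL N) Ω (jL N) * h ^ 2 = (h + 256) ^ 3)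
    (PΩ : Place Qb Ω) (h0 : Qb) (hh0 : 0 < PΩ.ord (h - algebraMap Qb Ω h0))
    (h00 : h0 ≠ 0) (h064 : h0 ≠ -64) : PΩ.ord (h - algebraMap Qb Ω h0) = 1 := by
  have hC : ∀ n : ℕ, (C (n : Qb) : Qb[X]) = (n : Qb[X]) := fun n => by simp
  refine ord_sub_eq_one N h hgen ((X + C (256 : Qb)) ^ 3) (X ^ 2) ?_ PΩ h0 hh0 ?_ ?_ ?_ ?_
  · have e : (algebraMap Qb Ω) 256 = 256 := map_ofNat (algebraMap Qb Ω) 256
    simpa [e] using hrel
  · simpa using h00
  · -- monic of degree 3 minus degree ≤ 2
    have hmon : ((X + C (256 : Qb)) ^ 3 -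
        C (eval h0 ((X + C (256 : Qb)) ^ 3) / eval h0 (X ^ 2)) * X ^ 2).Monic := by
      refine Monic.sub_of_left ((monic_X_add_C (256 : Qb)).pow 3) ?_
      refine (degree_C_mul_X_pow_le 2 _).trans_lt ?_
      rw [degree_pow, degree_X_add_C]
      norm_num
    exact hmon.ne_zero
  · intro hev
    have h1 : h0 = -256 := by
      have : (h0 + 256) ^ 3 = 0 := by simpa using hev
      have := pow_eq_zero_iff (three_ne_zero) |>.mp this
      linear_combination this
    have h2 : (X + C (256 : Qb)) ^ 3 = (X - C h0) ^ 3 := by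
      rw [h1, C_neg, sub_neg_eq_add]
    rw [h2, rootMultiplicity_X_sub_C_pow]
  · intro hev
    have hev' : (h0 + 256) ^ 3 = 1728 * h0 ^ 2 := by simpa using hev
    have h1 : h0 = 512 := by
      have hprod : (h0 + 64) * (h0 - 512) ^ 2 = 0 := by linear_combination hev'
      rcases mul_eq_zero.mp hprod with h' | h'
      · exact absurd (by linear_combination h') h064
      · have := pow_eq_zero_iff (two_ne_zero) |>.mp h'
        linear_combination this
    have hfac : (X + C (256 : Qb)) ^ 3 - C (1728 : Qb) * X ^ 2 =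
        (X - C (512 : Qb)) ^ 2 * (X + C (64 : Qb)) := by
      have e1 := hC 256
      have e2 := hC 1728
      have e3 := hC 512
      have e4 := hC 64
      push_cast at e1 e2 e3 e4
      rw [e1, e2, e3, e4]
      ring
    have hne : (X - C (512 : Qb)) ^ 2 * (X + C (64 : Qb)) ≠ 0 :=
      mul_ne_zero (pow_ne_zero _ (X_sub_C_ne_zero _)) (X_add_C_ne_zero _)
    have hroot : ¬ IsRoot (X + C (64 : Qb)) (512 : Qb) := by
      simp only [IsRoot, eval_add, eval_X, eval_C]
      norm_num
    rw [hfac, h1, rootMultiplicity_mul hne, rootMultiplicity_X_sub_C_pow,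
      rootMultiplicity_eq_zero hroot]

/-- **The `X₀(3)`-line (used for `ℓ = 2`).** If `Ω = F_L(h)` with `j h = (h + 27)(h + 3)³`, then
`Ω / ℚ̄(h)` is unramified at every place centred at a finite point `h₀ ≠ 0, -27` of the
`h`-line. (Over `j = 0` the point `h = -3` has `e = 3`; over `j = 1728` both points have
`e = 2`.) -/
theorem ord_sub_eq_one_X03 (h : Ω) (hgen : IntermediateField.adjoin (FL N) {h} = ⊤)
    (hrel : algebraMap (FL N) Ω (jL N) * h = (h + 27) * (h + 3) ^ 3)
    (PΩ : Place Qb Ω) (h0 : Qb) (hh0 : 0 < PΩ.ord (h - algebraMap Qb Ω h0))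
    (h00 : h0 ≠ 0) (h027 : h0 ≠ -27) : PΩ.ord (h - algebraMap Qb Ω h0) = 1 := by
  have hC : ∀ n : ℕ, (C (n : Qb) : Qb[X]) = (n : Qb[X]) := fun n => by simp
  refine ord_sub_eq_one N h hgen ((X + C (27 : Qb)) * (X + C (3 : Qb)) ^ 3) X ?_ PΩ h0 hh0
    ?_ ?_ ?_ ?_
  · have e1 : (algebraMap Qb Ω) 27 = 27 := map_ofNat (algebraMap Qb Ω) 27
    have e2 : (algebraMap Qb Ω) 3 = 3 := map_ofNat (algebraMap Qb Ω) 3
    simpa [e1, e2] using hrel
  · simpa using h00
  · have hmon : ((X + C (27 : Qb)) * (X + C (3 : Qb)) ^ 3 -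
        C (eval h0 ((X + C (27 : Qb)) * (X + C (3 : Qb)) ^ 3) / eval h0 X) * X).Monic := by
      refine Monic.sub_of_left ((monic_X_add_C (27 : Qb)).mul ((monic_X_add_C (3 : Qb)).pow 3)) ?_
      refine (degree_C_mul_X_le _).trans_lt ?_
      rw [degree_mul, degree_pow, degree_X_add_C, degree_X_add_C]
      norm_num
    exact hmon.ne_zero
  · intro hev
    have hev' : (h0 + 27) * (h0 + 3) ^ 3 = 0 := by simpa using hev
    have h1 : h0 = -3 := by
      rcases mul_eq_zero.mp hev' with h' | h'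
      · exact absurd (by linear_combination h') h027
      · have := pow_eq_zero_iff (three_ne_zero) |>.mp h'
        linear_combination this
    have h2 : (X + C (3 : Qb)) ^ 3 = (X - C h0) ^ 3 := by
      rw [h1, C_neg, sub_neg_eq_add]
    have hne : (X + C (27 : Qb)) * (X - C h0) ^ 3 ≠ 0 :=
      mul_ne_zero (X_add_C_ne_zero _) (pow_ne_zero _ (X_sub_C_ne_zero _))
    have hroot : ¬ IsRoot (X + C (27 : Qb)) h0 := by
      simp only [IsRoot, eval_add, eval_X, eval_C, h1]
      norm_num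
    rw [h2, rootMultiplicity_mul hne, rootMultiplicity_X_sub_C_pow,
      rootMultiplicity_eq_zero hroot, zero_add]
  · intro _
    have hfac : (X + C (27 : Qb)) * (X + C (3 : Qb)) ^ 3 - C (1728 : Qb) * X =
        (X ^ 2 + C (18 : Qb) * X - C (27 : Qb)) * (X ^ 2 + C (18 : Qb) * X - C (27 : Qb)) := by
      have e1 := hC 27
      have e2 := hC 3
      have e3 := hC 1728
      have e4 := hC 18
      push_cast at e1 e2 e3 e4
      rw [e1, e2, e3, e4]
      ring
    have hmon : (X ^ 2 + C (18 : Qb) * X - C (27 : Qb)).Monic := by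
      have h' : X ^ 2 + C (18 : Qb) * X - C (27 : Qb) =
          X ^ 2 + (C (18 : Qb) * X + C (-27 : Qb)) := by
        rw [C_neg]; ring
      rw [h']
      refine Monic.add_of_left (monic_X_pow 2) ?_
      refine (degree_linear_le).trans_lt ?_
      rw [degree_X_pow]
      norm_num
    have hne : (X ^ 2 + C (18 : Qb) * X - C (27 : Qb)) *
        (X ^ 2 + C (18 : Qb) * X - C (27 : Qb)) ≠ 0 := mul_ne_zero hmon.ne_zero hmon.ne_zero
    rw [hfac, rootMultiplicity_mul hne]
    exact ⟨_, (two_mul _).symm⟩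

end modular

end Fermat.Agent.S18.HLinePlaces
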