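/-
`Fermat.Agent.S18.PlaceInv` — the chart at infinity of a base line: if `F` is unramified
over the `s`-line at the value `b⁻¹`, it is unramified over the `s⁻¹`-line at the value `b`.
-/
import Mathlib
import Fermat.Prelude.Def_AlgebraicCurve_DivisorClassGroup
import Fermat.Agent.S18.ValExt

namespace Fermat.Agent.S18.PlaceInv

open AlgebraicCurve

variable {K F : Type*} [Field K] [Field F] [Algebra K F]

/-- At a place where `s⁻¹ - b` has positive order (`b ≠ 0` a constant), `s⁻¹` is a unit. -/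
theorem ord_inv_eq_zero (P : Place K F) (s : F) (b : K) (hb : b ≠ 0)
    (h : 0 < P.ord (s⁻¹ - algebraMap K F b)) : P.ord s⁻¹ = 0 := by
  set B : F := algebraMap K F b with hB
  have hB0 : B ≠ 0 := by
    rw [hB, Ne, map_eq_zero]
    exact hb
  have hordB : P.ord B = 0 := Fermat.Agent.S24.Place.ord_algebraMap P b
  have hd0 : s⁻¹ - B ≠ 0 := by
    intro h0
    rw [h0, Place.ord_zero] at h
    exact lt_irrefl _ h
  by_cases hs0 : s⁻¹ = 0
  · exfalso
    rw [hs0, zero_sub, Fermat.Agent.S18.ValExt.ord_neg, hordB] at h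
    exact lt_irrefl _ h
  have h1 : min (P.ord (s⁻¹ - B)) (P.ord B) ≤ P.ord (s⁻¹ - B + B) :=
    Fermat.Agent.S24.Place.min_le_ord_add P hd0 hB0 (by rw [sub_add_cancel]; exact hs0)
  rw [sub_add_cancel, hordB] at h1
  have h1' : 0 ≤ P.ord s⁻¹ := by
    rw [min_eq_right h.le] at h1
    exact h1
  by_contra hne
  have hpos' : 0 < P.ord s⁻¹ := lt_of_le_of_ne h1' (Ne.symm hne)
  have hnd0 : -(s⁻¹ - B) ≠ 0 := neg_ne_zero.mpr hd0
  have h2 : min (P.ord s⁻¹) (P.ord (-(s⁻¹ - B))) ≤ P.ord (s⁻¹ + -(s⁻¹ - B)) :=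
    Fermat.Agent.S24.Place.min_le_ord_add P hs0 hnd0 (by
      rw [show s⁻¹ + -(s⁻¹ - B) = B by ring]; exact hB0)
  rw [show s⁻¹ + -(s⁻¹ - B) = B by ring, hordB, Fermat.Agent.S18.ValExt.ord_neg] at h2
  have h3 : 0 < min (P.ord s⁻¹) (P.ord (s⁻¹ - B)) := lt_min hpos' h
  omega

/-- The order of `s⁻¹ - b` at a place where it is positive equals the order of `s - b⁻¹`. -/
theorem ord_inv_sub_eq (P : Place K F) (s : F) (b : K) (hb : b ≠ 0)
    (h : 0 < P.ord (s⁻¹ - algebraMap K F b)) :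
    P.ord (s⁻¹ - algebraMap K F b) = P.ord (s - algebraMap K F b⁻¹) := by
  have hsinv : P.ord s⁻¹ = 0 := ord_inv_eq_zero P s b hb h
  set B : F := algebraMap K F b with hB
  have hB0 : B ≠ 0 := by
    rw [hB, Ne, map_eq_zero]
    exact hb
  have hordB : P.ord B = 0 := Fermat.Agent.S24.Place.ord_algebraMap P b
  have hd0 : s⁻¹ - B ≠ 0 := by
    intro h0
    rw [h0, Place.ord_zero] at h
    exact lt_irrefl _ h
  have hs0 : s ≠ 0 := by
    intro h0
    apply hd0
    have : P.ord (s⁻¹ - B) = 0 := by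
      rw [h0, inv_zero, zero_sub, Fermat.Agent.S18.ValExt.ord_neg, hordB]
    rw [this] at h
    exact absurd h (lt_irrefl _)
  have hBinv : algebraMap K F b⁻¹ = B⁻¹ := by rw [map_inv₀]
  have hid : s⁻¹ - B = (-B) * (s - algebraMap K F b⁻¹) * s⁻¹ := by
    rw [hBinv]
    field_simp
    ring
  have hsb0 : s - algebraMap K F b⁻¹ ≠ 0 := by
    intro h0
    apply hd0
    rw [hid, h0, mul_zero, zero_mul]
  conv_lhs => rw [hid]
  rw [P.ord_mul (mul_ne_zero (neg_ne_zero.mpr hB0) hsb0) (inv_ne_zero hs0),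
    P.ord_mul (neg_ne_zero.mpr hB0) hsb0, Fermat.Agent.S18.ValExt.ord_neg, hordB, hsinv]
  ring

/-- **Chart at infinity, one place**: if `s⁻¹ - b` has positive order at `P` (`b ≠ 0`) and
`F` is unramified over the `s`-line at the value `b⁻¹`, then `ord_P (s⁻¹ - b) = 1`. -/
theorem ord_inv_sub_eq_one (P : Place K F) (s : F) (b : K) (hb : b ≠ 0)
    (h : 0 < P.ord (s⁻¹ - algebraMap K F b))
    (hF : 0 < P.ord (s - algebraMap K F b⁻¹) → P.ord (s - algebraMap K F b⁻¹) = 1) :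
    P.ord (s⁻¹ - algebraMap K F b) = 1 := by
  have he := ord_inv_sub_eq P s b hb h
  rw [he] at h ⊢
  exact hF h

/-- **Chart at infinity**: unramified over the `s`-line outside `S` implies unramified over
the `s⁻¹`-line at every value `b ≠ 0` with `b⁻¹ ∉ S`. -/
theorem hF_inv (s : F) (S : Set K)
    (hF : ∀ (P : Place K F) (b : K), b ∉ S → 0 < P.ord (s - algebraMap K F b) →
      P.ord (s - algebraMap K F b) = 1) :
    ∀ (P : Place K F) (b : K), b ≠ 0 → b⁻¹ ∉ S → 0 < P.ord (s⁻¹ - algebraMap K F b) →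
      P.ord (s⁻¹ - algebraMap K F b) = 1 :=
  fun P b hb hbS h => ord_inv_sub_eq_one P s b hb h (hF P b⁻¹ hbS)

/-- Predicate form of `hF_inv` (the shape of the `hF` hypothesis of `H3Line.h3Hyp_of_places`). -/
theorem hF_inv' (s : F) (Q Q' : K → Prop) (hQ : ∀ b : K, Q' b → b ≠ 0 ∧ Q b⁻¹)
    (hF : ∀ (P : Place K F) (b : K), Q b → 0 < P.ord (s - algebraMap K F b) →
      P.ord (s - algebraMap K F b) = 1) :
    ∀ (P : Place K F) (b : K), Q' b → 0 < P.ord (s⁻¹ - algebraMap K F b) →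
      P.ord (s⁻¹ - algebraMap K F b) = 1 :=
  fun P b hb h => ord_inv_sub_eq_one P s b (hQ b hb).1 h (hF P b⁻¹ (hQ b hb).2)

end Fermat.Agent.S18.PlaceInv
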