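import Mathlib
import Fermat.Agent.S18.H3Line
import Fermat.Agent.S18.HLinePlaces
import Fermat.Agent.S18.FFTower
import Fermat.Agent.S18.PlaceInv
import Fermat.Agent.S18.H3Inst

/-!
# S18, route K (bridge, `ℓ = 2, 3`): `H3Hyp` for the `h`-line

The `h`-line sibling of `H3Line`: for `Ω = F_L(h)` with `j h² = (h + 256)³` (the `X₀(2)`-relation,
used for `ℓ = 3`) resp. `j h = (h + 27)(h + 3)³` (the `X₀(3)`-relation, used for `ℓ = 2`), the
hypothesis (H3) of the Kummer core holds on both charts of the `h`-line, with critical values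
`{0, -64}`, `{0, -1/64}` resp. `{0, -27}`, `{0, -1/27}`.

* `hF_X02`, `hF_X02_inv`, `hF_X03`, `hF_X03_inv`: the unramifiedness input `hF` of
  `H3Line.h3Hyp_of_places` / `H3Inst.h3Hyp_cover_adjoinRoot`, for any set of critical values
  containing the two relevant ones;
* `h3Hyp_X02` etc.: `H3Hyp` for a general field `E` with a comparison map into a finite
  extension `E'` of `Ω`; `_kummer`: `E' = Ω(θ)`, `θ ^ p = Y`;
* `h3Hyp_X02_adjoinRoot` etc.: `H3Hyp` for the concrete carrier `AdjoinRoot (X ^ p - C Y)`.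
-/

set_option autoImplicit false
set_option linter.unusedSectionVars false

namespace Fermat.Agent.S18.H3HLine

open Fermat.Agent.S18.CoreDefs AlgebraicCurve Polynomial

open scoped IntermediateField

open Fermat.Agent.S18.S24Export Fermat.Agent.S24

local notation "Qb" => AlgebraicClosure ℚ

section Coll

variable {A0 : Type*} [CommRing A0] [DecidableEq A0]

/-- pairwise unit differences for a pair `{0, c}` with `c` a unit. -/
theorem hcoll_pair (c : A0) (hu : IsUnit c) :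
    ∀ a ∈ ({0, c} : Finset A0), ∀ a' ∈ ({0, c} : Finset A0), a ≠ a' → IsUnit (a - a') := by
  intro a ha a' ha' hne
  rw [Finset.mem_insert, Finset.mem_singleton] at ha ha'
  rcases ha with rfl | rfl <;> rcases ha' with rfl | rfl
  · exact absurd rfl hne
  · rw [zero_sub]; exact hu.neg
  · rw [sub_zero]; exact hu
  · exact absurd rfl hne

/-- the same for the pair written in the other order. -/
theorem hcoll_pair' (c : A0) (hu : IsUnit c) :
    ∀ a ∈ ({c, 0} : Finset A0), ∀ a' ∈ ({c, 0} : Finset A0), a ≠ a' → IsUnit (a - a') := by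
  rw [Finset.pair_comm]
  exact hcoll_pair c hu

end Coll

section Cover

variable (N : ℕ) [NeZero N] {Ω : Type*} [Field Ω] [Algebra Qb Ω] [Algebra (FL N) Ω]
  [IsScalarTower Qb (FL N) Ω] [FiniteDimensional (FL N) Ω]

/-- the cover `Ω` of `F_L` is a function field over `ℚ̄` (with parameter the image of `j`). -/
theorem finiteDimensional_cover :
    FiniteDimensional (IntermediateField.adjoin Qb {algebraMap (FL N) Ω (jL N)}) Ω :=
  FFTower.finiteDimensional_adjoin_algebraMap (K := Qb) (Ω := Ω) (jL N)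

theorem transcendental_cover : Transcendental Qb (algebraMap (FL N) Ω (jL N)) :=
  FFTower.transcendental_algebraMap _ (transcendental_jL N)

section HF

variable {A0 : Type*} [CommRing A0] (K0 : Type*) [Field K0] [Algebra A0 K0] [Algebra K0 Qb]

/-- **`hF`, finite chart of the `X₀(2)`-line (`ℓ = 3`)**: `j h² = (h + 256)³`; `Ω = F_L(h)` is
unramified over the `h`-line outside `0, -64` (and `∞`). -/
theorem hF_X02 (Crit : Finset A0) (h0 : (0 : A0) ∈ Crit) (c64 : A0) (hc : c64 ∈ Crit)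
    (h64 : algebraMap A0 K0 c64 = -64)
    (h : Ω) (hgen : IntermediateField.adjoin (FL N) {h} = ⊤)
    (hrel : algebraMap (FL N) Ω (jL N) * h ^ 2 = (h + 256) ^ 3) :
    ∀ (P : Place Qb Ω) (b : Qb), (∀ c ∈ Crit, b ≠ algebraMap K0 Qb (algebraMap A0 K0 c)) →
      0 < P.ord (h - algebraMap Qb Ω b) → P.ord (h - algebraMap Qb Ω b) = 1 := by
  intro P b hb hpos
  have hb0 : b ≠ 0 := by
    have := hb 0 h0
    rwa [map_zero, map_zero] at this
  have hb1 := hb c64 hc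
  rw [h64, map_neg, map_ofNat] at hb1
  exact Fermat.Agent.S18.HLinePlaces.ord_sub_eq_one_X02 N h hgen hrel P b hpos hb0 hb1

/-- **`hF`, chart at infinity of the `X₀(2)`-line (`ℓ = 3`)**: coordinate `1/h`, critical values
`0, -1/64`. -/
theorem hF_X02_inv (Crit : Finset A0) (h0 : (0 : A0) ∈ Crit) (c : A0) (hc : c ∈ Crit)
    (hc64 : algebraMap A0 K0 c * (-64) = 1)
    (h : Ω) (hgen : IntermediateField.adjoin (FL N) {h} = ⊤)
    (hrel : algebraMap (FL N) Ω (jL N) * h ^ 2 = (h + 256) ^ 3) :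
    ∀ (P : Place Qb Ω) (b : Qb), (∀ c ∈ Crit, b ≠ algebraMap K0 Qb (algebraMap A0 K0 c)) →
      0 < P.ord (h⁻¹ - algebraMap Qb Ω b) → P.ord (h⁻¹ - algebraMap Qb Ω b) = 1 := by
  intro P b hb hpos
  have hb0 : b ≠ 0 := by
    have := hb 0 h0
    rwa [map_zero, map_zero] at this
  have hb1 := hb c hc
  have hc' : algebraMap K0 Qb (algebraMap A0 K0 c) * (-64) = 1 := by
    have := congrArg (algebraMap K0 Qb) hc64
    rwa [map_mul, map_neg, map_ofNat, map_one] at this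
  have heq := Fermat.Agent.S18.PlaceInv.ord_inv_sub_eq P h b hb0 hpos
  rw [heq] at hpos ⊢
  refine Fermat.Agent.S18.HLinePlaces.ord_sub_eq_one_X02 N h hgen hrel P b⁻¹ hpos
    (inv_ne_zero hb0) ?_
  intro hbb
  apply hb1
  have hne : (-64 : Qb) ≠ 0 := by norm_num
  have h1 : b * (-64) = 1 := by
    rw [← hbb, mul_inv_cancel₀ hb0]
  exact mul_right_cancel₀ hne (h1.trans hc'.symm)

/-- **`hF`, finite chart of the `X₀(3)`-line (`ℓ = 2`)**: `j h = (h + 27)(h + 3)³`; `Ω = F_L(h)`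
is unramified over the `h`-line outside `0, -27` (and `∞`). -/
theorem hF_X03 (Crit : Finset A0) (h0 : (0 : A0) ∈ Crit) (c27 : A0) (hc : c27 ∈ Crit)
    (h27 : algebraMap A0 K0 c27 = -27)
    (h : Ω) (hgen : IntermediateField.adjoin (FL N) {h} = ⊤)
    (hrel : algebraMap (FL N) Ω (jL N) * h = (h + 27) * (h + 3) ^ 3) :
    ∀ (P : Place Qb Ω) (b : Qb), (∀ c ∈ Crit, b ≠ algebraMap K0 Qb (algebraMap A0 K0 c)) →
      0 < P.ord (h - algebraMap Qb Ω b) → P.ord (h - algebraMap Qb Ω b) = 1 := by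
  intro P b hb hpos
  have hb0 : b ≠ 0 := by
    have := hb 0 h0
    rwa [map_zero, map_zero] at this
  have hb1 := hb c27 hc
  rw [h27, map_neg, map_ofNat] at hb1
  exact Fermat.Agent.S18.HLinePlaces.ord_sub_eq_one_X03 N h hgen hrel P b hpos hb0 hb1

/-- **`hF`, chart at infinity of the `X₀(3)`-line (`ℓ = 2`)**: coordinate `1/h`, critical values
`0, -1/27`. -/
theorem hF_X03_inv (Crit : Finset A0) (h0 : (0 : A0) ∈ Crit) (c : A0) (hc : c ∈ Crit)
    (hc27 : algebraMap A0 K0 c * (-27) = 1)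
    (h : Ω) (hgen : IntermediateField.adjoin (FL N) {h} = ⊤)
    (hrel : algebraMap (FL N) Ω (jL N) * h = (h + 27) * (h + 3) ^ 3) :
    ∀ (P : Place Qb Ω) (b : Qb), (∀ c ∈ Crit, b ≠ algebraMap K0 Qb (algebraMap A0 K0 c)) →
      0 < P.ord (h⁻¹ - algebraMap Qb Ω b) → P.ord (h⁻¹ - algebraMap Qb Ω b) = 1 := by
  intro P b hb hpos
  have hb0 : b ≠ 0 := by
    have := hb 0 h0
    rwa [map_zero, map_zero] at this
  have hb1 := hb c hc
  have hc' : algebraMap K0 Qb (algebraMap A0 K0 c) * (-27) = 1 := by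
    have := congrArg (algebraMap K0 Qb) hc27
    rwa [map_mul, map_neg, map_ofNat, map_one] at this
  have heq := Fermat.Agent.S18.PlaceInv.ord_inv_sub_eq P h b hb0 hpos
  rw [heq] at hpos ⊢
  refine Fermat.Agent.S18.HLinePlaces.ord_sub_eq_one_X03 N h hgen hrel P b⁻¹ hpos
    (inv_ne_zero hb0) ?_
  intro hbb
  apply hb1
  have hne : (-27 : Qb) ≠ 0 := by norm_num
  have h1 : b * (-27) = 1 := by
    rw [← hbb, mul_inv_cancel₀ hb0]
  exact mul_right_cancel₀ hne (h1.trans hc'.symm)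

end HF

variable {E' : Type*} [Field E'] [Algebra Ω E'] [Algebra Qb E'] [IsScalarTower Qb Ω E']
  [FiniteDimensional Ω E']

/-- `hE` for a Kummer extension `E' = Ω(θ)`, `θ ^ p = Y`, of the cover `Ω` of `F_L`, when
`p ∣ ord_P Y` at every place `P` of `F_L`. -/
theorem exists_ord_eq_one_of_kummer (p : ℕ) (hp : p ≠ 0) (Y : FL N) (hY0 : Y ≠ 0)
    (hY : ∀ P : Place Qb (FL N), (p : ℤ) ∣ P.ord Y) (θ : E')
    (hθ : θ ^ p = algebraMap Ω E' (algebraMap (FL N) Ω Y))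
    (hgen : IntermediateField.adjoin Ω {θ} = ⊤) :
    ∀ P' : Place Qb E', ∃ ϖ : Ω, P'.ord (algebraMap Ω E' ϖ) = 1 :=
  Fermat.Agent.S18.KummerOrd.kummer_exists_ord_eq_one
    (fun P' => by
      obtain ⟨u, -, -, hu, -⟩ := Fermat.Agent.S18.ValExt.exists_place_comap (F := Ω) P'
      exact ⟨u, hu⟩)
    p (Nat.cast_ne_zero.mpr hp) (algebraMap (FL N) Ω Y)
    ((map_ne_zero (algebraMap (FL N) Ω)).mpr hY0)
    (Fermat.Agent.S18.H3Inst.dvd_ord_algebraMap p Y hY) θ hθ hgen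

variable {A0 : Type*} [CommRing A0] [IsDomain A0] [DecidableEq A0] (K0 : Type*) [Field K0]
  [Algebra A0 K0] [IsFractionRing A0 K0] (M : Type*) [Field M] [Algebra A0 M] [Algebra K0 M]
  [IsScalarTower A0 K0 M] (E : Type*) [Field E] [Algebra M E] [Algebra A0 E]
  [IsScalarTower A0 M E] [Algebra K0 E] [IsScalarTower K0 M E]
  [Algebra K0 Qb] [Algebra.IsAlgebraic K0 Qb]

/-- **(H3), finite chart of the `X₀(2)`-line (`ℓ = 3`)**: `j h² = (h + 256)³`, critical values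
`{0, -64}`. -/
theorem h3Hyp_X02 (π : A0) (harch : ∀ a : A0, a ≠ 0 → ∃ n : ℕ, a ∣ π ^ n) (t : M)
    (ht : Transcendental A0 t) (c64 : A0) (h64 : algebraMap A0 K0 c64 = -64) (hu : IsUnit c64)
    (φ : E →+* E') (hφ : ∀ c : K0, φ (algebraMap K0 E c) = algebraMap Qb E' (algebraMap K0 Qb c))
    (h : Ω) (hgen : IntermediateField.adjoin (FL N) {h} = ⊤)
    (hrel : algebraMap (FL N) Ω (jL N) * h ^ 2 = (h + 256) ^ 3)
    (hs : φ (algebraMap M E t) = algebraMap Ω E' h)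
    (hE : ∀ P' : Place Qb E', ∃ ϖ : Ω, P'.ord (algebraMap Ω E' ϖ) = 1) :
    H3Hyp A0 M E t π {0, c64} := by
  have := finiteDimensional_cover N (Ω := Ω)
  exact H3Line.h3Hyp_of_places K0 M E π harch t ht {0, c64} (hcoll_pair c64 hu) φ hφ
    (algebraMap (FL N) Ω (jL N)) (transcendental_cover N) h hs
    (hF_X02 N K0 {0, c64} (Finset.mem_insert_self _ _)
      c64 (Finset.mem_insert_of_mem (Finset.mem_singleton_self _)) h64 h hgen hrel) hE

/-- **(H3), chart at infinity of the `X₀(2)`-line (`ℓ = 3`)**: coordinate `1/h`, critical values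
`{0, -1/64}`. -/
theorem h3Hyp_X02_inv (π : A0) (harch : ∀ a : A0, a ≠ 0 → ∃ n : ℕ, a ∣ π ^ n) (t : M)
    (ht : Transcendental A0 t) (c : A0) (hc : algebraMap A0 K0 c * (-64) = 1) (hu : IsUnit c)
    (φ : E →+* E') (hφ : ∀ c : K0, φ (algebraMap K0 E c) = algebraMap Qb E' (algebraMap K0 Qb c))
    (h : Ω) (hgen : IntermediateField.adjoin (FL N) {h} = ⊤)
    (hrel : algebraMap (FL N) Ω (jL N) * h ^ 2 = (h + 256) ^ 3)
    (hs : φ (algebraMap M E t) = algebraMap Ω E' h⁻¹)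
    (hE : ∀ P' : Place Qb E', ∃ ϖ : Ω, P'.ord (algebraMap Ω E' ϖ) = 1) :
    H3Hyp A0 M E t π {0, c} := by
  have := finiteDimensional_cover N (Ω := Ω)
  exact H3Line.h3Hyp_of_places K0 M E π harch t ht {0, c} (hcoll_pair c hu) φ hφ
    (algebraMap (FL N) Ω (jL N)) (transcendental_cover N) h⁻¹ hs
    (hF_X02_inv N K0 {0, c} (Finset.mem_insert_self _ _)
      c (Finset.mem_insert_of_mem (Finset.mem_singleton_self _)) hc h hgen hrel) hE

/-- **(H3), finite chart of the `X₀(3)`-line (`ℓ = 2`)**: `j h = (h + 27)(h + 3)³`, critical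
values `{0, -27}`. -/
theorem h3Hyp_X03 (π : A0) (harch : ∀ a : A0, a ≠ 0 → ∃ n : ℕ, a ∣ π ^ n) (t : M)
    (ht : Transcendental A0 t) (c27 : A0) (h27 : algebraMap A0 K0 c27 = -27) (hu : IsUnit c27)
    (φ : E →+* E') (hφ : ∀ c : K0, φ (algebraMap K0 E c) = algebraMap Qb E' (algebraMap K0 Qb c))
    (h : Ω) (hgen : IntermediateField.adjoin (FL N) {h} = ⊤)
    (hrel : algebraMap (FL N) Ω (jL N) * h = (h + 27) * (h + 3) ^ 3)
    (hs : φ (algebraMap M E t) = algebraMap Ω E' h)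
    (hE : ∀ P' : Place Qb E', ∃ ϖ : Ω, P'.ord (algebraMap Ω E' ϖ) = 1) :
    H3Hyp A0 M E t π {0, c27} := by
  have := finiteDimensional_cover N (Ω := Ω)
  exact H3Line.h3Hyp_of_places K0 M E π harch t ht {0, c27} (hcoll_pair c27 hu) φ hφ
    (algebraMap (FL N) Ω (jL N)) (transcendental_cover N) h hs
    (hF_X03 N K0 {0, c27} (Finset.mem_insert_self _ _)
      c27 (Finset.mem_insert_of_mem (Finset.mem_singleton_self _)) h27 h hgen hrel) hE

/-- **(H3), chart at infinity of the `X₀(3)`-line (`ℓ = 2`)**: coordinate `1/h`, critical values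
`{0, -1/27}`. -/
theorem h3Hyp_X03_inv (π : A0) (harch : ∀ a : A0, a ≠ 0 → ∃ n : ℕ, a ∣ π ^ n) (t : M)
    (ht : Transcendental A0 t) (c : A0) (hc : algebraMap A0 K0 c * (-27) = 1) (hu : IsUnit c)
    (φ : E →+* E') (hφ : ∀ c : K0, φ (algebraMap K0 E c) = algebraMap Qb E' (algebraMap K0 Qb c))
    (h : Ω) (hgen : IntermediateField.adjoin (FL N) {h} = ⊤)
    (hrel : algebraMap (FL N) Ω (jL N) * h = (h + 27) * (h + 3) ^ 3)
    (hs : φ (algebraMap M E t) = algebraMap Ω E' h⁻¹)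
    (hE : ∀ P' : Place Qb E', ∃ ϖ : Ω, P'.ord (algebraMap Ω E' ϖ) = 1) :
    H3Hyp A0 M E t π {0, c} := by
  have := finiteDimensional_cover N (Ω := Ω)
  exact H3Line.h3Hyp_of_places K0 M E π harch t ht {0, c} (hcoll_pair c hu) φ hφ
    (algebraMap (FL N) Ω (jL N)) (transcendental_cover N) h⁻¹ hs
    (hF_X03_inv N K0 {0, c} (Finset.mem_insert_self _ _)
      c (Finset.mem_insert_of_mem (Finset.mem_singleton_self _)) hc h hgen hrel) hE

/-! ### Kummer-extension variants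

`E' = Ω(θ)` with `θ ^ p = Y`, `Y ∈ F_L` with divisor divisible by `p`: the hypothesis `hE` is then
automatic. -/

theorem h3Hyp_X02_kummer (π : A0) (harch : ∀ a : A0, a ≠ 0 → ∃ n : ℕ, a ∣ π ^ n) (t : M)
    (ht : Transcendental A0 t) (c64 : A0) (h64 : algebraMap A0 K0 c64 = -64) (hu : IsUnit c64)
    (φ : E →+* E') (hφ : ∀ c : K0, φ (algebraMap K0 E c) = algebraMap Qb E' (algebraMap K0 Qb c))
    (h : Ω) (hgen : IntermediateField.adjoin (FL N) {h} = ⊤)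
    (hrel : algebraMap (FL N) Ω (jL N) * h ^ 2 = (h + 256) ^ 3)
    (hs : φ (algebraMap M E t) = algebraMap Ω E' h)
    (p : ℕ) (hp : p ≠ 0) (Y : FL N) (hY0 : Y ≠ 0)
    (hY : ∀ P : Place Qb (FL N), (p : ℤ) ∣ P.ord Y) (θ : E')
    (hθ : θ ^ p = algebraMap Ω E' (algebraMap (FL N) Ω Y))
    (hθgen : IntermediateField.adjoin Ω {θ} = ⊤) :
    H3Hyp A0 M E t π {0, c64} :=
  h3Hyp_X02 N K0 M E π harch t ht c64 h64 hu φ hφ h hgen hrel hs
    (exists_ord_eq_one_of_kummer N p hp Y hY0 hY θ hθ hθgen)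

theorem h3Hyp_X02_inv_kummer (π : A0) (harch : ∀ a : A0, a ≠ 0 → ∃ n : ℕ, a ∣ π ^ n) (t : M)
    (ht : Transcendental A0 t) (c : A0) (hc : algebraMap A0 K0 c * (-64) = 1) (hu : IsUnit c)
    (φ : E →+* E') (hφ : ∀ c : K0, φ (algebraMap K0 E c) = algebraMap Qb E' (algebraMap K0 Qb c))
    (h : Ω) (hgen : IntermediateField.adjoin (FL N) {h} = ⊤)
    (hrel : algebraMap (FL N) Ω (jL N) * h ^ 2 = (h + 256) ^ 3)
    (hs : φ (algebraMap M E t) = algebraMap Ω E' h⁻¹)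
    (p : ℕ) (hp : p ≠ 0) (Y : FL N) (hY0 : Y ≠ 0)
    (hY : ∀ P : Place Qb (FL N), (p : ℤ) ∣ P.ord Y) (θ : E')
    (hθ : θ ^ p = algebraMap Ω E' (algebraMap (FL N) Ω Y))
    (hθgen : IntermediateField.adjoin Ω {θ} = ⊤) :
    H3Hyp A0 M E t π {0, c} :=
  h3Hyp_X02_inv N K0 M E π harch t ht c hc hu φ hφ h hgen hrel hs
    (exists_ord_eq_one_of_kummer N p hp Y hY0 hY θ hθ hθgen)

theorem h3Hyp_X03_kummer (π : A0) (harch : ∀ a : A0, a ≠ 0 → ∃ n : ℕ, a ∣ π ^ n) (t : M)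
    (ht : Transcendental A0 t) (c27 : A0) (h27 : algebraMap A0 K0 c27 = -27) (hu : IsUnit c27)
    (φ : E →+* E') (hφ : ∀ c : K0, φ (algebraMap K0 E c) = algebraMap Qb E' (algebraMap K0 Qb c))
    (h : Ω) (hgen : IntermediateField.adjoin (FL N) {h} = ⊤)
    (hrel : algebraMap (FL N) Ω (jL N) * h = (h + 27) * (h + 3) ^ 3)
    (hs : φ (algebraMap M E t) = algebraMap Ω E' h)
    (p : ℕ) (hp : p ≠ 0) (Y : FL N) (hY0 : Y ≠ 0)
    (hY : ∀ P : Place Qb (FL N), (p : ℤ) ∣ P.ord Y) (θ : E')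
    (hθ : θ ^ p = algebraMap Ω E' (algebraMap (FL N) Ω Y))
    (hθgen : IntermediateField.adjoin Ω {θ} = ⊤) :
    H3Hyp A0 M E t π {0, c27} :=
  h3Hyp_X03 N K0 M E π harch t ht c27 h27 hu φ hφ h hgen hrel hs
    (exists_ord_eq_one_of_kummer N p hp Y hY0 hY θ hθ hθgen)

theorem h3Hyp_X03_inv_kummer (π : A0) (harch : ∀ a : A0, a ≠ 0 → ∃ n : ℕ, a ∣ π ^ n) (t : M)
    (ht : Transcendental A0 t) (c : A0) (hc : algebraMap A0 K0 c * (-27) = 1) (hu : IsUnit c)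
    (φ : E →+* E') (hφ : ∀ c : K0, φ (algebraMap K0 E c) = algebraMap Qb E' (algebraMap K0 Qb c))
    (h : Ω) (hgen : IntermediateField.adjoin (FL N) {h} = ⊤)
    (hrel : algebraMap (FL N) Ω (jL N) * h = (h + 27) * (h + 3) ^ 3)
    (hs : φ (algebraMap M E t) = algebraMap Ω E' h⁻¹)
    (p : ℕ) (hp : p ≠ 0) (Y : FL N) (hY0 : Y ≠ 0)
    (hY : ∀ P : Place Qb (FL N), (p : ℤ) ∣ P.ord Y) (θ : E')
    (hθ : θ ^ p = algebraMap Ω E' (algebraMap (FL N) Ω Y))
    (hθgen : IntermediateField.adjoin Ω {θ} = ⊤) :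
    H3Hyp A0 M E t π {0, c} :=
  h3Hyp_X03_inv N K0 M E π harch t ht c hc hu φ hφ h hgen hrel hs
    (exists_ord_eq_one_of_kummer N p hp Y hY0 hY θ hθ hθgen)

end Cover

section AdjoinRootForms

open Fermat.Agent.S18.KummerGeo

variable (N : ℕ) [NeZero N]
  {A0 : Type*} [CommRing A0] [IsDomain A0] [DecidableEq A0] (K0 : Type*) [Field K0]
  [Algebra A0 K0] [IsFractionRing A0 K0] (M : Type*) [Field M] [Algebra A0 M] [Algebra K0 M]
  [IsScalarTower A0 K0 M]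
  (F0 : Type*) [Field F0] [Algebra M F0] [Algebra A0 F0] [IsScalarTower A0 M F0]
  [Algebra K0 F0] [IsScalarTower K0 M F0]
  [Algebra K0 Qb] [Algebra.IsAlgebraic K0 Qb]
  {Ω : Type*} [Field Ω] [Algebra Qb Ω] [Algebra (FL N) Ω] [IsScalarTower Qb (FL N) Ω]
  [FiniteDimensional (FL N) Ω]

/-- **(H3), finite chart of the `X₀(2)`-line, for `E = F0(Y^(1/p))`** (`ℓ = 3`): `F0` the
`K0`-form of the cover field `Ω = F_L(h)`, `t ↦ h`, critical values `{0, -64}`. -/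
theorem h3Hyp_X02_adjoinRoot (ι : F0 →+* Ω)
    (hι : ∀ c : K0, ι (algebraMap K0 F0 c) = algebraMap Qb Ω (algebraMap K0 Qb c))
    (π : A0) (harch : ∀ a : A0, a ≠ 0 → ∃ n : ℕ, a ∣ π ^ n) (t : M)
    (ht : Transcendental A0 t) (h : Ω) (hth : ι (algebraMap M F0 t) = h)
    (hgen : IntermediateField.adjoin (FL N) {h} = ⊤)
    (hrel : algebraMap (FL N) Ω (jL N) * h ^ 2 = (h + 256) ^ 3)
    (c64 : A0) (h64 : algebraMap A0 K0 c64 = -64) (hu : IsUnit c64)
    {p : ℕ} (hp : p.Prime) {Y : F0} (hY0 : Y ≠ 0) [Fact (Irreducible (kpoly p Y))]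
    (YL : FL N) (hYL : ι Y = algebraMap (FL N) Ω YL)
    (hYp : ∀ z : Ω, z ^ p ≠ algebraMap (FL N) Ω YL)
    (hord : ∀ P : Place Qb (FL N), (p : ℤ) ∣ P.ord YL) :
    H3Hyp A0 M (AdjoinRoot (kpoly p Y)) t π {0, c64} := by
  refine H3Inst.h3Hyp_cover_adjoinRoot N K0 M F0 ι hι π harch t ht {0, c64} (hcoll_pair c64 hu)
    ?_ hp hY0 YL hYL hYp hord
  rw [hth]
  exact hF_X02 N K0 {0, c64} (Finset.mem_insert_self _ _)
    c64 (Finset.mem_insert_of_mem (Finset.mem_singleton_self _)) h64 h hgen hrel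

/-- **(H3), chart at infinity of the `X₀(2)`-line, for `E = F0(Y^(1/p))`** (`ℓ = 3`): `t ↦ 1/h`,
critical values `{0, -1/64}`. -/
theorem h3Hyp_X02_inv_adjoinRoot (ι : F0 →+* Ω)
    (hι : ∀ c : K0, ι (algebraMap K0 F0 c) = algebraMap Qb Ω (algebraMap K0 Qb c))
    (π : A0) (harch : ∀ a : A0, a ≠ 0 → ∃ n : ℕ, a ∣ π ^ n) (t : M)
    (ht : Transcendental A0 t) (h : Ω) (hth : ι (algebraMap M F0 t) = h⁻¹)
    (hgen : IntermediateField.adjoin (FL N) {h} = ⊤)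
    (hrel : algebraMap (FL N) Ω (jL N) * h ^ 2 = (h + 256) ^ 3)
    (c : A0) (hc : algebraMap A0 K0 c * (-64) = 1) (hu : IsUnit c)
    {p : ℕ} (hp : p.Prime) {Y : F0} (hY0 : Y ≠ 0) [Fact (Irreducible (kpoly p Y))]
    (YL : FL N) (hYL : ι Y = algebraMap (FL N) Ω YL)
    (hYp : ∀ z : Ω, z ^ p ≠ algebraMap (FL N) Ω YL)
    (hord : ∀ P : Place Qb (FL N), (p : ℤ) ∣ P.ord YL) :
    H3Hyp A0 M (AdjoinRoot (kpoly p Y)) t π {0, c} := by
  refine H3Inst.h3Hyp_cover_adjoinRoot N K0 M F0 ι hι π harch t ht {0, c} (hcoll_pair c hu)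
    ?_ hp hY0 YL hYL hYp hord
  rw [hth]
  exact hF_X02_inv N K0 {0, c} (Finset.mem_insert_self _ _)
    c (Finset.mem_insert_of_mem (Finset.mem_singleton_self _)) hc h hgen hrel

/-- **(H3), finite chart of the `X₀(3)`-line, for `E = F0(Y^(1/p))`** (`ℓ = 2`): `F0` the
`K0`-form of the cover field `Ω = F_L(h)`, `t ↦ h`, critical values `{0, -27}`. -/
theorem h3Hyp_X03_adjoinRoot (ι : F0 →+* Ω)
    (hι : ∀ c : K0, ι (algebraMap K0 F0 c) = algebraMap Qb Ω (algebraMap K0 Qb c))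
    (π : A0) (harch : ∀ a : A0, a ≠ 0 → ∃ n : ℕ, a ∣ π ^ n) (t : M)
    (ht : Transcendental A0 t) (h : Ω) (hth : ι (algebraMap M F0 t) = h)
    (hgen : IntermediateField.adjoin (FL N) {h} = ⊤)
    (hrel : algebraMap (FL N) Ω (jL N) * h = (h + 27) * (h + 3) ^ 3)
    (c27 : A0) (h27 : algebraMap A0 K0 c27 = -27) (hu : IsUnit c27)
    {p : ℕ} (hp : p.Prime) {Y : F0} (hY0 : Y ≠ 0) [Fact (Irreducible (kpoly p Y))]
    (YL : FL N) (hYL : ι Y = algebraMap (FL N) Ω YL)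
    (hYp : ∀ z : Ω, z ^ p ≠ algebraMap (FL N) Ω YL)
    (hord : ∀ P : Place Qb (FL N), (p : ℤ) ∣ P.ord YL) :
    H3Hyp A0 M (AdjoinRoot (kpoly p Y)) t π {0, c27} := by
  refine H3Inst.h3Hyp_cover_adjoinRoot N K0 M F0 ι hι π harch t ht {0, c27} (hcoll_pair c27 hu)
    ?_ hp hY0 YL hYL hYp hord
  rw [hth]
  exact hF_X03 N K0 {0, c27} (Finset.mem_insert_self _ _)
    c27 (Finset.mem_insert_of_mem (Finset.mem_singleton_self _)) h27 h hgen hrel

/-- **(H3), chart at infinity of the `X₀(3)`-line, for `E = F0(Y^(1/p))`** (`ℓ = 2`): `t ↦ 1/h`,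
critical values `{0, -1/27}`. -/
theorem h3Hyp_X03_inv_adjoinRoot (ι : F0 →+* Ω)
    (hι : ∀ c : K0, ι (algebraMap K0 F0 c) = algebraMap Qb Ω (algebraMap K0 Qb c))
    (π : A0) (harch : ∀ a : A0, a ≠ 0 → ∃ n : ℕ, a ∣ π ^ n) (t : M)
    (ht : Transcendental A0 t) (h : Ω) (hth : ι (algebraMap M F0 t) = h⁻¹)
    (hgen : IntermediateField.adjoin (FL N) {h} = ⊤)
    (hrel : algebraMap (FL N) Ω (jL N) * h = (h + 27) * (h + 3) ^ 3)
    (c : A0) (hc : algebraMap A0 K0 c * (-27) = 1) (hu : IsUnit c)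
    {p : ℕ} (hp : p.Prime) {Y : F0} (hY0 : Y ≠ 0) [Fact (Irreducible (kpoly p Y))]
    (YL : FL N) (hYL : ι Y = algebraMap (FL N) Ω YL)
    (hYp : ∀ z : Ω, z ^ p ≠ algebraMap (FL N) Ω YL)
    (hord : ∀ P : Place Qb (FL N), (p : ℤ) ∣ P.ord YL) :
    H3Hyp A0 M (AdjoinRoot (kpoly p Y)) t π {0, c} := by
  refine H3Inst.h3Hyp_cover_adjoinRoot N K0 M F0 ι hι π harch t ht {0, c} (hcoll_pair c hu)
    ?_ hp hY0 YL hYL hYp hord
  rw [hth]
  exact hF_X03_inv N K0 {0, c} (Finset.mem_insert_self _ _)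
    c (Finset.mem_insert_of_mem (Finset.mem_singleton_self _)) hc h hgen hrel

end AdjoinRootForms

end Fermat.Agent.S18.H3HLine
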