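import Mathlib
import Fermat.Agent.S18.H3HLine
import Fermat.Agent.S18.CoverField
import Fermat.Agent.S18.CoverData
import Fermat.Agent.S18.CoverBezout
import Fermat.Agent.S18.ConstCover
import Fermat.Agent.S18.IntConst
import Fermat.Agent.S18.Setup

/-!
# S18, route K (bridge, `ℓ = 2, 3`): `H3Hyp` for the cover carriers

The inputs `h3f`, `h3i` of the cover form of the Kummer core, for the actual carriers of the
cover: `F# = F00[X]/(m0)` (`m0` an irreducible factor of the cover polynomial over the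
`K0`-form `F00` of `F_L`), `Ω = F_L[X]/(ι0 m0)`, the base line `Mh = K0(h)` with `h ↦` the root
of `m0`, and `E = F#[X]/(X ^ p - Y)`.

* `finiteDimensional_adjoinRoot`, `hrel3_of_dvd`, `hrel2_of_dvd` (and the `cover3`/`cover2`
  forms): the place-side data of `Ω`;
* `h3f_cover3`, `h3i_cover3` (`ℓ = 3`), `h3f_cover2`, `h3i_cover2` (`ℓ = 2`).
-/

set_option autoImplicit false
set_option linter.unusedSectionVars false

namespace Fermat.Agent.S18.H3Cover

open Fermat.Agent.S18.CoreDefs AlgebraicCurve Polynomial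

open Fermat.Agent.S18.S24Export Fermat.Agent.S18.KummerGeo Fermat.Agent.S18.CoverField

local notation "Qb" => AlgebraicClosure ℚ

section Omega

variable (N : ℕ) [NeZero N] (g1 : (FL N)[X]) [Fact (Irreducible g1)]

/-- the cover field `F_L[X]/(g1)` is finite over `F_L`. -/
theorem finiteDimensional_adjoinRoot : FiniteDimensional (FL N) (AdjoinRoot g1) :=
  (AdjoinRoot.powerBasis (Fact.out : Irreducible g1).ne_zero).finite

/-- the `X₀(2)`-relation for the root of a factor of `(X + 256)³ - j X²`. -/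
theorem hrel3_of_dvd (hdvd : g1 ∣ CoverData.g3 (jL N)) :
    algebraMap (FL N) (AdjoinRoot g1) (jL N) * AdjoinRoot.root g1 ^ 2 =
      (AdjoinRoot.root g1 + 256) ^ 3 :=
  (CoverData.aeval_g3_eq_zero_iff (jL N) (AdjoinRoot.root g1)).mp
    (aeval_root_eq_zero_of_dvd g1 _ hdvd)

/-- the `X₀(3)`-relation for the root of a factor of `(X + 27)(X + 3)³ - j X`. -/
theorem hrel2_of_dvd (hdvd : g1 ∣ CoverData.g2 (jL N)) :
    algebraMap (FL N) (AdjoinRoot g1) (jL N) * AdjoinRoot.root g1 =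
      (AdjoinRoot.root g1 + 27) * (AdjoinRoot.root g1 + 3) ^ 3 :=
  (CoverData.aeval_g2_eq_zero_iff (jL N) (AdjoinRoot.root g1)).mp
    (aeval_root_eq_zero_of_dvd g1 _ hdvd)

/-- the same for the polynomial `CoverBezout.cover3`. -/
theorem hrel3_of_dvd_cover3 (hdvd : g1 ∣ CoverBezout.cover3 (jL N)) :
    algebraMap (FL N) (AdjoinRoot g1) (jL N) * AdjoinRoot.root g1 ^ 2 =
      (AdjoinRoot.root g1 + 256) ^ 3 := by
  have h0 := aeval_root_eq_zero_of_dvd g1 _ hdvd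
  rw [CoverBezout.aeval_cover3, sub_eq_zero] at h0
  exact h0.symm

/-- the same for the polynomial `CoverBezout.cover2`. -/
theorem hrel2_of_dvd_cover2 (hdvd : g1 ∣ CoverBezout.cover2 (jL N)) :
    algebraMap (FL N) (AdjoinRoot g1) (jL N) * AdjoinRoot.root g1 =
      (AdjoinRoot.root g1 + 27) * (AdjoinRoot.root g1 + 3) ^ 3 := by
  have h0 := aeval_root_eq_zero_of_dvd g1 _ hdvd
  rw [CoverBezout.aeval_cover2, sub_eq_zero] at h0
  exact h0.symm

end Omega

section Cover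

variable (N : ℕ) [NeZero N]
  {A0 : Type*} [CommRing A0] [IsDomain A0] [DecidableEq A0] (K0 : Type*) [Field K0]
  [Algebra A0 K0] [IsFractionRing A0 K0] [Algebra K0 Qb] [Algebra.IsAlgebraic K0 Qb]
  {F00 : Type*} [Field F00] [Algebra K0 F00]
  (ι0 : F00 →+* FL N)
  (m0 : F00[X]) [Fact (Irreducible m0)] [Fact (Irreducible (m0.map ι0))]
  (Mh : Type*) [Field Mh] [Algebra A0 Mh] [Algebra K0 Mh] [IsScalarTower A0 K0 Mh]
  [Algebra Mh (AdjoinRoot m0)] [Algebra A0 (AdjoinRoot m0)] [IsScalarTower A0 Mh (AdjoinRoot m0)]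
  [IsScalarTower K0 Mh (AdjoinRoot m0)]

/-- compatibility of the cover homomorphism with the constants. -/
theorem coverHom_algebraMap
    (hι0 : ∀ c : K0, ι0 (algebraMap K0 F00 c) = algebraMap Qb (FL N) (algebraMap K0 Qb c))
    (c : K0) :
    coverHom ι0 m0 (algebraMap K0 (AdjoinRoot m0) c) =
      algebraMap Qb (AdjoinRoot (m0.map ι0)) (algebraMap K0 Qb c) := by
  rw [AdjoinRoot.algebraMap_eq', RingHom.comp_apply, coverHom_of, hι0, AdjoinRoot.algebraMap_eq',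
    RingHom.comp_apply]

/-- **`h3f` for the `X₀(2)`-cover (`ℓ = 3`)**: the finite chart of the `h`-line, critical
values `{0, -64}`. -/
theorem h3f_cover3
    (hι0 : ∀ c : K0, ι0 (algebraMap K0 F00 c) = algebraMap Qb (FL N) (algebraMap K0 Qb c))
    (π : A0) (harch : ∀ a : A0, a ≠ 0 → ∃ n : ℕ, a ∣ π ^ n)
    (h : Mh) (ht : Transcendental A0 h)
    (hh : algebraMap Mh (AdjoinRoot m0) h = AdjoinRoot.root m0)
    (hrel : algebraMap (FL N) (AdjoinRoot (m0.map ι0)) (jL N) * AdjoinRoot.root (m0.map ι0) ^ 2 =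
      (AdjoinRoot.root (m0.map ι0) + 256) ^ 3)
    (c64 : A0) (h64 : algebraMap A0 K0 c64 = -64) (hu : IsUnit c64)
    {p : ℕ} (hp : p.Prime) {Y : AdjoinRoot m0} (hY0 : Y ≠ 0) [Fact (Irreducible (kpoly p Y))]
    (hYp : ∀ z : AdjoinRoot (m0.map ι0), z ^ p ≠ coverHom ι0 m0 Y)
    (YL : FL N) (hYL : coverHom ι0 m0 Y = algebraMap (FL N) (AdjoinRoot (m0.map ι0)) YL)
    (hord : ∀ P : Place Qb (FL N), (p : ℤ) ∣ P.ord YL) :
    H3Hyp A0 Mh (AdjoinRoot (kpoly p Y)) h π {0, c64} := by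
  have hfd := finiteDimensional_adjoinRoot N (m0.map ι0)
  exact H3HLine.h3Hyp_X02_adjoinRoot N K0 Mh (AdjoinRoot m0) (coverHom ι0 m0)
    (coverHom_algebraMap N K0 ι0 m0 hι0) π harch h ht (AdjoinRoot.root (m0.map ι0))
    (by rw [hh, coverHom_root]) (adjoin_root_eq_top _) hrel c64 h64 hu hp hY0 YL hYL
    (fun z => by rw [← hYL]; exact hYp z) hord

/-- **`h3i` for the `X₀(2)`-cover (`ℓ = 3`)**: the chart at infinity of the `h`-line, critical
values `{0, -1/64}`. -/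
theorem h3i_cover3
    (hι0 : ∀ c : K0, ι0 (algebraMap K0 F00 c) = algebraMap Qb (FL N) (algebraMap K0 Qb c))
    (π : A0) (harch : ∀ a : A0, a ≠ 0 → ∃ n : ℕ, a ∣ π ^ n)
    (h : Mh) (ht : Transcendental A0 h)
    (hh : algebraMap Mh (AdjoinRoot m0) h = AdjoinRoot.root m0)
    (hrel : algebraMap (FL N) (AdjoinRoot (m0.map ι0)) (jL N) * AdjoinRoot.root (m0.map ι0) ^ 2 =
      (AdjoinRoot.root (m0.map ι0) + 256) ^ 3)
    (c : A0) (hc : algebraMap A0 K0 c * (-64) = 1) (hu : IsUnit c)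
    {p : ℕ} (hp : p.Prime) {Y : AdjoinRoot m0} (hY0 : Y ≠ 0) [Fact (Irreducible (kpoly p Y))]
    (hYp : ∀ z : AdjoinRoot (m0.map ι0), z ^ p ≠ coverHom ι0 m0 Y)
    (YL : FL N) (hYL : coverHom ι0 m0 Y = algebraMap (FL N) (AdjoinRoot (m0.map ι0)) YL)
    (hord : ∀ P : Place Qb (FL N), (p : ℤ) ∣ P.ord YL) :
    H3Hyp A0 Mh (AdjoinRoot (kpoly p Y)) h⁻¹ π {0, c} := by
  have hfd := finiteDimensional_adjoinRoot N (m0.map ι0)
  exact H3HLine.h3Hyp_X02_inv_adjoinRoot N K0 Mh (AdjoinRoot m0) (coverHom ι0 m0)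
    (coverHom_algebraMap N K0 ι0 m0 hι0) π harch h⁻¹ (IntConst.transcendental_inv h ht)
    (AdjoinRoot.root (m0.map ι0))
    (by rw [map_inv₀, hh, map_inv₀, coverHom_root]) (adjoin_root_eq_top _) hrel c hc hu hp hY0
    YL hYL (fun z => by rw [← hYL]; exact hYp z) hord

/-- **`h3f` for the `X₀(3)`-cover (`ℓ = 2`)**: the finite chart of the `h`-line, critical
values `{0, -27}`. -/
theorem h3f_cover2
    (hι0 : ∀ c : K0, ι0 (algebraMap K0 F00 c) = algebraMap Qb (FL N) (algebraMap K0 Qb c))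
    (π : A0) (harch : ∀ a : A0, a ≠ 0 → ∃ n : ℕ, a ∣ π ^ n)
    (h : Mh) (ht : Transcendental A0 h)
    (hh : algebraMap Mh (AdjoinRoot m0) h = AdjoinRoot.root m0)
    (hrel : algebraMap (FL N) (AdjoinRoot (m0.map ι0)) (jL N) * AdjoinRoot.root (m0.map ι0) =
      (AdjoinRoot.root (m0.map ι0) + 27) * (AdjoinRoot.root (m0.map ι0) + 3) ^ 3)
    (c27 : A0) (h27 : algebraMap A0 K0 c27 = -27) (hu : IsUnit c27)
    {p : ℕ} (hp : p.Prime) {Y : AdjoinRoot m0} (hY0 : Y ≠ 0) [Fact (Irreducible (kpoly p Y))]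
    (hYp : ∀ z : AdjoinRoot (m0.map ι0), z ^ p ≠ coverHom ι0 m0 Y)
    (YL : FL N) (hYL : coverHom ι0 m0 Y = algebraMap (FL N) (AdjoinRoot (m0.map ι0)) YL)
    (hord : ∀ P : Place Qb (FL N), (p : ℤ) ∣ P.ord YL) :
    H3Hyp A0 Mh (AdjoinRoot (kpoly p Y)) h π {0, c27} := by
  have hfd := finiteDimensional_adjoinRoot N (m0.map ι0)
  exact H3HLine.h3Hyp_X03_adjoinRoot N K0 Mh (AdjoinRoot m0) (coverHom ι0 m0)
    (coverHom_algebraMap N K0 ι0 m0 hι0) π harch h ht (AdjoinRoot.root (m0.map ι0))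
    (by rw [hh, coverHom_root]) (adjoin_root_eq_top _) hrel c27 h27 hu hp hY0 YL hYL
    (fun z => by rw [← hYL]; exact hYp z) hord

/-- **`h3i` for the `X₀(3)`-cover (`ℓ = 2`)**: the chart at infinity of the `h`-line, critical
values `{0, -1/27}`. -/
theorem h3i_cover2
    (hι0 : ∀ c : K0, ι0 (algebraMap K0 F00 c) = algebraMap Qb (FL N) (algebraMap K0 Qb c))
    (π : A0) (harch : ∀ a : A0, a ≠ 0 → ∃ n : ℕ, a ∣ π ^ n)
    (h : Mh) (ht : Transcendental A0 h)
    (hh : algebraMap Mh (AdjoinRoot m0) h = AdjoinRoot.root m0)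
    (hrel : algebraMap (FL N) (AdjoinRoot (m0.map ι0)) (jL N) * AdjoinRoot.root (m0.map ι0) =
      (AdjoinRoot.root (m0.map ι0) + 27) * (AdjoinRoot.root (m0.map ι0) + 3) ^ 3)
    (c : A0) (hc : algebraMap A0 K0 c * (-27) = 1) (hu : IsUnit c)
    {p : ℕ} (hp : p.Prime) {Y : AdjoinRoot m0} (hY0 : Y ≠ 0) [Fact (Irreducible (kpoly p Y))]
    (hYp : ∀ z : AdjoinRoot (m0.map ι0), z ^ p ≠ coverHom ι0 m0 Y)
    (YL : FL N) (hYL : coverHom ι0 m0 Y = algebraMap (FL N) (AdjoinRoot (m0.map ι0)) YL)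
    (hord : ∀ P : Place Qb (FL N), (p : ℤ) ∣ P.ord YL) :
    H3Hyp A0 Mh (AdjoinRoot (kpoly p Y)) h⁻¹ π {0, c} := by
  have hfd := finiteDimensional_adjoinRoot N (m0.map ι0)
  exact H3HLine.h3Hyp_X03_inv_adjoinRoot N K0 Mh (AdjoinRoot m0) (coverHom ι0 m0)
    (coverHom_algebraMap N K0 ι0 m0 hι0) π harch h⁻¹ (IntConst.transcendental_inv h ht)
    (AdjoinRoot.root (m0.map ι0))
    (by rw [map_inv₀, hh, map_inv₀, coverHom_root]) (adjoin_root_eq_top _) hrel c hc hu hp hY0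
    YL hYL (fun z => by rw [← hYL]; exact hYp z) hord

end Cover

/-! ### The sealed carriers of `Setup`

`F00 = Setup.FK K N`, `ι0 = Setup.ιL K N`, `Mh = Setup.Line K (root m0)`, `h = Line.gen`, and
`A0 = ↥V` for a valuation subring `V` of `K`.  The tower `V → K(h) → F#` is not found by
instance search; it is `isScalarTower_val_line` below (use it as a local instance). -/

section Sealed

open Fermat.Agent.S18.Setup

variable (N : ℕ) [NeZero N] (K : Type*) [Field K] [Algebra K Qb]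
  (V : ValuationSubring K) (m0 : (FK K N)[X]) [Fact (Irreducible m0)]

/-- the tower `V → K(h) → F# = F_K[X]/(m0)` on the sealed carriers. -/
theorem isScalarTower_val_line :
    IsScalarTower ↥V (Line K (AdjoinRoot.root m0)) (AdjoinRoot m0) := by
  refine IsScalarTower.of_algebraMap_eq fun a => ?_
  rw [IsScalarTower.algebraMap_apply ↥V K (AdjoinRoot m0),
    IsScalarTower.algebraMap_apply ↥V K (Line K (AdjoinRoot.root m0)),
    ← IsScalarTower.algebraMap_apply K (Line K (AdjoinRoot.root m0)) (AdjoinRoot m0)]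

variable [Algebra.IsAlgebraic K Qb] [DecidableEq ↥V] [Fact (Irreducible (m0.map (ιL K N)))]

/-- `h3f_cover3` on the sealed carriers. -/
theorem h3f_cover3_sealed (π : ↥V) (harch : ∀ a : ↥V, a ≠ 0 → ∃ n : ℕ, a ∣ π ^ n)
    (ht : Transcendental K (AdjoinRoot.root m0))
    (hrel : algebraMap (FL N) (AdjoinRoot (m0.map (ιL K N))) (jL N) *
      AdjoinRoot.root (m0.map (ιL K N)) ^ 2 = (AdjoinRoot.root (m0.map (ιL K N)) + 256) ^ 3)
    (c64 : ↥V) (h64 : (c64 : K) = -64) (hu : IsUnit c64)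
    {p : ℕ} (hp : p.Prime) {Y : AdjoinRoot m0} (hY0 : Y ≠ 0) [Fact (Irreducible (kpoly p Y))]
    (hYp : ∀ z : AdjoinRoot (m0.map (ιL K N)), z ^ p ≠ coverHom (ιL K N) m0 Y)
    (YL : FL N)
    (hYL : coverHom (ιL K N) m0 Y = algebraMap (FL N) (AdjoinRoot (m0.map (ιL K N))) YL)
    (hord : ∀ P : Place Qb (FL N), (p : ℤ) ∣ P.ord YL) :
    haveI := isScalarTower_val_line N K V m0
    H3Hyp ↥V (Line K (AdjoinRoot.root m0)) (AdjoinRoot (kpoly p Y))
      (Line.gen K (AdjoinRoot.root m0)) π {0, c64} := by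
  have := isScalarTower_val_line N K V m0
  exact h3f_cover3 N K (ιL K N) m0 (Line K (AdjoinRoot.root m0)) (ιL_algebraMap K N) π harch
    (Line.gen K (AdjoinRoot.root m0)) (Line.transcendental_gen_val _ V ht) (algebraMap_gen K _)
    hrel c64 h64 hu hp hY0 hYp YL hYL hord

/-- `h3i_cover3` on the sealed carriers. -/
theorem h3i_cover3_sealed (π : ↥V) (harch : ∀ a : ↥V, a ≠ 0 → ∃ n : ℕ, a ∣ π ^ n)
    (ht : Transcendental K (AdjoinRoot.root m0))
    (hrel : algebraMap (FL N) (AdjoinRoot (m0.map (ιL K N))) (jL N) *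
      AdjoinRoot.root (m0.map (ιL K N)) ^ 2 = (AdjoinRoot.root (m0.map (ιL K N)) + 256) ^ 3)
    (c : ↥V) (hc : (c : K) * (-64) = 1) (hu : IsUnit c)
    {p : ℕ} (hp : p.Prime) {Y : AdjoinRoot m0} (hY0 : Y ≠ 0) [Fact (Irreducible (kpoly p Y))]
    (hYp : ∀ z : AdjoinRoot (m0.map (ιL K N)), z ^ p ≠ coverHom (ιL K N) m0 Y)
    (YL : FL N)
    (hYL : coverHom (ιL K N) m0 Y = algebraMap (FL N) (AdjoinRoot (m0.map (ιL K N))) YL)
    (hord : ∀ P : Place Qb (FL N), (p : ℤ) ∣ P.ord YL) :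
    haveI := isScalarTower_val_line N K V m0
    H3Hyp ↥V (Line K (AdjoinRoot.root m0)) (AdjoinRoot (kpoly p Y))
      (Line.gen K (AdjoinRoot.root m0))⁻¹ π {0, c} := by
  have := isScalarTower_val_line N K V m0
  exact h3i_cover3 N K (ιL K N) m0 (Line K (AdjoinRoot.root m0)) (ιL_algebraMap K N) π harch
    (Line.gen K (AdjoinRoot.root m0)) (Line.transcendental_gen_val _ V ht) (algebraMap_gen K _)
    hrel c hc hu hp hY0 hYp YL hYL hord

/-- `h3f_cover2` on the sealed carriers. -/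
theorem h3f_cover2_sealed (π : ↥V) (harch : ∀ a : ↥V, a ≠ 0 → ∃ n : ℕ, a ∣ π ^ n)
    (ht : Transcendental K (AdjoinRoot.root m0))
    (hrel : algebraMap (FL N) (AdjoinRoot (m0.map (ιL K N))) (jL N) *
      AdjoinRoot.root (m0.map (ιL K N)) =
      (AdjoinRoot.root (m0.map (ιL K N)) + 27) * (AdjoinRoot.root (m0.map (ιL K N)) + 3) ^ 3)
    (c27 : ↥V) (h27 : (c27 : K) = -27) (hu : IsUnit c27)
    {p : ℕ} (hp : p.Prime) {Y : AdjoinRoot m0} (hY0 : Y ≠ 0) [Fact (Irreducible (kpoly p Y))]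
    (hYp : ∀ z : AdjoinRoot (m0.map (ιL K N)), z ^ p ≠ coverHom (ιL K N) m0 Y)
    (YL : FL N)
    (hYL : coverHom (ιL K N) m0 Y = algebraMap (FL N) (AdjoinRoot (m0.map (ιL K N))) YL)
    (hord : ∀ P : Place Qb (FL N), (p : ℤ) ∣ P.ord YL) :
    haveI := isScalarTower_val_line N K V m0
    H3Hyp ↥V (Line K (AdjoinRoot.root m0)) (AdjoinRoot (kpoly p Y))
      (Line.gen K (AdjoinRoot.root m0)) π {0, c27} := by
  have := isScalarTower_val_line N K V m0
  exact h3f_cover2 N K (ιL K N) m0 (Line K (AdjoinRoot.root m0)) (ιL_algebraMap K N) π harch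
    (Line.gen K (AdjoinRoot.root m0)) (Line.transcendental_gen_val _ V ht) (algebraMap_gen K _)
    hrel c27 h27 hu hp hY0 hYp YL hYL hord

/-- `h3i_cover2` on the sealed carriers. -/
theorem h3i_cover2_sealed (π : ↥V) (harch : ∀ a : ↥V, a ≠ 0 → ∃ n : ℕ, a ∣ π ^ n)
    (ht : Transcendental K (AdjoinRoot.root m0))
    (hrel : algebraMap (FL N) (AdjoinRoot (m0.map (ιL K N))) (jL N) *
      AdjoinRoot.root (m0.map (ιL K N)) =
      (AdjoinRoot.root (m0.map (ιL K N)) + 27) * (AdjoinRoot.root (m0.map (ιL K N)) + 3) ^ 3)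
    (c : ↥V) (hc : (c : K) * (-27) = 1) (hu : IsUnit c)
    {p : ℕ} (hp : p.Prime) {Y : AdjoinRoot m0} (hY0 : Y ≠ 0) [Fact (Irreducible (kpoly p Y))]
    (hYp : ∀ z : AdjoinRoot (m0.map (ιL K N)), z ^ p ≠ coverHom (ιL K N) m0 Y)
    (YL : FL N)
    (hYL : coverHom (ιL K N) m0 Y = algebraMap (FL N) (AdjoinRoot (m0.map (ιL K N))) YL)
    (hord : ∀ P : Place Qb (FL N), (p : ℤ) ∣ P.ord YL) :
    haveI := isScalarTower_val_line N K V m0
    H3Hyp ↥V (Line K (AdjoinRoot.root m0)) (AdjoinRoot (kpoly p Y))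
      (Line.gen K (AdjoinRoot.root m0))⁻¹ π {0, c} := by
  have := isScalarTower_val_line N K V m0
  exact h3i_cover2 N K (ιL K N) m0 (Line K (AdjoinRoot.root m0)) (ιL_algebraMap K N) π harch
    (Line.gen K (AdjoinRoot.root m0)) (Line.transcendental_gen_val _ V ht) (algebraMap_gen K _)
    hrel c hc hu hp hY0 hYp YL hYL hord

end Sealed

end Fermat.Agent.S18.H3Cover
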