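import Mathlib
import Fermat.Agent.S18.Setup
import Fermat.Agent.S18.Descent
import Fermat.Agent.S18.S24Export

/-!
# S18, route K, bridge: from the number-field Kummer statement to a contradiction

`Descent.KummerK0 A N p Kb` asks, for every number field `K0 ⊇ Kb` and every pair `v₁, v₂` of
series over `A₀ = A ∩ K0` in the function field with the same nonzero reduction, for a `p`-th
root of `x₁ / x₂` in the function field over `ℚ̄`, as soon as the divisor of `x₁ / x₂` is
divisible by `p`.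

`kummerK0_of_false` reduces it to a contradiction on the sealed carriers of `Setup`: with
`Y = y₁ / y₂ ∈ FK K0 N`, it suffices to derive `False` from `Y ≠ 0`, `p ∣ ord_P (ιL Y)` at all
places of `F_L`, and "`ιL Y` is not a `p`-th power in `F_L`".
-/

set_option autoImplicit false

noncomputable section

open HahnSeries AlgebraicCurve ModularCurve

namespace Fermat.Agent.S18.KAdapt

open Fermat.Agent.S18.Setup

local notation "Qb" => AlgebraicClosure ℚ

variable (A : ValuationSubring Qb) (N : ℕ) [NeZero N]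

/-- **The adapter.** -/
theorem kummerK0_of_false (p : ℕ) (Kb : IntermediateField ℚ Qb)
    (H : ∀ (K0 : IntermediateField ℚ Qb) [FiniteDimensional ℚ K0], Kb ≤ K0 →
      ∀ (v₁ v₂ : LaurentSeries (A0.down K0 A))
        (h₁ : coeffMap (A0.down K0 A).subtype v₁ ∈ modularFunctionFieldFullC K0 N)
        (h₂ : coeffMap (A0.down K0 A).subtype v₂ ∈ modularFunctionFieldFullC K0 N),
        coeffMap (IsLocalRing.residue (A0.down K0 A)) v₁ ≠ 0 →
        coeffMap (IsLocalRing.residue (A0.down K0 A)) v₁ =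
          coeffMap (IsLocalRing.residue (A0.down K0 A)) v₂ →
        (FK.mk _ h₁ / FK.mk _ h₂ : FK K0 N) ≠ 0 →
        (∀ P : Place Qb (S24Export.FL N),
          (p : ℤ) ∣ P.ord (ιL K0 N (FK.mk _ h₁ / FK.mk _ h₂))) →
        (∀ z : S24Export.FL N, z ^ p ≠ ιL K0 N (FK.mk _ h₁ / FK.mk _ h₂)) → False) :
    Descent.KummerK0 A N p Kb := by
  intro K0 _ hK v₁ v₂ h₁ h₂ hne heq x₁ x₂ hx₁ hx₂ hord
  by_contra hno
  have e1 : ιL K0 N (FK.mk _ h₁) = x₁ := Subtype.ext (by rw [coe_ιL, FK.val_mk, hx₁])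
  have e2 : ιL K0 N (FK.mk _ h₂) = x₂ := Subtype.ext (by rw [coe_ιL, FK.val_mk, hx₂])
  have e : ιL K0 N (FK.mk _ h₁ / FK.mk _ h₂) = x₁ / x₂ := by rw [map_div₀, e1, e2]
  have hv : ∀ v : LaurentSeries (A0.down K0 A),
      coeffMap (IsLocalRing.residue (A0.down K0 A)) v ≠ 0 →
      ∀ h : coeffMap (A0.down K0 A).subtype v ∈ modularFunctionFieldFullC K0 N,
        (FK.mk _ h : FK K0 N) ≠ 0 := by
    intro v hv h h0
    apply hv
    have h1 : coeffMap (A0.down K0 A).subtype v = 0 := by
      have := congrArg (FK.val K0 N) h0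
      rwa [FK.val_mk, map_zero] at this
    have h2 : v = 0 :=
      (Descent.coeffMap_eq_zero_iff_of_injective _ Subtype.val_injective v).mp h1
    rw [h2, map_zero]
  refine H K0 hK v₁ v₂ h₁ h₂ hne heq (div_ne_zero (hv v₁ hne h₁) (hv v₂ (heq ▸ hne) h₂)) ?_ ?_
  · intro P
    rw [e]
    exact hord P
  · intro z hz
    exact hno ⟨z, by rw [hz, e]⟩

end Fermat.Agent.S18.KAdapt
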