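import Fermat.Agent.S18.Setup

/-!
# S18, route K, bridge: the inclusion of lines `K(t) → K(h)`

For fields `F ⊆ F'` over `K`, `t : F` and `h : F'` with `t ∈ K(h)` (inside `F'`), the sealed line
`Setup.Line K t` maps to `Setup.Line K h`.  The resulting algebra structure is *not* a global
instance (it depends on the membership proof): use

```
letI := LineMap.algebraLine K t h hmem
haveI := LineMap.isScalarTower_base K t h hmem
haveI := LineMap.isScalarTower_top K t h hmem
```

after which the towers over a valuation subring of `K` are found by instance search.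
-/

set_option autoImplicit false

noncomputable section

open IntermediateField Fermat.Agent.S18.Setup

namespace Fermat.Agent.S18.LineMap

variable (K : Type*) [Field K] {F : Type*} [Field F] [Algebra K F] {F' : Type*} [Field F']
  [Algebra K F'] [Algebra F F'] [IsScalarTower K F F'] (t : F) (h : F')

/-- if `t ∈ K(h)` inside `F'`, every element of `K(t)` lies in `K(h)`. -/
theorem algebraMap_mem (hmem : algebraMap F F' t ∈ K⟮h⟯) (x : Line K t) :
    algebraMap F F' (algebraMap (Line K t) F x) ∈ K⟮h⟯ := by
  have h1 : K⟮t⟯ ≤ (K⟮h⟯).comap (IsScalarTower.toAlgHom K F F') := by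
    rw [IntermediateField.adjoin_simple_le_iff]
    exact hmem
  exact h1 (algebraMap_line_mem K t x)

/-- The inclusion `K(t) → K(h)`. -/
def lineHom (hmem : algebraMap F F' t ∈ K⟮h⟯) : Line K t →+* Line K h where
  toFun x := Line.mk K h (algebraMap F F' (algebraMap (Line K t) F x)) (algebraMap_mem K t h hmem x)
  map_one' := Subtype.ext (by
    show algebraMap F F' (algebraMap (Line K t) F 1) = 1
    rw [map_one, map_one])
  map_mul' x y := Subtype.ext (by
    show algebraMap F F' (algebraMap (Line K t) F (x * y)) =
      algebraMap F F' (algebraMap (Line K t) F x) * algebraMap F F' (algebraMap (Line K t) F y)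
    rw [map_mul, map_mul])
  map_zero' := Subtype.ext (by
    show algebraMap F F' (algebraMap (Line K t) F 0) = 0
    rw [map_zero, map_zero])
  map_add' x y := Subtype.ext (by
    show algebraMap F F' (algebraMap (Line K t) F (x + y)) =
      algebraMap F F' (algebraMap (Line K t) F x) + algebraMap F F' (algebraMap (Line K t) F y)
    rw [map_add, map_add])

theorem algebraMap_lineHom (hmem : algebraMap F F' t ∈ K⟮h⟯) (x : Line K t) :
    algebraMap (Line K h) F' (lineHom K t h hmem x) =
      algebraMap F F' (algebraMap (Line K t) F x) := rfl

theorem lineHom_algebraMap (hmem : algebraMap F F' t ∈ K⟮h⟯) (c : K) :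
    lineHom K t h hmem (algebraMap K (Line K t) c) = algebraMap K (Line K h) c := by
  apply (algebraMap (Line K h) F').injective
  rw [algebraMap_lineHom, ← IsScalarTower.algebraMap_apply K (Line K t) F,
    ← IsScalarTower.algebraMap_apply K F F', ← IsScalarTower.algebraMap_apply K (Line K h) F']

/-- The algebra structure `K(t) → K(h)`; use as a local instance. -/
@[reducible]
def algebraLine (hmem : algebraMap F F' t ∈ K⟮h⟯) : Algebra (Line K t) (Line K h) :=
  (lineHom K t h hmem).toAlgebra

theorem algebraMap_eq (hmem : algebraMap F F' t ∈ K⟮h⟯) (x : Line K t) :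
    letI := algebraLine K t h hmem
    algebraMap (Line K t) (Line K h) x = lineHom K t h hmem x := rfl

theorem algebraMap_algebraMap (hmem : algebraMap F F' t ∈ K⟮h⟯) (x : Line K t) :
    letI := algebraLine K t h hmem
    algebraMap (Line K h) F' (algebraMap (Line K t) (Line K h) x) =
      algebraMap F F' (algebraMap (Line K t) F x) := rfl

theorem algebraMap_gen_line (hmem : algebraMap F F' t ∈ K⟮h⟯) :
    letI := algebraLine K t h hmem
    algebraMap (Line K h) F' (algebraMap (Line K t) (Line K h) (Line.gen K t)) =
      algebraMap F F' t := rfl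

theorem isScalarTower_base (hmem : algebraMap F F' t ∈ K⟮h⟯) :
    letI := algebraLine K t h hmem
    IsScalarTower K (Line K t) (Line K h) := by
  letI := algebraLine K t h hmem
  exact IsScalarTower.of_algebraMap_eq fun c => (lineHom_algebraMap K t h hmem c).symm

theorem isScalarTower_top (hmem : algebraMap F F' t ∈ K⟮h⟯) [Algebra (Line K t) F']
    [IsScalarTower (Line K t) F F'] :
    letI := algebraLine K t h hmem
    IsScalarTower (Line K t) (Line K h) F' := by
  letI := algebraLine K t h hmem
  exact IsScalarTower.of_algebraMap_eq fun x => by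
    rw [algebraMap_algebraMap K t h hmem x, ← IsScalarTower.algebraMap_apply (Line K t) F F']

end Fermat.Agent.S18.LineMap
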