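import Fermat.Agent.S18.Setup

/-!
# S18, route K, bridge: scalar towers over a valuation subring through a sealed line

For a valuation subring `V` of `K`, a field `F'` over `K` and `h : F'`, the sealed line
`Setup.Line K h` carries the `V`-algebra structure restricted from `K` (Mathlib's
`Algebra.ofSubsemiring`).  If `F'` carries *any* `V`-action compatible with the `K`-action
(`IsScalarTower ↥V K F'`; for instance the one of `AdjoinRoot` over a `V`-algebra), then
`V → Line K h → F'` is a scalar tower.  Mathlib's subobject instance only finds this when the
`V`-action on `F'` is syntactically the restricted one, which fails for `F' = AdjoinRoot m0`.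
-/

set_option autoImplicit false

open Fermat.Agent.S18.Setup

namespace Fermat.Agent.S18.SetupTower

instance instIsScalarTowerValLine {K : Type*} [Field K] {F' : Type*} [Field F'] [Algebra K F']
    (h : F') (V : ValuationSubring K) [SMul ↥V F'] [IsScalarTower ↥V K F'] :
    IsScalarTower ↥V (Line K h) F' := by
  refine ⟨fun a x y => ?_⟩
  have h1 : ∀ z : F', a • z = (a : K) • z := fun z => by
    have := smul_assoc a (1 : K) z
    rw [one_smul] at this
    rw [← this]
    congr 1
    show (a : K) * 1 = (a : K)
    rw [mul_one]
  have h2 : a • x = (a : K) • x := rfl
  rw [h1, h2, smul_assoc]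

end Fermat.Agent.S18.SetupTower
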