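import Mathlib
import Fermat.Agent.S18.Setup
import Fermat.Agent.S18.SetupTower
import Fermat.Agent.S18.LineMap
import Fermat.Agent.S18.LineGen
import Fermat.Agent.S18.CoverData
import Fermat.Agent.S18.CoverField
import Fermat.Agent.S18.CoverCore
import Fermat.Agent.S18.CoverPow
import Fermat.Agent.S18.ConstInst
import Fermat.Agent.S18.H3Cover
import Fermat.Agent.S18.KAdapt
import Fermat.Agent.S18.H2Top

/-!
# S18, route K: the number-field Kummer statement through the `X₀(2)`-cover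

The integration of the cover form of the Kummer core (`CoverCore.false_of_kummer_cover3`) with
the bridge, for the cover `j = (h + 256)³ / h²` of the `j`-line (the `X₀(2)`-line), on the
sealed carriers of `Setup`:

* `Mj = K(j)`, `F = F_K` the function field of `X₀(N)` over the number field `K`;
* `F' = F[X]/(m0)` for an irreducible factor `m0` of `(X + 256)³ - j X²` which stays
  irreducible over `ℚ̄`, `h` its root, `Mh = K(h)`;
* `E = F'(Y^(1/p))`.

The cover is étale over the Gauss point as soon as `2` is a unit, i.e. `ℓ ≠ 2`, and `Y` stays a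
non-`p`-th power on the cover as soon as `p ≠ 3`.

* `false_of_cover3` : the contradiction on the sealed carriers;
* `exists_kummerK0_cover3` : `Descent.KummerK0 A N p Kb` for `ℓ ≠ 2`, `p ≠ 3`, `p ≠ ℓ`.
-/

set_option autoImplicit false
set_option linter.style.haveILetI false

open Polynomial AlgebraicCurve ModularCurve IntermediateField

namespace Fermat.Agent.S18.Top23

open Fermat.Agent.S18.CoreDefs Fermat.Agent.S18.S24Export Fermat.Agent.S18.KummerGeo
open Fermat.Agent.S18.Setup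

local notation "Qb" => AlgebraicClosure ℚ

section Concrete

variable (K : Type*) [Field K] [Algebra K Qb] [Algebra ℚ K] [FiniteDimensional ℚ K]
  (N : ℕ) [NeZero N] (A : ValuationSubring Qb)

/-- **The contradiction on the `X₀(2)`-cover.** -/
theorem false_of_cover3 {ℓ : ℕ} (hℓ : ℓ.Prime) (hℓN : ¬ ℓ ∣ N) (hℓ2 : ℓ ≠ 2)
    (hA : A.LiesOverPrime ℓ) {p : ℕ} (hp : p.Prime) (hpℓ : p ≠ ℓ)
    (m0 : (FK K N)[X]) (hm0 : m0.Monic) (hirr0 : Irreducible m0)
    (hirrL : Irreducible (m0.map (ιL K N)))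
    (hroot : aeval (AdjoinRoot.root m0) (CoverData.g3 (jF K N)) = 0)
    (hpow : ∀ Y : FL N, (∀ z : FL N, z ^ p ≠ Y) →
      ∀ z : AdjoinRoot (m0.map (ιL K N)), z ^ p ≠ AdjoinRoot.of (m0.map (ιL K N)) Y)
    (v₁ v₂ : LaurentSeries (A0.down K A))
    (h₁ : coeffMap (A0.down K A).subtype v₁ ∈ modularFunctionFieldFullC K N)
    (h₂ : coeffMap (A0.down K A).subtype v₂ ∈ modularFunctionFieldFullC K N)
    (hne : coeffMap (IsLocalRing.residue (A0.down K A)) v₁ ≠ 0)
    (heq : coeffMap (IsLocalRing.residue (A0.down K A)) v₁ =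
      coeffMap (IsLocalRing.residue (A0.down K A)) v₂)
    (hY0 : (FK.mk _ h₁ / FK.mk _ h₂ : FK K N) ≠ 0)
    (hord : ∀ P : Place Qb (FL N), (p : ℤ) ∣ P.ord (ιL K N (FK.mk _ h₁ / FK.mk _ h₂)))
    (hYp : ∀ z : FL N, z ^ p ≠ ιL K N (FK.mk _ h₁ / FK.mk _ h₂)) : False := by
  classical
  obtain ⟨hDVR, π, hπ, hπ0, hmax, harch, hchar, hunits⟩ := Setup.exists_unif K A hℓ hA
  have hpA : IsUnit ((p : ℕ) : ↥(A0.down K A)) :=
    hunits p (fun h => hpℓ ((Nat.prime_dvd_prime_iff_eq hℓ hp).mp h).symm)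
  have h2u : IsUnit (2 : ↥(A0.down K A)) := by
    have := hunits 2 (fun h => hℓ2 ((Nat.prime_dvd_prime_iff_eq hℓ Nat.prime_two).mp h))
    simpa using this
  have hc : CharZero K := charZero_of_injective_algebraMap (algebraMap ℚ K).injective
  have hQ : Algebra.IsAlgebraic ℚ Qb := AlgebraicClosure.isAlgebraic ℚ
  have hKQ : Algebra.IsAlgebraic K Qb := Algebra.IsAlgebraic.tower_top (K := ℚ) K
  haveI : Fact (Irreducible m0) := ⟨hirr0⟩
  haveI : Fact (Irreducible (m0.map (ιL K N))) := ⟨hirrL⟩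
  -- the function `Y` on the cover
  set Y : FK K N := FK.mk _ h₁ / FK.mk _ h₂ with hYdef
  have hYp' : ∀ z : AdjoinRoot (m0.map (ιL K N)),
      z ^ p ≠ CoverField.coverHom (ιL K N) m0 (algebraMap (FK K N) (AdjoinRoot m0) Y) := by
    intro z
    have h := hpow (ιL K N Y) hYp z
    rwa [← CoverField.coverHom_of] at h
  haveI : Fact (Irreducible (kpoly p (algebraMap (FK K N) (AdjoinRoot m0) Y))) :=
    ⟨irreducible_kpoly_of_map (CoverField.coverHom (ιL K N) m0) hp hYp'⟩
  -- the relation between `j` and the root `h`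
  have hrelF : algebraMap (FK K N) (AdjoinRoot m0) (jF K N) * AdjoinRoot.root m0 ^ 2 =
      (AdjoinRoot.root m0 + 256) ^ 3 :=
    (CoverData.aeval_g3_eq_zero_iff (jF K N) (AdjoinRoot.root m0)).mp hroot
  haveI : CharZero (AdjoinRoot m0) :=
    charZero_of_injective_algebraMap (algebraMap K (AdjoinRoot m0)).injective
  have hr0 : AdjoinRoot.root m0 ≠ 0 := by
    intro h0
    rw [h0] at hrelF
    norm_num at hrelF
  have hmem : algebraMap (FK K N) (AdjoinRoot m0) (jF K N) ∈ K⟮AdjoinRoot.root m0⟯ := by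
    have h1 : algebraMap (FK K N) (AdjoinRoot m0) (jF K N) =
        (AdjoinRoot.root m0 + 256) ^ 3 / AdjoinRoot.root m0 ^ 2 := by
      rw [eq_div_iff (pow_ne_zero 2 hr0)]
      exact hrelF
    rw [h1]
    have hroot_mem : AdjoinRoot.root m0 ∈ K⟮AdjoinRoot.root m0⟯ :=
      IntermediateField.mem_adjoin_simple_self K _
    have h256 : (256 : AdjoinRoot m0) ∈ K⟮AdjoinRoot.root m0⟯ := by
      have : (256 : AdjoinRoot m0) = algebraMap K (AdjoinRoot m0) 256 := by
        rw [map_ofNat]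
      rw [this]
      exact IntermediateField.algebraMap_mem _ _
    exact div_mem (pow_mem (add_mem hroot_mem h256) 3) (pow_mem hroot_mem 2)
  have hhK : Transcendental K (AdjoinRoot.root m0) :=
    CoverField.transcendental_of_mem_adjoin_simple (jF K N) (transcendental_jF K N)
      (AdjoinRoot.root m0) hmem
  -- the two lines and their inclusion
  letI := LineMap.algebraLine K (jF K N) (AdjoinRoot.root m0) hmem
  haveI : IsScalarTower K (Line K (jF K N)) (Line K (AdjoinRoot.root m0)) :=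
    LineMap.isScalarTower_base K (jF K N) (AdjoinRoot.root m0) hmem
  haveI : IsScalarTower (Line K (jF K N)) (Line K (AdjoinRoot.root m0)) (AdjoinRoot m0) :=
    LineMap.isScalarTower_top K (jF K N) (AdjoinRoot.root m0) hmem
  haveI : Module.Finite (FK K N) (AdjoinRoot m0) := hm0.finite_adjoinRoot
  haveI : FiniteDimensional (Line K (jF K N)) (AdjoinRoot m0) :=
    Module.Finite.trans (FK K N) (AdjoinRoot m0)
  have hj : Transcendental ↥(A0.down K A) (Line.gen K (jF K N)) :=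
    Line.transcendental_gen_val (jF K N) (A0.down K A) (transcendental_jF K N)
  have hgenj := LineGen.hgen_of_adjoin_eq_top (A0 := ↥(A0.down K A)) (K0 := K)
    (Line.gen K (jF K N)) (Line.adjoin_gen K (jF K N))
  have hgenh := LineGen.hgen_of_adjoin_eq_top (A0 := ↥(A0.down K A)) (K0 := K)
    (Line.gen K (AdjoinRoot.root m0)) (Line.adjoin_gen K (AdjoinRoot.root m0))
  have hrel : algebraMap (Line K (jF K N)) (Line K (AdjoinRoot.root m0)) (Line.gen K (jF K N)) *
      Line.gen K (AdjoinRoot.root m0) ^ 2 = (Line.gen K (AdjoinRoot.root m0) + 256) ^ 3 := by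
    apply (algebraMap (Line K (AdjoinRoot.root m0)) (AdjoinRoot m0)).injective
    rw [map_mul, map_pow, map_pow, map_add, map_ofNat, algebraMap_gen,
      LineMap.algebraMap_gen_line K (jF K N) (AdjoinRoot.root m0) hmem]
    exact hrelF
  have hgenF : Algebra.adjoin (FK K N)
      {algebraMap (Line K (AdjoinRoot.root m0)) (AdjoinRoot m0)
        (Line.gen K (AdjoinRoot.root m0))} = ⊤ := by
    rw [algebraMap_gen]
    exact AdjoinRoot.adjoinRoot_eq_top
  -- the Kummer layer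
  have hdeg : Module.finrank (AdjoinRoot m0)
      (AdjoinRoot (kpoly p (algebraMap (FK K N) (AdjoinRoot m0) Y))) = p :=
    KummerGeo.finrank_eq p _ hp.pos
  have hθ := KummerGeo.root_pow p (algebraMap (FK K N) (AdjoinRoot m0) Y)
  -- the Gauss valuation on the `j`-chart
  have h2 := H2Top.h2_jline K N A hℓ hℓN hA π hπ hmax
  obtain ⟨hYf, hYf'⟩ := H2Top.inPiGauss_jline K N A hℓ hℓN hA π hπ hmax v₁ v₂ h₁ h₂ hne heq
  -- (H3) on both charts of the `h`-line
  have hrelL : algebraMap (FL N) (AdjoinRoot (m0.map (ιL K N))) (jL N) *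
      AdjoinRoot.root (m0.map (ιL K N)) ^ 2 = (AdjoinRoot.root (m0.map (ιL K N)) + 256) ^ 3 := by
    have h := congrArg (CoverField.coverHom (ιL K N) m0) hrelF
    have hof : CoverField.coverHom (ιL K N) m0
        (algebraMap (FK K N) (AdjoinRoot m0) (jF K N)) =
        algebraMap (FL N) (AdjoinRoot (m0.map (ιL K N))) (ιL K N (jF K N)) :=
      CoverField.coverHom_of _ _ _
    rw [map_mul, map_pow, map_pow, map_add, map_ofNat, CoverField.coverHom_root, hof] at h
    rw [← ιL_jF K N]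
    exact h
  have hY0' : algebraMap (FK K N) (AdjoinRoot m0) Y ≠ 0 := by
    rw [Ne, map_eq_zero]
    exact hY0
  have hu64 : IsUnit (-64 : ↥(A0.down K A)) := by
    have h64 : (-64 : ↥(A0.down K A)) = -(2 ^ 6) := by norm_num
    rw [h64]
    exact (h2u.pow 6).neg
  have h3f := H3Cover.h3f_cover3_sealed N K (A0.down K A) m0 π harch hhK hrelL (-64)
    (by push_cast; rfl) hu64 hp hY0' hYp' (ιL K N Y) (CoverField.coverHom_of _ _ _) hord
  have h3i := H3Cover.h3i_cover3_sealed N K (A0.down K A) m0 π harch hhK hrelL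
    (↑hu64.unit⁻¹ : ↥(A0.down K A))
    (by
      have h := hu64.val_inv_mul
      have h' := congrArg (Subtype.val : ↥(A0.down K A) → K) h
      push_cast at h'
      exact h')
    (Units.isUnit _) hp hY0' hYp' (ιL K N Y) (CoverField.coverHom_of _ _ _) hord
  exact CoverCore.false_of_kummer_cover3 (Line K (jF K N)) (Line K (AdjoinRoot.root m0))
    (AdjoinRoot m0) (AdjoinRoot (kpoly p (algebraMap (FK K N) (AdjoinRoot m0) Y))) (FK K N)
    π hπ hchar h2u (Line.gen K (jF K N)) hj hgenj (Line.gen K (AdjoinRoot.root m0)) hgenh hrel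
    hgenF p hp hpA Y (AdjoinRoot.root _) hθ
    (KummerGeo.algebra_adjoin_root_eq_top p _) hdeg _ _ h2 h3f h3i hYf hYf'
    (ConstInst.hconst_cover_sealed K N A m0 hm0 p hp _ hYp')

/-- **The contradiction on the `X₀(3)`-cover** `j = (h + 27)(h + 3)³ / h`. -/
theorem false_of_cover2 {ℓ : ℕ} (hℓ : ℓ.Prime) (hℓN : ¬ ℓ ∣ N) (hℓ3 : ℓ ≠ 3)
    (hA : A.LiesOverPrime ℓ) {p : ℕ} (hp : p.Prime) (hpℓ : p ≠ ℓ)
    (m0 : (FK K N)[X]) (hm0 : m0.Monic) (hirr0 : Irreducible m0)
    (hirrL : Irreducible (m0.map (ιL K N)))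
    (hroot : aeval (AdjoinRoot.root m0) (CoverData.g2 (jF K N)) = 0)
    (hpow : ∀ Y : FL N, (∀ z : FL N, z ^ p ≠ Y) →
      ∀ z : AdjoinRoot (m0.map (ιL K N)), z ^ p ≠ AdjoinRoot.of (m0.map (ιL K N)) Y)
    (v₁ v₂ : LaurentSeries (A0.down K A))
    (h₁ : coeffMap (A0.down K A).subtype v₁ ∈ modularFunctionFieldFullC K N)
    (h₂ : coeffMap (A0.down K A).subtype v₂ ∈ modularFunctionFieldFullC K N)
    (hne : coeffMap (IsLocalRing.residue (A0.down K A)) v₁ ≠ 0)
    (heq : coeffMap (IsLocalRing.residue (A0.down K A)) v₁ =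
      coeffMap (IsLocalRing.residue (A0.down K A)) v₂)
    (hY0 : (FK.mk _ h₁ / FK.mk _ h₂ : FK K N) ≠ 0)
    (hord : ∀ P : Place Qb (FL N), (p : ℤ) ∣ P.ord (ιL K N (FK.mk _ h₁ / FK.mk _ h₂)))
    (hYp : ∀ z : FL N, z ^ p ≠ ιL K N (FK.mk _ h₁ / FK.mk _ h₂)) : False := by
  classical
  obtain ⟨hDVR, π, hπ, hπ0, hmax, harch, hchar, hunits⟩ := Setup.exists_unif K A hℓ hA
  have hpA : IsUnit ((p : ℕ) : ↥(A0.down K A)) :=
    hunits p (fun h => hpℓ ((Nat.prime_dvd_prime_iff_eq hℓ hp).mp h).symm)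
  have h3u : IsUnit (3 : ↥(A0.down K A)) := by
    have := hunits 3 (fun h => hℓ3 ((Nat.prime_dvd_prime_iff_eq hℓ Nat.prime_three).mp h))
    simpa using this
  have hc : CharZero K := charZero_of_injective_algebraMap (algebraMap ℚ K).injective
  have hQ : Algebra.IsAlgebraic ℚ Qb := AlgebraicClosure.isAlgebraic ℚ
  have hKQ : Algebra.IsAlgebraic K Qb := Algebra.IsAlgebraic.tower_top (K := ℚ) K
  haveI : Fact (Irreducible m0) := ⟨hirr0⟩
  haveI : Fact (Irreducible (m0.map (ιL K N))) := ⟨hirrL⟩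
  -- the function `Y` on the cover
  set Y : FK K N := FK.mk _ h₁ / FK.mk _ h₂ with hYdef
  have hYp' : ∀ z : AdjoinRoot (m0.map (ιL K N)),
      z ^ p ≠ CoverField.coverHom (ιL K N) m0 (algebraMap (FK K N) (AdjoinRoot m0) Y) := by
    intro z
    have h := hpow (ιL K N Y) hYp z
    rwa [← CoverField.coverHom_of] at h
  haveI : Fact (Irreducible (kpoly p (algebraMap (FK K N) (AdjoinRoot m0) Y))) :=
    ⟨irreducible_kpoly_of_map (CoverField.coverHom (ιL K N) m0) hp hYp'⟩
  -- the relation between `j` and the root `h`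
  have hrelF : algebraMap (FK K N) (AdjoinRoot m0) (jF K N) * AdjoinRoot.root m0 =
      (AdjoinRoot.root m0 + 27) * (AdjoinRoot.root m0 + 3) ^ 3 :=
    (CoverData.aeval_g2_eq_zero_iff (jF K N) (AdjoinRoot.root m0)).mp hroot
  haveI : CharZero (AdjoinRoot m0) :=
    charZero_of_injective_algebraMap (algebraMap K (AdjoinRoot m0)).injective
  have hr0 : AdjoinRoot.root m0 ≠ 0 := by
    intro h0
    rw [h0] at hrelF
    norm_num at hrelF
  have hmem : algebraMap (FK K N) (AdjoinRoot m0) (jF K N) ∈ K⟮AdjoinRoot.root m0⟯ := by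
    have h1 : algebraMap (FK K N) (AdjoinRoot m0) (jF K N) =
        (AdjoinRoot.root m0 + 27) * (AdjoinRoot.root m0 + 3) ^ 3 / AdjoinRoot.root m0 := by
      rw [eq_div_iff hr0]
      exact hrelF
    rw [h1]
    have hroot_mem : AdjoinRoot.root m0 ∈ K⟮AdjoinRoot.root m0⟯ :=
      IntermediateField.mem_adjoin_simple_self K _
    have h27 : (27 : AdjoinRoot m0) ∈ K⟮AdjoinRoot.root m0⟯ := by
      have : (27 : AdjoinRoot m0) = algebraMap K (AdjoinRoot m0) 27 := by
        rw [map_ofNat]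
      rw [this]
      exact IntermediateField.algebraMap_mem _ _
    have h3 : (3 : AdjoinRoot m0) ∈ K⟮AdjoinRoot.root m0⟯ := by
      have : (3 : AdjoinRoot m0) = algebraMap K (AdjoinRoot m0) 3 := by
        rw [map_ofNat]
      rw [this]
      exact IntermediateField.algebraMap_mem _ _
    exact div_mem (mul_mem (add_mem hroot_mem h27) (pow_mem (add_mem hroot_mem h3) 3)) hroot_mem
  have hhK : Transcendental K (AdjoinRoot.root m0) :=
    CoverField.transcendental_of_mem_adjoin_simple (jF K N) (transcendental_jF K N)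
      (AdjoinRoot.root m0) hmem
  -- the two lines and their inclusion
  letI := LineMap.algebraLine K (jF K N) (AdjoinRoot.root m0) hmem
  haveI : IsScalarTower K (Line K (jF K N)) (Line K (AdjoinRoot.root m0)) :=
    LineMap.isScalarTower_base K (jF K N) (AdjoinRoot.root m0) hmem
  haveI : IsScalarTower (Line K (jF K N)) (Line K (AdjoinRoot.root m0)) (AdjoinRoot m0) :=
    LineMap.isScalarTower_top K (jF K N) (AdjoinRoot.root m0) hmem
  haveI : Module.Finite (FK K N) (AdjoinRoot m0) := hm0.finite_adjoinRoot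
  haveI : FiniteDimensional (Line K (jF K N)) (AdjoinRoot m0) :=
    Module.Finite.trans (FK K N) (AdjoinRoot m0)
  have hj : Transcendental ↥(A0.down K A) (Line.gen K (jF K N)) :=
    Line.transcendental_gen_val (jF K N) (A0.down K A) (transcendental_jF K N)
  have hgenj := LineGen.hgen_of_adjoin_eq_top (A0 := ↥(A0.down K A)) (K0 := K)
    (Line.gen K (jF K N)) (Line.adjoin_gen K (jF K N))
  have hgenh := LineGen.hgen_of_adjoin_eq_top (A0 := ↥(A0.down K A)) (K0 := K)
    (Line.gen K (AdjoinRoot.root m0)) (Line.adjoin_gen K (AdjoinRoot.root m0))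
  have hrel : algebraMap (Line K (jF K N)) (Line K (AdjoinRoot.root m0)) (Line.gen K (jF K N)) *
      Line.gen K (AdjoinRoot.root m0) =
      (Line.gen K (AdjoinRoot.root m0) + 27) * (Line.gen K (AdjoinRoot.root m0) + 3) ^ 3 := by
    apply (algebraMap (Line K (AdjoinRoot.root m0)) (AdjoinRoot m0)).injective
    rw [map_mul, map_mul, map_pow, map_add, map_add, map_ofNat, map_ofNat, algebraMap_gen,
      LineMap.algebraMap_gen_line K (jF K N) (AdjoinRoot.root m0) hmem]
    exact hrelF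
  have hgenF : Algebra.adjoin (FK K N)
      {algebraMap (Line K (AdjoinRoot.root m0)) (AdjoinRoot m0)
        (Line.gen K (AdjoinRoot.root m0))} = ⊤ := by
    rw [algebraMap_gen]
    exact AdjoinRoot.adjoinRoot_eq_top
  -- the Kummer layer
  have hdeg : Module.finrank (AdjoinRoot m0)
      (AdjoinRoot (kpoly p (algebraMap (FK K N) (AdjoinRoot m0) Y))) = p :=
    KummerGeo.finrank_eq p _ hp.pos
  have hθ := KummerGeo.root_pow p (algebraMap (FK K N) (AdjoinRoot m0) Y)
  -- the Gauss valuation on the `j`-chart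
  have h2 := H2Top.h2_jline K N A hℓ hℓN hA π hπ hmax
  obtain ⟨hYf, hYf'⟩ := H2Top.inPiGauss_jline K N A hℓ hℓN hA π hπ hmax v₁ v₂ h₁ h₂ hne heq
  -- (H3) on both charts of the `h`-line
  have hrelL : algebraMap (FL N) (AdjoinRoot (m0.map (ιL K N))) (jL N) *
      AdjoinRoot.root (m0.map (ιL K N)) =
      (AdjoinRoot.root (m0.map (ιL K N)) + 27) * (AdjoinRoot.root (m0.map (ιL K N)) + 3) ^ 3 := by
    have h := congrArg (CoverField.coverHom (ιL K N) m0) hrelF
    have hof : CoverField.coverHom (ιL K N) m0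
        (algebraMap (FK K N) (AdjoinRoot m0) (jF K N)) =
        algebraMap (FL N) (AdjoinRoot (m0.map (ιL K N))) (ιL K N (jF K N)) :=
      CoverField.coverHom_of _ _ _
    rw [map_mul, map_mul, map_pow, map_add, map_add, map_ofNat, map_ofNat,
      CoverField.coverHom_root, hof] at h
    rw [← ιL_jF K N]
    exact h
  have hY0' : algebraMap (FK K N) (AdjoinRoot m0) Y ≠ 0 := by
    rw [Ne, map_eq_zero]
    exact hY0
  have hu64 : IsUnit (-27 : ↥(A0.down K A)) := by
    have h64 : (-27 : ↥(A0.down K A)) = -(3 ^ 3) := by norm_num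
    rw [h64]
    exact (h3u.pow 3).neg
  have h3f := H3Cover.h3f_cover2_sealed N K (A0.down K A) m0 π harch hhK hrelL (-27)
    (by push_cast; rfl) hu64 hp hY0' hYp' (ιL K N Y) (CoverField.coverHom_of _ _ _) hord
  have h3i := H3Cover.h3i_cover2_sealed N K (A0.down K A) m0 π harch hhK hrelL
    (↑hu64.unit⁻¹ : ↥(A0.down K A))
    (by
      have h := hu64.val_inv_mul
      have h' := congrArg (Subtype.val : ↥(A0.down K A) → K) h
      push_cast at h'
      exact h')
    (Units.isUnit _) hp hY0' hYp' (ιL K N Y) (CoverField.coverHom_of _ _ _) hord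
  exact CoverCore.false_of_kummer_cover2 (Line K (jF K N)) (Line K (AdjoinRoot.root m0))
    (AdjoinRoot m0) (AdjoinRoot (kpoly p (algebraMap (FK K N) (AdjoinRoot m0) Y))) (FK K N)
    π hπ hchar h3u (Line.gen K (jF K N)) hj hgenj (Line.gen K (AdjoinRoot.root m0)) hgenh hrel
    hgenF p hp hpA Y (AdjoinRoot.root _) hθ
    (KummerGeo.algebra_adjoin_root_eq_top p _) hdeg _ _ h2 h3f h3i hYf hYf'
    (ConstInst.hconst_cover_sealed K N A m0 hm0 p hp _ hYp')

end Concrete

/-- **The number-field Kummer statement through the `X₀(2)`-cover**: `ℓ ≠ 2`, `p ≠ 3`. -/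
theorem exists_kummerK0_cover3 (N : ℕ) [NeZero N] {ℓ : ℕ} (hℓ : ℓ.Prime) (hℓN : ¬ ℓ ∣ N)
    (hℓ2 : ℓ ≠ 2) (A : ValuationSubring Qb) (hA : A.LiesOverPrime ℓ) {p : ℕ} (hp : p.Prime)
    (hpℓ : p ≠ ℓ) (hp3 : p ≠ 3) :
    ∃ (Kb : IntermediateField ℚ Qb) (_ : FiniteDimensional ℚ Kb), Descent.KummerK0 A N p Kb := by
  obtain ⟨Kb, hKb, hcov⟩ := CoverPow.exists_cover3 N p hp hp3
  refine ⟨Kb, hKb, KAdapt.kummerK0_of_false A N p Kb
    fun K0 _ hle v₁ v₂ h₁ h₂ hne heq hY0 hord hYp => ?_⟩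
  obtain ⟨m0, hm0, hirr0, hirrL, -, hroot, hpow⟩ := hcov K0 hle
  exact false_of_cover3 (↥K0) N A hℓ hℓN hℓ2 hA hp hpℓ m0 hm0 hirr0 hirrL hroot hpow v₁ v₂ h₁ h₂
    hne heq hY0 hord hYp

/-- **The number-field Kummer statement through the `X₀(3)`-cover**: `ℓ ≠ 3`, `p ≠ 2`. -/
theorem exists_kummerK0_cover2 (N : ℕ) [NeZero N] {ℓ : ℕ} (hℓ : ℓ.Prime) (hℓN : ¬ ℓ ∣ N)
    (hℓ3 : ℓ ≠ 3) (A : ValuationSubring Qb) (hA : A.LiesOverPrime ℓ) {p : ℕ} (hp : p.Prime)
    (hpℓ : p ≠ ℓ) (hp2 : p ≠ 2) :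
    ∃ (Kb : IntermediateField ℚ Qb) (_ : FiniteDimensional ℚ Kb), Descent.KummerK0 A N p Kb := by
  obtain ⟨Kb, hKb, hcov⟩ := CoverPow.exists_cover2 N p hp hp2
  refine ⟨Kb, hKb, KAdapt.kummerK0_of_false A N p Kb
    fun K0 _ hle v₁ v₂ h₁ h₂ hne heq hY0 hord hYp => ?_⟩
  obtain ⟨m0, hm0, hirr0, hirrL, -, hroot, hpow⟩ := hcov K0 hle
  exact false_of_cover2 (↥K0) N A hℓ hℓN hℓ3 hA hp hpℓ m0 hm0 hirr0 hirrL hroot hpow v₁ v₂ h₁ h₂
    hne heq hY0 hord hYp

/-- **The number-field Kummer statement** for all primes `p ≠ ℓ`, `ℓ ∤ N`: through the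
`X₀(2)`-cover if `ℓ ≠ 2` and `p ≠ 3`, through the `X₀(3)`-cover otherwise. -/
theorem exists_kummerK0 (N : ℕ) [NeZero N] {ℓ : ℕ} (hℓ : ℓ.Prime) (hℓN : ¬ ℓ ∣ N)
    (A : ValuationSubring Qb) (hA : A.LiesOverPrime ℓ) {p : ℕ} (hp : p.Prime) (hpℓ : p ≠ ℓ) :
    ∃ (Kb : IntermediateField ℚ Qb) (_ : FiniteDimensional ℚ Kb), Descent.KummerK0 A N p Kb := by
  by_cases h : ℓ ≠ 2 ∧ p ≠ 3
  · exact exists_kummerK0_cover3 N hℓ hℓN h.1 A hA hp hpℓ h.2
  · have h' : ℓ ≠ 3 ∧ p ≠ 2 := by
      by_cases hℓ2 : ℓ = 2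
      · subst hℓ2
        exact ⟨by norm_num, hpℓ⟩
      · have hp3 : p = 3 := by
          by_contra hp3
          exact h ⟨hℓ2, hp3⟩
        subst hp3
        exact ⟨fun h3 => hpℓ h3.symm, by norm_num⟩
    exact exists_kummerK0_cover2 N hℓ hℓN h'.1 A hA hp hpℓ h'.2

end Fermat.Agent.S18.Top23
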