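import Mathlib
import Fermat.Agent.S18.CoreDefs
import Fermat.Agent.S18.AdjoinChart
import Fermat.Agent.S18.Globalize

/-!
# S18 (route K), core: machine M on one chart of the base line

`Globalize.exists_sub_eq_smul_of_idem` (L2) instantiated at `R₀ := chart A0 M t` with the chart
facts of `AdjoinChart` (L3), in the vocabulary of `CoreDefs`: an element `e` of `O''` (`InGauss`)
which is idempotent modulo `π O''` (`InPiGauss (e * e - e)`) is congruent modulo `π O''` to an
element integral over the chart ring `A0[t]`.  This is the statement "(N): the image of the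
idempotent lies in `C_fin / π`" used twice (for `t` and for `t⁻¹`) in the core step L4.
-/

set_option autoImplicit false

open Fermat.Agent.S18.CoreDefs

namespace Fermat.Agent.S18.ChartLift

variable {A0 : Type*} [CommRing A0] [IsDomain A0] [IsDiscreteValuationRing A0]
  (M : Type*) [Field M] [Algebra A0 M]
  (E : Type*) [Field E] [Algebra M E] [Algebra A0 E] [IsScalarTower A0 M E]
  [FiniteDimensional M E] [Algebra.IsSeparable M E]

omit [IsDomain A0] [IsDiscreteValuationRing A0] [FiniteDimensional M E]
  [Algebra.IsSeparable M E] in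
/-- scalar multiplication by the uniformizer of the chart is scalar multiplication by `π`. -/
theorem unif_smul (t : M) (π : A0) (x : E) : unif A0 M t π • x = π • x := by
  rw [unif, algebraMap_smul]

/-- **Machine M on the chart `A0[t]`**: an element of `O''` that is idempotent modulo `π O''`
is congruent modulo `π O''` to an element integral over `A0[t]`. -/
theorem exists_isIntegral_sub_inPiGauss (π : A0) (hπ : Irreducible π)
    (hchar : ∀ n : ℕ, n ≠ 0 → ∃ a : ℕ, (n : A0) ∣ π ^ a) (t : M) (ht : Transcendental A0 t)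
    (hgen : ∀ m : M, ∃ a b : chart A0 M t, b ≠ 0 ∧ m * (b : M) = (a : M))
    (Crit : Finset A0) (h2 : H2Hyp A0 M E t π) (h3 : H3Hyp A0 M E t π Crit)
    (e : E) (he : InGauss A0 M E t π e) (hid : InPiGauss A0 M E t π (e * e - e)) :
    ∃ c : E, IsIntegral (chart A0 M t) c ∧ InPiGauss A0 M E t π (e - c) := by
  have : IsNoetherianRing (chart A0 M t) := AdjoinChart.isNoetherianRing M t ht
  have : IsIntegrallyClosed (chart A0 M t) := AdjoinChart.isIntegrallyClosed M t ht
  have : IsFractionRing (chart A0 M t) M := AdjoinChart.isFractionRing M t hgen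
  obtain ⟨s₀, hs₀, hs₀e⟩ := he
  obtain ⟨s₁, hs₁, c₁, hc₁, h1⟩ := hid
  have hH2 : ∀ x : E, IsIntegral (chart A0 M t) x →
      (∀ o : E, IsIntegral (chart A0 M t) o →
        ∃ a : chart A0 M t, Algebra.trace M E (x * o) =
          algebraMap (chart A0 M t) M (unif A0 M t π * a)) →
      ∃ c : E, IsIntegral (chart A0 M t) c ∧ x = unif A0 M t π • c := by
    intro x hx htr
    obtain ⟨c, hc, hxc⟩ := h2 x hx htr
    exact ⟨c, hc, by rw [unif_smul]; exact hxc⟩
  obtain ⟨c, hc, s₂, hs₂, c₂, hc₂, h⟩ :=
    Globalize.exists_sub_eq_smul_of_idem (R₀ := chart A0 M t) M E (unif A0 M t π)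
      (AdjoinChart.prime_unif M t ht π hπ) (AdjoinChart.hchar_chart M t π hchar) hH2
      (AdjoinChart.hloc_of_H3 M E t ht π hπ Crit h3) e s₀ hs₀ hs₀e
      ⟨s₁, hs₁, c₁, hc₁, by rw [unif_smul]; exact h1⟩
  exact ⟨c, hc, s₂, hs₂, c₂, hc₂, by rw [← unif_smul M E t π]; exact h⟩

end Fermat.Agent.S18.ChartLift
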