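/-
S18 (design cell): "formal functions by hand" for a two-chart cover of the projective line.

* `exists_bound_torsion`: over a domain, a finitely generated extension `S ⊔ span t` of a
  submodule `S` has bounded torsion modulo `S`.
* `exists_bound_cech`: the Cech `H^1` of a pair `(M_U, M_V)` has bounded torsion, in the form
  used in S18: a relation `s_U - s_V = c • y` forces `c₀ • s_U ∈ c • M_U` when `M_U ⊓ M_V = ⊥`.
-/
import Mathlib

set_option autoImplicit false

namespace Fermat.Agent.S18.FormalFn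

variable {A : Type*} [CommRing A] [IsDomain A]
variable {M : Type*} [AddCommGroup M] [Module A M]

/-- Bounded torsion: if `y` ranges over `S ⊔ span t` (`t` finite) then one nonzero `c₀`
clears every denominator: `c • y ∈ S` with `c ≠ 0` implies `c₀ • y ∈ S`. -/
theorem exists_bound_torsion (S : Submodule A M) (t : Finset M) :
    ∃ c₀ : A, c₀ ≠ 0 ∧ ∀ (c : A) (y : M), c ≠ 0 →
      y ∈ S ⊔ Submodule.span A (t : Set M) → c • y ∈ S → c₀ • y ∈ S := by
  classical
  induction t using Finset.induction_on generalizing S with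
  | empty =>
    refine ⟨1, one_ne_zero, fun c y _ hy _ => ?_⟩
    simpa using hy
  | insert ν t _ ih =>
    obtain ⟨c₁, hc₁, h₁⟩ := ih (S ⊔ Submodule.span A {ν})
    have key : ∀ (c : A) (y : M), c ≠ 0 →
        y ∈ S ⊔ Submodule.span A ((insert ν t : Finset M) : Set M) → c • y ∈ S →
        ∃ s ∈ S, ∃ a : A, c₁ • y = s + a • ν := by
      intro c y hc hy hcy
      have hy' : y ∈ (S ⊔ Submodule.span A {ν}) ⊔ Submodule.span A (t : Set M) := by
        rw [Finset.coe_insert, Set.insert_eq, Submodule.span_union, ← sup_assoc] at hy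
        exact hy
      have h2 := h₁ c y hc hy' (Submodule.mem_sup_left hcy)
      obtain ⟨s, hs, z, hz, hsz⟩ := Submodule.mem_sup.mp h2
      obtain ⟨a, rfl⟩ := Submodule.mem_span_singleton.mp hz
      exact ⟨s, hs, a, hsz.symm⟩
    by_cases hb : ∃ b : A, b ≠ 0 ∧ b • ν ∈ S
    · obtain ⟨b, hb0, hbν⟩ := hb
      refine ⟨b * c₁, mul_ne_zero hb0 hc₁, fun c y hc hy hcy => ?_⟩
      obtain ⟨s, hs, a, hsa⟩ := key c y hc hy hcy
      rw [mul_smul, hsa, smul_add, smul_comm b a ν]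
      exact S.add_mem (S.smul_mem _ hs) (S.smul_mem _ hbν)
    · push Not at hb
      refine ⟨c₁, hc₁, fun c y hc hy hcy => ?_⟩
      obtain ⟨s, hs, a, hsa⟩ := key c y hc hy hcy
      have h3 : (c * a) • ν ∈ S := by
        have h4 : c • (c₁ • y) ∈ S := by
          rw [smul_comm]; exact S.smul_mem _ hcy
        rw [hsa, smul_add, ← mul_smul] at h4
        have := S.sub_mem h4 (S.smul_mem c hs)
        simpa using this
      have h5 : c * a = 0 := by
        by_contra h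
        exact hb _ h h3
      have ha : a = 0 := by
        rcases mul_eq_zero.mp h5 with h | h
        · exact absurd h hc
        · exact h
      rw [hsa, ha, zero_smul, add_zero]
      exact hs

omit [IsDomain A] in
theorem symm_pow_pow (J : M ≃ₗ[A] M) (m : ℕ) (z : M) : (J.symm ^ m) ((J ^ m) z) = z := by
  induction m generalizing z with
  | zero => simp
  | succ m ih =>
    rw [pow_succ, pow_succ']
    change (J.symm ^ m) (J.symm (J ((J ^ m) z))) = z
    rw [LinearEquiv.symm_apply_apply]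
    exact ih z

/-- The Cech statement.  `J` is "multiplication by `j`" on the ambient module, `MU` is generated
over `A[J]` by the finite set `g`, `MV` is stable under `J⁻¹`, and every generator of `MU` lies in
`J ^ K • MV` for some `K`.  Then there is `c₀ ≠ 0` such that every element `y` of
`MUV = ⋃ J⁻ᵏ MU` with `c • y ∈ MU + MV` (`c ≠ 0`) satisfies `c₀ • y ∈ MU + MV`. -/
theorem exists_bound_cech (J : M ≃ₗ[A] M) (MU MV : Submodule A M) (g : Finset M)
    (hgU : ∀ x ∈ g, x ∈ MU)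
    (hJU : ∀ x ∈ MU, J x ∈ MU)
    (hgen : ∀ x ∈ MU, x ∈ Submodule.span A {z : M | ∃ x₀ ∈ g, ∃ k : ℕ, z = (J ^ k) x₀})
    (hJV : ∀ x ∈ MV, J.symm x ∈ MV)
    (hUV : ∀ x ∈ g, ∃ K : ℕ, (J.symm ^ K) x ∈ MV) :
    ∃ c₀ : A, c₀ ≠ 0 ∧ ∀ (c : A) (y : M), c ≠ 0 → (∃ k : ℕ, (J ^ k) y ∈ MU) →
      c • y ∈ MU ⊔ MV → c₀ • y ∈ MU ⊔ MV := by
  classical
  -- a uniform K
  have hK : ∃ K : ℕ, ∀ x ∈ g, ∀ n : ℕ, K ≤ n → (J.symm ^ n) x ∈ MV := by
    have hstab : ∀ (x : M) (m : ℕ), x ∈ MV → (J.symm ^ m) x ∈ MV := by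
      intro x m hx
      induction m with
      | zero => simpa using hx
      | succ m ih =>
        rw [pow_succ']
        exact hJV _ ih
    choose! Kf hKf using hUV
    refine ⟨g.sup Kf, fun x hx n hn => ?_⟩
    have hle : Kf x ≤ n := le_trans (Finset.le_sup hx) hn
    obtain ⟨m, rfl⟩ := Nat.exists_eq_add_of_le hle
    rw [add_comm, pow_add]
    exact hstab _ m (hKf x hx)
  obtain ⟨K, hK⟩ := hK
  -- the finite set of "middle" monomials
  let t : Finset M := (g ×ˢ Finset.range K).image (fun xb => (J.symm ^ xb.2) xb.1)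
  obtain ⟨c₀, hc₀, hb⟩ := exists_bound_torsion (MU ⊔ MV) t
  refine ⟨c₀, hc₀, fun c y hc hy hcy => hb c y hc ?_ hcy⟩
  -- y ∈ MU ⊔ MV ⊔ span t
  obtain ⟨k, hk⟩ := hy
  have hstabU : ∀ (x : M) (m : ℕ), x ∈ MU → (J ^ m) x ∈ MU := by
    intro x m hx
    induction m with
    | zero => simpa using hx
    | succ m ih =>
      rw [pow_succ']
      exact hJU _ ih
  -- every J⁻ᵏ (Jᵃ x₀) lies in the target
  have hmono : ∀ x₀ ∈ g, ∀ a k : ℕ,
      (J.symm ^ k) ((J ^ a) x₀) ∈ (MU ⊔ MV) ⊔ Submodule.span A (t : Set M) := by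
    intro x₀ hx₀ a k
    have hJs : ∀ (m : ℕ) (z : M), (J.symm ^ m) ((J ^ m) z) = z := symm_pow_pow J
    rcases le_or_gt k a with hka | hka
    · -- a - k ≥ 0 : in MU
      obtain ⟨m, rfl⟩ := Nat.exists_eq_add_of_le hka
      have : (J.symm ^ k) ((J ^ (k + m)) x₀) = (J ^ m) x₀ := by
        rw [pow_add]
        change (J.symm ^ k) ((J ^ k) ((J ^ m) x₀)) = _
        exact hJs k _
      rw [this]
      exact Submodule.mem_sup_left (Submodule.mem_sup_left (hstabU _ m (hgU x₀ hx₀)))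
    · obtain ⟨b, rfl⟩ := Nat.exists_eq_add_of_lt hka
      -- k = a + b + 1
      have : (J.symm ^ (a + b + 1)) ((J ^ a) x₀) = (J.symm ^ (b + 1)) x₀ := by
        rw [show a + b + 1 = (b + 1) + a by ring, pow_add]
        change (J.symm ^ (b + 1)) ((J.symm ^ a) ((J ^ a) x₀)) = _
        rw [hJs a]
      rw [this]
      rcases le_or_gt K (b + 1) with hKb | hKb
      · exact Submodule.mem_sup_left (Submodule.mem_sup_right (hK x₀ hx₀ _ hKb))
      · refine Submodule.mem_sup_right (Submodule.subset_span ?_)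
        simp only [t, Finset.coe_image, Set.mem_image, Finset.mem_coe, Finset.mem_product,
          Finset.mem_range]
        exact ⟨(x₀, b + 1), ⟨hx₀, hKb⟩, rfl⟩
  -- y = J⁻ᵏ (Jᵏ y), and Jᵏ y is a combination of monomials
  have hy_eq : y = (J.symm ^ k) ((J ^ k) y) := by
    have hJs : ∀ (m : ℕ) (z : M), (J.symm ^ m) ((J ^ m) z) = z := symm_pow_pow J
    exact (hJs k y).symm
  rw [hy_eq]
  have hspan := hgen _ hk
  -- push the linear map through the span
  have hmap : ∀ z ∈ Submodule.span A {z : M | ∃ x₀ ∈ g, ∃ a : ℕ, z = (J ^ a) x₀},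
      (J.symm ^ k) z ∈ (MU ⊔ MV) ⊔ Submodule.span A (t : Set M) := by
    intro z hz
    induction hz using Submodule.span_induction with
    | mem z hz =>
      obtain ⟨x₀, hx₀, a, rfl⟩ := hz
      exact hmono x₀ hx₀ a k
    | zero => simp
    | add u w _ _ hu hw =>
      rw [map_add]; exact Submodule.add_mem _ hu hw
    | smul r u _ hu =>
      rw [map_smul]; exact Submodule.smul_mem _ r hu
  exact hmap _ hspan

/-- The form used in S18, Step 5: if moreover `MU ⊓ MV = ⊥`, a congruence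
`s_U - s_V = c • y` in `MUV` forces `c₀ • s_U ∈ c • MU`. -/
theorem exists_bound_section (J : M ≃ₗ[A] M) (MU MV : Submodule A M) (g : Finset M)
    (hgU : ∀ x ∈ g, x ∈ MU)
    (hJU : ∀ x ∈ MU, J x ∈ MU)
    (hgen : ∀ x ∈ MU, x ∈ Submodule.span A {z : M | ∃ x₀ ∈ g, ∃ k : ℕ, z = (J ^ k) x₀})
    (hJV : ∀ x ∈ MV, J.symm x ∈ MV)
    (hUV : ∀ x ∈ g, ∃ K : ℕ, (J.symm ^ K) x ∈ MV)
    (hint : MU ⊓ MV = ⊥) :
    ∃ c₀ : A, c₀ ≠ 0 ∧ ∀ (c : A) (sU sV y : M), c ≠ 0 → sU ∈ MU → sV ∈ MV →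
      (∃ k : ℕ, (J ^ k) y ∈ MU) → sU - sV = c • y → ∃ yU ∈ MU, c₀ • sU = c • yU := by
  obtain ⟨c₀, hc₀, hb⟩ := exists_bound_cech J MU MV g hgU hJU hgen hJV hUV
  refine ⟨c₀, hc₀, fun c sU sV y hc hsU hsV hy hrel => ?_⟩
  have h1 : c • y ∈ MU ⊔ MV := by
    rw [← hrel]
    exact Submodule.sub_mem _ (Submodule.mem_sup_left hsU) (Submodule.mem_sup_right hsV)
  obtain ⟨yU, hyU, yV, hyV, hsum⟩ := Submodule.mem_sup.mp (hb c y hc hy h1)
  refine ⟨yU, hyU, ?_⟩
  -- c₀ sU - c yU = c₀ sV + c yV ∈ MU ⊓ MV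
  have h2 : c₀ • sU - c • yU = c₀ • sV + c • yV := by
    have h3 : c₀ • (sU - sV) = c • (yU + yV) := by
      rw [hrel, smul_comm, hsum]
    rw [smul_sub, smul_add] at h3
    have h4 : c₀ • sU = c • yU + c • yV + c₀ • sV := by
      rw [← h3]; abel
    rw [h4]; abel
  have h5 : c₀ • sU - c • yU ∈ MU ⊓ MV := by
    refine ⟨Submodule.sub_mem _ (MU.smul_mem _ hsU) (MU.smul_mem _ hyU), ?_⟩
    rw [h2]
    exact Submodule.add_mem _ (MV.smul_mem _ hsV) (MV.smul_mem _ hyV)
  rw [hint, Submodule.mem_bot] at h5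
  exact sub_eq_zero.mp h5

end Fermat.Agent.S18.FormalFn
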