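/-
S18 (route K, endgame glue (U9)): the torsion bound `htors` needed by
`IdemPatch.exists_mem_inf_of_idem`, from finiteness of the "finite chart" algebra.

`A` a domain, `F` a commutative `A`-algebra, `j` a unit of `F` with inverse `jinv`,
`Cfin`, `Cinf`, `Cmid` three `A`-subalgebras of `F` (think: the integral closures of `A[j]`,
`A[1/j]`, `A[j, 1/j]` in `F`).

* `exists_bound` : raw form, no integrality: `Cfin` is generated over `A[j]` by a finite set `g`,
  every generator is moved into `Cinf` by a power of `jinv`, every element of `Cmid` is moved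
  into `Cfin` by a power of `j`.
* `isIntegral_scale_inv`, `isIntegral_scale` : the monomial trick for integral elements.
* `exists_bound_of_isIntegral` : `Cfin`, `Cinf`, `Cmid` characterised by integrality over rings
  `Rfin`, `Rinf`, `Rmid` whose images in `F` are `A[j]`, `A[jinv]`, `A[j, jinv]`.
* `exists_bound_integralClosure` : the same for the three `integralClosure` subalgebras.
-/
import Mathlib
import Fermat.Agent.S18.FormalFn

set_option autoImplicit false

namespace Fermat.Agent.S18.TorsGlue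

open Polynomial

variable {A F : Type*} [CommRing A] [CommRing F] [Algebra A F]

/-- Multiplication by a unit `j` (with inverse `jinv`) as an `A`-linear equivalence. -/
def mulEquiv (j jinv : F) (hj : j * jinv = 1) : F ≃ₗ[A] F where
  toFun x := j * x
  invFun x := jinv * x
  map_add' := mul_add j
  map_smul' c x := by simp
  left_inv x := by
    change jinv * (j * x) = x
    rw [← mul_assoc, mul_comm jinv j, hj, one_mul]
  right_inv x := by
    change j * (jinv * x) = x
    rw [← mul_assoc, hj, one_mul]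

theorem mulEquiv_pow_apply (j jinv : F) (hj : j * jinv = 1) (k : ℕ) (x : F) :
    ((mulEquiv (A := A) j jinv hj) ^ k) x = j ^ k * x := by
  induction k generalizing x with
  | zero => simp
  | succ k ih =>
    rw [pow_succ, LinearEquiv.mul_apply, ih, pow_succ, mul_assoc]
    rfl

theorem mulEquiv_symm_pow_apply (j jinv : F) (hj : j * jinv = 1) (k : ℕ) (x : F) :
    ((mulEquiv (A := A) j jinv hj).symm ^ k) x = jinv ^ k * x := by
  induction k generalizing x with
  | zero => simp
  | succ k ih =>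
    rw [pow_succ, LinearEquiv.mul_apply, ih, pow_succ, mul_assoc]
    rfl

/-- **Raw torsion bound** (no integrality): the hypothesis `htors` of
`IdemPatch.exists_mem_inf_of_idem`. -/
theorem exists_bound [IsDomain A] (j jinv : F) (hj : j * jinv = 1)
    (Cfin Cinf Cmid : Subalgebra A F) (hjfin : j ∈ Cfin) (hjinf : jinv ∈ Cinf)
    (g : Finset F) (hg : ∀ x ∈ g, x ∈ Cfin)
    (hgen : ∀ x ∈ Cfin, x ∈ Submodule.span A {z : F | ∃ x₀ ∈ g, ∃ k : ℕ, z = j ^ k * x₀})
    (hUV : ∀ x ∈ g, ∃ K : ℕ, jinv ^ K * x ∈ Cinf)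
    (hmid : ∀ y ∈ Cmid, ∃ k : ℕ, j ^ k * y ∈ Cfin) :
    ∃ c₀ : A, c₀ ≠ 0 ∧ ∀ (c : A) (y : F), c ≠ 0 → y ∈ Cmid →
      c • y ∈ Subalgebra.toSubmodule Cfin ⊔ Subalgebra.toSubmodule Cinf →
      c₀ • y ∈ Subalgebra.toSubmodule Cfin ⊔ Subalgebra.toSubmodule Cinf := by
  obtain ⟨c₀, hc₀, h⟩ := FormalFn.exists_bound_cech (mulEquiv (A := A) j jinv hj)
    (Subalgebra.toSubmodule Cfin) (Subalgebra.toSubmodule Cinf) g
    (fun x hx => hg x hx)
    (fun x hx => Cfin.mul_mem hjfin hx)
    (fun x hx => by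
      have h1 := hgen x hx
      have h2 : {z : F | ∃ x₀ ∈ g, ∃ k : ℕ, z = (mulEquiv (A := A) j jinv hj ^ k) x₀} =
          {z : F | ∃ x₀ ∈ g, ∃ k : ℕ, z = j ^ k * x₀} := by
        ext z
        simp only [mulEquiv_pow_apply]
      rw [h2]
      exact h1)
    (fun x hx => Cinf.mul_mem hjinf hx)
    (fun x hx => by
      obtain ⟨K, hK⟩ := hUV x hx
      exact ⟨K, by rw [mulEquiv_symm_pow_apply]; exact hK⟩)
  refine ⟨c₀, hc₀, fun c y hc hy hcy => h c y hc ?_ hcy⟩
  obtain ⟨k, hk⟩ := hmid y hy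
  exact ⟨k, by rw [mulEquiv_pow_apply]; exact hk⟩

/-! ### The monomial trick -/

/-- Elements of `A[j]` are moved into `A[jinv]` by high powers of `jinv`. -/
theorem exists_pow_mul_mem_adjoin_inv (j jinv : F) (hj : j * jinv = 1) {a : F}
    (ha : a ∈ Algebra.adjoin A {j}) :
    ∃ d : ℕ, ∀ m : ℕ, d ≤ m → jinv ^ m * a ∈ Algebra.adjoin A {jinv} := by
  have hjinv : jinv ∈ Algebra.adjoin A {jinv} := Algebra.subset_adjoin (Set.mem_singleton _)
  induction ha using Algebra.adjoin_induction with
  | mem x hx =>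
    rw [Set.mem_singleton_iff] at hx
    subst hx
    refine ⟨1, fun m hm => ?_⟩
    obtain ⟨n, rfl⟩ := Nat.exists_eq_add_of_le hm
    rw [add_comm, pow_succ, mul_assoc, mul_comm jinv x, hj, mul_one]
    exact Subalgebra.pow_mem _ hjinv _
  | algebraMap r =>
    refine ⟨0, fun m _ => ?_⟩
    exact Subalgebra.mul_mem _ (Subalgebra.pow_mem _ hjinv _) (Subalgebra.algebraMap_mem _ r)
  | add x y _ _ hx hy =>
    obtain ⟨d₁, h₁⟩ := hx
    obtain ⟨d₂, h₂⟩ := hy
    refine ⟨max d₁ d₂, fun m hm => ?_⟩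
    rw [mul_add]
    exact Subalgebra.add_mem _ (h₁ m (le_trans (le_max_left _ _) hm))
      (h₂ m (le_trans (le_max_right _ _) hm))
  | mul x y _ _ hx hy =>
    obtain ⟨d₁, h₁⟩ := hx
    obtain ⟨d₂, h₂⟩ := hy
    refine ⟨d₁ + d₂, fun m hm => ?_⟩
    obtain ⟨n, rfl⟩ := Nat.exists_eq_add_of_le hm
    have e : jinv ^ (d₁ + d₂ + n) * (x * y) = (jinv ^ d₁ * x) * (jinv ^ (d₂ + n) * y) := by
      rw [add_assoc, pow_add]; ring
    rw [e]
    exact Subalgebra.mul_mem _ (h₁ d₁ le_rfl) (h₂ (d₂ + n) (Nat.le_add_right _ _))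

/-- Elements of `A[j, jinv]` are moved into `A[j]` by high powers of `j`. -/
theorem exists_pow_mul_mem_adjoin (j jinv : F) (hj : j * jinv = 1) {a : F}
    (ha : a ∈ Algebra.adjoin A {j, jinv}) :
    ∃ d : ℕ, ∀ m : ℕ, d ≤ m → j ^ m * a ∈ Algebra.adjoin A {j} := by
  have hjm : j ∈ Algebra.adjoin A {j} := Algebra.subset_adjoin (Set.mem_singleton _)
  induction ha using Algebra.adjoin_induction with
  | mem x hx =>
    rcases hx with hx | hx
    · subst hx
      exact ⟨0, fun m _ => Subalgebra.mul_mem _ (Subalgebra.pow_mem _ hjm _) hjm⟩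
    · rw [Set.mem_singleton_iff] at hx
      subst hx
      refine ⟨1, fun m hm => ?_⟩
      obtain ⟨n, rfl⟩ := Nat.exists_eq_add_of_le hm
      rw [add_comm, pow_succ, mul_assoc, hj, mul_one]
      exact Subalgebra.pow_mem _ hjm _
  | algebraMap r =>
    refine ⟨0, fun m _ => ?_⟩
    exact Subalgebra.mul_mem _ (Subalgebra.pow_mem _ hjm _) (Subalgebra.algebraMap_mem _ r)
  | add x y _ _ hx hy =>
    obtain ⟨d₁, h₁⟩ := hx
    obtain ⟨d₂, h₂⟩ := hy
    refine ⟨max d₁ d₂, fun m hm => ?_⟩
    rw [mul_add]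
    exact Subalgebra.add_mem _ (h₁ m (le_trans (le_max_left _ _) hm))
      (h₂ m (le_trans (le_max_right _ _) hm))
  | mul x y _ _ hx hy =>
    obtain ⟨d₁, h₁⟩ := hx
    obtain ⟨d₂, h₂⟩ := hy
    refine ⟨d₁ + d₂, fun m hm => ?_⟩
    obtain ⟨n, rfl⟩ := Nat.exists_eq_add_of_le hm
    have e : j ^ (d₁ + d₂ + n) * (x * y) = (j ^ d₁ * x) * (j ^ (d₂ + n) * y) := by
      rw [add_assoc, pow_add]; ring
    rw [e]
    exact Subalgebra.mul_mem _ (h₁ d₁ le_rfl) (h₂ (d₂ + n) (Nat.le_add_right _ _))

omit [Algebra A F] in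
/-- Abstract scaling of integral elements: if high powers of `s` move the image of `R` into the
image of `R'`, then high powers of `s` move `R`-integral elements to `R'`-integral elements. -/
theorem isIntegral_scale_of {R R' : Type*} [CommRing R] [CommRing R'] [Algebra R F]
    [Algebra R' F] (s : F)
    (hs : ∀ a : R, ∃ d : ℕ, ∀ m : ℕ, d ≤ m →
      s ^ m * algebraMap R F a ∈ Set.range (algebraMap R' F))
    {x : F} (hx : IsIntegral R x) : ∃ K : ℕ, ∀ n : ℕ, K ≤ n → IsIntegral R' (s ^ n * x) := by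
  rcases subsingleton_or_nontrivial F with hF | hF
  · exact ⟨0, fun n _ => ⟨1, monic_one, Subsingleton.elim _ _⟩⟩
  obtain ⟨p, hp, hpx⟩ := hx
  choose d hd using hs
  refine ⟨(Finset.range p.natDegree).sup (fun i => d (p.coeff i)) + 1, fun n hn => ?_⟩
  set P : F[X] := p.map (algebraMap R F) with hP
  have hPm : P.Monic := hp.map _
  have hPx : P.eval x = 0 := by
    rw [hP, eval_map]; exact hpx
  have hQl : scaleRoots P (s ^ n) ∈ Polynomial.lifts (algebraMap R' F) := by
    rw [Polynomial.lifts_iff_coeff_lifts]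
    intro i
    rw [coeff_scaleRoots]
    rcases lt_trichotomy i P.natDegree with hi | hi | hi
    · have hi' : i < p.natDegree := lt_of_lt_of_le hi natDegree_map_le
      obtain ⟨e, he⟩ : ∃ e, P.natDegree - i = e + 1 := ⟨P.natDegree - i - 1, by omega⟩
      have h1 : d (p.coeff i) ≤ n * (e + 1) := by
        have h2 : d (p.coeff i) ≤ (Finset.range p.natDegree).sup (fun i => d (p.coeff i)) :=
          Finset.le_sup (f := fun i => d (p.coeff i)) (Finset.mem_range.mpr hi')
        nlinarith
      have h3 := hd (p.coeff i) (n * (e + 1)) h1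
      rw [he, ← pow_mul, hP, coeff_map, mul_comm]
      exact h3
    · subst hi
      rw [Nat.sub_self, pow_zero, mul_one]
      have : P.coeff P.natDegree = 1 := hPm
      rw [this]
      exact ⟨1, map_one _⟩
    · rw [coeff_eq_zero_of_natDegree_lt hi, zero_mul]
      exact ⟨0, map_zero _⟩
  have hQm : (scaleRoots P (s ^ n)).Monic := (monic_scaleRoots_iff _).mpr hPm
  obtain ⟨q, hq, -, hqm⟩ := Polynomial.lifts_and_degree_eq_and_monic hQl hQm
  refine ⟨q, hqm, ?_⟩
  rw [← eval_map, hq]
  have h4 := scaleRoots_eval₂_eq_zero (p := P) (RingHom.id F) (r := x) (s := s ^ n) hPx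
  simpa using h4

/-- Monomial trick, first half: an element integral over (a ring with image in) `A[j]` becomes
integral over (a ring whose image contains) `A[jinv]` after multiplication by a high power of
`jinv`. -/
theorem isIntegral_scale_inv (j jinv : F) (hj : j * jinv = 1)
    {R R' : Type*} [CommRing R] [CommRing R'] [Algebra R F] [Algebra R' F]
    (hR : ∀ a : R, algebraMap R F a ∈ Algebra.adjoin A {j})
    (hR' : ∀ b ∈ Algebra.adjoin A {jinv}, b ∈ Set.range (algebraMap R' F))
    {x : F} (hx : IsIntegral R x) : ∃ K : ℕ, ∀ n : ℕ, K ≤ n → IsIntegral R' (jinv ^ n * x) := by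
  refine isIntegral_scale_of jinv (fun a => ?_) hx
  obtain ⟨d, hd⟩ := exists_pow_mul_mem_adjoin_inv (A := A) j jinv hj (hR a)
  exact ⟨d, fun m hm => hR' _ (hd m hm)⟩

/-- Monomial trick, second half: an element integral over (a ring with image in) `A[j, jinv]`
becomes integral over (a ring whose image contains) `A[j]` after multiplication by a high power
of `j`. -/
theorem isIntegral_scale (j jinv : F) (hj : j * jinv = 1)
    {R R' : Type*} [CommRing R] [CommRing R'] [Algebra R F] [Algebra R' F]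
    (hR : ∀ a : R, algebraMap R F a ∈ Algebra.adjoin A {j, jinv})
    (hR' : ∀ b ∈ Algebra.adjoin A {j}, b ∈ Set.range (algebraMap R' F))
    {y : F} (hy : IsIntegral R y) : ∃ k : ℕ, ∀ n : ℕ, k ≤ n → IsIntegral R' (j ^ n * y) := by
  refine isIntegral_scale_of j (fun a => ?_) hy
  obtain ⟨d, hd⟩ := exists_pow_mul_mem_adjoin (A := A) j jinv hj (hR a)
  exact ⟨d, fun m hm => hR' _ (hd m hm)⟩

/-! ### From module-finiteness over `A[j]` to the monomial span -/

/-- The `A`-span of the monomials `j ^ k * x₀` is stable under multiplication by `A[j]`. -/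
theorem mul_mem_span_monomials (j : F) (g : Finset F) {a z : F}
    (ha : a ∈ Algebra.adjoin A {j})
    (hz : z ∈ Submodule.span A {z : F | ∃ x₀ ∈ g, ∃ k : ℕ, z = j ^ k * x₀}) :
    a * z ∈ Submodule.span A {z : F | ∃ x₀ ∈ g, ∃ k : ℕ, z = j ^ k * x₀} := by
  induction ha using Algebra.adjoin_induction generalizing z with
  | mem x hx =>
    rw [Set.mem_singleton_iff] at hx
    subst hx
    induction hz using Submodule.span_induction with
    | mem z hz =>
      obtain ⟨x₀, hx₀, k, rfl⟩ := hz
      refine Submodule.subset_span ⟨x₀, hx₀, k + 1, ?_⟩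
      rw [pow_succ, mul_comm (x ^ k) x, mul_assoc]
    | zero => rw [mul_zero]; exact Submodule.zero_mem _
    | add u w _ _ hu hw => rw [mul_add]; exact Submodule.add_mem _ hu hw
    | smul r u _ hu => rw [mul_smul_comm]; exact Submodule.smul_mem _ r hu
  | algebraMap r =>
    rw [← Algebra.smul_def]
    exact Submodule.smul_mem _ r hz
  | add x y _ _ hx hy =>
    rw [add_mul]
    exact Submodule.add_mem _ (hx hz) (hy hz)
  | mul x y _ _ hx hy =>
    rw [mul_assoc]
    exact hx (hy hz)

/-- **Torsion bound for integrality-defined charts.**  `Rfin`, `Rinf`, `Rmid` are any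
commutative rings acting on `F` with images `A[j]`, `⊇ A[jinv]`, `⊆ A[j, jinv]`; `Cfin` is the
set of `Rfin`-integral elements, `Cinf` contains the `Rinf`-integral elements, the elements of
`Cmid` are `Rmid`-integral; `Cfin` is spanned over `Rfin` by the finite set `g`. -/
theorem exists_bound_of_isIntegral [IsDomain A] (j jinv : F) (hj : j * jinv = 1)
    {Rfin Rinf Rmid : Type*} [CommRing Rfin] [CommRing Rinf] [CommRing Rmid]
    [Algebra Rfin F] [Algebra Rinf F] [Algebra Rmid F]
    (hRfin : Set.range (algebraMap Rfin F) = (Algebra.adjoin A {j} : Set F))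
    (hRinf : ∀ b ∈ Algebra.adjoin A {jinv}, b ∈ Set.range (algebraMap Rinf F))
    (hRmid : ∀ a : Rmid, algebraMap Rmid F a ∈ Algebra.adjoin A {j, jinv})
    (Cfin Cinf Cmid : Subalgebra A F)
    (hCfin : ∀ x, x ∈ Cfin ↔ IsIntegral Rfin x)
    (hCinf : ∀ x, IsIntegral Rinf x → x ∈ Cinf)
    (hCmid : ∀ x ∈ Cmid, IsIntegral Rmid x)
    (g : Finset F) (hg : ∀ x ∈ g, x ∈ Cfin)
    (hgen : ∀ x ∈ Cfin, x ∈ Submodule.span Rfin (g : Set F)) :
    ∃ c₀ : A, c₀ ≠ 0 ∧ ∀ (c : A) (y : F), c ≠ 0 → y ∈ Cmid →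
      c • y ∈ Subalgebra.toSubmodule Cfin ⊔ Subalgebra.toSubmodule Cinf →
      c₀ • y ∈ Subalgebra.toSubmodule Cfin ⊔ Subalgebra.toSubmodule Cinf := by
  have hRfin1 : ∀ a : Rfin, algebraMap Rfin F a ∈ Algebra.adjoin A {j} := by
    intro a
    have : algebraMap Rfin F a ∈ Set.range (algebraMap Rfin F) := ⟨a, rfl⟩
    rw [hRfin] at this
    exact this
  have hRfin2 : ∀ b ∈ Algebra.adjoin A {j}, b ∈ Set.range (algebraMap Rfin F) := by
    intro b hb
    rw [hRfin]
    exact hb
  refine exists_bound j jinv hj Cfin Cinf Cmid ?_ ?_ g hg ?_ ?_ ?_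
  · -- j ∈ Cfin
    obtain ⟨r, hr⟩ := hRfin2 j (Algebra.subset_adjoin (Set.mem_singleton _))
    rw [hCfin, ← hr]
    exact isIntegral_algebraMap
  · -- jinv ∈ Cinf
    obtain ⟨r, hr⟩ := hRinf jinv (Algebra.subset_adjoin (Set.mem_singleton _))
    apply hCinf
    rw [← hr]
    exact isIntegral_algebraMap
  · -- monomial span
    intro x hx
    have h1 := hgen x hx
    clear hx
    induction h1 using Submodule.span_induction with
    | mem z hz => exact Submodule.subset_span ⟨z, hz, 0, by simp⟩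
    | zero => exact Submodule.zero_mem _
    | add u w _ _ hu hw => exact Submodule.add_mem _ hu hw
    | smul r u _ hu =>
      rw [Algebra.smul_def]
      exact mul_mem_span_monomials j g (hRfin1 r) hu
  · intro x hx
    obtain ⟨K, hK⟩ := isIntegral_scale_inv (A := A) j jinv hj hRfin1 hRinf ((hCfin x).mp (hg x hx))
    exact ⟨K, hCinf _ (hK K le_rfl)⟩
  · intro y hy
    obtain ⟨k, hk⟩ := isIntegral_scale (A := A) j jinv hj hRmid hRfin2 (hCmid y hy)
    exact ⟨k, (hCfin _).mpr (hk k le_rfl)⟩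

/-- **Torsion bound for the three integral closures**, with the only hypothesis that the
integral closure of `A[j]` is a finite `A[j]`-module. -/
theorem exists_bound_integralClosure [IsDomain A] (j jinv : F) (hj : j * jinv = 1)
    (hfin : Module.Finite (Algebra.adjoin A {j}) (integralClosure (Algebra.adjoin A {j}) F)) :
    ∃ c₀ : A, c₀ ≠ 0 ∧ ∀ (c : A) (y : F), c ≠ 0 →
      y ∈ (integralClosure (Algebra.adjoin A {j, jinv}) F).restrictScalars A →
      c • y ∈ Subalgebra.toSubmodule ((integralClosure (Algebra.adjoin A {j}) F).restrictScalars A)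
          ⊔ Subalgebra.toSubmodule
            ((integralClosure (Algebra.adjoin A {jinv}) F).restrictScalars A) →
      c₀ • y ∈ Subalgebra.toSubmodule
            ((integralClosure (Algebra.adjoin A {j}) F).restrictScalars A)
          ⊔ Subalgebra.toSubmodule
            ((integralClosure (Algebra.adjoin A {jinv}) F).restrictScalars A) := by
  have hfg : (Subalgebra.toSubmodule (integralClosure (Algebra.adjoin A {j}) F)).FG :=
    Module.Finite.iff_fg.mp hfin
  obtain ⟨g, hg⟩ := hfg
  refine exists_bound_of_isIntegral (Rfin := Algebra.adjoin A {j})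
    (Rinf := Algebra.adjoin A {jinv}) (Rmid := Algebra.adjoin A {j, jinv}) j jinv hj
    ?_ ?_ ?_ _ _ _ ?_ ?_ ?_ g ?_ ?_
  · ext b
    simp
  · intro b hb
    exact ⟨⟨b, hb⟩, rfl⟩
  · intro a
    exact a.2
  · intro x
    rfl
  · intro x hx
    exact hx
  · intro x hx
    exact hx
  · intro x hx
    have : x ∈ Submodule.span (Algebra.adjoin A {j}) (g : Set F) := Submodule.subset_span hx
    rw [hg] at this
    exact this
  · intro x hx
    rw [hg]
    exact hx

end Fermat.Agent.S18.TorsGlue
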