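/-
S18, route K, core row L4 (auxiliary file): the endgame in the `CoreDefs` representation, with
the outputs of the globalised machine `(N)` on the two charts and the ring-theoretic facts about
the two charts taken as hypotheses.

Charts are the subalgebras `A0[t]`, `A0[t⁻¹]` of the base field `M`, acting on `E` through `M`;
the Gauss ring `O''` enters only through the witnesses of `InGauss` / `InPiGauss`.
-/
import Mathlib
import Fermat.Agent.S18.CoreDefs
import Fermat.Agent.S18.IdemPatch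
import Fermat.Agent.S18.TorsGlue
import Fermat.Agent.S18.IntConst
import Fermat.Agent.S18.IntTrick

set_option autoImplicit false

namespace Fermat.Agent.S18.CoreAux

open Polynomial Fermat.Agent.S18.CoreDefs

/-- Transport of integrality along rings with comparable images. -/
theorem isIntegral_of_range_subset {R S E : Type*} [CommRing R] [CommRing S] [CommRing E]
    [Algebra R E] [Algebra S E]
    (h : ∀ r : R, algebraMap R E r ∈ Set.range (algebraMap S E)) {x : E} (hx : IsIntegral R x) :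
    IsIntegral S x := by
  obtain ⟨p, hp, hpx⟩ := hx
  have hl : p.map (algebraMap R E) ∈ Polynomial.lifts (algebraMap S E) :=
    (Polynomial.lifts_iff_coeff_lifts _).mpr (fun i => by rw [coeff_map]; exact h _)
  obtain ⟨q, hq, -, hqm⟩ := Polynomial.lifts_and_natDegree_eq_and_monic hl (hp.map _)
  refine ⟨q, hqm, ?_⟩
  rw [← eval_map, hq, eval_map]
  exact hpx

section Reflect

variable {A0 : Type*} [CommRing A0] {M : Type*} [Field M] [Algebra A0 M]

/-- `t ^ N * Q(t⁻¹) = (reflect N Q)(t)`. -/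
theorem aeval_reflect {t : M} (ht0 : t ≠ 0) (N : ℕ) (Q : A0[X]) (hQ : Q.natDegree ≤ N) :
    aeval t (Q.reflect N) = t ^ N * aeval t⁻¹ Q := by
  let _ : Invertible (t⁻¹) := invertibleOfNonzero (inv_ne_zero ht0)
  have h := eval₂_reflect_mul_pow (algebraMap A0 M) (t⁻¹) N Q hQ
  rw [invOf_eq_inv, inv_inv] at h
  rw [aeval_def, aeval_def, ← h, inv_pow, mul_comm, mul_assoc,
    inv_mul_cancel₀ (pow_ne_zero N ht0), mul_one]

theorem mem_chart_iff (t x : M) : x ∈ chart A0 M t ↔ ∃ Q : A0[X], aeval t Q = x := by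
  rw [chart, Algebra.adjoin_singleton_eq_range_aeval]
  exact Iff.rfl

/-- Transfer of "not divisible by `π`" from the chart at infinity to the finite chart, after
multiplication by a power of `t`. -/
theorem exists_pow_mul_of_not_dvd [Nontrivial A0] (t : M) (ht : Transcendental A0 t) (π : A0)
    (s : chart A0 M t⁻¹) (hs : ¬ unif A0 M t⁻¹ π ∣ s) :
    ∃ (K : ℕ) (r : chart A0 M t), (r : M) = t ^ K * (s : M) ∧ ¬ unif A0 M t π ∣ r := by
  have ht0 : t ≠ 0 := fun h => ht (h ▸ isAlgebraic_zero)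
  obtain ⟨Q, hQ⟩ := (mem_chart_iff (A0 := A0) t⁻¹ (s : M)).mp s.2
  refine ⟨Q.natDegree, ⟨aeval t (Q.reflect Q.natDegree),
    (mem_chart_iff t _).mpr ⟨_, rfl⟩⟩, ?_, ?_⟩
  · rw [← hQ]
    exact aeval_reflect ht0 _ Q le_rfl
  · rintro ⟨m, hm⟩
    obtain ⟨P, hP⟩ := (mem_chart_iff (A0 := A0) t (m : M)).mp m.2
    have h1 : aeval t (Q.reflect Q.natDegree) = aeval t (C π * P) := by
      have h2 := congrArg (fun z : chart A0 M t => (z : M)) hm
      simp only [unif, MulMemClass.coe_mul] at h2
      rw [h2, map_mul, aeval_C, hP]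
      rfl
    have h3 : Q.reflect Q.natDegree = C π * P := (transcendental_iff_injective.mp ht) h1
    have h4 : Q = C π * P.reflect Q.natDegree := by
      rw [← reflect_C_mul, ← h3, reflect_reflect]
    apply hs
    refine ⟨⟨aeval t⁻¹ (P.reflect Q.natDegree), (mem_chart_iff t⁻¹ _).mpr ⟨_, rfl⟩⟩, ?_⟩
    apply Subtype.ext
    simp only [unif, MulMemClass.coe_mul]
    rw [← hQ]
    conv_lhs => rw [h4]
    rw [map_mul, aeval_C]
    rfl

/-- The fraction-field property of the finite chart passes to the chart at infinity. -/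
theorem hgen_inv (t : M) (ht0 : t ≠ 0)
    (hgen : ∀ m : M, ∃ a b : chart A0 M t, b ≠ 0 ∧ m * (b : M) = (a : M)) :
    ∀ m : M, ∃ a b : chart A0 M t⁻¹, b ≠ 0 ∧ m * (b : M) = (a : M) := by
  intro m
  obtain ⟨a, b, hb, hab⟩ := hgen m
  obtain ⟨P, hP⟩ := (mem_chart_iff (A0 := A0) t (a : M)).mp a.2
  obtain ⟨Q, hQ⟩ := (mem_chart_iff (A0 := A0) t (b : M)).mp b.2
  set N := max P.natDegree Q.natDegree with hN
  have hPr : aeval t⁻¹ (P.reflect N) = (t⁻¹) ^ N * (a : M) := by
    have := aeval_reflect (A0 := A0) (inv_ne_zero ht0) N P (le_max_left _ _)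
    rw [inv_inv, hP] at this
    exact this
  have hQr : aeval t⁻¹ (Q.reflect N) = (t⁻¹) ^ N * (b : M) := by
    have := aeval_reflect (A0 := A0) (inv_ne_zero ht0) N Q (le_max_right _ _)
    rw [inv_inv, hQ] at this
    exact this
  refine ⟨⟨aeval t⁻¹ (P.reflect N), (mem_chart_iff t⁻¹ _).mpr ⟨_, rfl⟩⟩,
    ⟨aeval t⁻¹ (Q.reflect N), (mem_chart_iff t⁻¹ _).mpr ⟨_, rfl⟩⟩, ?_, ?_⟩
  · intro h
    have h1 := congrArg (fun z : chart A0 M t⁻¹ => (z : M)) h
    simp only [ZeroMemClass.coe_zero] at h1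
    rw [hQr] at h1
    rcases mul_eq_zero.mp h1 with h2 | h2
    · exact pow_ne_zero N (inv_ne_zero ht0) h2
    · exact hb (Subtype.ext h2)
  · change m * aeval t⁻¹ (Q.reflect N) = aeval t⁻¹ (P.reflect N)
    rw [hPr, hQr, ← hab]
    ring

end Reflect

variable {A0 : Type*} [CommRing A0] (M : Type*) [Field M] [Algebra A0 M]
  (E : Type*) [Field E] [Algebra M E] [Algebra A0 E] [IsScalarTower A0 M E]

/-- If `e ∈ O''` is idempotent modulo `π O''` and `a` is integral over the chart with
`e - a ∈ π O''`, then `a² - a` is `π` times an element integral over the chart. -/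
theorem exists_sq_sub_eq_smul (t : M) [IsIntegrallyClosed (chart A0 M t)]
    [IsFractionRing (chart A0 M t) M] (π : A0) (hπE : algebraMap A0 E π ≠ 0)
    (hp : Prime (unif A0 M t π)) (e : E) (he : InGauss A0 M E t π e)
    (hid : InPiGauss A0 M E t π (e * e - e)) (a : E) (ha : IsIntegral (chart A0 M t) a)
    (hN : InPiGauss A0 M E t π (e - a)) :
    ∃ x : E, IsIntegral (chart A0 M t) x ∧ a ^ 2 - a = π • x := by
  obtain ⟨s₀, hs₀, hc₀⟩ := he
  obtain ⟨s₁, hs₁, c₁, hc₁, h1⟩ := hid
  obtain ⟨s₂, hs₂, c₂, hc₂, h2⟩ := hN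
  set P : E := algebraMap A0 E π with hP
  have hunif : ∀ y : E, (unif A0 M t π) • y = P * y := fun y => by
    rw [unif, algebraMap_smul, Algebra.smul_def]
  have hx : P * (P⁻¹ * (a ^ 2 - a)) = a ^ 2 - a := mul_inv_cancel_left₀ hπE _
  rw [Algebra.smul_def, Algebra.smul_def] at h1 h2
  rw [Algebra.smul_def] at hc₀
  refine ⟨P⁻¹ * (a ^ 2 - a), ?_, ?_⟩
  · refine IntTrick.isIntegral_of_smul_of_smul (M := M) (unif A0 M t π) (s₀ * s₁ * s₂) hp ?_ _
      ?_ ?_
    · intro h
      rcases hp.dvd_or_dvd h with h | h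
      · rcases hp.dvd_or_dvd h with h | h
        · exact hs₀ h
        · exact hs₁ h
      · exact hs₂ h
    · rw [hunif, hx]
      exact (ha.pow 2).sub ha
    · have hW : (s₀ * s₁ * s₂) • (P⁻¹ * (a ^ 2 - a)) =
          -(algebraMap (chart A0 M t) E s₁ * c₂ *
            (algebraMap (chart A0 M t) E s₀ * a + algebraMap (chart A0 M t) E s₀ * e
              - algebraMap (chart A0 M t) E s₀))
          + algebraMap (chart A0 M t) E s₀ * algebraMap (chart A0 M t) E s₂ * c₁ := by
        rw [Algebra.smul_def, map_mul, map_mul]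
        apply mul_left_cancel₀ hπE
        linear_combination (algebraMap (chart A0 M t) E s₀ * algebraMap (chart A0 M t) E s₁ *
            algebraMap (chart A0 M t) E s₂) * hx
          + (algebraMap (chart A0 M t) E s₀ * algebraMap (chart A0 M t) E s₂) * h1
          - (algebraMap (chart A0 M t) E s₁ * (algebraMap (chart A0 M t) E s₀ * a
              + algebraMap (chart A0 M t) E s₀ * e - algebraMap (chart A0 M t) E s₀)) * h2
      rw [hW]
      exact (((isIntegral_algebraMap.mul hc₂).mul (((isIntegral_algebraMap.mul ha).add hc₀).sub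
        isIntegral_algebraMap)).neg).add ((isIntegral_algebraMap.mul isIntegral_algebraMap).mul hc₁)
  · rw [Algebra.smul_def, hx]


section Images

variable (A0)

/-- The image of the chart `A0[t] ⊆ M` in `E` is `A0[t]` computed in `E`. -/
theorem algebraMap_chart_mem (t : M) (a : chart A0 M t) :
    algebraMap (chart A0 M t) E a ∈ Algebra.adjoin A0 {algebraMap M E t} := by
  have h := AlgHom.map_adjoin_singleton (IsScalarTower.toAlgHom A0 M E) t
  rw [IsScalarTower.coe_toAlgHom'] at h
  rw [← h]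
  exact ⟨(a : M), a.2, rfl⟩

theorem mem_range_algebraMap_chart (t : M) (b : E)
    (hb : b ∈ Algebra.adjoin A0 {algebraMap M E t}) :
    b ∈ Set.range (algebraMap (chart A0 M t) E) := by
  have h := AlgHom.map_adjoin_singleton (IsScalarTower.toAlgHom A0 M E) t
  rw [IsScalarTower.coe_toAlgHom'] at h
  rw [← h] at hb
  obtain ⟨a, ha, rfl⟩ := hb
  exact ⟨⟨a, ha⟩, rfl⟩

theorem algebraMap_adjoin_pair_mem (t u : M) (a : Algebra.adjoin A0 {t, u}) :
    algebraMap (Algebra.adjoin A0 {t, u}) E a ∈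
      Algebra.adjoin A0 {algebraMap M E t, algebraMap M E u} := by
  have h := AlgHom.map_adjoin (IsScalarTower.toAlgHom A0 M E) {t, u}
  rw [IsScalarTower.coe_toAlgHom', Set.image_pair] at h
  rw [← h]
  exact ⟨(a : M), a.2, rfl⟩

end Images

omit [Algebra A0 E] [IsScalarTower A0 M E] in
/-- Integrality over the chart `A0[t]` implies integrality over `A0[t, u]`. -/
theorem isIntegral_adjoin_pair_left (t u : M) {x : E} (hx : IsIntegral (chart A0 M t) x) :
    IsIntegral (Algebra.adjoin A0 {t, u}) x := by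
  refine isIntegral_of_range_subset (fun r => ?_) hx
  exact ⟨⟨(r : M), Algebra.adjoin_mono (by simp) r.2⟩, rfl⟩

omit [Algebra A0 E] [IsScalarTower A0 M E] in
theorem isIntegral_adjoin_pair_right (t u : M) {x : E} (hx : IsIntegral (chart A0 M u) x) :
    IsIntegral (Algebra.adjoin A0 {t, u}) x := by
  refine isIntegral_of_range_subset (fun r => ?_) hx
  exact ⟨⟨(r : M), Algebra.adjoin_mono (by simp) r.2⟩, rfl⟩

/-- If `af`, `ai` are integral over the two charts and both congruent to `e` modulo `π O''`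
(each in its own chart), then `af - ai` is `π` times an element integral over
`A0[t, t⁻¹]`. -/
theorem exists_sub_eq_smul [Nontrivial A0] (t : M) (ht : Transcendental A0 t)
    [IsIntegrallyClosed (chart A0 M t)] [IsFractionRing (chart A0 M t) M] (π : A0)
    (hπE : algebraMap A0 E π ≠ 0) (hpf : Prime (unif A0 M t π)) (e af ai : E)
    (haf : IsIntegral (chart A0 M t) af) (hai : IsIntegral (chart A0 M t⁻¹) ai)
    (hNf : InPiGauss A0 M E t π (e - af)) (hNi : InPiGauss A0 M E t⁻¹ π (e - ai)) :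
    ∃ g : E, IsIntegral (Algebra.adjoin A0 {t, t⁻¹}) g ∧ af - ai = π • g := by
  have ht0 : t ≠ 0 := fun h => ht (h ▸ isAlgebraic_zero)
  obtain ⟨s₂, hs₂, c₂, hc₂, h2⟩ := hNf
  obtain ⟨s₂', hs₂', c₂', hc₂', h2'⟩ := hNi
  obtain ⟨K, r, hr, hrdvd⟩ := exists_pow_mul_of_not_dvd t ht π s₂' hs₂'
  set P : E := algebraMap A0 E π with hP
  set tE : E := algebraMap M E t with htE
  set tinvE : E := algebraMap M E t⁻¹ with htinvE
  have hj : tE * tinvE = 1 := by
    rw [htE, htinvE, ← map_mul, mul_inv_cancel₀ ht0, map_one]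
  have hunif : ∀ y : E, (unif A0 M t π) • y = P * y := fun y => by
    rw [unif, algebraMap_smul, Algebra.smul_def]
  rw [Algebra.smul_def, Algebra.smul_def] at h2 h2'
  -- monomial trick
  have hR : ∀ a : chart A0 M t⁻¹, algebraMap (chart A0 M t⁻¹) E a ∈
      Algebra.adjoin A0 {tE, tinvE} := fun a => by
    have hsub : ({tinvE} : Set E) ⊆ {tE, tinvE} := fun z hz => Or.inr hz
    exact Algebra.adjoin_mono hsub (algebraMap_chart_mem A0 M E t⁻¹ a)
  have hR' : ∀ b ∈ Algebra.adjoin A0 {tE}, b ∈ Set.range (algebraMap (chart A0 M t) E) :=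
    fun b hb => mem_range_algebraMap_chart A0 M E t b hb
  obtain ⟨N₁, hN₁⟩ := TorsGlue.isIntegral_scale (A := A0) tE tinvE hj hR hR' hai
  obtain ⟨N₂, hN₂⟩ := TorsGlue.isIntegral_scale (A := A0) tE tinvE hj hR hR' hc₂'
  set N := max N₁ N₂ with hN
  have hd : P * (P⁻¹ * (af - ai)) = af - ai := mul_inv_cancel_left₀ hπE _
  have htEint : IsIntegral (chart A0 M t) tE :=
    (isIntegral_algebraMap (R := chart A0 M t) (x := coord A0 M t))
  have hrE : algebraMap (chart A0 M t) E r = tE ^ K * algebraMap (chart A0 M t⁻¹) E s₂' := by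
    change algebraMap M E (r : M) = _
    rw [hr, map_mul, map_pow]
    rfl
  have hy : IsIntegral (chart A0 M t) (tE ^ N * (P⁻¹ * (af - ai))) := by
    refine IntTrick.isIntegral_of_smul_of_smul (M := M) (unif A0 M t π) (s₂ * r) hpf ?_ _ ?_ ?_
    · intro h
      rcases hpf.dvd_or_dvd h with h | h
      · exact hs₂ h
      · exact hrdvd h
    · have : (unif A0 M t π) • (tE ^ N * (P⁻¹ * (af - ai))) = tE ^ N * af - tE ^ N * ai := by
        rw [hunif]
        linear_combination (tE ^ N) * hd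
      rw [this]
      exact ((htEint.pow N).mul haf).sub (hN₁ N (le_max_left _ _))
    · have hW : (s₂ * r) • (tE ^ N * (P⁻¹ * (af - ai))) =
          algebraMap (chart A0 M t) E s₂ * (tE ^ (N + K) * c₂')
            - algebraMap (chart A0 M t) E r * (tE ^ N * c₂) := by
        rw [Algebra.smul_def, map_mul, hrE]
        apply mul_left_cancel₀ hπE
        linear_combination (algebraMap (chart A0 M t) E s₂ * tE ^ K *
            algebraMap (chart A0 M t⁻¹) E s₂' * tE ^ N) * hd
          + (algebraMap (chart A0 M t) E s₂ * tE ^ (N + K)) * h2'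
          - (tE ^ K * algebraMap (chart A0 M t⁻¹) E s₂' * tE ^ N) * h2
      rw [hW]
      exact (isIntegral_algebraMap.mul (hN₂ (N + K) (le_trans (le_max_right _ _)
        (Nat.le_add_right _ _)))).sub (isIntegral_algebraMap.mul ((htEint.pow N).mul hc₂))
  refine ⟨P⁻¹ * (af - ai), ?_, ?_⟩
  · have h1 : P⁻¹ * (af - ai) = tinvE ^ N * (tE ^ N * (P⁻¹ * (af - ai))) := by
      rw [← mul_assoc, ← mul_pow, mul_comm tinvE, hj, one_pow, one_mul]
    rw [h1]
    have htinv : IsIntegral (Algebra.adjoin A0 {t, t⁻¹}) tinvE :=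
      isIntegral_algebraMap (R := Algebra.adjoin A0 {t, t⁻¹})
        (x := ⟨t⁻¹, Algebra.subset_adjoin (by simp)⟩)
    exact (htinv.pow N).mul (isIntegral_adjoin_pair_left M E t t⁻¹ hy)
  · rw [Algebra.smul_def, hd]


/-- **Core row L4, auxiliary form.**  The endgame with the outputs `hNf`, `hNi` of the
globalised machine on the two charts, and the ring-theoretic facts about the two charts, as
hypotheses. -/
theorem exists_const_of_lifts [IsDomain A0] [IsIntegrallyClosed A0]
    (π : A0) (hπ0 : π ≠ 0) (harch : ∀ c : A0, c ≠ 0 → ∃ n : ℕ, c ∣ π ^ n)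
    (t : M) (ht : Transcendental A0 t)
    [IsIntegrallyClosed (chart A0 M t)] [IsIntegrallyClosed (chart A0 M t⁻¹)]
    [IsFractionRing (chart A0 M t) M] [IsFractionRing (chart A0 M t⁻¹) M]
    (hpf : Prime (unif A0 M t π)) (hpi : Prime (unif A0 M t⁻¹ π))
    (hfin : Module.Finite (chart A0 M t) (integralClosure (chart A0 M t) E))
    (hconst : ∀ h : E, IsIntegral A0 h → ∃ a : A0, h = algebraMap A0 E a)
    (e : E) (hef : InGauss A0 M E t π e) (hei : InGauss A0 M E t⁻¹ π e)
    (hidf : InPiGauss A0 M E t π (e * e - e)) (hidi : InPiGauss A0 M E t⁻¹ π (e * e - e))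
    (hNf : ∃ af : E, IsIntegral (chart A0 M t) af ∧ InPiGauss A0 M E t π (e - af))
    (hNi : ∃ ai : E, IsIntegral (chart A0 M t⁻¹) ai ∧ InPiGauss A0 M E t⁻¹ π (e - ai)) :
    ∃ a : A0, InPiGauss A0 M E t π (e - algebraMap A0 E a) := by
  classical
  have ht0 : t ≠ 0 := fun h => ht (h ▸ isAlgebraic_zero)
  have hinjME : Function.Injective (algebraMap M E) := (algebraMap M E).injective
  have hπE : algebraMap A0 E π ≠ 0 := by
    intro h
    apply hpf.ne_zero
    apply Subtype.ext
    apply hinjME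
    change algebraMap M E (algebraMap A0 M π) = algebraMap M E 0
    rw [map_zero, ← h, IsScalarTower.algebraMap_apply A0 M E]
  obtain ⟨af, haf, hNf'⟩ := hNf
  obtain ⟨ai, hai, hNi'⟩ := hNi
  obtain ⟨xf, hxf, hxf'⟩ := exists_sq_sub_eq_smul M E t π hπE hpf e hef hidf af haf hNf'
  obtain ⟨xi, hxi, hxi'⟩ := exists_sq_sub_eq_smul M E t⁻¹ π hπE hpi e hei hidi ai hai hNi'
  obtain ⟨g, hg, hg'⟩ := exists_sub_eq_smul M E t ht π hπE hpf e af ai haf hai hNf' hNi'
  have hj : algebraMap M E t * algebraMap M E t⁻¹ = 1 := by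
    rw [← map_mul, mul_inv_cancel₀ ht0, map_one]
  -- finite generation of `Cfin`
  obtain ⟨s, hs⟩ := hfin.fg_top
  have hgen : ∀ x ∈ (integralClosure (chart A0 M t) E).restrictScalars A0,
      x ∈ Submodule.span (chart A0 M t) ((s.image Subtype.val : Finset E) : Set E) := by
    intro x hx
    have h1 : (⟨x, hx⟩ : integralClosure (chart A0 M t) E) ∈
        Submodule.span (chart A0 M t) (s : Set (integralClosure (chart A0 M t) E)) := by
      rw [hs]
      exact Submodule.mem_top
    have h2 := Submodule.mem_map_of_mem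
      (f := (integralClosure (chart A0 M t) E).val.toLinearMap) h1
    rw [Submodule.map_span] at h2
    rw [Finset.coe_image]
    exact h2
  have htors := TorsGlue.exists_bound_of_isIntegral (A := A0) (algebraMap M E t)
    (algebraMap M E t⁻¹) hj (Rfin := chart A0 M t) (Rinf := chart A0 M t⁻¹)
    (Rmid := Algebra.adjoin A0 {t, t⁻¹})
    (by
      ext b
      constructor
      · rintro ⟨a, rfl⟩
        exact algebraMap_chart_mem A0 M E t a
      · intro hb
        exact mem_range_algebraMap_chart A0 M E t b hb)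
    (mem_range_algebraMap_chart A0 M E t⁻¹)
    (algebraMap_adjoin_pair_mem A0 M E t t⁻¹)
    ((integralClosure (chart A0 M t) E).restrictScalars A0)
    ((integralClosure (chart A0 M t⁻¹) E).restrictScalars A0)
    ((integralClosure (Algebra.adjoin A0 {t, t⁻¹}) E).restrictScalars A0)
    (fun x => Iff.rfl) (fun x hx => hx) (fun x hx => hx)
    (s.image Subtype.val)
    (fun x hx => by
      obtain ⟨y, -, rfl⟩ := Finset.mem_image.mp hx
      exact y.2)
    hgen
  obtain ⟨h, hh1, hh2, x, hx, hhx⟩ := IdemPatch.exists_mem_inf_of_idem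
    ((integralClosure (chart A0 M t) E).restrictScalars A0)
    ((integralClosure (chart A0 M t⁻¹) E).restrictScalars A0)
    ((integralClosure (Algebra.adjoin A0 {t, t⁻¹}) E).restrictScalars A0)
    (fun y hy => isIntegral_adjoin_pair_left M E t t⁻¹ hy)
    (fun y hy => isIntegral_adjoin_pair_right M E t t⁻¹ hy)
    π hπ0 harch htors af ai haf hai ⟨xf, hxf, hxf'⟩ ⟨xi, hxi, hxi'⟩ ⟨g, hg, hg'⟩
  -- constants
  have hhA : IsIntegral A0 h := by
    refine IntConst.isIntegral_of_isIntegral_adjoin (algebraMap M E t)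
      ((transcendental_algebraMap_iff hinjME).mpr ht) h ?_ ?_
    · exact isIntegral_of_range_subset (R := chart A0 M t)
        (fun r => ⟨⟨algebraMap _ E r, algebraMap_chart_mem A0 M E t r⟩, rfl⟩) hh1
    · rw [← map_inv₀]
      exact isIntegral_of_range_subset (R := chart A0 M t⁻¹)
        (fun r => ⟨⟨algebraMap _ E r, algebraMap_chart_mem A0 M E t⁻¹ r⟩, rfl⟩) hh2
  obtain ⟨a, rfl⟩ := hconst h hhA
  refine ⟨a, ?_⟩
  obtain ⟨s₂, hs₂, c₂, hc₂, h2⟩ := hNf'
  have hx' : IsIntegral (chart A0 M t) x := hx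
  refine ⟨s₂, hs₂, c₂ - s₂ • x, hc₂.sub (hx'.smul s₂), ?_⟩
  have h3 : e - algebraMap A0 E a = (e - af) - (algebraMap A0 E a - af) := by ring
  rw [h3, smul_sub, h2, hhx, smul_sub, smul_comm]

end Fermat.Agent.S18.CoreAux
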