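/-
S18 (route K, bridge leaf G4): the Gauss ring of `K0(h)` is the integral closure of the Gauss
ring of `K0(j)` when `j = Nn(h) / Dd(h)` for integer polynomials `Nn` (monic), `Dd` of smaller
degree satisfying a Bezout identity with a constant that is a unit of `A0`.

* `transcendental_of_cover`, `transcendental_of_cover'` : transfer of transcendence between `h̃`
  and `j̃ = Nn(h̃)/Dd(h̃)` over a field.
* `mem_denom_iff`, `mem_gaussV_iff` : the denominators of `GaussCalc.gaussV` are the chart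
  elements not divisible by `π`.
* `gaussV_mem_or_inv_mem`, `gaussVS` : the Gauss ring is a valuation subring.
* `finite_of_cover`, `finrank_le_of_cover` : `K0(h)` is finite over `K0(j)`, of degree
  `≤ deg Nn`.
* `mem_gaussV_iff_isIntegral` : **(G4)(a)** `x ∈ gaussV A0 Mh h π ↔ IsIntegral (gaussV A0 Mj j π) x`.
-/
import Mathlib
import Fermat.Agent.S18.CoreDefs
import Fermat.Agent.S18.AdjoinChart
import Fermat.Agent.S18.GaussDefs

set_option autoImplicit false

namespace Fermat.Agent.S18.CoverGauss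

open Polynomial IntermediateField Fermat.Agent.S18.CoreDefs Fermat.Agent.S18.GaussCalc

/-! ### Transfer of transcendence along a rational function -/

section Abstract

variable {k κ : Type*} [Field k] [Field κ] [Algebra k κ]

/-- Integer polynomials evaluated at an element of a subring stay in the subring. -/
theorem aeval_int_mem {R : Type*} [CommRing R] (S : Subring R) {x : R} (hx : x ∈ S) (P : ℤ[X]) :
    aeval x P ∈ S := by
  rw [aeval_eq_sum_range]
  refine Subring.sum_mem _ (fun i _ => ?_)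
  rw [zsmul_eq_mul]
  exact S.mul_mem (intCast_mem S _) (S.pow_mem hx i)

/-- (T1) If `j̃ · D(h̃) = N(h̃)` with `N` monic of larger degree than `D` and `h̃` is
transcendental over `k`, then `j̃` is transcendental over `k`. -/
theorem transcendental_of_cover (Nn Dd : ℤ[X]) (hN : Nn.Monic) (hdeg : Dd.natDegree < Nn.natDegree)
    (hh jj : κ) (hrel : jj * aeval hh Dd = aeval hh Nn) (hht : Transcendental k hh) :
    Transcendental k jj := by
  intro hjalg
  apply hht
  have hjint : IsIntegral k jj := hjalg.isIntegral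
  have : Algebra.IsAlgebraic k k⟮jj⟯ := isAlgebraic_adjoin_simple hjint
  -- `hh` is a root of a monic polynomial over `k⟮jj⟯`
  let jL : k⟮jj⟯ := ⟨jj, mem_adjoin_simple_self k jj⟩
  let g : (k⟮jj⟯)[X] := Nn.map (Int.castRingHom k⟮jj⟯) - C jL * Dd.map (Int.castRingHom k⟮jj⟯)
  have hNm : (Nn.map (Int.castRingHom k⟮jj⟯)).Monic := hN.map _
  have hg : g.Monic := by
    refine hNm.sub_of_left ?_
    rw [degree_eq_natDegree hNm.ne_zero, hN.natDegree_map]
    have hle : (C jL * Dd.map (Int.castRingHom k⟮jj⟯)).degree ≤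
        (Dd.map (Int.castRingHom k⟮jj⟯)).degree := by
      calc (C jL * Dd.map (Int.castRingHom k⟮jj⟯)).degree
          ≤ (C jL).degree + (Dd.map (Int.castRingHom k⟮jj⟯)).degree := degree_mul_le _ _
        _ ≤ 0 + (Dd.map (Int.castRingHom k⟮jj⟯)).degree := add_le_add degree_C_le le_rfl
        _ = _ := zero_add _
    refine lt_of_le_of_lt hle ?_
    refine lt_of_le_of_lt (degree_map_le) ?_
    exact lt_of_le_of_lt degree_le_natDegree (by exact_mod_cast hdeg)
  have hroot : aeval hh g = 0 := by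
    simp only [g, map_sub, map_mul, aeval_C]
    have e1 : aeval hh (Nn.map (Int.castRingHom k⟮jj⟯)) = aeval hh Nn := by
      rw [aeval_def, eval₂_map, aeval_def]
      congr 1
    have e2 : aeval hh (Dd.map (Int.castRingHom k⟮jj⟯)) = aeval hh Dd := by
      rw [aeval_def, eval₂_map, aeval_def]
      congr 1
    rw [e1, e2, ← hrel]
    change jj * aeval hh Dd - jj * aeval hh Dd = 0
    exact sub_self _
  have halg : IsAlgebraic k⟮jj⟯ hh := ⟨g, hg.ne_zero, hroot⟩
  exact halg.restrictScalars k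

/-- (T2) If `j̃ · D(h̃) = N(h̃)`, `N` and `D` satisfy a Bezout identity with a constant that is
nonzero in `κ`, and `j̃` is transcendental over `k`, then `h̃` is transcendental over `k`. -/
theorem transcendental_of_cover' (Nn Dd U V : ℤ[X]) (c : ℤ) (hbez : U * Nn + V * Dd = C c)
    (hc : (c : κ) ≠ 0) (hh jj : κ) (hrel : jj * aeval hh Dd = aeval hh Nn)
    (hjt : Transcendental k jj) : Transcendental k hh := by
  intro hhalg
  apply hjt
  have hD : aeval hh Dd ≠ 0 := by
    intro h0
    have h1 : aeval hh Nn = 0 := by rw [← hrel, h0, mul_zero]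
    have h2 := congrArg (aeval hh) hbez
    rw [map_add, map_mul, map_mul, h0, h1, mul_zero, mul_zero, add_zero, aeval_C] at h2
    apply hc
    rw [h2]
    simp
  have hj : jj = aeval hh Nn / aeval hh Dd := by
    rw [← hrel, mul_div_cancel_right₀ _ hD]
  have hmem : hh ∈ (algebraicClosure k κ).toSubring := mem_algebraicClosure_iff.mpr hhalg
  have h1 := aeval_int_mem (algebraicClosure k κ).toSubring hmem Nn
  have h2 := aeval_int_mem (algebraicClosure k κ).toSubring hmem Dd
  have h3 : jj ∈ algebraicClosure k κ := by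
    rw [hj]
    exact (algebraicClosure k κ).div_mem h1 h2
  exact mem_algebraicClosure_iff.mp h3

/-- The reduction of `Dd` is nonzero over any field in which the Bezout constant is nonzero. -/
theorem map_ne_zero_of_bezout (Nn Dd U V : ℤ[X]) (c : ℤ) (hN : Nn.Monic)
    (hdeg : Dd.natDegree < Nn.natDegree) (hbez : U * Nn + V * Dd = C c) (hc : (c : k) ≠ 0) :
    Dd.map (Int.castRingHom k) ≠ 0 := by
  intro h0
  have h1 := congrArg (Polynomial.map (Int.castRingHom k)) hbez
  rw [Polynomial.map_add, Polynomial.map_mul, Polynomial.map_mul, h0, mul_zero, add_zero,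
    Polynomial.map_C] at h1
  have hNm : (Nn.map (Int.castRingHom k)).Monic := hN.map _
  have hU : U.map (Int.castRingHom k) ≠ 0 := by
    intro hU0
    rw [hU0, zero_mul] at h1
    apply hc
    have := (C_eq_zero (R := k)).mp h1.symm
    simpa using this
  have h2 := congrArg natDegree h1
  rw [natDegree_mul hU hNm.ne_zero, hN.natDegree_map, natDegree_C] at h2
  omega

end Abstract

/-! ### The Gauss ring `gaussV` -/

section Gauss

variable {A0 : Type*} [CommRing A0] [IsDomain A0] [IsDiscreteValuationRing A0]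
  {M : Type*} [Field M] [Algebra A0 M]

omit [IsDomain A0] [IsDiscreteValuationRing A0] in
theorem injective_of_transcendental (t : M) (ht : Transcendental A0 t) :
    Function.Injective (algebraMap A0 M) := by
  rw [injective_iff_map_eq_zero]
  intro a ha
  by_contra h0
  exact ht ⟨C a, by rwa [Ne, C_eq_zero], by rw [aeval_C, ha]⟩

omit [IsDomain A0] [IsDiscreteValuationRing A0] in
/-- Divisibility by `π` in the chart is divisibility by `C π` of polynomials. -/
theorem unif_dvd_iff (t : M) (ht : Transcendental A0 t) (π : A0) (P : A0[X]) :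
    unif A0 M t π ∣ AdjoinChart.chartEquiv M t ht P ↔ C π ∣ P := by
  rw [← AdjoinChart.chartEquiv_C_unif M t ht π]
  exact map_dvd_iff (AdjoinChart.chartEquiv M t ht)

omit [IsDomain A0] [IsDiscreteValuationRing A0] in
theorem exists_chartEquiv_eq (t : M) (ht : Transcendental A0 t) (s : chart A0 M t) :
    ∃ P : A0[X], AdjoinChart.chartEquiv M t ht P = s :=
  (AdjoinChart.chartEquiv M t ht).surjective s

/-- The denominators of the Gauss ring are exactly the chart elements not divisible by `π`. -/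
theorem mem_denom_iff (t : M) (ht : Transcendental A0 t) (π : A0) (hπ : Irreducible π)
    (s : chart A0 M t) : s ∈ denom A0 M t π ↔ ¬ unif A0 M t π ∣ s := by
  have hp : Prime (unif A0 M t π) := AdjoinChart.prime_unif M t ht π hπ
  constructor
  · intro hs
    induction hs using Submonoid.closure_induction with
    | mem x hx => exact hx
    | one => exact hp.not_dvd_one
    | mul x y _ _ hx hy =>
      intro h
      rcases hp.dvd_or_dvd h with h | h
      · exact hx h
      · exact hy h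
  · intro hs
    exact Submonoid.subset_closure hs

theorem mem_gaussV_iff (t : M) (ht : Transcendental A0 t) (π : A0) (hπ : Irreducible π) (m : M) :
    m ∈ gaussV A0 M t π ↔
      ∃ a s : chart A0 M t, ¬ unif A0 M t π ∣ s ∧ m * (s : M) = (a : M) := by
  rw [mem_gaussV]
  constructor
  · rintro ⟨a, s, hs, h⟩
    exact ⟨a, s, (mem_denom_iff t ht π hπ s).mp hs, h⟩
  · rintro ⟨a, s, hs, h⟩
    exact ⟨a, s, (mem_denom_iff t ht π hπ s).mpr hs, h⟩

/-- Polynomial form of membership: `aeval t P / aeval t S` with `π ∤ S`. -/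
theorem mem_gaussV_iff' (t : M) (ht : Transcendental A0 t) (π : A0) (hπ : Irreducible π) (m : M) :
    m ∈ gaussV A0 M t π ↔ ∃ P S : A0[X], ¬ C π ∣ S ∧ m * aeval t S = aeval t P := by
  rw [mem_gaussV_iff t ht π hπ]
  constructor
  · rintro ⟨a, s, hs, h⟩
    obtain ⟨P, rfl⟩ := exists_chartEquiv_eq t ht a
    obtain ⟨S, rfl⟩ := exists_chartEquiv_eq t ht s
    rw [unif_dvd_iff] at hs
    exact ⟨P, S, hs, h⟩
  · rintro ⟨P, S, hS, h⟩
    refine ⟨AdjoinChart.chartEquiv M t ht P, AdjoinChart.chartEquiv M t ht S, ?_, h⟩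
    rwa [unif_dvd_iff]

/-- The Gauss ring is a valuation ring of `M = Frac A0[t]`. -/
theorem gaussV_mem_or_inv_mem (t : M) (ht : Transcendental A0 t) (π : A0) (hπ : Irreducible π)
    (hgen : ∀ m : M, ∃ a b : chart A0 M t, b ≠ 0 ∧ m * (b : M) = (a : M)) (m : M) :
    m ∈ gaussV A0 M t π ∨ m⁻¹ ∈ gaussV A0 M t π := by
  have hp : Prime (unif A0 M t π) := AdjoinChart.prime_unif M t ht π hπ
  have hufd := AdjoinChart.uniqueFactorizationMonoid M t ht
  by_cases hm : m = 0
  · left
    rw [hm]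
    exact Subring.zero_mem _
  obtain ⟨a, b, hb, hab⟩ := hgen m
  have hbM : (b : M) ≠ 0 := fun h => hb (Subtype.ext h)
  have ha : a ≠ 0 := by
    intro h0
    rw [h0] at hab
    exact (mul_ne_zero hm hbM) hab
  obtain ⟨k, a', ha', rfl⟩ := WfDvdMonoid.max_power_factor ha hp.irreducible
  obtain ⟨l, b', hb', rfl⟩ := WfDvdMonoid.max_power_factor hb hp.irreducible
  have hu0 : ((unif A0 M t π : chart A0 M t) : M) ≠ 0 := fun h => hp.ne_zero (Subtype.ext h)
  have hab' : m * (((unif A0 M t π : chart A0 M t) : M) ^ l * (b' : M)) =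
      ((unif A0 M t π : chart A0 M t) : M) ^ k * (a' : M) := by
    simpa using hab
  rcases le_total l k with hlk | hkl
  · left
    rw [mem_gaussV_iff t ht π hπ]
    obtain ⟨d, rfl⟩ := Nat.exists_eq_add_of_le hlk
    refine ⟨unif A0 M t π ^ d * a', b', hb', ?_⟩
    apply mul_left_cancel₀ (pow_ne_zero l hu0)
    push_cast
    rw [pow_add] at hab'
    linear_combination hab'
  · right
    rw [mem_gaussV_iff t ht π hπ]
    obtain ⟨d, rfl⟩ := Nat.exists_eq_add_of_le hkl
    refine ⟨unif A0 M t π ^ d * b', a', ha', ?_⟩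
    have ha'M : (a' : M) ≠ 0 := by
      intro h
      apply ha
      rw [show a' = 0 from Subtype.ext h, mul_zero]
    apply mul_left_cancel₀ (pow_ne_zero k hu0)
    apply mul_left_cancel₀ hm
    push_cast
    rw [pow_add] at hab'
    rw [show m * (((unif A0 M t π : chart A0 M t) : M) ^ k * (m⁻¹ * (a' : M))) =
        ((unif A0 M t π : chart A0 M t) : M) ^ k * (a' : M) by field_simp, ← hab']
    ring

/-- The Gauss ring as a valuation subring. -/
noncomputable def gaussVS (t : M) (ht : Transcendental A0 t) (π : A0) (hπ : Irreducible π)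
    (hgen : ∀ m : M, ∃ a b : chart A0 M t, b ≠ 0 ∧ m * (b : M) = (a : M)) : ValuationSubring M :=
  ValuationSubring.ofSubring (gaussV A0 M t π) (gaussV_mem_or_inv_mem t ht π hπ hgen)

theorem mem_gaussVS (t : M) (ht : Transcendental A0 t) (π : A0) (hπ : Irreducible π)
    (hgen : ∀ m : M, ∃ a b : chart A0 M t, b ≠ 0 ∧ m * (b : M) = (a : M)) (m : M) :
    m ∈ gaussVS t ht π hπ hgen ↔ m ∈ gaussV A0 M t π :=
  ValuationSubring.mem_ofSubring _ _ m

/-- `A0[t] ⊆ gaussV`. -/
theorem aeval_mem_gaussV (t : M) (ht : Transcendental A0 t) (π : A0) (hπ : Irreducible π)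
    (P : A0[X]) : aeval t P ∈ gaussV A0 M t π := by
  rw [mem_gaussV_iff' t ht π hπ]
  exact ⟨P, 1, fun h => hπ.not_isUnit (isUnit_C.mp (isUnit_of_dvd_one h)), by simp⟩

/-- Chart elements not divisible by `π` are units of the Gauss ring. -/
theorem inv_aeval_mem_gaussV (t : M) (ht : Transcendental A0 t) (π : A0) (hπ : Irreducible π)
    (S : A0[X]) (hS : ¬ C π ∣ S) : (aeval t S)⁻¹ ∈ gaussV A0 M t π := by
  rw [mem_gaussV_iff' t ht π hπ]
  have hS0 : S ≠ 0 := fun h => hS (h ▸ dvd_zero _)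
  have h0 : aeval t S ≠ 0 := fun h => ht ⟨S, hS0, h⟩
  exact ⟨1, S, hS, by rw [inv_mul_cancel₀ h0, map_one]⟩

/-- `π` is not a unit of the Gauss ring. -/
theorem inv_unif_notMem_gaussV (t : M) (ht : Transcendental A0 t) (π : A0) (hπ : Irreducible π) :
    (algebraMap A0 M π)⁻¹ ∉ gaussV A0 M t π := by
  rw [mem_gaussV_iff' t ht π hπ]
  rintro ⟨P, S, hS, h⟩
  apply hS
  have hπ0 : algebraMap A0 M π ≠ 0 := by
    rw [Ne, map_eq_zero_iff _ (injective_of_transcendental t ht)]
    exact hπ.ne_zero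
  have h1 : aeval t S = aeval t (C π * P) := by
    rw [map_mul, aeval_C, ← h]
    field_simp
  have h2 : S = C π * P := transcendental_iff_injective.mp ht h1
  exact ⟨P, h2⟩

end Gauss

/-! ### Residue fields of valuation subrings containing `A0` -/

section Residue

variable {A0 : Type*} [CommRing A0] [IsDomain A0] [IsDiscreteValuationRing A0]
  {K : Type*} [Field K] [Algebra A0 K]

/-- "The residue of `y` in `W` is transcendental over the residue field of `A0`", elementwise:
every polynomial expression in `y` with a coefficient not divisible by `π` is a unit of `W`. -/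
def ResTr (W : ValuationSubring K) (π : A0) (y : K) : Prop :=
  ∀ P : A0[X], ¬ C π ∣ P → aeval y P ≠ 0 ∧ (aeval y P)⁻¹ ∈ W

/-- The structure map `A0 → W`. -/
def toW (W : ValuationSubring K) (hA : ∀ a : A0, algebraMap A0 K a ∈ W) : A0 →+* W :=
  (algebraMap A0 K).codRestrict W hA

omit [IsDomain A0] [IsDiscreteValuationRing A0] in
theorem coe_toW (W : ValuationSubring K) (hA : ∀ a : A0, algebraMap A0 K a ∈ W) (a : A0) :
    ((toW W hA a : W) : K) = algebraMap A0 K a := rfl

omit [IsDomain A0] [IsDiscreteValuationRing A0] [Algebra A0 K] in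
theorem isUnit_iff_inv_mem (W : ValuationSubring K) (x : W) (hx : (x : K) ≠ 0) :
    IsUnit x ↔ (x : K)⁻¹ ∈ W := by
  constructor
  · intro h
    obtain ⟨u, hu⟩ := h.exists_right_inv
    have h1 : (x : K) * (u : K) = 1 := congrArg Subtype.val hu
    have h2 : (x : K)⁻¹ = (u : K) := inv_eq_of_mul_eq_one_right h1
    rw [h2]
    exact u.2
  · intro h
    exact IsUnit.of_mul_eq_one (⟨(x : K)⁻¹, h⟩ : W) (Subtype.ext (mul_inv_cancel₀ hx))

theorem isLocalHom_toW (W : ValuationSubring K) (hA : ∀ a : A0, algebraMap A0 K a ∈ W) (π : A0)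
    (hπ : Irreducible π) (hπW : (algebraMap A0 K π)⁻¹ ∉ W) : IsLocalHom (toW W hA) := by
  constructor
  intro a ha
  by_contra hna
  have h1 : a ∈ IsLocalRing.maximalIdeal A0 := (IsLocalRing.mem_maximalIdeal a).mpr hna
  rw [hπ.maximalIdeal_eq, Ideal.mem_span_singleton] at h1
  obtain ⟨b, rfl⟩ := h1
  rw [map_mul] at ha
  have h2 : IsUnit (toW W hA π) := isUnit_of_mul_isUnit_left ha
  apply hπW
  by_cases h0 : algebraMap A0 K π = 0
  · rw [h0, inv_zero]
    exact W.zero_mem
  · exact (isUnit_iff_inv_mem W (toW W hA π) h0).mp h2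

/-- `C π ∣ P` iff the reduction of `P` vanishes. -/
theorem C_dvd_iff_map_residue_eq_zero (π : A0) (hπ : Irreducible π) (P : A0[X]) :
    C π ∣ P ↔ P.map (IsLocalRing.residue A0) = 0 := by
  rw [C_dvd_iff_dvd_coeff, Polynomial.ext_iff]
  refine forall_congr' (fun i => ?_)
  rw [coeff_map, coeff_zero, IsLocalRing.residue_eq_zero_iff, hπ.maximalIdeal_eq,
    Ideal.mem_span_singleton]

omit [IsDomain A0] [IsDiscreteValuationRing A0] in
/-- Polynomial expressions over `A0` in an element of `W` lie in `W`. -/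
theorem aeval_mem_of_mem (W : Subring K) (hA : ∀ a : A0, algebraMap A0 K a ∈ W) {y : K}
    (hy : y ∈ W) (P : A0[X]) : aeval y P ∈ W := by
  rw [aeval_eq_sum_range]
  refine Subring.sum_mem _ (fun i _ => ?_)
  rw [Algebra.smul_def]
  exact W.mul_mem (hA _) (W.pow_mem hy i)

omit [IsDomain A0] [IsDiscreteValuationRing A0] in
theorem coe_eval₂_toW (W : ValuationSubring K) (hA : ∀ a : A0, algebraMap A0 K a ∈ W) (y : W)
    (P : A0[X]) : ((eval₂ (toW W hA) y P : W) : K) = aeval (y : K) P := by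
  have h := Polynomial.hom_eval₂ P (toW W hA) W.subtype y
  rw [aeval_def]
  exact h

/-- Residue of a polynomial expression. -/
theorem residue_eval₂ (W : ValuationSubring K) (hA : ∀ a : A0, algebraMap A0 K a ∈ W) (π : A0)
    (hπ : Irreducible π) (hπW : (algebraMap A0 K π)⁻¹ ∉ W) (y : W) (P : A0[X]) :
    haveI := isLocalHom_toW W hA π hπ hπW
    IsLocalRing.residue W (eval₂ (toW W hA) y P) =
      eval₂ (IsLocalRing.ResidueField.map (toW W hA)) (IsLocalRing.residue W y)
        (P.map (IsLocalRing.residue A0)) := by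
  have := isLocalHom_toW W hA π hπ hπW
  rw [Polynomial.hom_eval₂, eval₂_map]
  rfl

/-- `ResTr` is transcendence of the residue. -/
theorem resTr_iff (W : ValuationSubring K) (hA : ∀ a : A0, algebraMap A0 K a ∈ W) (π : A0)
    (hπ : Irreducible π) (hπW : (algebraMap A0 K π)⁻¹ ∉ W) (y : W) :
    haveI := isLocalHom_toW W hA π hπ hπW
    ResTr W π (y : K) ↔ ∀ Q : (IsLocalRing.ResidueField A0)[X], Q ≠ 0 →
      eval₂ (IsLocalRing.ResidueField.map (toW W hA)) (IsLocalRing.residue W y) Q ≠ 0 := by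
  have := isLocalHom_toW W hA π hπ hπW
  constructor
  · intro h Q hQ hQ0
    obtain ⟨P, rfl⟩ := Polynomial.map_surjective (IsLocalRing.residue A0)
      IsLocalRing.residue_surjective Q
    have hP : ¬ C π ∣ P := by
      rw [C_dvd_iff_map_residue_eq_zero π hπ]
      exact hQ
    obtain ⟨h1, h2⟩ := h P hP
    rw [← residue_eval₂ W hA π hπ hπW y P, IsLocalRing.residue_eq_zero_iff,
      IsLocalRing.mem_maximalIdeal, mem_nonunits_iff] at hQ0
    apply hQ0
    rw [isUnit_iff_inv_mem W _ (by rw [coe_eval₂_toW]; exact h1), coe_eval₂_toW]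
    exact h2
  · intro h P hP
    have hQ : P.map (IsLocalRing.residue A0) ≠ 0 := by
      rwa [Ne, ← C_dvd_iff_map_residue_eq_zero π hπ]
    have h1 := h _ hQ
    rw [← residue_eval₂ W hA π hπ hπW y P, Ne, IsLocalRing.residue_eq_zero_iff,
      IsLocalRing.mem_maximalIdeal, mem_nonunits_iff, not_not] at h1
    have h0 : aeval (y : K) P ≠ 0 := by
      intro h0
      have h2 : (eval₂ (toW W hA) y P : W) = 0 := Subtype.ext (by rw [coe_eval₂_toW]; exact h0)
      rw [h2] at h1
      exact not_isUnit_zero h1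
    refine ⟨h0, ?_⟩
    have h3 := (isUnit_iff_inv_mem W _ (by rw [coe_eval₂_toW]; exact h0)).mp h1
    rwa [coe_eval₂_toW] at h3

omit [IsDomain A0] [IsDiscreteValuationRing A0] [Algebra A0 K] [Field K] in
/-- Ring homomorphisms commute with the evaluation of integer polynomials. -/
theorem map_aeval_int {R S : Type*} [CommRing R] [CommRing S] (f : R →+* S) (x : R) (P : ℤ[X]) :
    f (aeval x P) = aeval (f x) P :=
  (aeval_algHom_apply f.toIntAlgHom x P).symm

/-- (T1') transfer of `ResTr` from `y` to `z` when `z · Dd(y) = Nn(y)`. -/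
theorem resTr_of_cover (W : ValuationSubring K) (hA : ∀ a : A0, algebraMap A0 K a ∈ W) (π : A0)
    (hπ : Irreducible π) (hπW : (algebraMap A0 K π)⁻¹ ∉ W) (Nn Dd : ℤ[X]) (hN : Nn.Monic)
    (hdeg : Dd.natDegree < Nn.natDegree) (y z : W)
    (hrel : (z : K) * aeval (y : K) Dd = aeval (y : K) Nn) (hyt : ResTr W π (y : K)) :
    ResTr W π (z : K) := by
  have := isLocalHom_toW W hA π hπ hπW
  let _ : Algebra (IsLocalRing.ResidueField A0) (IsLocalRing.ResidueField W) :=
    (IsLocalRing.ResidueField.map (toW W hA)).toAlgebra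
  rw [resTr_iff W hA π hπ hπW] at hyt ⊢
  have hyt' : Transcendental (IsLocalRing.ResidueField A0) (IsLocalRing.residue W y) := by
    rintro ⟨Q, hQ, hQ0⟩
    exact hyt Q hQ hQ0
  have hrelW : z * aeval y Dd = aeval y Nn := by
    apply Subtype.ext
    have e1 : ((aeval y Dd : W) : K) = aeval (y : K) Dd := map_aeval_int W.subtype y Dd
    have e2 : ((aeval y Nn : W) : K) = aeval (y : K) Nn := map_aeval_int W.subtype y Nn
    rw [← e1, ← e2] at hrel
    exact hrel
  have hrel' : IsLocalRing.residue W z * aeval (IsLocalRing.residue W y) Dd =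
      aeval (IsLocalRing.residue W y) Nn := by
    have h1 := congrArg (IsLocalRing.residue W) hrelW
    rw [map_mul, map_aeval_int, map_aeval_int] at h1
    exact h1
  have hzt := transcendental_of_cover (k := IsLocalRing.ResidueField A0) Nn Dd hN hdeg _ _ hrel' hyt'
  intro Q hQ hQ0
  exact hzt ⟨Q, hQ, hQ0⟩

/-- (T2') transfer of `ResTr` from `z` to `y` when `z · Dd(y) = Nn(y)` and `Nn`, `Dd` satisfy a
Bezout identity with a unit constant. -/
theorem resTr_of_cover' (W : ValuationSubring K) (hA : ∀ a : A0, algebraMap A0 K a ∈ W) (π : A0)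
    (hπ : Irreducible π) (hπW : (algebraMap A0 K π)⁻¹ ∉ W) (Nn Dd U V : ℤ[X]) (c : ℤ)
    (hbez : U * Nn + V * Dd = C c) (hc : IsUnit (c : A0)) (y z : W)
    (hrel : (z : K) * aeval (y : K) Dd = aeval (y : K) Nn) (hzt : ResTr W π (z : K)) :
    ResTr W π (y : K) := by
  have := isLocalHom_toW W hA π hπ hπW
  let _ : Algebra (IsLocalRing.ResidueField A0) (IsLocalRing.ResidueField W) :=
    (IsLocalRing.ResidueField.map (toW W hA)).toAlgebra
  rw [resTr_iff W hA π hπ hπW] at hzt ⊢
  have hzt' : Transcendental (IsLocalRing.ResidueField A0) (IsLocalRing.residue W z) := by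
    rintro ⟨Q, hQ, hQ0⟩
    exact hzt Q hQ hQ0
  have hrelW : z * aeval y Dd = aeval y Nn := by
    apply Subtype.ext
    have e1 : ((aeval y Dd : W) : K) = aeval (y : K) Dd := map_aeval_int W.subtype y Dd
    have e2 : ((aeval y Nn : W) : K) = aeval (y : K) Nn := map_aeval_int W.subtype y Nn
    rw [← e1, ← e2] at hrel
    exact hrel
  have hrel' : IsLocalRing.residue W z * aeval (IsLocalRing.residue W y) Dd =
      aeval (IsLocalRing.residue W y) Nn := by
    have h1 := congrArg (IsLocalRing.residue W) hrelW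
    rw [map_mul, map_aeval_int, map_aeval_int] at h1
    exact h1
  have hcκ : ((c : ℤ) : IsLocalRing.ResidueField W) ≠ 0 := by
    have h1 : IsUnit ((IsLocalRing.residue W) (toW W hA (c : A0))) :=
      (hc.map (toW W hA)).map (IsLocalRing.residue W)
    have h2 : (IsLocalRing.residue W) (toW W hA (c : A0)) = ((c : ℤ) : IsLocalRing.ResidueField W) := by
      rw [map_intCast, map_intCast]
    rw [h2] at h1
    exact h1.ne_zero
  have hyt := transcendental_of_cover' (k := IsLocalRing.ResidueField A0) Nn Dd U V c hbez hcκ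
    _ _ hrel' hzt'
  intro Q hQ hQ0
  exact hyt ⟨Q, hQ, hQ0⟩

end Residue

/-! ### The cover `K0(h) / K0(j)`, `j = Nn(h) / Dd(h)` -/

section Cover

/-- `y` is a root of a monic polynomial of degree `deg Nn` over `R` when `z · Dd(y) = Nn(y)` with
`z ∈ R`, `Nn` monic, `deg Dd < deg Nn`. -/
theorem exists_monic_of_cover {R S : Type*} [CommRing R] [Nontrivial R] [CommRing S] [Algebra R S]
    (Nn Dd : ℤ[X]) (hN : Nn.Monic) (hdeg : Dd.natDegree < Nn.natDegree) (z : R) (y : S)
    (hrel : algebraMap R S z * aeval y Dd = aeval y Nn) :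
    ∃ g : R[X], g.Monic ∧ g.natDegree = Nn.natDegree ∧ eval₂ (algebraMap R S) y g = 0 := by
  have hNm : (Nn.map (Int.castRingHom R)).Monic := hN.map _
  have hnat : (C z * Dd.map (Int.castRingHom R)).natDegree <
      (Nn.map (Int.castRingHom R)).natDegree := by
    rw [hN.natDegree_map]
    exact lt_of_le_of_lt (natDegree_C_mul_le _ _) (lt_of_le_of_lt natDegree_map_le hdeg)
  refine ⟨Nn.map (Int.castRingHom R) - C z * Dd.map (Int.castRingHom R), ?_, ?_, ?_⟩
  · refine hNm.sub_of_left ?_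
    exact degree_lt_degree hnat
  · rw [natDegree_sub_eq_left_of_natDegree_lt hnat, hN.natDegree_map]
  · have e1 : eval₂ (algebraMap R S) y (Nn.map (Int.castRingHom R)) = aeval y Nn := by
      rw [eval₂_map, aeval_def]
      congr 1
      exact RingHom.ext_int _ _
    have e2 : eval₂ (algebraMap R S) y (Dd.map (Int.castRingHom R)) = aeval y Dd := by
      rw [eval₂_map, aeval_def]
      congr 1
      exact RingHom.ext_int _ _
    rw [eval₂_sub, eval₂_mul, eval₂_C, e1, e2, hrel, sub_self]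

/-- `y` is integral over `R` when `z · Dd(y) = Nn(y)` with `z ∈ R`, `Nn` monic, `deg Dd < deg Nn`. -/
theorem isIntegral_of_cover {R S : Type*} [CommRing R] [CommRing S] [Algebra R S] (Nn Dd : ℤ[X])
    (hN : Nn.Monic) (hdeg : Dd.natDegree < Nn.natDegree) (z : R) (y : S)
    (hrel : algebraMap R S z * aeval y Dd = aeval y Nn) : IsIntegral R y := by
  rcases subsingleton_or_nontrivial R with hR | hR
  · exact ⟨1, monic_one, by
      have : Subsingleton S := (algebraMap R S).codomain_trivial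
      exact Subsingleton.elim _ _⟩
  obtain ⟨g, hg, -, hroot⟩ := exists_monic_of_cover Nn Dd hN hdeg z y hrel
  exact ⟨g, hg, hroot⟩

variable {A0 : Type*} [CommRing A0] [IsDomain A0] [IsDiscreteValuationRing A0]
  {Mj Mh : Type*} [Field Mj] [Field Mh] [Algebra A0 Mj] [Algebra A0 Mh] [Algebra Mj Mh]
  [IsScalarTower A0 Mj Mh]

omit [IsDomain A0] [IsDiscreteValuationRing A0] in
/-- **(G4)(b)** `Mh = Frac A0[h]` is finite over `Mj` when `h` satisfies the cover equation. -/
theorem finite_of_cover (j : Mj) (h : Mh) (Nn Dd : ℤ[X]) (hN : Nn.Monic)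
    (hdeg : Dd.natDegree < Nn.natDegree)
    (hj : algebraMap Mj Mh j * aeval h Dd = aeval h Nn)
    (hgenh : ∀ m : Mh, ∃ a b : chart A0 Mh h, b ≠ 0 ∧ m * (b : Mh) = (a : Mh)) :
    Module.Finite Mj Mh := by
  have hint : IsIntegral Mj h := isIntegral_of_cover Nn Dd hN hdeg j h hj
  have hfd : FiniteDimensional Mj Mj⟮h⟯ := adjoin.finiteDimensional hint
  have hle : ∀ x ∈ Algebra.adjoin A0 {h}, x ∈ Mj⟮h⟯ := by
    intro x hx
    induction hx using Algebra.adjoin_induction with
    | mem x hx =>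
      rw [Set.mem_singleton_iff] at hx
      subst hx
      exact mem_adjoin_simple_self Mj _
    | algebraMap r =>
      rw [IsScalarTower.algebraMap_apply A0 Mj Mh]
      exact Mj⟮h⟯.algebraMap_mem _
    | add x y _ _ hx hy => exact Mj⟮h⟯.add_mem hx hy
    | mul x y _ _ hx hy => exact Mj⟮h⟯.mul_mem hx hy
  have htop : ∀ m : Mh, m ∈ Mj⟮h⟯ := by
    intro m
    obtain ⟨a, b, hb, hab⟩ := hgenh m
    have hbM : (b : Mh) ≠ 0 := fun h0 => hb (Subtype.ext h0)
    have : m = (a : Mh) / (b : Mh) := by rw [← hab, mul_div_cancel_right₀ _ hbM]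
    rw [this]
    exact Mj⟮h⟯.div_mem (hle _ a.2) (hle _ b.2)
  exact Module.Finite.of_surjective (Mj⟮h⟯.val.toLinearMap) (fun m => ⟨⟨m, htop m⟩, rfl⟩)

omit [IsDomain A0] [IsDiscreteValuationRing A0] in
/-- The degree of `Mh = Frac A0[h]` over `Mj` is at most `deg Nn`. -/
theorem finrank_le_of_cover (j : Mj) (h : Mh) (Nn Dd : ℤ[X]) (hN : Nn.Monic)
    (hdeg : Dd.natDegree < Nn.natDegree)
    (hj : algebraMap Mj Mh j * aeval h Dd = aeval h Nn)
    (hgenh : ∀ m : Mh, ∃ a b : chart A0 Mh h, b ≠ 0 ∧ m * (b : Mh) = (a : Mh)) :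
    Module.finrank Mj Mh ≤ Nn.natDegree := by
  obtain ⟨g, hg, hgdeg, hroot⟩ := exists_monic_of_cover Nn Dd hN hdeg j h hj
  have hint : IsIntegral Mj h := ⟨g, hg, hroot⟩
  have hle : ∀ x ∈ Algebra.adjoin A0 {h}, x ∈ Mj⟮h⟯ := by
    intro x hx
    induction hx using Algebra.adjoin_induction with
    | mem x hx =>
      rw [Set.mem_singleton_iff] at hx
      subst hx
      exact mem_adjoin_simple_self Mj _
    | algebraMap r =>
      rw [IsScalarTower.algebraMap_apply A0 Mj Mh]
      exact Mj⟮h⟯.algebraMap_mem _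
    | add x y _ _ hx hy => exact Mj⟮h⟯.add_mem hx hy
    | mul x y _ _ hx hy => exact Mj⟮h⟯.mul_mem hx hy
  have htop : Mj⟮h⟯ = ⊤ := by
    rw [eq_top_iff]
    rintro m -
    obtain ⟨a, b, hb, hab⟩ := hgenh m
    have hbM : (b : Mh) ≠ 0 := fun h0 => hb (Subtype.ext h0)
    have : m = (a : Mh) / (b : Mh) := by rw [← hab, mul_div_cancel_right₀ _ hbM]
    rw [this]
    exact Mj⟮h⟯.div_mem (hle _ a.2) (hle _ b.2)
  have h1 : Module.finrank Mj Mj⟮h⟯ = (minpoly Mj h).natDegree := adjoin.finrank hint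
  have h2 : Module.finrank Mj Mh = Module.finrank Mj Mj⟮h⟯ := by
    rw [htop]
    exact IntermediateField.finrank_top'.symm
  rw [h2, h1, ← hgdeg]
  exact natDegree_le_of_dvd (minpoly.dvd Mj h (by rw [aeval_def]; exact hroot)) hg.ne_zero

/-- Integrality only depends on the image of the base ring. -/
theorem isIntegral_of_range_le {R S E : Type*} [CommRing R] [CommRing S] [CommRing E]
    [Algebra R E] [Algebra S E]
    (hRS : ∀ r : R, algebraMap R E r ∈ Set.range (algebraMap S E)) {x : E} (hx : IsIntegral R x) :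
    IsIntegral S x := by
  obtain ⟨p, hp, hpx⟩ := hx
  have hl : p.map (algebraMap R E) ∈ Polynomial.lifts (algebraMap S E) :=
    (Polynomial.lifts_iff_coeff_lifts _).mpr (fun i => by rw [coeff_map]; exact hRS _)
  obtain ⟨q, hq, -, hqm⟩ := Polynomial.lifts_and_natDegree_eq_and_monic hl (hp.map _)
  refine ⟨q, hqm, ?_⟩
  rw [← eval_map, hq, eval_map]
  exact hpx

/-- The image of the Gauss ring of `K0(j)` lies in the Gauss ring of `K0(h)`. -/
theorem map_gaussV_le (π : A0) (hπ : Irreducible π) (j : Mj) (h : Mh)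
    (hjt : Transcendental A0 j) (hht : Transcendental A0 h)
    (Nn Dd : ℤ[X]) (hN : Nn.Monic) (hdeg : Dd.natDegree < Nn.natDegree)
    (U V : ℤ[X]) (c : ℤ) (hbez : U * Nn + V * Dd = C c) (hc : IsUnit (c : A0))
    (hj : algebraMap Mj Mh j * aeval h Dd = aeval h Nn)
    (hgenh : ∀ m : Mh, ∃ a b : chart A0 Mh h, b ≠ 0 ∧ m * (b : Mh) = (a : Mh)) :
    ∀ m : Mj, m ∈ gaussV A0 Mj j π → algebraMap Mj Mh m ∈ gaussV A0 Mh h π := by
  intro m hm
  set W := gaussVS h hht π hπ hgenh with hWdef
  have hWmem : ∀ x : Mh, x ∈ W ↔ x ∈ gaussV A0 Mh h π := mem_gaussVS h hht π hπ hgenh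
  have hA : ∀ a : A0, algebraMap A0 Mh a ∈ W := by
    intro a
    rw [hWmem]
    have := aeval_mem_gaussV h hht π hπ (C a)
    rwa [aeval_C] at this
  have hπW : (algebraMap A0 Mh π)⁻¹ ∉ W := by
    rw [hWmem]
    exact inv_unif_notMem_gaussV h hht π hπ
  have hhW : h ∈ W := by
    rw [hWmem]
    have := aeval_mem_gaussV h hht π hπ X
    rwa [aeval_X] at this
  have hres : ResTr W π h := by
    intro P hP
    have hP0 : P ≠ 0 := fun h0 => hP (h0 ▸ dvd_zero _)
    exact ⟨fun h0 => hht ⟨P, hP0, h0⟩, (hWmem _).mpr (inv_aeval_mem_gaussV h hht π hπ P hP)⟩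
  have hD : ¬ C π ∣ Dd.map (Int.castRingHom A0) := by
    rw [C_dvd_iff_map_residue_eq_zero π hπ, Polynomial.map_map]
    have e : (IsLocalRing.residue A0).comp (Int.castRingHom A0) =
        Int.castRingHom (IsLocalRing.ResidueField A0) := RingHom.ext_int _ _
    rw [e]
    refine map_ne_zero_of_bezout Nn Dd U V c hN hdeg hbez ?_
    have h1 : IsUnit (IsLocalRing.residue A0 (c : A0)) := hc.map _
    rw [map_intCast] at h1
    exact h1.ne_zero
  have hDe : aeval h (Dd.map (Int.castRingHom A0)) = aeval h Dd := by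
    rw [aeval_def, eval₂_map, aeval_def]
    congr 1
    exact RingHom.ext_int _ _
  obtain ⟨hD0, hDinv⟩ := hres _ hD
  rw [hDe] at hD0 hDinv
  have hjW : algebraMap Mj Mh j ∈ W := by
    have e : algebraMap Mj Mh j = aeval h Nn * (aeval h Dd)⁻¹ := by
      rw [← hj, mul_assoc, mul_inv_cancel₀ hD0, mul_one]
    rw [e]
    exact W.mul_mem _ _ (aeval_int_mem W.toSubring hhW Nn) hDinv
  have hresj : ResTr W π (algebraMap Mj Mh j) :=
    resTr_of_cover W hA π hπ hπW Nn Dd hN hdeg ⟨h, hhW⟩ ⟨_, hjW⟩ hj hres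
  rw [mem_gaussV_iff' j hjt π hπ] at hm
  obtain ⟨P, S, hS, hPS⟩ := hm
  obtain ⟨hS0, hSinv⟩ := hresj S hS
  have hmap : algebraMap Mj Mh m =
      aeval (algebraMap Mj Mh j) P * (aeval (algebraMap Mj Mh j) S)⁻¹ := by
    have e1 : aeval (algebraMap Mj Mh j) P = algebraMap Mj Mh m * aeval (algebraMap Mj Mh j) S := by
      rw [aeval_algebraMap_apply, aeval_algebraMap_apply, ← hPS, map_mul]
    rw [e1, mul_assoc, mul_inv_cancel₀ hS0, mul_one]
  rw [← hWmem, hmap]
  exact W.mul_mem _ _ (aeval_mem_of_mem W.toSubring hA hjW P) hSinv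

/-- Every valuation subring of `Mh` containing the Gauss ring of `K0(j)` contains the Gauss ring
of `K0(h)`. -/
theorem gaussV_le_of_map_le (π : A0) (hπ : Irreducible π) (j : Mj) (h : Mh)
    (hjt : Transcendental A0 j) (hht : Transcendental A0 h)
    (Nn Dd : ℤ[X]) (hN : Nn.Monic) (hdeg : Dd.natDegree < Nn.natDegree)
    (U V : ℤ[X]) (c : ℤ) (hbez : U * Nn + V * Dd = C c) (hc : IsUnit (c : A0))
    (hj : algebraMap Mj Mh j * aeval h Dd = aeval h Nn)
    (hgenj : ∀ m : Mj, ∃ a b : chart A0 Mj j, b ≠ 0 ∧ m * (b : Mj) = (a : Mj))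
    (hgenh : ∀ m : Mh, ∃ a b : chart A0 Mh h, b ≠ 0 ∧ m * (b : Mh) = (a : Mh))
    (W : ValuationSubring Mh)
    (hW : ∀ m : Mj, m ∈ gaussV A0 Mj j π → algebraMap Mj Mh m ∈ W) :
    ∀ x : Mh, x ∈ gaussV A0 Mh h π → x ∈ W := by
  intro x hx
  have hA : ∀ a : A0, algebraMap A0 Mh a ∈ W := by
    intro a
    rw [IsScalarTower.algebraMap_apply A0 Mj Mh]
    apply hW
    have := aeval_mem_gaussV j hjt π hπ (C a)
    rwa [aeval_C] at this
  have hjW : algebraMap Mj Mh j ∈ W := by
    apply hW
    have := aeval_mem_gaussV j hjt π hπ X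
    rwa [aeval_X] at this
  by_cases hπW : (algebraMap A0 Mh π)⁻¹ ∈ W
  · -- `π` is a unit of `W`: then `W ⊇ Mj`, hence `W = Mh`
    have hMj : ∀ m : Mj, algebraMap Mj Mh m ∈ W := by
      intro m
      obtain ⟨a, b, hb, hab⟩ := hgenj m
      obtain ⟨B, rfl⟩ := exists_chartEquiv_eq j hjt b
      obtain ⟨Aa, rfl⟩ := exists_chartEquiv_eq j hjt a
      have hB0 : B ≠ 0 := by
        rintro rfl
        exact hb (map_zero _)
      have hCπ : Irreducible (C π : A0[X]) := (prime_C_iff.mpr hπ.prime).irreducible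
      obtain ⟨l, B', hB', rfl⟩ := WfDvdMonoid.max_power_factor hB0 hCπ
      rw [AdjoinChart.coe_chartEquiv, AdjoinChart.coe_chartEquiv, map_mul, map_pow, aeval_C] at hab
      have hB'0 : aeval j B' ≠ 0 := fun h0 => hjt ⟨B', fun h => hB' (h ▸ dvd_zero _), h0⟩
      have hπ0 : algebraMap A0 Mj π ≠ 0 := by
        rw [Ne, map_eq_zero_iff _ (injective_of_transcendental j hjt)]
        exact hπ.ne_zero
      have hm' : m = aeval j Aa * ((algebraMap A0 Mj π)⁻¹) ^ l * (aeval j B')⁻¹ := by
        rw [← hab, inv_pow]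
        field_simp
      rw [hm', map_mul, map_mul, map_pow, map_inv₀, ← IsScalarTower.algebraMap_apply]
      exact W.mul_mem _ _ (W.mul_mem _ _ (hW _ (aeval_mem_gaussV j hjt π hπ Aa))
        (pow_mem hπW l)) (hW _ (inv_aeval_mem_gaussV j hjt π hπ B' hB'))
    have hfin : Module.Finite Mj Mh := finite_of_cover j h Nn Dd hN hdeg hj hgenh
    have hint : IsIntegral Mj x := Algebra.IsIntegral.isIntegral x
    have hintW : IsIntegral W x := isIntegral_of_range_le (fun a => ⟨⟨_, hMj a⟩, rfl⟩) hint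
    obtain ⟨y, rfl⟩ := IsIntegrallyClosed.isIntegral_iff.mp hintW
    exact y.2
  · -- `π` is not a unit of `W`
    have hresj : ResTr W π (algebraMap Mj Mh j) := by
      intro P hP
      have hP0 : aeval j P ≠ 0 := fun h0 => hjt ⟨P, fun h => hP (h ▸ dvd_zero _), h0⟩
      rw [aeval_algebraMap_apply]
      refine ⟨(_root_.map_ne_zero _).mpr hP0, ?_⟩
      rw [← map_inv₀]
      exact hW _ (inv_aeval_mem_gaussV j hjt π hπ P hP)
    have hhint : IsIntegral W h :=
      isIntegral_of_cover Nn Dd hN hdeg (⟨_, hjW⟩ : W) h hj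
    obtain ⟨hh', hhW'⟩ := IsIntegrallyClosed.isIntegral_iff.mp hhint
    have hhW : h ∈ W := hhW' ▸ hh'.2
    have hresh : ResTr W π h :=
      resTr_of_cover' W hA π hπ hπW Nn Dd U V c hbez hc ⟨h, hhW⟩ ⟨_, hjW⟩ hj hresj
    rw [mem_gaussV_iff' h hht π hπ] at hx
    obtain ⟨P, S, hS, hPS⟩ := hx
    obtain ⟨hS0, hSinv⟩ := hresh S hS
    have e : x = aeval h P * (aeval h S)⁻¹ := by
      rw [← hPS, mul_assoc, mul_inv_cancel₀ hS0, mul_one]
    rw [e]
    exact W.mul_mem _ _ (aeval_mem_of_mem W.toSubring hA hhW P) hSinv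

/-- **(G4)(a)** The Gauss ring of `K0(h)` is the integral closure of the Gauss ring of `K0(j)`,
`j = Nn(h) / Dd(h)`. -/
theorem mem_gaussV_iff_isIntegral (π : A0) (hπ : Irreducible π) (j : Mj) (h : Mh)
    (hjt : Transcendental A0 j) (hht : Transcendental A0 h)
    (Nn Dd : ℤ[X]) (hN : Nn.Monic) (hdeg : Dd.natDegree < Nn.natDegree)
    (U V : ℤ[X]) (c : ℤ) (hbez : U * Nn + V * Dd = C c) (hc : IsUnit (c : A0))
    (hj : algebraMap Mj Mh j * aeval h Dd = aeval h Nn)
    (hgenj : ∀ m : Mj, ∃ a b : chart A0 Mj j, b ≠ 0 ∧ m * (b : Mj) = (a : Mj))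
    (hgenh : ∀ m : Mh, ∃ a b : chart A0 Mh h, b ≠ 0 ∧ m * (b : Mh) = (a : Mh)) (x : Mh) :
    x ∈ gaussV A0 Mh h π ↔ IsIntegral (gaussV A0 Mj j π) x := by
  constructor
  · intro hx
    set s : Set Mh := Set.range (algebraMap (gaussV A0 Mj j π) Mh) with hs
    have h1 : x ∈ ⨅ V : {V : ValuationSubring Mh // s ⊆ V.toSubring}, V.1.toSubring := by
      rw [Subring.mem_iInf]
      rintro ⟨W', hW'⟩
      exact gaussV_le_of_map_le π hπ j h hjt hht Nn Dd hN hdeg U V c hbez hc hj hgenj hgenh W'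
        (fun m hm => hW' ⟨⟨m, hm⟩, rfl⟩) x hx
    rw [iInf_valuationSubring_superset] at h1
    have h2 : IsIntegral (Subring.closure s) x := h1
    refine isIntegral_of_range_le (fun a => ?_) h2
    have h3 : Subring.closure s ≤ (algebraMap (gaussV A0 Mj j π) Mh).range :=
      Subring.closure_le.mpr (fun y hy => hy)
    exact h3 a.2
  · intro hx
    have hint : IsIntegral (gaussVS h hht π hπ hgenh) x :=
      isIntegral_of_range_le (fun a => ⟨⟨_, (mem_gaussVS h hht π hπ hgenh _).mpr
        (map_gaussV_le π hπ j h hjt hht Nn Dd hN hdeg U V c hbez hc hj hgenh a a.2)⟩, rfl⟩) hx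
    obtain ⟨y, rfl⟩ := IsIntegrallyClosed.isIntegral_iff.mp hint
    exact (mem_gaussVS h hht π hπ hgenh _).mp y.2

end Cover

end Fermat.Agent.S18.CoverGauss
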