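/-
S18 (route K), top-level wiring: the number-field Kummer statement on the sealed carriers of
`Setup.lean`.

* `KummerS K A N p` : for ONE field `K` embedded in `ℚ̄`, with `A0 = A ∩ K`: if `v₁, v₂` are
  Laurent series over `A0` lying in the function field `FK K N`, with the same nonzero reduction,
  `Y := v₁ / v₂ : FK K N`, and the divisor of `ιL Y` on `X₀(N)` over `ℚ̄` is divisible by `p`,
  then `ιL Y` is a `p`-th power in the function field over `ℚ̄`.
* `kummerK0_of_kummerS` : `Descent.KummerK0 A N p Kb` from `KummerS ↥K0 A N p` for all finite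
  `K0 ⊇ Kb`.
* `kummerS_of_false` : to prove `KummerS` it suffices to derive `False` from the hypotheses
  together with `∀ t, t ^ p ≠ ιL Y` (the shape consumed by the core contract).
* `result_of_kummerS` : the conclusion of S18 from `KummerS`.
-/
import Mathlib
import Fermat.Prelude.Def_ModularCurve_ReductionModL
import Fermat.Agent.S18.Descent
import Fermat.Agent.S18.Top
import Fermat.Agent.S18.Setup
import Fermat.Agent.S18.S24Export

set_option autoImplicit false
set_option synthInstance.maxHeartbeats 400000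

noncomputable section

open HahnSeries AlgebraicCurve ModularCurve

namespace Fermat.Agent.S18.DescentS

open Fermat.Agent.S18.Setup

local notation "Qb" => AlgebraicClosure ℚ

section Sealed

variable (K : Type*) [Field K] [Algebra K Qb] (A : ValuationSubring Qb) (N : ℕ) [NeZero N]

/-- **The Kummer statement on the sealed carriers**, for one field `K` embedded in `ℚ̄`. -/
def KummerS (p : ℕ) : Prop :=
  ∀ (v₁ v₂ : LaurentSeries (A0.down K A))
    (h₁ : coeffMap (A0.down K A).subtype v₁ ∈ modularFunctionFieldFullC K N)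
    (h₂ : coeffMap (A0.down K A).subtype v₂ ∈ modularFunctionFieldFullC K N),
    coeffMap (IsLocalRing.residue (A0.down K A)) v₁ ≠ 0 →
    coeffMap (IsLocalRing.residue (A0.down K A)) v₁ =
      coeffMap (IsLocalRing.residue (A0.down K A)) v₂ →
    (∀ P : Place Qb (S24Export.FL N),
      (p : ℤ) ∣ P.ord (ιL K N (FK.mk _ h₁ / FK.mk _ h₂))) →
    ∃ t : S24Export.FL N, t ^ p = ιL K N (FK.mk _ h₁ / FK.mk _ h₂)

variable {K A N}

omit [NeZero N] in
/-- a series over `A0` with nonzero reduction is nonzero in the function field. -/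
theorem mk_ne_zero {v : LaurentSeries (A0.down K A)}
    (h : coeffMap (A0.down K A).subtype v ∈ modularFunctionFieldFullC K N)
    (hne : coeffMap (IsLocalRing.residue (A0.down K A)) v ≠ 0) :
    (FK.mk _ h : FK K N) ≠ 0 := by
  intro h0
  apply hne
  have h1 : coeffMap (A0.down K A).subtype v = 0 := congrArg (FK.val K N) h0
  have h2 : v = 0 :=
    (Descent.coeffMap_eq_zero_iff_of_injective _ Subtype.val_injective v).mp h1
  rw [h2, map_zero]

omit [NeZero N] in
/-- the quotient `Y = v₁ / v₂` of the Kummer statement is nonzero. -/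
theorem mk_div_ne_zero {v₁ v₂ : LaurentSeries (A0.down K A)}
    (h₁ : coeffMap (A0.down K A).subtype v₁ ∈ modularFunctionFieldFullC K N)
    (h₂ : coeffMap (A0.down K A).subtype v₂ ∈ modularFunctionFieldFullC K N)
    (hne : coeffMap (IsLocalRing.residue (A0.down K A)) v₁ ≠ 0)
    (heq : coeffMap (IsLocalRing.residue (A0.down K A)) v₁ =
      coeffMap (IsLocalRing.residue (A0.down K A)) v₂) :
    (FK.mk _ h₁ / FK.mk _ h₂ : FK K N) ≠ 0 :=
  div_ne_zero (mk_ne_zero h₁ hne) (mk_ne_zero h₂ (heq ▸ hne))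

/-- **Contradiction form.** To prove `KummerS` it suffices to derive `False` from the hypotheses
together with "`ιL Y` is not a `p`-th power over `ℚ̄`". -/
theorem kummerS_of_false {p : ℕ}
    (H : ∀ (v₁ v₂ : LaurentSeries (A0.down K A))
      (h₁ : coeffMap (A0.down K A).subtype v₁ ∈ modularFunctionFieldFullC K N)
      (h₂ : coeffMap (A0.down K A).subtype v₂ ∈ modularFunctionFieldFullC K N),
      coeffMap (IsLocalRing.residue (A0.down K A)) v₁ ≠ 0 →
      coeffMap (IsLocalRing.residue (A0.down K A)) v₁ =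
        coeffMap (IsLocalRing.residue (A0.down K A)) v₂ →
      (∀ P : Place Qb (S24Export.FL N),
        (p : ℤ) ∣ P.ord (ιL K N (FK.mk _ h₁ / FK.mk _ h₂))) →
      (∀ t : S24Export.FL N, t ^ p ≠ ιL K N (FK.mk _ h₁ / FK.mk _ h₂)) → False) :
    KummerS K A N p := by
  intro v₁ v₂ h₁ h₂ hne heq hord
  by_contra hno
  exact H v₁ v₂ h₁ h₂ hne heq hord fun t ht => hno ⟨t, ht⟩

end Sealed

section Main

variable {A : ValuationSubring Qb} {N : ℕ} [NeZero N] {p : ℕ}

/-- **From the sealed carriers to `Descent.KummerK0`.** -/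
theorem kummerK0_of_kummerS (Kb : IntermediateField ℚ Qb)
    (H : ∀ (K0 : IntermediateField ℚ Qb) [FiniteDimensional ℚ K0], Kb ≤ K0 →
      KummerS K0 A N p) :
    Descent.KummerK0 A N p Kb := by
  intro K0 _ hK v₁ v₂ h₁ h₂ hne heq x₁ x₂ hx₁ hx₂ hord
  have e₁ : x₁ = ιL K0 N (FK.mk _ h₁) := Subtype.ext (by rw [hx₁]; rfl)
  have e₂ : x₂ = ιL K0 N (FK.mk _ h₂) := Subtype.ext (by rw [hx₂]; rfl)
  have e : x₁ / x₂ = ιL K0 N (FK.mk _ h₁ / FK.mk _ h₂) := by rw [map_div₀, e₁, e₂]
  rw [e] at hord ⊢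
  exact H K0 hK v₁ v₂ h₁ h₂ hne heq hord

/-- **S18 from the Kummer statement on the sealed carriers.** -/
theorem result_of_kummerS (N : ℕ) [NeZero N] {ℓ : ℕ} (A : ValuationSubring Qb)
    (hS : ∀ p : ℕ, p.Prime → p ≠ ℓ →
      ∃ (Kb : IntermediateField ℚ Qb) (_ : FiniteDimensional ℚ Kb),
        ∀ (K0 : IntermediateField ℚ Qb) [FiniteDimensional ℚ K0], Kb ≤ K0 → KummerS K0 A N p)
    (h : ModularCurve.ReductionInputsModL A N) (m : ℕ) (hm : ¬ ℓ ∣ m) (z : ModularCurve.JZero N)
    (hmz : m • z = 0) (hz : ModularCurve.reductionModL A N z = 0) :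
    z = 0 :=
  Top.result_of_K0 N A (fun p hp hpl => by
    obtain ⟨Kb, hKb, H⟩ := hS p hp hpl
    exact ⟨Kb, hKb, kummerK0_of_kummerS Kb H⟩) h m hm z hmz hz

end Main

end Fermat.Agent.S18.DescentS
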