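/-
S18 (route K): finiteness of the integral closure of `A₀[t]` in a finite separable extension
`C` of `K₀(t)`.

`A₀` a Noetherian integrally closed domain with fraction field `K₀`, `C` a field containing
`K₀`, `t : C` transcendental over `K₀`, `C` finite separable over `K₀(t)`.  Then the integral
closure of the subalgebra `A₀[t] = Algebra.adjoin A₀ {t}` in `C` is a finite `A₀[t]`-module
(Mathlib's `IsIntegralClosure.finite` over the Noetherian normal domain `A₀[t] ≅ A₀[X]`).

* `isFractionRing_adjoin` : `K₀(t)` is the fraction field of `A₀[t]`.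
* `finite_integralClosure_adjoin'` : the general form (any intermediate field `K` with
  `t ∈ K ≤ K₀(t)`).
* `finite_integralClosure_adjoin` : `K = K₀(t)`.
* `finite_integralClosure_adjoin_inv` : the chart at infinity, `A₀[t⁻¹]`, under the same
  hypotheses on `K₀(t)`.
-/
import Mathlib

set_option autoImplicit false

namespace Fermat.Agent.S18.FinClosure

open Polynomial IntermediateField

variable {A₀ K₀ C : Type*} [CommRing A₀] [IsDomain A₀] [Field K₀] [Algebra A₀ K₀]
  [IsFractionRing A₀ K₀] [Field C] [Algebra A₀ C] [Algebra K₀ C] [IsScalarTower A₀ K₀ C]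

omit [IsDomain A₀] [IsFractionRing A₀ K₀] in
/-- `A₀[t] ⊆ K` for an intermediate field `K` of `C / K₀` containing `t`. -/
theorem adjoin_le (t : C) (K : IntermediateField K₀ C) (htK : t ∈ K) :
    ∀ x ∈ Algebra.adjoin A₀ {t}, x ∈ K := by
  intro x hx
  induction hx using Algebra.adjoin_induction with
  | mem x hx =>
    rw [Set.mem_singleton_iff] at hx
    subst hx
    exact htK
  | algebraMap r =>
    rw [IsScalarTower.algebraMap_apply A₀ K₀ C]
    exact K.algebraMap_mem _
  | add x y _ _ hx hy => exact K.add_mem hx hy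
  | mul x y _ _ hx hy => exact K.mul_mem hx hy

/-- The inclusion `A₀[t] → K` as a ring homomorphism. -/
def inclHom (t : C) (K : IntermediateField K₀ C) (htK : t ∈ K) :
    (Algebra.adjoin A₀ {t}) →+* K where
  toFun x := ⟨x.1, adjoin_le t K htK x.1 x.2⟩
  map_one' := rfl
  map_mul' _ _ := rfl
  map_zero' := rfl
  map_add' _ _ := rfl

omit [IsDomain A₀] [IsFractionRing A₀ K₀] in
theorem inclHom_coe (t : C) (K : IntermediateField K₀ C) (htK : t ∈ K)
    (x : Algebra.adjoin A₀ {t}) : ((inclHom t K htK x : K) : C) = (x : C) := rfl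

omit [IsDomain A₀] [IsFractionRing A₀ K₀] in
theorem inclHom_injective (t : C) (K : IntermediateField K₀ C) (htK : t ∈ K) :
    Function.Injective (inclHom (A₀ := A₀) t K htK) := by
  intro x y h
  apply Subtype.ext
  have := congrArg (fun z : K => (z : C)) h
  exact this

/-- Every element of `K₀(t)` is a quotient of two elements of `A₀[t]`. -/
theorem exists_div_eq (t : C) {z : C} (hz : z ∈ K₀⟮t⟯) :
    ∃ x y : C, x ∈ Algebra.adjoin A₀ {t} ∧ y ∈ Algebra.adjoin A₀ {t} ∧ z = x / y := by
  obtain ⟨r, s, rfl⟩ := (mem_adjoin_simple_iff K₀ z).mp hz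
  obtain ⟨b, hb0, hb⟩ := IsLocalization.integerNormalization_spec (nonZeroDivisors A₀) r
  obtain ⟨b', hb0', hb'⟩ := IsLocalization.integerNormalization_spec (nonZeroDivisors A₀) s
  set r' := IsLocalization.integerNormalization (nonZeroDivisors A₀) r
  set s' := IsLocalization.integerNormalization (nonZeroDivisors A₀) s
  have hr : aeval t r' = algebraMap A₀ C b * aeval t r := by
    have h1 : aeval t (r'.map (algebraMap A₀ K₀)) = aeval t r' := aeval_map_algebraMap K₀ t r'
    rw [← h1, hb, ← IsScalarTower.algebraMap_smul K₀ b r, map_smul, Algebra.smul_def,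
      ← IsScalarTower.algebraMap_apply]
  have hs : aeval t s' = algebraMap A₀ C b' * aeval t s := by
    have h1 : aeval t (s'.map (algebraMap A₀ K₀)) = aeval t s' := aeval_map_algebraMap K₀ t s'
    rw [← h1, hb', ← IsScalarTower.algebraMap_smul K₀ b' s, map_smul, Algebra.smul_def,
      ← IsScalarTower.algebraMap_apply]
  have hmem : ∀ q : A₀[X], aeval t q ∈ Algebra.adjoin A₀ {t} := by
    intro q
    rw [Algebra.adjoin_singleton_eq_range_aeval]
    exact ⟨q, rfl⟩
  have hinj : Function.Injective (algebraMap A₀ C) := by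
    rw [IsScalarTower.algebraMap_eq A₀ K₀ C]
    exact (algebraMap K₀ C).injective.comp (IsFractionRing.injective A₀ K₀)
  have hbC : algebraMap A₀ C b ≠ 0 := by
    rw [Ne, map_eq_zero_iff _ hinj]
    exact nonZeroDivisors.ne_zero hb0
  have hbC' : algebraMap A₀ C b' ≠ 0 := by
    rw [Ne, map_eq_zero_iff _ hinj]
    exact nonZeroDivisors.ne_zero hb0'
  refine ⟨algebraMap A₀ C b' * aeval t r', algebraMap A₀ C b * aeval t s',
    Subalgebra.mul_mem _ (Subalgebra.algebraMap_mem _ _) (hmem r'),
    Subalgebra.mul_mem _ (Subalgebra.algebraMap_mem _ _) (hmem s'), ?_⟩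
  rw [hr, hs]
  rw [show algebraMap A₀ C b' * (algebraMap A₀ C b * aeval t r) =
      (algebraMap A₀ C b' * algebraMap A₀ C b) * aeval t r by ring,
    show algebraMap A₀ C b * (algebraMap A₀ C b' * aeval t s) =
      (algebraMap A₀ C b' * algebraMap A₀ C b) * aeval t s by ring,
    mul_div_mul_left _ _ (mul_ne_zero hbC' hbC)]

/-- `K` is the fraction field of `A₀[t]`, for any intermediate field `t ∈ K ≤ K₀(t)`. -/
theorem isFractionRing_adjoin (t : C) (K : IntermediateField K₀ C) (htK : t ∈ K)
    (hK : K ≤ K₀⟮t⟯) :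
    @IsFractionRing (Algebra.adjoin A₀ {t}) _ K _ (inclHom t K htK).toAlgebra := by
  let _ : Algebra (Algebra.adjoin A₀ {t}) K := (inclHom t K htK).toAlgebra
  have : FaithfulSMul (Algebra.adjoin A₀ {t}) K :=
    (faithfulSMul_iff_algebraMap_injective _ _).mpr (inclHom_injective t K htK)
  refine IsFractionRing.of_field _ _ (fun z => ?_)
  obtain ⟨x, y, hx, hy, hz⟩ := exists_div_eq (A₀ := A₀) t (hK z.2)
  refine ⟨⟨x, hx⟩, ⟨y, hy⟩, ?_⟩
  apply Subtype.ext
  rw [hz]
  rfl

/-- `A₀[t]` is integrally closed when `t` is transcendental and `A₀` is integrally closed. -/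
theorem isIntegrallyClosed_adjoin [IsIntegrallyClosed A₀] (t : C) (ht : Transcendental K₀ t) :
    IsIntegrallyClosed (Algebra.adjoin A₀ {t}) := by
  have hinj : Function.Injective (aeval (R := A₀) t) := by
    rw [injective_iff_map_eq_zero]
    intro p hp
    by_contra hp0
    apply ht
    refine ⟨p.map (algebraMap A₀ K₀), ?_, ?_⟩
    · rwa [Ne, Polynomial.map_eq_zero_iff (IsFractionRing.injective A₀ K₀)]
    · rw [aeval_map_algebraMap]
      exact hp
  let e : A₀[X] ≃ₐ[A₀] (aeval (R := A₀) t).range := AlgEquiv.ofInjective _ hinj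
  have h : Algebra.adjoin A₀ {t} = (aeval (R := A₀) t).range :=
    Algebra.adjoin_singleton_eq_range_aeval A₀ t
  exact IsIntegrallyClosed.of_equiv (e.trans (Subalgebra.equivOfEq _ _ h.symm)).toRingEquiv

omit [IsDomain A₀] [IsFractionRing A₀ K₀] [IsScalarTower A₀ K₀ C] [Field K₀] [Algebra A₀ K₀]
  [Algebra K₀ C] in
theorem isNoetherianRing_adjoin [IsNoetherianRing A₀] (t : C) :
    IsNoetherianRing (Algebra.adjoin A₀ {t}) :=
  isNoetherianRing_of_fg ⟨{t}, by rw [Finset.coe_singleton]⟩

/-- **Finiteness of the integral closure of `A₀[t]`** in a finite separable extension `C` of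
`K`, where `K` is an intermediate field with `t ∈ K ≤ K₀(t)` (so `K = K₀(t)`). -/
theorem finite_integralClosure_adjoin' [IsNoetherianRing A₀] [IsIntegrallyClosed A₀]
    (t : C) (ht : Transcendental K₀ t) (K : IntermediateField K₀ C) (htK : t ∈ K)
    (hK : K ≤ K₀⟮t⟯) [FiniteDimensional K C] [Algebra.IsSeparable K C] :
    Module.Finite (Algebra.adjoin A₀ {t}) (integralClosure (Algebra.adjoin A₀ {t}) C) := by
  let _ : Algebra (Algebra.adjoin A₀ {t}) K := (inclHom t K htK).toAlgebra
  have : IsFractionRing (Algebra.adjoin A₀ {t}) K := isFractionRing_adjoin t K htK hK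
  have : IsScalarTower (Algebra.adjoin A₀ {t}) K C := IsScalarTower.of_algebraMap_eq (fun _ => rfl)
  have : IsIntegrallyClosed (Algebra.adjoin A₀ {t}) := isIntegrallyClosed_adjoin t ht
  have : IsNoetherianRing (Algebra.adjoin A₀ {t}) := isNoetherianRing_adjoin t
  exact IsIntegralClosure.finite (Algebra.adjoin A₀ {t}) K C
    (integralClosure (Algebra.adjoin A₀ {t}) C)

/-- **Finiteness of the integral closure of `A₀[t]`** in a finite separable extension of
`K₀(t)`. -/
theorem finite_integralClosure_adjoin [IsNoetherianRing A₀] [IsIntegrallyClosed A₀]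
    (t : C) (ht : Transcendental K₀ t) [FiniteDimensional K₀⟮t⟯ C] [Algebra.IsSeparable K₀⟮t⟯ C] :
    Module.Finite (Algebra.adjoin A₀ {t}) (integralClosure (Algebra.adjoin A₀ {t}) C) :=
  finite_integralClosure_adjoin' t ht K₀⟮t⟯ (mem_adjoin_simple_self K₀ t) le_rfl

omit [IsDomain A₀] [IsFractionRing A₀ K₀] [IsScalarTower A₀ K₀ C] [Algebra A₀ K₀] [Algebra A₀ C]
  [CommRing A₀] in
theorem transcendental_inv (t : C) (ht : Transcendental K₀ t) : Transcendental K₀ t⁻¹ := by
  intro h
  exact ht (by simpa using h.inv)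

/-- The chart at infinity: finiteness of the integral closure of `A₀[t⁻¹]` in a finite separable
extension of `K₀(t)`. -/
theorem finite_integralClosure_adjoin_inv [IsNoetherianRing A₀] [IsIntegrallyClosed A₀]
    (t : C) (ht : Transcendental K₀ t) [FiniteDimensional K₀⟮t⟯ C] [Algebra.IsSeparable K₀⟮t⟯ C] :
    Module.Finite (Algebra.adjoin A₀ {t⁻¹}) (integralClosure (Algebra.adjoin A₀ {t⁻¹}) C) := by
  refine finite_integralClosure_adjoin' t⁻¹ (transcendental_inv t ht) K₀⟮t⟯
    (K₀⟮t⟯.inv_mem (mem_adjoin_simple_self K₀ t)) ?_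
  rw [adjoin_simple_le_iff]
  have h := K₀⟮t⁻¹⟯.inv_mem (mem_adjoin_simple_self K₀ t⁻¹)
  rwa [inv_inv] at h

end Fermat.Agent.S18.FinClosure
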