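import Mathlib
import Fermat.Agent.S18.CoreDefs
import Fermat.Agent.S18.GaussDefs
import Fermat.Agent.S18.IntTrick
import Fermat.Agent.S18.AdjoinChart
import Fermat.Agent.S18.ChartGlue

/-!
# S18 bridge (G1): calculus of the Gauss ring of the base line

`gaussV A0 M t π ⊆ M` is the localisation of the chart `A0[t]` at the prime `π`.  We prove

* `mem_gaussV_iff` : elementwise description with denominators not divisible by `π`;
* `inGauss_iff`, `inPiGauss_iff` : the predicates `InGauss`, `InPiGauss` of `CoreDefs` are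
  "integral over `gaussV`" and "`π` times integral over `gaussV`";
* `h2Hyp_iff` : the chart-level hypothesis `H2Hyp` is the Gauss-level hypothesis `H2G`;
* `gaussV_inv` : the two charts `A0[t]`, `A0[t⁻¹]` have the same Gauss ring;
* `isIntegrallyClosed`, `isFractionRing`, `algebraMap_mem_gaussV`.
-/

set_option autoImplicit false

namespace Fermat.Agent.S18.GaussCalc

open Polynomial Fermat.Agent.S18.CoreDefs

/-! ### General facts (the uniformizer is only assumed prime in the chart) -/

section Abstract

variable {A0 : Type*} [CommRing A0] (M : Type*) [Field M] [Algebra A0 M]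

/-- For a prime uniformizer, the denominators are exactly the chart elements not divisible by
`π`. -/
theorem mem_denom_iff (t : M) (π : A0) (hp : Prime (unif A0 M t π)) (s : chart A0 M t) :
    s ∈ denom A0 M t π ↔ ¬ unif A0 M t π ∣ s := by
  constructor
  · intro hs
    induction hs using Submonoid.closure_induction with
    | mem x hx => exact hx
    | one => exact hp.not_dvd_one
    | mul x y _ _ hx hy => exact fun h => (hp.dvd_or_dvd h).elim hx hy
  · intro hs
    exact Submonoid.subset_closure hs

theorem coe_ne_zero_of_mem_denom (t : M) (π : A0) (hp : Prime (unif A0 M t π))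
    {s : chart A0 M t} (hs : s ∈ denom A0 M t π) : (s : M) ≠ 0 := by
  intro h
  have h0 : s = 0 := Subtype.ext h
  rw [mem_denom_iff M t π hp, h0] at hs
  exact hs (dvd_zero _)

/-- Elementwise description of the Gauss ring (prime uniformizer). -/
theorem mem_gaussV_iff_of_prime (t : M) (π : A0) (hp : Prime (unif A0 M t π)) (m : M) :
    m ∈ gaussV A0 M t π ↔
      ∃ a s : chart A0 M t, ¬ unif A0 M t π ∣ s ∧ m * (s : M) = (a : M) := by
  rw [mem_gaussV]
  constructor
  · rintro ⟨a, s, hs, h⟩
    exact ⟨a, s, (mem_denom_iff M t π hp s).mp hs, h⟩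
  · rintro ⟨a, s, hs, h⟩
    exact ⟨a, s, (mem_denom_iff M t π hp s).mpr hs, h⟩

/-- The chart is contained in the Gauss ring. -/
theorem chart_mem (t : M) (π : A0) (r : chart A0 M t) : (r : M) ∈ gaussV A0 M t π :=
  ⟨r, 1, one_mem _, by simp⟩

/-- Constants lie in the Gauss ring. -/
theorem algebraMap_mem_gaussV (t : M) (π : A0) (a : A0) :
    algebraMap A0 M a ∈ gaussV A0 M t π :=
  chart_mem M t π (algebraMap A0 (chart A0 M t) a)

/-- The inclusion of the chart into the Gauss ring. -/
def inclV (t : M) (π : A0) : chart A0 M t →+* gaussV A0 M t π where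
  toFun r := ⟨(r : M), chart_mem M t π r⟩
  map_one' := rfl
  map_mul' _ _ := rfl
  map_zero' := rfl
  map_add' _ _ := rfl

/-- The Gauss ring as an algebra over the chart (not an instance). -/
@[reducible] def algV (t : M) (π : A0) : Algebra (chart A0 M t) (gaussV A0 M t π) :=
  (inclV M t π).toAlgebra

/-- The Gauss ring is the localisation of the chart at the denominators. -/
theorem isLocalization (t : M) (π : A0) (hp : Prime (unif A0 M t π)) :
    letI := algV M t π
    IsLocalization (denom A0 M t π) (gaussV A0 M t π) := by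
  letI := algV M t π
  refine (isLocalization_iff _ _).mpr ⟨?_, ?_, ?_⟩
  · rintro ⟨s, hs⟩
    have hs0 := coe_ne_zero_of_mem_denom M t π hp hs
    refine IsUnit.of_mul_eq_one
      (⟨(s : M)⁻¹, ⟨1, s, hs, by simp [inv_mul_cancel₀ hs0]⟩⟩ : gaussV A0 M t π)
      (Subtype.ext ?_)
    show (s : M) * (s : M)⁻¹ = 1
    exact mul_inv_cancel₀ hs0
  · rintro ⟨m, a, s, hs, h⟩
    exact ⟨(a, ⟨s, hs⟩), Subtype.ext h⟩
  · intro x y hxy
    refine ⟨1, ?_⟩
    have h1 : (x : M) = (y : M) := congrArg (fun v : gaussV A0 M t π => (v : M)) hxy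
    rw [Subtype.ext h1]

variable {F : Type*} [Field F] [Algebra M F]

omit [Field F] in
theorem chart_smul_eq [Semiring F] [Algebra M F] (t : M) (s : chart A0 M t) (x : F) :
    s • x = algebraMap M F (s : M) * x := by
  rw [Algebra.smul_def]
  rfl

variable [Algebra A0 F] [IsScalarTower A0 M F]

omit [Algebra A0 F] [IsScalarTower A0 M F] in
/-- An element integral over the chart up to a denominator is integral over the Gauss ring. -/
theorem isIntegral_gaussV_of_smul (t : M) (π : A0) (hp : Prime (unif A0 M t π))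
    (s : chart A0 M t) (hs : ¬ unif A0 M t π ∣ s) (x : F)
    (h : IsIntegral (chart A0 M t) (s • x)) : IsIntegral (gaussV A0 M t π) x := by
  letI := algV M t π
  haveI : IsScalarTower (chart A0 M t) (gaussV A0 M t π) F :=
    IsScalarTower.of_algebraMap_eq (fun _ => rfl)
  have hsD : s ∈ denom A0 M t π := (mem_denom_iff M t π hp s).mpr hs
  have hs0 := coe_ne_zero_of_mem_denom M t π hp hsD
  have h1 : IsIntegral (gaussV A0 M t π) (s • x) := h.tower_top
  have hinv : (s : M)⁻¹ ∈ gaussV A0 M t π := ⟨1, s, hsD, by simp [inv_mul_cancel₀ hs0]⟩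
  have h2 : IsIntegral (gaussV A0 M t π)
      (algebraMap (gaussV A0 M t π) F ⟨(s : M)⁻¹, hinv⟩ * (s • x)) :=
    IsIntegral.mul isIntegral_algebraMap h1
  have h3 : algebraMap (gaussV A0 M t π) F ⟨(s : M)⁻¹, hinv⟩ * (s • x) = x := by
    show algebraMap M F ((s : M)⁻¹) * (s • x) = x
    rw [chart_smul_eq M t s x, ← mul_assoc, ← map_mul, inv_mul_cancel₀ hs0, map_one, one_mul]
  rwa [h3] at h2

omit [Algebra A0 F] [IsScalarTower A0 M F] in
/-- An element integral over the Gauss ring is integral over the chart up to a denominator. -/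
theorem exists_smul_isIntegral (t : M) (π : A0) (hp : Prime (unif A0 M t π)) (x : F)
    (h : IsIntegral (gaussV A0 M t π) x) :
    ∃ s : chart A0 M t, ¬ unif A0 M t π ∣ s ∧ IsIntegral (chart A0 M t) (s • x) := by
  letI := algV M t π
  haveI : IsScalarTower (chart A0 M t) (gaussV A0 M t π) F :=
    IsScalarTower.of_algebraMap_eq (fun _ => rfl)
  haveI := isLocalization M t π hp
  obtain ⟨⟨s, hs⟩, h1⟩ :=
    IsIntegral.exists_multiple_integral_of_isLocalization (denom A0 M t π) x h
  exact ⟨s, (mem_denom_iff M t π hp s).mp hs, h1⟩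

omit [Algebra A0 F] [IsScalarTower A0 M F] in
/-- `InGauss` is integrality over the Gauss ring. -/
theorem inGauss_iff_of_prime (t : M) (π : A0) (hp : Prime (unif A0 M t π)) (x : F) :
    InGauss A0 M F t π x ↔ IsIntegral (gaussV A0 M t π) x := by
  constructor
  · rintro ⟨s, hs, h⟩
    exact isIntegral_gaussV_of_smul M t π hp s hs x h
  · intro h
    exact exists_smul_isIntegral M t π hp x h

/-- `InPiGauss` is "`π` times an element integral over the Gauss ring". -/
theorem inPiGauss_iff_of_prime (t : M) (π : A0) (hp : Prime (unif A0 M t π)) (x : F) :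
    InPiGauss A0 M F t π x ↔
      ∃ c : F, IsIntegral (gaussV A0 M t π) c ∧ x = algebraMap M F (algebraMap A0 M π) * c := by
  constructor
  · rintro ⟨s, hs, c, hc, h⟩
    have hsD : s ∈ denom A0 M t π := (mem_denom_iff M t π hp s).mpr hs
    have hs0 := coe_ne_zero_of_mem_denom M t π hp hsD
    have hsF : algebraMap M F (s : M) ≠ 0 := by
      rw [Ne, map_eq_zero]; exact hs0
    refine ⟨(algebraMap M F (s : M))⁻¹ * c, ?_, ?_⟩
    · apply isIntegral_gaussV_of_smul M t π hp s hs
      have h1 : s • ((algebraMap M F (s : M))⁻¹ * c) = c := by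
        rw [chart_smul_eq M t s, ← mul_assoc, mul_inv_cancel₀ hsF, one_mul]
      rw [h1]
      exact hc
    · have h1 : algebraMap M F (s : M) * x = algebraMap M F (algebraMap A0 M π) * c := by
        rw [← chart_smul_eq M t s x, h, Algebra.smul_def, IsScalarTower.algebraMap_apply A0 M F]
      calc x = (algebraMap M F (s : M))⁻¹ * (algebraMap M F (s : M) * x) := by
            rw [← mul_assoc, inv_mul_cancel₀ hsF, one_mul]
        _ = algebraMap M F (algebraMap A0 M π) * ((algebraMap M F (s : M))⁻¹ * c) := by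
            rw [h1]; ring
  · rintro ⟨c, hc, rfl⟩
    obtain ⟨s, hs, h1⟩ := exists_smul_isIntegral M t π hp c hc
    refine ⟨s, hs, s • c, h1, ?_⟩
    rw [Algebra.smul_def π, IsScalarTower.algebraMap_apply A0 M F, chart_smul_eq M t s,
      chart_smul_eq M t s]
    ring

omit [Algebra A0 F] [IsScalarTower A0 M F] in
/-- An element integral over the chart is integral over the Gauss ring. -/
theorem isIntegral_gaussV_of_isIntegral (t : M) (π : A0) (x : F)
    (h : IsIntegral (chart A0 M t) x) : IsIntegral (gaussV A0 M t π) x := by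
  letI := algV M t π
  haveI : IsScalarTower (chart A0 M t) (gaussV A0 M t π) F :=
    IsScalarTower.of_algebraMap_eq (fun _ => rfl)
  exact h.tower_top

omit [Algebra A0 F] [IsScalarTower A0 M F] in
/-- The trace of an element integral over the (integrally closed) chart lies in the chart. -/
theorem exists_trace_eq (t : M) [IsIntegrallyClosed (chart A0 M t)]
    [IsFractionRing (chart A0 M t) M] (x : F) (hx : IsIntegral (chart A0 M t) x) :
    ∃ r : chart A0 M t, Algebra.trace M F x = (r : M) := by
  by_cases hfin : FiniteDimensional M F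
  · have h1 : IsIntegral (chart A0 M t) (Algebra.trace M F x) := Algebra.isIntegral_trace hx
    obtain ⟨r, hr⟩ := IsIntegrallyClosed.isIntegral_iff.mp h1
    exact ⟨r, hr.symm⟩
  · refine ⟨0, ?_⟩
    have h0 : Algebra.trace M F = 0 := by
      apply Algebra.trace_eq_zero_of_not_exists_basis
      rintro ⟨b, ⟨hb⟩⟩
      exact hfin (Module.Finite.of_basis hb)
    rw [h0]
    rfl

/-- The chart-level hypothesis (H2) is the Gauss-level hypothesis (H2). -/
theorem h2Hyp_iff_of_prime (t : M) (π : A0) (hp : Prime (unif A0 M t π))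
    (hic : IsIntegrallyClosed (chart A0 M t)) (hfr : IsFractionRing (chart A0 M t) M) :
    H2Hyp A0 M F t π ↔ H2G A0 M (gaussV A0 M t π) π F := by
  have hunifM : ((unif A0 M t π : chart A0 M t) : M) = algebraMap A0 M π := rfl
  constructor
  · intro H x hxV hx
    obtain ⟨s, hs, hsx⟩ := exists_smul_isIntegral M t π hp x hxV
    have key : ∃ c : F, IsIntegral (chart A0 M t) c ∧ s • x = π • c := by
      refine H (s • x) hsx ?_
      intro o ho
      obtain ⟨a, haV, hax⟩ := hx o (isIntegral_gaussV_of_isIntegral M t π o ho)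
      obtain ⟨b, s', hs', hb⟩ := (mem_gaussV_iff_of_prime M t π hp a).mp haV
      obtain ⟨r, hr⟩ := exists_trace_eq M t (s • x * o) (hsx.mul ho)
      have h1 : Algebra.trace M F (s • x * o) = (s : M) * Algebra.trace M F (x * o) := by
        have h2 : s • x * o = (s : M) • (x * o) := by
          rw [chart_smul_eq M t s x, Algebra.smul_def, mul_assoc]
        rw [h2, map_smul, smul_eq_mul]
      have h3 : r * s' = unif A0 M t π * (s * b) := by
        apply Subtype.ext
        push_cast
        rw [← hr, h1, hax, hunifM, ← hb]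
        ring
      have h4 : unif A0 M t π ∣ r := by
        rcases hp.dvd_or_dvd (Dvd.intro _ h3.symm) with h | h
        · exact h
        · exact absurd h hs'
      obtain ⟨a', ha'⟩ := h4
      exact ⟨a', by rw [hr, ha']; rfl⟩
    obtain ⟨c, hc, hsc⟩ := key
    exact (inPiGauss_iff_of_prime M t π hp x).mp ⟨s, hs, c, hc, hsc⟩
  · intro G x hxR hx
    have hxV := isIntegral_gaussV_of_isIntegral M t π x hxR
    have key : ∃ c : F, IsIntegral (gaussV A0 M t π) c ∧
        x = algebraMap M F (algebraMap A0 M π) * c := by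
      refine G x hxV ?_
      intro o hoV
      obtain ⟨s, hs, hso⟩ := exists_smul_isIntegral M t π hp o hoV
      obtain ⟨a, ha⟩ := hx (s • o) hso
      have hsD : s ∈ denom A0 M t π := (mem_denom_iff M t π hp s).mpr hs
      have hs0 := coe_ne_zero_of_mem_denom M t π hp hsD
      have h1 : Algebra.trace M F (x * s • o) = (s : M) * Algebra.trace M F (x * o) := by
        have h2 : x * s • o = (s : M) • (x * o) := by
          rw [chart_smul_eq M t s o, Algebra.smul_def]
          ring
        rw [h2, map_smul, smul_eq_mul]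
      refine ⟨(a : M) * (s : M)⁻¹, ⟨a, s, hsD, by rw [mul_assoc, inv_mul_cancel₀ hs0, mul_one]⟩,
        ?_⟩
      have h3 : (s : M) * Algebra.trace M F (x * o) = algebraMap A0 M π * (a : M) := by
        rw [← h1, ha]
        rfl
      calc Algebra.trace M F (x * o)
          = (s : M)⁻¹ * ((s : M) * Algebra.trace M F (x * o)) := by
            rw [← mul_assoc, inv_mul_cancel₀ hs0, one_mul]
        _ = algebraMap A0 M π * ((a : M) * (s : M)⁻¹) := by rw [h3]; ring
    obtain ⟨c, hcV, hxc⟩ := key
    obtain ⟨s, hs, hsc⟩ := exists_smul_isIntegral M t π hp c hcV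
    have h5 : s • x = unif A0 M t π • (s • c) := by
      rw [chart_smul_eq M t s x, chart_smul_eq M t (unif A0 M t π), chart_smul_eq M t s c,
        hunifM, hxc]
      ring
    obtain ⟨y, hy, hxy⟩ := IntTrick.exists_eq_smul_of_smul_eq_smul (M := M)
      (unif A0 M t π) s hp hs x (s • c) hxR hsc h5
    refine ⟨y, hy, ?_⟩
    rw [hxy, chart_smul_eq M t (unif A0 M t π), hunifM, Algebra.smul_def π,
      IsScalarTower.algebraMap_apply A0 M F]

omit [Algebra A0 F] [IsScalarTower A0 M F] in
/-- The Gauss ring is integrally closed. -/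
theorem isIntegrallyClosed_of_prime (t : M) (π : A0) (hp : Prime (unif A0 M t π))
    (hic : IsIntegrallyClosed (chart A0 M t)) : IsIntegrallyClosed (gaussV A0 M t π) := by
  letI := algV M t π
  haveI := isLocalization M t π hp
  refine isIntegrallyClosed_of_isLocalization (gaussV A0 M t π) (denom A0 M t π) ?_
  intro s hs
  refine mem_nonZeroDivisors_of_ne_zero ?_
  intro h
  exact coe_ne_zero_of_mem_denom M t π hp hs (by rw [h]; rfl)

omit [Algebra A0 F] [IsScalarTower A0 M F] in
/-- `M` is the fraction field of the Gauss ring. -/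
theorem isFractionRing_of_prime (t : M) (π : A0) (hp : Prime (unif A0 M t π))
    (hfr : IsFractionRing (chart A0 M t) M) : IsFractionRing (gaussV A0 M t π) M := by
  letI := algV M t π
  haveI := isLocalization M t π hp
  haveI : IsScalarTower (chart A0 M t) (gaussV A0 M t π) M :=
    IsScalarTower.of_algebraMap_eq (fun _ => rfl)
  exact IsFractionRing.isFractionRing_of_isDomain_of_isLocalization (denom A0 M t π)
    (gaussV A0 M t π) M

omit [Algebra A0 F] [IsScalarTower A0 M F] in
/-- The Gauss ring of the chart at infinity is contained in the Gauss ring of the finite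
chart. -/
theorem gaussV_inv_le (t : M) (ht : Transcendental A0 t) (π : A0)
    (hp : Prime (unif A0 M t π)) (hp' : Prime (unif A0 M t⁻¹ π)) :
    gaussV A0 M t⁻¹ π ≤ gaussV A0 M t π := by
  have : Nontrivial A0 := (algebraMap A0 M).domain_nontrivial
  have ht0 : t ≠ 0 := fun h => ht (h ▸ isAlgebraic_zero)
  intro m hm
  obtain ⟨a, s, hs, h⟩ := (mem_gaussV_iff_of_prime M t⁻¹ π hp' m).mp hm
  obtain ⟨K, hK⟩ := ChartGlue.exists_pow_mul_mem_chart t ht π s hs
  obtain ⟨Q, hQ⟩ := ChartGlue.exists_aeval_eq t⁻¹ a
  obtain ⟨s', hs'eq, hs'⟩ := hK (max K Q.natDegree) (le_max_left _ _)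
  have hrefl := ChartGlue.aeval_reflect t t⁻¹ (mul_inv_cancel₀ ht0) (max K Q.natDegree) Q
    (le_max_right _ _)
  refine (mem_gaussV_iff_of_prime M t π hp m).mpr
    ⟨⟨aeval t (reflect (max K Q.natDegree) Q), ChartGlue.aeval_mem_chart t _⟩, s', hs', ?_⟩
  show m * (s' : M) = aeval t (reflect (max K Q.natDegree) Q)
  rw [hs'eq, hrefl, hQ, ← h]
  ring

omit [Algebra A0 F] [IsScalarTower A0 M F] in
/-- The Gauss ring of the finite chart is contained in the Gauss ring of the chart at
infinity. -/
theorem gaussV_le_inv (t : M) (ht : Transcendental A0 t) (π : A0)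
    (hp : Prime (unif A0 M t π)) (hp' : Prime (unif A0 M t⁻¹ π)) :
    gaussV A0 M t π ≤ gaussV A0 M t⁻¹ π := by
  have : Nontrivial A0 := (algebraMap A0 M).domain_nontrivial
  have ht0 : t ≠ 0 := fun h => ht (h ▸ isAlgebraic_zero)
  intro m hm
  obtain ⟨a, s, hs, h⟩ := (mem_gaussV_iff_of_prime M t π hp m).mp hm
  obtain ⟨K, hK⟩ := ChartGlue.exists_pow_mul_mem_chart_inv t ht π s hs
  obtain ⟨Q, hQ⟩ := ChartGlue.exists_aeval_eq t a
  obtain ⟨s', hs'eq, hs'⟩ := hK (max K Q.natDegree) (le_max_left _ _)
  have hrefl := ChartGlue.aeval_reflect t⁻¹ t (inv_mul_cancel₀ ht0) (max K Q.natDegree) Q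
    (le_max_right _ _)
  refine (mem_gaussV_iff_of_prime M t⁻¹ π hp' m).mpr
    ⟨⟨aeval t⁻¹ (reflect (max K Q.natDegree) Q), ChartGlue.aeval_mem_chart t⁻¹ _⟩, s', hs', ?_⟩
  show m * (s' : M) = aeval t⁻¹ (reflect (max K Q.natDegree) Q)
  rw [hs'eq, hrefl, hQ, ← h]
  ring

end Abstract

/-! ### Over a discrete valuation ring `A0`, for a transcendental coordinate `t` -/

section DVR

variable {A0 : Type*} [CommRing A0] [IsDomain A0] [IsDiscreteValuationRing A0]
  (M : Type*) [Field M] [Algebra A0 M]

/-- **(G1)** Elementwise description of the Gauss ring. -/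
theorem mem_gaussV_iff (t : M) (π : A0) (hπ : Irreducible π) (ht : Transcendental A0 t) (m : M) :
    m ∈ gaussV A0 M t π ↔
      ∃ a s : chart A0 M t, ¬ unif A0 M t π ∣ s ∧ m * (s : M) = (a : M) :=
  mem_gaussV_iff_of_prime M t π (AdjoinChart.prime_unif M t ht π hπ) m

/-- **(G1)** The two charts have the same Gauss ring. -/
theorem gaussV_inv (t : M) (π : A0) (hπ : Irreducible π) (ht : Transcendental A0 t) :
    gaussV A0 M t⁻¹ π = gaussV A0 M t π := by
  have hp := AdjoinChart.prime_unif M t ht π hπ
  have hp' := AdjoinChart.prime_unif M t⁻¹ (IntConst.transcendental_inv t ht) π hπ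
  exact le_antisymm (gaussV_inv_le M t ht π hp hp') (gaussV_le_inv M t ht π hp hp')

/-- **(G1)** The Gauss ring is integrally closed. -/
theorem isIntegrallyClosed (t : M) (π : A0) (hπ : Irreducible π) (ht : Transcendental A0 t) :
    IsIntegrallyClosed (gaussV A0 M t π) :=
  isIntegrallyClosed_of_prime M t π (AdjoinChart.prime_unif M t ht π hπ)
    (AdjoinChart.isIntegrallyClosed M t ht)

/-- **(G1)** `M` is the fraction field of the Gauss ring. -/
theorem isFractionRing (t : M) (π : A0) (hπ : Irreducible π) (ht : Transcendental A0 t)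
    (hgen : ∀ m : M, ∃ a b : chart A0 M t, b ≠ 0 ∧ m * (b : M) = (a : M)) :
    IsFractionRing (gaussV A0 M t π) M :=
  isFractionRing_of_prime M t π (AdjoinChart.prime_unif M t ht π hπ)
    (AdjoinChart.isFractionRing M t hgen)

variable {F : Type*} [Field F] [Algebra M F] [Algebra A0 F] [IsScalarTower A0 M F]

omit [Algebra A0 F] [IsScalarTower A0 M F] in
/-- **(G1)** `InGauss` is integrality over the Gauss ring. -/
theorem inGauss_iff (t : M) (π : A0) (hπ : Irreducible π) (ht : Transcendental A0 t) (x : F) :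
    InGauss A0 M F t π x ↔ IsIntegral (gaussV A0 M t π) x :=
  inGauss_iff_of_prime M t π (AdjoinChart.prime_unif M t ht π hπ) x

/-- **(G1)** `InPiGauss` is "`π` times integral over the Gauss ring". -/
theorem inPiGauss_iff (t : M) (π : A0) (hπ : Irreducible π) (ht : Transcendental A0 t) (x : F) :
    InPiGauss A0 M F t π x ↔
      ∃ c : F, IsIntegral (gaussV A0 M t π) c ∧ x = algebraMap M F (algebraMap A0 M π) * c :=
  inPiGauss_iff_of_prime M t π (AdjoinChart.prime_unif M t ht π hπ) x

variable (F)

/-- **(G1)** The chart-level hypothesis `H2Hyp` is the Gauss-level hypothesis `H2G`. -/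
theorem h2Hyp_iff (t : M) (π : A0) (hπ : Irreducible π) (ht : Transcendental A0 t)
    (hgen : ∀ m : M, ∃ a b : chart A0 M t, b ≠ 0 ∧ m * (b : M) = (a : M)) :
    H2Hyp A0 M F t π ↔ H2G A0 M (gaussV A0 M t π) π F :=
  h2Hyp_iff_of_prime M t π (AdjoinChart.prime_unif M t ht π hπ)
    (AdjoinChart.isIntegrallyClosed M t ht) (AdjoinChart.isFractionRing M t hgen)

end DVR

end Fermat.Agent.S18.GaussCalc
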