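import Mathlib

/-!
# S18, route K: the Kummer algebra over an integrally closed base

* `mem_adjoin_of_trace_mem` : `R` integrally closed with fraction field `K`, `E = K[θ]`, `θ` a root
  of a monic `f ∈ R[X]` with `f'(θ)` a unit of `R[θ]`.  Then the trace dual of `R[θ]` is `R[θ]`.
* `integralClosure_eq_adjoin` : hence `R[θ]` is the integral closure of `R` in `E`.
* `kummer_integralClosure_eq_adjoin` : the case `θ ^ p = Y`, `Y` and `p` units of `R`.
* `idem_mul_self`, `mul_idem` : the idempotent `p⁻¹ (1 + T + ... + T^(p-1))` for `T ^ p = 1`.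
-/

namespace Fermat.Agent.S18.KummerUnit

open Polynomial

theorem isTorsionFree_aux (R K E : Type*) [CommRing R] [IsDomain R] [Field K] [Algebra R K]
    [IsFractionRing R K] [Field E] [Algebra K E] [Algebra R E] [IsScalarTower R K E] :
    Module.IsTorsionFree R E := by
  have hinj : Function.Injective (algebraMap R E) := by
    rw [IsScalarTower.algebraMap_eq R K E]
    exact (algebraMap K E).injective.comp (IsFractionRing.injective R K)
  have : FaithfulSMul R E := (faithfulSMul_iff_algebraMap_injective R E).mpr hinj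
  infer_instance

section General

variable {R K E : Type*} [CommRing R] [IsDomain R] [IsIntegrallyClosed R] [Field K] [Algebra R K]
  [IsFractionRing R K] [Field E] [Algebra K E] [Algebra R E] [IsScalarTower R K E]
  [FiniteDimensional K E]

/-- **Unit derivative, trace-dual form.** -/
theorem mem_adjoin_of_trace_mem (θ : E) (f : R[X]) (hf : f.Monic) (h0 : aeval θ f = 0)
    (hgen : Algebra.adjoin K {θ} = ⊤)
    (hu : ∃ w ∈ Algebra.adjoin R {θ}, aeval θ (derivative f) * w = 1)
    (z : E)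
    (hz : ∀ o ∈ Algebra.adjoin R {θ}, ∃ s : R, Algebra.trace K E (z * o) = algebraMap R K s) :
    z ∈ Algebra.adjoin R {θ} := by
  have htf : Module.IsTorsionFree R E := isTorsionFree_aux R K E
  have hθR : IsIntegral R θ := ⟨f, hf, by rwa [← aeval_def]⟩
  obtain ⟨h, hfh⟩ := minpoly.isIntegrallyClosed_dvd hθR h0
  obtain ⟨w, hw, hw1⟩ := hu
  have hder : aeval θ (derivative f) = aeval θ (derivative (minpoly R θ)) * aeval θ h := by
    rw [hfh, derivative_mul, map_add, map_mul, map_mul, minpoly.aeval, zero_mul, add_zero]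
  have hg' : aeval θ (derivative (minpoly K θ)) = aeval θ (derivative (minpoly R θ)) := by
    rw [minpoly.isIntegrallyClosed_eq_field_fractions' K hθR, derivative_map, aeval_map_algebraMap]
  have hone : aeval θ (derivative (minpoly K θ)) * (aeval θ h * w) = 1 := by
    rw [hg', ← mul_assoc, ← hder, hw1]
  have hne : aeval θ (derivative (minpoly K θ)) ≠ 0 := by
    intro h0'
    rw [h0', zero_mul] at hone
    exact zero_ne_one hone
  have hθK : IsIntegral K θ := hθR.tower_top
  have hsepθ : IsSeparable K θ := by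
    unfold IsSeparable
    rw [Polynomial.separable_iff_derivative_ne_zero (minpoly.irreducible hθK)]
    intro h0'
    rw [h0', map_zero] at hne
    exact hne rfl
  have hsep : Algebra.IsSeparable K E := by
    refine ⟨fun x => ?_⟩
    have hle : Algebra.adjoin K {θ} ≤ (separableClosure K E).toSubalgebra := by
      refine Algebra.adjoin_le ?_
      rintro _ rfl
      exact mem_separableClosure_iff.mpr hsepθ
    have hx : x ∈ (separableClosure K E).toSubalgebra := hle (hgen ▸ Algebra.mem_top)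
    exact mem_separableClosure_iff.mp hx
  have hdual := traceForm_dualSubmodule_adjoin R K hgen hθR
  have hzmem : z ∈ (Algebra.traceForm K E).dualSubmodule
      (Subalgebra.toSubmodule (Algebra.adjoin R {θ})) := by
    rw [LinearMap.BilinForm.mem_dualSubmodule]
    intro y hy
    obtain ⟨s, hs⟩ := hz y hy
    rw [Algebra.traceForm_apply, hs]
    exact Submodule.mem_one.mpr ⟨s, rfl⟩
  rw [hdual, Submodule.mem_smul_iff_inv_mul_mem (inv_ne_zero hne), inv_inv] at hzmem
  have hhθ : aeval θ h ∈ Algebra.adjoin R {θ} := by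
    rw [Algebra.adjoin_singleton_eq_range_aeval]
    exact ⟨h, rfl⟩
  have : z = (aeval θ h * w) * (aeval θ (derivative (minpoly K θ)) * z) := by
    rw [← mul_assoc, mul_comm (aeval θ h * w), hone, one_mul]
  rw [this]
  exact Subalgebra.mul_mem _ (Subalgebra.mul_mem _ hhθ hw) hzmem

/-- **Unit derivative ⟹ monogenic integral closure.** -/
theorem integralClosure_eq_adjoin (θ : E) (f : R[X]) (hf : f.Monic) (h0 : aeval θ f = 0)
    (hgen : Algebra.adjoin K {θ} = ⊤)
    (hu : ∃ w ∈ Algebra.adjoin R {θ}, aeval θ (derivative f) * w = 1) :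
    integralClosure R E = Algebra.adjoin R {θ} := by
  have hθR : IsIntegral R θ := ⟨f, hf, by rwa [← aeval_def]⟩
  have hle : Algebra.adjoin R {θ} ≤ integralClosure R E := by
    refine Algebra.adjoin_le ?_
    rintro _ rfl
    exact hθR
  refine le_antisymm (fun z hz => ?_) hle
  refine mem_adjoin_of_trace_mem (K := K) θ f hf h0 hgen hu z (fun o ho => ?_)
  have hint : IsIntegral R (Algebra.trace K E (z * o)) :=
    Algebra.isIntegral_trace (IsIntegral.mul hz (hle ho))
  obtain ⟨s, hs⟩ := IsIntegrallyClosed.isIntegral_iff.mp hint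
  exact ⟨s, hs.symm⟩

omit [IsIntegrallyClosed R] in
/-- The Kummer polynomial `X ^ p - Y` (`Y`, `p` units of `R`) has unit derivative at a root. -/
theorem kummer_aux (p : ℕ) (hpR : IsUnit (p : R)) (Y : R) (hY : IsUnit Y) (θ : E)
    (hθ : θ ^ p = algebraMap R E Y) :
    (X ^ p - C Y : R[X]).Monic ∧ aeval θ (X ^ p - C Y : R[X]) = 0 ∧
      ∃ w ∈ Algebra.adjoin R {θ}, aeval θ (derivative (X ^ p - C Y : R[X])) * w = 1 := by
  have hp0 : p ≠ 0 := by
    rintro rfl
    rw [Nat.cast_zero] at hpR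
    exact not_isUnit_zero hpR
  refine ⟨monic_X_pow_sub_C Y hp0, by simp [hθ], ?_⟩
  obtain ⟨Yu, rfl⟩ := hY
  obtain ⟨pu, hpu⟩ := hpR
  refine ⟨θ * algebraMap R E (↑Yu⁻¹ * ↑pu⁻¹), ?_, ?_⟩
  · exact Subalgebra.mul_mem _ (Algebra.self_mem_adjoin_singleton R θ)
      (Subalgebra.algebraMap_mem _ _)
  · have hd : aeval θ (derivative (X ^ p - C (Yu : R) : R[X])) = algebraMap R E (pu : R) * θ ^ (p - 1) := by
      rw [hpu]
      simp [derivative_X_pow]
    have hθp : θ ^ (p - 1) * θ = algebraMap R E (Yu : R) := by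
      rw [← pow_succ, Nat.sub_add_cancel (Nat.one_le_iff_ne_zero.mpr hp0), hθ]
    calc aeval θ (derivative (X ^ p - C (Yu : R) : R[X])) * (θ * algebraMap R E (↑Yu⁻¹ * ↑pu⁻¹))
        = algebraMap R E (pu : R) * (θ ^ (p - 1) * θ) * algebraMap R E (↑Yu⁻¹ * ↑pu⁻¹) := by
          rw [hd]; ring
      _ = algebraMap R E ((pu : R) * (Yu : R) * (↑Yu⁻¹ * ↑pu⁻¹)) := by
          rw [hθp, ← map_mul, ← map_mul]
      _ = 1 := by
          have : (pu : R) * (Yu : R) * (↑Yu⁻¹ * ↑pu⁻¹) = 1 := by
            rw [mul_assoc, ← mul_assoc (Yu : R), Units.mul_inv, one_mul, Units.mul_inv]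
          rw [this, map_one]

/-- **Kummer, trace-dual form**: for `θ ^ p = Y` with `Y`, `p` units of `R` and `E = K[θ]`, the
trace dual of `R[θ]` is `R[θ]`. -/
theorem kummer_mem_adjoin_of_trace_mem (p : ℕ) (hpR : IsUnit (p : R)) (Y : R) (hY : IsUnit Y)
    (θ : E) (hθ : θ ^ p = algebraMap R E Y) (hgen : Algebra.adjoin K {θ} = ⊤) (z : E)
    (hz : ∀ o ∈ Algebra.adjoin R {θ}, ∃ s : R, Algebra.trace K E (z * o) = algebraMap R K s) :
    z ∈ Algebra.adjoin R {θ} := by
  obtain ⟨h1, h2, h3⟩ := kummer_aux p hpR Y hY θ hθ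
  exact mem_adjoin_of_trace_mem θ _ h1 h2 hgen h3 z hz

/-- **Kummer**: for `θ ^ p = Y` with `Y`, `p` units of `R` and `E = K[θ]`, the integral closure
of `R` in `E` is `R[θ]`. -/
theorem kummer_integralClosure_eq_adjoin (p : ℕ) (hpR : IsUnit (p : R)) (Y : R) (hY : IsUnit Y)
    (θ : E) (hθ : θ ^ p = algebraMap R E Y) (hgen : Algebra.adjoin K {θ} = ⊤) :
    integralClosure R E = Algebra.adjoin R {θ} := by
  obtain ⟨h1, h2, h3⟩ := kummer_aux p hpR Y hY θ hθ
  exact integralClosure_eq_adjoin (K := K) θ _ h1 h2 hgen h3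

omit [IsIntegrallyClosed R] in
/-- `K⟮θ⟯ = ⊤` implies `K[θ] = ⊤` (finite extension). -/
theorem adjoin_eq_top_of_adjoin_simple (θ : E) (h : IntermediateField.adjoin K {θ} = ⊤) :
    Algebra.adjoin K {θ} = ⊤ := by
  have h1 := IntermediateField.adjoin_simple_toSubalgebra_of_isAlgebraic
    (Algebra.IsAlgebraic.isAlgebraic (R := K) θ)
  rw [← h1, h, IntermediateField.top_toSubalgebra]

/-- **Unit derivative ⟹ monogenic integral closure**, `K⟮θ⟯ = ⊤` form. -/
theorem integralClosure_eq_adjoin' (θ : E) (f : R[X]) (hf : f.Monic) (h0 : aeval θ f = 0)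
    (hgen : IntermediateField.adjoin K {θ} = ⊤)
    (hu : ∃ w ∈ Algebra.adjoin R {θ}, aeval θ (derivative f) * w = 1) :
    integralClosure R E = Algebra.adjoin R {θ} :=
  integralClosure_eq_adjoin (K := K) θ f hf h0 (adjoin_eq_top_of_adjoin_simple θ hgen) hu

/-- **Kummer**, `K⟮θ⟯ = ⊤` form. -/
theorem kummer_integralClosure_eq_adjoin' (p : ℕ) (hpR : IsUnit (p : R)) (Y : R) (hY : IsUnit Y)
    (θ : E) (hθ : θ ^ p = algebraMap R E Y) (hgen : IntermediateField.adjoin K {θ} = ⊤) :
    integralClosure R E = Algebra.adjoin R {θ} :=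
  kummer_integralClosure_eq_adjoin (K := K) p hpR Y hY θ hθ (adjoin_eq_top_of_adjoin_simple θ hgen)

/-- **Kummer**, elementwise form: an element of `E = K⟮θ⟯` integral over `R` is a polynomial
in `θ` with coefficients in `R`. -/
theorem kummer_exists_aeval_eq (p : ℕ) (hpR : IsUnit (p : R)) (Y : R) (hY : IsUnit Y)
    (θ : E) (hθ : θ ^ p = algebraMap R E Y) (hgen : IntermediateField.adjoin K {θ} = ⊤)
    (z : E) (hz : IsIntegral R z) : ∃ q : R[X], aeval θ q = z := by
  have hmem : z ∈ integralClosure R E := hz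
  rw [kummer_integralClosure_eq_adjoin' (K := K) p hpR Y hY θ hθ hgen,
    Algebra.adjoin_singleton_eq_range_aeval] at hmem
  exact hmem

end General

section Idem

variable {W : Type*} [CommRing W]

theorem mul_sum_pow (T : W) (p : ℕ) (hT : T ^ p = 1) :
    T * ∑ i ∈ Finset.range p, T ^ i = ∑ i ∈ Finset.range p, T ^ i := by
  have h1 := Finset.sum_range_succ' (fun i => T ^ i) p
  have h2 := Finset.sum_range_succ (fun i => T ^ i) p
  rw [Finset.mul_sum]
  simp only [← pow_succ']
  rw [h2, hT, pow_zero] at h1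
  exact (add_right_cancel h1).symm

theorem pow_mul_sum_pow (T : W) (p : ℕ) (hT : T ^ p = 1) (n : ℕ) :
    T ^ n * ∑ i ∈ Finset.range p, T ^ i = ∑ i ∈ Finset.range p, T ^ i := by
  induction n with
  | zero => rw [pow_zero, one_mul]
  | succ n ih => rw [pow_succ, mul_assoc, mul_sum_pow T p hT, ih]

/-- `T ^ p = 1`, `p c = 1` ⟹ `e := c (1 + T + ... + T^(p-1))` is idempotent. -/
theorem idem_mul_self (T c : W) (p : ℕ) (hT : T ^ p = 1) (hc : (p : W) * c = 1) :
    (c * ∑ i ∈ Finset.range p, T ^ i) * (c * ∑ i ∈ Finset.range p, T ^ i) =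
      c * ∑ i ∈ Finset.range p, T ^ i := by
  have hSS : (∑ i ∈ Finset.range p, T ^ i) * (∑ i ∈ Finset.range p, T ^ i) =
      (p : W) * ∑ i ∈ Finset.range p, T ^ i := by
    rw [Finset.sum_mul]
    simp only [pow_mul_sum_pow T p hT]
    rw [Finset.sum_const, Finset.card_range, nsmul_eq_mul]
  calc (c * ∑ i ∈ Finset.range p, T ^ i) * (c * ∑ i ∈ Finset.range p, T ^ i)
      = c * c * ((∑ i ∈ Finset.range p, T ^ i) * (∑ i ∈ Finset.range p, T ^ i)) := by ring
    _ = ((p : W) * c) * (c * ∑ i ∈ Finset.range p, T ^ i) := by rw [hSS]; ring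
    _ = c * ∑ i ∈ Finset.range p, T ^ i := by rw [hc, one_mul]

/-- `T e = e` for the idempotent `e = c (1 + T + ... + T^(p-1))`. -/
theorem mul_idem (T c : W) (p : ℕ) (hT : T ^ p = 1) :
    T * (c * ∑ i ∈ Finset.range p, T ^ i) = c * ∑ i ∈ Finset.range p, T ^ i := by
  rw [mul_left_comm, mul_sum_pow T p hT]

end Idem

end Fermat.Agent.S18.KummerUnit
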