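import Mathlib
import Fermat.Agent.S18.GaussDefs
import Fermat.Agent.S18.KummerUnit

/-!
# S18 bridge (G2): the Gauss-level (H2) passes through an étale layer

`V ⊆ M` an integrally closed subring with fraction field `M`, `M ⊆ F ⊆ F' = F[h]` finite separable,
the minimal polynomial of `h` over `F` has coefficients integral over `V` and its derivative at
`h` has an inverse which is integral over `V`.  Then `H2G` for `F` implies `H2G` for `F'`.
-/

set_option autoImplicit false
set_option linter.unusedSectionVars false
set_option linter.unusedVariables false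

namespace Fermat.Agent.S18.GaussLayer

open Polynomial Fermat.Agent.S18.GaussCalc

section Layer

variable {V F F' : Type*} [CommRing V] [IsDomain V] [Field F] [Algebra V F]
  [Field F'] [Algebra F F'] [Algebra V F'] [IsScalarTower V F F']

/-- Lift of the minimal polynomial to the integral closure. -/
theorem exists_lift_minpoly (h : F') (hh : IsIntegral F h)
    (hint : ∀ n : ℕ, IsIntegral V ((minpoly F h).coeff n)) :
    ∃ f : (integralClosure V F)[X], f.Monic ∧
      f.map (algebraMap (integralClosure V F) F) = minpoly F h := by
  have hlifts : minpoly F h ∈ Polynomial.lifts (algebraMap (integralClosure V F) F) := by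
    rw [Polynomial.lifts_iff_coeff_lifts]
    intro n
    exact ⟨⟨(minpoly F h).coeff n, hint n⟩, rfl⟩
  obtain ⟨f, hf, -, hfm⟩ := Polynomial.lifts_and_natDegree_eq_and_monic hlifts (minpoly.monic hh)
  exact ⟨f, hfm, hf⟩

end Layer

section Main

variable {A0 : Type*} [CommRing A0] (M : Type*) [Field M] [Algebra A0 M]

/-- **(G2)**: the Gauss-level (H2) passes through a layer `F' = F[h]` whose generator has an
integral minimal polynomial with unit derivative at `h`. -/
theorem h2G_of_layer (V : Subring M) (hV : IsIntegrallyClosed V) (hVM : IsFractionRing V M)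
    (π : A0) (hπV : algebraMap A0 M π ∈ V)
    (F : Type*) [Field F] [Algebra M F] [FiniteDimensional M F] [Algebra.IsSeparable M F]
    (F' : Type*) [Field F'] [Algebra F F'] [Algebra M F'] [IsScalarTower M F F']
    [FiniteDimensional F F'] [Algebra.IsSeparable F F']
    (h : F') (hgen : Algebra.adjoin F {h} = ⊤)
    (hint : ∀ n : ℕ, IsIntegral V ((minpoly F h).coeff n))
    (hunit : ∃ u : F', IsIntegral V u ∧
      u * Polynomial.aeval h (Polynomial.derivative (minpoly F h)) = 1)
    (h2 : H2G A0 M V π F) : H2G A0 M V π F' := by
  intro x hx htr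
  have hRic : IsIntegrallyClosed (integralClosure V F) :=
    integralClosure.isIntegrallyClosedOfFiniteExtension M
  have hRfr : IsFractionRing (integralClosure V F) F :=
    integralClosure.isFractionRing_of_finite_extension M F
  have hhF : IsIntegral F h := Algebra.IsIntegral.isIntegral h
  obtain ⟨f, hfmonic, hfmap⟩ := exists_lift_minpoly (V := V) h hhF hint
  have hf0 : aeval h f = 0 := by
    have := minpoly.aeval F h
    rwa [← hfmap, aeval_map_algebraMap] at this
  have hfder : aeval h (derivative f) = aeval h (derivative (minpoly F h)) := by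
    rw [← hfmap, derivative_map, aeval_map_algebraMap]
  have hhR : IsIntegral (integralClosure V F) h := ⟨f, hfmonic, by rwa [← aeval_def]⟩
  have hadj_int : ∀ o ∈ Algebra.adjoin (integralClosure V F) {h},
      IsIntegral (integralClosure V F) o := by
    intro o ho
    have hle : Algebra.adjoin (integralClosure V F) {h} ≤
        integralClosure (integralClosure V F) F' := by
      refine Algebra.adjoin_le ?_
      rintro _ rfl
      exact hhR
    exact hle ho
  have hRV : ∀ o : F', IsIntegral (integralClosure V F) o → IsIntegral V o :=
    fun o ho => isIntegral_trans o ho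
  -- the unit `u` lies in `R[h]`
  obtain ⟨u, huint, hu1⟩ := hunit
  have hd0 : aeval h (derivative (minpoly F h)) ≠ 0 := by
    intro h0
    rw [h0, mul_zero] at hu1
    exact zero_ne_one hu1
  have huR : IsIntegral (integralClosure V F) u := huint.tower_top
  have humem : u ∈ Algebra.adjoin (integralClosure V F) {h} := by
    have hdual := traceForm_dualSubmodule_adjoin (integralClosure V F) F hgen hhR
    have hmem : u * u ∈ (Algebra.traceForm F F').dualSubmodule
        (Subalgebra.toSubmodule (Algebra.adjoin (integralClosure V F) {h})) := by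
      rw [LinearMap.BilinForm.mem_dualSubmodule]
      intro y hy
      rw [Algebra.traceForm_apply]
      have hint' : IsIntegral (integralClosure V F) (Algebra.trace F F' (u * u * y)) :=
        Algebra.isIntegral_trace ((huR.mul huR).mul (hadj_int y hy))
      obtain ⟨r, hr⟩ := IsIntegrallyClosed.isIntegral_iff.mp hint'
      exact Submodule.mem_one.mpr ⟨r, hr⟩
    rw [hdual, Submodule.mem_smul_iff_inv_mul_mem (inv_ne_zero hd0), inv_inv] at hmem
    have : u = aeval h (derivative (minpoly F h)) * (u * u) := by
      calc u = (u * aeval h (derivative (minpoly F h))) * u := by rw [hu1, one_mul]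
        _ = aeval h (derivative (minpoly F h)) * (u * u) := by ring
    rw [this]
    exact hmem
  have hu' : ∃ w ∈ Algebra.adjoin (integralClosure V F) {h}, aeval h (derivative f) * w = 1 :=
    ⟨u, humem, by rw [hfder, mul_comm]; exact hu1⟩
  -- traces down to `F` are divisible by `π`
  have hA : ∀ o : F', IsIntegral V o → ∃ c : F, IsIntegral V c ∧
      Algebra.trace F F' (x * o) = algebraMap M F (algebraMap A0 M π) * c := by
    intro o ho
    have hyint : IsIntegral V (Algebra.trace F F' (x * o)) :=
      Algebra.isIntegral_trace (hx.mul ho)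
    refine h2 _ hyint ?_
    intro a ha
    have e1 : Algebra.trace F F' (x * o) * a =
        Algebra.trace F F' (x * (o * algebraMap F F' a)) := by
      rw [mul_comm _ a, ← smul_eq_mul, ← map_smul, Algebra.smul_def]
      congr 1
      ring
    rw [e1, Algebra.trace_trace]
    exact htr _ (ho.mul ha.algebraMap)
  by_cases hπ0 : algebraMap A0 M π = 0
  · -- degenerate case: the trace form of `F'/F` is nondegenerate
    have hzero : ∀ y : F', Algebra.trace F F' (x * y) = 0 := by
      intro y
      have hy : y ∈ Algebra.adjoin F {h} := hgen ▸ Algebra.mem_top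
      rw [Algebra.adjoin_singleton_eq_range_aeval] at hy
      obtain ⟨q, hq⟩ := hy
      have hq' : aeval h q = y := hq
      rw [← hq', aeval_eq_sum_range, Finset.mul_sum, map_sum]
      refine Finset.sum_eq_zero fun i _ => ?_
      rw [mul_smul_comm, map_smul]
      obtain ⟨c, -, hc⟩ := hA (h ^ i) ((hRV h hhR).pow i)
      rw [hc, hπ0, map_zero, zero_mul, smul_zero]
    have hx0 : x = 0 := (traceForm_nondegenerate F F').1 x hzero
    exact ⟨0, isIntegral_zero, by rw [hx0, mul_zero]⟩
  · have hπF' : algebraMap M F' (algebraMap A0 M π) ≠ 0 := by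
      rwa [Ne, map_eq_zero]
    have hπF : algebraMap M F (algebraMap A0 M π) ≠ 0 := by
      rwa [Ne, map_eq_zero]
    have hz : (algebraMap M F' (algebraMap A0 M π))⁻¹ * x ∈
        Algebra.adjoin (integralClosure V F) {h} := by
      refine KummerUnit.mem_adjoin_of_trace_mem (K := F) h f hfmonic hf0 hgen hu' _ ?_
      intro o ho
      obtain ⟨c, hc, hco⟩ := hA o (hRV o (hadj_int o ho))
      refine ⟨⟨c, hc⟩, ?_⟩
      have e2 : (algebraMap M F' (algebraMap A0 M π))⁻¹ * x * o =
          (algebraMap M F (algebraMap A0 M π))⁻¹ • (x * o) := by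
        rw [Algebra.smul_def, map_inv₀, ← IsScalarTower.algebraMap_apply M F F', mul_assoc]
      rw [e2, map_smul, hco, smul_eq_mul, ← mul_assoc, inv_mul_cancel₀ hπF, one_mul]
      rfl
    refine ⟨_, hRV _ (hadj_int _ hz), ?_⟩
    rw [← mul_assoc, mul_inv_cancel₀ hπF', one_mul]

end Main

end Fermat.Agent.S18.GaussLayer
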