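import Mathlib
import Fermat.Agent.S18.GaussCalc
import Fermat.Agent.S18.KummerCore

/-!
# S18 bridge: the chart at infinity for free

The charts `A0[t]` and `A0[t⁻¹]` have the same Gauss ring (`GaussCalc.gaussV_inv`), so the
hypotheses `H2Hyp`, `InGauss`, `InPiGauss` of `CoreDefs` on the chart `t⁻¹` follow from the same
hypotheses on the chart `t`.  `false_of_kummer_fin` is `KummerCore.false_of_kummer` with the
`(H2)` and `Y ≡ 1` hypotheses only on the finite chart.
-/

set_option autoImplicit false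

namespace Fermat.Agent.S18.GaussSwap

open Fermat.Agent.S18.CoreDefs Fermat.Agent.S18.GaussCalc

variable {A0 : Type*} [CommRing A0] [IsDomain A0] [IsDiscreteValuationRing A0]
  (M : Type*) [Field M] [Algebra A0 M]

theorem ne_zero_of_transcendental {t : M} (ht : Transcendental A0 t) : t ≠ 0 := by
  rintro rfl
  exact ht ⟨Polynomial.X, Polynomial.X_ne_zero, by simp⟩

section

variable {F : Type*} [Field F] [Algebra M F]

omit [IsDomain A0] [IsDiscreteValuationRing A0] in
theorem isIntegral_subring_congr {V V' : Subring M} (h : V = V') (x : F) :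
    IsIntegral V x ↔ IsIntegral V' x := by
  subst h
  rfl

/-- `InGauss` on the chart `t` gives `InGauss` on the chart `t⁻¹`. -/
theorem inGauss_inv (t : M) (π : A0) (hπ : Irreducible π) (ht : Transcendental A0 t) (x : F)
    (h : InGauss A0 M F t π x) : InGauss A0 M F t⁻¹ π x := by
  have ht' := IntConst.transcendental_inv t ht
  rw [inGauss_iff M t⁻¹ π hπ ht' x, isIntegral_subring_congr M (gaussV_inv M t π hπ ht)]
  exact (inGauss_iff M t π hπ ht x).mp h

/-- `InGauss` on the two charts are equivalent. -/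
theorem inGauss_inv_iff (t : M) (π : A0) (hπ : Irreducible π) (ht : Transcendental A0 t)
    (x : F) : InGauss A0 M F t⁻¹ π x ↔ InGauss A0 M F t π x := by
  have ht' := IntConst.transcendental_inv t ht
  rw [inGauss_iff M t⁻¹ π hπ ht' x, isIntegral_subring_congr M (gaussV_inv M t π hπ ht),
    inGauss_iff M t π hπ ht x]

variable [Algebra A0 F] [IsScalarTower A0 M F]

/-- `InPiGauss` on the two charts are equivalent. -/
theorem inPiGauss_inv_iff (t : M) (π : A0) (hπ : Irreducible π) (ht : Transcendental A0 t)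
    (x : F) : InPiGauss A0 M F t⁻¹ π x ↔ InPiGauss A0 M F t π x := by
  have ht' := IntConst.transcendental_inv t ht
  rw [inPiGauss_iff M t⁻¹ π hπ ht' x, inPiGauss_iff M t π hπ ht x]
  constructor
  · rintro ⟨c, hc, h⟩
    exact ⟨c, (isIntegral_subring_congr M (gaussV_inv M t π hπ ht) c).mp hc, h⟩
  · rintro ⟨c, hc, h⟩
    exact ⟨c, (isIntegral_subring_congr M (gaussV_inv M t π hπ ht) c).mpr hc, h⟩

/-- `InPiGauss` on the chart `t` gives `InPiGauss` on the chart `t⁻¹`. -/
theorem inPiGauss_inv (t : M) (π : A0) (hπ : Irreducible π) (ht : Transcendental A0 t) (x : F)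
    (h : InPiGauss A0 M F t π x) : InPiGauss A0 M F t⁻¹ π x :=
  (inPiGauss_inv_iff M t π hπ ht x).mpr h

end

/-- `H2Hyp` on the two charts are equivalent. -/
theorem h2Hyp_inv_iff (F : Type*) [Field F] [Algebra M F] [Algebra A0 F] [IsScalarTower A0 M F]
    (t : M) (π : A0) (hπ : Irreducible π) (ht : Transcendental A0 t)
    (hgen : ∀ m : M, ∃ a b : chart A0 M t, b ≠ 0 ∧ m * (b : M) = (a : M)) :
    H2Hyp A0 M F t⁻¹ π ↔ H2Hyp A0 M F t π := by
  have ht' := IntConst.transcendental_inv t ht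
  have hgen' := ChartGlue.hgen_inv t (ne_zero_of_transcendental M ht) hgen
  rw [h2Hyp_iff M F t⁻¹ π hπ ht' hgen', h2Hyp_iff M F t π hπ ht hgen, gaussV_inv M t π hπ ht]

/-- `H2Hyp` on the chart `t` gives `H2Hyp` on the chart `t⁻¹`. -/
theorem h2Hyp_inv (F : Type*) [Field F] [Algebra M F] [Algebra A0 F] [IsScalarTower A0 M F]
    (t : M) (π : A0) (hπ : Irreducible π) (ht : Transcendental A0 t)
    (hgen : ∀ m : M, ∃ a b : chart A0 M t, b ≠ 0 ∧ m * (b : M) = (a : M))
    (h : H2Hyp A0 M F t π) : H2Hyp A0 M F t⁻¹ π :=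
  (h2Hyp_inv_iff M F t π hπ ht hgen).mpr h

/-- **The core contract with the `(H2)` and `Y ≡ 1` hypotheses only on the finite chart.** -/
theorem false_of_kummer_fin
    (F : Type*) [Field F] [Algebra M F] [Algebra A0 F] [IsScalarTower A0 M F]
    [FiniteDimensional M F] [Algebra.IsSeparable M F]
    (E : Type*) [Field E] [Algebra F E] [Algebra M E] [Algebra A0 E] [IsScalarTower M F E]
    [IsScalarTower A0 M E] [IsScalarTower A0 F E]
    (π : A0) (hπ : Irreducible π) (hchar : ∀ n : ℕ, n ≠ 0 → ∃ a : ℕ, (n : A0) ∣ π ^ a)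
    (t : M) (ht : Transcendental A0 t)
    (hgen : ∀ m : M, ∃ a b : chart A0 M t, b ≠ 0 ∧ m * (b : M) = (a : M))
    (p : ℕ) (hp : p.Prime) (hpA : IsUnit (p : A0)) (Y : F) (θ : E)
    (hθ : θ ^ p = algebraMap F E Y) (hθgen : Algebra.adjoin F {θ} = ⊤)
    (hdeg : Module.finrank F E = p) (Critf Criti : Finset A0)
    (h2f : H2Hyp A0 M F t π)
    (h3f : H3Hyp A0 M E t π Critf) (h3i : H3Hyp A0 M E t⁻¹ π Criti)
    (hYf : InPiGauss A0 M F t π (Y - 1)) (hYf' : InPiGauss A0 M F t π (Y⁻¹ - 1))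
    (hconst : ∀ h : E, IsIntegral A0 h → ∃ a : A0, h = algebraMap A0 E a) : False :=
  KummerCore.false_of_kummer M F E π hπ hchar t ht hgen p hp hpA Y θ hθ hθgen hdeg Critf Criti
    h2f (h2Hyp_inv M F t π hπ ht hgen h2f) h3f h3i
    hYf (inPiGauss_inv M t π hπ ht _ hYf) hYf' (inPiGauss_inv M t π hπ ht _ hYf') hconst

end Fermat.Agent.S18.GaussSwap
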