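import Mathlib
import Fermat.Agent.S18.GaussDefs

/-!
# S18 bridge (G3): change of base line for the Gauss-level (H2)

`M ⊆ M'` a finite extension of base-line fields, `V ⊆ M` integrally closed with fraction field
`M`, `V' ⊆ M'` its integral closure.  Then `H2G` for `(M, V)` and a field `F' ⊇ M'` implies `H2G`
for `(M', V')` and `F'`.
-/

set_option autoImplicit false

open Fermat.Agent.S18.GaussCalc

namespace Fermat.Agent.S18.GaussTower

/-- **(G3)** base-line change `M → M'` for the Gauss-level (H2). -/
theorem h2G_of_tower {A0 : Type*} [CommRing A0] (M : Type*) [Field M] [Algebra A0 M]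
    (V : Subring M) (hV : IsIntegrallyClosed V) (hVM : IsFractionRing V M) (π : A0)
    (M' : Type*) [Field M'] [Algebra M M'] [Algebra A0 M'] [IsScalarTower A0 M M']
    [FiniteDimensional M M']
    (F' : Type*) [Field F'] [Algebra M' F'] [Algebra M F'] [IsScalarTower M M' F']
    [FiniteDimensional M' F']
    (V' : Subring M') (hV' : ∀ x : M', x ∈ V' ↔ IsIntegral V x)
    (h2 : H2G A0 M V π F') : H2G A0 M' V' π F' := by
  -- the inclusion `V → V'`
  let ι : V →+* V' := RingHom.codRestrict ((algebraMap M M').comp V.subtype) V'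
    (fun v => (hV' _).mpr (isIntegral_algebraMap (R := V) (A := M') (x := v)))
  let : Algebra V V' := ι.toAlgebra
  have : IsScalarTower V V' M' := IsScalarTower.of_algebraMap_eq fun v => rfl
  have : IsScalarTower V V' F' := IsScalarTower.of_algebraMap_eq fun v => by
    show algebraMap M F' (v : M) = algebraMap M' F' (algebraMap M M' (v : M))
    rw [← IsScalarTower.algebraMap_apply]
  have : Algebra.IsIntegral V V' := ⟨fun y => by
    have h := (hV' (y : M')).mp y.2
    exact (isIntegral_algebraMap_iff (R := V) (A := V') (B := M')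
      (Subtype.val_injective)).mp h⟩
  intro x hx hxtr
  have hxV : IsIntegral V x := isIntegral_trans (A := V') x hx
  have hπ' : algebraMap A0 M' π = algebraMap M M' (algebraMap A0 M π) :=
    IsScalarTower.algebraMap_apply A0 M M' π
  obtain ⟨c, hc, hxc⟩ := h2 x hxV (by
    intro o ho
    obtain ⟨a, haV', ha⟩ := hxtr o ho.tower_top
    have haint : IsIntegral V a := (hV' a).mp haV'
    have htr : IsIntegral V (Algebra.trace M M' a) := Algebra.isIntegral_trace haint
    obtain ⟨y, hy⟩ := IsIntegrallyClosed.isIntegral_iff.mp htr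
    refine ⟨y, y.2, ?_⟩
    rw [← Algebra.trace_trace (S := M'), ha, hπ', ← Algebra.smul_def, map_smul, smul_eq_mul]
    congr 1
    exact hy.symm)
  refine ⟨c, hc.tower_top, ?_⟩
  rw [hxc, hπ', ← IsScalarTower.algebraMap_apply M M' F']

end Fermat.Agent.S18.GaussTower
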