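import Mathlib

/-!
# S18 bridge: a separable residue algebra has a nonzero trace, in structure-constant form

`K'` a field, `Ω` a field extension, `e : Fin n → Ω` linearly independent over `K'`, with
`K'`-span closed under multiplication (structure constants `c`) and containing `1`, and every
`e i` separable over `K'`.  Then some `e j` has nonzero "matrix trace" `∑ i, c j i i`.

This is the residue-field input of (H2): `K' = k0(j̄)`, `Ω = k0((q))`, `e` = the reductions of a
basis of the Gauss valuation ring over `A0[j]_(π)`.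
-/

set_option autoImplicit false

open Module

namespace Fermat.Agent.S18.TraceSep

variable {K' Ω : Type*} [Field K'] [Field Ω] [Algebra K' Ω]

/-- **Nonzero trace from separability.** -/
theorem exists_trace_ne_zero {n : ℕ} (e : Fin n → Ω) (hli : LinearIndependent K' e)
    (hsep : ∀ i, IsSeparable K' (e i))
    (h1 : (1 : Ω) ∈ Submodule.span K' (Set.range e))
    (c : Fin n → Fin n → Fin n → K') (hc : ∀ i j, e i * e j = ∑ k, c i j k • e k) :
    ∃ j, ∑ i, c j i i ≠ 0 := by
  classical
  -- the span is a subalgebra
  set S : Submodule K' Ω := Submodule.span K' (Set.range e) with hS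
  have hmul : ∀ x y, x ∈ S → y ∈ S → x * y ∈ S := by
    intro x y hx hy
    have h := Submodule.mul_mem_mul hx hy
    rw [hS, Submodule.span_mul_span] at h
    refine (Submodule.span_le.mpr ?_) h
    rintro _ ⟨_, ⟨i, rfl⟩, _, ⟨j, rfl⟩, rfl⟩
    show e i * e j ∈ S
    rw [hc i j]
    exact Submodule.sum_mem _ fun k _ => Submodule.smul_mem _ _ (Submodule.subset_span ⟨k, rfl⟩)
  let T : Subalgebra K' Ω := S.toSubalgebra h1 hmul
  have halg : ∀ x ∈ Set.range e, IsAlgebraic K' x := by
    rintro _ ⟨i, rfl⟩
    exact (hsep i).isIntegral.isAlgebraic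
  set κ : IntermediateField K' Ω := IntermediateField.adjoin K' (Set.range e) with hκ
  have hκT : κ.toSubalgebra = Algebra.adjoin K' (Set.range e) :=
    IntermediateField.adjoin_toSubalgebra_of_isAlgebraic halg
  have hadj : Algebra.adjoin K' (Set.range e) ≤ T := by
    refine Algebra.adjoin_le ?_
    rintro _ ⟨i, rfl⟩
    exact Submodule.subset_span ⟨i, rfl⟩
  have hmemκ : ∀ i, e i ∈ κ := fun i => IntermediateField.subset_adjoin K' _ ⟨i, rfl⟩
  have hκS : ∀ x : κ, (x : Ω) ∈ S := by
    intro x
    have hx : (x : Ω) ∈ κ.toSubalgebra := x.2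
    rw [hκT] at hx
    exact hadj hx
  -- the basis of `κ`
  let v : Fin n → κ := fun i => ⟨e i, hmemκ i⟩
  have hvli : LinearIndependent K' v := by
    have : LinearIndependent K' (κ.val.toLinearMap ∘ v) := hli
    exact LinearIndependent.of_comp _ this
  have hvspan : ⊤ ≤ Submodule.span K' (Set.range v) := by
    rintro x -
    have hx := hκS x
    rw [hS] at hx
    obtain ⟨g, hg⟩ := (Submodule.mem_span_range_iff_exists_fun K').mp hx
    have : x = ∑ i, g i • v i := by
      apply Subtype.ext
      rw [← hg]
      simp [v]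
    rw [this]
    exact Submodule.sum_mem _ fun i _ => Submodule.smul_mem _ _ (Submodule.subset_span ⟨i, rfl⟩)
  let b : Basis (Fin n) K' κ := Basis.mk hvli hvspan
  have hb : ∀ i, b i = v i := fun i => by simp [b]
  have : FiniteDimensional K' κ := Module.Finite.of_basis b
  have : Algebra.IsSeparable K' κ := by
    rw [hκ, IntermediateField.isSeparable_adjoin_iff_isSeparable]
    rintro _ ⟨i, rfl⟩
    exact hsep i
  -- the trace is nonzero
  have htr : Algebra.trace K' κ ≠ 0 := Algebra.trace_ne_zero K' κ
  have hex : ∃ j, Algebra.trace K' κ (b j) ≠ 0 := by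
    by_contra hcon
    push Not at hcon
    apply htr
    apply b.ext
    intro j
    rw [hcon j, LinearMap.zero_apply]
  obtain ⟨j, hj⟩ := hex
  refine ⟨j, ?_⟩
  have hmulb : ∀ i, b j * b i = ∑ k, c j i k • b k := by
    intro i
    apply Subtype.ext
    simp only [hb, v]
    rw [IntermediateField.coe_mul]
    simp only [hc j i]
    simp
  have : Algebra.trace K' κ (b j) = ∑ i, c j i i := by
    rw [Algebra.trace_eq_matrix_trace b, Matrix.trace]
    refine Finset.sum_congr rfl fun i _ => ?_
    rw [Matrix.diag_apply, Algebra.leftMulMatrix_eq_repr_mul, hmulb i]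
    simp [Finsupp.single_apply]
  rwa [this] at hj

end Fermat.Agent.S18.TraceSep
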