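import Mathlib
import Fermat.Agent.S18.CoreDefs
import Fermat.Agent.S18.IntTrick
import Fermat.Agent.S18.TraceSep

/-!
# S18 bridge: (H2) for the Gauss valuation ring

`A0` the base ring, `M = K0(t)` the base line, `F / M` a finite field extension, `O ⊆ F` the Gauss
valuation ring (maximal ideal `π O`), `ρ : O → Ω` its reduction.  If `O` is free over `O ∩ M` on a
basis whose reductions are linearly independent and separable over `K' ⊆ Ω` (`K'` containing the
reduction of `O ∩ M`), then the hypothesis `H2Hyp A0 M F t π` of the Kummer core holds.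

* `mem_of_isIntegral` : a valuation subring containing the image of `R` contains every element
  integral over `R`.
* `h2Hyp_of_gauss` : `H2Hyp` from one element of `O` whose trace is a unit at `π`.
* `exists_trace_unit` : such an element from a basis with separable reduction (`TraceSep`).
* `inGauss_of_basis` : `O ⊆ O''`.
* `h2Hyp_of_basis` : the assembled statement.
-/

set_option autoImplicit false
set_option linter.unusedSectionVars false

open Module Polynomial Fermat.Agent.S18.CoreDefs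

namespace Fermat.Agent.S18.H2Gauss

/-- A valuation subring containing the image of `R` contains every element integral over `R`. -/
theorem mem_of_isIntegral {F : Type*} [Field F] (O : ValuationSubring F) {R : Type*} [CommRing R]
    [Algebra R F] (hR : ∀ r : R, algebraMap R F r ∈ O) {x : F} (hx : IsIntegral R x) : x ∈ O := by
  by_contra hxO
  have hv : 1 < O.valuation x := not_le.mp fun h => hxO ((O.valuation_le_one_iff x).mp h)
  obtain ⟨f, hm, hf⟩ := hx
  by_cases hn : f.natDegree = 0
  · rw [Polynomial.natDegree_eq_zero] at hn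
    obtain ⟨c, rfl⟩ := hn
    have hc : c = 1 := by simpa [Polynomial.Monic, Polynomial.leadingCoeff_C] using hm
    subst hc
    rw [Polynomial.eval₂_C, map_one] at hf
    exact one_ne_zero hf
  simp only [Polynomial.eval₂_eq_sum_range, Finset.sum_range_succ, hm.coeff_natDegree, map_one,
    one_mul, add_eq_zero_iff_eq_neg] at hf
  apply_fun O.valuation at hf
  simp only [Valuation.map_neg, map_pow] at hf
  revert hf
  refine ne_of_lt (O.valuation.map_sum_lt ?_ ?_)
  · exact pow_ne_zero _ (zero_lt_one.trans hv).ne'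
  · simp only [Finset.mem_range, map_mul, map_pow]
    intro i hi
    exact mul_lt_of_le_one_of_lt ((O.valuation_le_one_iff _).mpr (hR _)) (pow_lt_pow_right₀ hv hi)

section Main

variable {A0 : Type*} [CommRing A0] (M : Type*) [Field M] [Algebra A0 M]
  (F : Type*) [Field F] [Algebra M F] [Algebra A0 F] [IsScalarTower A0 M F]
  (π : A0) (t : M)

/-- the action of the chart on `F` is through `M`. -/
theorem chart_smul_def (s : chart A0 M t) (x : F) : s • x = algebraMap M F (s : M) * x := by
  rw [Algebra.smul_def]; rfl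

theorem chart_algebraMap (s : chart A0 M t) :
    algebraMap (chart A0 M t) F s = algebraMap M F (s : M) := rfl

theorem unif_smul (x : F) : (unif A0 M t π) • x = π • x := by
  rw [unif, algebraMap_smul]

/-- **(H2) from the Gauss ring**: `O` integrally closed containing the chart, contained in `O''`,
with maximal ideal `π O`, and with one element whose trace is a unit at `π`. -/
theorem h2Hyp_of_gauss [IsIntegrallyClosed (chart A0 M t)] [IsFractionRing (chart A0 M t) M]
    (hprime : Prime (unif A0 M t π)) (O : Subring F)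
    (hint : ∀ x : F, IsIntegral (chart A0 M t) x → x ∈ O)
    (hgauss : ∀ x ∈ O, InGauss A0 M F t π x)
    (hmax : ∀ x ∈ O, x⁻¹ ∈ O ∨ ∃ y ∈ O, x = π • y)
    (htr : ∃ z ∈ O, ∀ s a : chart A0 M t, ¬ unif A0 M t π ∣ s →
      algebraMap (chart A0 M t) M s * Algebra.trace M F z ≠
        algebraMap (chart A0 M t) M (unif A0 M t π * a)) :
    H2Hyp A0 M F t π := by
  intro x hx hxtr
  have hxO : x ∈ O := hint x hx
  -- the case `x ∈ π O`
  have key : (∃ y ∈ O, x = π • y) → ∃ c : F, IsIntegral (chart A0 M t) c ∧ x = π • c := by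
    rintro ⟨y, hyO, rfl⟩
    obtain ⟨s, hs, hsy⟩ := hgauss y hyO
    refine ⟨y, ?_, rfl⟩
    refine IntTrick.isIntegral_of_smul_of_smul (M := M) (unif A0 M t π) s hprime hs y ?_ hsy
    rw [unif_smul]
    exact hx
  by_cases hx0 : x = 0
  · exact key ⟨0, O.zero_mem, by rw [hx0, smul_zero]⟩
  rcases hmax x hxO with hinv | hpi
  · exfalso
    obtain ⟨z, hzO, hz⟩ := htr
    obtain ⟨s, hs, hso⟩ := hgauss (x⁻¹ * z) (O.mul_mem hinv hzO)
    obtain ⟨a, ha⟩ := hxtr _ hso
    refine hz s a hs ?_
    rw [← ha, chart_smul_def]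
    have h1 : x * (algebraMap M F (s : M) * (x⁻¹ * z)) = (s : M) • z := by
      rw [Algebra.smul_def]
      field_simp
    rw [h1, map_smul, smul_eq_mul]
    rfl
  · exact key hpi

/-- `O ⊆ O''` when `O` is spanned over `O ∩ M ⊆ chart_(π)` by elements of `O''`. -/
theorem inGauss_of_basis (hprime : Prime (unif A0 M t π)) (O : Subring F)
    {n : ℕ} (b : Basis (Fin n) M F)
    (hrepr : ∀ y ∈ O, ∀ k, algebraMap M F (b.repr y k) ∈ O)
    (hO₀ : ∀ c : M, algebraMap M F c ∈ O →
      ∃ s a : chart A0 M t, ¬ unif A0 M t π ∣ s ∧ (s : M) * c = a)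
    (hbint : ∀ k, InGauss A0 M F t π (b k)) :
    ∀ x ∈ O, InGauss A0 M F t π x := by
  classical
  -- `InGauss` is stable under sums
  have hadd : ∀ x y : F, InGauss A0 M F t π x → InGauss A0 M F t π y →
      InGauss A0 M F t π (x + y) := by
    rintro x y ⟨s, hs, hsx⟩ ⟨s', hs', hsy⟩
    refine ⟨s * s', fun h => (hprime.dvd_or_dvd h).elim hs hs', ?_⟩
    have : (s * s') • (x + y) = s' • (s • x) + s • (s' • y) := by
      rw [smul_add, mul_smul, mul_smul, smul_comm s s' x]
    rw [this]
    exact (hsx.smul s').add (hsy.smul s)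
  have hsum : ∀ (T : Finset (Fin n)) (f : Fin n → F), (∀ k, InGauss A0 M F t π (f k)) →
      InGauss A0 M F t π (∑ k ∈ T, f k) := by
    intro T f hf
    induction T using Finset.induction_on with
    | empty =>
      refine ⟨1, fun h => hprime.not_isUnit (isUnit_of_dvd_one h), ?_⟩
      simp only [Finset.sum_empty, smul_zero]
      exact isIntegral_zero
    | insert a T ha ih =>
      rw [Finset.sum_insert ha]
      exact hadd _ _ (hf a) ih
  intro x hxO
  have hx : x = ∑ k, b.repr x k • b k := (b.sum_repr x).symm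
  rw [hx]
  refine hsum _ _ fun k => ?_
  obtain ⟨s, a, hs, hsa⟩ := hO₀ _ (hrepr x hxO k)
  obtain ⟨s', hs', hsb⟩ := hbint k
  refine ⟨s * s', fun h => (hprime.dvd_or_dvd h).elim hs hs', ?_⟩
  have : (s * s') • (b.repr x k • b k) = a • (s' • b k) := by
    simp only [Algebra.smul_def, chart_algebraMap]
    rw [← hsa]
    simp only [MulMemClass.coe_mul, map_mul]
    ring
  rw [this]
  exact hsb.smul a

/-- One element of `O` has trace a unit at `π`, when `O` has a basis over `O ∩ M` whose
reductions are linearly independent and separable over `K'`. -/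
theorem exists_trace_unit (O : Subring F) {Ω : Type*} [Field Ω] (ρ : O →+* Ω)
    {K' : Type*} [Field K'] [Algebra K' Ω]
    (hchart : ∀ s : chart A0 M t, algebraMap M F (s : M) ∈ O)
    (hρs : ∀ s : chart A0 M t, ¬ unif A0 M t π ∣ s → ρ ⟨algebraMap M F (s : M), hchart s⟩ ≠ 0)
    (hρπ : ρ ⟨algebraMap M F (unif A0 M t π : M), hchart _⟩ = 0)
    (hρ₀ : ∀ (c : M) (hc : algebraMap M F c ∈ O), ∃ c' : K',
      ρ ⟨algebraMap M F c, hc⟩ = algebraMap K' Ω c')
    {n : ℕ} (b : Basis (Fin n) M F) (hbO : ∀ i, b i ∈ O)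
    (hrepr : ∀ y ∈ O, ∀ k, algebraMap M F (b.repr y k) ∈ O)
    (hli : LinearIndependent K' (fun i => ρ ⟨b i, hbO i⟩))
    (hsep : ∀ i, IsSeparable K' (ρ ⟨b i, hbO i⟩)) :
    ∃ z ∈ O, ∀ s a : chart A0 M t, ¬ unif A0 M t π ∣ s →
      algebraMap (chart A0 M t) M s * Algebra.trace M F z ≠
        algebraMap (chart A0 M t) M (unif A0 M t π * a) := by
  classical
  -- coordinates of elements of `O` reduce into `K'`
  have hcoord : ∀ (y : F) (hy : y ∈ O) (k : Fin n), ∃ c' : K',
      ρ ⟨algebraMap M F (b.repr y k), hrepr y hy k⟩ = algebraMap K' Ω c' :=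
    fun y hy k => hρ₀ _ _
  choose red hred using hcoord
  -- expansion of the reduction of an element of `O`
  have hexp : ∀ (y : F) (hy : y ∈ O), ρ ⟨y, hy⟩ = ∑ k, red y hy k • ρ ⟨b k, hbO k⟩ := by
    intro y hy
    have h1 : (⟨y, hy⟩ : O) =
        ∑ k, (⟨algebraMap M F (b.repr y k), hrepr y hy k⟩ : O) * ⟨b k, hbO k⟩ := by
      apply Subtype.ext
      rw [AddSubmonoidClass.coe_finsetSum]
      simp only [Subring.coe_mul]
      conv_lhs => rw [← b.sum_repr y]
      refine Finset.sum_congr rfl fun k _ => ?_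
      rw [Algebra.smul_def]
    rw [h1, map_sum]
    refine Finset.sum_congr rfl fun k _ => ?_
    rw [map_mul, hred, Algebra.smul_def]
  set e : Fin n → Ω := fun i => ρ ⟨b i, hbO i⟩ with he
  let c : Fin n → Fin n → Fin n → K' := fun i j k => red (b i * b j) (O.mul_mem (hbO i) (hbO j)) k
  have hc : ∀ i j, e i * e j = ∑ k, c i j k • e k := by
    intro i j
    have := hexp (b i * b j) (O.mul_mem (hbO i) (hbO j))
    rw [← this, he]
    simp only
    rw [← map_mul]
    rfl
  have h1 : (1 : Ω) ∈ Submodule.span K' (Set.range e) := by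
    have := hexp 1 O.one_mem
    have h1' : (⟨1, O.one_mem⟩ : O) = 1 := rfl
    rw [h1', map_one] at this
    rw [this]
    exact Submodule.sum_mem _ fun k _ => Submodule.smul_mem _ _ (Submodule.subset_span ⟨k, rfl⟩)
  obtain ⟨j, hj⟩ := TraceSep.exists_trace_ne_zero e hli hsep h1 c hc
  refine ⟨b j, hbO j, ?_⟩
  intro s a hs hcon
  apply hj
  -- the trace of `b j` in coordinates
  have htrace : Algebra.trace M F (b j) = ∑ i, b.repr (b j * b i) i := by
    rw [Algebra.trace_eq_matrix_trace b, Matrix.trace]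
    refine Finset.sum_congr rfl fun i _ => ?_
    rw [Matrix.diag_apply, Algebra.leftMulMatrix_eq_repr_mul]
  -- apply `algebraMap M F` and then `ρ`
  have hmemO : ∀ i, algebraMap M F (b.repr (b j * b i) i) ∈ O := fun i =>
    hrepr _ (O.mul_mem (hbO j) (hbO i)) i
  have hF : (⟨algebraMap M F (s : M), hchart s⟩ : O) *
      ∑ i, (⟨algebraMap M F (b.repr (b j * b i) i), hmemO i⟩ : O) =
      ⟨algebraMap M F (unif A0 M t π : M), hchart _⟩ * ⟨algebraMap M F (a : M), hchart a⟩ := by
    apply Subtype.ext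
    rw [Subring.coe_mul, Subring.coe_mul, AddSubmonoidClass.coe_finsetSum]
    simp only
    rw [← map_sum, ← htrace, ← map_mul, ← map_mul]
    congr 1
  have hρ := congrArg ρ hF
  rw [map_mul, map_mul, hρπ, zero_mul, map_sum] at hρ
  have hsum : ∑ i, ρ ⟨algebraMap M F (b.repr (b j * b i) i), hmemO i⟩ =
      algebraMap K' Ω (∑ i, c j i i) := by
    rw [map_sum]
    refine Finset.sum_congr rfl fun i _ => ?_
    exact hred _ _ i
  rw [hsum] at hρ
  have := (mul_eq_zero.mp hρ).resolve_left (hρs s hs)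
  exact (map_eq_zero_iff _ (algebraMap K' Ω).injective).mp this

/-- **(H2) for the Gauss ring, assembled.** -/
theorem h2Hyp_of_basis [IsIntegrallyClosed (chart A0 M t)] [IsFractionRing (chart A0 M t) M]
    (hprime : Prime (unif A0 M t π)) (O : Subring F)
    (hint : ∀ x : F, IsIntegral (chart A0 M t) x → x ∈ O)
    (hmax : ∀ x ∈ O, x⁻¹ ∈ O ∨ ∃ y ∈ O, x = π • y)
    {Ω : Type*} [Field Ω] (ρ : O →+* Ω) {K' : Type*} [Field K'] [Algebra K' Ω]
    (hchart : ∀ s : chart A0 M t, algebraMap M F (s : M) ∈ O)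
    (hρs : ∀ s : chart A0 M t, ¬ unif A0 M t π ∣ s → ρ ⟨algebraMap M F (s : M), hchart s⟩ ≠ 0)
    (hρπ : ρ ⟨algebraMap M F (unif A0 M t π : M), hchart _⟩ = 0)
    (hρ₀ : ∀ (c : M) (hc : algebraMap M F c ∈ O), ∃ c' : K',
      ρ ⟨algebraMap M F c, hc⟩ = algebraMap K' Ω c')
    (hO₀ : ∀ c : M, algebraMap M F c ∈ O →
      ∃ s a : chart A0 M t, ¬ unif A0 M t π ∣ s ∧ (s : M) * c = a)
    {n : ℕ} (b : Basis (Fin n) M F) (hbO : ∀ i, b i ∈ O)
    (hrepr : ∀ y ∈ O, ∀ k, algebraMap M F (b.repr y k) ∈ O)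
    (hbint : ∀ k, InGauss A0 M F t π (b k))
    (hli : LinearIndependent K' (fun i => ρ ⟨b i, hbO i⟩))
    (hsep : ∀ i, IsSeparable K' (ρ ⟨b i, hbO i⟩)) :
    H2Hyp A0 M F t π :=
  h2Hyp_of_gauss M F π t hprime O hint
    (inGauss_of_basis M F π t hprime O b hrepr hO₀ hbint) hmax
    (exists_trace_unit M F π t O ρ hchart hρs hρπ hρ₀ b hbO hrepr hli hsep)

/-- elements of `π O` are in `π O''`. -/
theorem inPiGauss_of_mem (O : Subring F) (hgauss : ∀ x ∈ O, InGauss A0 M F t π x)
    (x : F) (hx : ∃ y ∈ O, x = π • y) : InPiGauss A0 M F t π x := by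
  obtain ⟨y, hy, rfl⟩ := hx
  obtain ⟨s, hs, hsy⟩ := hgauss y hy
  exact ⟨s, hs, s • y, hsy, smul_comm _ _ _⟩

end Main

end Fermat.Agent.S18.H2Gauss
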