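import Mathlib
import Fermat.Agent.S18.H3Inst

/-!
# S18 (bridge, (H3)): both charts of the `j`-line in one call (`ℓ ≥ 5`)

`h3Hyp_jline_both` produces the two hypotheses `h3f`, `h3i` of `KummerCore.false_of_kummer` for
`E = AdjoinRoot (X ^ p - C Y)` over a `K0`-form `F0` of `F_L = ℚ̄(X₀(N))`, with base coordinate
`t ↦ j`, from the single arithmetic input "`1728` is a unit of `A0`" (`isUnit_1728`: true as soon
as the residue characteristic is at least `5`).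
-/

set_option autoImplicit false

namespace Fermat.Agent.S18.H3Both

open Fermat.Agent.S18.CoreDefs AlgebraicCurve Polynomial Fermat.Agent.S18.S24Export
open Fermat.Agent.S18.KummerGeo

local notation "Qb" => AlgebraicClosure ℚ

/-- `1728 = 2 ^ 6 * 3 ^ 3` is a unit of a local ring of residue characteristic `ℓ ≥ 5`. -/
theorem isUnit_1728 {R : Type*} [CommRing R] [IsLocalRing R] (ℓ : ℕ)
    [CharP (IsLocalRing.ResidueField R) ℓ] (hℓ : ℓ.Prime) (h5 : 5 ≤ ℓ) : IsUnit (1728 : R) := by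
  by_contra h
  have hmem : (1728 : R) ∈ IsLocalRing.maximalIdeal R := (IsLocalRing.mem_maximalIdeal _).mpr h
  have h0 : IsLocalRing.residue R ((1728 : ℕ) : R) = 0 := by
    rw [← IsLocalRing.residue_eq_zero_iff] at hmem
    rw [← hmem]
    norm_num
  rw [map_natCast] at h0
  have hdvd : ℓ ∣ 1728 := (CharP.cast_eq_zero_iff (IsLocalRing.ResidueField R) ℓ 1728).mp h0
  have h1728 : (1728 : ℕ) = 2 ^ 6 * 3 ^ 3 := by norm_num
  rw [h1728] at hdvd
  rcases (Nat.Prime.dvd_mul hℓ).mp hdvd with h2 | h3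
  · have := Nat.le_of_dvd (by norm_num) (hℓ.dvd_of_dvd_pow h2)
    omega
  · have := Nat.le_of_dvd (by norm_num) (hℓ.dvd_of_dvd_pow h3)
    omega

variable (N : ℕ) [NeZero N]
  {A0 : Type*} [CommRing A0] [IsDomain A0] (K0 : Type*) [Field K0]
  [Algebra A0 K0] [IsFractionRing A0 K0] (M : Type*) [Field M] [Algebra A0 M] [Algebra K0 M]
  [IsScalarTower A0 K0 M]
  (F0 : Type*) [Field F0] [Algebra M F0] [Algebra A0 F0] [IsScalarTower A0 M F0]
  [Algebra K0 F0] [IsScalarTower K0 M F0]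
  [Algebra K0 Qb] [Algebra.IsAlgebraic K0 Qb]

/-- **(H3) on both charts of the `j`-line** (`ℓ ≥ 5`), explicit critical sets:
`{0, 1728}` on the chart `A0[t]` and `{0, 1728⁻¹}` on the chart `A0[t⁻¹]`. -/
theorem h3Hyp_jline_both_explicit [DecidableEq A0] (ι : F0 →+* FL N)
    (hι : ∀ c : K0, ι (algebraMap K0 F0 c) = algebraMap Qb (FL N) (algebraMap K0 Qb c))
    (π : A0) (harch : ∀ a : A0, a ≠ 0 → ∃ n : ℕ, a ∣ π ^ n) (t : M)
    (ht : Transcendental A0 t) (htj : ι (algebraMap M F0 t) = jL N)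
    (hu : IsUnit (1728 : A0))
    {p : ℕ} (hp : p.Prime) {Y : F0} [Fact (Irreducible (kpoly p Y))]
    (hYp : ∀ z : FL N, z ^ p ≠ ι Y) (hord : ∀ P : Place Qb (FL N), (p : ℤ) ∣ P.ord (ι Y)) :
    H3Hyp A0 M (AdjoinRoot (kpoly p Y)) t π {0, 1728} ∧
      H3Hyp A0 M (AdjoinRoot (kpoly p Y)) t⁻¹ π {0, ((hu.unit⁻¹ : A0ˣ) : A0)} := by
  have hY0 : Y ≠ 0 := by
    rintro rfl
    exact hYp 0 (by rw [map_zero, zero_pow hp.ne_zero])
  have ht0 : t ≠ 0 := by
    rintro rfl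
    exact ht ⟨Polynomial.X, Polynomial.X_ne_zero, by simp⟩
  have hti : Transcendental A0 t⁻¹ := by
    intro h
    have h1 : IsAlgebraic A0 (t⁻¹)⁻¹ := h.inv
    rw [inv_inv] at h1
    exact ht h1
  refine ⟨H3Inst.h3Hyp_jline_adjoinRoot N K0 M F0 ι hι π harch t ht htj 1728 (map_ofNat _ _) hu
    hp hY0 hYp hord,
    H3Inst.h3Hyp_jline_inv_adjoinRoot N K0 M F0 ι hι π harch t⁻¹ hti ?_ _ ?_
      (hu.unit⁻¹).isUnit hp hY0 hYp hord⟩
  · rw [map_inv₀, map_inv₀, htj]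
  · have h1 : ((hu.unit⁻¹ : A0ˣ) : A0) * 1728 = 1 := by
      have := Units.inv_mul hu.unit
      rwa [IsUnit.unit_spec] at this
    have h2 := congrArg (algebraMap A0 K0) h1
    rwa [map_mul, map_one, map_ofNat] at h2

/-- **(H3) on both charts of the `j`-line** (`ℓ ≥ 5`), in the shape consumed by
`KummerCore.false_of_kummer`: critical sets `Critf`, `Criti` with `h3f` and `h3i`. -/
theorem h3Hyp_jline_both (ι : F0 →+* FL N)
    (hι : ∀ c : K0, ι (algebraMap K0 F0 c) = algebraMap Qb (FL N) (algebraMap K0 Qb c))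
    (π : A0) (harch : ∀ a : A0, a ≠ 0 → ∃ n : ℕ, a ∣ π ^ n) (t : M)
    (ht : Transcendental A0 t) (htj : ι (algebraMap M F0 t) = jL N)
    (hu : IsUnit (1728 : A0))
    {p : ℕ} (hp : p.Prime) {Y : F0} [Fact (Irreducible (kpoly p Y))]
    (hYp : ∀ z : FL N, z ^ p ≠ ι Y) (hord : ∀ P : Place Qb (FL N), (p : ℤ) ∣ P.ord (ι Y)) :
    ∃ Critf Criti : Finset A0, H3Hyp A0 M (AdjoinRoot (kpoly p Y)) t π Critf ∧
      H3Hyp A0 M (AdjoinRoot (kpoly p Y)) t⁻¹ π Criti := by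
  classical
  exact ⟨_, _, h3Hyp_jline_both_explicit N K0 M F0 ι hι π harch t ht htj hu hp hYp hord⟩

end Fermat.Agent.S18.H3Both
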