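import Mathlib
import Fermat.Agent.S18.H3Both
import Fermat.Agent.S18.Setup
import Fermat.Agent.S18.LineGen

/-!
# S18 (bridge, (H3)): the `j`-line instance on the sealed carriers of `Setup` (`ℓ ≥ 5`)

For a field `K` finite over `ℚ` and embedded in `ℚ̄`, `A₀ = A ∩ K`, `F = Setup.FK K N`,
`M = Setup.Line K (jF K N)` with coordinate `t = Line.gen K (jF K N)`, and
`E = AdjoinRoot (X ^ p - C Y)`: the two hypotheses `h3f`, `h3i` of
`KummerCore.false_of_kummer`, from the Kummer hypotheses on `ιL K N Y ∈ F_L`.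
-/

set_option autoImplicit false

namespace Fermat.Agent.S18.H3Setup

open Fermat.Agent.S18.CoreDefs AlgebraicCurve Polynomial Fermat.Agent.S18.S24Export
open Fermat.Agent.S18.KummerGeo Fermat.Agent.S18.Setup

local notation "Qb" => AlgebraicClosure ℚ

variable (K : Type*) [Field K] [Algebra K Qb] (N : ℕ) [NeZero N] (A : ValuationSubring Qb)

/-- `ℚ̄` is algebraic over `K`. -/
theorem isAlgebraic_Qb : Algebra.IsAlgebraic K Qb := by
  have hc : CharZero K := (algebraMap K Qb).charZero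
  have h : Algebra.IsAlgebraic ℚ Qb := AlgebraicClosure.isAlgebraic ℚ
  exact Algebra.IsAlgebraic.tower_top (K := ℚ) K

omit [NeZero N] in
/-- the coordinate of the `j`-line is transcendental over `A₀`. -/
theorem transcendental_gen :
    Transcendental ↥(A0.down K A) (Line.gen K (jF K N)) :=
  Line.transcendental_gen_val (jF K N) (A0.down K A) (transcendental_jF K N)

/-- the coordinate of the `j`-line goes to `j ∈ F_L`. -/
theorem ιL_gen : ιL K N (algebraMap (Line K (jF K N)) (FK K N) (Line.gen K (jF K N))) = jL N := by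
  rw [algebraMap_gen, ιL_jF]

/-- **(H3) on both charts of the `j`-line, sealed carriers** (`ℓ ≥ 5`): `h3f` and `h3i` of
`KummerCore.false_of_kummer` for `A₀ = A ∩ K`, `M = K(j)`, `F = F_K`, `E = F(Y^(1/p))`. -/
theorem h3Hyp_both {ℓ : ℕ} (hℓ : ℓ.Prime) (hA : A.LiesOverPrime ℓ) (h5 : 5 ≤ ℓ)
    (π : ↥(A0.down K A)) (harch : ∀ a : ↥(A0.down K A), a ≠ 0 → ∃ n : ℕ, a ∣ π ^ n)
    {p : ℕ} (hp : p.Prime) {Y : FK K N} [Fact (Irreducible (kpoly p Y))]
    (hYp : ∀ z : FL N, z ^ p ≠ ιL K N Y)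
    (hord : ∀ P : Place Qb (FL N), (p : ℤ) ∣ P.ord (ιL K N Y)) :
    ∃ Critf Criti : Finset ↥(A0.down K A),
      H3Hyp ↥(A0.down K A) (Line K (jF K N)) (AdjoinRoot (kpoly p Y)) (Line.gen K (jF K N)) π
        Critf ∧
      H3Hyp ↥(A0.down K A) (Line K (jF K N)) (AdjoinRoot (kpoly p Y)) (Line.gen K (jF K N))⁻¹ π
        Criti := by
  have hB : (A0.down K A).LiesOverPrime ℓ := (A0.liesOverPrime_down_iff A).mpr hA
  have hchar : CharP (IsLocalRing.ResidueField ↥(A0.down K A)) ℓ :=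
    A0.charP_residueField (A0.down K A) hℓ hB
  have hu : IsUnit (1728 : ↥(A0.down K A)) := H3Both.isUnit_1728 ℓ hℓ h5
  have halg : Algebra.IsAlgebraic K Qb := isAlgebraic_Qb K
  exact H3Both.h3Hyp_jline_both N K (Line K (jF K N)) (FK K N) (ιL K N) (ιL_algebraMap K N) π
    harch (Line.gen K (jF K N)) (transcendental_gen K N A) (ιL_gen K N) hu hp hYp hord

end Fermat.Agent.S18.H3Setup
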