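import Mathlib
import Fermat.Agent.S18.H3HLine
import Fermat.Agent.S18.H3Setup
import Fermat.Agent.S18.CoverField
import Fermat.Agent.S18.CoverData
import Fermat.Agent.S18.ConstCover

/-!
# S18 (bridge, (H3)): the cover instances on the sealed carriers (`ℓ = 3`, `ℓ = 2`)

Row R3 of the bridge plan.  `K` a field embedded in `ℚ̄`, `A₀ = A ∩ K`, `F = Setup.FK K N`,
`m0 ∈ F[X]` a monic irreducible factor of the cover polynomial `g3 (j)` (resp. `g2 (j)`) which
stays irreducible over `F_L`, `F' = AdjoinRoot m0`, `h = AdjoinRoot.root m0`, base line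
`M_h = Setup.Line K h` with coordinate `Line.gen K h`, and
`E = AdjoinRoot (X ^ p - C Y)` over `F'`.  `h3_cover3`, `h3_cover2` give the two hypotheses
`h3f`, `h3i` of `CoverCore.false_of_kummer_cover3` / `_cover2`.
-/

set_option autoImplicit false

namespace Fermat.Agent.S18.H3Top23

open Fermat.Agent.S18.CoreDefs AlgebraicCurve Polynomial Fermat.Agent.S18.S24Export
open Fermat.Agent.S18.KummerGeo Fermat.Agent.S18.Setup

open scoped IntermediateField

local notation "Qb" => AlgebraicClosure ℚ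

section Units

variable {R : Type*} [CommRing R]

theorem isUnit_neg_64 (h2u : IsUnit (2 : R)) : IsUnit (-64 : R) := by
  have h : (-64 : R) = -(2 ^ 6) := by norm_num
  rw [h]
  exact (h2u.pow 6).neg

theorem isUnit_neg_27 (h3u : IsUnit (3 : R)) : IsUnit (-27 : R) := by
  have h : (-27 : R) = -(3 ^ 3) := by norm_num
  rw [h]
  exact (h3u.pow 3).neg

end Units

section Trans

variable (K : Type*) [Field K] [CharZero K] (N : ℕ) (m0 : (FK K N)[X])

/-- a root of the `X₀(2)` cover polynomial is transcendental over `K`. -/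
theorem transcendental_root3 [Fact (Irreducible m0)]
    (hroot : aeval (AdjoinRoot.root m0) (CoverData.g3 (jF K N)) = 0) :
    Transcendental K (AdjoinRoot.root m0) := by
  have hrel := (CoverData.aeval_g3_eq_zero_iff (jF K N) (AdjoinRoot.root m0)).mp hroot
  have hc : CharZero (AdjoinRoot m0) :=
    charZero_of_injective_algebraMap (algebraMap K (AdjoinRoot m0)).injective
  have h0 : AdjoinRoot.root m0 ≠ 0 := by
    intro h0
    rw [h0, zero_pow two_ne_zero, mul_zero, zero_add] at hrel
    exact pow_ne_zero 3 (OfNat.ofNat_ne_zero 256) hrel.symm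
  refine CoverField.transcendental_of_mem_adjoin_simple (jF K N) (transcendental_jF K N) _
    (CoverField.algebraMap_mem_adjoin_simple (K0 := K) (jF K N) (AdjoinRoot.root m0)
      ((X + C 256) ^ 3) (X ^ 2) ?_ ?_)
  · rw [map_pow, aeval_X, map_pow, map_add, aeval_X, aeval_C, map_ofNat]
    exact hrel
  · rw [map_pow, aeval_X]
    exact pow_ne_zero 2 h0

/-- a root of the `X₀(3)` cover polynomial is transcendental over `K`. -/
theorem transcendental_root2 [Fact (Irreducible m0)]
    (hroot : aeval (AdjoinRoot.root m0) (CoverData.g2 (jF K N)) = 0) :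
    Transcendental K (AdjoinRoot.root m0) := by
  have hrel := (CoverData.aeval_g2_eq_zero_iff (jF K N) (AdjoinRoot.root m0)).mp hroot
  have hc : CharZero (AdjoinRoot m0) :=
    charZero_of_injective_algebraMap (algebraMap K (AdjoinRoot m0)).injective
  have h0 : AdjoinRoot.root m0 ≠ 0 := by
    intro h0
    rw [h0, mul_zero, zero_add, zero_add] at hrel
    exact mul_ne_zero (OfNat.ofNat_ne_zero 27) (pow_ne_zero 3 (OfNat.ofNat_ne_zero 3)) hrel.symm
  refine CoverField.transcendental_of_mem_adjoin_simple (jF K N) (transcendental_jF K N) _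
    (CoverField.algebraMap_mem_adjoin_simple (K0 := K) (jF K N) (AdjoinRoot.root m0)
      ((X + C 27) * (X + C 3) ^ 3) X ?_ ?_)
  · rw [aeval_X, map_mul, map_pow, map_add, map_add, aeval_X, aeval_C, aeval_C, map_ofNat,
      map_ofNat]
    exact hrel
  · rw [aeval_X]
    exact h0

end Trans

section Tower

variable (K : Type*) [Field K] (N : ℕ) (V : ValuationSubring K) (m0 : (FK K N)[X])
  [Fact (Irreducible m0)]

/-- The tower `V → K(h) → F'` for the cover field `F' = AdjoinRoot m0` and a valuation subring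
`V` of `K` (not found by instance search: the `V`-algebra structure of `AdjoinRoot m0` comes
from the one of `F_K`, not from the one of `K`). -/
theorem isScalarTower_line : IsScalarTower ↥V (Line K (AdjoinRoot.root m0)) (AdjoinRoot m0) :=
  IsScalarTower.of_algebraMap_eq fun a => by
    rw [IsScalarTower.algebraMap_apply ↥V K (AdjoinRoot m0),
      IsScalarTower.algebraMap_apply ↥V K (Line K (AdjoinRoot.root m0)),
      ← IsScalarTower.algebraMap_apply K (Line K (AdjoinRoot.root m0)) (AdjoinRoot m0)]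

end Tower

variable (K : Type*) [Field K] [Algebra K Qb] (N : ℕ) [NeZero N] (A : ValuationSubring Qb)

section Rel

variable (m0 : (FK K N)[X]) [Fact (Irreducible m0)]

/-- the coordinate of the `h`-line goes to the root of `m0` over `F_L`. -/
theorem coverHom_gen :
    CoverField.coverHom (ιL K N) m0
      (algebraMap (Line K (AdjoinRoot.root m0)) (AdjoinRoot m0) (Line.gen K (AdjoinRoot.root m0))) =
      AdjoinRoot.root (m0.map (ιL K N)) := by
  rw [algebraMap_gen, CoverField.coverHom_root]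

omit [Fact (Irreducible m0)] in
/-- the image of `j ∈ F_K` in the cover field over `F_L` is `j`. -/
theorem coverHom_jF :
    CoverField.coverHom (ιL K N) m0 (algebraMap (FK K N) (AdjoinRoot m0) (jF K N)) =
      algebraMap (FL N) (AdjoinRoot (m0.map (ιL K N))) (jL N) := by
  rw [AdjoinRoot.algebraMap_eq, CoverField.coverHom_of, ιL_jF, AdjoinRoot.algebraMap_eq]

omit [Fact (Irreducible m0)] in
/-- the image of `Y ∈ F_K` in the cover field over `F_L`. -/
theorem coverHom_algebraMap_FK (Y : FK K N) :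
    CoverField.coverHom (ιL K N) m0 (algebraMap (FK K N) (AdjoinRoot m0) Y) =
      algebraMap (FL N) (AdjoinRoot (m0.map (ιL K N))) (ιL K N Y) := by
  rw [AdjoinRoot.algebraMap_eq, CoverField.coverHom_of, AdjoinRoot.algebraMap_eq]

/-- the relation of the `X₀(2)`-cover in the cover field over `F_L`. -/
theorem hrel3 (hroot : aeval (AdjoinRoot.root m0) (CoverData.g3 (jF K N)) = 0) :
    algebraMap (FL N) (AdjoinRoot (m0.map (ιL K N))) (jL N) *
        AdjoinRoot.root (m0.map (ιL K N)) ^ 2 =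
      (AdjoinRoot.root (m0.map (ιL K N)) + 256) ^ 3 := by
  have hrel := (CoverData.aeval_g3_eq_zero_iff (jF K N) (AdjoinRoot.root m0)).mp hroot
  have h := congrArg (CoverField.coverHom (ιL K N) m0) hrel
  rw [map_mul, map_pow, map_pow, map_add, CoverField.coverHom_root, coverHom_jF, map_ofNat] at h
  exact h

/-- the relation of the `X₀(3)`-cover in the cover field over `F_L`. -/
theorem hrel2 (hroot : aeval (AdjoinRoot.root m0) (CoverData.g2 (jF K N)) = 0) :
    algebraMap (FL N) (AdjoinRoot (m0.map (ιL K N))) (jL N) *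
        AdjoinRoot.root (m0.map (ιL K N)) =
      (AdjoinRoot.root (m0.map (ιL K N)) + 27) * (AdjoinRoot.root (m0.map (ιL K N)) + 3) ^ 3 := by
  have hrel := (CoverData.aeval_g2_eq_zero_iff (jF K N) (AdjoinRoot.root m0)).mp hroot
  have h := congrArg (CoverField.coverHom (ιL K N) m0) hrel
  rw [map_mul, map_mul, map_pow, map_add, map_add, CoverField.coverHom_root, coverHom_jF,
    map_ofNat, map_ofNat] at h
  exact h

end Rel

/-- **Row R3, `X₀(2)`-cover (`ℓ ≠ 2`)**: (H3) on both charts of the `h`-line, for the Kummer field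
`E = F'(Y^(1/p))` over the cover field `F' = F_K[X]/(m0)`. -/
theorem h3_cover3 (π : ↥(A0.down K A)) (harch : ∀ a : ↥(A0.down K A), a ≠ 0 → ∃ n : ℕ, a ∣ π ^ n)
    (h2u : IsUnit (2 : ↥(A0.down K A))) (m0 : (FK K N)[X]) (hm0 : m0.Monic) [Fact (Irreducible m0)]
    [Fact (Irreducible (m0.map (ιL K N)))]
    (hroot : Polynomial.aeval (AdjoinRoot.root m0) (CoverData.g3 (jF K N)) = 0)
    {p : ℕ} (hp : p.Prime) (Y : FK K N) (hY0 : Y ≠ 0)
    [Fact (Irreducible (kpoly p (algebraMap (FK K N) (AdjoinRoot m0) Y)))]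
    (hYp : ∀ z : AdjoinRoot (m0.map (ιL K N)),
      z ^ p ≠ algebraMap (FL N) (AdjoinRoot (m0.map (ιL K N))) (ιL K N Y))
    (hord : ∀ P : Place Qb (FL N), (p : ℤ) ∣ P.ord (ιL K N Y)) :
    ∃ Critf Criti : Finset ↥(A0.down K A),
      H3Hyp ↥(A0.down K A) (Line K (AdjoinRoot.root m0))
        (AdjoinRoot (kpoly p (algebraMap (FK K N) (AdjoinRoot m0) Y)))
        (Line.gen K (AdjoinRoot.root m0)) π Critf ∧
      H3Hyp ↥(A0.down K A) (Line K (AdjoinRoot.root m0))
        (AdjoinRoot (kpoly p (algebraMap (FK K N) (AdjoinRoot m0) Y)))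
        (Line.gen K (AdjoinRoot.root m0))⁻¹ π Criti := by
  classical
  have hcK : CharZero K := (algebraMap K Qb).charZero
  have halg : Algebra.IsAlgebraic K Qb := H3Setup.isAlgebraic_Qb K
  have hne : m0.map (ιL K N) ≠ 0 := (hm0.map _).ne_zero
  have hfd : FiniteDimensional (FL N) (AdjoinRoot (m0.map (ιL K N))) :=
    (AdjoinRoot.powerBasis hne).finite
  have htK : Transcendental K (AdjoinRoot.root m0) := transcendental_root3 K N m0 hroot
  have ht : Transcendental ↥(A0.down K A) (Line.gen K (AdjoinRoot.root m0)) :=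
    Line.transcendental_gen_val (AdjoinRoot.root m0) (A0.down K A) htK
  have hti : Transcendental ↥(A0.down K A) (Line.gen K (AdjoinRoot.root m0))⁻¹ := by
    intro h
    have h1 : IsAlgebraic ↥(A0.down K A) ((Line.gen K (AdjoinRoot.root m0))⁻¹)⁻¹ := h.inv
    rw [inv_inv] at h1
    exact ht h1
  have hu : IsUnit (-64 : ↥(A0.down K A)) := isUnit_neg_64 h2u
  have hY0' : algebraMap (FK K N) (AdjoinRoot m0) Y ≠ 0 :=
    (map_ne_zero (algebraMap (FK K N) (AdjoinRoot m0))).mpr hY0
  have htow : IsScalarTower ↥(A0.down K A) (Line K (AdjoinRoot.root m0)) (AdjoinRoot m0) :=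
    isScalarTower_line K N (A0.down K A) m0
  refine ⟨{0, -64}, {0, ((hu.unit⁻¹ : (↥(A0.down K A))ˣ) : ↥(A0.down K A))}, ?_, ?_⟩
  · exact H3HLine.h3Hyp_X02_adjoinRoot N K (Line K (AdjoinRoot.root m0)) (AdjoinRoot m0)
      (CoverField.coverHom (ιL K N) m0)
      (ConstCover.coverHom_algebraMap (ιL K N) (ιL_algebraMap K N) m0) π harch
      (Line.gen K (AdjoinRoot.root m0)) ht (AdjoinRoot.root (m0.map (ιL K N)))
      (coverHom_gen K N m0) (CoverField.adjoin_root_eq_top _) (hrel3 K N m0 hroot)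
      (-64) (by rw [map_neg, map_ofNat]) hu hp hY0' (ιL K N Y)
      (coverHom_algebraMap_FK K N m0 Y) hYp hord
  · refine H3HLine.h3Hyp_X02_inv_adjoinRoot N K (Line K (AdjoinRoot.root m0)) (AdjoinRoot m0)
      (CoverField.coverHom (ιL K N) m0)
      (ConstCover.coverHom_algebraMap (ιL K N) (ιL_algebraMap K N) m0) π harch
      (Line.gen K (AdjoinRoot.root m0))⁻¹ hti (AdjoinRoot.root (m0.map (ιL K N)))
      ?_ (CoverField.adjoin_root_eq_top _) (hrel3 K N m0 hroot)
      _ ?_ (hu.unit⁻¹).isUnit hp hY0' (ιL K N Y)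
      (coverHom_algebraMap_FK K N m0 Y) hYp hord
    · rw [map_inv₀, map_inv₀, coverHom_gen]
    · have h1 : ((hu.unit⁻¹ : (↥(A0.down K A))ˣ) : ↥(A0.down K A)) * (-64) = 1 := by
        have := Units.inv_mul hu.unit
        rwa [IsUnit.unit_spec] at this
      have h2 := congrArg (algebraMap ↥(A0.down K A) K) h1
      rwa [map_mul, map_one, map_neg, map_ofNat] at h2

/-- **Row R3, `X₀(3)`-cover (`ℓ ≠ 3`)**: (H3) on both charts of the `h`-line, for the Kummer field
`E = F'(Y^(1/p))` over the cover field `F' = F_K[X]/(m0)`. -/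
theorem h3_cover2 (π : ↥(A0.down K A)) (harch : ∀ a : ↥(A0.down K A), a ≠ 0 → ∃ n : ℕ, a ∣ π ^ n)
    (h3u : IsUnit (3 : ↥(A0.down K A))) (m0 : (FK K N)[X]) (hm0 : m0.Monic) [Fact (Irreducible m0)]
    [Fact (Irreducible (m0.map (ιL K N)))]
    (hroot : Polynomial.aeval (AdjoinRoot.root m0) (CoverData.g2 (jF K N)) = 0)
    {p : ℕ} (hp : p.Prime) (Y : FK K N) (hY0 : Y ≠ 0)
    [Fact (Irreducible (kpoly p (algebraMap (FK K N) (AdjoinRoot m0) Y)))]
    (hYp : ∀ z : AdjoinRoot (m0.map (ιL K N)),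
      z ^ p ≠ algebraMap (FL N) (AdjoinRoot (m0.map (ιL K N))) (ιL K N Y))
    (hord : ∀ P : Place Qb (FL N), (p : ℤ) ∣ P.ord (ιL K N Y)) :
    ∃ Critf Criti : Finset ↥(A0.down K A),
      H3Hyp ↥(A0.down K A) (Line K (AdjoinRoot.root m0))
        (AdjoinRoot (kpoly p (algebraMap (FK K N) (AdjoinRoot m0) Y)))
        (Line.gen K (AdjoinRoot.root m0)) π Critf ∧
      H3Hyp ↥(A0.down K A) (Line K (AdjoinRoot.root m0))
        (AdjoinRoot (kpoly p (algebraMap (FK K N) (AdjoinRoot m0) Y)))
        (Line.gen K (AdjoinRoot.root m0))⁻¹ π Criti := by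
  classical
  have hcK : CharZero K := (algebraMap K Qb).charZero
  have halg : Algebra.IsAlgebraic K Qb := H3Setup.isAlgebraic_Qb K
  have hne : m0.map (ιL K N) ≠ 0 := (hm0.map _).ne_zero
  have hfd : FiniteDimensional (FL N) (AdjoinRoot (m0.map (ιL K N))) :=
    (AdjoinRoot.powerBasis hne).finite
  have htK : Transcendental K (AdjoinRoot.root m0) := transcendental_root2 K N m0 hroot
  have ht : Transcendental ↥(A0.down K A) (Line.gen K (AdjoinRoot.root m0)) :=
    Line.transcendental_gen_val (AdjoinRoot.root m0) (A0.down K A) htK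
  have hti : Transcendental ↥(A0.down K A) (Line.gen K (AdjoinRoot.root m0))⁻¹ := by
    intro h
    have h1 : IsAlgebraic ↥(A0.down K A) ((Line.gen K (AdjoinRoot.root m0))⁻¹)⁻¹ := h.inv
    rw [inv_inv] at h1
    exact ht h1
  have hu : IsUnit (-27 : ↥(A0.down K A)) := isUnit_neg_27 h3u
  have hY0' : algebraMap (FK K N) (AdjoinRoot m0) Y ≠ 0 :=
    (map_ne_zero (algebraMap (FK K N) (AdjoinRoot m0))).mpr hY0
  have htow : IsScalarTower ↥(A0.down K A) (Line K (AdjoinRoot.root m0)) (AdjoinRoot m0) :=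
    isScalarTower_line K N (A0.down K A) m0
  refine ⟨{0, -27}, {0, ((hu.unit⁻¹ : (↥(A0.down K A))ˣ) : ↥(A0.down K A))}, ?_, ?_⟩
  · exact H3HLine.h3Hyp_X03_adjoinRoot N K (Line K (AdjoinRoot.root m0)) (AdjoinRoot m0)
      (CoverField.coverHom (ιL K N) m0)
      (ConstCover.coverHom_algebraMap (ιL K N) (ιL_algebraMap K N) m0) π harch
      (Line.gen K (AdjoinRoot.root m0)) ht (AdjoinRoot.root (m0.map (ιL K N)))
      (coverHom_gen K N m0) (CoverField.adjoin_root_eq_top _) (hrel2 K N m0 hroot)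
      (-27) (by rw [map_neg, map_ofNat]) hu hp hY0' (ιL K N Y)
      (coverHom_algebraMap_FK K N m0 Y) hYp hord
  · refine H3HLine.h3Hyp_X03_inv_adjoinRoot N K (Line K (AdjoinRoot.root m0)) (AdjoinRoot m0)
      (CoverField.coverHom (ιL K N) m0)
      (ConstCover.coverHom_algebraMap (ιL K N) (ιL_algebraMap K N) m0) π harch
      (Line.gen K (AdjoinRoot.root m0))⁻¹ hti (AdjoinRoot.root (m0.map (ιL K N)))
      ?_ (CoverField.adjoin_root_eq_top _) (hrel2 K N m0 hroot)
      _ ?_ (hu.unit⁻¹).isUnit hp hY0' (ιL K N Y)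
      (coverHom_algebraMap_FK K N m0 Y) hYp hord
    · rw [map_inv₀, map_inv₀, coverHom_gen]
    · have h1 : ((hu.unit⁻¹ : (↥(A0.down K A))ˣ) : ↥(A0.down K A)) * (-27) = 1 := by
        have := Units.inv_mul hu.unit
        rwa [IsUnit.unit_spec] at this
      have h2 := congrArg (algebraMap ↥(A0.down K A) K) h1
      rwa [map_mul, map_one, map_neg, map_ofNat] at h2

end Fermat.Agent.S18.H3Top23
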