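/-
Abstract idempotent endgame (patching of idempotents along a two-chart cover).

`A` a domain with a non-zero element `π` such that every non-zero element divides a
power of `π`; `Cfin`, `Cinf ≤ Cmid` three `A`-subalgebras of a commutative `A`-algebra `F`
such that the `A`-torsion of `Cmid / (Cfin + Cinf)` is killed by one non-zero element.
If `a ∈ Cfin` and `b ∈ Cinf` are idempotent modulo `π` and congruent modulo `π` in `Cmid`,
there is a global element `h ∈ Cfin ∩ Cinf` congruent to `a` modulo `π` in `Cfin`.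
-/
import Mathlib

namespace Fermat.Agent.S18.IdemPatch

variable {A F : Type*} [CommRing A] [CommRing F] [Algebra A F]

/-- One Newton step `x ↦ 3x² - 2x³` for the equation `x² = x`. -/
theorem newton_sub (x : F) : (3 * x ^ 2 - 2 * x ^ 3) - x = (x ^ 2 - x) * (1 - 2 * x) := by
  ring

theorem newton_sq_sub (x : F) :
    (3 * x ^ 2 - 2 * x ^ 3) ^ 2 - (3 * x ^ 2 - 2 * x ^ 3) =
      (x ^ 2 - x) ^ 2 * (4 * x ^ 2 - 4 * x - 3) := by
  ring

/-- Lifting an idempotent modulo `π` to an idempotent modulo `π ^ (n + 1)` inside a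
subalgebra, without changing it modulo `π`. -/
theorem exists_lift (C : Subalgebra A F) (π : A) (a : F) (ha : a ∈ C)
    (ha2 : ∃ x ∈ C, a ^ 2 - a = π • x) (n : ℕ) :
    ∃ a' ∈ C, (∃ x ∈ C, a' ^ 2 - a' = π ^ (n + 1) • x) ∧ ∃ x ∈ C, a' - a = π • x := by
  induction n with
  | zero =>
    obtain ⟨x, hx, hxa⟩ := ha2
    exact ⟨a, ha, ⟨x, hx, by simpa using hxa⟩, 0, C.zero_mem, by simp⟩
  | succ n ih =>
    obtain ⟨a', ha', ⟨x, hx, hxa⟩, y, hy, hya⟩ := ih
    have h2 : (2 : F) ∈ C := by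
      have : ((2 : ℕ) : F) ∈ C := natCast_mem C 2
      exact_mod_cast this
    have h3 : (3 : F) ∈ C := by
      have : ((3 : ℕ) : F) ∈ C := natCast_mem C 3
      exact_mod_cast this
    have h4 : (4 : F) ∈ C := by
      have : ((4 : ℕ) : F) ∈ C := natCast_mem C 4
      exact_mod_cast this
    refine ⟨3 * a' ^ 2 - 2 * a' ^ 3,
      C.sub_mem (C.mul_mem h3 (C.pow_mem ha' 2)) (C.mul_mem h2 (C.pow_mem ha' 3)), ?_, ?_⟩
    · refine ⟨π ^ n • (x ^ 2 * (4 * a' ^ 2 - 4 * a' - 3)), C.smul_mem (C.mul_mem (C.pow_mem hx 2)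
        (C.sub_mem (C.sub_mem (C.mul_mem h4 (C.pow_mem ha' 2)) (C.mul_mem h4 ha')) h3)) _, ?_⟩
      rw [newton_sq_sub, hxa]
      simp only [Algebra.smul_def, map_pow]
      ring
    · refine ⟨π ^ n • (x * (1 - 2 * a')) + y, C.add_mem (C.smul_mem (C.mul_mem hx
        (C.sub_mem C.one_mem (C.mul_mem h2 ha'))) _) hy, ?_⟩
      have : 3 * a' ^ 2 - 2 * a' ^ 3 - a = (3 * a' ^ 2 - 2 * a' ^ 3 - a') + (a' - a) := by ring
      rw [this, newton_sub, hxa, hya]
      simp only [Algebra.smul_def, map_pow]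
      ring

/-- Uniqueness of idempotent lifts: an element `d` divisible by `π` with `d³ ≡ d` modulo
`π ^ n` is divisible by `π ^ n`. -/
theorem exists_smul_of_cube (C : Subalgebra A F) (π : A) (d : F) (hd : ∃ g ∈ C, d = π • g)
    (n : ℕ) (hd3 : ∃ z ∈ C, d ^ 3 - d = π ^ n • z) (k : ℕ) (hk : k ≤ n) :
    ∃ w ∈ C, d = π ^ k • w := by
  induction k with
  | zero =>
    obtain ⟨g, hg, hdg⟩ := hd
    exact ⟨d, by rw [hdg]; exact C.smul_mem hg _, by simp⟩
  | succ k ih =>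
    obtain ⟨z, hz, hdz⟩ := hd3
    rcases Nat.eq_zero_or_pos k with rfl | hkpos
    · obtain ⟨g, hg, hdg⟩ := hd
      exact ⟨g, hg, by simpa using hdg⟩
    · obtain ⟨w, hw, hdw⟩ := ih (by omega)
      obtain ⟨m, rfl⟩ : ∃ m, n = k + 1 + m := ⟨n - (k + 1), by omega⟩
      obtain ⟨j, rfl⟩ : ∃ j, k = j + 1 := ⟨k - 1, by omega⟩
      refine ⟨π ^ (2 * j + 1) • w ^ 3 - π ^ m • z,
        C.sub_mem (C.smul_mem (C.pow_mem hw 3) _) (C.smul_mem hz _), ?_⟩
      have h1 : d = d ^ 3 - (d ^ 3 - d) := by ring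
      have h2 : d ^ 3 = (algebraMap A F π) ^ (3 * (j + 1)) * w ^ 3 := by
        rw [hdw]
        simp only [Algebra.smul_def, map_pow]
        ring
      rw [h1, hdz, h2]
      simp only [Algebra.smul_def, map_pow]
      ring

/-- **Patching idempotents.** -/
theorem exists_mem_inf_of_idem [IsDomain A] (Cfin Cinf Cmid : Subalgebra A F)
    (hfin : Cfin ≤ Cmid) (hinf : Cinf ≤ Cmid) (π : A) (hπ : π ≠ 0)
    (harch : ∀ c : A, c ≠ 0 → ∃ n : ℕ, c ∣ π ^ n)
    (htors : ∃ c₀ : A, c₀ ≠ 0 ∧ ∀ (c : A) (y : F), c ≠ 0 → y ∈ Cmid →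
      c • y ∈ Subalgebra.toSubmodule Cfin ⊔ Subalgebra.toSubmodule Cinf →
      c₀ • y ∈ Subalgebra.toSubmodule Cfin ⊔ Subalgebra.toSubmodule Cinf)
    (a b : F) (ha : a ∈ Cfin) (hb : b ∈ Cinf)
    (ha2 : ∃ x ∈ Cfin, a ^ 2 - a = π • x) (hb2 : ∃ x ∈ Cinf, b ^ 2 - b = π • x)
    (hab : ∃ g ∈ Cmid, a - b = π • g) :
    ∃ h : F, h ∈ Cfin ∧ h ∈ Cinf ∧ ∃ x ∈ Cfin, h - a = π • x := by
  obtain ⟨c₀, hc₀, hc⟩ := htors
  obtain ⟨n₀, r, hr⟩ := harch c₀ hc₀
  obtain ⟨a', ha', ⟨xa, hxa, hxa'⟩, ya, hya, hya'⟩ := exists_lift Cfin π a ha ha2 n₀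
  obtain ⟨b', hb', ⟨xb, hxb, hxb'⟩, yb, hyb, hyb'⟩ := exists_lift Cinf π b hb hb2 n₀
  obtain ⟨g, hg, hgab⟩ := hab
  have ha'm : a' ∈ Cmid := hfin ha'
  have hb'm : b' ∈ Cmid := hinf hb'
  have h3 : (3 : F) ∈ Cmid := by
    have : ((3 : ℕ) : F) ∈ Cmid := natCast_mem Cmid 3
    exact_mod_cast this
  -- the difference of the two lifts is divisible by `π ^ (n₀ + 1)` in `Cmid`
  obtain ⟨w, hw, hdw⟩ : ∃ w ∈ Cmid, a' - b' = π ^ (n₀ + 1) • w := by
    refine exists_smul_of_cube Cmid π (a' - b') ?_ (n₀ + 1) ?_ (n₀ + 1) le_rfl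
    · refine ⟨ya + g - yb, Cmid.sub_mem (Cmid.add_mem (hfin hya) hg) (hinf hyb), ?_⟩
      have : a' - b' = (a' - a) + (a - b) - (b' - b) := by ring
      rw [this, hya', hgab, hyb']
      simp only [Algebra.smul_def]
      ring
    · refine ⟨xa * (1 + a') - xb * (1 + b') - 3 * xa * b' + 3 * xb * a',
        Cmid.add_mem (Cmid.sub_mem (Cmid.sub_mem (Cmid.mul_mem (hfin hxa)
          (Cmid.add_mem Cmid.one_mem ha'm)) (Cmid.mul_mem (hinf hxb)
          (Cmid.add_mem Cmid.one_mem hb'm))) (Cmid.mul_mem (Cmid.mul_mem h3 (hfin hxa)) hb'm))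
          (Cmid.mul_mem (Cmid.mul_mem h3 (hinf hxb)) ha'm), ?_⟩
      have : (a' - b') ^ 3 - (a' - b') =
          (a' ^ 2 - a') * (1 + a') - (b' ^ 2 - b') * (1 + b') - 3 * (a' ^ 2 - a') * b'
            + 3 * (b' ^ 2 - b') * a' := by ring
      rw [this, hxa', hxb']
      simp only [Algebra.smul_def, map_pow]
      ring
  -- torsion bound
  have hπn : π ^ (n₀ + 1) ≠ 0 := pow_ne_zero _ hπ
  have hmem : π ^ (n₀ + 1) • w ∈
      Subalgebra.toSubmodule Cfin ⊔ Subalgebra.toSubmodule Cinf := by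
    rw [← hdw, sub_eq_add_neg]
    exact Submodule.add_mem_sup (by simpa using ha') (by simpa using Cinf.neg_mem hb')
  have h0 := hc (π ^ (n₀ + 1)) w hπn hw hmem
  have h1 : π ^ n₀ • w ∈ Subalgebra.toSubmodule Cfin ⊔ Subalgebra.toSubmodule Cinf := by
    have : π ^ n₀ • w = r • (c₀ • w) := by rw [smul_smul, hr, mul_comm]
    rw [this]
    exact Submodule.smul_mem _ _ h0
  obtain ⟨u, hu, v, hv, huv⟩ := Submodule.mem_sup.mp h1
  have hu' : u ∈ Cfin := by simpa using hu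
  have hv' : v ∈ Cinf := by simpa using hv
  have key : a' - π • u = b' + π • v := by
    have e1 : a' - b' = π • u + π • v := by
      rw [hdw, ← smul_add, huv, pow_succ, mul_comm, mul_smul]
    have : a' - π • u = (a' - b') - π • u + b' := by ring
    rw [this, e1]
    ring
  refine ⟨a' - π • u, Cfin.sub_mem ha' (Cfin.smul_mem hu' _), ?_, ya - u, Cfin.sub_mem hya hu', ?_⟩
  · rw [key]
    exact Cinf.add_mem hb' (Cinf.smul_mem hv' _)
  · have : a' - π • u - a = (a' - a) - π • u := by ring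
    rw [this, hya', smul_sub]

end Fermat.Agent.S18.IdemPatch
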