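import Fermat.Agent.S18.SepDeriv
import Fermat.Agent.S24.LaurentDeriv

/-!
# S18: separability inside a Laurent series field

`k` a perfect field (any characteristic), `x₀ ∈ k((q))` with nonzero `q`-derivative.  Then every
element of `k((q))` integral (= algebraic) over `k(x₀)` is separable over `k(x₀)`.

* `isSeparable_of_isIntegral_of_adjoin` : the base field is any field `K` with
  `k → K → k((q))` generated over `k` by one element `x`.
* `isSeparable_of_isIntegral` : the base field is `k⟮x₀⟯ ⊆ k((q))`.
* `isSeparable_of_isIntegral_sub`, `algebra_isSeparable` : inside an intermediate field `E` of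
  `k((q)) / k`, over `k⟮x₀⟯ ⊆ E` for `x₀ : E`.

The derivation is `d/dq` (`Fermat.Agent.S24.LaurentDeriv.dX_mul` is the Leibniz rule); the
abstract criterion is `Fermat.Agent.S18.SepDeriv.isSeparable_of_leibniz`.
-/

namespace Fermat.Agent.S18.SepLaurent

open IntermediateField Polynomial

section Gen

variable {k L : Type*} [Field k] [Field L] [Algebra k L]

theorem coe_aeval_gen (x₀ : L) (p : k[X]) :
    algebraMap k⟮x₀⟯ L (aeval (AdjoinSimple.gen k x₀) p) = aeval x₀ p := by
  rw [← aeval_algebraMap_apply, AdjoinSimple.algebraMap_gen]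

/-- the generator of `k⟮x₀⟯` generates it as a field -/
theorem adjoin_gen_eq_top (x₀ : L) : adjoin k {AdjoinSimple.gen k x₀} = ⊤ := by
  rw [eq_top_iff]
  rintro ⟨c, hc⟩ -
  obtain ⟨r, s, h⟩ := (mem_adjoin_simple_iff k c).mp hc
  rw [mem_adjoin_simple_iff]
  refine ⟨r, s, Subtype.ext ?_⟩
  have e : ((aeval (AdjoinSimple.gen k x₀) r / aeval (AdjoinSimple.gen k x₀) s : k⟮x₀⟯) : L) =
      aeval x₀ r / aeval x₀ s := by
    rw [← coe_aeval_gen x₀ r, ← coe_aeval_gen x₀ s]
    exact map_div₀ (algebraMap k⟮x₀⟯ L) _ _
  show c = _
  rw [e]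
  exact h

end Gen

variable {k : Type*} [Field k]

/-- the structure map `k → k((q))` is the constant-series map -/
theorem algebraMap_eq_C (c : k) : algebraMap k (LaurentSeries k) c = HahnSeries.C c := by
  have h1 : algebraMap k (PowerSeries k) c = PowerSeries.C c := by simp
  rw [HahnSeries.algebraMap_apply', h1, HahnSeries.ofPowerSeries_C]

theorem derivative_add (f g : LaurentSeries k) :
    LaurentSeries.derivative k (f + g) = LaurentSeries.derivative k f + LaurentSeries.derivative k g :=
  map_add (LaurentSeries.derivative k) f g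

/-- Leibniz rule for `d/dq` on `k((q))` -/
theorem derivative_mul (f g : LaurentSeries k) :
    LaurentSeries.derivative k (f * g) =
      f * LaurentSeries.derivative k g + g * LaurentSeries.derivative k f :=
  Fermat.Agent.S24.LaurentDeriv.dX_mul f g

theorem derivative_algebraMap (c : k) :
    LaurentSeries.derivative k (algebraMap k (LaurentSeries k) c) = 0 := by
  rw [algebraMap_eq_C]
  exact Fermat.Agent.S24.LaurentDeriv.dX_C c

theorem coeff_derivative (f : LaurentSeries k) (n : ℤ) :
    (LaurentSeries.derivative k f).coeff n = ((n + 1 : ℤ) : k) * f.coeff (n + 1) :=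
  Fermat.Agent.S24.LaurentDeriv.coeff_dX f n

/-- a coefficient of `x` at an exponent prime to the characteristic forces `dx/dq ≠ 0` -/
theorem derivative_ne_zero_of_coeff (x : LaurentSeries k) (n : ℤ) (hn : (n : k) ≠ 0)
    (hc : x.coeff n ≠ 0) : LaurentSeries.derivative k x ≠ 0 := by
  intro h
  have h1 := coeff_derivative x (n - 1)
  rw [h, HahnSeries.coeff_zero, sub_add_cancel] at h1
  exact mul_ne_zero hn hc h1.symm

/-- over a perfect field, a Laurent series with nonzero derivative is transcendental -/
theorem transcendental_of_derivative_ne_zero [PerfectField k] (x : LaurentSeries k)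
    (hx : LaurentSeries.derivative k x ≠ 0) : Transcendental k x :=
  SepDeriv.transcendental_of_leibniz (LaurentSeries.derivative k) derivative_add
    derivative_mul derivative_algebraMap x hx

/-- **Separability inside `k((q))`, general base.**  `k` perfect, `K` a field with
`k → K → k((q))` (compatibility `htower`), generated over `k` by `x` with `dx/dq ≠ 0`: every
element of `k((q))` integral over `K` is separable over `K`. -/
theorem isSeparable_of_isIntegral_of_adjoin [PerfectField k] {K : Type*} [Field K] [Algebra k K]
    [Algebra K (LaurentSeries k)]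
    (htower : ∀ c : k, algebraMap K (LaurentSeries k) (algebraMap k K c) =
      algebraMap k (LaurentSeries k) c)
    (x : K) (hgen : adjoin k {x} = ⊤)
    (hx : LaurentSeries.derivative k (algebraMap K (LaurentSeries k) x) ≠ 0)
    (y : LaurentSeries k) (hy : IsIntegral K y) : IsSeparable K y := by
  have := IsScalarTower.of_algebraMap_eq (R := k) (S := K) (A := LaurentSeries k)
    fun c => (htower c).symm
  exact SepDeriv.isSeparable_of_leibniz (LaurentSeries.derivative k) derivative_add derivative_mul
    derivative_algebraMap x hgen hx y hy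

/-- **Separability inside `k((q))`.**  `k` perfect, `x₀ ∈ k((q))` with `dx₀/dq ≠ 0`: every element
of `k((q))` integral over `k(x₀)` is separable over `k(x₀)`. -/
theorem isSeparable_of_isIntegral [PerfectField k] (x₀ : LaurentSeries k)
    (hx : LaurentSeries.derivative k x₀ ≠ 0) (y : LaurentSeries k) (hy : IsIntegral k⟮x₀⟯ y) :
    IsSeparable k⟮x₀⟯ y := by
  have ht : ∀ c : k, algebraMap k⟮x₀⟯ (LaurentSeries k) (algebraMap k k⟮x₀⟯ c) =
      algebraMap k (LaurentSeries k) c := fun _ => rfl
  exact isSeparable_of_isIntegral_of_adjoin ht (AdjoinSimple.gen k x₀)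
    (adjoin_gen_eq_top x₀) hx y hy

/-- **Separability inside an intermediate field `E` of `k((q)) / k`, general base.**  `K` a field
with `k → K → E` (compatibility `htower`), generated over `k` by `x` with `dx/dq ≠ 0`: every
element of `E` integral over `K` is separable over `K`. -/
theorem isSeparable_sub_of_adjoin [PerfectField k] (E : IntermediateField k (LaurentSeries k))
    {K : Type*} [Field K] [Algebra k K] [Algebra K E]
    (htower : ∀ c : k, algebraMap K E (algebraMap k K c) = algebraMap k E c)
    (x : K) (hgen : adjoin k {x} = ⊤)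
    (hx : LaurentSeries.derivative k ((algebraMap K E x : E) : LaurentSeries k) ≠ 0)
    (y : E) (hy : IsIntegral K y) : IsSeparable K y := by
  let _ : Algebra K (LaurentSeries k) :=
    ((algebraMap E (LaurentSeries k)).comp (algebraMap K E)).toAlgebra
  have hKE := IsScalarTower.of_algebraMap_eq (R := K) (S := E) (A := LaurentSeries k)
    fun _ => rfl
  have ht : ∀ c : k, algebraMap K (LaurentSeries k) (algebraMap k K c) =
      algebraMap k (LaurentSeries k) c := by
    intro c
    show algebraMap E (LaurentSeries k) (algebraMap K E (algebraMap k K c)) = _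
    rw [htower]
    rfl
  have hint : IsIntegral K (algebraMap E (LaurentSeries k) y) := hy.algebraMap
  have hsep : IsSeparable K (algebraMap E (LaurentSeries k) y) :=
    isSeparable_of_isIntegral_of_adjoin ht x hgen hx _ hint
  rw [IsSeparable] at hsep ⊢
  rwa [minpoly.algebraMap_eq (algebraMap E (LaurentSeries k)).injective] at hsep

/-- Algebra form of `isSeparable_sub_of_adjoin`. -/
theorem algebra_isSeparable_of_adjoin [PerfectField k] (E : IntermediateField k (LaurentSeries k))
    {K : Type*} [Field K] [Algebra k K] [Algebra K E]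
    (htower : ∀ c : k, algebraMap K E (algebraMap k K c) = algebraMap k E c)
    (x : K) (hgen : adjoin k {x} = ⊤)
    (hx : LaurentSeries.derivative k ((algebraMap K E x : E) : LaurentSeries k) ≠ 0)
    [Algebra.IsAlgebraic K E] : Algebra.IsSeparable K E :=
  ⟨fun y => isSeparable_sub_of_adjoin E htower x hgen hx y (Algebra.IsIntegral.isIntegral y)⟩

set_option synthInstance.maxHeartbeats 400000 in
/-- **Separability inside an intermediate field `E` of `k((q)) / k`**, elementwise, over
`k⟮x₀⟯ ⊆ E`. -/
theorem isSeparable_of_isIntegral_sub [PerfectField k] (E : IntermediateField k (LaurentSeries k))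
    (x₀ : E) (hx : LaurentSeries.derivative k (x₀ : LaurentSeries k) ≠ 0) (y : E)
    (hy : IsIntegral k⟮x₀⟯ y) : IsSeparable k⟮x₀⟯ y := by
  have ht : ∀ c : k, algebraMap k⟮x₀⟯ E (algebraMap k k⟮x₀⟯ c) = algebraMap k E c := fun _ => rfl
  exact isSeparable_sub_of_adjoin E ht (AdjoinSimple.gen k x₀) (adjoin_gen_eq_top x₀) hx y hy

/-- **Separability inside an intermediate field `E` of `k((q)) / k`**: if `E` is algebraic over
`k(x₀)`, `x₀ ∈ E` with `dx₀/dq ≠ 0`, then `E / k(x₀)` is separable. -/
theorem algebra_isSeparable [PerfectField k] (E : IntermediateField k (LaurentSeries k))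
    (x₀ : E) (hx : LaurentSeries.derivative k (x₀ : LaurentSeries k) ≠ 0)
    [Algebra.IsAlgebraic k⟮x₀⟯ E] : Algebra.IsSeparable k⟮x₀⟯ E :=
  ⟨fun y => isSeparable_of_isIntegral_sub E x₀ hx y (Algebra.IsAlgebraic.isAlgebraic y).isIntegral⟩

end Fermat.Agent.S18.SepLaurent
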