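import Fermat.Agent.S28.ModPkgJp
import Fermat.Agent.S18.SepLaurent
import Fermat.Agent.S18.SepQ

/-!
# S18: `j(q^d)` is integral over `ℤ[j]` in `R((q))` for every commutative ring `R`

`S28.ModPkgJp.isIntegralElem_jp` gives a monic `P ∈ ℤ[X][X]` with `P(j, j(q^p)) = 0` in `ℂ((q))`.
The identity descends to `ℤ((q))` (injectivity of `coeffMap`) and is then pushed to `R((q))` for
any commutative ring `R` (`isIntegralElem_jp`); composite `d` by `S28.JTower.isIntegral_jd`.

Consequences, for EVERY field `k`: the generators of `modularFunctionFieldFullC k N` are integral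
over `k[j̄]` (`isIntegral_qExpand` -- the hypothesis `hgen` of `SepQ.isSeparable_full`), the field
is finite over `k(j̄)` (`finiteDimensional_full`) and, for perfect `k`, separable
(`isSeparable_full`).
-/

namespace Fermat.Agent.S18.JInt

open Polynomial ModularCurve IntermediateField

/-- the evaluation `ℤ[X] → R((q))`, `X ↦ j` -/
noncomputable abbrev evJ (R : Type*) [CommRing R] : ℤ[X] →+* LaurentSeries R :=
  ((aeval (jqModC R) : ℤ[X] →ₐ[ℤ] LaurentSeries R) : ℤ[X] →+* LaurentSeries R)

theorem coeffMap_comp_evJ {R S : Type*} [CommRing R] [CommRing S] (f : R →+* S) :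
    (coeffMap f).comp (evJ R) = evJ S := by
  apply Polynomial.ringHom_ext'
  · exact RingHom.ext_int _ _
  · simp [coeffMap_jqModC]

/-- `j(q^p)` is integral over `ℤ[j]` in `ℤ((q))`, ring-hom form. -/
theorem isIntegralElem_jp_int (p : ℕ) [Fact p.Prime] :
    (evJ ℤ).IsIntegralElem (qExpand ℤ p (jqModC ℤ)) := by
  have : NeZero p := ⟨(Fact.out : p.Prime).ne_zero⟩
  obtain ⟨P, hPm, hP⟩ := Fermat.Agent.S28.ModPkgJp.isIntegralElem_jp p
  have hψ : Function.Injective (coeffMap (Int.castRingHom ℂ)) :=
    Fermat.Agent.S28.ModPkgRed.coeffMap_injective _ (Int.castRingHom ℂ).injective_int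
  refine ⟨P, hPm, hψ ?_⟩
  rw [map_zero, Polynomial.hom_eval₂, coeffMap_comp_evJ, coeffMap_qExpand, coeffMap_jqModC]
  exact hP

/-- **`j(q^p)` is integral over `ℤ[j]` in `R((q))`** for every commutative ring `R`, ring-hom
form: there is a monic `P ∈ ℤ[X][X]` with `P(j, j(q^p)) = 0`. -/
theorem isIntegralElem_jp (R : Type*) [CommRing R] (p : ℕ) [Fact p.Prime] :
    (evJ R).IsIntegralElem (qExpand R p (jqModC R)) := by
  have : NeZero p := ⟨(Fact.out : p.Prime).ne_zero⟩
  obtain ⟨P, hPm, hP⟩ := isIntegralElem_jp_int p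
  refine ⟨P, hPm, ?_⟩
  have h := congrArg (coeffMap (Int.castRingHom R)) hP
  rw [map_zero, Polynomial.hom_eval₂, coeffMap_comp_evJ, coeffMap_qExpand, coeffMap_jqModC] at h
  exact h

section Adjoin

variable (B : Type*) [CommRing B] (A : Type*) [CommRing A] [Algebra B A]

/-- from the ring-hom form to integrality over `B[j] ⊆ A((q))` -/
theorem isIntegral_adjoin_of_isIntegralElem {x : LaurentSeries A}
    (h : (evJ A).IsIntegralElem x) : IsIntegral (Algebra.adjoin B {jqModC A}) x := by
  obtain ⟨P, hPm, hP⟩ := h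
  let g' : ℤ[X] →+* Algebra.adjoin B {jqModC A} :=
    ((aeval (⟨jqModC A, Algebra.subset_adjoin rfl⟩ : Algebra.adjoin B {jqModC A}) :
      ℤ[X] →ₐ[ℤ] Algebra.adjoin B {jqModC A}) : ℤ[X] →+* Algebra.adjoin B {jqModC A})
  have hg' : (algebraMap (Algebra.adjoin B {jqModC A}) (LaurentSeries A)).comp g' = evJ A := by
    apply Polynomial.ringHom_ext'
    · exact RingHom.ext_int _ _
    · simp [g']
  refine ⟨P.map g', hPm.map _, ?_⟩
  rw [Polynomial.eval₂_map, hg']
  exact hP

/-- `j(q^p)` is integral over `B[j]` in `A((q))`, `p` prime. -/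
theorem isIntegral_jp (p : ℕ) [Fact p.Prime] :
    haveI : NeZero p := ⟨(Fact.out : p.Prime).ne_zero⟩
    IsIntegral (Algebra.adjoin B {jqModC A}) (qExpand A p (jqModC A)) :=
  isIntegral_adjoin_of_isIntegralElem B A (isIntegralElem_jp A p)

/-- **`j(q^d)` is integral over `B[j]` in `A((q))`** for every `d ≠ 0` (any commutative rings). -/
theorem isIntegral_jd (d : ℕ) (hd : d ≠ 0) :
    IsIntegral (Algebra.adjoin B {jqModC A}) (Fermat.Agent.S28.Defs.jd A d) := by
  refine Fermat.Agent.S28.JTower.isIntegral_jd (B := B) (A := A) d hd fun p hp _ => ?_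
  have : Fact p.Prime := ⟨hp⟩
  have : NeZero p := ⟨hp.ne_zero⟩
  rw [Fermat.Agent.S28.Defs.jd_of_neZero]
  exact isIntegral_jp B A p

/-- **`j(q^d)` is integral over `B[j]` in `A((q))`**, `qExpand` form. -/
theorem isIntegral_qExpand (d : ℕ) [NeZero d] :
    IsIntegral (Algebra.adjoin B {jqModC A}) (qExpand A d (jqModC A)) := by
  rw [← Fermat.Agent.S28.Defs.jd_of_neZero]
  exact isIntegral_jd B A d (NeZero.ne d)

end Adjoin

section Field

variable (k : Type*) [Field k]

/-- the hypothesis `hgen` of `SepQ.isSeparable_full_of_isIntegral`, unconditionally -/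
theorem hgenI (N : ℕ) : ∀ (d : ℕ) [NeZero d], d ∣ N →
    IsIntegral (Algebra.adjoin k {jqModC k}) (qExpand k d (jqModC k)) :=
  fun d _ _ => isIntegral_qExpand k k d

/-- the hypothesis `hgen` of `SepQ.isSeparable_full` / `SepQ.isAlgebraic_of_mem_full`,
unconditionally -/
theorem hgenA (N : ℕ) : ∀ (d : ℕ) [NeZero d], d ∣ N →
    IsAlgebraic k⟮jqModC k⟯ (qExpand k d (jqModC k)) :=
  fun d _ hd => SepQ.isAlgebraic_of_isIntegral_adjoin (hgenI k N d hd)

/-- `j(q^d)` is integral over the field `k(j)`. -/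
theorem isIntegral_qExpand_field (d : ℕ) [NeZero d] :
    IsIntegral k⟮jqModC k⟯ (qExpand k d (jqModC k)) :=
  (SepQ.isAlgebraic_of_isIntegral_adjoin (isIntegral_qExpand k k d)).isIntegral

/-- every element of `F_k = modularFunctionFieldFullC k N` is integral over `k(j)` -/
theorem isIntegral_of_mem_full (N : ℕ) [NeZero N] {y : LaurentSeries k}
    (hy : y ∈ modularFunctionFieldFullC k N) : IsIntegral k⟮jqModC k⟯ y :=
  (SepQ.isAlgebraic_of_mem_full N (hgenA k N) hy).isIntegral

/-- every element of `F_k` is separable over `k(j)`, `k` perfect -/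
theorem isSeparable_of_mem_full [PerfectField k] (N : ℕ) [NeZero N] {y : LaurentSeries k}
    (hy : y ∈ modularFunctionFieldFullC k N) : IsSeparable k⟮jqModC k⟯ y :=
  SepQ.isSeparable_jqModC (SepQ.isAlgebraic_of_mem_full N (hgenA k N) hy)

/-- **`F_k / k(j)` is separable** for every perfect field `k` (in the shape of `SepQ`). -/
theorem isSeparable_full [PerfectField k] (N : ℕ) [NeZero N] :
    Algebra.IsSeparable k⟮jqModC k⟯
      (IntermediateField.extendScalars (SepQ.jqModC_le_full (k := k) N)) :=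
  SepQ.isSeparable_full N (hgenA k N)

/-- the generators of `F_k` form a finite set -/
theorem divisorExpansionsC_finite (N : ℕ) [NeZero N] : (divisorExpansionsC k N).Finite := by
  have h : divisorExpansionsC k N ⊆
      (fun d => Fermat.Agent.S28.Defs.jd k d) '' {d | d ∣ N} := by
    rintro x ⟨d, hd, hdN, rfl⟩
    exact ⟨d, hdN, Fermat.Agent.S28.Defs.jd_of_neZero k d⟩
  exact (((Set.finite_Iic N).subset fun _ hd =>
    Nat.le_of_dvd (Nat.pos_of_ne_zero (NeZero.ne N)) hd).image _).subset h

theorem jqModC_mem_divisorExpansionsC (N : ℕ) [NeZero N] : jqModC k ∈ divisorExpansionsC k N :=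
  ⟨1, inferInstance, one_dvd N, (qExpand_one_apply _).symm⟩

/-- `F_k`, as an extension of `k(j)`, is generated by the `j(q^d)`, `d ∣ N`. -/
theorem extendScalars_eq_adjoin (N : ℕ) [NeZero N] :
    IntermediateField.extendScalars (SepQ.jqModC_le_full (k := k) N) =
      adjoin k⟮jqModC k⟯ (divisorExpansionsC k N) := by
  apply IntermediateField.restrictScalars_injective k
  rw [IntermediateField.extendScalars_restrictScalars, IntermediateField.adjoin_adjoin_left,
    Set.union_eq_self_of_subset_left
      (Set.singleton_subset_iff.mpr (jqModC_mem_divisorExpansionsC k N))]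
  rfl

/-- **`F_k / k(j)` is finite** for every field `k`. -/
theorem finiteDimensional_full (N : ℕ) [NeZero N] :
    FiniteDimensional k⟮jqModC k⟯
      (IntermediateField.extendScalars (SepQ.jqModC_le_full (k := k) N)) := by
  rw [extendScalars_eq_adjoin]
  have : Finite (divisorExpansionsC k N) := (divisorExpansionsC_finite k N).to_subtype
  refine IntermediateField.finiteDimensional_adjoin ?_
  rintro x ⟨d, hd, hdN, rfl⟩
  exact isIntegral_qExpand_field k d

/-- **`F_k / k(j)` is algebraic** for every field `k`. -/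
theorem isAlgebraic_full (N : ℕ) [NeZero N] :
    Algebra.IsAlgebraic k⟮jqModC k⟯
      (IntermediateField.extendScalars (SepQ.jqModC_le_full (k := k) N)) :=
  ⟨fun y => IntermediateField.isAlgebraic_iff.mpr
    (SepQ.isAlgebraic_of_mem_full N (hgenA k N) y.2)⟩

/-- `dj/dq ≠ 0` in every characteristic (the coefficient of `q⁻²` is `-1`). -/
theorem derivative_jqModC_ne_zero : LaurentSeries.derivative k (jqModC k) ≠ 0 :=
  SepLaurent.derivative_ne_zero_of_coeff (jqModC k) (-1)
    (by rw [Int.cast_neg, Int.cast_one]; exact neg_ne_zero.mpr one_ne_zero)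
    (by rw [coeff_jqModC_neg_one]; exact one_ne_zero)

end Field

end Fermat.Agent.S18.JInt
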