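import Fermat.Agent.S18.JInt
import Fermat.Agent.S18.FieldDef

/-!
# S18: `F_k / k(j̄)` is finite and separable, nested carrier

`F_k := modularFunctionFieldFullC k N` (an intermediate field of `k((q)) / k`), `j̄ := FieldDef.jC k N`
as an element of `F_k`, and `k⟮j̄⟯ : IntermediateField k ↥F_k`.  For every field `k`,
`F_k / k⟮j̄⟯` is algebraic and finite; for perfect `k` it is separable.  (`JInt` has the same
statements for the carrier `IntermediateField.extendScalars` over `k⟮jqModC k⟯ ⊆ k((q))`.)

The transfer between the two carriers is done for a generic intermediate field first (section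
`Generic`), so that no definitional unfolding of the concrete fields is ever needed.
-/

namespace Fermat.Agent.S18.JNested

open Polynomial IntermediateField

section Generic

variable {k L : Type*} [Field k] [Field L] [Algebra k L] (E : IntermediateField k L) (x₀ : E)
  (x : L) (hx : (x₀ : L) = x)

include hx in
theorem mem_nested (c : L) (hc : c ∈ k⟮x⟯) (hcE : c ∈ E) : (⟨c, hcE⟩ : E) ∈ k⟮x₀⟯ := by
  subst hx
  refine (IntermediateField.mem_lift (F := E) (E := k⟮x₀⟯) ⟨c, hcE⟩).mp ?_
  rw [IntermediateField.lift_adjoin_simple]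
  exact hc

include hx in
theorem mem_of_mem_nested (c : E) (hc : c ∈ k⟮x₀⟯) : (c : L) ∈ k⟮x⟯ := by
  subst hx
  rw [← IntermediateField.lift_adjoin_simple]
  exact (IntermediateField.mem_lift c).mpr hc

/-- `k(x) ⊆ L` to `k(x₀) ⊆ E` (the identity on elements) -/
def toNested (h : k⟮x⟯ ≤ E) : k⟮x⟯ →+* k⟮x₀⟯ where
  toFun c := ⟨⟨(c : L), h c.2⟩, mem_nested E x₀ x hx c c.2 (h c.2)⟩
  map_one' := rfl
  map_mul' _ _ := rfl
  map_zero' := rfl
  map_add' _ _ := rfl

theorem coe_toNested (h : k⟮x⟯ ≤ E) (c : k⟮x⟯) :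
    (((toNested E x₀ x hx h c : k⟮x₀⟯) : E) : L) = c := rfl

theorem toNested_surjective (h : k⟮x⟯ ≤ E) : Function.Surjective (toNested E x₀ x hx h) := by
  intro c
  exact ⟨⟨((c : E) : L), mem_of_mem_nested E x₀ x hx c c.2⟩, rfl⟩

include hx in
/-- integrality over `k(x) ⊆ L` gives integrality over `k(x₀) ⊆ E` -/
theorem isIntegral_nested (h : k⟮x⟯ ≤ E) (y : E) (hy : IsIntegral k⟮x⟯ (y : L)) :
    IsIntegral k⟮x₀⟯ y := by
  obtain ⟨P, hPm, hP⟩ := hy
  refine ⟨P.map (toNested E x₀ x hx h), hPm.map _, ?_⟩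
  apply (algebraMap E L).injective
  rw [map_zero, Polynomial.eval₂_map, Polynomial.hom_eval₂]
  have hc : (algebraMap E L).comp ((algebraMap k⟮x₀⟯ E).comp (toNested E x₀ x hx h)) =
      algebraMap k⟮x⟯ L := RingHom.ext fun c => rfl
  rw [hc]
  exact hP

include hx in
/-- finiteness over `k(x) ⊆ L` gives finiteness over `k(x₀) ⊆ E` -/
theorem finite_nested (h : k⟮x⟯ ≤ E)
    [hfin : Module.Finite k⟮x⟯ (IntermediateField.extendScalars h)] :
    Module.Finite k⟮x₀⟯ E := by
  have : RingHomSurjective (toNested E x₀ x hx h) := ⟨toNested_surjective E x₀ x hx h⟩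
  let f : IntermediateField.extendScalars h →ₛₗ[toNested E x₀ x hx h] E :=
    { toFun := fun y => ⟨(y : L), y.2⟩
      map_add' := fun _ _ => rfl
      map_smul' := fun _ _ => rfl }
  exact Module.Finite.of_surjective f fun y => ⟨⟨(y : L), y.2⟩, rfl⟩

end Generic

section Modular

open ModularCurve

variable (k : Type*) [Field k] (N : ℕ)

/-- every element of `F_k` is integral over `k(j̄)` -/
theorem isIntegral (y : modularFunctionFieldFullC k N) : IsIntegral k⟮FieldDef.jC k N⟯ y :=
  isIntegral_nested (modularFunctionFieldFullC k N) (FieldDef.jC k N) (jqModC k)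
    (FieldDef.coe_jC k N) (SepQ.jqModC_le_full N) y
    (SepQ.isAlgebraic_of_mem_full N (JInt.hgenA k N) y.2).isIntegral

/-- **`F_k / k(j̄)` is algebraic** (nested carrier), every field `k`. -/
theorem isAlgebraic : Algebra.IsAlgebraic k⟮FieldDef.jC k N⟯ (modularFunctionFieldFullC k N) :=
  ⟨fun y => (isIntegral k N y).isAlgebraic⟩

/-- **`F_k / k(j̄)` is finite** (nested carrier), every field `k`. -/
theorem finiteDimensional [NeZero N] :
    FiniteDimensional k⟮FieldDef.jC k N⟯ (modularFunctionFieldFullC k N) :=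
  haveI := JInt.finiteDimensional_full k N
  finite_nested (modularFunctionFieldFullC k N) (FieldDef.jC k N) (jqModC k)
    (FieldDef.coe_jC k N) (SepQ.jqModC_le_full N)

/-- **`F_k / k(j̄)` is separable** (nested carrier), `k` perfect. -/
theorem isSeparable [PerfectField k] :
    Algebra.IsSeparable k⟮FieldDef.jC k N⟯ (modularFunctionFieldFullC k N) :=
  ⟨fun y => SepLaurent.isSeparable_of_isIntegral_sub (modularFunctionFieldFullC k N)
    (FieldDef.jC k N) (JInt.derivative_jqModC_ne_zero k) y (isIntegral k N y)⟩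

end Modular

end Fermat.Agent.S18.JNested
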