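import Mathlib
import Fermat.Agent.S18.Descent
import Fermat.Agent.S18.Setup

/-!
# S18, route K, bridge: from the sealed carriers back to `Descent.KummerK0`

`Descent.KummerK0 A N p Kb` quantifies over number fields `K0 ⊇ Kb`, series `v₁ v₂` over
`A ∩ K0` and their images `x₁ x₂` in the function field over `ℚ̄`.  The bridge (`Top23`, `Top5`)
works with `Y := y₁ / y₂` in the sealed function field `Setup.FK K0 N` and derives a contradiction
from "`ιL Y` is not a `p`-th power" and "`p ∣ ord_P (ιL Y)` for all places `P`".  This file is the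
adapter between the two shapes (pure bookkeeping):

* `kummerK0_of_sealed`     : the contradiction form implies `Descent.KummerK0 A N p Kb`;
* `exists_kummerK0_of_covers` : the case split over the two covers (`ℓ ≠ 2 ∧ p ≠ 3` resp.
  `ℓ ≠ 3 ∧ p ≠ 2`), which exhausts all pairs of distinct primes.
-/

set_option autoImplicit false

noncomputable section

open HahnSeries AlgebraicCurve ModularCurve

namespace Fermat.Agent.S18.K0Seal

open Fermat.Agent.S18.Setup Fermat.Agent.S18.S24Export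

local notation "Qb" => AlgebraicClosure ℚ

variable (A : ValuationSubring Qb) (N : ℕ) [NeZero N]

/-- **Adapter.** To prove `Descent.KummerK0 A N p Kb` it suffices to derive a contradiction, for
every number field `K0 ⊇ Kb` and integral series `v₁ v₂` with equal nonzero reductions, from:
`Y := y₁ / y₂` (in the sealed function field over `K0`) is not a `p`-th power over `ℚ̄` and its
divisor is divisible by `p`. -/
theorem kummerK0_of_sealed {p : ℕ} (Kb : IntermediateField ℚ Qb)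
    (H : ∀ (K0 : IntermediateField ℚ Qb) [FiniteDimensional ℚ K0], Kb ≤ K0 →
      ∀ (v₁ v₂ : LaurentSeries (A0.down K0 A))
        (h₁ : coeffMap (A0.down K0 A).subtype v₁ ∈ modularFunctionFieldFullC K0 N)
        (h₂ : coeffMap (A0.down K0 A).subtype v₂ ∈ modularFunctionFieldFullC K0 N),
        coeffMap (IsLocalRing.residue (A0.down K0 A)) v₁ ≠ 0 →
        coeffMap (IsLocalRing.residue (A0.down K0 A)) v₁ =
          coeffMap (IsLocalRing.residue (A0.down K0 A)) v₂ →
        (∀ z : FL N, z ^ p ≠ ιL K0 N (FK.mk _ h₁ / FK.mk _ h₂)) →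
        (∀ P : Place Qb (FL N), (p : ℤ) ∣ P.ord (ιL K0 N (FK.mk _ h₁ / FK.mk _ h₂))) →
        False) :
    Descent.KummerK0 A N p Kb := by
  intro K0 _ hK v₁ v₂ h₁ h₂ hne heq x₁ x₂ hx₁ hx₂ hord
  by_contra hno
  have e₁ : ιL K0 N (FK.mk _ h₁) = x₁ := Subtype.ext (by rw [coe_ιL, FK.val_mk]; exact hx₁.symm)
  have e₂ : ιL K0 N (FK.mk _ h₂) = x₂ := Subtype.ext (by rw [coe_ιL, FK.val_mk]; exact hx₂.symm)
  have key : ιL K0 N (FK.mk _ h₁ / FK.mk _ h₂) = x₁ / x₂ := by rw [map_div₀, e₁, e₂]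
  exact H K0 hK v₁ v₂ h₁ h₂ hne heq (fun z hz => hno ⟨z, by rw [hz, key]⟩)
    (fun P => by rw [key]; exact hord P)

/-- Two distinct primes `p ≠ ℓ` satisfy `ℓ ≠ 2 ∧ p ≠ 3` or `ℓ ≠ 3 ∧ p ≠ 2`. -/
theorem cover_cases {ℓ p : ℕ} (hpl : p ≠ ℓ) : (ℓ ≠ 2 ∧ p ≠ 3) ∨ (ℓ ≠ 3 ∧ p ≠ 2) := by
  omega

omit [NeZero N] in
/-- **The case split over the two covers**: the `X₀(2)`-cover handles `ℓ ≠ 2`, `p ≠ 3`, the
`X₀(3)`-cover handles `ℓ ≠ 3`, `p ≠ 2`; together they handle all pairs `p ≠ ℓ`. -/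
theorem exists_kummerK0_of_covers {ℓ p : ℕ} (hpl : p ≠ ℓ)
    (h3 : ℓ ≠ 2 → p ≠ 3 →
      ∃ (K : IntermediateField ℚ Qb) (_ : FiniteDimensional ℚ K), Descent.KummerK0 A N p K)
    (h2 : ℓ ≠ 3 → p ≠ 2 →
      ∃ (K : IntermediateField ℚ Qb) (_ : FiniteDimensional ℚ K), Descent.KummerK0 A N p K) :
    ∃ (K : IntermediateField ℚ Qb) (_ : FiniteDimensional ℚ K), Descent.KummerK0 A N p K := by
  rcases cover_cases hpl with h | h
  · exact h3 h.1 h.2
  · exact h2 h.1 h.2

end Fermat.Agent.S18.K0Seal
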