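/-
S18 design cell, Step 3 (pure commutative algebra, Mathlib only).

`A` is a valuation ring with maximal ideal `𝔪A`, `B` an `A`-algebra (the finite chart over `A`),
`𝔪` a maximal ideal of `B` containing `𝔪A B` (a closed point `Q` of the special fibre), `x ∈ 𝔪` an
element whose reduction generates the maximal ideal of the local ring of the special fibre at `Q`,
and `ev : B →ₐ[A] A` a section (a point `P` of the generic fibre specialising to `Q`).

* `exists_mul_eq_sub_mul` (the KEY lemma): locally at `𝔪`, the kernel of `ev` is generated by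
  `x - x(P)`.  Proof: Nakayama for the finitely generated ideal `ker ev` in the localisation.
* `exists_factorization` (Weierstrass factorisation): if every function with nonzero reduction
  that vanishes at `Q` has a zero in the residue disc, then every function with nonzero reduction
  is, locally at `𝔪`, a unit times a product of factors `x - x(P)`.
-/
import Mathlib

set_option autoImplicit false

namespace Fermat.Agent.S18.KeyNak

open IsLocalRing

variable {A B : Type*} [CommRing A] [IsDomain A] [ValuationRing A] [CommRing B] [Algebra A B]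

/-- An element of `𝔪A B` is a multiple of a single element of `𝔪A` (valuation rings: finitely
many elements of `𝔪A` have a common divisor in `𝔪A`). -/
theorem exists_eq_smul_of_mem_map {z : B}
    (hz : z ∈ (maximalIdeal A).map (algebraMap A B)) :
    ∃ c ∈ maximalIdeal A, ∃ b : B, z = c • b := by
  unfold Ideal.map at hz
  induction hz using Submodule.span_induction with
  | mem z hz =>
    obtain ⟨c, hc, rfl⟩ := hz
    exact ⟨c, hc, 1, by rw [Algebra.smul_def, mul_one]⟩
  | zero => exact ⟨0, zero_mem _, 0, by simp⟩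
  | add z₁ z₂ _ _ h₁ h₂ =>
    obtain ⟨c₁, hc₁, b₁, rfl⟩ := h₁
    obtain ⟨c₂, hc₂, b₂, rfl⟩ := h₂
    rcases ValuationRing.dvd_total c₁ c₂ with ⟨d, rfl⟩ | ⟨d, rfl⟩
    · exact ⟨c₁, hc₁, b₁ + d • b₂, by rw [smul_add, smul_smul]⟩
    · exact ⟨c₂, hc₂, d • b₁ + b₂, by rw [smul_add, smul_smul]⟩
  | smul r z _ h =>
    obtain ⟨c, hc, b, rfl⟩ := h
    exact ⟨c, hc, r * b, by rw [smul_eq_mul, mul_smul_comm]⟩

/-- `𝔪A B ≤ 𝔪` when `𝔪` is the pull-back of `𝔪A` along a section. -/
theorem map_le_of_eq_comap {𝔪 : Ideal B} (ev : B →ₐ[A] A)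
    (h𝔪 : 𝔪 = (maximalIdeal A).comap (ev : B →+* A)) :
    (maximalIdeal A).map (algebraMap A B) ≤ 𝔪 := by
  rw [Ideal.map_le_iff_le_comap]
  intro c hc
  rw [Ideal.mem_comap, h𝔪, Ideal.mem_comap]
  simpa using hc

/-- If `s ∉ 𝔪` (`𝔪` maximal) and `s * a ∈ 𝔪 ^ n ⊔ J`, then `a ∈ 𝔪 ^ n ⊔ J`. -/
theorem mem_of_mul_mem (𝔪 : Ideal B) [h𝔪 : 𝔪.IsMaximal] (J : Ideal B) (n : ℕ) {s a : B}
    (hs : s ∉ 𝔪) (h : s * a ∈ 𝔪 ^ n ⊔ J) : a ∈ 𝔪 ^ n ⊔ J := by
  obtain ⟨r, m, hm, hrm⟩ := Ideal.IsMaximal.exists_inv_pow 𝔪 hs n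
  have : a = m * a + r * (s * a) := by
    calc a = (r * s + m) * a := by rw [hrm, one_mul]
      _ = _ := by ring
  rw [this]
  exact Ideal.add_mem _ (Ideal.mem_sup_left (Ideal.mul_mem_right _ _ hm)) (Ideal.mul_mem_left _ _ h)

/-- **KEY lemma.**  Locally at `𝔪`, the kernel of the section `ev` is generated by
`x - x(P)`. -/
theorem exists_mul_eq_sub_mul (𝔪 : Ideal B) [h𝔪max : 𝔪.IsMaximal] (ev : B →ₐ[A] A)
    (hfg : (RingHom.ker (ev : B →+* A)).FG)
    (h𝔪 : 𝔪 = (maximalIdeal A).comap (ev : B →+* A)) (x : B) (hxm : x ∈ 𝔪)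
    (hx : ∀ y ∈ 𝔪, ∃ s, s ∉ 𝔪 ∧ ∃ w, s * y - x * w ∈ (maximalIdeal A).map (algebraMap A B))
    (y : B) (hy : ev y = 0) :
    ∃ s, s ∉ 𝔪 ∧ ∃ w, s * y = (x - algebraMap A B (ev x)) * w := by
  classical
  set x' : B := x - algebraMap A B (ev x) with hx'
  have hevx' : ev x' = 0 := by simp [hx']
  have hmapm : (maximalIdeal A).map (algebraMap A B) ≤ 𝔪 := map_le_of_eq_comap ev h𝔪
  have hevx : ev x ∈ maximalIdeal A := by
    have := hxm
    rw [h𝔪, Ideal.mem_comap] at this
    exact this
  let S := Localization.AtPrime 𝔪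
  let f : B →+* S := algebraMap B S
  let I : Ideal B := RingHom.ker (ev : B →+* A)
  -- the Nakayama inclusion
  have hNak : I.map f ≤ Ideal.span {f x'} := by
    refine Submodule.le_of_le_smul_of_le_jacobson_bot (I := maximalIdeal S) (hfg.map f)
      (IsLocalRing.maximalIdeal_le_jacobson _) ?_
    rw [Ideal.map_le_iff_le_comap]
    intro y hyI
    have hy0 : ev y = 0 := by simpa [I] using hyI
    have hym : y ∈ 𝔪 := by
      rw [h𝔪, Ideal.mem_comap]
      simp [hy0]
    obtain ⟨s, hs, w, hw⟩ := hx y hym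
    -- `s * y = x' * w + z` with `z ∈ 𝔪A B`
    have hz : s * y - x' * w ∈ (maximalIdeal A).map (algebraMap A B) := by
      have : s * y - x' * w = (s * y - x * w) + algebraMap A B (ev x) * w := by
        rw [hx']; ring
      rw [this]
      exact Ideal.add_mem _ hw (Ideal.mul_mem_right _ _ (Ideal.mem_map_of_mem _ hevx))
    obtain ⟨c, hc, b, hcb⟩ := exists_eq_smul_of_mem_map hz
    have hsu : IsUnit (f s) := IsLocalization.map_units S (⟨s, hs⟩ : 𝔪.primeCompl)
    obtain ⟨us, hus⟩ := hsu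
    have hfy : f y = f x' * (↑us⁻¹ * f w) + (↑us⁻¹ * f (algebraMap A B c)) * f b := by
      have h1 : f s * f y = f x' * f w + f (algebraMap A B c) * f b := by
        rw [← map_mul, ← map_mul, ← map_mul, ← map_add]
        congr 1
        rw [← Algebra.smul_def, ← hcb]
        ring
      have h2 : f y = ↑us⁻¹ * (f s * f y) := by
        rw [← hus, ← mul_assoc, Units.inv_mul, one_mul]
      rw [h2, h1]
      ring
    rw [Ideal.mem_comap, hfy]
    by_cases hc0 : c = 0
    · refine Submodule.mem_sup_left ?_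
      have : (↑us⁻¹ * f (algebraMap A B c)) * f b = 0 := by simp [hc0]
      rw [this, add_zero]
      exact Ideal.mul_mem_right _ _ (Ideal.subset_span rfl)
    · have hbI : b ∈ I := by
        have h3 : ev (s * y - x' * w) = c * ev b := by
          rw [hcb, map_smul, smul_eq_mul]
        rw [map_sub, map_mul, map_mul, hy0, hevx', mul_zero, zero_mul, sub_zero] at h3
        have : ev b = 0 := by
          rcases mul_eq_zero.mp h3.symm with h | h
          · exact absurd h hc0
          · exact h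
        simpa [I] using this
      refine Submodule.add_mem_sup (Ideal.mul_mem_right _ _ (Ideal.subset_span rfl)) ?_
      refine Submodule.smul_mem_smul ?_ (Ideal.mem_map_of_mem f hbI)
      refine Ideal.mul_mem_left _ _ ?_
      have hcm : algebraMap A B c ∈ 𝔪 := hmapm (Ideal.mem_map_of_mem _ hc)
      have := (IsLocalization.AtPrime.to_map_mem_maximal_iff S 𝔪 (algebraMap A B c)).mpr hcm
      exact this
  -- unfold the conclusion
  have hyI : y ∈ I := by simpa [I] using hy
  have hmem : f y ∈ Ideal.span {f x'} := hNak (Ideal.mem_map_of_mem f hyI)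
  obtain ⟨a, ha⟩ := Ideal.mem_span_singleton'.mp hmem
  obtain ⟨w, t, rfl⟩ := IsLocalization.exists_mk'_eq 𝔪.primeCompl a
  have h4 : f (w * x') = f (t * y) := by
    have h6 : IsLocalization.mk' S w t * f t = f w := IsLocalization.mk'_spec S w t
    rw [map_mul, map_mul, ← ha, ← h6]
    ring
  obtain ⟨u, hu⟩ := (IsLocalization.eq_iff_exists 𝔪.primeCompl S).mp h4
  refine ⟨u * t, (u * t).2, u * w, ?_⟩
  have : ((u : B) * (t : B)) * y = x' * (u * w) := by
    calc ((u : B) * (t : B)) * y = u * (t * y) := by ring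
      _ = u * (w * x') := hu.symm
      _ = _ := by ring
  exact this

/-- **Weierstrass factorisation**, inductive form. -/
theorem exists_factorization_aux (𝔪 : Ideal B) [h𝔪max : 𝔪.IsMaximal] (Pts : Set (B →ₐ[A] A))
    (hPts : ∀ ev ∈ Pts, (RingHom.ker (ev : B →+* A)).FG ∧
      𝔪 = (maximalIdeal A).comap (ev : B →+* A))
    (x : B) (hxm : x ∈ 𝔪)
    (hx : ∀ y ∈ 𝔪, ∃ s, s ∉ 𝔪 ∧ ∃ w, s * y - x * w ∈ (maximalIdeal A).map (algebraMap A B))
    (hzero : ∀ a ∈ 𝔪, a ∉ (maximalIdeal A).map (algebraMap A B) → ∃ ev ∈ Pts, ev a = 0)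
    (n : ℕ) : ∀ a : B, a ∉ 𝔪 ^ n ⊔ (maximalIdeal A).map (algebraMap A B) →
    ∃ (l : List (B →ₐ[A] A)) (s u : B), (∀ ev ∈ l, ev ∈ Pts) ∧ s ∉ 𝔪 ∧ u ∉ 𝔪 ∧
      s * a = u * (l.map fun ev => x - algebraMap A B (ev x)).prod := by
  induction n with
  | zero =>
    intro a ha
    exact absurd (by rw [pow_zero, Ideal.one_eq_top, top_sup_eq]; exact Submodule.mem_top) ha
  | succ n ih =>
    intro a ha
    by_cases ham : a ∈ 𝔪
    · have ha0 : a ∉ (maximalIdeal A).map (algebraMap A B) := fun h => ha (Ideal.mem_sup_right h)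
      obtain ⟨ev, hev, heva⟩ := hzero a ham ha0
      obtain ⟨hfg, h𝔪⟩ := hPts ev hev
      obtain ⟨s, hs, w, hw⟩ := exists_mul_eq_sub_mul 𝔪 ev hfg h𝔪 x hxm hx a heva
      have hx'm : x - algebraMap A B (ev x) ∈ 𝔪 := by
        refine Ideal.sub_mem _ hxm ?_
        have hevx : ev x ∈ maximalIdeal A := by
          have := hxm
          rw [h𝔪, Ideal.mem_comap] at this
          exact this
        exact map_le_of_eq_comap ev h𝔪 (Ideal.mem_map_of_mem _ hevx)
      have hwn : w ∉ 𝔪 ^ n ⊔ (maximalIdeal A).map (algebraMap A B) := by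
        intro hwmem
        apply ha
        refine mem_of_mul_mem 𝔪 _ (n + 1) hs ?_
        rw [hw]
        obtain ⟨w₁, hw₁, w₂, hw₂, rfl⟩ := Submodule.mem_sup.mp hwmem
        rw [mul_add]
        refine Submodule.add_mem_sup ?_ (Ideal.mul_mem_left _ _ hw₂)
        rw [pow_succ']
        exact Ideal.mul_mem_mul hx'm hw₁
      obtain ⟨l, s', u', hl, hs', hu', hfac⟩ := ih w hwn
      refine ⟨ev :: l, s' * s, u', ?_, ?_, hu', ?_⟩
      · intro e he
        rcases List.mem_cons.mp he with rfl | he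
        · exact hev
        · exact hl e he
      · exact fun h => (h𝔪max.isPrime.mem_or_mem h).elim hs' hs
      · rw [List.map_cons, List.prod_cons]
        calc s' * s * a = s' * (s * a) := by ring
          _ = s' * ((x - algebraMap A B (ev x)) * w) := by rw [hw]
          _ = (x - algebraMap A B (ev x)) * (s' * w) := by ring
          _ = (x - algebraMap A B (ev x)) * (u' * (l.map fun ev => x - algebraMap A B (ev x)).prod) := by
            rw [hfac]
          _ = _ := by ring
    · exact ⟨[], 1, a, by simp, h𝔪max.ne_top ∘ (Ideal.eq_top_iff_one _).mpr, ham, by simp⟩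

/-- **Weierstrass factorisation.**  If every function with nonzero reduction vanishing at the
point `𝔪` of the special fibre has a zero among the sections `Pts` (points of the residue disc),
then every function with nonzero reduction is, locally at `𝔪`, a unit times a product of
linear factors `x - x(P)`, `P ∈ Pts`. -/
theorem exists_factorization (𝔪 : Ideal B) [h𝔪max : 𝔪.IsMaximal] (Pts : Set (B →ₐ[A] A))
    (hPts : ∀ ev ∈ Pts, (RingHom.ker (ev : B →+* A)).FG ∧
      𝔪 = (maximalIdeal A).comap (ev : B →+* A))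
    (x : B) (hxm : x ∈ 𝔪)
    (hx : ∀ y ∈ 𝔪, ∃ s, s ∉ 𝔪 ∧ ∃ w, s * y - x * w ∈ (maximalIdeal A).map (algebraMap A B))
    (hzero : ∀ a ∈ 𝔪, a ∉ (maximalIdeal A).map (algebraMap A B) → ∃ ev ∈ Pts, ev a = 0)
    (hfin : ∀ a, a ∉ (maximalIdeal A).map (algebraMap A B) →
      ∃ n : ℕ, a ∉ 𝔪 ^ n ⊔ (maximalIdeal A).map (algebraMap A B))
    (a : B) (ha : a ∉ (maximalIdeal A).map (algebraMap A B)) :
    ∃ (l : List (B →ₐ[A] A)) (s u : B), (∀ ev ∈ l, ev ∈ Pts) ∧ s ∉ 𝔪 ∧ u ∉ 𝔪 ∧
      s * a = u * (l.map fun ev => x - algebraMap A B (ev x)).prod := by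
  obtain ⟨n, hn⟩ := hfin a ha
  exact exists_factorization_aux 𝔪 Pts hPts x hxm hx hzero n a hn

/-- In any factorisation as in `exists_factorization`, the number of factors is at most the
order of vanishing of the reduction at `𝔪`. -/
theorem length_le_of_factorization (𝔪 : Ideal B) [h𝔪max : 𝔪.IsMaximal]
    (hmapm : (maximalIdeal A).map (algebraMap A B) ≤ 𝔪)
    (x : B) (hxm : x ∈ 𝔪) (l : List (B →ₐ[A] A)) (hl : ∀ ev ∈ l, ev x ∈ maximalIdeal A)
    {s u a : B} (hs : s ∉ 𝔪)
    (h : s * a = u * (l.map fun ev => x - algebraMap A B (ev x)).prod) :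
    a ∈ 𝔪 ^ l.length ⊔ (maximalIdeal A).map (algebraMap A B) := by
  refine mem_of_mul_mem 𝔪 _ _ hs (Ideal.mem_sup_left ?_)
  rw [h]
  refine Ideal.mul_mem_left _ _ ?_
  clear h
  induction l with
  | nil => simp
  | cons ev l ih =>
    rw [List.map_cons, List.prod_cons, List.length_cons, pow_succ']
    refine Ideal.mul_mem_mul ?_ (ih fun e he => hl e (List.mem_cons_of_mem _ he))
    exact Ideal.sub_mem _ hxm (hmapm (Ideal.mem_map_of_mem _ (hl ev List.mem_cons_self)))

end Fermat.Agent.S18.KeyNak
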