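/-
S18 (design cell): p-th roots of elements congruent to 1 modulo a nil ideal
(Hensel / Newton modulo a nil ideal), existence and uniqueness.
-/
import Mathlib

set_option autoImplicit false

namespace Fermat.Agent.S18.NilRoot

open Polynomial

variable {R : Type*} [CommRing R]

/-- Uniqueness: two `p`-th roots of the same element that differ by a nilpotent and one of which
is a unit coincide, if `p` is a unit. -/
theorem eq_of_pow_eq_of_isNilpotent_sub (p : ℕ) (hp : IsUnit (p : R)) {x y : R}
    (hx : IsUnit x) (hxy : IsNilpotent (x - y)) (hpow : x ^ p = y ^ p) : x = y := by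
  -- apply the uniqueness part of the Newton lemma to P = X^p - C (x^p) at the point x
  let P : R[X] := X ^ p - C (x ^ p)
  have hPx : aeval x P = 0 := by simp [P]
  have hPy : aeval y P = 0 := by simp [P, hpow]
  have hder : IsUnit (aeval x (derivative P)) := by
    have hd : derivative P = C (p : R) * X ^ (p - 1) := by
      simp only [P, derivative_sub, derivative_X_pow, derivative_C, sub_zero]
    have : aeval x (derivative P) = (p : R) * x ^ (p - 1) := by
      rw [hd]; simp
    rw [this]
    exact hp.mul (hx.pow _)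
  have hnil : IsNilpotent (aeval x P) := by rw [hPx]; exact IsNilpotent.zero
  obtain ⟨r, -, hr⟩ := existsUnique_nilpotent_sub_and_aeval_eq_zero (x := x) hnil hder
  have h1 : x = r := hr x ⟨by simp, hPx⟩
  have h2 : y = r := hr y ⟨hxy, hPy⟩
  rw [h1, h2]

/-- Existence and uniqueness of the `p`-th root congruent to `1` modulo a nil ideal `I`. -/
theorem exists_unique_root (I : Ideal R) (hI : ∀ x ∈ I, IsNilpotent x) (p : ℕ)
    (hp : IsUnit (p : R)) (β : R) (hβ : β - 1 ∈ I) :
    ∃ x : R, x - 1 ∈ I ∧ x ^ p = β ∧ ∀ y : R, y - 1 ∈ I → y ^ p = β → y = x := by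
  let P : R[X] := X ^ p - C β
  have hP1 : aeval (1 : R) P = 1 - β := by simp [P]
  have hnil : IsNilpotent (aeval (1 : R) P) := by
    rw [hP1]
    have : 1 - β = -(β - 1) := by ring
    rw [this]
    exact (hI _ hβ).neg
  have hder : IsUnit (aeval (1 : R) (derivative P)) := by
    have hd : derivative P = C (p : R) * X ^ (p - 1) := by
      simp only [P, derivative_sub, derivative_X_pow, derivative_C, sub_zero]
    have : aeval (1 : R) (derivative P) = (p : R) := by
      rw [hd]; simp
    rw [this]; exact hp
  obtain ⟨r, ⟨hr1, hr2⟩, -⟩ := existsUnique_nilpotent_sub_and_aeval_eq_zero (x := (1 : R)) hnil hder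
  have hrp : r ^ p = β := by
    have : aeval r P = r ^ p - β := by simp [P]
    rw [this] at hr2
    exact sub_eq_zero.mp hr2
  -- r is a unit (1 - r nilpotent)
  have hru : IsUnit r := by
    have h := IsNilpotent.isUnit_sub_one hr1
    -- 1 - r - 1 = -r
    have h2 : (1 - r - 1 : R) = -r := by ring
    rw [h2] at h
    exact (IsUnit.neg_iff r).mp h
  -- r - 1 ∈ I : pass to the quotient
  have hrI : r - 1 ∈ I := by
    rw [← Ideal.Quotient.eq_zero_iff_mem, map_sub, map_one, sub_eq_zero]
    have hpq : IsUnit ((p : R ⧸ I)) := by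
      have := hp.map (Ideal.Quotient.mk I)
      simpa using this
    have hβq : Ideal.Quotient.mk I β = 1 := by
      have := Ideal.Quotient.eq_zero_iff_mem.mpr hβ
      rw [map_sub, map_one, sub_eq_zero] at this
      exact this
    refine (eq_of_pow_eq_of_isNilpotent_sub p hpq isUnit_one ?_ ?_).symm
    · have h3 : (1 : R ⧸ I) - Ideal.Quotient.mk I r = Ideal.Quotient.mk I (1 - r) := by simp
      rw [h3]
      exact hr1.map (Ideal.Quotient.mk I)
    · rw [one_pow, ← map_pow, hrp, hβq]
  refine ⟨r, hrI, hrp, fun y hy hyp => ?_⟩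
  have hyn : IsNilpotent (r - y) := by
    have : r - y = (r - 1) - (y - 1) := by ring
    rw [this]
    exact hI _ (I.sub_mem hrI hy)
  exact (eq_of_pow_eq_of_isNilpotent_sub p hp hru hyn (hrp.trans hyp.symm)).symm

end Fermat.Agent.S18.NilRoot
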