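import Mathlib

/-!
# S18 (route K): local data of the base line `A0[t]` at a closed point of the special fibre

`A0` is a discrete valuation ring with uniformizer `π` and residue field `k0`.  Both standard
charts of the base line are copies of the polynomial ring `P := A0[X]`.

* the maximal ideals of `P` containing `π` are exactly the ideals `(π, f)` with `f` monic and
  irreducible modulo `π`;
* the localisation `R` of `P` at `(π, f)` is a two-dimensional regular local ring: Noetherian,
  integrally closed, `π` and `f` are prime in `R`, the maximal ideal is `(π, f)`, and both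
  `R / π` and `R / f` are principal ideal rings (discrete valuation rings);
* integrality over `R` descends to `P` up to a denominator outside `(π, f)`;
* the globalisation principle: a statement of the form `y ∈ C_fin + π O` may be checked after
  multiplying by an element outside each maximal ideal containing `π`.
-/

set_option autoImplicit false

open Polynomial IsLocalRing

namespace Fermat.Agent.S18.PolyLocal

variable {A0 : Type*} [CommRing A0] [IsDomain A0] [IsDiscreteValuationRing A0]

/-- reduction of polynomials modulo the maximal ideal of `A0`. -/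
noncomputable abbrev res : A0[X] →+* (ResidueField A0)[X] :=
  Polynomial.mapRingHom (IsLocalRing.residue A0)

theorem res_surjective : Function.Surjective (res (A0 := A0)) :=
  Polynomial.map_surjective _ IsLocalRing.residue_surjective

/-- the closed point `(π, f)` of the special fibre. -/
noncomputable abbrev pt (π : A0) (f : A0[X]) : Ideal A0[X] := Ideal.span {C π, f}

theorem ker_res (π : A0) (hπ : Irreducible π) :
    RingHom.ker (res (A0 := A0)) = Ideal.span {C π} := by
  rw [res, Polynomial.ker_mapRingHom, IsLocalRing.ker_residue, hπ.maximalIdeal_eq,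
    Ideal.map_span, Set.image_singleton]

theorem pt_eq_comap (π : A0) (hπ : Irreducible π) (f : A0[X]) :
    pt π f = Ideal.comap (res (A0 := A0)) (Ideal.span {res f}) := by
  have h1 : Ideal.span {res f} = Ideal.map (res (A0 := A0)) (Ideal.span {f}) := by
    rw [Ideal.map_span, Set.image_singleton]
  rw [h1, Ideal.comap_map_of_surjective _ res_surjective, ← RingHom.ker_eq_comap_bot,
    ker_res π hπ, pt, ← Ideal.span_union]
  congr 1
  ext x
  simp [or_comm]

/-- `(π, f)` is a maximal ideal when `f` is irreducible modulo `π`. -/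
theorem isMaximal_pt (π : A0) (hπ : Irreducible π) (f : A0[X])
    (hirr : Irreducible (res f)) : (pt π f).IsMaximal := by
  rw [pt_eq_comap π hπ]
  have : (Ideal.span {res f}).IsMaximal := PrincipalIdealRing.isMaximal_of_irreducible hirr
  exact Ideal.comap_isMaximal_of_surjective _ res_surjective

omit [IsDomain A0] [IsDiscreteValuationRing A0] in
theorem C_mem_pt (π : A0) (f : A0[X]) : C π ∈ pt π f :=
  Ideal.subset_span (Set.mem_insert _ _)

omit [IsDomain A0] [IsDiscreteValuationRing A0] in
theorem self_mem_pt (π : A0) (f : A0[X]) : f ∈ pt π f :=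
  Ideal.subset_span (Set.mem_insert_of_mem _ rfl)

/-- every maximal ideal of `A0[X]` containing `π` is of the form `(π, f)`, `f` monic and
irreducible modulo `π`. -/
theorem exists_monic_of_isMaximal (π : A0) (hπ : Irreducible π) (𝔫 : Ideal A0[X])
    [h𝔫 : 𝔫.IsMaximal] (h : C π ∈ 𝔫) :
    ∃ f : A0[X], f.Monic ∧ Irreducible (res f) ∧ 𝔫 = pt π f := by
  have hker : RingHom.ker (res (A0 := A0)) ≤ 𝔫 := by
    rw [ker_res π hπ, Ideal.span_le, Set.singleton_subset_iff]
    exact h
  have hcm : Ideal.comap (res (A0 := A0)) (Ideal.map res 𝔫) = 𝔫 := by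
    rw [Ideal.comap_map_of_surjective _ res_surjective, ← RingHom.ker_eq_comap_bot]
    exact sup_eq_left.mpr hker
  have hmax : (Ideal.map (res (A0 := A0)) 𝔫).IsMaximal := by
    rcases Ideal.map_eq_top_or_isMaximal_of_surjective _ res_surjective h𝔫 with h1 | h1
    · exfalso
      rw [h1, Ideal.comap_top] at hcm
      exact h𝔫.ne_top hcm.symm
    · exact h1
  obtain ⟨g, hg⟩ := (IsPrincipalIdealRing.principal (Ideal.map (res (A0 := A0)) 𝔫)).principal
  rw [← Ideal.span, ] at hg
  have hg0 : g ≠ 0 := by
    rintro rfl
    rw [Set.singleton_zero, Ideal.span_zero] at hg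
    rw [hg] at hmax
    exact Polynomial.not_isField (ResidueField A0) (Ring.isField_iff_maximal_bot.mpr hmax)
  have hgirr : Irreducible g := by
    have : Prime g := (Ideal.span_singleton_prime hg0).mp (hg ▸ hmax.isPrime)
    exact this.irreducible
  -- normalise `g` to be monic
  set g' : (ResidueField A0)[X] := g * C g.leadingCoeff⁻¹ with hg'
  have hg'monic : g'.Monic := Polynomial.monic_mul_leadingCoeff_inv hg0
  have hunit : IsUnit (C g.leadingCoeff⁻¹ : (ResidueField A0)[X]) :=
    Polynomial.isUnit_C.mpr (IsUnit.mk0 _ (inv_ne_zero (leadingCoeff_ne_zero.mpr hg0)))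
  have hg'irr : Irreducible g' := (irreducible_mul_isUnit hunit).mpr hgirr
  have hspan : Ideal.span {g'} = Ideal.span {g} := by
    rw [hg', Ideal.span_singleton_mul_right_unit hunit]
  obtain ⟨f, hf, -, hfm⟩ := Polynomial.lifts_and_degree_eq_and_monic
    ((Polynomial.mem_lifts _).mpr (res_surjective g')) hg'monic
  have hf' : res f = g' := hf
  refine ⟨f, hfm, hf' ▸ hg'irr, ?_⟩
  rw [pt_eq_comap π hπ, hf', hspan, ← hg, hcm]

/-! ### primes of `A0[X]` -/

theorem prime_C (π : A0) (hπ : Irreducible π) : Prime (C π : A0[X]) :=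
  Polynomial.prime_C_iff.mpr (irreducible_iff_prime.mp hπ)

theorem prime_of_monic (f : A0[X]) (hf : f.Monic) (hirr : Irreducible (res f)) : Prime f :=
  irreducible_iff_prime.mp
    (hf.irreducible_of_irreducible_map (IsLocalRing.residue A0) f hirr)

theorem natDegree_pos_of_irreducible (f : A0[X]) (hf : f.Monic) (hirr : Irreducible (res f)) :
    0 < f.natDegree := by
  have h1 : (res f).natDegree = f.natDegree := hf.natDegree_map _
  rw [← h1]
  exact Polynomial.natDegree_pos_iff_degree_pos.mpr (Polynomial.degree_pos_of_irreducible hirr)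

omit [IsDomain A0] [IsDiscreteValuationRing A0] in
/-- `π ∤ f` in `A0[X]`. -/
theorem not_C_dvd (π : A0) (hπ : Irreducible π) (f : A0[X]) (hf : f.Monic) : ¬ C π ∣ f := by
  intro h
  have h1 := (Polynomial.C_dvd_iff_dvd_coeff _ _).mp h f.natDegree
  rw [hf.coeff_natDegree] at h1
  exact hπ.not_isUnit (isUnit_of_dvd_one h1)

omit [IsDiscreteValuationRing A0] in
/-- `f ∤ n` for a nonzero constant `n`. -/
theorem not_dvd_C (f : A0[X]) (hf : f.Monic) (hdeg : 0 < f.natDegree) (a : A0) (ha : a ≠ 0) :
    ¬ f ∣ C a := by
  rintro ⟨g, hg⟩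
  have hg0 : g ≠ 0 := by
    rintro rfl
    rw [mul_zero] at hg
    exact ha (Polynomial.C_eq_zero.mp hg)
  have h1 := congrArg Polynomial.natDegree hg
  rw [Polynomial.natDegree_C, hf.natDegree_mul' hg0] at h1
  omega

/-! ### the local ring at `(π, f)` -/

section Local

variable (π : A0) (f : A0[X]) [hpt : (pt π f).IsPrime]
  (R : Type*) [CommRing R] [Algebra A0[X] R] [hloc : IsLocalization.AtPrime R (pt π f)]

include hpt hloc

theorem isDomain_loc : IsDomain R := IsLocalization.isDomain_of_atPrime R (pt π f)

theorem isNoetherianRing_loc : IsNoetherianRing R :=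
  IsLocalization.isNoetherianRing (pt π f).primeCompl R inferInstance

theorem isIntegrallyClosed_loc : IsIntegrallyClosed R :=
  isIntegrallyClosed_of_isLocalization R (pt π f).primeCompl
    (Ideal.primeCompl_le_nonZeroDivisors _)

theorem isLocalRing_loc : IsLocalRing R := IsLocalization.AtPrime.isLocalRing R (pt π f)

theorem algebraMap_injective : Function.Injective (algebraMap A0[X] R) :=
  IsLocalization.injective R (Ideal.primeCompl_le_nonZeroDivisors (pt π f))

/-- a prime element of `A0[X]` lying in `(π, f)` stays prime in the local ring. -/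
theorem prime_algebraMap {g : A0[X]} (hg : Prime g) (hmem : g ∈ pt π f) :
    Prime (algebraMap A0[X] R g) := by
  have hI : (Ideal.span {g}).IsPrime := (Ideal.span_singleton_prime hg.ne_zero).mpr hg
  have hd : Disjoint ((pt π f).primeCompl : Set A0[X]) (Ideal.span {g} : Set A0[X]) := by
    rw [Set.disjoint_left]
    intro x hx hx'
    exact hx ((Ideal.span_singleton_le_iff_mem _).mpr hmem hx')
  have h1 := IsLocalization.isPrime_of_isPrime_disjoint (pt π f).primeCompl R _ hI hd
  rw [Ideal.map_span, Set.image_singleton] at h1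
  refine (Ideal.span_singleton_prime ?_).mp h1
  intro h0
  exact hg.ne_zero (algebraMap_injective π f R (h0.trans (map_zero _).symm))

/-- divisibility by a prime of `A0[X]` lying in `(π, f)` can be tested in `A0[X]`. -/
theorem dvd_of_algebraMap_dvd {g : A0[X]} (hg : Prime g) (hmem : g ∈ pt π f) (x : A0[X])
    (h : algebraMap A0[X] R g ∣ algebraMap A0[X] R x) : g ∣ x := by
  have hI : (Ideal.span {g}).IsPrime := (Ideal.span_singleton_prime hg.ne_zero).mpr hg
  have hd : Disjoint ((pt π f).primeCompl : Set A0[X]) (Ideal.span {g} : Set A0[X]) := by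
    rw [Set.disjoint_left]
    intro x hx hx'
    exact hx ((Ideal.span_singleton_le_iff_mem _).mpr hmem hx')
  have h1 := IsLocalization.under_map_of_isPrime_disjoint (pt π f).primeCompl R hI hd
  have h2 : x ∈ (Ideal.map (algebraMap A0[X] R) (Ideal.span {g})).under A0[X] := by
    rw [Ideal.under, Ideal.mem_comap, Ideal.map_span, Set.image_singleton,
      Ideal.mem_span_singleton]
    exact h
  rw [h1] at h2
  exact Ideal.mem_span_singleton.mp h2

theorem prime_pi (hπ : Irreducible π) : Prime (algebraMap A0[X] R (C π)) :=
  prime_algebraMap π f R (prime_C π hπ) (C_mem_pt π f)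

theorem prime_tau (hf : f.Monic) (hirr : Irreducible (res f)) :
    Prime (algebraMap A0[X] R f) :=
  prime_algebraMap π f R (prime_of_monic f hf hirr) (self_mem_pt π f)

theorem maximalIdeal_eq [IsLocalRing R] :
    maximalIdeal R = Ideal.span {algebraMap A0[X] R (C π), algebraMap A0[X] R f} := by
  rw [← IsLocalization.AtPrime.map_eq_maximalIdeal (pt π f) R, pt, Ideal.map_span,
    Set.image_pair]

theorem not_pi_dvd_tau (hπ : Irreducible π) (hf : f.Monic) :
    ¬ algebraMap A0[X] R (C π) ∣ algebraMap A0[X] R f := fun h =>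
  not_C_dvd π hπ f hf (dvd_of_algebraMap_dvd π f R (prime_C π hπ) (C_mem_pt π f) f h)

theorem not_tau_dvd_pi (hπ : Irreducible π) (hf : f.Monic) (hirr : Irreducible (res f)) :
    ¬ algebraMap A0[X] R f ∣ algebraMap A0[X] R (C π) := fun h =>
  not_dvd_C f hf (natDegree_pos_of_irreducible f hf hirr) π hπ.ne_zero
    (dvd_of_algebraMap_dvd π f R (prime_of_monic f hf hirr) (self_mem_pt π f) _ h)

/-- `R / f` has characteristic zero when `A0` has. -/
theorem not_tau_dvd_natCast [CharZero A0] (hf : f.Monic) (hirr : Irreducible (res f)) (n : ℕ)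
    (hn : n ≠ 0) : ¬ algebraMap A0[X] R f ∣ (n : R) := by
  intro h
  have h1 : (n : R) = algebraMap A0[X] R (C (n : A0)) := by
    rw [← map_natCast (algebraMap A0[X] R) n, Polynomial.C_eq_natCast]
  rw [h1] at h
  exact not_dvd_C f hf (natDegree_pos_of_irreducible f hf hirr) (n : A0)
    (Nat.cast_ne_zero.mpr hn)
    (dvd_of_algebraMap_dvd π f R (prime_of_monic f hf hirr) (self_mem_pt π f) _ h)

end Local

/-! ### quotients of a two-generator local ring by one prime generator -/

/-- In a Noetherian local ring whose maximal ideal is `(a, b)` with `a` prime, the quotient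
`R / a` is a principal ideal ring (a discrete valuation ring or a field). -/
theorem isPrincipalIdealRing_quotient {R : Type*} [CommRing R] [IsLocalRing R]
    [IsNoetherianRing R] (a b : R) (ha : Prime a)
    (hmax : maximalIdeal R = Ideal.span {a, b}) :
    IsPrincipalIdealRing (R ⧸ Ideal.span {a}) := by
  have hI : (Ideal.span {a}).IsPrime := (Ideal.span_singleton_prime ha.ne_zero).mpr ha
  have hdom : IsDomain (R ⧸ Ideal.span {a}) := Ideal.Quotient.isDomain _
  have hloc : IsLocalRing (R ⧸ Ideal.span {a}) :=
    IsLocalRing.of_surjective' (Ideal.Quotient.mk _) Ideal.Quotient.mk_surjective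
  have hmap := IsLocalRing.map_maximalIdeal_of_surjective (Ideal.Quotient.mk (Ideal.span {a}))
    Ideal.Quotient.mk_surjective
  have hprin : (maximalIdeal (R ⧸ Ideal.span {a})).IsPrincipal := by
    refine ⟨⟨Ideal.Quotient.mk _ b, ?_⟩⟩
    rw [← hmap, hmax, Ideal.map_span, Set.image_pair]
    have h0 : Ideal.Quotient.mk (Ideal.span {a}) a = 0 :=
      Ideal.Quotient.eq_zero_iff_mem.mpr (Ideal.mem_span_singleton_self a)
    rw [h0, Ideal.submodule_span_eq]
    apply le_antisymm
    · rw [Ideal.span_le]
      rintro x (rfl | rfl)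
      · exact Ideal.zero_mem _
      · exact Ideal.subset_span rfl
    · exact Ideal.span_mono (by simp)
  exact ((tfae_of_isNoetherianRing_of_isLocalRing_of_isDomain
    (R ⧸ Ideal.span {a})).out 4 0).mp hprin

section Local2

variable (π : A0) (f : A0[X]) [hpt : (pt π f).IsPrime]
  (R : Type*) [CommRing R] [Algebra A0[X] R] [hloc : IsLocalization.AtPrime R (pt π f)]

include hpt hloc

/-- `R / π` is a principal ideal ring (the discrete valuation ring `k0[t]_(f̄)`). -/
theorem isPrincipalIdealRing_quotient_pi (hπ : Irreducible π) :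
    IsPrincipalIdealRing (R ⧸ Ideal.span {algebraMap A0[X] R (C π)}) := by
  haveI := isLocalRing_loc π f R
  haveI := isNoetherianRing_loc π f R
  exact isPrincipalIdealRing_quotient _ (algebraMap A0[X] R f) (prime_pi π f R hπ)
    (maximalIdeal_eq π f R)

/-- `R / f` is a principal ideal ring (a discrete valuation ring with uniformizer `π`). -/
theorem isPrincipalIdealRing_quotient_tau (hf : f.Monic) (hirr : Irreducible (res f)) :
    IsPrincipalIdealRing (R ⧸ Ideal.span {algebraMap A0[X] R f}) := by
  haveI := isLocalRing_loc π f R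
  haveI := isNoetherianRing_loc π f R
  refine isPrincipalIdealRing_quotient _ (algebraMap A0[X] R (C π)) (prime_tau π f R hf hirr) ?_
  rw [maximalIdeal_eq π f R, Set.pair_comm]

end Local2

end Fermat.Agent.S18.PolyLocal
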