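import Mathlib

/-!
# S18, Step 5 (pure algebra): `p`-th roots of `1 + π b` modulo powers of `π`

Everything here is elementary commutative algebra (Mathlib only).

* `exists_newton` : if `p` is a unit and `β = 1 + π b`, then for every `n` there is
  `x = 1 + π y` with `x ^ p * β = 1 + π ^ (n + 1) z` (Newton iteration, no completeness).
* `exists_mul_eq_one_add` : `1 + π g` is a unit modulo every `c ∣ π ^ n`.
* `dvd_sub_of_dvd_pow_sub_pow_mul` : uniqueness of the root: if `X, Y, β' ≡ 1 mod π`,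
  `c ∣ π ^ n` and `c ∣ (X ^ p - Y ^ p) * β'` then `c ∣ X - Y`.
-/

namespace Fermat.Agent.S18.PthRoot

variable {R : Type*} [CommRing R]

/-- `(1 - u) ^ p = 1 - p u + u ^ 2 g` for some `g`. -/
theorem one_sub_pow_expand (u : R) (p : ℕ) :
    ∃ g : R, (1 - u) ^ p = 1 - (p : R) * u + u ^ 2 * g := by
  induction p with
  | zero => exact ⟨0, by simp⟩
  | succ p ih =>
    obtain ⟨g, hg⟩ := ih
    refine ⟨(p : R) + g - u * g, ?_⟩
    rw [pow_succ, hg]
    push_cast
    ring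

/-- **Newton iteration.** If `p` is invertible and `β = 1 + π b`, then for every `n` there is
`x = 1 + π y` with `x ^ p * β = 1 + π ^ (n + 1) z`. -/
theorem exists_newton (p : ℕ) (hp : IsUnit (p : R)) (π β b : R) (hβ : β = 1 + π * b) (n : ℕ) :
    ∃ x y z : R, x = 1 + π * y ∧ x ^ p * β = 1 + π ^ (n + 1) * z := by
  induction n with
  | zero => exact ⟨1, 0, b, by simp, by simp [hβ]⟩
  | succ n ih =>
    obtain ⟨x, y, z, hx, hxz⟩ := ih
    obtain ⟨q, hq⟩ := hp.exists_left_inv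
    obtain ⟨g, hg⟩ := one_sub_pow_expand (π ^ (n + 1) * z * q) p
    refine ⟨x * (1 - π ^ (n + 1) * z * q), y - (1 + π * y) * π ^ n * z * q,
      π ^ n * z ^ 2 * (-1 + (1 + π ^ (n + 1) * z) * q ^ 2 * g), ?_, ?_⟩
    · rw [hx]; ring
    · rw [mul_pow, hg]
      linear_combination (1 - (p : R) * (π ^ (n + 1) * z * q) + (π ^ (n + 1) * z * q) ^ 2 * g) * hxz
        - (1 + π ^ (n + 1) * z) * (π ^ (n + 1) * z) * hq

/-- `1 + π g` is invertible modulo `c` whenever `c ∣ π ^ n`. -/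
theorem exists_mul_eq_one_add (π g c : R) (n : ℕ) (hc : c ∣ π ^ n) :
    ∃ u' r : R, (1 + π * g) * u' = 1 + c * r := by
  obtain ⟨d, hd⟩ := hc
  refine ⟨∑ i ∈ Finset.range n, (-(π * g)) ^ i, -(d * (-g) ^ n), ?_⟩
  have h := mul_neg_geom_sum (-(π * g)) n
  have h2 : (-(π * g)) ^ n = π ^ n * (-g) ^ n := by
    rw [← mul_pow]; congr 1; ring
  rw [h2, hd] at h
  linear_combination h

/-- Elements `≡ 1 mod π` are closed under products and powers: the geometric sum
`∑_{i < p} X ^ i Y ^ (p - 1 - i)` is `≡ p mod π`. -/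
theorem exists_geom_sum₂_eq (π X Y x y : R) (hX : X = 1 + π * x) (hY : Y = 1 + π * y) (p : ℕ) :
    ∃ G : R, ∑ i ∈ Finset.range p, X ^ i * Y ^ (p - 1 - i) = (p : R) + π * G := by
  have key : Ideal.Quotient.mk (Ideal.span {π})
      (∑ i ∈ Finset.range p, X ^ i * Y ^ (p - 1 - i) - (p : R)) = 0 := by
    have hπ : Ideal.Quotient.mk (Ideal.span {π}) π = 0 :=
      Ideal.Quotient.eq_zero_iff_mem.mpr (Ideal.mem_span_singleton_self π)
    have h1 : Ideal.Quotient.mk (Ideal.span {π}) X = 1 := by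
      rw [hX]; simp [hπ]
    have h2 : Ideal.Quotient.mk (Ideal.span {π}) Y = 1 := by
      rw [hY]; simp [hπ]
    simp [map_sum, h1, h2]
  rw [Ideal.Quotient.eq_zero_iff_mem, Ideal.mem_span_singleton] at key
  obtain ⟨G, hG⟩ := key
  exact ⟨G, by linear_combination hG⟩

/-- **Uniqueness of the `p`-th root modulo `c`.** If `X, Y, β'` are `≡ 1 mod π`, `p` is a unit,
`c ∣ π ^ n` and `c ∣ (X ^ p - Y ^ p) * β'`, then `c ∣ X - Y`. -/
theorem dvd_sub_of_dvd_pow_sub_pow_mul (p : ℕ) (hp : IsUnit (p : R)) (π c : R) (n : ℕ)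
    (hc : c ∣ π ^ n) (X Y β' x y b' : R) (hX : X = 1 + π * x) (hY : Y = 1 + π * y)
    (hβ' : β' = 1 + π * b') (h : c ∣ (X ^ p - Y ^ p) * β') : c ∣ X - Y := by
  obtain ⟨G, hG⟩ := exists_geom_sum₂_eq π X Y x y hX hY p
  obtain ⟨q, hq⟩ := hp.exists_left_inv
  have hgeom := geom_sum₂_mul X Y p
  -- `(∑ ...) * β' * q = 1 + π * G'`
  obtain ⟨u', r, hu⟩ := exists_mul_eq_one_add π (q * (G + (p : R) * b' + π * G * b')) c n hc
  obtain ⟨t, ht⟩ := h
  refine ⟨t * q * u' - (X - Y) * r, ?_⟩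
  have e1 : (X - Y) * (1 + π * (q * (G + (p : R) * b' + π * G * b'))) =
      (X ^ p - Y ^ p) * β' * q - (X - Y) * (q * (p : R) - 1) := by
    rw [← hgeom, hG, hβ']; ring
  have e2 : (X - Y) * ((1 + π * (q * (G + (p : R) * b' + π * G * b'))) * u') =
      (X - Y) * (1 + c * r) := by rw [hu]
  rw [hq] at e1
  linear_combination (-1 : R) * e2 + u' * e1 + q * u' * ht

end Fermat.Agent.S18.PthRoot
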