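import Mathlib

/-!
# S18: the quotient lemma (smoothness descends along a Galois cover, also in the wild case)

Let `E` be a finite torsion-free `B`-algebra with an action of a finite group `G` by `B`-algebra
automorphisms such that
* the norm `∏ g • x` of every `x : E` lies in `B` (true for the reduction of `E_A ⊇ E_A^G = B_A`,
  even when invariants do not commute with reduction);
* every local ring of `E` at a maximal ideal is a discrete valuation ring whose residue field is
  covered by `B`;
* no `g ≠ 1` acts trivially on such a local ring.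

Then every maximal ideal of `B` is locally principal (`exists_local_generator`), hence `B_n` is a
discrete valuation ring (`isDiscreteValuationRing_localization`) and a one-dimensional `B` is a
Dedekind domain (`isDedekindDomain_of_cover`).

The proof is elementary (no Galois theory, no `e f g`, no tameness):
* `card_le_of_fixed_dvd_pow` (core): an invariant function vanishing at a point of a curve
  vanishes to order at least the order of the stabiliser of the point (divided differences of a
  monic polynomial of degree `e` at `e + 1` conjugate points + Krull's intersection theorem);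
* the norm `s` of a local generator `x₁` at `Q` (chosen a unit at the other conjugates of `Q`) has
  order exactly `|Stab Q|` at `Q`, so it divides every invariant function vanishing at `Q`;
* transitivity of `G` on the maximal ideals above `n` follows from norms lying in `B`;
* Nakayama's lemma for the finite `B`-module `E^G / B`.
-/

set_option autoImplicit false
set_option linter.unusedSectionVars false

open Polynomial IsLocalRing

namespace Fermat.Agent.S18.Quotient


section DividedDifferences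

variable {Λ : Type*} [CommRing Λ] [IsDomain Λ]

/-- **Divided differences.** If a monic polynomial `Q` of degree `e` takes values divisible by `y`
(up to the factor `d ^ m`) at `e + 1` points whose pairwise differences divide `d`, then
`y ∣ d ^ (m + e)`. -/
theorem dvd_pow_of_monic_of_dvd_eval (d y : Λ) :
    ∀ (e : ℕ) (Q : Λ[X]), Q.Monic → Q.natDegree = e → ∀ (s : Finset Λ), s.card = e + 1 →
      (∀ a ∈ s, ∀ b ∈ s, a ≠ b → (a - b) ∣ d) → ∀ m : ℕ, (∀ a ∈ s, y ∣ d ^ m * Q.eval a) →
      y ∣ d ^ (m + e) := by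
  classical
  intro e
  induction e with
  | zero =>
    intro Q hQ hdeg s hs _ m hy
    have hQ1 : Q = 1 := by
      rw [hQ.natDegree_eq_zero] at hdeg
      exact hdeg
    obtain ⟨a, ha⟩ : s.Nonempty := by
      rw [← Finset.card_pos, hs]; omega
    have := hy a ha
    rwa [hQ1, eval_one, mul_one] at this
  | succ e ih =>
    intro Q hQ hdeg s hs hd m hy
    obtain ⟨a₀, ha₀⟩ : s.Nonempty := by
      rw [← Finset.card_pos, hs]; omega
    set Q₁ := Q /ₘ (X - C a₀) with hQ₁
    have hdecomp : C (Q.eval a₀) + (X - C a₀) * Q₁ = Q := by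
      rw [← modByMonic_X_sub_C_eq_C_eval]
      exact modByMonic_add_div Q (X - C a₀)
    have hdeg₁ : Q₁.natDegree = e := by
      rw [hQ₁, natDegree_divByMonic _ (monic_X_sub_C a₀), natDegree_X_sub_C, hdeg]
      rfl
    have hmon₁ : Q₁.Monic := by
      have hle : (X - C a₀).degree ≤ Q.degree := by
        rw [degree_X_sub_C, degree_eq_natDegree hQ.ne_zero, hdeg]
        exact_mod_cast Nat.succ_le_succ (Nat.zero_le e)
      have := leadingCoeff_divByMonic_of_monic (monic_X_sub_C a₀) hle
      exact this.trans hQ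
    have heval : ∀ a, (a - a₀) * Q₁.eval a = Q.eval a - Q.eval a₀ := by
      intro a
      have := congrArg (eval a) hdecomp
      simp only [eval_add, eval_C, eval_mul, eval_sub, eval_X] at this
      rw [← this]; ring
    have hcard : (s.erase a₀).card = e + 1 := by
      rw [Finset.card_erase_of_mem ha₀, hs]; rfl
    have hd' : ∀ a ∈ s.erase a₀, ∀ b ∈ s.erase a₀, a ≠ b → (a - b) ∣ d := fun a ha b hb hab =>
      hd a (Finset.mem_of_mem_erase ha) b (Finset.mem_of_mem_erase hb) hab
    have hy' : ∀ a ∈ s.erase a₀, y ∣ d ^ (m + 1) * Q₁.eval a := by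
      intro a ha
      have has : a ∈ s := Finset.mem_of_mem_erase ha
      have hne : a ≠ a₀ := Finset.ne_of_mem_erase ha
      obtain ⟨w, hw⟩ := hd a has a₀ ha₀ hne
      have h1 : d ^ (m + 1) * Q₁.eval a = w * (d ^ m * Q.eval a - d ^ m * Q.eval a₀) := by
        rw [pow_succ, ← mul_sub, ← heval a, hw]; ring
      rw [h1]
      exact Dvd.dvd.mul_left (dvd_sub (hy a has) (hy a₀ ha₀)) w
    have := ih Q₁ hmon₁ hdeg₁ (s.erase a₀) hcard hd' (m + 1) hy'
    rwa [show m + 1 + e = m + (e + 1) by ring] at this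

end DividedDifferences

section Core

variable {Λ : Type*} [CommRing Λ] [IsDomain Λ] {ι : Type*} [Fintype ι] (σ : ι → Λ →+* Λ)

/-- approximation by polynomials in `x` with fixed coefficients, modulo `x ^ e`. -/
theorem exists_poly_fixed_of_decomp (x : Λ)
    (hdec : ∀ y : Λ, ∃ a y', (∀ i, σ i a = a) ∧ y = a + x * y') (e : ℕ) (y : Λ) :
    ∃ P : Λ[X], (∀ k i, σ i (P.coeff k) = P.coeff k) ∧ P.degree < e ∧ x ^ e ∣ y - P.eval x := by
  induction e generalizing y with
  | zero =>
    exact ⟨0, by simp, by simp, by simp⟩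
  | succ e ih =>
    obtain ⟨a, y', ha, rfl⟩ := hdec y
    obtain ⟨P', hP', hdeg', w, hw⟩ := ih y'
    refine ⟨C a + P' * X, fun k i => ?_, ?_, ⟨w, ?_⟩⟩
    · rw [coeff_add, coeff_C]
      cases k with
      | zero => simp [ha i]
      | succ k => simp [coeff_mul_X, hP' k i]
    · refine lt_of_le_of_lt (degree_add_le _ _) (max_lt ?_ ?_)
      · exact lt_of_le_of_lt degree_C_le (by exact_mod_cast Nat.succ_pos e)
      · by_cases hP0 : P' = 0
        · rw [hP0, zero_mul, degree_zero]; exact WithBot.bot_lt_coe _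
        · rw [degree_mul_X, degree_eq_natDegree hP0]
          rw [degree_eq_natDegree hP0] at hdeg'
          have : P'.natDegree < e := by exact_mod_cast hdeg'
          exact_mod_cast Nat.succ_lt_succ this
    · simp only [eval_add, eval_C, eval_mul, eval_X]
      rw [pow_succ]
      linear_combination x * hw

/-- approximation by polynomials in `x` of degree `< e` with fixed coefficients, modulo `z ^ n`,
for a fixed element `z` dividing `x ^ e`. -/
theorem exists_poly_fixed_of_dvd (x z : Λ) (e : ℕ)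
    (hdec : ∀ y : Λ, ∃ a y', (∀ i, σ i a = a) ∧ y = a + x * y')
    (hz : ∀ i, σ i z = z) (hzx : z ∣ x ^ e) (n : ℕ) (y : Λ) :
    ∃ P : Λ[X], (∀ k i, σ i (P.coeff k) = P.coeff k) ∧ P.degree < e ∧ z ^ n ∣ y - P.eval x := by
  induction n generalizing y with
  | zero => exact ⟨0, by simp, by simp, by simp⟩
  | succ n ih =>
    obtain ⟨P, hP, hdeg, w, hw⟩ := ih y
    obtain ⟨P₁, hP₁, hdeg₁, w₁, hw₁⟩ := exists_poly_fixed_of_decomp σ x hdec e w
    obtain ⟨v, hv⟩ := hzx
    refine ⟨P + z ^ n • P₁, fun k i => ?_, ?_, ⟨v * w₁, ?_⟩⟩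
    · rw [coeff_add, coeff_smul, smul_eq_mul, map_add, map_mul, map_pow, hz i, hP k i, hP₁ k i]
    · refine lt_of_le_of_lt (degree_add_le _ _) (max_lt hdeg ?_)
      exact lt_of_le_of_lt (degree_smul_le _ _) hdeg₁
    · simp only [eval_add, eval_smul, smul_eq_mul]
      rw [pow_succ]
      linear_combination hw + z ^ n * hw₁ + z ^ n * w₁ * hv

/-- **Core of the quotient lemma.** Let `Λ` be a domain, `σ i` finitely many ring endomorphisms,
`x ∈ Λ` such that `i ↦ σ i x` is injective and every element of `Λ` is congruent modulo `x` to a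
common fixed point of the `σ i`.  If `z` is fixed by all `σ i`, divides `x ^ e`, and
`⋂ z ^ n Λ = 0`, then there are at most `e` indices.  (An invariant function vanishing at a point
vanishes to order at least the order of the stabiliser.) -/
theorem card_le_of_fixed_dvd_pow (x z : Λ) (e : ℕ)
    (hinj : Function.Injective fun i => σ i x)
    (hdec : ∀ y : Λ, ∃ a y', (∀ i, σ i a = a) ∧ y = a + x * y')
    (hz : ∀ i, σ i z = z) (hzx : z ∣ x ^ e)
    (hkrull : ∀ y : Λ, (∀ n : ℕ, z ^ n ∣ y) → y = 0) :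
    Fintype.card ι ≤ e := by
  classical
  by_contra hlt
  push Not at hlt
  -- `e + 1` indices
  obtain ⟨t, -, htcard⟩ := Finset.exists_subset_card_eq (s := (Finset.univ : Finset ι))
    (n := e + 1) (by rw [Finset.card_univ]; omega)
  set s : Finset Λ := t.image fun i => σ i x with hs
  have hscard : s.card = e + 1 := by
    rw [hs, Finset.card_image_of_injective _ hinj, htcard]
  -- the common multiple of the differences
  set d : Λ := ∏ i : ι, ∏ j ∈ Finset.univ.erase i, (σ i x - σ j x) with hd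
  have hd0 : d ≠ 0 := by
    rw [hd]
    refine Finset.prod_ne_zero_iff.mpr fun i _ => Finset.prod_ne_zero_iff.mpr fun j hj => ?_
    rw [sub_ne_zero]
    exact fun h => (Finset.ne_of_mem_erase hj) (hinj h).symm
  have hdvd : ∀ a ∈ s, ∀ b ∈ s, a ≠ b → (a - b) ∣ d := by
    intro a ha b hb hab
    obtain ⟨i, -, rfl⟩ := Finset.mem_image.mp ha
    obtain ⟨j, -, rfl⟩ := Finset.mem_image.mp hb
    have hij : j ≠ i := fun h => hab (by rw [h])
    rw [hd]
    exact Dvd.dvd.trans (Finset.dvd_prod_of_mem (fun j => σ i x - σ j x)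
        (Finset.mem_erase.mpr ⟨hij, Finset.mem_univ j⟩))
      (Finset.dvd_prod_of_mem (fun i => ∏ j ∈ Finset.univ.erase i, (σ i x - σ j x))
        (Finset.mem_univ i))
  refine hd0 (pow_eq_zero_iff (n := e) ?_ |>.mp (hkrull _ fun n => ?_))
  · rintro rfl
    -- `e = 0`: then `z` is a unit, so `1 = 0`
    have h1 : (1 : Λ) = 0 := hkrull 1 fun n => by
      obtain ⟨v, hv⟩ := hzx
      rw [pow_zero] at hv
      exact ⟨v ^ n, by rw [← mul_pow, ← hv, one_pow]⟩
    exact one_ne_zero h1
  · obtain ⟨P, hP, hdeg, hPz⟩ := exists_poly_fixed_of_dvd σ x z e hdec hz hzx n (x ^ e)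
    set Q : Λ[X] := X ^ e - P with hQ
    have hQmon : Q.Monic := monic_X_pow_sub hdeg
    have hQdeg : Q.natDegree = e := by
      apply natDegree_eq_of_degree_eq_some
      rw [hQ, degree_sub_eq_left_of_degree_lt (by rwa [degree_X_pow]), degree_X_pow]
    have hQfix : ∀ i, Q.map (σ i) = Q := by
      intro i
      ext k
      rw [coeff_map, hQ, coeff_sub, map_sub, hP k i, coeff_X_pow]
      split_ifs <;> simp
    have hQeval : ∀ a ∈ s, z ^ n ∣ d ^ 0 * Q.eval a := by
      intro a ha
      obtain ⟨i, -, rfl⟩ := Finset.mem_image.mp ha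
      rw [pow_zero, one_mul]
      obtain ⟨w, hw⟩ := hPz
      have h1 : Q.eval x = z ^ n * w := by
        rw [hQ, eval_sub, eval_pow, eval_X, hw]
      have h2 : Q.eval (σ i x) = σ i (Q.eval x) := by
        conv_lhs => rw [← hQfix i]
        rw [eval_map, ← eval₂_at_apply]
      rw [h2, h1, map_mul, map_pow, hz i]
      exact Dvd.intro _ rfl
    have := dvd_pow_of_monic_of_dvd_eval d (z ^ n) e Q hQmon hQdeg s hscard hdvd 0 hQeval
    rwa [zero_add] at this

end Core



section LocalStructure

variable {E : Type*} [CommRing E] (Q : Ideal E) [hQ : Q.IsMaximal] (x : E)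

local notation "Λ" => Localization.AtPrime Q

/-- the maximal ideal of `E_Q` is generated by the image of `x`. -/
theorem maximalIdeal_eq_span
    (hxQ : x ∈ Q) (hloc : ∀ y ∈ Q, ∃ t, t ∉ Q ∧ ∃ w, t * y = x * w) :
    maximalIdeal Λ = Ideal.span {algebraMap E Λ x} := by
  rw [← IsLocalization.AtPrime.map_eq_maximalIdeal Q Λ]
  apply le_antisymm
  · rw [Ideal.map_le_iff_le_comap]
    intro y hy
    obtain ⟨t, ht, w, hw⟩ := hloc y hy
    rw [Ideal.mem_comap, Ideal.mem_span_singleton]
    have hu : IsUnit (algebraMap E Λ t) :=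
      IsLocalization.map_units Λ (⟨t, ht⟩ : Q.primeCompl)
    obtain ⟨u, hu⟩ := hu
    refine ⟨algebraMap E Λ w * (u⁻¹ : Λˣ), ?_⟩
    have h1 : algebraMap E Λ t * algebraMap E Λ y = algebraMap E Λ x * algebraMap E Λ w := by
      rw [← map_mul, ← map_mul, hw]
    rw [← hu] at h1
    calc algebraMap E Λ y = (u⁻¹ : Λˣ) * ((u : Λ) * algebraMap E Λ y) := by
          rw [← mul_assoc, Units.inv_mul, one_mul]
      _ = algebraMap E Λ x * (algebraMap E Λ w * (u⁻¹ : Λˣ)) := by rw [h1]; ring
  · rw [Ideal.span_le, Set.singleton_subset_iff]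
    exact Ideal.mem_map_of_mem _ hxQ

/-- the image of a regular element is regular in the localisation. -/
theorem algebraMap_mul_eq_zero (hreg : ∀ y, x * y = 0 → y = 0) (l : Λ)
    (h : algebraMap E Λ x * l = 0) : l = 0 := by
  obtain ⟨a, s, rfl⟩ := IsLocalization.exists_mk'_eq Q.primeCompl l
  rw [IsLocalization.mul_mk'_eq_mk'_of_mul, IsLocalization.mk'_eq_zero_iff] at h
  obtain ⟨u, hu⟩ := h
  rw [IsLocalization.mk'_eq_zero_iff]
  refine ⟨u, hreg _ ?_⟩
  rw [← hu]; ring

theorem algebraMap_pow_mul_eq_zero (hreg : ∀ y, x * y = 0 → y = 0) (n : ℕ) (l : Λ)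
    (h : algebraMap E Λ x ^ n * l = 0) : l = 0 := by
  induction n with
  | zero => simpa using h
  | succ n ih =>
    apply ih
    apply algebraMap_mul_eq_zero Q x hreg
    rw [← mul_assoc, ← pow_succ']
    exact h

variable [IsNoetherianRing E]

/-- Krull's intersection theorem in `E_Q`, for the generator of the maximal ideal. -/
theorem eq_zero_of_forall_pow_dvd
    (hxQ : x ∈ Q) (hloc : ∀ y ∈ Q, ∃ t, t ∉ Q ∧ ∃ w, t * y = x * w) (l : Λ)
    (h : ∀ n : ℕ, algebraMap E Λ x ^ n ∣ l) : l = 0 := by
  have hK := Ideal.iInf_pow_eq_bot_of_isLocalRing (maximalIdeal Λ) Ideal.IsPrime.ne_top'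
  have hmem : l ∈ ⨅ i : ℕ, maximalIdeal Λ ^ i := by
    rw [Ideal.mem_iInf]
    intro n
    rw [maximalIdeal_eq_span Q x hxQ hloc, Ideal.span_singleton_pow, Ideal.mem_span_singleton]
    exact h n
  rw [hK] at hmem
  exact hmem

/-- every nonzero element of `E_Q` is a unit times a power of the generator. -/
theorem exists_unit_mul_pow
    (hxQ : x ∈ Q) (hloc : ∀ y ∈ Q, ∃ t, t ∉ Q ∧ ∃ w, t * y = x * w) (l : Λ) (hl : l ≠ 0) :
    ∃ (n : ℕ) (u : Λˣ), l = u * algebraMap E Λ x ^ n := by
  classical
  have hex : ∃ n : ℕ, ¬ algebraMap E Λ x ^ (n + 1) ∣ l := by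
    by_contra hcon
    push Not at hcon
    refine hl (eq_zero_of_forall_pow_dvd Q x hxQ hloc l fun n => ?_)
    cases n with
    | zero => simp
    | succ n => exact hcon n
  set n := Nat.find hex with hn
  have hn1 : ¬ algebraMap E Λ x ^ (n + 1) ∣ l := Nat.find_spec hex
  have hn0 : algebraMap E Λ x ^ n ∣ l := by
    rcases Nat.eq_zero_or_pos n with h0 | hpos
    · rw [h0]; simp
    · have := Nat.find_min hex (m := n - 1) (by omega)
      rw [not_not] at this
      rwa [show n - 1 + 1 = n by omega] at this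
  obtain ⟨μ, hμ⟩ := hn0
  have hμu : IsUnit μ := by
    by_contra hnu
    have hmem : μ ∈ maximalIdeal Λ := (IsLocalRing.mem_maximalIdeal μ).mpr hnu
    rw [maximalIdeal_eq_span Q x hxQ hloc, Ideal.mem_span_singleton] at hmem
    obtain ⟨ν, hν⟩ := hmem
    exact hn1 ⟨ν, by rw [hμ, hν, pow_succ]; ring⟩
  obtain ⟨u, rfl⟩ := hμu
  exact ⟨n, u, by rw [hμ]; ring⟩

/-- `E_Q` is a domain. -/
theorem isDomain_localization
    (hxQ : x ∈ Q) (hloc : ∀ y ∈ Q, ∃ t, t ∉ Q ∧ ∃ w, t * y = x * w)
    (hreg : ∀ y, x * y = 0 → y = 0) : IsDomain Λ := by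
  have : NoZeroDivisors Λ := by
    refine ⟨fun {a b} hab => ?_⟩
    by_contra hcon
    push Not at hcon
    obtain ⟨n, u, hu⟩ := exists_unit_mul_pow Q x hxQ hloc a hcon.1
    obtain ⟨m, v, hv⟩ := exists_unit_mul_pow Q x hxQ hloc b hcon.2
    have h1 : algebraMap E Λ x ^ (n + m) * ((u : Λ) * v) = 0 := by
      rw [← hab, hu, hv, pow_add]; ring
    have h2 := algebraMap_pow_mul_eq_zero Q x hreg _ _ h1
    exact (u * v).ne_zero (by rw [Units.val_mul]; exact h2)
  exact NoZeroDivisors.to_isDomain Λ

/-- contraction of the square of the maximal ideal. -/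
theorem mem_sq_of_algebraMap_mem {y : E} (hy : y ∈ Q)
    (h : algebraMap E Λ y ∈ maximalIdeal Λ ^ 2) : y ∈ Q ^ 2 := by
  rw [← IsLocalization.AtPrime.map_eq_maximalIdeal Q Λ, ← Ideal.map_pow,
    IsLocalization.mem_map_algebraMap_iff Q.primeCompl] at h
  obtain ⟨⟨a, t⟩, hat⟩ := h
  rw [← map_mul, IsLocalization.eq_iff_exists Q.primeCompl] at hat
  obtain ⟨u, hu⟩ := hat
  -- `(u t) y = u a ∈ Q ^ 2` with `u t ∉ Q`
  have hc : (u : E) * t ∉ Q := fun hmem =>
    (hQ.isPrime.mem_or_mem hmem).elim u.2 t.2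
  obtain ⟨c', i, hi, hci⟩ := hQ.exists_inv hc
  have h1 : y = c' * ((u : E) * (a : E)) + i * y := by
    have : (u : E) * (y * t) = u * a := hu
    calc y = (c' * ((u : E) * t) + i) * y := by rw [hci, one_mul]
      _ = c' * ((u : E) * (y * t)) + i * y := by ring
      _ = c' * ((u : E) * (a : E)) + i * y := by rw [this]
  rw [h1]
  refine Ideal.add_mem _ (Ideal.mul_mem_left _ _ (Ideal.mul_mem_left _ _ a.2)) ?_
  rw [pow_two]
  exact Ideal.mul_mem_mul hi hy

/-- an element of `Q \ Q ^ 2` is a unit times the generator. -/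
theorem exists_unit_mul_of_notMem_sq
    (hxQ : x ∈ Q) (hloc : ∀ y ∈ Q, ∃ t, t ∉ Q ∧ ∃ w, t * y = x * w)
    {y : E} (hy : y ∈ Q) (hy2 : y ∉ Q ^ 2) :
    ∃ u : Λˣ, algebraMap E Λ y = u * algebraMap E Λ x := by
  have hmem : algebraMap E Λ y ∈ maximalIdeal Λ := by
    rw [← IsLocalization.AtPrime.map_eq_maximalIdeal Q Λ]
    exact Ideal.mem_map_of_mem _ hy
  have hm := hmem
  rw [maximalIdeal_eq_span Q x hxQ hloc, Ideal.mem_span_singleton] at hm
  obtain ⟨μ, hμ⟩ := hm
  have hμu : IsUnit μ := by
    by_contra hnu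
    have hμm : μ ∈ maximalIdeal Λ := (IsLocalRing.mem_maximalIdeal μ).mpr hnu
    refine hy2 (mem_sq_of_algebraMap_mem Q hy ?_)
    rw [hμ, pow_two]
    refine Ideal.mul_mem_mul ?_ hμm
    rw [maximalIdeal_eq_span Q x hxQ hloc]
    exact Ideal.mem_span_singleton_self _
  obtain ⟨u, rfl⟩ := hμu
  exact ⟨u, by rw [hμ]; ring⟩

end LocalStructure



section Stabilizer

variable {B E G : Type*} [CommRing B] [CommRing E] [Algebra B E] [Group G]
  [MulSemiringAction G E] [SMulCommClass G B E] (Q : Ideal E) [hQ : Q.IsMaximal]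

local notation "Λ" => Localization.AtPrime Q

theorem smul_mem_iff_of_comap_eq {g : G}
    (hg : Q.comap (MulSemiringAction.toRingHom G E g) = Q) (y : E) : g • y ∈ Q ↔ y ∈ Q := by
  conv_rhs => rw [← hg]
  rfl

theorem comap_eq_of_smul_mem_iff {g : G} (h : ∀ y : E, g • y ∈ Q ↔ y ∈ Q) :
    Q.comap (MulSemiringAction.toRingHom G E g) = Q :=
  Ideal.ext fun y => h y

theorem comap_inv_eq {g : G} (hg : Q.comap (MulSemiringAction.toRingHom G E g) = Q) :
    Q.comap (MulSemiringAction.toRingHom G E g⁻¹) = Q :=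
  comap_eq_of_smul_mem_iff Q fun y => by
    rw [← smul_mem_iff_of_comap_eq Q hg (g⁻¹ • y), smul_inv_smul]

theorem comap_mul_eq {g h : G} (hg : Q.comap (MulSemiringAction.toRingHom G E g) = Q)
    (hh : Q.comap (MulSemiringAction.toRingHom G E h) = Q) :
    Q.comap (MulSemiringAction.toRingHom G E (g * h)) = Q :=
  comap_eq_of_smul_mem_iff Q fun y => by
    rw [mul_smul, smul_mem_iff_of_comap_eq Q hg, smul_mem_iff_of_comap_eq Q hh]

/-- the action of an element of the stabiliser of `Q` on the local ring `E_Q`. -/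
noncomputable def locHom (g : {g : G // Q.comap (MulSemiringAction.toRingHom G E g) = Q}) :
    Λ →+* Λ :=
  Localization.localRingHom Q Q (MulSemiringAction.toRingHom G E g.1) g.2.symm

theorem locHom_algebraMap (g : {g : G // Q.comap (MulSemiringAction.toRingHom G E g) = Q})
    (y : E) : locHom Q g (algebraMap E Λ y) = algebraMap E Λ (g.1 • y) := by
  rw [locHom, Localization.localRingHom_to_map]
  rfl

variable [IsNoetherianRing E] (x : E)

/-- every element of `E_Q` is congruent to an element of `B` modulo the generator `x`. -/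
theorem exists_residue_decomp
    (hxQ : x ∈ Q) (hloc : ∀ y ∈ Q, ∃ t, t ∉ Q ∧ ∃ w, t * y = x * w)
    (hres : ∀ y : E, ∃ b : B, y - algebraMap B E b ∈ Q) (l : Λ) :
    ∃ (b : B) (l' : Λ), l = algebraMap E Λ (algebraMap B E b) + algebraMap E Λ x * l' := by
  obtain ⟨y, t, rfl⟩ := IsLocalization.exists_mk'_eq Q.primeCompl l
  obtain ⟨t', i, hi, hti⟩ := hQ.exists_inv t.2
  obtain ⟨b, hb⟩ := hres (y * t')
  have hmap : ∀ a ∈ Q, algebraMap E Λ a ∈ maximalIdeal Λ := fun a ha => by
    rw [← IsLocalization.AtPrime.map_eq_maximalIdeal Q Λ]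
    exact Ideal.mem_map_of_mem _ ha
  have h1 : IsLocalization.mk' Λ y t - algebraMap E Λ (algebraMap B E b) ∈ maximalIdeal Λ := by
    have hspec : IsLocalization.mk' Λ y t * algebraMap E Λ t = algebraMap E Λ y :=
      IsLocalization.mk'_spec Λ y t
    have h2 : IsLocalization.mk' Λ y t - algebraMap E Λ (algebraMap B E b)
        = IsLocalization.mk' Λ y t * algebraMap E Λ i
          + algebraMap E Λ (y * t' - algebraMap B E b) := by
      have h3 : (1 : Λ) = algebraMap E Λ t' * algebraMap E Λ t + algebraMap E Λ i := by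
        rw [← map_mul, ← map_add, hti, map_one]
      calc IsLocalization.mk' Λ y t - algebraMap E Λ (algebraMap B E b)
          = IsLocalization.mk' Λ y t * 1 - algebraMap E Λ (algebraMap B E b) := by rw [mul_one]
        _ = IsLocalization.mk' Λ y t * algebraMap E Λ i
            + (IsLocalization.mk' Λ y t * algebraMap E Λ t) * algebraMap E Λ t'
            - algebraMap E Λ (algebraMap B E b) := by rw [h3]; ring
        _ = IsLocalization.mk' Λ y t * algebraMap E Λ i
            + algebraMap E Λ (y * t' - algebraMap B E b) := by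
          rw [hspec, map_sub, map_mul]; ring
    rw [h2]
    exact Ideal.add_mem _ (Ideal.mul_mem_left _ _ (hmap i hi)) (hmap _ hb)
  rw [maximalIdeal_eq_span Q x hxQ hloc, Ideal.mem_span_singleton] at h1
  obtain ⟨l', hl'⟩ := h1
  exact ⟨b, l', by rw [← hl']; ring⟩

/-- an element of the stabiliser fixing the generator of the maximal ideal acts trivially on
`E_Q` (its action is trivial on the residue field, which is covered by `B`). -/
theorem locHom_eq_self_of_fix
    (hxQ : x ∈ Q) (hloc : ∀ y ∈ Q, ∃ t, t ∉ Q ∧ ∃ w, t * y = x * w)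
    (hres : ∀ y : E, ∃ b : B, y - algebraMap B E b ∈ Q)
    (g : {g : G // Q.comap (MulSemiringAction.toRingHom G E g) = Q})
    (hgx : locHom Q g (algebraMap E Λ x) = algebraMap E Λ x) (l : Λ) : locHom Q g l = l := by
  have key : ∀ n : ℕ, ∀ l : Λ, algebraMap E Λ x ^ n ∣ locHom Q g l - l := by
    intro n
    induction n with
    | zero => intro l; simp
    | succ n ih =>
      intro l
      obtain ⟨b, l', rfl⟩ := exists_residue_decomp (B := B) Q x hxQ hloc hres l
      obtain ⟨w, hw⟩ := ih l'
      refine ⟨w, ?_⟩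
      rw [map_add, map_mul, hgx, locHom_algebraMap, smul_algebraMap, pow_succ]
      linear_combination algebraMap E Λ x * hw
  exact sub_eq_zero.mp (eq_zero_of_forall_pow_dvd Q x hxQ hloc _ fun n => key n l)

/-- **Local form of the quotient lemma.** A `G`-invariant element of `Q` is divisible, in the
local ring `E_Q`, by the `|Stab Q|`-th power of the generator of the maximal ideal. -/
theorem pow_card_dvd_of_invariant [Finite G]
    (hxQ : x ∈ Q) (hloc : ∀ y ∈ Q, ∃ t, t ∉ Q ∧ ∃ w, t * y = x * w)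
    (hreg : ∀ y, x * y = 0 → y = 0)
    (hres : ∀ y : E, ∃ b : B, y - algebraMap B E b ∈ Q)
    (hfaith : ∀ g : G, (∀ y : E, ∃ t, t ∉ Q ∧ t * (g • y - y) = 0) → g = 1)
    (z : E) (hz : ∀ g : G, g • z = z) (hzQ : z ∈ Q) :
    algebraMap E Λ x ^ Nat.card {g : G // Q.comap (MulSemiringAction.toRingHom G E g) = Q}
      ∣ algebraMap E Λ z := by
  classical
  have instD : IsDomain Λ := isDomain_localization Q x hxQ hloc hreg
  have instFt : Fintype {g : G // Q.comap (MulSemiringAction.toRingHom G E g) = Q} :=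
    Fintype.ofFinite _
  rw [Nat.card_eq_fintype_card]
  by_cases hz0 : algebraMap E Λ z = 0
  · rw [hz0]; exact dvd_zero _
  obtain ⟨e, u, hu⟩ := exists_unit_mul_pow Q x hxQ hloc _ hz0
  have hzm : algebraMap E Λ z ∈ maximalIdeal Λ := by
    rw [← IsLocalization.AtPrime.map_eq_maximalIdeal Q Λ]
    exact Ideal.mem_map_of_mem _ hzQ
  rw [maximalIdeal_eq_span Q x hxQ hloc, Ideal.mem_span_singleton] at hzm
  obtain ⟨μ, hμ⟩ := hzm
  have hcard : Fintype.card {g : G // Q.comap (MulSemiringAction.toRingHom G E g) = Q} ≤ e := by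
    refine card_le_of_fixed_dvd_pow (locHom Q) (algebraMap E Λ x) (algebraMap E Λ z) e ?_ ?_ ?_ ?_ ?_
    · -- injectivity
      intro g h hgh
      simp only [locHom_algebraMap] at hgh
      let k : {g : G // Q.comap (MulSemiringAction.toRingHom G E g) = Q} :=
        ⟨h.1⁻¹ * g.1, comap_mul_eq Q (comap_inv_eq Q h.2) g.2⟩
      have hk : locHom Q k (algebraMap E Λ x) = algebraMap E Λ x := by
        have h1 := congrArg (locHom Q ⟨h.1⁻¹, comap_inv_eq Q h.2⟩) hgh
        rw [locHom_algebraMap, locHom_algebraMap, inv_smul_smul] at h1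
        rw [locHom_algebraMap, mul_smul]
        exact h1
      have hall := locHom_eq_self_of_fix (B := B) Q x hxQ hloc hres k hk
      have hk1 : k.1 = 1 := by
        apply hfaith
        intro y
        have h2 := hall (algebraMap E Λ y)
        rw [locHom_algebraMap, ← sub_eq_zero, ← map_sub,
          IsLocalization.map_eq_zero_iff Q.primeCompl] at h2
        obtain ⟨m, hm⟩ := h2
        exact ⟨m, m.2, hm⟩
      have hgh' : h.1⁻¹ * g.1 = 1 := hk1
      exact Subtype.ext (by rw [← mul_right_inj h.1⁻¹, hgh', inv_mul_cancel])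
    · -- residue decomposition
      intro y
      obtain ⟨b, l', hbl⟩ := exists_residue_decomp (B := B) Q x hxQ hloc hres y
      exact ⟨algebraMap E Λ (algebraMap B E b), l',
        fun i => by rw [locHom_algebraMap, smul_algebraMap], hbl⟩
    · intro i
      rw [locHom_algebraMap, hz]
    · exact ⟨((u⁻¹ : Λˣ) : Λ), by rw [hu]; simp [mul_comm]⟩
    · intro y hy
      refine eq_zero_of_forall_pow_dvd Q x hxQ hloc y fun n => ?_
      refine Dvd.dvd.trans ?_ (hy n)
      rw [hμ, mul_pow]
      exact Dvd.intro _ rfl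
  exact Dvd.dvd.trans (pow_dvd_pow _ hcard) ⟨(u : Λ), by rw [hu]; ring⟩

end Stabilizer



section Main

variable {B E G : Type*} [CommRing B] [IsNoetherianRing B] [CommRing E] [Algebra B E]
  [Module.Finite B E] [Group G] [Finite G] [MulSemiringAction G E] [SMulCommClass G B E]

/-- **The quotient lemma.**  Let `E` be a finite torsion-free `B`-algebra with an action of a
finite group `G` by `B`-algebra automorphisms, such that the norm `∏ g • x` of every element of
`E` lies in `B`, every local ring of `E` at a maximal ideal is a discrete valuation ring (its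
maximal ideal is generated by a regular element) with residue field covered by `B`, and no
`g ≠ 1` acts trivially on such a local ring.  Then every maximal ideal of `B` is locally
principal: `n B_n = s B_n` for some `s ∈ n`. -/
theorem exists_local_generator
    (hinj : Function.Injective (algebraMap B E))
    (htf : ∀ (b : B) (y : E), b ≠ 0 → b • y = 0 → y = 0)
    (hnorm : ∀ x : E, ∃ b : B, algebraMap B E b = ∏ᶠ g : G, g • x)
    (hres : ∀ Q : Ideal E, Q.IsMaximal → ∀ y : E, ∃ b : B, y - algebraMap B E b ∈ Q)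
    (hdvr : ∀ Q : Ideal E, Q.IsMaximal →
      ∃ x ∈ Q, (∀ y ∈ Q, ∃ t, t ∉ Q ∧ ∃ w, t * y = x * w) ∧ ∀ y, x * y = 0 → y = 0)
    (hfaith : ∀ Q : Ideal E, Q.IsMaximal → ∀ g : G,
      (∀ y : E, ∃ t, t ∉ Q ∧ t * (g • y - y) = 0) → g = 1)
    (n : Ideal B) (hn : n.IsMaximal) :
    ∃ s ∈ n, ∀ z ∈ n, ∃ t, t ∉ n ∧ ∃ w, t * z = s * w := by
  classical
  have instF : Fintype G := Fintype.ofFinite G
  simp only [finprod_eq_prod_of_fintype] at hnorm
  have instNB : IsNoetherian B E := isNoetherian_of_isNoetherianRing_of_finite B E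
  have instN : IsNoetherianRing E := isNoetherian_of_tower B instNB
  -- a maximal ideal `Q` of `E` over `n`
  obtain ⟨Q, hQmax, hQn⟩ := Ideal.exists_ideal_over_maximal_of_isIntegral (S := E) n
    (by rw [(RingHom.injective_iff_ker_eq_bot _).mp hinj]; exact bot_le)
  obtain ⟨x, hxQ, hloc, hreg⟩ := hdvr Q hQmax
  have hgB : ∀ (g : G) (b : B), g • algebraMap B E b = algebraMap B E b :=
    fun g b => smul_algebraMap g b
  have hmapQ : n.map (algebraMap B E) ≤ Q := Ideal.map_le_iff_le_comap.mpr hQn.ge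
  -- the conjugates of `Q`
  have hprime : ∀ (M : Ideal E) [M.IsPrime] (g : G),
      (M.comap (MulSemiringAction.toRingHom G E g)).IsPrime := fun M _ g => Ideal.comap_isPrime _ _
  have hQprime : Q.IsPrime := hQmax.isPrime
  -- the generator of the maximal ideal of `E_Q`
  set π : Localization.AtPrime Q := algebraMap E (Localization.AtPrime Q) x with hπ
  have hπmem : π ∈ IsLocalRing.maximalIdeal (Localization.AtPrime Q) := by
    rw [maximalIdeal_eq_span Q x hxQ hloc]
    exact Ideal.mem_span_singleton_self _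
  have hπreg : ∀ (k : ℕ) (l : Localization.AtPrime Q), π ^ k * l = 0 → l = 0 :=
    fun k l h => algebraMap_pow_mul_eq_zero Q x hreg k l h
  -- `Q ≠ Q ^ 2`
  have hQ2 : ¬ Q ≤ Q ^ 2 := by
    intro hle
    have h1 : π ∈ IsLocalRing.maximalIdeal (Localization.AtPrime Q) ^ 2 := by
      rw [← IsLocalization.AtPrime.map_eq_maximalIdeal Q (Localization.AtPrime Q), ← Ideal.map_pow]
      exact Ideal.mem_map_of_mem _ (hle hxQ)
    rw [maximalIdeal_eq_span Q x hxQ hloc, Ideal.span_singleton_pow,
      Ideal.mem_span_singleton] at h1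
    obtain ⟨μ, hμ⟩ := h1
    have h2 : π ^ 1 * (1 - π * μ) = 0 := by
      rw [pow_one]; linear_combination hμ
    have h3 := hπreg 1 _ h2
    have h4 : IsUnit π := IsUnit.of_mul_eq_one μ (by linear_combination -h3)
    exact (IsLocalRing.mem_maximalIdeal π).mp hπmem h4
  -- the element `x₁`: a generator at `Q`, a unit at the other conjugates of `Q`
  obtain ⟨x₁, hx₁Q, hx₁2, hx₁g⟩ : ∃ x₁ ∈ Q, x₁ ∉ Q ^ 2 ∧ ∀ g : G,
      Q.comap (MulSemiringAction.toRingHom G E g) ≠ Q →
      x₁ ∉ Q.comap (MulSemiringAction.toRingHom G E g) := by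
    let f : Option G → Ideal E := fun o =>
      match o with
      | none => Q ^ 2
      | some g => Q.comap (MulSemiringAction.toRingHom G E g)
    let s : Finset (Option G) := (Finset.univ.filter fun g : G =>
      Q.comap (MulSemiringAction.toRingHom G E g) ≠ Q).image some
    have hp : ∀ i ∈ s, (f i).IsPrime := by
      intro i hi
      obtain ⟨g, -, rfl⟩ := Finset.mem_image.mp hi
      exact hprime Q g
    have hnot : ¬ ((Q : Set E) ⊆ f none ∪ f none ∪ ⋃ i ∈ (↑s : Set (Option G)), f i) := by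
      intro hsub
      rcases (Ideal.subset_union_prime' (s := s) (f := f) (a := none) (b := none) hp).mp hsub
        with h | h | ⟨i, hi, h⟩
      · exact hQ2 h
      · exact hQ2 h
      · obtain ⟨g, hg, rfl⟩ := Finset.mem_image.mp hi
        have hg' := (Finset.mem_filter.mp hg).2
        exact hg' (hQmax.eq_of_le (hprime Q g).ne_top h).symm
    rw [Set.not_subset] at hnot
    obtain ⟨x₁, hx₁, hx₁n⟩ := hnot
    refine ⟨x₁, hx₁, fun h2 => hx₁n (Or.inl (Or.inl h2)), fun g hg hmem => hx₁n (Or.inr ?_)⟩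
    rw [Set.mem_iUnion₂]
    exact ⟨some g, Finset.mem_coe.mpr (Finset.mem_image.mpr
      ⟨g, Finset.mem_filter.mpr ⟨Finset.mem_univ g, hg⟩, rfl⟩), hmem⟩
  -- its norm `S = algebraMap s`
  obtain ⟨s, hs⟩ := hnorm x₁
  set S : E := ∏ g : G, g • x₁ with hS
  have hSQ : S ∈ Q := by
    obtain ⟨d, hd⟩ := Finset.dvd_prod_of_mem (fun g : G => g • x₁) (Finset.mem_univ (1 : G))
    rw [hS, hd, one_smul]
    exact Q.mul_mem_right _ hx₁Q
  have hsn : s ∈ n := by
    rw [← hQn, Ideal.mem_comap, hs]; exact hSQ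
  -- `S` is a unit times `π ^ |Stab Q|` in `E_Q`
  have hSloc : ∃ u : (Localization.AtPrime Q)ˣ, algebraMap E (Localization.AtPrime Q) S
      = u * π ^ Nat.card {g : G // Q.comap (MulSemiringAction.toRingHom G E g) = Q} := by
    have h1 : ∀ g : {g : G // Q.comap (MulSemiringAction.toRingHom G E g) = Q},
        ∃ u : (Localization.AtPrime Q)ˣ,
          algebraMap E (Localization.AtPrime Q) (g.1 • x₁) = u * π := by
      intro g
      refine exists_unit_mul_of_notMem_sq Q x hxQ hloc
        ((smul_mem_iff_of_comap_eq Q g.2 x₁).mpr hx₁Q) fun hmem => hx₁2 ?_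
      have hle : Q ^ 2 ≤ (Q ^ 2).comap (MulSemiringAction.toRingHom G E g.1⁻¹) := by
        conv_lhs => rw [← comap_inv_eq Q g.2]
        exact Ideal.le_comap_pow _ 2
      have := hle hmem
      rwa [Ideal.mem_comap, MulSemiringAction.toRingHom_apply, inv_smul_smul] at this
    have h2 : ∀ g : {g : G // ¬ Q.comap (MulSemiringAction.toRingHom G E g) = Q},
        ∃ v : (Localization.AtPrime Q)ˣ,
          algebraMap E (Localization.AtPrime Q) (g.1 • x₁) = v := by
      intro g
      have hnot : g.1 • x₁ ∉ Q := hx₁g g.1 g.2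
      exact (IsLocalization.map_units (Localization.AtPrime Q)
        (⟨g.1 • x₁, hnot⟩ : Q.primeCompl)).exists_left_inv.elim fun w hw =>
          ⟨⟨_, w, by rw [mul_comm]; exact hw, hw⟩, rfl⟩
    choose u hu using h1
    choose v hv using h2
    refine ⟨(∏ g, u g) * ∏ g, v g, ?_⟩
    rw [hS, map_prod, ← Fintype.prod_subtype_mul_prod_subtype
      (fun g : G => Q.comap (MulSemiringAction.toRingHom G E g) = Q)
      (fun g : G => algebraMap E (Localization.AtPrime Q) (g • x₁))]
    simp only [hu, hv, Finset.prod_mul_distrib, Finset.prod_const, Finset.card_univ,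
      Nat.card_eq_fintype_card, Units.val_mul, Units.coe_prod]
    ring
  obtain ⟨uS, huS⟩ := hSloc
  -- `S` is regular on `E`
  have hs0 : s ≠ 0 := by
    rintro rfl
    rw [map_zero] at hs
    rw [← hs, map_zero] at huS
    exact uS.ne_zero (hπreg _ _ (by rw [mul_comm]; exact huS.symm))
  have hSreg : ∀ a : E, S * a = 0 → a = 0 := by
    intro a ha
    refine htf s a hs0 ?_
    rw [Algebra.smul_def, hs]; exact ha
  have hgS : ∀ g : G, g • S = S := fun g => by rw [← hs]; exact hgB g s
  -- local divisibility at `Q` of the invariant elements of `Q`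
  have hdiv : ∀ z : E, (∀ g : G, g • z = z) → z ∈ Q → ∃ c, c ∉ Q ∧ ∃ w, c * z = S * w := by
    intro z hz hzQ
    obtain ⟨μ, hμ⟩ := pow_card_dvd_of_invariant (B := B) Q x hxQ hloc hreg (hres Q hQmax)
      (hfaith Q hQmax) z hz hzQ
    obtain ⟨w, t₁, hwt⟩ := IsLocalization.exists_mk'_eq Q.primeCompl (((uS⁻¹ : _ˣ) : _) * μ)
    have h1 : algebraMap E (Localization.AtPrime Q) z * algebraMap E (Localization.AtPrime Q) t₁
        = algebraMap E (Localization.AtPrime Q) (S * w) := by
      have hspec := IsLocalization.mk'_spec (Localization.AtPrime Q) w t₁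
      rw [hwt] at hspec
      rw [map_mul, ← hspec, huS, hμ]
      have : (uS : Localization.AtPrime Q) * ((uS⁻¹ : _ˣ) : Localization.AtPrime Q) = 1 :=
        Units.mul_inv uS
      linear_combination (-(π ^ Nat.card {g : G // Q.comap (MulSemiringAction.toRingHom G E g) = Q}
        * μ * algebraMap E (Localization.AtPrime Q) t₁)) * this
    rw [← map_mul, IsLocalization.eq_iff_exists Q.primeCompl] at h1
    obtain ⟨c₀, hc₀⟩ := h1
    refine ⟨c₀ * t₁, fun hmem => (hQprime.mem_or_mem hmem).elim c₀.2 t₁.2, c₀ * w, ?_⟩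
    linear_combination hc₀
  -- transitivity: every maximal ideal over `n` is conjugate to `Q`
  have htrans : ∀ M : Ideal E, M.IsMaximal → M.comap (algebraMap B E) = n →
      ∃ g : G, M.comap (MulSemiringAction.toRingHom G E g) = Q := by
    intro M hMmax hMn
    by_contra hcon
    push Not at hcon
    have hMprime : M.IsPrime := hMmax.isPrime
    have hnot : ¬ ((Q : Set E) ⊆ ⋃ g ∈ ((Finset.univ : Finset G) : Set G),
        M.comap (MulSemiringAction.toRingHom G E g)) := by
      rw [Ideal.subset_union_prime (1 : G) (1 : G) (fun g _ _ _ => hprime M g)]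
      rintro ⟨g, -, hle⟩
      exact hcon g (hQmax.eq_of_le (hprime M g).ne_top hle).symm
    rw [Set.not_subset] at hnot
    obtain ⟨y, hyQ, hyn⟩ := hnot
    obtain ⟨b, hb⟩ := hnorm y
    have hyN : ∏ g : G, g • y ∈ Q := by
      obtain ⟨d, hd⟩ := Finset.dvd_prod_of_mem (fun g : G => g • y) (Finset.mem_univ (1 : G))
      rw [hd, one_smul]
      exact Q.mul_mem_right _ hyQ
    have hbn : b ∈ n := by rw [← hQn, Ideal.mem_comap, hb]; exact hyN
    have hbM : ∏ g : G, g • y ∈ M := by
      rw [← hb, ← Ideal.mem_comap, hMn]; exact hbn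
    rw [Ideal.IsPrime.prod_mem_iff] at hbM
    obtain ⟨g, -, hg⟩ := hbM
    refine hyn ?_
    rw [Set.mem_iUnion₂]
    exact ⟨g, Finset.mem_coe.mpr (Finset.mem_univ g), hg⟩
  -- `n E` is `G`-stable
  have hmapG : ∀ (g : G) (ν : E), ν ∈ n.map (algebraMap B E) → g • ν ∈ n.map (algebraMap B E) := by
    intro g ν hν
    have hle : n.map (algebraMap B E)
        ≤ (n.map (algebraMap B E)).comap (MulSemiringAction.toRingHom G E g) := by
      rw [Ideal.map_le_iff_le_comap]
      intro b hb
      rw [Ideal.mem_comap, Ideal.mem_comap, MulSemiringAction.toRingHom_apply, hgB]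
      exact Ideal.mem_map_of_mem _ hb
    exact hle hν
  -- from local to global divisibility
  have hstep4 : ∀ z : E, (∀ g : G, g • z = z) → z ∈ Q →
      ∃ t : B, t ∉ n ∧ ∃ y : E, (∀ g : G, g • y = y) ∧ algebraMap B E t * z = S * y := by
    intro z hz hzQ
    let I : Ideal E :=
      { carrier := {c | ∃ w, c * z = S * w}
        add_mem' := by
          rintro a b ⟨w, hw⟩ ⟨w', hw'⟩
          exact ⟨w + w', by rw [add_mul, hw, hw', mul_add]⟩
        zero_mem' := ⟨0, by simp⟩
        smul_mem' := by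
          rintro c a ⟨w, hw⟩
          exact ⟨c * w, by rw [smul_eq_mul, mul_assoc, hw]; ring⟩ }
    have hImem : ∀ c : E, c ∈ I ↔ ∃ w, c * z = S * w := fun c => Iff.rfl
    have hIG : ∀ (g : G) (c : E), c ∈ I → g • c ∈ I := by
      rintro g c ⟨w, hw⟩
      refine ⟨g • w, ?_⟩
      have := congrArg (fun e => g • e) hw
      simp only [smul_mul', hz g, hgS g] at this
      exact this
    have hInQ : ¬ I ≤ Q := by
      obtain ⟨c, hcQ, w, hw⟩ := hdiv z hz hzQ
      exact fun hle => hcQ (hle ⟨w, hw⟩)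
    have htop : I ⊔ n.map (algebraMap B E) = ⊤ := by
      by_contra hne
      obtain ⟨M, hMmax, hle⟩ := Ideal.exists_le_maximal _ hne
      have hMn : M.comap (algebraMap B E) = n :=
        (hn.eq_of_le (Ideal.comap_ne_top _ hMmax.ne_top)
          (Ideal.map_le_iff_le_comap.mp (le_sup_right.trans hle))).symm
      obtain ⟨g, hg⟩ := htrans M hMmax hMn
      refine hInQ fun c hc => ?_
      rw [← hg, Ideal.mem_comap, MulSemiringAction.toRingHom_apply]
      exact hle (Ideal.mem_sup_left (hIG g c hc))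
    obtain ⟨c, hcI, ν, hν, hcν⟩ := Submodule.mem_sup.mp ((Ideal.eq_top_iff_one _).mp htop)
    obtain ⟨t, ht⟩ := hnorm c
    have hNI : ∏ g : G, g • c ∈ I := by
      obtain ⟨d, hd⟩ := Finset.dvd_prod_of_mem (fun g : G => g • c) (Finset.mem_univ (1 : G))
      rw [hd, one_smul]
      exact I.mul_mem_right _ hcI
    have htn : t ∉ n := by
      intro htn
      have h1 : algebraMap B E t ∈ n.map (algebraMap B E) := Ideal.mem_map_of_mem _ htn
      have h2 : Ideal.Quotient.mk (n.map (algebraMap B E)) (∏ g : G, g • c) = 1 := by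
        rw [map_prod]
        refine Finset.prod_eq_one fun g _ => ?_
        rw [← map_one (Ideal.Quotient.mk (n.map (algebraMap B E))), Ideal.Quotient.eq]
        have : g • c - 1 = -(g • ν) := by
          have h3 : c = 1 - ν := by rw [← hcν]; ring
          rw [h3, smul_sub, smul_one]; ring
        rw [this]
        exact neg_mem (hmapG g ν hν)
      rw [← ht, ← map_one (Ideal.Quotient.mk (n.map (algebraMap B E))), Ideal.Quotient.eq] at h2
      have h3 : (1 : E) ∈ n.map (algebraMap B E) := by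
        have := Ideal.sub_mem _ h1 h2
        simpa using this
      exact hQmax.ne_top ((Ideal.eq_top_iff_one _).mpr (hmapQ h3))
    obtain ⟨y, hy⟩ := hNI
    rw [← ht] at hy
    refine ⟨t, htn, y, fun g => ?_, hy⟩
    have h1 := congrArg (fun e => g • e) hy
    simp only [smul_mul', hz g, hgS g, hgB g t] at h1
    exact sub_eq_zero.mp (hSreg _ (by rw [mul_sub, ← h1, hy, sub_self]))
  -- Nakayama: the invariants are contained in `B` after localising at `n`
  let M : Submodule B E :=
    { carrier := {y | ∀ g : G, g • y = y}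
      add_mem' := fun {a b} ha hb g => by rw [smul_add, ha g, hb g]
      zero_mem' := fun g => smul_zero g
      smul_mem' := fun c a ha g => by rw [smul_comm, ha g] }
  have hMmem : ∀ y : E, y ∈ M ↔ ∀ g : G, g • y = y := fun y => Iff.rfl
  let B' : Submodule B E := LinearMap.range (Algebra.linearMap B E)
  have hfg : (M.map B'.mkQ).FG := (IsNoetherian.noetherian M).map _
  have hin : M.map B'.mkQ ≤ n • M.map B'.mkQ := by
    rw [← Submodule.map_smul'']
    rintro _ ⟨y, hy, rfl⟩
    obtain ⟨b, hb⟩ := hres Q hQmax y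
    have hzM : y - algebraMap B E b ∈ M := fun g => by rw [smul_sub, hy g, hgB]
    obtain ⟨t, htn, y', hy', hty⟩ := hstep4 _ hzM hb
    obtain ⟨c, i, hi, hci⟩ := hn.exists_inv htn
    have hz : y - algebraMap B E b = (c * s) • y' + i • (y - algebraMap B E b) := by
      rw [Algebra.smul_def, Algebra.smul_def, map_mul, hs, mul_assoc, ← hty, ← mul_assoc,
        ← map_mul, ← add_mul, ← map_add, hci, map_one, one_mul]
    refine ⟨y - algebraMap B E b, ?_, ?_⟩
    · rw [hz]
      exact add_mem (Submodule.smul_mem_smul (n.mul_mem_left c hsn) hy')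
        (Submodule.smul_mem_smul hi hzM)
    · rw [map_sub, sub_eq_self]
      exact (Submodule.Quotient.mk_eq_zero B').mpr ⟨b, rfl⟩
  obtain ⟨r, hr1, hr⟩ :=
    Submodule.exists_sub_one_mem_and_smul_eq_zero_of_fg_of_le_smul n _ hfg hin
  have hrn : r ∉ n := by
    intro h
    have := n.sub_mem h hr1
    rw [sub_sub_cancel] at this
    exact hn.ne_top ((Ideal.eq_top_iff_one _).mpr this)
  have hrM : ∀ y ∈ M, ∃ w : B, algebraMap B E w = r • y := by
    intro y hy
    have h1 := hr (B'.mkQ y) ⟨y, hy, rfl⟩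
    rw [← map_smul, Submodule.mkQ_apply, Submodule.Quotient.mk_eq_zero] at h1
    obtain ⟨w, hw⟩ := h1
    exact ⟨w, hw⟩
  -- conclusion
  refine ⟨s, hsn, fun z hz => ?_⟩
  have hZQ : algebraMap B E z ∈ Q := by
    rw [← Ideal.mem_comap, hQn]; exact hz
  obtain ⟨t, htn, y, hy, hty⟩ := hstep4 (algebraMap B E z) (fun g => hgB g z) hZQ
  obtain ⟨w, hw⟩ := hrM y hy
  refine ⟨r * t, fun hmem => (hn.isPrime.mem_or_mem hmem).elim hrn htn, w, hinj ?_⟩
  rw [map_mul, map_mul, map_mul, mul_assoc, hty, hs, hw, Algebra.smul_def]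
  ring

end Main



section Corollaries

variable {B E G : Type*} [CommRing B] [IsDomain B] [IsNoetherianRing B] [CommRing E] [Algebra B E]
  [Module.Finite B E] [Group G] [Finite G] [MulSemiringAction G E] [SMulCommClass G B E]

/-- **The quotient lemma, DVR form**: under the hypotheses of `exists_local_generator`, the
localisation of `B` at every nonzero maximal ideal is a discrete valuation ring. -/
theorem isDiscreteValuationRing_localization
    (hinj : Function.Injective (algebraMap B E))
    (htf : ∀ (b : B) (y : E), b ≠ 0 → b • y = 0 → y = 0)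
    (hnorm : ∀ x : E, ∃ b : B, algebraMap B E b = ∏ᶠ g : G, g • x)
    (hres : ∀ Q : Ideal E, Q.IsMaximal → ∀ y : E, ∃ b : B, y - algebraMap B E b ∈ Q)
    (hdvr : ∀ Q : Ideal E, Q.IsMaximal →
      ∃ x ∈ Q, (∀ y ∈ Q, ∃ t, t ∉ Q ∧ ∃ w, t * y = x * w) ∧ ∀ y, x * y = 0 → y = 0)
    (hfaith : ∀ Q : Ideal E, Q.IsMaximal → ∀ g : G,
      (∀ y : E, ∃ t, t ∉ Q ∧ t * (g • y - y) = 0) → g = 1)
    (n : Ideal B) [hn : n.IsMaximal] (hn0 : n ≠ ⊥) :
    IsDiscreteValuationRing (Localization.AtPrime n) := by
  obtain ⟨s, hsn, hs⟩ := exists_local_generator hinj htf hnorm hres hdvr hfaith n hn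
  have hmax := maximalIdeal_eq_span n s hsn hs
  have hnf : ¬ IsField (Localization.AtPrime n) := IsLocalization.AtPrime.not_isField B hn0 _
  have hprin : (maximalIdeal (Localization.AtPrime n)).IsPrincipal := ⟨⟨_, hmax⟩⟩
  exact ((IsDiscreteValuationRing.TFAE (Localization.AtPrime n) hnf).out 0 4).mpr hprin

/-- **The quotient lemma, Dedekind form**: under the hypotheses of `exists_local_generator`, a
one-dimensional `B` is a Dedekind domain. -/
theorem isDedekindDomain_of_cover [Ring.DimensionLEOne B]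
    (hinj : Function.Injective (algebraMap B E))
    (htf : ∀ (b : B) (y : E), b ≠ 0 → b • y = 0 → y = 0)
    (hnorm : ∀ x : E, ∃ b : B, algebraMap B E b = ∏ᶠ g : G, g • x)
    (hres : ∀ Q : Ideal E, Q.IsMaximal → ∀ y : E, ∃ b : B, y - algebraMap B E b ∈ Q)
    (hdvr : ∀ Q : Ideal E, Q.IsMaximal →
      ∃ x ∈ Q, (∀ y ∈ Q, ∃ t, t ∉ Q ∧ ∃ w, t * y = x * w) ∧ ∀ y, x * y = 0 → y = 0)
    (hfaith : ∀ Q : Ideal E, Q.IsMaximal → ∀ g : G,
      (∀ y : E, ∃ t, t ∉ Q ∧ t * (g • y - y) = 0) → g = 1) :
    IsDedekindDomain B := by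
  have : IsDedekindDomainDvr B :=
    { toIsNoetherian := inferInstance
      is_dvr_at_nonzero_prime := fun P hP0 hP => by
        have hmax : P.IsMaximal := Ring.DimensionLEOne.maximalOfPrime hP0 hP
        exact isDiscreteValuationRing_localization hinj htf hnorm hres hdvr hfaith P hP0 }
  infer_instance

end Corollaries


end Fermat.Agent.S18.Quotient
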