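import Mathlib

/-!
# S18: separability from a derivation

Let `k` be a perfect field of characteristic `ℓ`, `K = k(x)` a purely transcendental extension and
`F / K` a field extension carrying a `k`-derivation `D` with `D x ≠ 0`.  Then every element of `F`
algebraic over `K` is separable over `K` (`isSeparable_of_derivation`).

Proof: normalise `D x = 1`, so that `D` preserves `K` and the `D`-constants of `K` are the `ℓ`-th
powers.  If the minimal polynomial `P` of `y` were inseparable, then `P' = 0`, and applying `D` to
`P(y) = 0` gives `P^D(y) = 0` with `deg P^D < deg P`; hence all coefficients of `P` are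
`D`-constants, `P` is an `ℓ`-th power, contradicting irreducibility.
-/

namespace Fermat.Agent.S18.SepDeriv

open Polynomial IntermediateField

section Poly

variable {k : Type*} [Field k] (ℓ : ℕ) [hℓ : Fact ℓ.Prime] [CharP k ℓ]

/-- If `P' = 0` and all coefficients of `P` are `ℓ`-th powers, then `P` is an `ℓ`-th power. -/
theorem exists_pow_eq_of_coeff (P : k[X]) (hP : derivative P = 0)
    (hc : ∀ i, ∃ b : k, b ^ ℓ = P.coeff i) : ∃ R : k[X], R ^ ℓ = P := by
  classical
  have : ExpChar k ℓ := ExpChar.prime hℓ.out
  have h1 : expand k ℓ (contract ℓ P) = P := expand_contract ℓ hP hℓ.out.ne_zero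
  choose b hb using hc
  set Q := contract ℓ P with hQ
  set R : k[X] := ∑ i ∈ Q.support, monomial i (b (i * ℓ)) with hR
  have hmap : R.map (frobenius k ℓ) = Q := by
    rw [hR, Polynomial.map_sum]
    conv_rhs => rw [Q.as_sum_support]
    refine Finset.sum_congr rfl fun i _ => ?_
    rw [map_monomial, frobenius_def, hb, hQ, coeff_contract hℓ.out.ne_zero]
  refine ⟨R, ?_⟩
  rw [← map_frobenius_expand, map_expand, hmap, h1]

/-- Over a perfect field of characteristic `ℓ`, a polynomial with zero derivative is an `ℓ`-th
power. -/
theorem exists_pow_eq_of_derivative_eq_zero [PerfectField k] (h : k[X])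
    (hh : derivative h = 0) : ∃ g : k[X], g ^ ℓ = h := by
  have : ExpChar k ℓ := ExpChar.prime hℓ.out
  refine exists_pow_eq_of_coeff ℓ h hh fun i => ?_
  obtain ⟨b, hb⟩ := surjective_frobenius k ℓ (h.coeff i)
  exact ⟨b, by rwa [frobenius_def] at hb⟩

end Poly

section Main

variable {k K F : Type*} [Field k] [Field K] [Field F] [Algebra k K] [Algebra K F] [Algebra k F]
  [IsScalarTower k K F] (D : Derivation k F F) (x : K)

omit [Field F] [Algebra K F] [Algebra k F] [IsScalarTower k K F] in
/-- elements of `K = k(x)` are quotients of polynomials in `x` -/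
theorem exists_aeval_div (hgen : adjoin k {x} = ⊤) (c : K) :
    ∃ f g : k[X], c = aeval x f / aeval x g := by
  have hc : c ∈ k⟮x⟯ := by rw [hgen]; exact mem_top
  exact (mem_adjoin_simple_iff k c).mp hc

/-- a derivation with `D x = 1` preserves `K = k(x)` -/
theorem exists_map_algebraMap_eq (hgen : adjoin k {x} = ⊤)
    (hx1 : D (algebraMap K F x) = 1) (c : K) :
    ∃ c' : K, D (algebraMap K F c) = algebraMap K F c' := by
  obtain ⟨f, g, rfl⟩ := exists_aeval_div x hgen c
  refine ⟨(aeval x g)⁻¹ ^ 2 *
    (aeval x g * aeval x (derivative f) - aeval x f * aeval x (derivative g)), ?_⟩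
  rw [map_div₀, ← aeval_algebraMap_apply, ← aeval_algebraMap_apply, Derivation.leibniz_div,
    Derivation.map_aeval, Derivation.map_aeval, hx1]
  simp only [smul_eq_mul, mul_one, map_mul, map_sub, map_pow, map_inv₀, aeval_algebraMap_apply]

/-- the constants of a derivation with `D x = 1` in `K = k(x)` are `ℓ`-th powers -/
theorem exists_pow_eq_of_map_eq_zero (ℓ : ℕ) [hℓ : Fact ℓ.Prime] [CharP k ℓ] [PerfectField k]
    (hgen : adjoin k {x} = ⊤) (hxt : Transcendental k x)
    (hx1 : D (algebraMap K F x) = 1) (c : K) (hc : D (algebraMap K F c) = 0) :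
    ∃ b : K, b ^ ℓ = c := by
  have : CharP F ℓ := charP_of_injective_algebraMap (algebraMap k F).injective ℓ
  obtain ⟨f, g, rfl⟩ := exists_aeval_div x hgen c
  by_cases hg : aeval x g = 0
  · exact ⟨0, by rw [hg, div_zero, zero_pow hℓ.out.ne_zero]⟩
  set h := f * g ^ (ℓ - 1) with hh
  have hℓ1 : ℓ - 1 + 1 = ℓ := Nat.sub_add_cancel hℓ.out.pos
  have e1 : aeval x h = (aeval x f / aeval x g) * aeval x g ^ ℓ := by
    rw [hh, map_mul, map_pow]
    conv_rhs => rw [← hℓ1, pow_succ]
    field_simp
  have e2 : D (algebraMap K F (aeval x h)) = 0 := by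
    rw [e1, map_mul, map_pow, Derivation.leibniz, hc, Derivation.leibniz_pow, smul_zero, add_zero,
      ← Nat.cast_smul_eq_nsmul F, CharP.cast_eq_zero F ℓ, zero_smul, smul_zero]
  have e3 : aeval x (derivative h) = 0 := by
    have h3 := D.map_aeval h (algebraMap K F x)
    rw [aeval_algebraMap_apply, e2, hx1, smul_eq_mul, mul_one, aeval_algebraMap_apply] at h3
    exact (algebraMap K F).injective (by rw [map_zero]; exact h3.symm)
  have e4 : derivative h = 0 := transcendental_iff.mp hxt _ e3
  obtain ⟨h₁, hh₁⟩ := exists_pow_eq_of_derivative_eq_zero ℓ h e4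
  refine ⟨aeval x h₁ / aeval x g, ?_⟩
  rw [div_pow, ← map_pow, hh₁, e1]
  field_simp

/-- **Separability from a derivation**, normalised form `D x = 1`. -/
theorem isSeparable_of_derivation_one (ℓ : ℕ) [hℓ : Fact ℓ.Prime] [CharP k ℓ] [PerfectField k]
    (hgen : adjoin k {x} = ⊤) (hxt : Transcendental k x)
    (hx1 : D (algebraMap K F x) = 1) (y : F) (hy : IsIntegral K y) : IsSeparable K y := by
  classical
  have : CharP K ℓ := charP_of_injective_algebraMap (algebraMap k K).injective ℓ
  rw [IsSeparable]
  set P := minpoly K y with hP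
  have hirr : Irreducible P := minpoly.irreducible hy
  by_contra hsep
  have hder : derivative P = 0 := by
    by_contra h
    exact hsep ((separable_iff_derivative_ne_zero hirr).mpr h)
  choose dK hdK using exists_map_algebraMap_eq D x hgen hx1
  have hinj : Function.Injective (algebraMap K F) := (algebraMap K F).injective
  have hdK0 : dK 0 = 0 := hinj (by rw [← hdK]; simp)
  have hdK1 : dK 1 = 0 := hinj (by rw [← hdK]; simp)
  set n := P.natDegree with hn
  set PD : K[X] := ∑ i ∈ Finset.range (n + 1), monomial i (dK (P.coeff i)) with hPD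
  have hzero : aeval y PD = 0 := by
    have h0 : D (aeval y P) = 0 := by rw [hP, minpoly.aeval, map_zero]
    rw [aeval_eq_sum_range, map_sum] at h0
    rw [hPD, map_sum, ← h0]
    refine Finset.sum_congr rfl fun i _ => ?_
    rw [aeval_monomial, ← hdK, Algebra.smul_def, Derivation.leibniz, Derivation.leibniz_pow]
    have hci : algebraMap K F (P.coeff i) * (i : F) = 0 := by
      rcases Nat.eq_zero_or_pos i with rfl | hi
      · simp
      · have h1 := congrArg (fun q => q.coeff (i - 1)) hder
        simp only [coeff_derivative, coeff_zero] at h1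
        rw [Nat.sub_add_cancel hi] at h1
        have h2 : ((i - 1 : ℕ) : K) + 1 = (i : K) := by
          rw [← Nat.cast_add_one, Nat.sub_add_cancel hi]
        rw [h2] at h1
        rw [← map_natCast (algebraMap K F) i, ← map_mul, h1, map_zero]
    have hterm : algebraMap K F (P.coeff i) • (i • y ^ (i - 1) • D y) = 0 := by
      rw [← Nat.cast_smul_eq_nsmul F, smul_smul, hci, zero_smul]
    rw [hterm, zero_add, smul_eq_mul, mul_comm]
  have hcoefPD : ∀ m, PD.coeff m = if m < n + 1 then dK (P.coeff m) else 0 := by
    intro m
    rw [hPD, finsetSum_coeff]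
    simp only [coeff_monomial]
    rw [Finset.sum_ite_eq' (Finset.range (n + 1)) m]
    simp only [Finset.mem_range]
  have hmonic : P.coeff n = 1 := (minpoly.monic hy).coeff_natDegree
  have hdeg : PD.degree < n := by
    rw [degree_lt_iff_coeff_zero]
    intro m hm
    rw [hcoefPD]
    split_ifs with h
    · have hmn : m = n := by omega
      rw [hmn, hmonic, hdK1]
    · rfl
  have hPD0 : PD = 0 := by
    by_contra hne
    have h1 := minpoly.degree_le_of_ne_zero K y hne hzero
    rw [← hP, degree_eq_natDegree hirr.ne_zero] at h1
    exact absurd (lt_of_le_of_lt h1 hdeg) (lt_irrefl _)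
  have hcoef : ∀ i, dK (P.coeff i) = 0 := by
    intro i
    by_cases hi : i < n + 1
    · have h1 := hcoefPD i
      rw [if_pos hi, hPD0, coeff_zero] at h1
      exact h1.symm
    · rw [coeff_eq_zero_of_natDegree_lt (by omega), hdK0]
  have hpow : ∀ i, ∃ b : K, b ^ ℓ = P.coeff i := fun i =>
    exists_pow_eq_of_map_eq_zero D x ℓ hgen hxt hx1 (P.coeff i) (by rw [hdK, hcoef, map_zero])
  obtain ⟨R, hR⟩ := exists_pow_eq_of_coeff ℓ P hder hpow
  rw [← hR] at hirr
  exact not_irreducible_pow hℓ.out.ne_one hirr

/-- **Separability from a derivation.**  `k` perfect of characteristic `ℓ`, `K = k(x)` with `x`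
transcendental over `k`, `D` a `k`-derivation of `F ⊇ K` with `D x ≠ 0`: every element of `F`
integral (= algebraic) over `K` is separable over `K`. -/
theorem isSeparable_of_derivation (ℓ : ℕ) [hℓ : Fact ℓ.Prime] [CharP k ℓ] [PerfectField k]
    (hgen : adjoin k {x} = ⊤) (hxt : Transcendental k x)
    (hx : D (algebraMap K F x) ≠ 0) (y : F) (hy : IsIntegral K y) : IsSeparable K y := by
  refine isSeparable_of_derivation_one ((D (algebraMap K F x))⁻¹ • D) x ℓ hgen hxt ?_ y hy
  rw [Derivation.smul_apply, smul_eq_mul, inv_mul_cancel₀ hx]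

/-- Algebraic-extension form. -/
theorem algebra_isSeparable_of_derivation (ℓ : ℕ) [hℓ : Fact ℓ.Prime] [CharP k ℓ] [PerfectField k]
    (hgen : adjoin k {x} = ⊤) (hxt : Transcendental k x)
    (hx : D (algebraMap K F x) ≠ 0) [Algebra.IsAlgebraic K F] : Algebra.IsSeparable K F :=
  ⟨fun y => isSeparable_of_derivation D x ℓ hgen hxt hx y (Algebra.IsIntegral.isIntegral y)⟩

omit [Field K] [Algebra k K] [Algebra K F] [IsScalarTower k K F] in
/-- Over a perfect field of constants, an element with nonzero derivative is transcendental. -/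
theorem transcendental_of_derivation_ne_zero [PerfectField k] (z : F) (hz : D z ≠ 0) :
    Transcendental k z := by
  intro halg
  have hint : IsIntegral k z := halg.isIntegral
  have hsep : (minpoly k z).Separable :=
    PerfectField.separable_of_irreducible (minpoly.irreducible hint)
  have h0 : D (aeval z (minpoly k z)) = 0 := by rw [minpoly.aeval, map_zero]
  rw [Derivation.map_aeval, smul_eq_mul] at h0
  rcases mul_eq_zero.mp h0 with h | h
  · exact hsep.aeval_derivative_ne_zero (minpoly.aeval k z) h
  · exact hz h

/-- **Separability from a derivation**, any characteristic, no transcendence hypothesis: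
`k` perfect, `K = k(x)`, `D` a `k`-derivation of `F ⊇ K` with `D x ≠ 0`; every element of `F`
integral over `K` is separable over `K`. -/
theorem isSeparable_of_derivation_of_perfect [PerfectField k] (hgen : adjoin k {x} = ⊤)
    (hx : D (algebraMap K F x) ≠ 0) (y : F) (hy : IsIntegral K y) : IsSeparable K y := by
  obtain ⟨p, hp⟩ := CharP.exists k
  rcases CharP.char_is_prime_or_zero k p with h | h
  · have : Fact p.Prime := ⟨h⟩
    have hxt : Transcendental k x :=
      (transcendental_algebraMap_iff (algebraMap K F).injective).mp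
        (transcendental_of_derivation_ne_zero D (algebraMap K F x) hx)
    exact isSeparable_of_derivation D x p hgen hxt hx y hy
  · subst h
    have : CharZero k := CharP.charP_to_charZero k
    have : CharZero K := charZero_of_injective_algebraMap (algebraMap k K).injective
    exact (minpoly.irreducible hy).separable

/-- Algebraic-extension form, any characteristic. -/
theorem algebra_isSeparable_of_derivation_of_perfect [PerfectField k]
    (hgen : adjoin k {x} = ⊤) (hx : D (algebraMap K F x) ≠ 0) [Algebra.IsAlgebraic K F] :
    Algebra.IsSeparable K F :=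
  ⟨fun y => isSeparable_of_derivation_of_perfect D x hgen hx y (Algebra.IsIntegral.isIntegral y)⟩

end Main

section Leibniz

variable {k K F : Type*} [Field k] [Field K] [Field F] [Algebra k K] [Algebra K F] [Algebra k F]
  [IsScalarTower k K F]

/-- An additive map satisfying the Leibniz rule and killing the constants, as a derivation (the
module structures are the ones coming from `Algebra k F`). -/
def ofLeibniz (D : F → F) (hadd : ∀ a b, D (a + b) = D a + D b)
    (hmul : ∀ a b, D (a * b) = a * D b + b * D a) (hk : ∀ c : k, D (algebraMap k F c) = 0) :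
    Derivation k F F where
  toFun := D
  map_add' := hadd
  map_smul' := fun c f => by
    rw [RingHom.id_apply, Algebra.smul_def, hmul, hk, mul_zero, add_zero, Algebra.smul_def]
  map_one_eq_zero' := by
    have h := hk 1
    rwa [map_one] at h
  leibniz' := fun a b => by
    rw [smul_eq_mul, smul_eq_mul]
    exact hmul a b

theorem ofLeibniz_apply (D : F → F) (hadd : ∀ a b, D (a + b) = D a + D b)
    (hmul : ∀ a b, D (a * b) = a * D b + b * D a) (hk : ∀ c : k, D (algebraMap k F c) = 0)
    (a : F) : ofLeibniz D hadd hmul hk a = D a := rfl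

/-- **Separability from a Leibniz map** (instance-robust form of
`isSeparable_of_derivation_of_perfect`): `k` perfect, `K = k(x)`, `D : F → F` additive with the
Leibniz rule, zero on `k`, and `D x ≠ 0`; every element of `F` integral over `K` is separable
over `K`. -/
theorem isSeparable_of_leibniz [PerfectField k] (D : F → F)
    (hadd : ∀ a b, D (a + b) = D a + D b) (hmul : ∀ a b, D (a * b) = a * D b + b * D a)
    (hk : ∀ c : k, D (algebraMap k F c) = 0) (x : K) (hgen : adjoin k {x} = ⊤)
    (hx : D (algebraMap K F x) ≠ 0) (y : F) (hy : IsIntegral K y) : IsSeparable K y :=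
  isSeparable_of_derivation_of_perfect (ofLeibniz D hadd hmul hk) x hgen hx y hy

/-- a Leibniz map zero on a perfect field of constants: nonzero derivative implies
transcendental -/
theorem transcendental_of_leibniz [PerfectField k] (D : F → F)
    (hadd : ∀ a b, D (a + b) = D a + D b) (hmul : ∀ a b, D (a * b) = a * D b + b * D a)
    (hk : ∀ c : k, D (algebraMap k F c) = 0) (z : F) (hz : D z ≠ 0) : Transcendental k z :=
  transcendental_of_derivation_ne_zero (ofLeibniz D hadd hmul hk) z hz

end Leibniz

end Fermat.Agent.S18.SepDeriv
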