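import Mathlib
import Fermat.Agent.S18.PthRoot

/-!
# S18, Step 5 (pure algebra): the abstract patching contradiction

`A` is a domain (in the application: the valuation ring of `ℚ̄` over `ℓ`), `F` a field containing
`A`, `π ∈ A` an element such that every nonzero `c : A` divides a power of `π` (rank one).
`BU, BV ≤ BUV` are `A`-subalgebras of `F` (the two charts and their intersection) and
`MU, MV ≤ MUV` are `A`-submodules of `F` stable under `BU, BV, BUV` (sections of `O(D)`).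

If `a ∈ MU`, `a' ∈ MV` satisfy `a ^ p w ≡ 1 mod π BU`, `a' ^ p w ≡ 1 mod π BV`
(`p` a unit of `A`), `s a = b a'` with `s, b ≡ 1 mod π BUV`, if `MU ∩ MV = 0`, and if the
`A`-torsion of `MUV / (MU + MV)` is killed by a single `c₀ ≠ 0`, then `a ∈ π MU`.

This is the whole of Step 5 of the S18 route ("Hensel modulo `c` + formal functions by hand"):
no completions, no Kummer algebra, no cohomology.
-/

namespace Fermat.Agent.S18.Step5Abs

open Fermat.Agent.S18.PthRoot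

variable {A F : Type*} [CommRing A] [Field F] [Algebra A F]

/-- Newton iteration inside a subalgebra. -/
theorem newton_sub (S : Subalgebra A F) (p : ℕ) (hp : IsUnit (p : A)) (π : A) (β b : F)
    (hb : b ∈ S) (hβ : β = 1 + algebraMap A F π * b) (n : ℕ) :
    ∃ x y z : F, x ∈ S ∧ y ∈ S ∧ z ∈ S ∧ x = 1 + algebraMap A F π * y ∧
      x ^ p * β = 1 + algebraMap A F π ^ (n + 1) * z := by
  have hpS : IsUnit ((p : ℕ) : S) := by
    have := hp.map (algebraMap A S)
    simpa using this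
  have hβS : β ∈ S := by
    rw [hβ]
    exact S.add_mem S.one_mem (S.mul_mem (S.algebraMap_mem π) hb)
  obtain ⟨x, y, z, hx, hxz⟩ := exists_newton (R := S) p hpS (algebraMap A S π) ⟨β, hβS⟩ ⟨b, hb⟩
    (by ext; simp [hβ]) n
  refine ⟨x, y, z, x.2, y.2, z.2, ?_, ?_⟩
  · have := congrArg (Subtype.val) hx
    simpa using this
  · have := congrArg (Subtype.val) hxz
    simpa using this

/-- `1 + π g` is a unit modulo `c ∣ π ^ n` inside a subalgebra. -/
theorem unit_sub (S : Subalgebra A F) (π c : A) (n : ℕ) (hc : c ∣ π ^ n) (g : F) (hg : g ∈ S) :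
    ∃ u' r : F, u' ∈ S ∧ r ∈ S ∧
      (1 + algebraMap A F π * g) * u' = 1 + algebraMap A F c * r := by
  have hc' : algebraMap A S c ∣ algebraMap A S π ^ n := by
    rw [← map_pow]; exact map_dvd _ hc
  obtain ⟨u', r, h⟩ := exists_mul_eq_one_add (R := S) (algebraMap A S π) ⟨g, hg⟩
    (algebraMap A S c) n hc'
  refine ⟨u', r, u'.2, r.2, ?_⟩
  have := congrArg (Subtype.val) h
  simpa using this

/-- Uniqueness of the `p`-th root modulo `c` inside a subalgebra. -/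
theorem rho_sub (S : Subalgebra A F) (p : ℕ) (hp : IsUnit (p : A)) (π c : A) (n : ℕ)
    (hc : c ∣ π ^ n) (X Y β' x y b' : F) (hx : x ∈ S) (hy : y ∈ S) (hb' : b' ∈ S)
    (hX : X = 1 + algebraMap A F π * x) (hY : Y = 1 + algebraMap A F π * y)
    (hβ' : β' = 1 + algebraMap A F π * b')
    (h : ∃ t ∈ S, (X ^ p - Y ^ p) * β' = algebraMap A F c * t) :
    ∃ t ∈ S, X - Y = algebraMap A F c * t := by
  have hpS : IsUnit ((p : ℕ) : S) := by
    have := hp.map (algebraMap A S)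
    simpa using this
  have hc' : algebraMap A S c ∣ algebraMap A S π ^ n := by
    rw [← map_pow]; exact map_dvd _ hc
  have h1S : (1 : F) ∈ S := S.one_mem
  have hXS : X ∈ S := by
    rw [hX]; exact S.add_mem h1S (S.mul_mem (S.algebraMap_mem π) hx)
  have hYS : Y ∈ S := by
    rw [hY]; exact S.add_mem h1S (S.mul_mem (S.algebraMap_mem π) hy)
  have hβS : β' ∈ S := by
    rw [hβ']; exact S.add_mem h1S (S.mul_mem (S.algebraMap_mem π) hb')
  obtain ⟨t, ht, htt⟩ := h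
  have key := dvd_sub_of_dvd_pow_sub_pow_mul (R := S) p hpS (algebraMap A S π) (algebraMap A S c) n
    hc' ⟨X, hXS⟩ ⟨Y, hYS⟩ ⟨β', hβS⟩ ⟨x, hx⟩ ⟨y, hy⟩ ⟨b', hb'⟩ (by ext; simp [hX])
    (by ext; simp [hY]) (by ext; simp [hβ']) ⟨⟨t, ht⟩, by ext; simpa using htt⟩
  obtain ⟨t', ht'⟩ := key
  refine ⟨t', t'.2, ?_⟩
  have := congrArg (Subtype.val) ht'
  simpa using this

/-- **Abstract Step 5.** See the module docstring. The conclusion is `False` under the
hypothesis `hred` that `a` is *not* in `π MU` (in the application: the Gauss reduction of `a`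
is `1 ≠ 0`). -/
theorem false_of_patching [IsDomain A]
    (hinj : Function.Injective (algebraMap A F))
    (BU BV BUV : Subalgebra A F) (hU : BU ≤ BUV) (hV : BV ≤ BUV)
    (MU MV MUV : Submodule A F) (hMU : MU ≤ MUV) (hMV : MV ≤ MUV)
    (hBMU : ∀ b ∈ BU, ∀ m ∈ MU, b * m ∈ MU)
    (hBMV : ∀ b ∈ BV, ∀ m ∈ MV, b * m ∈ MV)
    (hBMUV : ∀ b ∈ BUV, ∀ m ∈ MUV, b * m ∈ MUV)
    (p : ℕ) (hp : IsUnit (p : A))
    (π : A) (harch : ∀ c : A, c ≠ 0 → ∃ n : ℕ, c ∣ π ^ n)
    (w a a' : F) (ha : a ∈ MU) (ha' : a' ∈ MV)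
    (hβ : ∃ b ∈ BU, a ^ p * w = 1 + algebraMap A F π * b)
    (hβ' : ∃ b ∈ BV, a' ^ p * w = 1 + algebraMap A F π * b)
    (hs : ∃ s s₁ b b₁ : F, s₁ ∈ BUV ∧ b₁ ∈ BUV ∧ s = 1 + algebraMap A F π * s₁ ∧
      b = 1 + algebraMap A F π * b₁ ∧ s * a = b * a')
    (hinter : ∀ x, x ∈ MU → x ∈ MV → x = 0)
    (htors : ∃ c₀ : A, c₀ ≠ 0 ∧
      ∀ y ∈ MUV, ∀ c : A, c ≠ 0 → c • y ∈ MU ⊔ MV → c₀ • y ∈ MU ⊔ MV)
    (hred : ∀ m ∈ MU, a ≠ algebraMap A F π * m) : False := by
  obtain ⟨s, s₁, b, b₁, hs₁, hb₁, hs, hb, hsab⟩ := hs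
  by_cases hπ0 : π = 0
  · -- degenerate case: `a = a' ∈ MU ∩ MV = 0`
    subst hπ0
    simp only [map_zero, zero_mul, add_zero] at hs hb
    rw [hs, hb, one_mul, one_mul] at hsab
    have : a = 0 := hinter a ha (hsab ▸ ha')
    exact hred 0 MU.zero_mem (by simp [this])
  obtain ⟨c₀, hc₀, htors⟩ := htors
  obtain ⟨bU, hbU, hβU⟩ := hβ
  obtain ⟨bV, hbV, hβV⟩ := hβ'
  -- the modulus `c := c₀ π`
  have hc : c₀ * π ≠ 0 := mul_ne_zero hc₀ hπ0
  obtain ⟨n, hn⟩ := harch (c₀ * π) hc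
  obtain ⟨d, hd⟩ := hn
  set φ := algebraMap A F with hφ
  have hφc : φ π ^ (n + 1) = φ (c₀ * π) * φ (d * π) := by
    rw [← map_pow, ← map_mul, pow_succ, hd]; congr 1; ring
  -- Newton on both charts
  obtain ⟨xU, yU, zU, hxU, hyU, hzU, hxyU, hxzU⟩ := newton_sub BU p hp π (a ^ p * w) bU hbU hβU n
  obtain ⟨xV, yV, zV, hxV, hyV, hzV, hxyV, hxzV⟩ := newton_sub BV p hp π (a' ^ p * w) bV hbV hβV n
  -- the two roots agree modulo `c` on the overlap
  have hX : b * xU = 1 + φ π * (b₁ + yU + φ π * b₁ * yU) := by rw [hb, hxyU]; ring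
  have hY : s * xV = 1 + φ π * (s₁ + yV + φ π * s₁ * yV) := by rw [hs, hxyV]; ring
  have hπUV : φ π ∈ BUV := BUV.algebraMap_mem π
  have hXm : b₁ + yU + φ π * b₁ * yU ∈ BUV :=
    BUV.add_mem (BUV.add_mem hb₁ (hU hyU)) (BUV.mul_mem (BUV.mul_mem hπUV hb₁) (hU hyU))
  have hYm : s₁ + yV + φ π * s₁ * yV ∈ BUV :=
    BUV.add_mem (BUV.add_mem hs₁ (hV hyV)) (BUV.mul_mem (BUV.mul_mem hπUV hs₁) (hV hyV))
  have hsUV : s ∈ BUV := by
    rw [hs]; exact BUV.add_mem BUV.one_mem (BUV.mul_mem hπUV hs₁)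
  have hkey : ∃ t ∈ BUV, ((b * xU) ^ p - (s * xV) ^ p) * (a' ^ p * w) = φ (c₀ * π) * t := by
    refine ⟨s ^ p * (φ (d * π) * zU - φ (d * π) * zV), ?_, ?_⟩
    · exact BUV.mul_mem (BUV.pow_mem hsUV p)
        (BUV.sub_mem (BUV.mul_mem (BUV.algebraMap_mem _) (hU hzU))
          (BUV.mul_mem (BUV.algebraMap_mem _) (hV hzV)))
    · have e1 : (b * xU) ^ p * (a' ^ p * w) = s ^ p * (xU ^ p * (a ^ p * w)) := by
        have : (b * a') ^ p = (s * a) ^ p := by rw [hsab]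
        rw [mul_pow, mul_pow] at this
        rw [mul_pow]
        linear_combination (xU ^ p * w) * this
      have e2 : (s * xV) ^ p * (a' ^ p * w) = s ^ p * (xV ^ p * (a' ^ p * w)) := by
        rw [mul_pow]; ring
      rw [sub_mul, e1, e2, hxzU, hxzV, hφc]
      ring
  obtain ⟨t, ht, hXY⟩ := rho_sub BUV p hp π (c₀ * π) (n + 1) ⟨d * π, by rw [pow_succ, hd]; ring⟩
    (b * xU) (s * xV) (a' ^ p * w) _ _ bV hXm hYm (hV hbV) hX hY hβV hkey
  -- `s` is a unit modulo `c`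
  obtain ⟨s', r, hs', hr, hss'⟩ := unit_sub BUV π (c₀ * π) (n + 1)
    ⟨d * π, by rw [pow_succ, hd]; ring⟩ s₁ hs₁
  rw [← hs] at hss'
  -- the difference of the two local sections is divisible by `c` in `MUV`
  have haxU : a * xU ∈ MU := by rw [mul_comm]; exact hBMU xU hxU a ha
  have haxV : a' * xV ∈ MV := by rw [mul_comm]; exact hBMV xV hxV a' ha'
  have hz : a * xU - a' * xV ∈ MUV := MUV.sub_mem (hMU haxU) (hMV haxV)
  have hy : s' * t * a' - r * (a * xU - a' * xV) ∈ MUV :=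
    MUV.sub_mem (hBMUV _ (BUV.mul_mem hs' ht) a' (hMV ha')) (hBMUV r hr _ hz)
  have hzy : a * xU - a' * xV = φ (c₀ * π) * (s' * t * a' - r * (a * xU - a' * xV)) := by
    have e : s * (a * xU - a' * xV) = a' * (b * xU - s * xV) := by
      linear_combination xU * hsab
    linear_combination (-(a * xU - a' * xV)) * hss' + s' * e + s' * a' * hXY
  -- formal functions: `c₀ y ∈ MU + MV`
  have hcy : (c₀ * π) • (s' * t * a' - r * (a * xU - a' * xV)) ∈ MU ⊔ MV := by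
    rw [Algebra.smul_def, ← hzy]
    exact Submodule.sub_mem _ (Submodule.mem_sup_left haxU) (Submodule.mem_sup_right haxV)
  have h0 := htors _ hy (c₀ * π) hc hcy
  obtain ⟨yU', hyU', yV', hyV', hsum⟩ := Submodule.mem_sup.mp h0
  rw [Algebra.smul_def] at hsum
  -- `c₀ a xU - c yU' = c₀ a' xV + c yV' ∈ MU ∩ MV = 0`
  have hL : φ c₀ * (a * xU) - φ (c₀ * π) * yU' ∈ MU := by
    refine MU.sub_mem ?_ ?_
    · rw [← Algebra.smul_def]; exact MU.smul_mem _ haxU
    · rw [← Algebra.smul_def]; exact MU.smul_mem _ hyU'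
  have hR : φ c₀ * (a * xU) - φ (c₀ * π) * yU' ∈ MV := by
    have e : φ c₀ * (a * xU) - φ (c₀ * π) * yU' = φ c₀ * (a' * xV) + φ (c₀ * π) * yV' := by
      linear_combination φ c₀ * hzy - φ (c₀ * π) * hsum
    rw [e]
    refine MV.add_mem ?_ ?_
    · rw [← Algebra.smul_def]; exact MV.smul_mem _ haxV
    · rw [← Algebra.smul_def]; exact MV.smul_mem _ hyV'
  have hzero := hinter _ hL hR
  have hφc₀ : φ c₀ ≠ 0 := by
    intro h
    exact hc₀ (hinj (by rw [h, map_zero]))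
  have haxU' : a * xU = φ π * yU' := by
    have : φ c₀ * (a * xU - φ π * yU') = 0 := by
      rw [map_mul] at hzero
      linear_combination hzero
    rcases mul_eq_zero.mp this with h | h
    · exact absurd h hφc₀
    · linear_combination h
  refine hred (yU' - yU * a) (MU.sub_mem hyU' (hBMU yU hyU a ha)) ?_
  rw [hxyU] at haxU'
  linear_combination haxU'

end Fermat.Agent.S18.Step5Abs
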