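import Mathlib
import Fermat.Agent.S18.Setup
import Fermat.Agent.S18.KummerGeo
import Fermat.Agent.S18.CoverData
import Fermat.Agent.S18.CoverField
import Fermat.Agent.S18.CoverBase
import Fermat.Agent.S18.CoverCore
import Fermat.Agent.S18.ConstInst
import Fermat.Agent.S18.H3Cover
import Fermat.Agent.S18.H2Top
import Fermat.Agent.S18.LineGen
import Fermat.Agent.S18.LineMap
import Fermat.Agent.S18.K0Seal

/-!
# S18, route K: the number-field Kummer statement through the `X₀(3)`-cover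

The cover `g2 = (X + 27)(X + 3)³ - j X` of the `j`-line by the `h`-line of `X₀(3)` handles all
pairs of primes `p ≠ ℓ` with `ℓ ≠ 3` and `p ≠ 2` (`3` is a unit at `ℓ`, and the degree `4` of the
cover is prime to `p`).

* `false_of_cover2` : on the sealed carriers of `Setup` (`K` an abstract number field inside
  `ℚ̄`), for a monic irreducible factor `m0` of `g2` over `F_K` which stays irreducible over
  `F_L` and along which `p`-th powers descend: the core theorem
  `CoverCore.false_of_kummer_cover2` applied to `F# = F_K[X]/(m0)`, base line `K(h)`,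
  `E = F#[X]/(X^p - Y)`.
* `exists_kummerK0_cover2` : `∃ Kb, Descent.KummerK0 A N p Kb` for `ℓ ≠ 3`, `p ≠ 2`, `p ≠ ℓ`.
-/

set_option autoImplicit false
set_option linter.style.haveILetI false

noncomputable section

open Polynomial ModularCurve IntermediateField AlgebraicCurve
open Fermat.Agent.S18 Fermat.Agent.S18.CoreDefs Fermat.Agent.S18.Setup

namespace Fermat.Agent.S18.Top2

local notation "Qb" => AlgebraicClosure ℚ

section Sealed

variable (K : Type*) [Field K] [Algebra K Qb] [Algebra ℚ K] [FiniteDimensional ℚ K]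
  (N : ℕ) [NeZero N] (A : ValuationSubring Qb)

/-- **The `X₀(3)`-cover on the sealed carriers.** -/
theorem false_of_cover2 {ℓ : ℕ} (hℓ : ℓ.Prime) (hℓ3 : ℓ ≠ 3) (hℓN : ¬ ℓ ∣ N)
    (hA : A.LiesOverPrime ℓ) {p : ℕ} (hp : p.Prime) (hpl : p ≠ ℓ)
    (m0 : (FK K N)[X]) (hm0 : m0.Monic) (hirr0 : Irreducible m0)
    (hirrL : Irreducible (m0.map (ιL K N))) (hdvd : m0 ∣ CoverData.g2 (jF K N))
    (hnorm : ∀ Y : S24Export.FL N,
      (∃ s : AdjoinRoot (m0.map (ιL K N)),
        s ^ p = algebraMap (S24Export.FL N) (AdjoinRoot (m0.map (ιL K N))) Y) →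
      ∃ s : S24Export.FL N, s ^ p = Y)
    (v₁ v₂ : LaurentSeries ↥(A0.down K A))
    (h₁ : coeffMap (A0.down K A).subtype v₁ ∈ modularFunctionFieldFullC K N)
    (h₂ : coeffMap (A0.down K A).subtype v₂ ∈ modularFunctionFieldFullC K N)
    (hne : coeffMap (IsLocalRing.residue ↥(A0.down K A)) v₁ ≠ 0)
    (heq : coeffMap (IsLocalRing.residue ↥(A0.down K A)) v₁ =
      coeffMap (IsLocalRing.residue ↥(A0.down K A)) v₂)
    (hno : ∀ t : S24Export.FL N, t ^ p ≠ ιL K N (FK.mk _ h₁ / FK.mk _ h₂))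
    (hord : ∀ P : Place Qb ↥(S24Export.FL N),
      (p : ℤ) ∣ P.ord (ιL K N (FK.mk _ h₁ / FK.mk _ h₂))) : False := by
  classical
  obtain ⟨hdvr, π, hπ, hπ0, hmax, harch, hchar, hunit⟩ := exists_unif K A hℓ hA
  haveI := hdvr
  haveI : Fact (Irreducible m0) := ⟨hirr0⟩
  haveI : Fact (Irreducible (m0.map (ιL K N))) := ⟨hirrL⟩
  haveI : CharZero K := charZero_of_injective_algebraMap (algebraMap ℚ K).injective
  haveI : CharZero (AdjoinRoot m0) :=
    charZero_of_injective_algebraMap (algebraMap (FK K N) (AdjoinRoot m0)).injective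
  haveI : Algebra.IsAlgebraic K Qb := by
    have h : Algebra.IsAlgebraic ℚ Qb := AlgebraicClosure.isAlgebraic ℚ
    exact Algebra.IsAlgebraic.tower_top (K := ℚ) K
  -- the element `Y`
  set Y : FK K N := FK.mk _ h₁ / FK.mk _ h₂ with hYdef
  have hY0 : Y ≠ 0 := by
    intro h0
    refine hno 0 ?_
    rw [h0, map_zero, zero_pow hp.ne_zero]
  have hY0' : algebraMap (FK K N) (AdjoinRoot m0) Y ≠ 0 := by
    intro h0
    exact hY0 ((algebraMap (FK K N) (AdjoinRoot m0)).injective (by rw [h0, map_zero]))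
  have hcov : CoverField.coverHom (ιL K N) m0 (algebraMap (FK K N) (AdjoinRoot m0) Y) =
      algebraMap ↥(S24Export.FL N) (AdjoinRoot (m0.map (ιL K N))) (ιL K N Y) := by
    rw [AdjoinRoot.algebraMap_eq, CoverField.coverHom_of, AdjoinRoot.algebraMap_eq]
  have hYΩ : ∀ z : AdjoinRoot (m0.map (ιL K N)),
      z ^ p ≠ CoverField.coverHom (ιL K N) m0 (algebraMap (FK K N) (AdjoinRoot m0) Y) :=
    fun z hz => by
      rw [hcov] at hz
      obtain ⟨s, hs⟩ := hnorm _ ⟨z, hz⟩
      exact hno s hs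
  haveI : Fact (Irreducible (KummerGeo.kpoly p (algebraMap (FK K N) (AdjoinRoot m0) Y))) :=
    ⟨KummerGeo.irreducible_kpoly_of_map (CoverField.coverHom (ιL K N) m0) hp hYΩ⟩
  -- the relation on the cover
  have hroot : aeval (AdjoinRoot.root m0) (CoverData.g2 (jF K N)) = 0 :=
    CoverField.aeval_root_eq_zero_of_dvd m0 _ hdvd
  have hrelF : algebraMap (FK K N) (AdjoinRoot m0) (jF K N) * AdjoinRoot.root m0 =
      (AdjoinRoot.root m0 + 27) * (AdjoinRoot.root m0 + 3) ^ 3 :=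
    (CoverData.aeval_g2_eq_zero_iff _ _).mp hroot
  have hdvdL : m0.map (ιL K N) ∣ CoverData.g2 (S24Export.jL N) := by
    have h := Polynomial.map_dvd (ιL K N) hdvd
    rwa [CoverData.map_g2, ιL_jF] at h
  have hrelΩ := H3Cover.hrel2_of_dvd N (m0.map (ιL K N)) hdvdL
  have hroot0 : AdjoinRoot.root m0 ≠ 0 := by
    intro h0
    rw [h0] at hrelF
    norm_num at hrelF
  have hmem : algebraMap (FK K N) (AdjoinRoot m0) (jF K N) ∈ K⟮AdjoinRoot.root m0⟯ := by
    have h1 : algebraMap (FK K N) (AdjoinRoot m0) (jF K N) =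
        (AdjoinRoot.root m0 + 27) * (AdjoinRoot.root m0 + 3) ^ 3 / AdjoinRoot.root m0 :=
      (eq_div_iff hroot0).mpr hrelF
    rw [h1]
    have hh : AdjoinRoot.root m0 ∈ K⟮AdjoinRoot.root m0⟯ := mem_adjoin_simple_self K _
    exact div_mem
      (mul_mem (add_mem hh (ofNat_mem _ 27)) (pow_mem (add_mem hh (ofNat_mem _ 3)) 3)) hh
  have htr : Transcendental K (AdjoinRoot.root m0) :=
    CoverField.transcendental_of_mem_adjoin_simple (jF K N) (transcendental_jF K N) _ hmem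
  -- the instances of the base-line change
  letI : Algebra (Line K (jF K N)) (Line K (AdjoinRoot.root m0)) :=
    LineMap.algebraLine K (jF K N) (AdjoinRoot.root m0) hmem
  haveI : IsScalarTower (Line K (jF K N)) (Line K (AdjoinRoot.root m0)) (AdjoinRoot m0) :=
    IsScalarTower.of_algebraMap_eq (fun x => rfl)
  haveI : IsScalarTower ↥(A0.down K A) (Line K (AdjoinRoot.root m0)) (AdjoinRoot m0) :=
    H3Cover.isScalarTower_val_line N K (A0.down K A) m0
  haveI : IsScalarTower ↥(A0.down K A) (Line K (jF K N)) (Line K (AdjoinRoot.root m0)) :=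
    IsScalarTower.of_algebraMap_eq (fun a => by
      apply algebraMap_line_injective K (AdjoinRoot.root m0)
      rfl)
  haveI : FiniteDimensional (FK K N) (AdjoinRoot m0) :=
    (AdjoinRoot.powerBasis hirr0.ne_zero).finite
  haveI : FiniteDimensional (Line K (jF K N)) (AdjoinRoot m0) :=
    Module.Finite.trans (FK K N) (AdjoinRoot m0)
  -- units
  have h3u : IsUnit (3 : ↥(A0.down K A)) := by
    have h := hunit 3 (fun h3 => hℓ3 ((Nat.prime_dvd_prime_iff_eq hℓ Nat.prime_three).mp h3))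
    simpa using h
  have hpA : IsUnit (p : ↥(A0.down K A)) :=
    hunit p (fun h => hpl ((Nat.prime_dvd_prime_iff_eq hℓ hp).mp h).symm)
  have h27u : IsUnit (-27 : ↥(A0.down K A)) := by
    have h : (-27 : ↥(A0.down K A)) = -(3 ^ 3) := by norm_num
    rw [h]
    exact (h3u.pow 3).neg
  obtain ⟨c, hc⟩ := h27u.exists_left_inv
  have hcu : IsUnit c := IsUnit.of_mul_eq_one _ hc
  have h27K : ((-27 : ↥(A0.down K A)) : K) = -27 := by
    rw [NegMemClass.coe_neg]
    rfl
  have hcK : (c : K) * (-27) = 1 := by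
    have h := congrArg (Subtype.val : ↥(A0.down K A) → K) hc
    rw [MulMemClass.coe_mul, h27K] at h
    exact h
  -- the lines
  have hj : Transcendental ↥(A0.down K A) (Line.gen K (jF K N)) :=
    Line.transcendental_gen_val (jF K N) (A0.down K A) (transcendental_jF K N)
  have hgenj := LineGen.hgen_of_adjoin_eq_top (A0 := ↥(A0.down K A)) (K0 := K)
    (Line.gen K (jF K N)) (Line.adjoin_gen K (jF K N))
  have hgenh := LineGen.hgen_of_adjoin_eq_top (A0 := ↥(A0.down K A)) (K0 := K)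
    (Line.gen K (AdjoinRoot.root m0)) (Line.adjoin_gen K (AdjoinRoot.root m0))
  have hrel : algebraMap (Line K (jF K N)) (Line K (AdjoinRoot.root m0)) (Line.gen K (jF K N)) *
      Line.gen K (AdjoinRoot.root m0) =
      (Line.gen K (AdjoinRoot.root m0) + 27) * (Line.gen K (AdjoinRoot.root m0) + 3) ^ 3 := by
    apply algebraMap_line_injective K (AdjoinRoot.root m0)
    rw [map_mul, map_mul, map_pow, map_add, map_add, map_ofNat, map_ofNat]
    exact hrelF
  have hgenF : Algebra.adjoin (FK K N)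
      {algebraMap (Line K (AdjoinRoot.root m0)) (AdjoinRoot m0)
        (Line.gen K (AdjoinRoot.root m0))} = ⊤ := AdjoinRoot.adjoinRoot_eq_top
  -- (H3) on the two charts of the `h`-line
  have h3f := H3Cover.h3f_cover2_sealed N K (A0.down K A) m0 π harch htr hrelΩ
    (-27 : ↥(A0.down K A)) h27K h27u hp hY0' hYΩ (ιL K N Y) hcov hord
  have h3i := H3Cover.h3i_cover2_sealed N K (A0.down K A) m0 π harch htr hrelΩ
    c hcK hcu hp hY0' hYΩ (ιL K N Y) hcov hord
  -- (H2) and `Y ≡ 1` on the `j`-chart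
  obtain ⟨hYg, hYg'⟩ := H2Top.inPiGauss_jline K N A hℓ hℓN hA π hπ hmax v₁ v₂ h₁ h₂ hne heq
  exact CoverCore.false_of_kummer_cover2 (Line K (jF K N)) (Line K (AdjoinRoot.root m0))
    (AdjoinRoot m0)
    (AdjoinRoot (KummerGeo.kpoly p (algebraMap (FK K N) (AdjoinRoot m0) Y))) (FK K N)
    π hπ hchar h3u (Line.gen K (jF K N)) hj hgenj (Line.gen K (AdjoinRoot.root m0)) hgenh hrel
    hgenF p hp hpA Y (AdjoinRoot.root _) (KummerGeo.root_pow p _)
    (KummerGeo.algebra_adjoin_root_eq_top p _) (KummerGeo.finrank_eq p _ hp.pos) _ _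
    (H2Top.h2_jline K N A hℓ hℓN hA π hπ hmax) h3f h3i hYg hYg'
    (ConstInst.hconst_cover_sealed K N A m0 hm0 p hp _ hYΩ)

end Sealed

/-- **The number-field Kummer statement through the `X₀(3)`-cover**: for primes `p ≠ ℓ` with
`ℓ ≠ 3` and `p ≠ 2`. -/
theorem exists_kummerK0_cover2 (N : ℕ) [NeZero N] (A : ValuationSubring Qb) {ℓ : ℕ}
    (hℓ : ℓ.Prime) (hℓ3 : ℓ ≠ 3) (hℓN : ¬ ℓ ∣ N) (hA : A.LiesOverPrime ℓ) {p : ℕ}
    (hp : p.Prime) (hpl : p ≠ ℓ) (hp2 : p ≠ 2) :
    ∃ (Kb : IntermediateField ℚ Qb) (_ : FiniteDimensional ℚ Kb), Descent.KummerK0 A N p Kb := by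
  have hpg : ¬ p ∣ (CoverData.g2 (S24Export.jL N)).natDegree := by
    rw [CoverData.natDegree_g2]
    intro h4
    have h22 : p ∣ 2 ^ 2 := by simpa using h4
    exact hp2 ((Nat.prime_dvd_prime_iff_eq hp Nat.prime_two).mp (hp.dvd_of_dvd_pow h22))
  obtain ⟨Kb, hKb, g1, hirr1, hmon1, hdvd1, -, hnorm, hdesc⟩ :=
    CoverBase.exists_cover_field N (CoverData.g2 (S24Export.jL N)) (CoverData.monic_g2 _) p hp hpg
  refine ⟨Kb, hKb, K0Seal.kummerK0_of_sealed A N Kb ?_⟩
  intro K0 _ hle v₁ v₂ hv₁ hv₂ hne heq hno hord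
  have hdesc' : ∃ m0 : (FK K0 N)[X], m0.Monic ∧ Irreducible m0 ∧ m0.map (ιL K0 N) = g1 ∧
      ∀ G0 : (FK K0 N)[X], G0.map (ιL K0 N) = CoverData.g2 (S24Export.jL N) → m0 ∣ G0 :=
    hdesc K0 hle (ιL K0 N) (fun x => coe_ιL K0 N x)
  obtain ⟨m0, hm0, hirr0, hmap, hdvd0⟩ := hdesc'
  subst hmap
  have hdvd : m0 ∣ CoverData.g2 (jF K0 N) := hdvd0 _ (by rw [CoverData.map_g2, ιL_jF])
  exact false_of_cover2 K0 N A hℓ hℓ3 hℓN hA hp hpl m0 hm0 hirr0 hirr1 hdvd
    (fun Y hY => hnorm ⟨hirr1⟩ Y hY) v₁ v₂ hv₁ hv₂ hne heq hno hord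

end Fermat.Agent.S18.Top2
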