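import Mathlib
import Fermat.Agent.S18.Setup
import Fermat.Agent.S18.GaussSwap
import Fermat.Agent.S18.H3Both
import Fermat.Agent.S18.ConstBase
import Fermat.Agent.S18.LineGen
import Fermat.Agent.S18.Descent
import Fermat.Agent.S18.H2Top

/-!
# S18, route K: the number-field Kummer statement for `ℓ ≥ 5`

The integration of the core theorem `KummerCore.false_of_kummer` (in the finite-chart form
`GaussSwap.false_of_kummer_fin`) with the bridge, on the `j`-line:

* `false_of_not_pow` : abstract assembly. For a `K0`-form `F` of the function field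
  `F_L = ℚ̄(X₀(N))` (via `ι : F →+* F_L`), finite separable over the line `M = K0(t)`, `t ↦ j`,
  over a discrete valuation ring `A0` of `K0` in which `1728` and `p` are units: an element
  `Y ∈ F` with `Y ≡ 1`, `Y⁻¹ ≡ 1` modulo `π` (Gauss valuation), whose divisor over `ℚ̄` is
  divisible by `p`, is a `p`-th power in `F_L`. The hypothesis (H3) on both charts comes from
  `H3Both`, the constants from `ConstBase`, the chart at infinity from `GaussSwap`.
* `exists_pow_eq` : the concrete statement on the sealed carriers of `Setup`, for a field `K`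
  finite over `ℚ` inside `ℚ̄`; (H2) and `Y ≡ 1` from `H2Top`.
* `kummerK0` : `Descent.KummerK0 A N p ⊥` for `ℓ ≥ 5`, `p ≠ ℓ`.
-/

set_option autoImplicit false

open Polynomial AlgebraicCurve ModularCurve

namespace Fermat.Agent.S18.Top5

open Fermat.Agent.S18.CoreDefs Fermat.Agent.S18.S24Export Fermat.Agent.S18.KummerGeo
open Fermat.Agent.S18.Setup

local notation "Qb" => AlgebraicClosure ℚ

section Abstract

variable (N : ℕ) [NeZero N]
  {A0 : Type*} [CommRing A0] [IsDomain A0] [IsDiscreteValuationRing A0]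
  (K0 : Type*) [Field K0] [Algebra A0 K0] [IsFractionRing A0 K0]
  [Algebra K0 Qb] [Algebra.IsAlgebraic K0 Qb]
  (M : Type*) [Field M] [Algebra A0 M] [Algebra K0 M] [IsScalarTower A0 K0 M]
  (F : Type*) [Field F] [Algebra M F] [Algebra A0 F] [IsScalarTower A0 M F]
  [Algebra K0 F] [IsScalarTower K0 M F] [IsScalarTower A0 K0 F]
  [FiniteDimensional M F] [Algebra.IsSeparable M F]

/-- **Abstract assembly for `ℓ ≥ 5`** (base line = the `j`-line): the core theorem applied to
`E = F(Y^(1/p))`, with (H3) on both charts and the constants discharged. What is left as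
hypotheses is the arithmetic of the Gauss valuation on the finite chart: `h2f`, `hYf`, `hYf'`. -/
theorem false_of_not_pow
    (ι : F →+* FL N)
    (hι : ∀ c : K0, ι (algebraMap K0 F c) = algebraMap Qb (FL N) (algebraMap K0 Qb c))
    (hFL : ∀ x : F, (∃ c : Qb, ι x = algebraMap Qb (FL N) c) → ∃ a : K0, x = algebraMap K0 F a)
    (π : A0) (hπ : Irreducible π) (harch : ∀ a : A0, a ≠ 0 → ∃ n : ℕ, a ∣ π ^ n)
    (hchar : ∀ n : ℕ, n ≠ 0 → ∃ a : ℕ, (n : A0) ∣ π ^ a)
    (t : M) (ht : Transcendental A0 t)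
    (hgen : ∀ m : M, ∃ a b : chart A0 M t, b ≠ 0 ∧ m * (b : M) = (a : M))
    (htj : ι (algebraMap M F t) = jL N) (hu : IsUnit (1728 : A0))
    (p : ℕ) (hp : p.Prime) (hpA : IsUnit (p : A0)) (Y : F)
    (hYp : ∀ z : FL N, z ^ p ≠ ι Y) (hord : ∀ P : Place Qb (FL N), (p : ℤ) ∣ P.ord (ι Y))
    (h2f : H2Hyp A0 M F t π)
    (hYf : InPiGauss A0 M F t π (Y - 1)) (hYf' : InPiGauss A0 M F t π (Y⁻¹ - 1)) : False := by
  have hirr : Fact (Irreducible (kpoly p Y)) := ⟨irreducible_kpoly_of_map ι hp hYp⟩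
  obtain ⟨Critf, Criti, h3f, h3i⟩ :=
    H3Both.h3Hyp_jline_both N K0 M F ι hι π harch t ht htj hu hp hYp hord
  have hdeg : Module.finrank F (AdjoinRoot (kpoly p Y)) = p := KummerGeo.finrank_eq p Y hp.pos
  have hθ := KummerGeo.root_pow p Y
  exact GaussSwap.false_of_kummer_fin M F (AdjoinRoot (kpoly p Y)) π hπ hchar t ht hgen p hp hpA
    Y (AdjoinRoot.root _) hθ (KummerGeo.algebra_adjoin_root_eq_top p Y) hdeg Critf Criti h2f
    h3f h3i hYf hYf'
    (fun h hh => ConstBase.exists_algebraMap_eq_of_isIntegral_hom (K0 := K0) (L := Qb) ι hι hFL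
      p hp Y hYp (AdjoinRoot.root _) hθ hdeg h hh)

end Abstract

section Concrete

variable (K : Type*) [Field K] [Algebra K Qb] [Algebra ℚ K] [FiniteDimensional ℚ K]
  (N : ℕ) [NeZero N] (A : ValuationSubring Qb)

/-- **The Kummer statement over a number field `K ⊆ ℚ̄`, `ℓ ≥ 5`.** Two series over
`A₀ = A ∩ K` which are functions on `X₀(N)` over `K`, with equal nonzero reductions, and whose
quotient has divisor divisible by `p ≠ ℓ`: the quotient is a `p`-th power over `ℚ̄`. -/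
theorem exists_pow_eq {ℓ : ℕ} (hℓ : ℓ.Prime) (hℓN : ¬ ℓ ∣ N) (h5 : 5 ≤ ℓ)
    (hA : A.LiesOverPrime ℓ) {p : ℕ} (hp : p.Prime) (hpℓ : p ≠ ℓ)
    (v₁ v₂ : LaurentSeries (A0.down K A))
    (h₁ : coeffMap (A0.down K A).subtype v₁ ∈ modularFunctionFieldFullC K N)
    (h₂ : coeffMap (A0.down K A).subtype v₂ ∈ modularFunctionFieldFullC K N)
    (hne : coeffMap (IsLocalRing.residue (A0.down K A)) v₁ ≠ 0)
    (heq : coeffMap (IsLocalRing.residue (A0.down K A)) v₁ =
      coeffMap (IsLocalRing.residue (A0.down K A)) v₂)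
    (x₁ x₂ : modularFunctionFieldBar N)
    (hx₁ : (x₁ : LaurentSeries Qb) =
      coeffMap (algebraMap K Qb) (coeffMap (A0.down K A).subtype v₁))
    (hx₂ : (x₂ : LaurentSeries Qb) =
      coeffMap (algebraMap K Qb) (coeffMap (A0.down K A).subtype v₂))
    (hord : ∀ P : Place Qb (modularFunctionFieldBar N), (p : ℤ) ∣ P.ord (x₁ / x₂)) :
    ∃ t : modularFunctionFieldBar N, t ^ p = x₁ / x₂ := by
  by_contra hnot
  push Not at hnot
  obtain ⟨hDVR, π, hπ, hπ0, hmax, harch, hchar, hunits⟩ := Setup.exists_unif K A hℓ hA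
  have hB : (A0.down K A).LiesOverPrime ℓ := (A0.liesOverPrime_down_iff A).mpr hA
  have hcharP : CharP (IsLocalRing.ResidueField ↥(A0.down K A)) ℓ :=
    A0.charP_residueField (A0.down K A) hℓ hB
  have hu : IsUnit (1728 : ↥(A0.down K A)) := H3Both.isUnit_1728 ℓ hℓ h5
  have hpA : IsUnit ((p : ℕ) : ↥(A0.down K A)) :=
    hunits p (fun h => hpℓ ((Nat.prime_dvd_prime_iff_eq hℓ hp).mp h).symm)
  have hQ : Algebra.IsAlgebraic ℚ Qb := AlgebraicClosure.isAlgebraic ℚ
  have hKQ : Algebra.IsAlgebraic K Qb := Algebra.IsAlgebraic.tower_top (K := ℚ) K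
  have hc : CharZero K := charZero_of_injective_algebraMap (algebraMap ℚ K).injective
  -- the two functions as elements of the function field over `K`
  have hι₁ : ιL K N (FK.mk _ h₁) = x₁ := Subtype.ext (by rw [coe_ιL, FK.val_mk, hx₁])
  have hι₂ : ιL K N (FK.mk _ h₂) = x₂ := Subtype.ext (by rw [coe_ιL, FK.val_mk, hx₂])
  have hιY : ιL K N (FK.mk _ h₁ / FK.mk _ h₂) = x₁ / x₂ := by rw [map_div₀, hι₁, hι₂]
  -- the base line
  have ht : Transcendental ↥(A0.down K A) (Line.gen K (jF K N)) :=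
    Line.transcendental_gen_val (jF K N) (A0.down K A) (transcendental_jF K N)
  have hgen := LineGen.hgen_of_adjoin_eq_top (A0 := ↥(A0.down K A)) (K0 := K)
    (Line.gen K (jF K N)) (Line.adjoin_gen K (jF K N))
  have htj : ιL K N (algebraMap (Line K (jF K N)) (FK K N) (Line.gen K (jF K N))) = jL N := by
    rw [algebraMap_gen]; exact ιL_jF K N
  -- the constants
  have hFL : ∀ x : FK K N, (∃ c : Qb, ιL K N x = algebraMap Qb (FL N) c) →
      ∃ a : K, x = algebraMap K (FK K N) a := ConstBase.hFL_of_coe N (ιL K N) (coe_ιL K N)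
  -- the Gauss valuation
  have h2f := H2Top.h2_jline K N A hℓ hℓN hA π hπ hmax
  obtain ⟨hYf, hYf'⟩ := H2Top.inPiGauss_jline K N A hℓ hℓN hA π hπ hmax v₁ v₂ h₁ h₂ hne heq
  exact false_of_not_pow N K (Line K (jF K N)) (FK K N) (ιL K N) (ιL_algebraMap K N) hFL π hπ
    harch hchar (Line.gen K (jF K N)) ht hgen htj hu p hp hpA (FK.mk _ h₁ / FK.mk _ h₂)
    (fun z => by rw [hιY]; exact hnot z) (fun P => by rw [hιY]; exact hord P) h2f hYf hYf'

end Concrete

/-- **The number-field Kummer statement for `ℓ ≥ 5`.** -/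
theorem kummerK0 (N : ℕ) [NeZero N] {ℓ : ℕ} (hℓ : ℓ.Prime) (hℓN : ¬ ℓ ∣ N) (h5 : 5 ≤ ℓ)
    (A : ValuationSubring Qb) (hA : A.LiesOverPrime ℓ) {p : ℕ} (hp : p.Prime) (hpℓ : p ≠ ℓ) :
    Descent.KummerK0 A N p ⊥ := by
  intro K0 _ _ v₁ v₂ h₁ h₂ hne heq x₁ x₂ hx₁ hx₂ hord
  exact exists_pow_eq (↥K0) N A hℓ hℓN h5 hA hp hpℓ v₁ v₂ h₁ h₂ hne heq x₁ x₂ hx₁ hx₂ hord

end Fermat.Agent.S18.Top5
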