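import Mathlib
import Fermat.Agent.S18.KAdapt
import Fermat.Agent.S18.GaussSwap
import Fermat.Agent.S18.H3Both
import Fermat.Agent.S18.ConstBase
import Fermat.Agent.S18.LineGen
import Fermat.Agent.S18.KummerGeo

/-!
# S18, route K, bridge: the Kummer statement for `ℓ ≥ 5` on the sealed carriers

`kummerK0_ge5_of_h2`: `Descent.KummerK0 A N p ⊥` for a prime `p ≠ ℓ`, `ℓ ≥ 5`, from the Gauss
inputs on the finite chart of the `j`-line (`H2Hyp` for `F_K0 / K0(j)` and `Y ≡ 1` for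
`Y = y₁ / y₂`), by one call of `GaussSwap.false_of_kummer_fin` at
`M = Line K0 j`, `F = FK K0 N`, `E = F[X]/(X ^ p - Y)`.
-/

set_option autoImplicit false
set_option linter.style.haveILetI false

noncomputable section

open HahnSeries AlgebraicCurve ModularCurve Polynomial

namespace Fermat.Agent.S18.Top5S

open Fermat.Agent.S18.Setup Fermat.Agent.S18.CoreDefs Fermat.Agent.S18.KummerGeo

local notation "Qb" => AlgebraicClosure ℚ

variable (A : ValuationSubring Qb) (N : ℕ) [NeZero N]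

/-- The Gauss inputs (R4) on the sealed carriers over one number field `K0`. -/
def GaussInputs (K0 : IntermediateField ℚ Qb) : Prop :=
  ∀ π : ↥(A0.down K0 A), Irreducible π →
    IsLocalRing.maximalIdeal ↥(A0.down K0 A) = Ideal.span {π} →
    H2Hyp ↥(A0.down K0 A) (Line K0 (jF K0 N)) (FK K0 N) (Line.gen K0 (jF K0 N)) π ∧
    ∀ (v₁ v₂ : LaurentSeries (A0.down K0 A))
      (h₁ : coeffMap (A0.down K0 A).subtype v₁ ∈ modularFunctionFieldFullC K0 N)
      (h₂ : coeffMap (A0.down K0 A).subtype v₂ ∈ modularFunctionFieldFullC K0 N),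
      coeffMap (IsLocalRing.residue (A0.down K0 A)) v₁ ≠ 0 →
      coeffMap (IsLocalRing.residue (A0.down K0 A)) v₁ =
        coeffMap (IsLocalRing.residue (A0.down K0 A)) v₂ →
      InPiGauss ↥(A0.down K0 A) (Line K0 (jF K0 N)) (FK K0 N) (Line.gen K0 (jF K0 N)) π
          (FK.mk _ h₁ / FK.mk _ h₂ - 1) ∧
        InPiGauss ↥(A0.down K0 A) (Line K0 (jF K0 N)) (FK K0 N) (Line.gen K0 (jF K0 N)) π
          ((FK.mk _ h₁ / FK.mk _ h₂)⁻¹ - 1)

theorem not_dvd_1728 {ℓ : ℕ} (hℓ : ℓ.Prime) (h5 : 5 ≤ ℓ) : ¬ ℓ ∣ 1728 := by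
  intro hdvd
  have h1728 : (1728 : ℕ) = 2 ^ 6 * 3 ^ 3 := by norm_num
  rw [h1728] at hdvd
  rcases (Nat.Prime.dvd_mul hℓ).mp hdvd with h2 | h3
  · have := Nat.le_of_dvd (by norm_num) (hℓ.dvd_of_dvd_pow h2)
    omega
  · have := Nat.le_of_dvd (by norm_num) (hℓ.dvd_of_dvd_pow h3)
    omega

/-- **The Kummer statement for `ℓ ≥ 5`**, from the Gauss inputs. -/
theorem kummerK0_ge5_of_h2 {ℓ : ℕ} (hℓ : ℓ.Prime) (h5 : 5 ≤ ℓ) (hA : A.LiesOverPrime ℓ)
    {p : ℕ} (hp : p.Prime) (hpl : p ≠ ℓ)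
    (R4 : ∀ (K0 : IntermediateField ℚ Qb) [FiniteDimensional ℚ K0], GaussInputs A N K0) :
    Descent.KummerK0 A N p ⊥ := by
  refine KAdapt.kummerK0_of_false A N p ⊥ (fun K0 _ _ v₁ v₂ h₁ h₂ hne heq hY0 hord hYp => ?_)
  obtain ⟨hdvr, π, hπ, hπ0, hmax, harch, hchar, hunit⟩ := exists_unif K0 A hℓ hA
  haveI := hdvr
  obtain ⟨h2f, hYs⟩ := R4 K0 π hπ hmax
  obtain ⟨hYf, hYf'⟩ := hYs v₁ v₂ h₁ h₂ hne heq
  generalize (FK.mk _ h₁ / FK.mk _ h₂ : FK K0 N) = Y at hY0 hord hYp hYf hYf'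
  haveI : Fact (Irreducible (kpoly p Y)) := ⟨irreducible_kpoly_of_map (ιL K0 N) hp hYp⟩
  haveI : Algebra.IsAlgebraic ℚ Qb := AlgebraicClosure.isAlgebraic ℚ
  haveI : Algebra.IsAlgebraic K0 Qb := inferInstance
  have ht : Transcendental ↥(A0.down K0 A) (Line.gen K0 (jF K0 N)) :=
    Line.transcendental_gen_val (jF K0 N) (A0.down K0 A) (transcendental_jF K0 N)
  have hgen := LineGen.hgen_of_adjoin_eq_top (A0 := ↥(A0.down K0 A)) (K0 := K0)
    (Line.gen K0 (jF K0 N)) (Line.adjoin_gen K0 (jF K0 N))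
  have hpA : IsUnit ((p : ℕ) : ↥(A0.down K0 A)) :=
    hunit p (fun h => hpl ((Nat.prime_dvd_prime_iff_eq hℓ hp).mp h).symm)
  have hu : IsUnit (1728 : ↥(A0.down K0 A)) := by
    have := hunit 1728 (not_dvd_1728 hℓ h5)
    exact_mod_cast this
  have htj : ιL K0 N (algebraMap (Line K0 (jF K0 N)) (FK K0 N) (Line.gen K0 (jF K0 N))) =
      S24Export.jL N := by
    rw [algebraMap_gen]
    exact ιL_jF K0 N
  obtain ⟨Critf, Criti, h3f, h3i⟩ := H3Both.h3Hyp_jline_both N K0 (Line K0 (jF K0 N)) (FK K0 N)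
    (ιL K0 N) (ιL_algebraMap K0 N) π harch (Line.gen K0 (jF K0 N)) ht htj hu hp hYp hord
  have hFL : ∀ x : FK K0 N, (∃ c : Qb, ιL K0 N x = algebraMap Qb (S24Export.FL N) c) →
      ∃ a : K0, x = algebraMap K0 (FK K0 N) a :=
    ConstBase.hFL_of_coe N (ιL K0 N) (fun _ => rfl)
  have hconst := ConstBase.exists_algebraMap_eq_of_isIntegral_hom (A0 := ↥(A0.down K0 A))
    (K0 := K0) (L := Qb) (ιL K0 N) (ιL_algebraMap K0 N) hFL p hp Y hYp
    (AdjoinRoot.root (kpoly p Y)) (root_pow p Y) (finrank_eq p Y hp.pos)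
  exact GaussSwap.false_of_kummer_fin (Line K0 (jF K0 N)) (FK K0 N) (AdjoinRoot (kpoly p Y))
    π hπ hchar (Line.gen K0 (jF K0 N)) ht hgen p hp hpA Y (AdjoinRoot.root (kpoly p Y))
    (root_pow p Y) (algebra_adjoin_root_eq_top p Y) (finrank_eq p Y hp.pos) Critf Criti
    h2f h3f h3i hYf hYf' hconst

end Fermat.Agent.S18.Top5S
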