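import Mathlib
import Fermat.Agent.S18.Top5S
import Fermat.Agent.S18.H2Top

/-!
# S18, route K: the number-field Kummer statement for `ℓ ≥ 5`

`kummerK0_ge5`: for a prime `ℓ ≥ 5` not dividing `N`, a valuation subring `A` of `ℚ̄` over `ℓ`
and a prime `p ≠ ℓ`, the Kummer statement `Descent.KummerK0 A N p ⊥` holds
(`Top5S.kummerK0_ge5_of_h2` with the Gauss inputs `H2Top.h2_jline`, `H2Top.inPiGauss_jline`).
-/

set_option autoImplicit false

open ModularCurve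

namespace Fermat.Agent.S18.Top5Fin

local notation "Qb" => AlgebraicClosure ℚ

/-- **The Kummer statement over number fields for `ℓ ≥ 5`.** -/
theorem kummerK0_ge5 (N : ℕ) [NeZero N] {ℓ : ℕ} (hℓ : ℓ.Prime) (hℓN : ¬ ℓ ∣ N) (h5 : 5 ≤ ℓ)
    (A : ValuationSubring Qb) (hA : A.LiesOverPrime ℓ) {p : ℕ} (hp : p.Prime) (hpl : p ≠ ℓ) :
    Descent.KummerK0 A N p ⊥ :=
  Top5S.kummerK0_ge5_of_h2 A N hℓ h5 hA hp hpl (fun K0 _ π hπ hmax =>
    ⟨H2Top.h2_jline K0 N A hℓ hℓN hA π hπ hmax,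
      fun v₁ v₂ h₁ h₂ hne heq =>
        H2Top.inPiGauss_jline K0 N A hℓ hℓN hA π hπ hmax v₁ v₂ h₁ h₂ hne heq⟩)

end Fermat.Agent.S18.Top5Fin
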