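/-
S18, route K (machine M): the interface between the VALUATION FORM of (H3) and (F3).

`E` a finite extension of `K = Frac R`, `b` an `R`-basis of the integral closure of `R` in `E`,
`d = det Tr(b_i b_j)` its discriminant.

* `isUnit_discr_of_unramified` (DVR form): `S` a discrete valuation ring of residue
  characteristic zero; if every valuation ring `W` of `E` dominating `S` is unramified over
  `S` (each non-unit of `W` is a non-unit of `S` times an element of `W`), then `d` is a
  unit of `S`.
* `isDiscreteValuationRing_of_height_one`: the localization of a Noetherian integrally closed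
  domain at a height-one prime is a discrete valuation ring.
* `discr_notMem_of_unramified` / `discr_basis_notMem_of_unramified` (R form): `R` Noetherian
  integrally closed, `𝔭` a height-one prime of residue characteristic zero such that every
  valuation ring `W` of `E` with centre exactly `𝔭` on `R` has `𝔪_W = 𝔭 W`; then `d ∉ 𝔭`.
* `discr_eq_unit_mul_pow` / `discr_basis_eq_unit_mul_pow`: combined with
  `DiscUnit.eq_unit_mul_pow'`: `d = unit * τ ^ r`.

Proof of the DVR form: if `d` is not a unit the trace form is degenerate modulo the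
uniformizer `ϖ`, which gives `c ∈ O ∖ ϖ O` (`O` the integral closure) with `Tr(c O) ⊆ ϖ S`;
by tame duality (`TameDual.smul_mem_of_trace_mem`) a power of `c` lies in `ϖ O`; hence `c` is
a non-unit in every valuation ring `W ⊇ O` in which `ϖ` is a non-unit, so `c / ϖ ∈ W` by
the hypothesis; as `O` is the intersection of the valuation rings containing it,
`c / ϖ ∈ O`, a contradiction.
-/
import Mathlib
import Fermat.Agent.S18.TameDual
import Fermat.Agent.S18.DiscUnit

namespace Fermat.Agent.S18.ValDisc

open IsLocalRing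

section DVR

variable {S K E : Type*} [CommRing S] [IsDomain S] [Field K]
  [Algebra S K] [IsFractionRing S K] [Field E] [Algebra K E] [Algebra S E] [IsScalarTower S K E]
  [FiniteDimensional K E]

omit [IsDomain S] in
/-- The trace of an integral element is (the image of) an element of `S`. -/
theorem exists_trace_eq [IsIntegrallyClosed S] (x : E) (hx : IsIntegral S x) :
    ∃ s : S, algebraMap S K s = Algebra.trace K E x :=
  IsIntegrallyClosed.isIntegral_iff.mp (Algebra.isIntegral_trace hx)

/-- **Valuation-form unramifiedness gives a unit discriminant (DVR form).** -/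
theorem isUnit_discr_of_unramified [IsDiscreteValuationRing S]
    (hchar : ∀ n : ℕ, n ≠ 0 → IsUnit (n : S)) {ι : Type*}
    [Fintype ι] [DecidableEq ι] (b : ι → E) (hbint : ∀ i, IsIntegral S (b i))
    (hbli : LinearIndependent K b)
    (hbspan : ∀ x : E, IsIntegral S x → ∃ a : ι → S, x = ∑ i, a i • b i)
    (hval : ∀ W : ValuationSubring E, (∀ s : S, algebraMap S E s ∈ W) →
      (∀ s : S, ¬ IsUnit s → s ≠ 0 → (algebraMap S E s)⁻¹ ∉ W) →
      ∀ z ∈ W, z⁻¹ ∉ W → ∃ (ϖ : S) (w : E), ¬ IsUnit ϖ ∧ w ∈ W ∧ z = algebraMap S E ϖ * w)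
    (d : S) (hd : algebraMap S K d = (Algebra.traceMatrix K b).det) : IsUnit d := by
  classical
  obtain ⟨ϖ, hϖ⟩ := IsDiscreteValuationRing.exists_irreducible S
  have hmax : maximalIdeal S = Ideal.span {ϖ} := hϖ.maximalIdeal_eq
  have hϖ0 : ϖ ≠ 0 := hϖ.ne_zero
  have hinjSK : Function.Injective (algebraMap S K) := IsFractionRing.injective S K
  have hinjSE : Function.Injective (algebraMap S E) := by
    rw [IsScalarTower.algebraMap_eq S K E]
    exact (algebraMap K E).injective.comp hinjSK
  have hϖK : algebraMap S K ϖ ≠ 0 := fun h => hϖ0 (hinjSK (by simpa using h))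
  have hϖE : algebraMap S E ϖ ≠ 0 := fun h => hϖ0 (hinjSE (by simpa using h))
  have hnonunit : ∀ s : S, ¬ IsUnit s → ∃ s' : S, s = ϖ * s' := by
    intro s hs
    have : s ∈ maximalIdeal S := (mem_maximalIdeal s).mpr hs
    rw [hmax, Ideal.mem_span_singleton] at this
    exact this
  by_contra hdu
  -- the Gram matrix has entries in `S`
  have hG : ∀ i j, ∃ s : S, algebraMap S K s = Algebra.trace K E (b i * b j) := fun i j =>
    exists_trace_eq _ ((hbint i).mul (hbint j))
  choose g hg using hG
  let G : Matrix ι ι S := Matrix.of g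
  have hGdet : G.det = d := by
    apply hinjSK
    rw [hd, RingHom.map_det]
    congr 1
    ext i j
    simp [G, Algebra.traceMatrix_apply, hg, Algebra.traceForm_apply]
  -- a vector in the kernel of the Gram matrix modulo `ϖ`
  have hdet0 : (G.map (residue S)).det = 0 := by
    have h1 : (G.map (residue S)).det = residue S G.det := by
      rw [RingHom.map_det]; rfl
    rw [h1, hGdet]
    exact (residue_eq_zero_iff d).mpr ((mem_maximalIdeal d).mpr hdu)
  obtain ⟨vbar, hvbar0, hvbar⟩ := Matrix.exists_vecMul_eq_zero_iff.mpr hdet0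
  choose v hv using fun i => residue_surjective (R := S) (vbar i)
  -- the element `c`
  set c : E := ∑ i, v i • b i with hc
  have hcint : IsIntegral S c := IsIntegral.sum _ fun i _ => (hbint i).smul _
  -- traces of `c * b j` are divisible by `ϖ`
  have htr : ∀ j, ∃ s : S, Algebra.trace K E (c * b j) = algebraMap S K (ϖ * s) := by
    intro j
    have h1 : (∑ i, v i * g i j) ∈ maximalIdeal S := by
      rw [← residue_eq_zero_iff, map_sum]
      have := congrFun hvbar j
      simp only [Matrix.vecMul, dotProduct, Matrix.map_apply, Pi.zero_apply] at this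
      simpa [hv, G] using this
    rw [hmax, Ideal.mem_span_singleton] at h1
    obtain ⟨s, hs⟩ := h1
    refine ⟨s, ?_⟩
    rw [← hs, hc, Finset.sum_mul, map_sum, map_sum]
    refine Finset.sum_congr rfl fun i _ => ?_
    rw [smul_mul_assoc, ← IsScalarTower.algebraMap_smul K (v i) (b i * b j), map_smul, ← hg,
      map_mul, smul_eq_mul]
  choose t ht using htr
  have htr' : ∀ o : E, IsIntegral S o →
      ∃ s : S, Algebra.trace K E (c * o) = algebraMap S K (ϖ * s) := by
    intro o ho
    obtain ⟨a, rfl⟩ := hbspan o ho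
    refine ⟨∑ j, a j * t j, ?_⟩
    rw [Finset.mul_sum, map_sum, Finset.mul_sum, map_sum]
    refine Finset.sum_congr rfl fun j _ => ?_
    rw [mul_smul_comm, ← IsScalarTower.algebraMap_smul K (a j) (c * b j), map_smul, ht j,
      smul_eq_mul, ← map_mul]
    congr 1; ring
  -- `x := c / ϖ` lies in the trace dual
  set x : E := (algebraMap S E ϖ)⁻¹ * c with hx
  have hϖx : ϖ • x = c := by
    rw [hx, Algebra.smul_def, mul_inv_cancel_left₀ hϖE]
  have hxdual : ∀ o : E, IsIntegral S o →
      ∃ s : S, Algebra.trace K E (x * o) = algebraMap S K s := by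
    intro o ho
    obtain ⟨s, hs⟩ := htr' o ho
    refine ⟨s, ?_⟩
    have h1 : x * o = (algebraMap S K ϖ)⁻¹ • (c * o) := by
      rw [hx, Algebra.smul_def, map_inv₀, ← IsScalarTower.algebraMap_apply, mul_assoc]
    rw [h1, map_smul, hs, smul_eq_mul, map_mul, inv_mul_cancel_left₀ hϖK]
  obtain ⟨-, n, o, hoint, hon⟩ := TameDual.smul_mem_of_trace_mem hchar ϖ hϖ x hxdual
  rw [hϖx] at hon
  -- `x` is integral: valuation criterion
  have hxint : IsIntegral S x := by
    by_contra hxint
    have hxO : x ∉ (integralClosure S E).toSubring := hxint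
    have : IsIntegrallyClosedIn (integralClosure S E).toSubring E :=
      inferInstanceAs (IsIntegrallyClosedIn (integralClosure S E) E)
    obtain ⟨W, hW, hxW⟩ := Subring.exists_le_valuationSubring_of_isIntegrallyClosedIn hxO
    have hWint : ∀ y : E, IsIntegral S y → y ∈ W := fun y hy => hW hy
    have hWS : ∀ s : S, algebraMap S E s ∈ W := fun s => hWint _ isIntegral_algebraMap
    have hcW : c ∈ W := hWint c hcint
    by_cases hϖW : (algebraMap S E ϖ)⁻¹ ∈ W
    · exact hxW (W.mul_mem _ _ hϖW hcW)
    · have hc0 : c ≠ 0 := by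
        rintro h0
        apply hxW
        rw [hx, h0, mul_zero]
        exact W.zero_mem
      have hdom : ∀ s : S, ¬ IsUnit s → s ≠ 0 → (algebraMap S E s)⁻¹ ∉ W := by
        intro s hs hs0 hsW
        obtain ⟨s', rfl⟩ := hnonunit s hs
        apply hϖW
        have hs'0 : algebraMap S E s' ≠ 0 := fun h =>
          hs0 (by rw [hinjSE (by simpa using h : algebraMap S E s' = algebraMap S E 0), mul_zero])
        have : (algebraMap S E ϖ)⁻¹ = algebraMap S E s' * (algebraMap S E (ϖ * s'))⁻¹ := by
          rw [map_mul]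
          field_simp
        rw [this]
        exact W.mul_mem _ _ (hWS s') hsW
      have hcinv : c⁻¹ ∉ W := by
        intro hcW'
        apply hϖW
        have : (algebraMap S E ϖ)⁻¹ = o * (c⁻¹) ^ n := by
          have h2 : c ^ n = algebraMap S E ϖ * o := by rw [hon, Algebra.smul_def]
          rw [inv_pow, h2]
          have ho0 : o ≠ 0 := by
            rintro rfl
            rw [mul_zero] at h2
            exact pow_ne_zero n hc0 h2
          field_simp
        rw [this]
        exact W.mul_mem _ _ (hWint o hoint) (W.pow_mem hcW' n)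
      obtain ⟨ϖ', w, hϖ', hw, hcw⟩ := hval W hWS hdom c hcW hcinv
      obtain ⟨s', rfl⟩ := hnonunit ϖ' hϖ'
      apply hxW
      have : x = algebraMap S E s' * w := by
        rw [hx, hcw, map_mul, mul_assoc, inv_mul_cancel_left₀ hϖE]
      rw [this]
      exact W.mul_mem _ _ (hWS s') hw
  -- conclusion: `c ∈ ϖ • O` contradicts the choice of `v`
  obtain ⟨a, ha⟩ := hbspan x hxint
  have hsum : ∑ i, algebraMap S K (v i - ϖ * a i) • b i = 0 := by
    have h1 : c = ∑ i, (ϖ * a i) • b i := by
      rw [← hϖx, ha, Finset.smul_sum]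
      exact Finset.sum_congr rfl fun i _ => by rw [mul_smul]
    have h2 : ∑ i, (v i - ϖ * a i) • b i = 0 := by
      simp only [sub_smul, Finset.sum_sub_distrib]
      rw [← h1, hc, sub_self]
    rw [← h2]
    exact Finset.sum_congr rfl fun i _ => IsScalarTower.algebraMap_smul K _ _
  have hzero := Fintype.linearIndependent_iff.mp hbli _ hsum
  apply hvbar0
  funext i
  have h3 : v i = ϖ * a i := by
    have := hzero i
    rw [map_eq_zero_iff _ hinjSK, sub_eq_zero] at this
    exact this
  rw [← hv i, h3, Pi.zero_apply, residue_eq_zero_iff, hmax]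
  exact Ideal.mem_span_singleton.mpr (dvd_mul_right _ _)

end DVR

section Height

/-- The localization of a Noetherian integrally closed domain at a height-one prime is a
discrete valuation ring. -/
theorem isDiscreteValuationRing_of_height_one {R : Type*} [CommRing R] [IsDomain R]
    [IsNoetherianRing R] [IsIntegrallyClosed R] (𝔭 : Ideal R) [𝔭.IsPrime] (h1 : 𝔭.height = 1)
    (S : Type*) [CommRing S] [IsDomain S] [Algebra R S] [IsLocalization.AtPrime S 𝔭] :
    IsDiscreteValuationRing S := by
  have hle : 𝔭.primeCompl ≤ nonZeroDivisors R := 𝔭.primeCompl_le_nonZeroDivisors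
  have : IsLocalRing S := IsLocalization.AtPrime.isLocalRing S 𝔭
  have : IsNoetherianRing S := IsLocalization.isNoetherianRing 𝔭.primeCompl S inferInstance
  have : IsIntegrallyClosed S := isIntegrallyClosed_of_isLocalization S 𝔭.primeCompl hle
  have hinj : Function.Injective (algebraMap R S) := IsLocalization.injective S hle
  have h𝔭0 : 𝔭 ≠ ⊥ := Ideal.ne_bot_of_height_eq_one h1
  have hmap : 𝔭.map (algebraMap R S) = IsLocalRing.maximalIdeal S :=
    IsLocalization.AtPrime.map_eq_maximalIdeal 𝔭 S
  have hm0 : IsLocalRing.maximalIdeal S ≠ ⊥ := by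
    rw [← hmap, Ne, Ideal.map_eq_bot_iff_of_injective hinj]
    exact h𝔭0
  have hnf : ¬ IsField S := fun h => hm0 (IsLocalRing.isField_iff_maximalIdeal_eq.mp h)
  have htfae := (IsDiscreteValuationRing.TFAE S hnf).out 0 3
  rw [htfae]
  refine ⟨inferInstance, IsLocalRing.maximalIdeal S, ⟨hm0, inferInstance⟩, ?_⟩
  rintro P ⟨hP0, hPprime⟩
  have hq : (P.under R).IsPrime := Ideal.comap_isPrime _ _
  have hqP : (P.under R).map (algebraMap R S) = P :=
    IsLocalization.map_under 𝔭.primeCompl S P
  have hqle : P.under R ≤ 𝔭 := by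
    have : P ≤ IsLocalRing.maximalIdeal S := IsLocalRing.le_maximalIdeal hPprime.ne_top
    calc P.under R ≤ (IsLocalRing.maximalIdeal S).under R :=
          Ideal.comap_mono this
      _ = 𝔭 := IsLocalization.AtPrime.under_maximalIdeal S 𝔭
  have hq0 : P.under R ≠ ⊥ := by
    intro h
    apply hP0
    rw [← hqP, h, Ideal.map_bot]
  have hqeq : P.under R = 𝔭 := by
    by_contra hne
    have hlt : P.under R < 𝔭 := lt_of_le_of_ne hqle hne
    have := Ideal.height_strict_mono_of_isPrime_of_isPrime hlt
    rw [h1] at this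
    have h0 : (P.under R).height = 0 := Order.lt_one_iff.mp this
    exact hq0 (Ideal.height_eq_zero_iff_eq_bot.mp h0)
  rw [← hqP, hqeq, hmap]

/-- **Valuation-form unramifiedness at a height-one prime gives `disc ∉ 𝔭`.**
`R` a Noetherian integrally closed domain, `E` a finite extension of `Frac R`, `b` an
`R`-basis of the integral closure of `R` in `E` (given as a family of elements of `E`),
`𝔭` a height-one prime of residue characteristic zero such that every valuation ring `W` of
`E` with centre exactly `𝔭` on `R` satisfies `𝔪_W = 𝔭 W`.  Then the discriminant of `b` is not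
in `𝔭`.  (This is the hypothesis `h` of `DiscUnit.eq_unit_mul_pow'`.) -/
theorem discr_notMem_of_unramified {R K E : Type*} [CommRing R] [IsDomain R] [IsNoetherianRing R]
    [IsIntegrallyClosed R] [Field K] [Algebra R K] [IsFractionRing R K] [Field E] [Algebra K E]
    [Algebra R E] [IsScalarTower R K E] [FiniteDimensional K E] (𝔭 : Ideal R) [𝔭.IsPrime]
    (h1 : 𝔭.height = 1) (hchar : ∀ n : ℕ, n ≠ 0 → (n : R) ∉ 𝔭) {ι : Type*} [Fintype ι]
    [DecidableEq ι] (b : ι → E) (hbint : ∀ i, IsIntegral R (b i)) (hbli : LinearIndependent K b)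
    (hbspan : ∀ x : E, IsIntegral R x → ∃ a : ι → R, x = ∑ i, a i • b i)
    (hval : ∀ W : ValuationSubring E, (∀ r : R, algebraMap R E r ∈ W) →
      (∀ r : R, r ∉ 𝔭 → (algebraMap R E r)⁻¹ ∈ W) →
      (∀ r ∈ 𝔭, r ≠ 0 → (algebraMap R E r)⁻¹ ∉ W) →
      ∀ z ∈ W, z⁻¹ ∉ W → ∃ r ∈ 𝔭, ∃ w ∈ W, z = algebraMap R E r * w)
    (d : R) (hd : algebraMap R K d = (Algebra.traceMatrix K b).det) : d ∉ 𝔭 := by
  classical
  have hle : 𝔭.primeCompl ≤ nonZeroDivisors R := 𝔭.primeCompl_le_nonZeroDivisors
  have hinjRK : Function.Injective (algebraMap R K) := IsFractionRing.injective R K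
  have hinjRE : Function.Injective (algebraMap R E) := by
    rw [IsScalarTower.algebraMap_eq R K E]
    exact (algebraMap K E).injective.comp hinjRK
  let S := Localization.AtPrime 𝔭
  have : IsDomain S := IsLocalization.isDomain_of_atPrime S 𝔭
  have : IsDiscreteValuationRing S := isDiscreteValuationRing_of_height_one 𝔭 h1 S
  have hunitK : ∀ y : 𝔭.primeCompl, IsUnit (algebraMap R K y) := fun y =>
    IsUnit.mk0 _ (fun h => y.2 (by
      rw [hinjRK (by simpa using h : algebraMap R K (y : R) = algebraMap R K 0)]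
      exact 𝔭.zero_mem))
  let φ : S →+* K := IsLocalization.lift hunitK
  let _ : Algebra S K := φ.toAlgebra
  have hφ : ∀ r : R, algebraMap S K (algebraMap R S r) = algebraMap R K r := fun r =>
    IsLocalization.lift_eq hunitK r
  have : IsScalarTower R S K := IsScalarTower.of_algebraMap_eq fun r => (hφ r).symm
  have : IsFractionRing S K :=
    IsFractionRing.isFractionRing_of_isDomain_of_isLocalization 𝔭.primeCompl S K
  let _ : Algebra S E := ((algebraMap K E).comp (algebraMap S K)).toAlgebra
  have : IsScalarTower S K E := IsScalarTower.of_algebraMap_eq fun _ => rfl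
  have hSE : ∀ r : R, algebraMap S E (algebraMap R S r) = algebraMap R E r := fun r => by
    rw [IsScalarTower.algebraMap_apply S K E, hφ, ← IsScalarTower.algebraMap_apply]
  have : IsScalarTower R S E := IsScalarTower.of_algebraMap_eq fun r => (hSE r).symm
  have hSmax : ∀ r : R, ¬ IsUnit (algebraMap R S r) ↔ r ∈ 𝔭 := fun r => by
    rw [IsLocalization.AtPrime.isUnit_to_map_iff S 𝔭 r]
    exact not_not
  rw [← hSmax d, not_not]
  refine isUnit_discr_of_unramified (S := S) (K := K) (E := E) ?_ b
    (fun i => (hbint i).tower_top) hbli ?_ ?_ (algebraMap R S d) (by rw [hφ, hd])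
  · intro n hn
    have : (n : S) = algebraMap R S (n : R) := (map_natCast _ n).symm
    rw [this, IsLocalization.AtPrime.isUnit_to_map_iff S 𝔭]
    exact hchar n hn
  · intro x hx
    obtain ⟨m, hm⟩ := hx.exists_multiple_integral_of_isLocalization 𝔭.primeCompl x
    obtain ⟨a, ha⟩ := hbspan _ hm
    refine ⟨fun i => IsLocalization.mk' S (a i) m, ?_⟩
    have hmE : algebraMap R E (m : R) ≠ 0 := fun h => m.2 (by
      rw [hinjRE (by simpa using h : algebraMap R E (m : R) = algebraMap R E 0)]
      exact 𝔭.zero_mem)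
    have hterm : ∀ i, algebraMap R E (m : R) * (IsLocalization.mk' S (a i) m • b i) =
        a i • b i := by
      intro i
      rw [Algebra.smul_def, ← mul_assoc, ← hSE, ← map_mul, IsLocalization.mk'_spec', hSE,
        ← Algebra.smul_def]
    apply mul_left_cancel₀ hmE
    rw [Finset.mul_sum]
    simp only [hterm]
    rw [← ha, Submonoid.smul_def, Algebra.smul_def]
  · intro W hWS hdom z hz hzinv
    have hWR : ∀ r : R, algebraMap R E r ∈ W := fun r => hSE r ▸ hWS _
    have hW1 : ∀ r : R, r ∉ 𝔭 → (algebraMap R E r)⁻¹ ∈ W := by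
      intro r hr
      have hu : IsUnit (algebraMap R S r) := (IsLocalization.AtPrime.isUnit_to_map_iff S 𝔭 r).mpr hr
      obtain ⟨u, hu'⟩ := hu
      have : (algebraMap R E r)⁻¹ = algebraMap S E (↑u⁻¹ : S) :=
        inv_eq_of_mul_eq_one_right (by rw [← hSE, ← hu', ← map_mul, Units.mul_inv, map_one])
      rw [this]
      exact hWS _
    have hW2 : ∀ r ∈ 𝔭, r ≠ 0 → (algebraMap R E r)⁻¹ ∉ W := by
      intro r hr hr0
      rw [← hSE]
      exact hdom _ ((hSmax r).mpr hr) (fun h => hr0 (by
        have hinjRS : Function.Injective (algebraMap R S) := IsLocalization.injective S hle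
        exact hinjRS (by simpa using h)))
    obtain ⟨r, hr, w, hw, hzw⟩ := hval W hWR hW1 hW2 z hz hzinv
    exact ⟨algebraMap R S r, w, (hSmax r).mpr hr, hw, by rw [hSE]; exact hzw⟩

end Height

section Basis

variable {R K E : Type*} [CommRing R] [IsDomain R] [IsNoetherianRing R]
  [IsIntegrallyClosed R] [Field K] [Algebra R K] [IsFractionRing R K] [Field E] [Algebra K E]
  [Algebra R E] [IsScalarTower R K E] [FiniteDimensional K E]

omit [IsDomain R] [IsNoetherianRing R] [IsIntegrallyClosed R] [FiniteDimensional K E] in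
/-- A basis of the integral closure is linearly independent over the fraction field. -/
theorem linearIndependent_coe_basis {ι : Type*} (B : Module.Basis ι R (integralClosure R E)) :
    LinearIndependent K (fun i => (B i : E)) := by
  have h0 : LinearIndependent R (fun i => (B i : E)) :=
    B.linearIndependent.map' (integralClosure R E).val.toLinearMap
      (LinearMap.ker_eq_bot.mpr Subtype.val_injective)
  exact h0.localization K (nonZeroDivisors R)

omit [IsNoetherianRing R] [IsIntegrallyClosed R] in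
/-- The discriminant of a basis of the integral closure, computed in the fraction field. -/
theorem algebraMap_discr_basis {ι : Type*} [Fintype ι] [DecidableEq ι]
    (B : Module.Basis ι R (integralClosure R E)) :
    algebraMap R K (Algebra.discr R B) = (Algebra.traceMatrix K (fun i => (B i : E))).det := by
  have : Module.Free R (integralClosure R E) := Module.Free.of_basis B
  have : Module.Finite R (integralClosure R E) := Module.Finite.of_basis B
  have hloc : IsLocalization (Algebra.algebraMapSubmonoid (integralClosure R E)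
      (nonZeroDivisors R)) E := IsIntegralClosure.isLocalization R K E (integralClosure R E)
  rw [Algebra.discr_def, RingHom.map_det]
  congr 1
  ext i j
  rw [RingHom.mapMatrix_apply, Matrix.map_apply, Algebra.traceMatrix_apply,
    Algebra.traceMatrix_apply, Algebra.traceForm_apply, Algebra.traceForm_apply,
    ← Algebra.trace_localization R (nonZeroDivisors R) (Rₘ := K) (Sₘ := E)]
  rfl

variable (K) in
include K in
/-- `discr_notMem_of_unramified` for a basis of the integral closure, with `Algebra.discr`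
(`K` is the fraction field of `R`, an explicit argument). -/
theorem discr_basis_notMem_of_unramified (𝔭 : Ideal R) [𝔭.IsPrime]
    (h1 : 𝔭.height = 1) (hchar : ∀ n : ℕ, n ≠ 0 → (n : R) ∉ 𝔭) {ι : Type*} [Fintype ι]
    [DecidableEq ι] (B : Module.Basis ι R (integralClosure R E))
    (hval : ∀ W : ValuationSubring E, (∀ r : R, algebraMap R E r ∈ W) →
      (∀ r : R, r ∉ 𝔭 → (algebraMap R E r)⁻¹ ∈ W) →
      (∀ r ∈ 𝔭, r ≠ 0 → (algebraMap R E r)⁻¹ ∉ W) →
      ∀ z ∈ W, z⁻¹ ∉ W → ∃ r ∈ 𝔭, ∃ w ∈ W, z = algebraMap R E r * w) :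
    Algebra.discr R B ∉ 𝔭 := by
  refine discr_notMem_of_unramified (K := K) 𝔭 h1 hchar (fun i => (B i : E)) (fun i => (B i).2)
    (linearIndependent_coe_basis B) ?_ hval _ (algebraMap_discr_basis B)
  intro x hx
  have hx' : x ∈ integralClosure R E := hx
  refine ⟨fun i => B.repr ⟨x, hx'⟩ i, ?_⟩
  have h : ((∑ i, B.repr ⟨x, hx'⟩ i • B i : integralClosure R E) : E) = x :=
    congrArg (Subtype.val) (B.sum_repr ⟨x, hx'⟩)
  have hcoe : ∀ c : ι → R, ((∑ i, c i • B i : integralClosure R E) : E) =
      ∑ i, c i • (B i : E) := by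
    intro c
    simp
  exact h.symm.trans (hcoe _)

end Basis

section Combined

variable {R K E : Type*} [CommRing R] [IsDomain R] [IsNoetherianRing R]
  [IsIntegrallyClosed R] [Field K] [Algebra R K] [IsFractionRing R K] [Field E] [Algebra K E]
  [Algebra R E] [IsScalarTower R K E] [FiniteDimensional K E]

omit [IsDomain R] [IsNoetherianRing R] [IsIntegrallyClosed R] in
/-- If every nonzero natural number is a unit times a power of `π`, then a prime not
containing `π` has residue characteristic zero. -/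
theorem natCast_notMem_of_unit_mul_pow (π : R)
    (hnat : ∀ n : ℕ, n ≠ 0 → ∃ (k : ℕ) (u : R), IsUnit u ∧ (n : R) = u * π ^ k)
    (𝔭 : Ideal R) [h𝔭 : 𝔭.IsPrime] (hπ : π ∉ 𝔭) (n : ℕ) (hn : n ≠ 0) : (n : R) ∉ 𝔭 := by
  obtain ⟨k, u, hu, hnk⟩ := hnat n hn
  rw [hnk]
  intro h
  rcases h𝔭.mem_or_mem h with h | h
  · exact h𝔭.ne_top (Ideal.eq_top_of_isUnit_mem _ h hu)
  · exact hπ (h𝔭.mem_of_pow_mem k h)

/-- **(F3) from the valuation form of (H3), family form.**  `π`, `τ` prime elements of the
Noetherian integrally closed domain `R`, every natural number a unit times a power of `π`,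
`b` an `R`-basis (as a family in `E`) of the integral closure of `R` in `E` with discriminant
`d` prime to `π`, and every height-one prime `𝔭 ∌ π, τ` unramified in the valuation form.
Then `d` is a unit times a power of `τ`. -/
theorem discr_eq_unit_mul_pow (π τ : R) (hπ : Prime π) (hτ : Prime τ)
    (hnat : ∀ n : ℕ, n ≠ 0 → ∃ (k : ℕ) (u : R), IsUnit u ∧ (n : R) = u * π ^ k)
    {ι : Type*} [Fintype ι] [DecidableEq ι] (b : ι → E) (hbint : ∀ i, IsIntegral R (b i))
    (hbli : LinearIndependent K b)
    (hbspan : ∀ x : E, IsIntegral R x → ∃ a : ι → R, x = ∑ i, a i • b i)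
    (hval : ∀ 𝔭 : Ideal R, 𝔭.IsPrime → 𝔭.height = 1 → π ∉ 𝔭 → τ ∉ 𝔭 →
      ∀ W : ValuationSubring E, (∀ r : R, algebraMap R E r ∈ W) →
      (∀ r : R, r ∉ 𝔭 → (algebraMap R E r)⁻¹ ∈ W) →
      (∀ r ∈ 𝔭, r ≠ 0 → (algebraMap R E r)⁻¹ ∉ W) →
      ∀ z ∈ W, z⁻¹ ∉ W → ∃ r ∈ 𝔭, ∃ w ∈ W, z = algebraMap R E r * w)
    (d : R) (hd : algebraMap R K d = (Algebra.traceMatrix K b).det) (hπd : ¬ π ∣ d) :
    ∃ (r : ℕ) (u : R), IsUnit u ∧ d = u * τ ^ r :=
  DiscUnit.eq_unit_mul_pow' π τ d hπ hτ (fun h => hπd (h ▸ dvd_zero π)) hπd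
    fun 𝔭 hp h1 hπ𝔭 hτ𝔭 =>
      haveI := hp
      discr_notMem_of_unramified 𝔭 h1 (natCast_notMem_of_unit_mul_pow π hnat 𝔭 hπ𝔭) b hbint hbli
        hbspan (hval 𝔭 hp h1 hπ𝔭 hτ𝔭) d hd

variable (K) in
include K in
/-- **(F3) from the valuation form of (H3), basis form** (`K = Frac R` explicit). -/
theorem discr_basis_eq_unit_mul_pow (π τ : R) (hπ : Prime π) (hτ : Prime τ)
    (hnat : ∀ n : ℕ, n ≠ 0 → ∃ (k : ℕ) (u : R), IsUnit u ∧ (n : R) = u * π ^ k)
    {ι : Type*} [Fintype ι] [DecidableEq ι] (B : Module.Basis ι R (integralClosure R E))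
    (hval : ∀ 𝔭 : Ideal R, 𝔭.IsPrime → 𝔭.height = 1 → π ∉ 𝔭 → τ ∉ 𝔭 →
      ∀ W : ValuationSubring E, (∀ r : R, algebraMap R E r ∈ W) →
      (∀ r : R, r ∉ 𝔭 → (algebraMap R E r)⁻¹ ∈ W) →
      (∀ r ∈ 𝔭, r ≠ 0 → (algebraMap R E r)⁻¹ ∉ W) →
      ∀ z ∈ W, z⁻¹ ∉ W → ∃ r ∈ 𝔭, ∃ w ∈ W, z = algebraMap R E r * w)
    (hπd : ¬ π ∣ Algebra.discr R B) :
    ∃ (r : ℕ) (u : R), IsUnit u ∧ Algebra.discr R B = u * τ ^ r :=
  DiscUnit.eq_unit_mul_pow' π τ _ hπ hτ (fun h => hπd (h ▸ dvd_zero π)) hπd
    fun 𝔭 hp h1 hπ𝔭 hτ𝔭 =>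
      haveI := hp
      discr_basis_notMem_of_unramified K 𝔭 h1 (natCast_notMem_of_unit_mul_pow π hnat 𝔭 hπ𝔭) B
        (hval 𝔭 hp h1 hπ𝔭 hτ𝔭)

end Combined

end Fermat.Agent.S18.ValDisc
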